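import Fermat.Agent.CFT.Global.SUnitsDivisible

/-!
# Kummer extensions inside `ℚ_S` (input for the `p`-capitulation of `S`-ideal classes)

If `a ∈ ℚ_S` is, at every valuation subring `A` of `Qb` over a prime `q ∉ S`, a `p^k`-th power
up to a unit (in the form `A.valuation a = A.valuation q ^ (p^k * n)`), then every `p^k`-th root
of `a` lies in `ℚ_S` (`p ∈ S`).  Hence if `𝔞^{p^k} = (a) · (S-part)` in a level `K`, the ideal `𝔞`
becomes principal up to `S` in the level `K(a^{1/p^k}) ⊆ ℚ_S`.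
-/

set_option autoImplicit false

open scoped Pointwise IntermediateField

namespace Fermat.Agent.CFT

local notation "Qb" => AlgebraicClosure ℚ
local notation "GQ" => (AlgebraicClosure ℚ ≃ₐ[ℚ] AlgebraicClosure ℚ)

/-- Iterated form of `inertia_fixes_root_of_unit`. -/
lemma inertia_fixes_root_pow_of_unit {p : ℕ} (hp : p.Prime) {q : ℕ} (hq : q.Prime) (hqp : q ≠ p)
    (A : ValuationSubring Qb) (hA : A.LiesOverPrime q) {σ : GQ}
    (hσ : σ ∈ A.inertiaSubgroupIn ℚ) (k : ℕ) {u : Qb} (hfix : σ (u ^ p ^ k) = u ^ p ^ k)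
    (hval : A.valuation (u ^ p ^ k) = 1) : σ u = u := by
  induction k generalizing u with
  | zero => simpa using hfix
  | succ k ih =>
    have e : u ^ p ^ (k + 1) = (u ^ p) ^ p ^ k := by rw [← pow_mul, ← pow_succ']
    rw [e] at hfix hval
    have h1 : σ (u ^ p) = u ^ p := ih hfix hval
    have h2 : A.valuation (u ^ p) = 1 := by
      apply valuation_eq_one_of_pow_eq_one A (pow_ne_zero k hp.ne_zero)
      rw [← map_pow, hval]
    exact inertia_fixes_root_of_unit hp hq hqp A hA hσ h1 h2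

variable {S : Finset Nat.Primes}

/-- **Kummer criterion**: a `p^k`-th root of an element of `ℚ_S` whose valuations at the primes
outside `S` are divisible by `p^k` lies in `ℚ_S`. -/
theorem mem_QS_of_pow_pow_mem {p : ℕ} (hp : p.Prime)
    (hpS : ∀ q : Nat.Primes, q ∉ S → (q : ℕ) ≠ p) (k : ℕ) {y : Qb}
    (ha : y ^ p ^ k ∈ QS S)
    (hval : ∀ q : Nat.Primes, q ∉ S → ∀ A : ValuationSubring Qb, A.LiesOverPrime (q : ℕ) →
      ∃ n : ℤ, A.valuation (y ^ p ^ k) = A.valuation ((q : ℕ) : Qb) ^ ((p ^ k : ℕ) * n)) :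
    y ∈ QS S := by
  refine mem_QS_iff'.2 fun q hq A hA σ hσ => ?_
  obtain ⟨n, hn⟩ := hval q hq A hA
  have hq0 : ((q : ℕ) : Qb) ≠ 0 := by
    have := q.2.ne_zero
    exact_mod_cast this
  set u : Qb := y / ((q : ℕ) : Qb) ^ n with hu
  have hupow : u ^ p ^ k = y ^ p ^ k / (((q : ℕ) : Qb) ^ n) ^ p ^ k := by
    rw [hu, div_pow]
  have hσq : σ (((q : ℕ) : Qb) ^ n) = ((q : ℕ) : Qb) ^ n := by
    rw [map_zpow₀, map_natCast]
  have hfix : σ (u ^ p ^ k) = u ^ p ^ k := by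
    rw [hupow, map_div₀, map_pow, map_pow, hσq, ← map_pow,
      mem_QS_iff'.1 ha q hq A hA σ hσ]
  have hv : A.valuation (u ^ p ^ k) = 1 := by
    rw [hupow, map_div₀, hn, map_pow, map_zpow₀, ← zpow_natCast, ← zpow_mul, mul_comm n]
    have hne : A.valuation ((q : ℕ) : Qb) ^ (((p ^ k : ℕ) : ℤ) * n) ≠ 0 :=
      zpow_ne_zero _ ((Valuation.ne_zero_iff _).2 hq0)
    exact div_self hne
  have hσu : σ u = u :=
    inertia_fixes_root_pow_of_unit hp q.2 (hpS q hq) A hA hσ k hfix hv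
  have hy : y = u * ((q : ℕ) : Qb) ^ n := by
    rw [hu, div_mul_cancel₀ _ (zpow_ne_zero n hq0)]
  rw [hy, map_mul, hσu, hσq]

/-- The Kummer level: under the hypotheses of `mem_QS_of_pow_pow_mem`, for a level `K`
(finite over `ℚ`, unramified outside `S`), the field `K(y)` is again a level. -/
theorem isUnramifiedOutside_adjoin_root {p : ℕ} (hp : p.Prime)
    (hpS : ∀ q : Nat.Primes, q ∉ S → (q : ℕ) ≠ p) (k : ℕ) {K : IntermediateField ℚ Qb}
    (hK : K.IsUnramifiedOutside S) {y : Qb} (ha : y ^ p ^ k ∈ K)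
    (hval : ∀ q : Nat.Primes, q ∉ S → ∀ A : ValuationSubring Qb, A.LiesOverPrime (q : ℕ) →
      ∃ n : ℤ, A.valuation (y ^ p ^ k) = A.valuation ((q : ℕ) : Qb) ^ ((p ^ k : ℕ) * n)) :
    (K ⊔ ℚ⟮y⟯ : IntermediateField ℚ Qb).IsUnramifiedOutside S :=
  hK.sup (mem_QS_iff_adjoin.1
    (mem_QS_of_pow_pow_mem hp hpS k (le_QS_of_isUnramifiedOutside hK ha) hval))

end Fermat.Agent.CFT
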