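import Fermat.Agent.CFT.Global.ValESBridge
import Fermat.Agent.CFT.Global.KummerCapitulation
import Fermat.Agent.S13.InertiaConj

/-!
# Places of `ℚ̄` over `q` are the embeddings into `ℚ̄_q`; the generalized Kummer criterion

* `smul_embPlace`, `exists_embPlace_eq`: every valuation subring of `Qb` over `q` is `embPlace τ`
  for an embedding `τ : Qb → ℚ̄_q` (conjugacy of the places over `q`);
* `mem_QS_of_pow_pow_mem_of_exists_unit`: a `p^k`-th root `y` of an element of `ℚ_S` such that at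
  every place outside `S` the value of `y ^ p^k` is the `p^k`-th power of a value of `ℚ_S`, lies in
  `ℚ_S` (`p ∈ S`); `mem_QS_of_pow_pow_mem_of_norm_emb`: the same in the embedding model.
-/

set_option autoImplicit false
set_option linter.style.haveILetI false

open scoped Pointwise

namespace Fermat.Agent.CFT

local notation "Qb" => AlgebraicClosure ℚ
local notation "GQ" => (AlgebraicClosure ℚ ≃ₐ[ℚ] AlgebraicClosure ℚ)

section Conj

variable {q : ℕ} [Fact q.Prime]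

theorem smul_embPlace (g : GQ) (τ : LocalEmb q Qb) :
    g • embPlace τ = embPlace (τ.comp ((g.symm : Qb ≃+* Qb) : Qb →+* Qb)) := by
  ext x
  rw [ValuationSubring.mem_pointwise_smul_iff_inv_smul_mem, mem_embPlace, mem_embPlace]
  rfl

/-- Every valuation subring of `ℚ̄` over `q` comes from an embedding `ℚ̄ → ℚ̄_q`. -/
theorem exists_embPlace_eq (A : ValuationSubring Qb) (hA : A.LiesOverPrime q) :
    ∃ τ : LocalEmb q Qb, A = embPlace τ := by
  haveI : IsGalois ℚ Qb := Fermat.Agent.S54.FrobExists.isGalois_rat_algebraicClosure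
  obtain ⟨τ₀⟩ : Nonempty (LocalEmb q Qb) :=
    ⟨((IsAlgClosed.lift (R := ℚ) (S := Qb) (M := PadicAlgCl q) : Qb →ₐ[ℚ] PadicAlgCl q) :
      Qb →+* PadicAlgCl q)⟩
  obtain ⟨σ, hσ⟩ := Fermat.Agent.S13.exists_smul_valuationSubring_eq (embPlace τ₀) A
    (Fact.out : q.Prime) (embPlace_liesOverPrime τ₀) hA
  exact ⟨_, by rw [← hσ, smul_embPlace]⟩

end Conj

section Kummer

variable {S : Finset Nat.Primes}

/-- **Generalized Kummer criterion** (valuation-subring model). -/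
theorem mem_QS_of_pow_pow_mem_of_exists_unit {p : ℕ} (hp : p.Prime)
    (hpS : ∀ q : Nat.Primes, q ∉ S → (q : ℕ) ≠ p) (k : ℕ) {y : Qb}
    (ha : y ^ p ^ k ∈ QS S)
    (hval : ∀ q : Nat.Primes, q ∉ S → ∀ A : ValuationSubring Qb, A.LiesOverPrime (q : ℕ) →
      ∃ c ∈ QS S, c ≠ 0 ∧ A.valuation (y ^ p ^ k / c ^ p ^ k) = 1) :
    y ∈ QS S := by
  refine mem_QS_iff'.2 fun q hq A hA σ hσ => ?_
  obtain ⟨c, hc, hc0, hv⟩ := hval q hq A hA
  have hσc : σ c = c := mem_QS_iff'.1 hc q hq A hA σ hσ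
  set u : Qb := y / c with hu
  have hupow : u ^ p ^ k = y ^ p ^ k / c ^ p ^ k := by rw [hu, div_pow]
  have hfix : σ (u ^ p ^ k) = u ^ p ^ k := by
    rw [hupow, map_div₀, map_pow σ c, hσc, mem_QS_iff'.1 ha q hq A hA σ hσ]
  have hv' : A.valuation (u ^ p ^ k) = 1 := by rw [hupow]; exact hv
  have hσu : σ u = u :=
    inertia_fixes_root_pow_of_unit hp q.2 (hpS q hq) A hA hσ k hfix hv'
  have hy : y = u * c := by rw [hu, div_mul_cancel₀ _ hc0]
  rw [hy, map_mul, hσu, hσc]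

/-- **Generalized Kummer criterion** (embedding model). -/
theorem mem_QS_of_pow_pow_mem_of_norm_emb {p : ℕ} (hp : p.Prime)
    (hpS : ∀ q : Nat.Primes, q ∉ S → (q : ℕ) ≠ p) (k : ℕ) {y : Qb}
    (ha : y ^ p ^ k ∈ QS S)
    (hval : ∀ q : Nat.Primes, q ∉ S → ∀ τ : LocalEmb (q : ℕ) Qb,
      ∃ c ∈ QS S, ‖τ y‖ = ‖τ c‖) :
    y ∈ QS S := by
  rcases eq_or_ne y 0 with rfl | hy0
  · exact zero_mem _
  refine mem_QS_of_pow_pow_mem_of_exists_unit hp hpS k ha fun q hq A hA => ?_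
  obtain ⟨τ, rfl⟩ := exists_embPlace_eq A hA
  obtain ⟨c, hc, hnorm⟩ := hval q hq τ
  have hc0 : c ≠ 0 := by
    rintro rfl
    rw [map_zero, norm_zero, norm_eq_zero] at hnorm
    exact hy0 ((map_eq_zero τ).1 hnorm)
  refine ⟨c, hc, hc0, (embPlace_valuation_eq_one_iff τ _).2 ?_⟩
  have h0 : ‖τ c‖ ≠ 0 := norm_ne_zero_iff.2 ((map_ne_zero τ).2 hc0)
  rw [map_div₀, map_pow, map_pow, norm_div, norm_pow, norm_pow, hnorm]
  exact div_self (pow_ne_zero _ h0)

end Kummer

end Fermat.Agent.CFT
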