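import Mathlib
import Fermat.Agent.CFT.Herbrand

/-!
# Layer C, node C1b (abstract tool): cohomology of restricted products

`G` a finite group, `(A i)_i` a family of commutative groups with `G`-action, `U i ≤ A i`
`G`-stable subgroups, `J` "the" restricted product of the `A i` with respect to the `U i`
(axiomatised by the structure `RestrictedProd`: projections, extensionality, gluing).

In explicit multiplicative cocycle language (Mathlib's `IsMulCocycle₁`, `IsMulCocycle₂`, ...):

* `RestrictedProd.h1TrivialOn_top`: `H¹(G, J) = 0` if `H¹(G, A i) = 0` for all `i` and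
  `H¹(G, U i) = 0` for almost all `i`;
* `RestrictedProd.isMulCoboundary₂_iff`: a 2-cocycle of `J` is a coboundary iff all its components
  are, provided `H²(G, U i) = 0` for almost all `i` (injectivity of `H²(G,J) → ∏ H²(G, A i)`);
* `RestrictedProd.eventually_isMulCoboundary₂` / `exists_cocycle₂`: the image consists exactly of
  the finitely supported families;
* `RestrictedProd.exists_norm_eq_iff`: an invariant element of `J` is a norm iff it is a norm in
  every component, provided invariant elements of `U i` are norms from `U i` for almost all `i`;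
* `DNPair.card_H0_eq_prod`, `DNPair.herbrand_eq_prod`: Herbrand quotient of a product
  `∏_{i ∈ T} A i × ∏_{i ∉ T} W i` with `W i` cohomologically trivial.

Bridges to Mathlib's `groupCohomology.H1`, `H2` of `Rep.ofMulDistribMulAction` are at the end.
-/

set_option autoImplicit false

open groupCohomology

namespace Fermat.Agent.CFT

section Predicates

variable (G : Type) {M : Type} [Group G] [CommGroup M] [MulDistribMulAction G M]

/-- The subgroup `S` is stable under the action of `G`. -/
def SmulStable (S : Subgroup M) : Prop := ∀ (g : G) (x : M), x ∈ S → g • x ∈ S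

/-- Every 1-cocycle with values in `S` is the coboundary of an element of `S`
(`H¹(G, S) = 0` for a `G`-stable subgroup `S`). -/
def H1TrivialOn (S : Subgroup M) : Prop :=
  ∀ f : G → M, (∀ g, f g ∈ S) → IsMulCocycle₁ f → ∃ x ∈ S, ∀ g : G, g • x / x = f g

/-- Every 2-cocycle with values in `S` is the coboundary of an `S`-valued 1-cochain
(`H²(G, S) = 0` for a `G`-stable subgroup `S`). -/
def H2TrivialOn (S : Subgroup M) : Prop :=
  ∀ f : G × G → M, (∀ p, f p ∈ S) → IsMulCocycle₂ f →
    ∃ x : G → M, (∀ g, x g ∈ S) ∧ ∀ g h : G, g • x h / x (g * h) * x g = f (g, h)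

/-- Every `G`-invariant element of `S` is the norm of an element of `S`
(`Ĥ⁰(G, S) = 0` for a `G`-stable subgroup `S`). -/
def NormSurjOn [Fintype G] (S : Subgroup M) : Prop :=
  ∀ a ∈ S, (∀ g : G, g • a = a) → ∃ b ∈ S, ∏ g : G, g • b = a

variable {G}

theorem smulStable_top : SmulStable G (⊤ : Subgroup M) := fun _ _ _ => Subgroup.mem_top _

end Predicates

/-- `J` is the restricted product of the `G`-modules `A i` with respect to the subgroups `U i`. -/
structure RestrictedProd (G J : Type) [Group G] [CommGroup J] [MulDistribMulAction G J]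
    {ι : Type} (A : ι → Type) [∀ i, CommGroup (A i)] [∀ i, MulDistribMulAction G (A i)]
    (U : ∀ i, Subgroup (A i)) where
  /-- the projections -/
  proj : ∀ i, J →* A i
  proj_smul : ∀ (i : ι) (g : G) (x : J), proj i (g • x) = g • proj i x
  ext : ∀ x y : J, (∀ i, proj i x = proj i y) → x = y
  mem_cofinite : ∀ x : J, ∀ᶠ i in Filter.cofinite, proj i x ∈ U i
  glue : ∀ a : ∀ i, A i, (∀ᶠ i in Filter.cofinite, a i ∈ U i) → ∃ x : J, ∀ i, proj i x = a i

namespace RestrictedProd

variable {G J : Type} [Group G] [CommGroup J] [MulDistribMulAction G J]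
  {ι : Type} {A : ι → Type} [∀ i, CommGroup (A i)] [∀ i, MulDistribMulAction G (A i)]
  {U : ∀ i, Subgroup (A i)} (R : RestrictedProd G J A U)

include R

theorem proj_prod_smul [Fintype G] (i : ι) (y : J) :
    R.proj i (∏ g : G, g • y) = ∏ g : G, g • R.proj i y := by
  rw [map_prod]
  exact Finset.prod_congr rfl fun g _ => R.proj_smul i g y

/-- Invariance can be checked componentwise. -/
theorem smul_eq_iff (g : G) (x : J) : g • x = x ↔ ∀ i, g • R.proj i x = R.proj i x := by
  constructor
  · intro h i
    rw [← R.proj_smul, h]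
  · intro h
    exact R.ext _ _ fun i => by rw [R.proj_smul, h i]

/-- For a finite family of elements of `J`, almost all components lie in `U i`. -/
theorem eventually_forall_mem {κ : Type} [Finite κ] (f : κ → J) :
    ∀ᶠ i in Filter.cofinite, ∀ k, R.proj i (f k) ∈ U i := by
  rw [Filter.eventually_all]
  exact fun k => R.mem_cofinite (f k)

/-- `H¹(G, J) = 0` if `H¹(G, A i) = 0` for all `i` and `H¹(G, U i) = 0` for almost all `i`. -/
theorem h1TrivialOn_top [Finite G] (hA : ∀ i, H1TrivialOn G (⊤ : Subgroup (A i)))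
    (hU : ∀ᶠ i in Filter.cofinite, H1TrivialOn G (U i)) :
    H1TrivialOn G (⊤ : Subgroup J) := by
  classical
  intro f _ hf
  have hmem := R.eventually_forall_mem f
  have hcoc : ∀ i, IsMulCocycle₁ fun g => R.proj i (f g) := fun i g h => by
    show R.proj i (f (g * h)) = g • R.proj i (f h) * R.proj i (f g)
    rw [hf g h, map_mul, R.proj_smul]
  -- componentwise primitives
  have key : ∀ i, ∃ x : A i, ((∀ k, R.proj i (f k) ∈ U i) → H1TrivialOn G (U i) → x ∈ U i) ∧
      ∀ g : G, g • x / x = R.proj i (f g) := by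
    intro i
    by_cases h : (∀ k, R.proj i (f k) ∈ U i) ∧ H1TrivialOn G (U i)
    · obtain ⟨x, hxU, hx⟩ := h.2 _ h.1 (hcoc i)
      exact ⟨x, fun _ _ => hxU, hx⟩
    · obtain ⟨x, -, hx⟩ := hA i _ (fun _ => Subgroup.mem_top _) (hcoc i)
      exact ⟨x, fun h1 h2 => absurd ⟨h1, h2⟩ h, hx⟩
  choose a ha1 ha2 using key
  have hcof : ∀ᶠ i in Filter.cofinite, a i ∈ U i := by
    filter_upwards [hmem, hU] with i h1 h2 using ha1 i h1 h2
  obtain ⟨x, hx⟩ := R.glue a hcof
  refine ⟨x, Subgroup.mem_top _, fun g => R.ext _ _ fun i => ?_⟩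
  rw [map_div, R.proj_smul, hx i, ha2 i g]

/-- Injectivity of `H²(G, J) → ∏ᵢ H²(G, A i)`: a 2-cocycle of `J` all of whose components are
coboundaries is a coboundary, provided `H²(G, U i) = 0` for almost all `i`. -/
theorem isMulCoboundary₂_iff [Finite G] (hU : ∀ᶠ i in Filter.cofinite, H2TrivialOn G (U i))
    {f : G × G → J} (hf : IsMulCocycle₂ f) :
    IsMulCoboundary₂ f ↔ ∀ i, IsMulCoboundary₂ fun p => R.proj i (f p) := by
  classical
  constructor
  · rintro ⟨x, hx⟩ i
    refine ⟨fun g => R.proj i (x g), fun g h => ?_⟩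
    show g • R.proj i (x h) / R.proj i (x (g * h)) * R.proj i (x g) = R.proj i (f (g, h))
    rw [← hx g h, map_mul, map_div, R.proj_smul]
  · intro hloc
    have hmem := R.eventually_forall_mem f
    have hcoc : ∀ i, IsMulCocycle₂ fun p => R.proj i (f p) := fun i g h j => by
      show R.proj i (f (g * h, j)) * R.proj i (f (g, h)) =
        g • R.proj i (f (h, j)) * R.proj i (f (g, h * j))
      rw [← map_mul, hf g h j, map_mul, R.proj_smul]
    have key : ∀ i, ∃ x : G → A i,
        ((∀ p, R.proj i (f p) ∈ U i) → H2TrivialOn G (U i) → ∀ g, x g ∈ U i) ∧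
        ∀ g h : G, g • x h / x (g * h) * x g = R.proj i (f (g, h)) := by
      intro i
      by_cases h : (∀ p, R.proj i (f p) ∈ U i) ∧ H2TrivialOn G (U i)
      · obtain ⟨x, hxU, hx⟩ := h.2 _ h.1 (hcoc i)
        exact ⟨x, fun _ _ => hxU, hx⟩
      · obtain ⟨x, hx⟩ := hloc i
        exact ⟨x, fun h1 h2 => absurd ⟨h1, h2⟩ h, hx⟩
    choose a ha1 ha2 using key
    have hcof : ∀ g : G, ∀ᶠ i in Filter.cofinite, a i g ∈ U i := by
      intro g
      filter_upwards [hmem, hU] with i h1 h2 using ha1 i h1 h2 g
    choose x hx using fun g => R.glue (fun i => a i g) (hcof g)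
    refine ⟨x, fun g h => R.ext _ _ fun i => ?_⟩
    rw [map_mul, map_div, R.proj_smul, hx, hx, hx, ha2 i g h]

/-- The components of a 2-cocycle of `J` are coboundaries for almost all `i`, provided
`H²(G, U i) = 0` for almost all `i`. -/
theorem eventually_isMulCoboundary₂ [Finite G]
    (hU : ∀ᶠ i in Filter.cofinite, H2TrivialOn G (U i))
    {f : G × G → J} (hf : IsMulCocycle₂ f) :
    ∀ᶠ i in Filter.cofinite, IsMulCoboundary₂ fun p => R.proj i (f p) := by
  have hmem := R.eventually_forall_mem f
  filter_upwards [hmem, hU] with i h1 h2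
  obtain ⟨x, -, hx⟩ := h2 _ h1 (fun g h j => by
    show R.proj i (f (g * h, j)) * R.proj i (f (g, h)) =
      g • R.proj i (f (h, j)) * R.proj i (f (g, h * j))
    rw [← map_mul, hf g h j, map_mul, R.proj_smul])
  exact ⟨x, hx⟩

/-- Every family of 2-cocycles of the `A i` which is `U i`-valued for almost all `i` comes from a
2-cocycle of `J`. -/
theorem exists_cocycle₂ [Finite G] (c : ∀ i, G × G → A i) (hc : ∀ i, IsMulCocycle₂ (c i))
    (hcU : ∀ᶠ i in Filter.cofinite, ∀ p, c i p ∈ U i) :
    ∃ f : G × G → J, IsMulCocycle₂ f ∧ ∀ i p, R.proj i (f p) = c i p := by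
  have hcof : ∀ p : G × G, ∀ᶠ i in Filter.cofinite, c i p ∈ U i := fun p => by
    filter_upwards [hcU] with i hi using hi p
  choose f hf using fun p => R.glue (fun i => c i p) (hcof p)
  refine ⟨f, fun g h j => R.ext _ _ fun i => ?_, fun i p => hf p i⟩
  rw [map_mul, map_mul, R.proj_smul, hf, hf, hf, hf]
  exact hc i g h j

/-- An invariant element of `J` is a norm iff all its components are norms, provided the
invariant elements of `U i` are norms from `U i` for almost all `i`. -/
theorem exists_norm_eq_iff [Fintype G] (hU : ∀ᶠ i in Filter.cofinite, NormSurjOn G (U i))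
    {x : J} (hx : ∀ g : G, g • x = x) :
    (∃ y : J, ∏ g : G, g • y = x) ↔ ∀ i, ∃ b : A i, ∏ g : G, g • b = R.proj i x := by
  classical
  constructor
  · rintro ⟨y, rfl⟩ i
    exact ⟨R.proj i y, (R.proj_prod_smul i y).symm⟩
  · intro hloc
    have hinv : ∀ i (g : G), g • R.proj i x = R.proj i x := fun i g =>
      (R.smul_eq_iff g x).1 (hx g) i
    have key : ∀ i, ∃ b : A i, (R.proj i x ∈ U i → NormSurjOn G (U i) → b ∈ U i) ∧
        ∏ g : G, g • b = R.proj i x := by
      intro i
      by_cases h : R.proj i x ∈ U i ∧ NormSurjOn G (U i)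
      · obtain ⟨b, hbU, hb⟩ := h.2 _ h.1 (hinv i)
        exact ⟨b, fun _ _ => hbU, hb⟩
      · obtain ⟨b, hb⟩ := hloc i
        exact ⟨b, fun h1 h2 => absurd ⟨h1, h2⟩ h, hb⟩
    choose b hb1 hb2 using key
    have hcof : ∀ᶠ i in Filter.cofinite, b i ∈ U i := by
      filter_upwards [R.mem_cofinite x, hU] with i h1 h2 using hb1 i h1 h2
    obtain ⟨y, hy⟩ := R.glue b hcof
    exact ⟨y, R.ext _ _ fun i => by rw [R.proj_prod_smul, hy i, hb2 i]⟩

end RestrictedProd

end Fermat.Agent.CFT
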