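import Mathlib
import Fermat.Agent.CFT.Global.RestrictedCoh

/-!
# Layer C, node C1b: bridges between the cocycle predicates of `RestrictedCoh.lean` and Mathlib's
`groupCohomology.H1`, `groupCohomology.H2` of `Rep.ofMulDistribMulAction G M`.
-/

set_option autoImplicit false

open groupCohomology

namespace Fermat.Agent.CFT

variable {G M : Type} [Group G] [CommGroup M] [MulDistribMulAction G M]

/-- `H¹(G, M) = 0` in Mathlib's sense from the cocycle statement. -/
theorem subsingleton_H1_of_h1TrivialOn (h : H1TrivialOn G (⊤ : Subgroup M)) :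
    Subsingleton (groupCohomology.H1 (Rep.ofMulDistribMulAction G M)) := by
  refine ⟨fun a b => ?_⟩
  have key : ∀ c : groupCohomology.H1 (Rep.ofMulDistribMulAction G M), c = 0 := by
    intro c
    induction c using groupCohomology.H1_induction_on with
    | h x =>
      rw [H1π_eq_zero_iff]
      have hx := isMulCocycle₁_of_mem_cocycles₁ (M := M) (⇑x) x.2
      obtain ⟨y, -, hy⟩ := h _ (fun _ => Subgroup.mem_top _) hx
      exact ⟨Additive.ofMul y, funext fun g => congrArg Additive.ofMul (hy g)⟩
  rw [key a, key b]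

/-- The cocycle statement from `H¹(G, M) = 0` in Mathlib's sense. -/
theorem h1TrivialOn_of_subsingleton_H1
    [Subsingleton (groupCohomology.H1 (Rep.ofMulDistribMulAction G M))] :
    H1TrivialOn G (⊤ : Subgroup M) := by
  intro f _ hf
  have h0 : H1π (Rep.ofMulDistribMulAction G M) (cocyclesOfIsMulCocycle₁ hf) = 0 :=
    Subsingleton.elim _ _
  rw [H1π_eq_zero_iff] at h0
  obtain ⟨y, hy⟩ := isMulCoboundary₁_of_mem_coboundaries₁ _ h0
  exact ⟨y, Subgroup.mem_top _, hy⟩

/-- `H²(G, M) = 0` in Mathlib's sense from the cocycle statement. -/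
theorem subsingleton_H2_of_h2TrivialOn (h : H2TrivialOn G (⊤ : Subgroup M)) :
    Subsingleton (groupCohomology.H2 (Rep.ofMulDistribMulAction G M)) := by
  refine ⟨fun a b => ?_⟩
  have key : ∀ c : groupCohomology.H2 (Rep.ofMulDistribMulAction G M), c = 0 := by
    intro c
    induction c using groupCohomology.H2_induction_on with
    | h x =>
      rw [H2π_eq_zero_iff]
      have hx := isMulCocycle₂_of_mem_cocycles₂ (M := M) (⇑x) x.2
      obtain ⟨y, -, hy⟩ := h _ (fun _ => Subgroup.mem_top _) hx
      exact ⟨fun g => Additive.ofMul (y g), funext fun p => congrArg Additive.ofMul (hy p.1 p.2)⟩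
  rw [key a, key b]

/-- The cocycle statement from `H²(G, M) = 0` in Mathlib's sense. -/
theorem h2TrivialOn_of_subsingleton_H2
    [Subsingleton (groupCohomology.H2 (Rep.ofMulDistribMulAction G M))] :
    H2TrivialOn G (⊤ : Subgroup M) := by
  intro f _ hf
  have h0 : H2π (Rep.ofMulDistribMulAction G M) (cocyclesOfIsMulCocycle₂ hf) = 0 :=
    Subsingleton.elim _ _
  rw [H2π_eq_zero_iff] at h0
  obtain ⟨y, hy⟩ := isMulCoboundary₂_of_mem_coboundaries₂ _ h0
  exact ⟨y, fun _ => Subgroup.mem_top _, hy⟩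

/-- The class of a multiplicative 2-cocycle in `H²`. -/
noncomputable def h2ClassOfIsMulCocycle₂ {f : G × G → M} (hf : IsMulCocycle₂ f) :
    groupCohomology.H2 (Rep.ofMulDistribMulAction G M) :=
  H2π (Rep.ofMulDistribMulAction G M) (cocyclesOfIsMulCocycle₂ hf)

theorem h2ClassOfIsMulCocycle₂_eq_zero_iff {f : G × G → M} (hf : IsMulCocycle₂ f) :
    h2ClassOfIsMulCocycle₂ hf = 0 ↔ IsMulCoboundary₂ f := by
  rw [h2ClassOfIsMulCocycle₂, H2π_eq_zero_iff]
  constructor
  · intro h
    obtain ⟨y, hy⟩ := isMulCoboundary₂_of_mem_coboundaries₂ _ h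
    exact ⟨y, hy⟩
  · intro h
    exact (coboundariesOfIsMulCoboundary₂ h).2

/-- Every class in `H²` is the class of a multiplicative 2-cocycle. -/
theorem exists_h2ClassOfIsMulCocycle₂_eq
    (c : groupCohomology.H2 (Rep.ofMulDistribMulAction G M)) :
    ∃ (f : G × G → M) (hf : IsMulCocycle₂ f), h2ClassOfIsMulCocycle₂ hf = c := by
  induction c using groupCohomology.H2_induction_on with
  | h x =>
    exact ⟨Additive.toMul ∘ ⇑x, isMulCocycle₂_of_mem_cocycles₂ (M := M) (⇑x) x.2, rfl⟩

end Fermat.Agent.CFT
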