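import Mathlib

/-!
# Layer C (global class field theory): finite ideles of a field, choice-free model

For a prime `q` and a field `K` (in practice a number field) we use

* `LocalEmb q K := K →+* PadicAlgCl q`, the set of embeddings of `K` into `ℚ̄_q`, with the action
  of `Gq q = Gal(ℚ̄_q/ℚ_q)` by post-composition (orbits = places of `K` above `q`);
* `semiLocalUnits q K`: the group of `Gq`-equivariant maps `LocalEmb q K → ℚ̄_qˣ`
  (`= (K ⊗ ℚ_q)ˣ = ∏_{v ∣ q} K_vˣ`);
* `semiLocalIntegral q K`: those with values of norm `1` (`= ∏_{v ∣ q} 𝒪_vˣ`);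
* `ideleGroup K`: families `(x_q)_q` indexed by all primes which are integral for almost all `q`
  (finite ideles; the archimedean components are irrelevant for odd `p`);
* `principalIdele K : Kˣ →* ∏_q semiLocalUnits q K`, `x ↦ (τ ↦ τ x)`, and the idele class group
  `ideleClass K := ideleGroup K ⧸ (principal ideles)`;
* for a ring homomorphism `φ : K →+* K'` the maps `semiLocalMap`, `ideleMap`;
* for a group `G` acting on `K` by ring automorphisms the induced `MulDistribMulAction`s and the
  representations `ideleRep G K`, `ideleClassRep G K : Rep ℤ G`.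
-/

set_option autoImplicit false

open scoped Pointwise

noncomputable section

namespace Fermat.Agent.CFT

/-- `Fact` instance for the primes in `Nat.Primes`. -/
instance factPrimeNatPrimes (q : Nat.Primes) : Fact (q : ℕ).Prime := ⟨q.2⟩

section Local

variable (q : ℕ) [Fact q.Prime]

/-- The local absolute Galois group `Gal(ℚ̄_q/ℚ_q)`. -/
abbrev Gq : Type := PadicAlgCl q ≃ₐ[ℚ_[q]] PadicAlgCl q

variable (K : Type) [Field K]

/-- Embeddings of `K` into `ℚ̄_q`. -/
abbrev LocalEmb : Type := K →+* PadicAlgCl q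

variable {q K}

/-- `Gq` acts on the embeddings by post-composition. -/
instance localEmbMulAction : MulAction (Gq q) (LocalEmb q K) where
  smul γ τ := ((γ : PadicAlgCl q ≃+* PadicAlgCl q) : PadicAlgCl q →+* PadicAlgCl q).comp τ
  one_smul τ := by ext x; rfl
  mul_smul γ δ τ := by ext x; rfl

@[simp]
theorem localEmb_smul_apply (γ : Gq q) (τ : LocalEmb q K) (x : K) : (γ • τ) x = γ (τ x) := rfl

/-- `Gq` acts on the units of `ℚ̄_q`. -/
def gqUnitsHom (γ : Gq q) : (PadicAlgCl q)ˣ →* (PadicAlgCl q)ˣ :=
  Units.map ((γ : PadicAlgCl q ≃+* PadicAlgCl q) : PadicAlgCl q →* PadicAlgCl q)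

@[simp]
theorem gqUnitsHom_coe (γ : Gq q) (u : (PadicAlgCl q)ˣ) :
    ((gqUnitsHom γ u : (PadicAlgCl q)ˣ) : PadicAlgCl q) = γ (u : PadicAlgCl q) := rfl

variable (q K)

/-- The semi-local units `(K ⊗ ℚ_q)ˣ`: `Gq`-equivariant maps from the embeddings to `ℚ̄_qˣ`. -/
def semiLocalUnits : Subgroup (LocalEmb q K → (PadicAlgCl q)ˣ) where
  carrier := {f | ∀ (γ : Gq q) (τ : LocalEmb q K), f (γ • τ) = gqUnitsHom γ (f τ)}
  mul_mem' {f g} hf hg γ τ := by
    simp only [Pi.mul_apply, hf γ τ, hg γ τ, map_mul]
  one_mem' γ τ := by simp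
  inv_mem' {f} hf γ τ := by
    simp only [Pi.inv_apply, hf γ τ, map_inv]

variable {q K}

theorem mem_semiLocalUnits {f : LocalEmb q K → (PadicAlgCl q)ˣ} :
    f ∈ semiLocalUnits q K ↔ ∀ (γ : Gq q) (τ : LocalEmb q K), f (γ • τ) = gqUnitsHom γ (f τ) :=
  Iff.rfl

theorem semiLocalUnits_apply_smul (f : semiLocalUnits q K) (γ : Gq q) (τ : LocalEmb q K) :
    ((f : LocalEmb q K → (PadicAlgCl q)ˣ) (γ • τ) : PadicAlgCl q) =
      γ ((f : LocalEmb q K → (PadicAlgCl q)ˣ) τ : PadicAlgCl q) := by
  rw [f.2 γ τ]; rfl

variable (q K)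

/-- The integral semi-local units `∏_{v ∣ q} 𝒪_vˣ`: all values have norm `1`. -/
def semiLocalIntegral : Subgroup (semiLocalUnits q K) where
  carrier := {f | ∀ τ : LocalEmb q K,
    ‖((f : LocalEmb q K → (PadicAlgCl q)ˣ) τ : PadicAlgCl q)‖ = 1}
  mul_mem' {f g} hf hg τ := by
    simp only [Subgroup.coe_mul, Pi.mul_apply, Units.val_mul, norm_mul, hf τ, hg τ, mul_one]
  one_mem' τ := by simp
  inv_mem' {f} hf τ := by
    simp only [Subgroup.coe_inv, Pi.inv_apply, Units.val_inv_eq_inv_val, norm_inv, hf τ, inv_one]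

variable {q K}

theorem mem_semiLocalIntegral {f : semiLocalUnits q K} :
    f ∈ semiLocalIntegral q K ↔ ∀ τ : LocalEmb q K,
      ‖((f : LocalEmb q K → (PadicAlgCl q)ˣ) τ : PadicAlgCl q)‖ = 1 :=
  Iff.rfl

/-- The diagonal embedding `Kˣ → (K ⊗ ℚ_q)ˣ`, `x ↦ (τ ↦ τ x)`. -/
def semiLocalDiag : Kˣ →* semiLocalUnits q K where
  toFun x := ⟨fun τ => Units.map (τ : K →* PadicAlgCl q) x, fun γ τ => by
    ext; rfl⟩
  map_one' := by ext τ; simp
  map_mul' x y := by ext τ; simp

@[simp]
theorem semiLocalDiag_apply (x : Kˣ) (τ : LocalEmb q K) :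
    (((semiLocalDiag x : semiLocalUnits q K) : LocalEmb q K → (PadicAlgCl q)ˣ) τ :
      PadicAlgCl q) = τ (x : K) := rfl

section Functoriality

variable {K' K'' : Type} [Field K'] [Field K'']

/-- Pull-back of semi-local units along a ring homomorphism `K →+* K'` (restriction of
embeddings). -/
def semiLocalMap (φ : K →+* K') : semiLocalUnits q K →* semiLocalUnits q K' where
  toFun f := ⟨fun τ => (f : LocalEmb q K → (PadicAlgCl q)ˣ) (τ.comp φ), fun γ τ => by
    have := f.2 γ (τ.comp φ)
    exact this⟩
  map_one' := rfl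
  map_mul' _ _ := rfl

@[simp]
theorem semiLocalMap_apply (φ : K →+* K') (f : semiLocalUnits q K) (τ : LocalEmb q K') :
    ((semiLocalMap φ f : semiLocalUnits q K') : LocalEmb q K' → (PadicAlgCl q)ˣ) τ =
      (f : LocalEmb q K → (PadicAlgCl q)ˣ) (τ.comp φ) := rfl

theorem semiLocalMap_id (f : semiLocalUnits q K) : semiLocalMap (RingHom.id K) f = f := by
  ext τ; rfl

theorem semiLocalMap_comp (φ : K →+* K') (ψ : K' →+* K'') (f : semiLocalUnits q K) :
    semiLocalMap (ψ.comp φ) f = semiLocalMap ψ (semiLocalMap φ f) := by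
  ext τ; rfl

theorem semiLocalMap_diag (φ : K →+* K') (x : Kˣ) :
    semiLocalMap (q := q) φ (semiLocalDiag x) = semiLocalDiag (Units.map (φ : K →* K') x) := by
  ext τ; rfl

theorem semiLocalMap_mem_integral (φ : K →+* K') {f : semiLocalUnits q K}
    (hf : f ∈ semiLocalIntegral q K) : semiLocalMap φ f ∈ semiLocalIntegral q K' :=
  fun τ => hf (τ.comp φ)

end Functoriality

section Action

variable {G : Type} [Group G] [MulSemiringAction G K]

/-- A group acting on `K` by ring automorphisms acts on the semi-local units: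
`(σ • f) τ = f (τ ∘ σ)`. -/
instance semiLocalAction : MulDistribMulAction G (semiLocalUnits q K) where
  smul σ f := semiLocalMap (MulSemiringAction.toRingHom G K σ) f
  one_smul f := by
    apply Subtype.ext
    funext τ
    show (f : LocalEmb q K → (PadicAlgCl q)ˣ) (τ.comp (MulSemiringAction.toRingHom G K 1)) = _
    have h : τ.comp (MulSemiringAction.toRingHom G K 1) = τ :=
      RingHom.ext fun x => by
        rw [RingHom.comp_apply, MulSemiringAction.toRingHom_apply, one_smul]
    rw [h]
  mul_smul σ ρ f := by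
    apply Subtype.ext
    funext τ
    show (f : LocalEmb q K → (PadicAlgCl q)ˣ) (τ.comp (MulSemiringAction.toRingHom G K (σ * ρ))) =
      (f : LocalEmb q K → (PadicAlgCl q)ˣ)
        ((τ.comp (MulSemiringAction.toRingHom G K σ)).comp (MulSemiringAction.toRingHom G K ρ))
    have h : τ.comp (MulSemiringAction.toRingHom G K (σ * ρ)) =
        (τ.comp (MulSemiringAction.toRingHom G K σ)).comp (MulSemiringAction.toRingHom G K ρ) :=
      RingHom.ext fun x => by
        simp only [RingHom.comp_apply, MulSemiringAction.toRingHom_apply, mul_smul]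
    rw [h]
  smul_mul σ f g := map_mul _ f g
  smul_one σ := map_one _

theorem semiLocal_smul_def (σ : G) (f : semiLocalUnits q K) :
    σ • f = semiLocalMap (MulSemiringAction.toRingHom G K σ) f := rfl

@[simp]
theorem semiLocal_smul_apply (σ : G) (f : semiLocalUnits q K) (τ : LocalEmb q K) :
    ((σ • f : semiLocalUnits q K) : LocalEmb q K → (PadicAlgCl q)ˣ) τ =
      (f : LocalEmb q K → (PadicAlgCl q)ˣ) (τ.comp (MulSemiringAction.toRingHom G K σ)) := rfl

theorem smul_mem_semiLocalIntegral (σ : G) {f : semiLocalUnits q K}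
    (hf : f ∈ semiLocalIntegral q K) : σ • f ∈ semiLocalIntegral q K :=
  semiLocalMap_mem_integral _ hf

/-- The action of `σ` on the units of `K`. -/
def unitsSmul (σ : G) : Kˣ →* Kˣ :=
  Units.map ((MulSemiringAction.toRingHom G K σ : K →+* K) : K →* K)

@[simp]
theorem unitsSmul_coe (σ : G) (x : Kˣ) : ((unitsSmul σ x : Kˣ) : K) = σ • (x : K) := rfl

theorem smul_semiLocalDiag (σ : G) (x : Kˣ) :
    σ • (semiLocalDiag x : semiLocalUnits q K) = semiLocalDiag (unitsSmul σ x) := by
  apply Subtype.ext; funext τ; ext; rfl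

end Action

end Local

section Global

variable (K : Type) [Field K]

/-- The full product `∏_q (K ⊗ ℚ_q)ˣ` over all primes. -/
abbrev IdeleProd : Type := ∀ q : Nat.Primes, semiLocalUnits (q : ℕ) K

/-- The (finite) idele group of `K`: families which are integral at almost all primes. -/
def ideleGroup : Subgroup (IdeleProd K) where
  carrier := {x | ∀ᶠ q : Nat.Primes in Filter.cofinite, x q ∈ semiLocalIntegral (q : ℕ) K}
  mul_mem' {x y} hx hy := by
    simp only [Set.mem_ofPred_eq] at hx hy ⊢
    filter_upwards [hx, hy] with q hxq hyq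
    exact mul_mem hxq hyq
  one_mem' := by
    simp only [Set.mem_ofPred_eq]
    exact Filter.Eventually.of_forall fun q => one_mem _
  inv_mem' {x} hx := by
    simp only [Set.mem_ofPred_eq] at hx ⊢
    filter_upwards [hx] with q hxq
    exact inv_mem hxq

variable {K}

theorem mem_ideleGroup {x : IdeleProd K} :
    x ∈ ideleGroup K ↔
      ∀ᶠ q : Nat.Primes in Filter.cofinite, x q ∈ semiLocalIntegral (q : ℕ) K :=
  Iff.rfl

theorem mem_ideleGroup_iff_finite {x : IdeleProd K} :
    x ∈ ideleGroup K ↔ {q : Nat.Primes | x q ∉ semiLocalIntegral (q : ℕ) K}.Finite := by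
  rw [mem_ideleGroup, Filter.eventually_cofinite]

variable (K)

/-- The `T`-ideles: integral outside the set `T` of primes. -/
def ideleGroupOutside (T : Set Nat.Primes) : Subgroup (IdeleProd K) where
  carrier := {x | ∀ q : Nat.Primes, q ∉ T → x q ∈ semiLocalIntegral (q : ℕ) K}
  mul_mem' {x y} hx hy q hq := mul_mem (hx q hq) (hy q hq)
  one_mem' q _ := one_mem _
  inv_mem' {x} hx q hq := inv_mem (hx q hq)

/-- The unit ideles outside `S`: integral outside `S` and trivial at `S`
(`U_{K,S} = ∏_{q ∉ S} ∏_{v ∣ q} 𝒪_vˣ`). -/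
def unitIdelesOutside (S : Set Nat.Primes) : Subgroup (IdeleProd K) where
  carrier := {x | (∀ q : Nat.Primes, q ∉ S → x q ∈ semiLocalIntegral (q : ℕ) K) ∧
    ∀ q : Nat.Primes, q ∈ S → x q = 1}
  mul_mem' {x y} hx hy :=
    ⟨fun q hq => mul_mem (hx.1 q hq) (hy.1 q hq), fun q hq => by
      rw [Pi.mul_apply, hx.2 q hq, hy.2 q hq, one_mul]⟩
  one_mem' := ⟨fun q _ => one_mem _, fun q _ => rfl⟩
  inv_mem' {x} hx :=
    ⟨fun q hq => inv_mem (hx.1 q hq), fun q hq => by rw [Pi.inv_apply, hx.2 q hq, inv_one]⟩

variable {K}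

theorem ideleGroupOutside_le_ideleGroup {T : Set Nat.Primes} (hT : T.Finite) :
    ideleGroupOutside K T ≤ ideleGroup K := by
  intro x hx
  rw [mem_ideleGroup_iff_finite]
  refine hT.subset fun q hq => ?_
  by_contra hqT
  exact hq (hx q hqT)

theorem unitIdelesOutside_le_ideleGroup (S : Set Nat.Primes) :
    unitIdelesOutside K S ≤ ideleGroup K := by
  intro x hx
  rw [mem_ideleGroup]
  refine Filter.Eventually.of_forall fun q => ?_
  by_cases hq : q ∈ S
  · rw [hx.2 q hq]; exact one_mem _
  · exact hx.1 q hq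

variable (K)

/-- The diagonal map `Kˣ → ∏_q (K ⊗ ℚ_q)ˣ` (principal ideles). -/
def principalIdele : Kˣ →* IdeleProd K where
  toFun x q := semiLocalDiag x
  map_one' := by funext q; exact map_one _
  map_mul' x y := by funext q; exact map_mul _ x y

@[simp]
theorem principalIdele_apply (x : Kˣ) (q : Nat.Primes) :
    principalIdele K x q = semiLocalDiag x := rfl

/-- The subgroup of principal ideles inside the idele group (as a subgroup of `ideleGroup K`;
for a number field every principal idele is an idele, see the dictionary file). -/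
def principalSubgroup : Subgroup (ideleGroup K) :=
  (principalIdele K).range.subgroupOf (ideleGroup K)

/-- The (finite) idele class group `C_K = J_K / Kˣ`. -/
abbrev ideleClass : Type := ideleGroup K ⧸ principalSubgroup K

/-- The subgroup `Kˣ · U_{K,S}` inside the idele group. -/
def principalUnitSubgroup (S : Set Nat.Primes) : Subgroup (ideleGroup K) :=
  ((principalIdele K).range ⊔ unitIdelesOutside K S).subgroupOf (ideleGroup K)

/-- The `S`-idele class group `C_S(K) = J_K / (Kˣ U_{K,S})`. -/
abbrev ideleClassS (S : Set Nat.Primes) : Type := ideleGroup K ⧸ principalUnitSubgroup K S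

section Functoriality

variable {K} {K' K'' : Type} [Field K'] [Field K'']

/-- The map `∏_q (K ⊗ ℚ_q)ˣ → ∏_q (K' ⊗ ℚ_q)ˣ` induced by `φ : K →+* K'`. -/
def ideleProdMap (φ : K →+* K') : IdeleProd K →* IdeleProd K' where
  toFun x q := semiLocalMap φ (x q)
  map_one' := by funext q; exact map_one _
  map_mul' x y := by funext q; exact map_mul _ (x q) (y q)

@[simp]
theorem ideleProdMap_apply (φ : K →+* K') (x : IdeleProd K) (q : Nat.Primes) :
    ideleProdMap φ x q = semiLocalMap φ (x q) := rfl

theorem ideleProdMap_mem (φ : K →+* K') {x : IdeleProd K} (hx : x ∈ ideleGroup K) :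
    ideleProdMap φ x ∈ ideleGroup K' := by
  rw [mem_ideleGroup] at hx ⊢
  filter_upwards [hx] with q hq
  exact semiLocalMap_mem_integral φ hq

theorem ideleProdMap_principal (φ : K →+* K') (x : Kˣ) :
    ideleProdMap φ (principalIdele K x) = principalIdele K' (Units.map (φ : K →* K') x) := by
  funext q
  exact semiLocalMap_diag φ x

/-- The map of idele groups `J_K → J_K'` induced by `φ : K →+* K'`. -/
def ideleMap (φ : K →+* K') : ideleGroup K →* ideleGroup K' where
  toFun x := ⟨ideleProdMap φ x.1, ideleProdMap_mem φ x.2⟩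
  map_one' := Subtype.ext (map_one _)
  map_mul' x y := Subtype.ext (map_mul _ x.1 y.1)

@[simp]
theorem ideleMap_coe (φ : K →+* K') (x : ideleGroup K) :
    ((ideleMap φ x : ideleGroup K') : IdeleProd K') = ideleProdMap φ x.1 := rfl

end Functoriality

section Action

variable {K} {G : Type} [Group G] [MulSemiringAction G K]

/-- `G` acts on the idele group componentwise. -/
instance ideleAction : MulDistribMulAction G (ideleGroup K) where
  smul σ x := ⟨fun q => σ • x.1 q, by
    have hx := x.2
    rw [mem_ideleGroup] at hx ⊢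
    filter_upwards [hx] with q hq
    exact smul_mem_semiLocalIntegral σ hq⟩
  one_smul x := by
    apply Subtype.ext; funext q
    exact one_smul G (x.1 q)
  mul_smul σ ρ x := by
    apply Subtype.ext; funext q
    exact mul_smul σ ρ (x.1 q)
  smul_mul σ x y := by
    apply Subtype.ext; funext q
    exact smul_mul' σ (x.1 q) (y.1 q)
  smul_one σ := by
    apply Subtype.ext; funext q
    exact smul_one σ

@[simp]
theorem idele_smul_coe (σ : G) (x : ideleGroup K) (q : Nat.Primes) :
    ((σ • x : ideleGroup K) : IdeleProd K) q = σ • (x : IdeleProd K) q := rfl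

theorem smul_mem_principalSubgroup (σ : G) {x : ideleGroup K} (hx : x ∈ principalSubgroup K) :
    σ • x ∈ principalSubgroup K := by
  obtain ⟨a, ha⟩ := hx
  refine ⟨unitsSmul σ a, ?_⟩
  funext q
  have hq : semiLocalDiag a = (x : IdeleProd K) q := congrFun ha q
  show semiLocalDiag (unitsSmul σ a) = σ • (x : IdeleProd K) q
  rw [← hq, smul_semiLocalDiag]

theorem smul_mem_principalUnitSubgroup (S : Set Nat.Primes) (σ : G) {x : ideleGroup K}
    (hx : x ∈ principalUnitSubgroup K S) : σ • x ∈ principalUnitSubgroup K S := by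
  obtain ⟨y, hy, z, hz, hyz⟩ := Subgroup.mem_sup.1 hx
  obtain ⟨a, rfl⟩ := hy
  refine Subgroup.mem_sup.2
    ⟨principalIdele K (unitsSmul σ a), ⟨_, rfl⟩, fun q => σ • z q, ⟨?_, ?_⟩, ?_⟩
  · intro q hq
    exact smul_mem_semiLocalIntegral σ (hz.1 q hq)
  · intro q hq
    show σ • z q = 1
    rw [hz.2 q hq, smul_one]
  · funext q
    have hq : semiLocalDiag a * z q = (x : IdeleProd K) q := congrFun hyz q
    show semiLocalDiag (unitsSmul σ a) * σ • z q = σ • (x : IdeleProd K) q
    rw [← hq, smul_mul', smul_semiLocalDiag]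

/-- `G` acts on the idele class group. -/
instance ideleClassAction : MulDistribMulAction G (ideleClass K) where
  smul σ := QuotientGroup.map _ _ (MulDistribMulAction.toMonoidHom (ideleGroup K) σ)
    (fun _ hx => Subgroup.mem_comap.2 (smul_mem_principalSubgroup σ hx))
  one_smul c := by
    induction c using QuotientGroup.induction_on with
    | H x => exact congrArg _ (one_smul G x)
  mul_smul σ ρ c := by
    induction c using QuotientGroup.induction_on with
    | H x => exact congrArg _ (mul_smul σ ρ x)
  smul_mul σ c d := map_mul _ c d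
  smul_one σ := map_one _

@[simp]
theorem ideleClass_smul_mk (σ : G) (x : ideleGroup K) :
    σ • (QuotientGroup.mk x : ideleClass K) = QuotientGroup.mk (σ • x) := rfl

/-- `G` acts on the `S`-idele class group. -/
instance ideleClassSAction (S : Set Nat.Primes) : MulDistribMulAction G (ideleClassS K S) where
  smul σ := QuotientGroup.map _ _ (MulDistribMulAction.toMonoidHom (ideleGroup K) σ)
    (fun _ hx => Subgroup.mem_comap.2 (smul_mem_principalUnitSubgroup S σ hx))
  one_smul c := by
    induction c using QuotientGroup.induction_on with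
    | H x => exact congrArg _ (one_smul G x)
  mul_smul σ ρ c := by
    induction c using QuotientGroup.induction_on with
    | H x => exact congrArg _ (mul_smul σ ρ x)
  smul_mul σ c d := map_mul _ c d
  smul_one σ := map_one _

@[simp]
theorem ideleClassS_smul_mk (S : Set Nat.Primes) (σ : G) (x : ideleGroup K) :
    σ • (QuotientGroup.mk x : ideleClassS K S) = QuotientGroup.mk (σ • x) := rfl

variable (G K)

/-- The semi-local units at `q` as a `G`-representation over `ℤ`. -/
def semiLocalRep (q : ℕ) [Fact q.Prime] : Rep ℤ G :=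
  Rep.ofMulDistribMulAction G (semiLocalUnits q K)

/-- The idele group as a `G`-representation over `ℤ`. -/
def ideleRep : Rep ℤ G := Rep.ofMulDistribMulAction G (ideleGroup K)

/-- The idele class group as a `G`-representation over `ℤ`. -/
def ideleClassRep : Rep ℤ G := Rep.ofMulDistribMulAction G (ideleClass K)

/-- The `S`-idele class group as a `G`-representation over `ℤ`. -/
def ideleClassSRep (S : Set Nat.Primes) : Rep ℤ G :=
  Rep.ofMulDistribMulAction G (ideleClassS K S)

end Action

end Global

end Fermat.Agent.CFT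

end
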