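import Mathlib
import Fermat.Agent.CFT.Herbrand

/-!
# Layer C, node C1b: Herbrand quotient of a product with cohomologically trivial factors

Abstract statement in the `DNPair` language of `CFT/Herbrand.lean`.  Let `P` be a `DNPair` on `B`,
`Q i` pairs on `C i`, `π i : Hom P (Q i)` jointly injective, `T` a finite set of indices and
`W i ≤ C i` subgroups such that `B` is (via the `π i`) the product
`∏_{i ∈ T} C i × ∏_{i ∉ T} W i`, and such that the `W i` (`i ∉ T`) have trivial `Ĥ⁰` and `Ĥ¹`.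
Then `Ĥ⁰(P) ≃ ∏_{i ∈ T} Ĥ⁰(Q i)`, `Ĥ¹(P) ≃ ∏_{i ∈ T} Ĥ¹(Q i)`, and
`herbrand P = ∏_{i ∈ T} herbrand (Q i)`.
-/

set_option autoImplicit false

namespace Fermat.Agent.CFT

namespace DNPair

variable {B : Type*} [AddCommGroup B] {ι : Type*} {C : ι → Type*} [∀ i, AddCommGroup (C i)]
  (P : DNPair B) (Q : ∀ i, DNPair (C i)) (π : ∀ i, Hom P (Q i)) (T : Finset ι)
  (W : ∀ i, AddSubgroup (C i))

/-- The comparison map `Ĥ⁰(P) → ∏_{i ∈ T} Ĥ⁰(Q i)`. -/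
def H0ToPi : P.H0 →+ ∀ i : T, (Q i).H0 where
  toFun x i := (π i).H0map x
  map_zero' := by funext i; exact map_zero _
  map_add' x y := by funext i; exact map_add _ x y

theorem H0ToPi_apply (x : P.H0) (i : T) : H0ToPi P Q π T x i = (π i).H0map x := rfl

variable {P Q π T W}

theorem H0ToPi_injective
    (hinj : ∀ b : B, (∀ i, (π i).toFun b = 0) → b = 0)
    (hmem : ∀ (b : B) (i : ι), i ∉ T → (π i).toFun b ∈ W i)
    (hglue : ∀ c : ∀ i, C i, (∀ i, i ∉ T → c i ∈ W i) → ∃ b : B, ∀ i, (π i).toFun b = c i)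
    (hW0 : ∀ i, i ∉ T → ∀ c ∈ W i, (Q i).D c = 0 → ∃ c' ∈ W i, (Q i).N c' = c) :
    Function.Injective (H0ToPi P Q π T) := by
  classical
  rw [injective_iff_map_eq_zero]
  intro x hx
  obtain ⟨b, hb, rfl⟩ := P.mk0_surjective x
  rw [mk0_eq_zero_iff]
  have key : ∀ i, ∃ c : C i, (i ∉ T → c ∈ W i) ∧ (Q i).N c = (π i).toFun b := by
    intro i
    by_cases hi : i ∈ T
    · have h1 : (π i).H0map (P.mk0 b hb) = 0 := congrFun hx ⟨i, hi⟩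
      rw [Hom.H0map_mk0, mk0_eq_zero_iff] at h1
      obtain ⟨c, hc⟩ := h1
      exact ⟨c, fun h => absurd hi h, hc⟩
    · have hD : (Q i).D ((π i).toFun b) = 0 := by rw [← (π i).map_D, hb, map_zero]
      obtain ⟨c, hcW, hc⟩ := hW0 i hi _ (hmem b i hi) hD
      exact ⟨c, fun _ => hcW, hc⟩
  choose c hc1 hc2 using key
  obtain ⟨b', hb'⟩ := hglue c fun i hi => hc1 i hi
  refine ⟨b', ?_⟩
  have : P.N b' - b = 0 := hinj _ fun i => by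
    rw [map_sub, (π i).map_N, hb' i, hc2 i, sub_self]
  exact sub_eq_zero.1 this

theorem H0ToPi_surjective
    (hinj : ∀ b : B, (∀ i, (π i).toFun b = 0) → b = 0)
    (hglue : ∀ c : ∀ i, C i, (∀ i, i ∉ T → c i ∈ W i) → ∃ b : B, ∀ i, (π i).toFun b = c i) :
    Function.Surjective (H0ToPi P Q π T) := by
  classical
  intro y
  have key : ∀ i, ∃ c : C i, (i ∉ T → c ∈ W i) ∧ ∃ hc : (Q i).D c = 0,
      ∀ hi : i ∈ T, (Q i).mk0 c hc = y ⟨i, hi⟩ := by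
    intro i
    by_cases hi : i ∈ T
    · obtain ⟨c, hc, hcy⟩ := (Q i).mk0_surjective (y ⟨i, hi⟩)
      exact ⟨c, fun h => absurd hi h, hc, fun _ => hcy⟩
    · exact ⟨0, fun _ => zero_mem _, map_zero _, fun h => absurd h hi⟩
  choose c hc1 hc2 hc3 using key
  obtain ⟨b, hb⟩ := hglue c fun i hi => hc1 i hi
  have hDb : P.D b = 0 := hinj _ fun i => by rw [(π i).map_D, hb i, hc2 i]
  refine ⟨P.mk0 b hDb, funext fun i => ?_⟩
  rw [H0ToPi_apply, Hom.H0map_mk0, ← hc3 i i.2]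
  exact mk0_congr _ (hb i) _

/-- `Ĥ⁰(P) ≃ ∏_{i ∈ T} Ĥ⁰(Q i)`. -/
noncomputable def H0EquivPi
    (hinj : ∀ b : B, (∀ i, (π i).toFun b = 0) → b = 0)
    (hmem : ∀ (b : B) (i : ι), i ∉ T → (π i).toFun b ∈ W i)
    (hglue : ∀ c : ∀ i, C i, (∀ i, i ∉ T → c i ∈ W i) → ∃ b : B, ∀ i, (π i).toFun b = c i)
    (hW0 : ∀ i, i ∉ T → ∀ c ∈ W i, (Q i).D c = 0 → ∃ c' ∈ W i, (Q i).N c' = c) :
    P.H0 ≃ ∀ i : T, (Q i).H0 :=
  Equiv.ofBijective (H0ToPi P Q π T)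
    ⟨H0ToPi_injective hinj hmem hglue hW0, H0ToPi_surjective hinj hglue⟩

theorem card_H0_eq_prod
    (hinj : ∀ b : B, (∀ i, (π i).toFun b = 0) → b = 0)
    (hmem : ∀ (b : B) (i : ι), i ∉ T → (π i).toFun b ∈ W i)
    (hglue : ∀ c : ∀ i, C i, (∀ i, i ∉ T → c i ∈ W i) → ∃ b : B, ∀ i, (π i).toFun b = c i)
    (hW0 : ∀ i, i ∉ T → ∀ c ∈ W i, (Q i).D c = 0 → ∃ c' ∈ W i, (Q i).N c' = c) :
    Nat.card P.H0 = ∏ i ∈ T, Nat.card (Q i).H0 := by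
  rw [Nat.card_congr (H0EquivPi hinj hmem hglue hW0), Nat.card_pi,
    ← Finset.prod_coe_sort T fun i => Nat.card (Q i).H0]

/-- `Ĥ¹(P) ≃ ∏_{i ∈ T} Ĥ¹(Q i)`. -/
noncomputable def H1EquivPi
    (hinj : ∀ b : B, (∀ i, (π i).toFun b = 0) → b = 0)
    (hmem : ∀ (b : B) (i : ι), i ∉ T → (π i).toFun b ∈ W i)
    (hglue : ∀ c : ∀ i, C i, (∀ i, i ∉ T → c i ∈ W i) → ∃ b : B, ∀ i, (π i).toFun b = c i)
    (hW1 : ∀ i, i ∉ T → ∀ c ∈ W i, (Q i).N c = 0 → ∃ c' ∈ W i, (Q i).D c' = c) :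
    P.H1 ≃ ∀ i : T, (Q i).H1 :=
  H0EquivPi (P := P.swap) (Q := fun i => (Q i).swap) (π := fun i => (π i).swap)
    hinj hmem hglue hW1

theorem card_H1_eq_prod
    (hinj : ∀ b : B, (∀ i, (π i).toFun b = 0) → b = 0)
    (hmem : ∀ (b : B) (i : ι), i ∉ T → (π i).toFun b ∈ W i)
    (hglue : ∀ c : ∀ i, C i, (∀ i, i ∉ T → c i ∈ W i) → ∃ b : B, ∀ i, (π i).toFun b = c i)
    (hW1 : ∀ i, i ∉ T → ∀ c ∈ W i, (Q i).N c = 0 → ∃ c' ∈ W i, (Q i).D c' = c) :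
    Nat.card P.H1 = ∏ i ∈ T, Nat.card (Q i).H1 :=
  card_H0_eq_prod (P := P.swap) (Q := fun i => (Q i).swap) (π := fun i => (π i).swap)
    hinj hmem hglue hW1

/-- Finiteness of `Ĥ⁰`, `Ĥ¹` of the product. -/
theorem isHFinite_of_prod
    (hinj : ∀ b : B, (∀ i, (π i).toFun b = 0) → b = 0)
    (hmem : ∀ (b : B) (i : ι), i ∉ T → (π i).toFun b ∈ W i)
    (hglue : ∀ c : ∀ i, C i, (∀ i, i ∉ T → c i ∈ W i) → ∃ b : B, ∀ i, (π i).toFun b = c i)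
    (hW0 : ∀ i, i ∉ T → ∀ c ∈ W i, (Q i).D c = 0 → ∃ c' ∈ W i, (Q i).N c' = c)
    (hW1 : ∀ i, i ∉ T → ∀ c ∈ W i, (Q i).N c = 0 → ∃ c' ∈ W i, (Q i).D c' = c)
    (hfin : ∀ i ∈ T, (Q i).IsHFinite) : P.IsHFinite := by
  constructor
  · haveI : ∀ i : T, Finite (Q i).H0 := fun i => (hfin i i.2).1
    exact Finite.of_equiv _ (H0EquivPi hinj hmem hglue hW0).symm
  · haveI : ∀ i : T, Finite (Q i).H1 := fun i => (hfin i i.2).2
    exact Finite.of_equiv _ (H1EquivPi hinj hmem hglue hW1).symm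

/-- **Herbrand quotient of a product with cohomologically trivial factors outside `T`.** -/
theorem herbrand_eq_prod
    (hinj : ∀ b : B, (∀ i, (π i).toFun b = 0) → b = 0)
    (hmem : ∀ (b : B) (i : ι), i ∉ T → (π i).toFun b ∈ W i)
    (hglue : ∀ c : ∀ i, C i, (∀ i, i ∉ T → c i ∈ W i) → ∃ b : B, ∀ i, (π i).toFun b = c i)
    (hW0 : ∀ i, i ∉ T → ∀ c ∈ W i, (Q i).D c = 0 → ∃ c' ∈ W i, (Q i).N c' = c)
    (hW1 : ∀ i, i ∉ T → ∀ c ∈ W i, (Q i).N c = 0 → ∃ c' ∈ W i, (Q i).D c' = c) :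
    P.herbrand = ∏ i ∈ T, (Q i).herbrand := by
  unfold herbrand
  rw [card_H0_eq_prod hinj hmem hglue hW0, card_H1_eq_prod hinj hmem hglue hW1,
    Nat.cast_prod, Nat.cast_prod, Finset.prod_div_distrib]

end DNPair

end Fermat.Agent.CFT
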