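import Mathlib
import Fermat.Agent.CFT.Global.IdeleDefs
import Fermat.Agent.CFT.Global.RestrictedHerbrand

/-!
# Layer C, node C1b: Herbrand quotient of the `T`-ideles `J_{L,T}`

For a group `H` acting on the field `L`, `σ : H` with `σ ^ n = 1`, and a finite set `T` of primes
such that the integral semi-local units at `q ∉ T` have trivial `Ĥ⁰`, `Ĥ¹` (with respect to
`D = σ - 1`, `N = 1 + σ + ⋯ + σ^(n-1)`), the Herbrand quotient of
`J_{L,T} = ideleGroupOutside L T` is the product over `q ∈ T` of the Herbrand quotients of the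
semi-local unit groups `semiLocalUnits q L`.
-/

set_option autoImplicit false

noncomputable section

namespace Fermat.Agent.CFT

section SmulEnd

variable {G M : Type*} [Group G] [CommGroup M] [MulDistribMulAction G M]

/-- The additive endomorphism of `Additive M` given by the action of `g`. -/
def smulAddEnd (g : G) : AddMonoid.End (Additive M) :=
  MonoidHom.toAdditive (MulDistribMulAction.toMonoidHom M g)

@[simp]
theorem smulAddEnd_apply (g : G) (x : Additive M) :
    smulAddEnd g x = Additive.ofMul (g • x.toMul) := rfl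

theorem smulAddEnd_one : smulAddEnd (1 : G) = (1 : AddMonoid.End (Additive M)) := by
  ext x
  simp [smulAddEnd_apply]

theorem smulAddEnd_mul (g h : G) :
    (smulAddEnd (g * h) : AddMonoid.End (Additive M)) = smulAddEnd g * smulAddEnd h := by
  ext x
  simp [smulAddEnd_apply, mul_smul]

theorem smulAddEnd_pow (g : G) (n : ℕ) :
    (smulAddEnd (g ^ n) : AddMonoid.End (Additive M)) = smulAddEnd g ^ n := by
  induction n with
  | zero => rw [pow_zero, pow_zero, smulAddEnd_one]
  | succ n ih => rw [pow_succ, pow_succ, smulAddEnd_mul, ih]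

theorem smulAddEnd_pow_eq_one {g : G} {n : ℕ} (hg : g ^ n = 1) :
    (smulAddEnd g : AddMonoid.End (Additive M)) ^ n = 1 := by
  rw [← smulAddEnd_pow, hg, smulAddEnd_one]

/-- The `DNPair` `(σ - 1, 1 + σ + ⋯ + σ^(n-1))` on `Additive M` for an element `σ` with
`σ ^ n = 1` of a group acting on `M`. -/
def smulPair (g : G) (n : ℕ) (hg : g ^ n = 1) : DNPair (Additive M) :=
  DNPair.ofEnd (smulAddEnd g) n (smulAddEnd_pow_eq_one hg)

theorem smulPair_D_apply (g : G) (n : ℕ) (hg : g ^ n = 1) (x : Additive M) :
    (smulPair g n hg).D x = Additive.ofMul (g • x.toMul / x.toMul) := rfl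

theorem smulPair_N_apply (g : G) (n : ℕ) (hg : g ^ n = 1) (x : Additive M) :
    (smulPair g n hg).N x = Additive.ofMul (∏ k ∈ Finset.range n, g ^ k • x.toMul) := by
  unfold smulPair
  rw [DNPair.ofEnd_N_apply]
  simp only [← smulAddEnd_pow, smulAddEnd_apply]
  rw [ofMul_prod]

/-- An equivariant homomorphism induces a morphism of `smulPair`s. -/
def smulPairHom {M' : Type*} [CommGroup M'] [MulDistribMulAction G M'] (f : M →* M')
    (hf : ∀ (g : G) (x : M), f (g • x) = g • f x) (g : G) (n : ℕ) (hg : g ^ n = 1) :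
    DNPair.Hom (smulPair (M := M) g n hg) (smulPair (M := M') g n hg) where
  toFun := MonoidHom.toAdditive f
  map_D x := by
    rw [smulPair_D_apply, smulPair_D_apply]
    show Additive.ofMul (f (g • x.toMul / x.toMul)) = _
    rw [map_div, hf]
    rfl
  map_N x := by
    rw [smulPair_N_apply, smulPair_N_apply]
    show Additive.ofMul (f (∏ k ∈ Finset.range n, g ^ k • x.toMul)) = _
    rw [map_prod]
    simp only [hf]
    rfl

@[simp]
theorem smulPairHom_toFun_apply {M' : Type*} [CommGroup M'] [MulDistribMulAction G M']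
    (f : M →* M') (hf : ∀ (g : G) (x : M), f (g • x) = g • f x) (g : G) (n : ℕ)
    (hg : g ^ n = 1) (x : Additive M) :
    (smulPairHom f hf g n hg).toFun x = Additive.ofMul (f x.toMul) := rfl

end SmulEnd

section Outside

variable {L : Type} [Field L] {H : Type} [Group H] [MulSemiringAction H L]

/-- `H` acts on the `T`-ideles componentwise. -/
instance ideleOutsideAction (T : Set Nat.Primes) :
    MulDistribMulAction H (ideleGroupOutside L T) where
  smul σ x := ⟨fun q => σ • x.1 q, fun q hq => smul_mem_semiLocalIntegral σ (x.2 q hq)⟩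
  one_smul x := by
    apply Subtype.ext; funext q
    exact one_smul H (x.1 q)
  mul_smul σ ρ x := by
    apply Subtype.ext; funext q
    exact mul_smul σ ρ (x.1 q)
  smul_mul σ x y := by
    apply Subtype.ext; funext q
    exact smul_mul' σ (x.1 q) (y.1 q)
  smul_one σ := by
    apply Subtype.ext; funext q
    exact smul_one σ

@[simp]
theorem ideleOutside_smul_coe (T : Set Nat.Primes) (σ : H) (x : ideleGroupOutside L T)
    (q : Nat.Primes) :
    ((σ • x : ideleGroupOutside L T) : IdeleProd L) q = σ • (x : IdeleProd L) q := rfl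

/-- The projection `J_{L,T} → A_q L`. -/
def ideleOutsideProj (T : Set Nat.Primes) (q : Nat.Primes) :
    ideleGroupOutside L T →* semiLocalUnits (q : ℕ) L where
  toFun x := (x : IdeleProd L) q
  map_one' := rfl
  map_mul' _ _ := rfl

@[simp]
theorem ideleOutsideProj_apply (T : Set Nat.Primes) (q : Nat.Primes)
    (x : ideleGroupOutside L T) : ideleOutsideProj T q x = (x : IdeleProd L) q := rfl

/-- The integral semi-local units as an additive subgroup of `Additive (semiLocalUnits q L)`. -/
def semiLocalIntegralAdd (q : ℕ) [Fact q.Prime] : AddSubgroup (Additive (semiLocalUnits q L)) :=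
  Subgroup.toAddSubgroup (semiLocalIntegral q L)

theorem mem_semiLocalIntegralAdd {q : ℕ} [Fact q.Prime] {x : Additive (semiLocalUnits q L)} :
    x ∈ semiLocalIntegralAdd (L := L) q ↔ x.toMul ∈ semiLocalIntegral q L := Iff.rfl

/-- The projection `J_{L,T} → A_q L` as a morphism of `smulPair`s. -/
def ideleOutsidePairHom (T : Set Nat.Primes) (q : Nat.Primes) (σ : H) (n : ℕ) (hσ : σ ^ n = 1) :
    DNPair.Hom (smulPair (M := ideleGroupOutside L T) σ n hσ)
      (smulPair (M := semiLocalUnits (q : ℕ) L) σ n hσ) :=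
  smulPairHom (ideleOutsideProj (L := L) T q) (fun _ _ => rfl) σ n hσ

@[simp]
theorem ideleOutsidePairHom_toFun_apply (T : Set Nat.Primes) (q : Nat.Primes) (σ : H) (n : ℕ)
    (hσ : σ ^ n = 1) (x : Additive (ideleGroupOutside L T)) :
    (ideleOutsidePairHom (L := L) T q σ n hσ).toFun x =
      Additive.ofMul ((x.toMul : IdeleProd L) q) := rfl

/-- **Herbrand quotient of the `T`-ideles**: `h(J_{L,T}) = ∏_{q ∈ T} h(A_q L)` if the integral
semi-local units outside `T` have trivial `Ĥ⁰` and `Ĥ¹`. -/
theorem herbrand_ideleGroupOutside (T : Finset Nat.Primes) (σ : H) (n : ℕ) (hσ : σ ^ n = 1)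
    (hW0 : ∀ q : Nat.Primes, q ∉ T → ∀ c ∈ semiLocalIntegralAdd (L := L) (q : ℕ),
      (smulPair (M := semiLocalUnits (q : ℕ) L) σ n hσ).D c = 0 →
        ∃ c' ∈ semiLocalIntegralAdd (L := L) (q : ℕ),
          (smulPair (M := semiLocalUnits (q : ℕ) L) σ n hσ).N c' = c)
    (hW1 : ∀ q : Nat.Primes, q ∉ T → ∀ c ∈ semiLocalIntegralAdd (L := L) (q : ℕ),
      (smulPair (M := semiLocalUnits (q : ℕ) L) σ n hσ).N c = 0 →
        ∃ c' ∈ semiLocalIntegralAdd (L := L) (q : ℕ),
          (smulPair (M := semiLocalUnits (q : ℕ) L) σ n hσ).D c' = c) :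
    ((∀ q ∈ T, (smulPair (M := semiLocalUnits (q : ℕ) L) σ n hσ).IsHFinite) →
      (smulPair (M := ideleGroupOutside L (T : Set Nat.Primes)) σ n hσ).IsHFinite) ∧
    (smulPair (M := ideleGroupOutside L (T : Set Nat.Primes)) σ n hσ).herbrand =
      ∏ q ∈ T, (smulPair (M := semiLocalUnits (q : ℕ) L) σ n hσ).herbrand := by
  have hinj : ∀ b : Additive (ideleGroupOutside L (T : Set Nat.Primes)),
      (∀ q : Nat.Primes, (ideleOutsidePairHom (L := L) (T : Set Nat.Primes) q σ n hσ).toFun b = 0) →
        b = 0 := by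
    intro b hb
    apply Additive.toMul.injective
    apply Subtype.ext
    funext q
    exact congrArg Additive.toMul (hb q)
  have hmem : ∀ (b : Additive (ideleGroupOutside L (T : Set Nat.Primes))) (q : Nat.Primes),
      q ∉ T → (ideleOutsidePairHom (L := L) (T : Set Nat.Primes) q σ n hσ).toFun b ∈
        semiLocalIntegralAdd (L := L) (q : ℕ) := by
    intro b q hq
    exact b.toMul.2 q (by simpa using hq)
  have hglue : ∀ c : ∀ q : Nat.Primes, Additive (semiLocalUnits (q : ℕ) L),
      (∀ q : Nat.Primes, q ∉ T → c q ∈ semiLocalIntegralAdd (L := L) (q : ℕ)) →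
      ∃ b : Additive (ideleGroupOutside L (T : Set Nat.Primes)),
        ∀ q : Nat.Primes, (ideleOutsidePairHom (L := L) (T : Set Nat.Primes) q σ n hσ).toFun b = c q := by
    intro c hc
    refine ⟨Additive.ofMul ⟨fun q => (c q).toMul, fun q hq => hc q (by simpa using hq)⟩,
      fun q => rfl⟩
  exact ⟨fun hfin => DNPair.isHFinite_of_prod hinj hmem hglue hW0 hW1 hfin,
    DNPair.herbrand_eq_prod hinj hmem hglue hW0 hW1⟩

end Outside

end Fermat.Agent.CFT

end
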