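import Mathlib
import Fermat.Agent.CFT.Global.RestrictedCoh
import Fermat.Agent.CFT.Global.IdeleHerbrand

/-!
# Layer C, node C1b: the cyclic case — from the cocycle predicates to the `DNPair` hypotheses

For a finite cyclic group `H = ⟨σ⟩` of order `n` acting on a commutative group `M` and an
`H`-stable subgroup `U ≤ M`:

* `prod_univ_smul_eq_prod_range`: `∏_{g : H} g • b = ∏_{k < n} σ^k • b`;
* `NormSurjOn H U` gives the `Ĥ⁰`-hypothesis of `herbrand_ideleGroupOutside`
  (`exists_N_eq_of_normSurjOn`);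
* `H1TrivialOn H U` gives the `Ĥ¹`-hypothesis (`exists_D_eq_of_h1TrivialOn`).
-/

set_option autoImplicit false

open groupCohomology

namespace Fermat.Agent.CFT

section Cyclic

variable {H M : Type} [Group H] [CommGroup M] [MulDistribMulAction H M]

/-- The partial norms `F k = ∏_{j < k} σ^j • c`. -/
def partialNorm (σ : H) (c : M) (k : ℕ) : M := ∏ j ∈ Finset.range k, σ ^ j • c

theorem partialNorm_zero (σ : H) (c : M) : partialNorm σ c 0 = 1 := by
  simp [partialNorm]

theorem partialNorm_one (σ : H) (c : M) : partialNorm σ c 1 = c := by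
  simp [partialNorm]

theorem partialNorm_add (σ : H) (c : M) (a b : ℕ) :
    partialNorm σ c (a + b) = partialNorm σ c a * σ ^ a • partialNorm σ c b := by
  unfold partialNorm
  rw [Finset.prod_range_add, Finset.smul_prod']
  congr 1
  refine Finset.prod_congr rfl fun j _ => ?_
  rw [← mul_smul, ← pow_add]

theorem partialNorm_mem {U : Subgroup M} (hU : SmulStable H U) (σ : H) {c : M} (hc : c ∈ U)
    (k : ℕ) : partialNorm σ c k ∈ U :=
  Subgroup.prod_mem _ fun _ _ => hU _ _ hc

theorem partialNorm_add_mul {σ : H} {c : M} {n : ℕ}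
    (hc : partialNorm σ c n = 1) (k m : ℕ) :
    partialNorm σ c (k + m * n) = partialNorm σ c k := by
  induction m with
  | zero => simp
  | succ m ih =>
    rw [Nat.succ_mul, ← add_assoc, partialNorm_add, ih, hc, smul_one, mul_one]

theorem partialNorm_mod {σ : H} {c : M} {n : ℕ}
    (hc : partialNorm σ c n = 1) (k : ℕ) :
    partialNorm σ c (k % n) = partialNorm σ c k := by
  conv_rhs => rw [← Nat.mod_add_div k n, mul_comm n]
  rw [partialNorm_add_mul hc]

variable [Fintype H]

/-- For a cyclic group generated by `σ`, the norm is the product over the powers of `σ`. -/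
theorem prod_univ_smul_eq_prod_range {σ : H} (hσ : ∀ g : H, g ∈ Subgroup.zpowers σ) (b : M) :
    ∏ g : H, g • b = ∏ k ∈ Finset.range (orderOf σ), σ ^ k • b := by
  classical
  symm
  refine Finset.prod_bij (fun k _ => σ ^ k) (fun _ _ => Finset.mem_univ _) ?_ ?_
    (fun _ _ => rfl)
  · intro a ha b hb hab
    exact pow_injOn_Iio_orderOf (by simpa using ha) (by simpa using hb) hab
  · intro g _
    have hg := hσ g
    rw [← mem_powers_iff_mem_zpowers, mem_powers_iff_mem_range_orderOf] at hg
    obtain ⟨k, hk, rfl⟩ := Finset.mem_image.1 hg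
    exact ⟨k, hk, rfl⟩

theorem orderOf_eq_card_of_generator {σ : H} (hσ : ∀ g : H, g ∈ Subgroup.zpowers σ) :
    orderOf σ = Fintype.card H := by
  rw [orderOf_eq_card_of_forall_mem_zpowers hσ, Nat.card_eq_fintype_card]

/-- The `Ĥ⁰`-hypothesis in `DNPair` form from `NormSurjOn`. -/
theorem exists_N_eq_of_normSurjOn {σ : H} (hσ : ∀ g : H, g ∈ Subgroup.zpowers σ) {n : ℕ}
    (hn : orderOf σ = n) (hσn : σ ^ n = 1) {U : Subgroup M} (hU : NormSurjOn H U)
    (c : Additive M) (hc : c.toMul ∈ U) (hD : (smulPair (M := M) σ n hσn).D c = 0) :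
    ∃ c' : Additive M, c'.toMul ∈ U ∧ (smulPair (M := M) σ n hσn).N c' = c := by
  have hfix : σ • c.toMul = c.toMul := by
    rw [smulPair_D_apply] at hD
    have : σ • c.toMul / c.toMul = 1 := hD
    exact div_eq_one.1 this
  have hfix' : ∀ g : H, g • c.toMul = c.toMul := by
    intro g
    obtain ⟨k, rfl⟩ := Subgroup.mem_zpowers_iff.1 (hσ g)
    have hstab : σ ∈ MulAction.stabilizer H c.toMul := hfix
    exact (MulAction.stabilizer H c.toMul).zpow_mem hstab k
  obtain ⟨b, hbU, hb⟩ := hU _ hc hfix'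
  refine ⟨Additive.ofMul b, hbU, ?_⟩
  rw [smulPair_N_apply]
  show Additive.ofMul (∏ k ∈ Finset.range n, σ ^ k • b) = c
  rw [← hn, ← prod_univ_smul_eq_prod_range hσ, hb]
  rfl

/-- The `Ĥ¹`-hypothesis in `DNPair` form from `H1TrivialOn`. -/
theorem exists_D_eq_of_h1TrivialOn {σ : H} (hσ : ∀ g : H, g ∈ Subgroup.zpowers σ) {n : ℕ}
    (hn : orderOf σ = n) (hσn : σ ^ n = 1) {U : Subgroup M} (hUs : SmulStable H U)
    (hU : H1TrivialOn H U)
    (c : Additive M) (hc : c.toMul ∈ U) (hN : (smulPair (M := M) σ n hσn).N c = 0) :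
    ∃ c' : Additive M, c'.toMul ∈ U ∧ (smulPair (M := M) σ n hσn).D c' = c := by
  classical
  have hNc : partialNorm σ c.toMul n = 1 := by
    rw [smulPair_N_apply] at hN
    exact hN
  -- exponents
  have hex : ∀ g : H, ∃ k : ℕ, σ ^ k = g := by
    intro g
    have hg := hσ g
    rw [← mem_powers_iff_mem_zpowers] at hg
    exact (Submonoid.mem_powers_iff _ _).1 hg
  choose e he using hex
  have hperiod : ∀ a b : ℕ, σ ^ a = σ ^ b →
      partialNorm σ c.toMul a = partialNorm σ c.toMul b := by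
    intro a b hab
    have hmod : a % n = b % n := by
      rw [← hn]
      exact (pow_eq_pow_iff_modEq.1 hab)
    rw [← partialNorm_mod hNc a, ← partialNorm_mod hNc b, hmod]
  let f : H → M := fun g => partialNorm σ c.toMul (e g)
  have hfU : ∀ g, f g ∈ U := fun g => partialNorm_mem hUs σ hc _
  have hfc : IsMulCocycle₁ f := by
    intro g h
    show partialNorm σ c.toMul (e (g * h)) =
      g • partialNorm σ c.toMul (e h) * partialNorm σ c.toMul (e g)
    have h1 : σ ^ e (g * h) = σ ^ (e g + e h) := by rw [he, pow_add, he, he]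
    rw [hperiod _ _ h1, partialNorm_add, he, mul_comm]
  obtain ⟨x, hxU, hx⟩ := hU f hfU hfc
  refine ⟨Additive.ofMul x, hxU, ?_⟩
  rw [smulPair_D_apply]
  show Additive.ofMul (σ • x / x) = c
  rw [hx σ]
  show Additive.ofMul (partialNorm σ c.toMul (e σ)) = c
  have h1 : σ ^ e σ = σ ^ 1 := by rw [he, pow_one]
  rw [hperiod _ _ h1, partialNorm_one]
  rfl

end Cyclic

section Idele

variable {L : Type} [Field L] {H : Type} [Group H] [Fintype H] [MulSemiringAction H L]

omit [Fintype H] in
theorem smulStable_semiLocalIntegral (q : ℕ) [Fact q.Prime] :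
    SmulStable H (semiLocalIntegral q L) :=
  fun σ _ hf => smul_mem_semiLocalIntegral σ hf

/-- **Herbrand quotient of the `T`-ideles, cyclic case**: for `H = ⟨σ⟩` cyclic of order `n`, if
the integral semi-local units at every `q ∉ T` satisfy `NormSurjOn` and `H1TrivialOn`, then
`h(J_{L,T}) = ∏_{q ∈ T} h(A_q L)`. -/
theorem herbrand_ideleGroupOutside_of_cyclic (T : Finset Nat.Primes) {σ : H}
    (hσ : ∀ g : H, g ∈ Subgroup.zpowers σ) {n : ℕ} (hn : orderOf σ = n) (hσn : σ ^ n = 1)
    (hU0 : ∀ q : Nat.Primes, q ∉ T → NormSurjOn H (semiLocalIntegral (q : ℕ) L))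
    (hU1 : ∀ q : Nat.Primes, q ∉ T → H1TrivialOn H (semiLocalIntegral (q : ℕ) L)) :
    ((∀ q ∈ T, (smulPair (M := semiLocalUnits (q : ℕ) L) σ n hσn).IsHFinite) →
      (smulPair (M := ideleGroupOutside L (T : Set Nat.Primes)) σ n hσn).IsHFinite) ∧
    (smulPair (M := ideleGroupOutside L (T : Set Nat.Primes)) σ n hσn).herbrand =
      ∏ q ∈ T, (smulPair (M := semiLocalUnits (q : ℕ) L) σ n hσn).herbrand :=
  herbrand_ideleGroupOutside T σ n hσn
    (fun q hq c hc hD => exists_N_eq_of_normSurjOn hσ hn hσn (hU0 q hq) c hc hD)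
    (fun q hq c hc hN => exists_D_eq_of_h1TrivialOn hσ hn hσn
      (smulStable_semiLocalIntegral (q : ℕ)) (hU1 q hq) c hc hN)

end Idele

end Fermat.Agent.CFT
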