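import Fermat.Agent.CFT.Tate.InfResHigher

/-!
# Abstract class-formation lemmas (Layer C6)

Pure group cohomology, no arithmetic.

* `isZero_H3_of_isZero_H1_of_isCyclic`: periodicity for finite cyclic groups.
* For a short exact sequence `0 → X₁ → X₂ → X₃ → 0` of `G`-modules:
  `H2_g_surjective_of_isCyclic` (`G` finite cyclic, `H¹(G, X₁) = 0` ⟹ `H²(G, X₂) → H²(G, X₃)` onto),
  `H2_f_injective_of_isZero_H1` (`H¹(G, X₃) = 0` ⟹ `H²(G, X₁) → H²(G, X₂)` injective),
  `H2_exists_of_g_eq_zero` (exactness in the middle).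
* `exists_inf_eq_inf_of_card` (the Chevalley–Tate "cyclic layers exhaust `H²`" counting lemma):
  if `N₁, N₂ ⊴ G`, `H¹(Nᵢ, A) = 0`, `|H²(G/N₁, A^{N₁})| = p^a`, the `p`-primary part of
  `H²(G/N₂, A^{N₂})` has at most `p^a` elements, and every class inflated from `G/N₁` restricts to
  zero on `N₂`, then the `p`-primary classes inflated from `G/N₂` are exactly the classes inflated
  from `G/N₁`.
-/

set_option autoImplicit false

open CategoryTheory Limits groupCohomology Rep

namespace Fermat.Agent.CFT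

universe u

section Cyclic

variable {k G : Type u} [CommRing k] [Group G]

/-- Periodicity for finite cyclic groups: `H¹ = 0` implies `H³ = 0`. -/
theorem isZero_H3_of_isZero_H1_of_isCyclic [Finite G] [IsCyclic G] (A : Rep k G)
    (h : IsZero (groupCohomology A 1)) : IsZero (groupCohomology A 3) := by
  classical
  obtain ⟨g, hg⟩ := IsCyclic.exists_generator (α := G)
  let _ : CommGroup G := IsCyclic.commGroup
  let _ : Fintype G := Fintype.ofFinite G
  have e1 := Rep.FiniteCyclicGroup.groupCohomologyIsoOdd A g hg 1 (by decide)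
  have e3 := Rep.FiniteCyclicGroup.groupCohomologyIsoOdd A g hg 3 (by decide)
  exact IsZero.of_iso h (e3 ≪≫ e1.symm)

end Cyclic

section LES

variable {k G : Type u} [CommRing k] [Group G] {X : ShortComplex (Rep k G)} (hX : X.ShortExact)

include hX

/-- Exactness of `H²(G, X₁) → H²(G, X₂) → H²(G, X₃)` in elementwise form. -/
theorem H2_exists_of_g_eq_zero (x : groupCohomology X.X₂ 2)
    (hx : ((groupCohomology.functor k G 2).map X.g).hom x = 0) :
    ∃ y : groupCohomology X.X₁ 2, ((groupCohomology.functor k G 2).map X.f).hom y = x :=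
  (ShortComplex.moduleCat_exact_iff _).mp (mapShortComplex₂_exact hX 2) x hx

/-- If `H¹(G, X₃) = 0` then `H²(G, X₁) → H²(G, X₂)` is injective. -/
theorem H2_f_injective_of_isZero_H1 (h : IsZero (groupCohomology X.X₃ 1)) :
    Function.Injective ((groupCohomology.functor k G 2).map X.f).hom := by
  have hex := mapShortComplex₁_exact hX (i := 1) (j := 2) rfl
  have hmono : Mono (mapShortComplex₁ hX (i := 1) (j := 2) rfl).g :=
    hex.mono_g (h.eq_of_src _ _)
  exact (ModuleCat.mono_iff_injective _).mp hmono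

/-- If `H³(G, X₁) = 0` then `H²(G, X₂) → H²(G, X₃)` is surjective. -/
theorem H2_g_surjective_of_isZero_H3 (h : IsZero (groupCohomology X.X₁ 3)) :
    Function.Surjective ((groupCohomology.functor k G 2).map X.g).hom := by
  have hex := mapShortComplex₃_exact hX (i := 2) (j := 3) rfl
  have hepi : Epi (mapShortComplex₃ hX (i := 2) (j := 3) rfl).f :=
    hex.epi_f (h.eq_of_tgt _ _)
  exact (ModuleCat.epi_iff_surjective _).mp hepi

/-- Cyclic layers: if `G` is finite cyclic and `H¹(G, X₁) = 0` then `H²(G, X₂) → H²(G, X₃)` is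
surjective. -/
theorem H2_g_surjective_of_isCyclic [Finite G] [IsCyclic G]
    (h : IsZero (groupCohomology X.X₁ 1)) :
    Function.Surjective ((groupCohomology.functor k G 2).map X.g).hom :=
  H2_g_surjective_of_isZero_H3 hX (isZero_H3_of_isZero_H1_of_isCyclic X.X₁ h)

end LES

section Counting

/-- A subgroup of `p`-power order inside the `p`-primary part of a bigger group with at most as
many `p`-primary elements is the whole `p`-primary part. -/
theorem mem_of_card_pPrimary_le {H : Type*} [AddCommGroup H] (p a : ℕ) [Fact p.Prime]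
    (I₁ I₂ : AddSubgroup H) (h12 : I₁ ≤ I₂) (hcard₁ : Nat.card I₁ = p ^ a)
    (hfin : {x : H | x ∈ I₂ ∧ ∃ n : ℕ, p ^ n • x = 0}.Finite)
    (hcard₂ : Nat.card {x : H | x ∈ I₂ ∧ ∃ n : ℕ, p ^ n • x = 0} ≤ p ^ a)
    {x : H} (hx : x ∈ I₂) (hxp : ∃ n : ℕ, p ^ n • x = 0) : x ∈ I₁ := by
  classical
  set T : Set H := {x : H | x ∈ I₂ ∧ ∃ n : ℕ, p ^ n • x = 0} with hT
  have hfin1 : Finite I₁ := Nat.finite_of_card_ne_zero (by
    rw [hcard₁]; exact pow_ne_zero _ (Fact.out : p.Prime).pos.ne')
  have hsub : (I₁ : Set H) ⊆ T := by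
    intro y hy
    refine ⟨h12 hy, a, ?_⟩
    have h0 : Nat.card I₁ • (⟨y, hy⟩ : I₁) = 0 := card_nsmul_eq_zero'
    rw [hcard₁] at h0
    exact congrArg Subtype.val h0
  have hfinT : Finite T := hfin.to_subtype
  have hle : Nat.card T ≤ Nat.card (I₁ : Set H) := by
    have : Nat.card (I₁ : Set H) = p ^ a := hcard₁
    rw [this]; exact hcard₂
  have heq : (I₁ : Set H) = T :=
    Set.eq_of_subset_of_ncard_le hsub (by
      rw [← Nat.card_coe_set_eq, ← Nat.card_coe_set_eq]; exact hle) hfin
  have : x ∈ T := ⟨hx, hxp⟩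
  rw [← heq] at this
  exact this

end Counting

section CF

variable {k G : Type u} [CommRing k] [Group G] (A : Rep k G)

/-- **Cyclic layers exhaust the `p`-primary part of `H²`** (abstract Chevalley–Tate lemma).
`N₁` plays the role of the cyclic (cyclotomic) layer, `N₂` of an arbitrary layer. -/
theorem exists_inf_eq_inf_of_card (N₁ N₂ : Subgroup G) [N₁.Normal] [N₂.Normal]
    (h₁ : IsZero (groupCohomology (res N₁.subtype A) 1))
    (h₂ : IsZero (groupCohomology (res N₂.subtype A) 1))
    (p a : ℕ) [Fact p.Prime]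
    (hcard₁ : Nat.card (groupCohomology (A.quotientToInvariants N₁) 2) = p ^ a)
    (hfin₂ : {x : groupCohomology (A.quotientToInvariants N₂) 2 | ∃ n : ℕ, p ^ n • x = 0}.Finite)
    (hcard₂ : Nat.card {x : groupCohomology (A.quotientToInvariants N₂) 2 |
      ∃ n : ℕ, p ^ n • x = 0} ≤ p ^ a)
    (hres : ∀ y : groupCohomology (A.quotientToInvariants N₁) 2,
      (HnInfRes A N₂ 1).g.hom ((HnInfRes A N₁ 1).f.hom y) = 0)
    (x : groupCohomology (A.quotientToInvariants N₂) 2) (hx : ∃ n : ℕ, p ^ n • x = 0) :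
    ∃ y : groupCohomology (A.quotientToInvariants N₁) 2,
      (HnInfRes A N₁ 1).f.hom y = (HnInfRes A N₂ 1).f.hom x := by
  classical
  let inf₁ : groupCohomology (A.quotientToInvariants N₁) 2 →+ groupCohomology A 2 :=
    (HnInfRes A N₁ 1).f.hom.toAddMonoidHom
  let inf₂ : groupCohomology (A.quotientToInvariants N₂) 2 →+ groupCohomology A 2 :=
    (HnInfRes A N₂ 1).f.hom.toAddMonoidHom
  have hinj₁ : Function.Injective inf₁ := H2Inf_injective A N₁ h₁
  have hinj₂ : Function.Injective inf₂ := H2Inf_injective A N₂ h₂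
  have h12 : inf₁.range ≤ inf₂.range := by
    rintro _ ⟨y, rfl⟩
    obtain ⟨z, hz⟩ := H2_exists_inf_of_res_eq_zero A N₂ h₂ _ (hres y)
    exact ⟨z, hz⟩
  have hc1 : Nat.card inf₁.range = p ^ a := by
    rw [← hcard₁]
    exact (Nat.card_congr (Equiv.ofInjective inf₁ hinj₁)).symm
  -- the `p`-primary part of the image of `inf₂` is the image of the `p`-primary part
  set T₂ : Set (groupCohomology (A.quotientToInvariants N₂) 2) :=
    {x | ∃ n : ℕ, p ^ n • x = 0} with hT₂
  set T : Set (groupCohomology A 2) := {z | z ∈ inf₂.range ∧ ∃ n : ℕ, p ^ n • z = 0} with hT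
  have himg : T = inf₂ '' T₂ := by
    ext z
    constructor
    · rintro ⟨⟨w, rfl⟩, n, hn⟩
      refine ⟨w, ⟨n, hinj₂ ?_⟩, rfl⟩
      rw [map_nsmul, hn, map_zero]
    · rintro ⟨w, ⟨n, hn⟩, rfl⟩
      exact ⟨⟨w, rfl⟩, n, by rw [← map_nsmul, hn, map_zero]⟩
  have hfinT : T.Finite := by rw [himg]; exact hfin₂.image _
  have hcT : Nat.card T ≤ p ^ a := by
    rw [himg, Nat.card_image_of_injective hinj₂]
    exact hcard₂
  have hmem : inf₂ x ∈ inf₁.range := by
    refine mem_of_card_pPrimary_le p a inf₁.range inf₂.range h12 hc1 hfinT hcT ⟨x, rfl⟩ ?_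
    obtain ⟨n, hn⟩ := hx
    exact ⟨n, by rw [← map_nsmul, hn, map_zero]⟩
  obtain ⟨y, hy⟩ := hmem
  exact ⟨y, hy⟩

end CF

end Fermat.Agent.CFT
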