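import Fermat.Agent.CFT.Tate.H2Devissage

/-!
# C4 LayersAbstract: class-formation bounds for all finite layers from the cyclic degree-`p` layers

Let `Pr` be a predicate on pairs (finite group `P`, `ℤ[P]`-module `B`) ("`B` is the formation
module of a layer with group `P`") which is stable under restriction to subgroups, and let `p` be
a prime.  Assume that for every `(P, B)` satisfying `Pr` and every normal subgroup `N` of `P` of
index `p` (a *cyclic layer of degree `p`*)

* `H¹(P ⧸ N, B^N) = 0`, and
* `H²(P ⧸ N, B^N)` is finite of order at most `p`.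

Then for every `(G, A)` satisfying `Pr`:

* if `G` is a `p`-group: `H¹(G, A) = 0` (`isZero_H1_of_layers_pgroup`) and `H²(G, A)` is finite of
  order at most `|G|` (`card_H2_le_card_of_layers_pgroup`);
* for arbitrary finite `G`: the `p`-power torsion of `H¹(G, A)` vanishes
  (`pPowerTorsion_H1_eq_bot_of_layers`), the `p`-power torsion of `H²(G, A)` is finite of order
  dividing `p ^ v_p(|G|)` (`card_pPowerTorsion_H2_dvd_of_layers`), and if `u ∈ H²(G, A)` has order
  exactly `p ^ v_p(|G|)` then the `p`-power torsion of `H²(G, A)` is cyclic, generated by `u`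
  (`pPowerTorsion_H2_eq_zmultiples_of_layers`).

The `p`-group induction uses inflation–restriction in degrees one and two (`InfResHigher.lean`),
the passage to arbitrary finite groups uses restriction to a Sylow `p`-subgroup
(`ResCores.lean`).
-/

open CategoryTheory Limits groupCohomology Rep

namespace Fermat.Agent.CFT

section PPowerTorsion

/-- The subgroup of the elements of an abelian group killed by some power of `p`. -/
def pPowerTorsion (M : Type*) [AddCommGroup M] (p : ℕ) : AddSubgroup M where
  carrier := {x | ∃ m : ℕ, p ^ m • x = 0}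
  zero_mem' := ⟨0, smul_zero _⟩
  add_mem' := by
    rintro x y ⟨a, ha⟩ ⟨b, hb⟩
    refine ⟨a + b, ?_⟩
    have h1 : p ^ (a + b) • x = 0 := by rw [pow_add, mul_comm, mul_smul, ha, smul_zero]
    have h2 : p ^ (a + b) • y = 0 := by rw [pow_add, mul_smul, hb, smul_zero]
    rw [smul_add, h1, h2, add_zero]
  neg_mem' := by
    rintro x ⟨a, ha⟩
    exact ⟨a, by rw [smul_neg, ha, neg_zero]⟩

lemma mem_pPowerTorsion {M : Type*} [AddCommGroup M] {p : ℕ} {x : M} :
    x ∈ pPowerTorsion M p ↔ ∃ m : ℕ, p ^ m • x = 0 := Iff.rfl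

/-- An element whose additive order is a power of `p` lies in the `p`-power torsion. -/
lemma mem_pPowerTorsion_of_addOrderOf {M : Type*} [AddCommGroup M] {p : ℕ} {x : M} {m : ℕ}
    (h : addOrderOf x = p ^ m) : x ∈ pPowerTorsion M p :=
  ⟨m, by rw [← h]; exact addOrderOf_nsmul_eq_zero x⟩

/-- A finite `p`-power torsion group has `p`-power order. -/
lemma exists_card_pPowerTorsion_eq_pow (M : Type*) [AddCommGroup M] (p : ℕ) [hp : Fact p.Prime]
    [Finite (pPowerTorsion M p)] : ∃ n : ℕ, Nat.card (pPowerTorsion M p) = p ^ n := by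
  have h : IsPGroup p (Multiplicative (pPowerTorsion M p)) := by
    intro g
    obtain ⟨m, hm⟩ := (Multiplicative.toAdd g).2
    refine ⟨m, ?_⟩
    apply Multiplicative.toAdd.injective
    apply Subtype.ext
    simpa using hm
  have : Finite (Multiplicative (pPowerTorsion M p)) :=
    inferInstanceAs (Finite (pPowerTorsion M p))
  obtain ⟨n, hn⟩ := h.exists_card_eq
  exact ⟨n, (Nat.card_congr Multiplicative.ofAdd).trans hn⟩

end PPowerTorsion

section LayersAbstract

variable (Pr : ∀ (P : Type) [Group P], Rep.{0} ℤ P → Prop) (p : ℕ) [hp : Fact p.Prime]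

/-- A group of order `p ^ (n + 1)` has a normal subgroup of order `p ^ n` and index `p`. -/
lemma exists_normal_subgroup_index_eq (n : ℕ) (P : Type) [Group P] [Finite P]
    (hcard : Nat.card P = p ^ (n + 1)) :
    ∃ N : Subgroup P, N.Normal ∧ Nat.card N = p ^ n ∧ N.index = p := by
  obtain ⟨N, hN⟩ := Sylow.exists_subgroup_card_pow_prime (G := P) p (n := n)
    (by rw [hcard]; exact pow_dvd_pow p (Nat.le_succ n))
  have hidx : N.index = p := by
    have h := N.card_mul_index
    rw [hN, hcard, pow_succ] at h
    exact Nat.eq_of_mul_eq_mul_left (pow_pos hp.out.pos n) h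
  have hminFac : (Nat.card P).minFac = p := by
    rw [hcard]
    exact hp.out.pow_minFac (Nat.succ_ne_zero n)
  exact ⟨N, Subgroup.normal_of_index_eq_minFac_card (by rw [hidx, hminFac]), hN, hidx⟩

/-- **`H¹` of `p`-group layers vanishes**, by induction on the order from the cyclic layers of
degree `p`. -/
theorem isZero_H1_of_layers_pgroup
    (h_res : ∀ (P : Type) [Group P] [Finite P] (B : Rep ℤ P) (H : Subgroup P),
      Pr P B → Pr H (res H.subtype B))
    (h_cyc1 : ∀ (P : Type) [Group P] [Finite P] (B : Rep ℤ P) (N : Subgroup P) [N.Normal],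
      Pr P B → N.index = p → IsZero (groupCohomology (B.quotientToInvariants N) 1)) :
    ∀ (n : ℕ) (P : Type) [Group P] [Finite P] (B : Rep ℤ P), Nat.card P = p ^ n → Pr P B →
      IsZero (groupCohomology B 1) := by
  intro n
  induction n with
  | zero =>
    intro P _ _ B hcard _
    have hsub : Subsingleton P := (Nat.card_eq_one_iff_unique.1 (by simpa using hcard)).1
    exact isZero_groupCohomology_succ_of_subsingleton B 0
  | succ n ih =>
    intro P _ _ B hcard hB
    obtain ⟨N, hNn, hN, hidx⟩ := exists_normal_subgroup_index_eq p n P hcard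
    have hPN : Pr N (res N.subtype B) := h_res P B N hB
    have hzN : IsZero (groupCohomology (res N.subtype B) 1) := ih N (res N.subtype B) hN hPN
    have hzQ : IsZero (groupCohomology (B.quotientToInvariants N) 1) := h_cyc1 P B N hB hidx
    have hsN : Subsingleton (groupCohomology (res N.subtype B) 1) :=
      ModuleCat.subsingleton_of_isZero hzN
    have hsQ : Subsingleton (groupCohomology (B.quotientToInvariants N) 1) :=
      ModuleCat.subsingleton_of_isZero hzQ
    rw [ModuleCat.isZero_iff_subsingleton]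
    refine ⟨fun x y => ?_⟩
    have key : ∀ z : groupCohomology B 1, z = 0 := by
      intro z
      obtain ⟨w, hw⟩ := HnInfRes_exists_of_g_eq_zero B N 0
        (fun i hi => absurd hi (Nat.not_lt_zero i)) z (hsN.elim _ _)
      have hw0 : w = 0 := hsQ.elim _ _
      rw [← hw, hw0]
      exact map_zero _
    rw [key x, key y]

/-- **`|H²| ≤ |G|` for `p`-group layers**, from the cyclic layers of degree `p`. -/
theorem card_H2_le_card_of_layers_pgroup
    (h_res : ∀ (P : Type) [Group P] [Finite P] (B : Rep ℤ P) (H : Subgroup P),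
      Pr P B → Pr H (res H.subtype B))
    (h_cyc1 : ∀ (P : Type) [Group P] [Finite P] (B : Rep ℤ P) (N : Subgroup P) [N.Normal],
      Pr P B → N.index = p → IsZero (groupCohomology (B.quotientToInvariants N) 1))
    (h_cyc2 : ∀ (P : Type) [Group P] [Finite P] (B : Rep ℤ P) (N : Subgroup P) [N.Normal],
      Pr P B → N.index = p →
      Finite (groupCohomology (B.quotientToInvariants N) 2) ∧
        Nat.card (groupCohomology (B.quotientToInvariants N) 2) ≤ p)
    (n : ℕ) (P : Type) [Group P] [Finite P] (B : Rep ℤ P) (hcard : Nat.card P = p ^ n)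
    (hB : Pr P B) :
    Finite (groupCohomology B 2) ∧ Nat.card (groupCohomology B 2) ≤ Nat.card P := by
  refine card_H2_le_card_of_hereditary_pgroup
    (fun (Q : Type) [Group Q] (C : Rep ℤ Q) => Pr Q C ∧ ∃ m : ℕ, Nat.card Q = p ^ m)
    ?_ ?_ ?_ p n P B hcard ⟨hB, n, hcard⟩
  · rintro Q _ _ C H ⟨hC, m, hm⟩
    refine ⟨h_res Q C H hC, ?_⟩
    have hdvd : Nat.card H ∣ p ^ m := hm ▸ Subgroup.card_subgroup_dvd_card H
    obtain ⟨j, -, hj⟩ := (Nat.dvd_prime_pow hp.out).1 hdvd
    exact ⟨j, hj⟩
  · rintro Q _ _ C ⟨hC, m, hm⟩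
    exact isZero_H1_of_layers_pgroup Pr p h_res h_cyc1 m Q C hm hC
  · rintro Q _ _ C N _ ⟨hC, m, hm⟩ hprime
    have hdvd : N.index ∣ p ^ m := hm ▸ Subgroup.index_dvd_card N
    have hidx : N.index = p :=
      (Nat.prime_dvd_prime_iff_eq hprime hp.out).1 (hprime.dvd_of_dvd_pow hdvd)
    obtain ⟨hfin, hle⟩ := h_cyc2 Q C N hC hidx
    exact ⟨hfin, hle.trans hidx.ge⟩

/-- **`H¹(G, A)` has no `p`-power torsion**, for every finite layer `(G, A)`. -/
theorem pPowerTorsion_H1_eq_bot_of_layers
    (h_res : ∀ (P : Type) [Group P] [Finite P] (B : Rep ℤ P) (H : Subgroup P),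
      Pr P B → Pr H (res H.subtype B))
    (h_cyc1 : ∀ (P : Type) [Group P] [Finite P] (B : Rep ℤ P) (N : Subgroup P) [N.Normal],
      Pr P B → N.index = p → IsZero (groupCohomology (B.quotientToInvariants N) 1))
    (G : Type) [Group G] [Finite G] (A : Rep ℤ G) (hA : Pr G A) :
    pPowerTorsion (groupCohomology A 1) p = ⊥ := by
  rw [eq_bot_iff]
  rintro x ⟨m, hm⟩
  let Q : Sylow p G := Classical.arbitrary _
  have hz : IsZero (groupCohomology (res (Q : Subgroup G).subtype A) 1) :=
    isZero_H1_of_layers_pgroup Pr p h_res h_cyc1 _ (Q : Subgroup G)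
      (res (Q : Subgroup G).subtype A) Q.card_eq_multiplicity (h_res G A (Q : Subgroup G) hA)
  have hs : Subsingleton (groupCohomology (res (Q : Subgroup G).subtype A) 1) :=
    ModuleCat.subsingleton_of_isZero hz
  exact eq_zero_of_resCoh_sylow Q A 1 x m hm (hs.elim _ _)

/-- Restriction to a Sylow `p`-subgroup, on the `p`-power torsion of `H²`. -/
theorem card_pPowerTorsion_H2_le_of_layers
    (h_res : ∀ (P : Type) [Group P] [Finite P] (B : Rep ℤ P) (H : Subgroup P),
      Pr P B → Pr H (res H.subtype B))
    (h_cyc1 : ∀ (P : Type) [Group P] [Finite P] (B : Rep ℤ P) (N : Subgroup P) [N.Normal],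
      Pr P B → N.index = p → IsZero (groupCohomology (B.quotientToInvariants N) 1))
    (h_cyc2 : ∀ (P : Type) [Group P] [Finite P] (B : Rep ℤ P) (N : Subgroup P) [N.Normal],
      Pr P B → N.index = p →
      Finite (groupCohomology (B.quotientToInvariants N) 2) ∧
        Nat.card (groupCohomology (B.quotientToInvariants N) 2) ≤ p)
    (G : Type) [Group G] [Finite G] (A : Rep ℤ G) (hA : Pr G A) :
    Finite (pPowerTorsion (groupCohomology A 2) p) ∧
      Nat.card (pPowerTorsion (groupCohomology A 2) p) ≤ p ^ (Nat.card G).factorization p := by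
  let Q : Sylow p G := Classical.arbitrary _
  obtain ⟨hfin, hle⟩ := card_H2_le_card_of_layers_pgroup Pr p h_res h_cyc1 h_cyc2 _
    (Q : Subgroup G) (res (Q : Subgroup G).subtype A) Q.card_eq_multiplicity
    (h_res G A (Q : Subgroup G) hA)
  let φ : pPowerTorsion (groupCohomology A 2) p →
      groupCohomology (res (Q : Subgroup G).subtype A) 2 :=
    fun x => resCoh (Q : Subgroup G) A 2 x.1
  have hφ : Function.Injective φ := by
    rintro ⟨x, a, ha⟩ ⟨y, b, hb⟩ hxy
    apply Subtype.ext
    show x = y
    rw [← sub_eq_zero]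
    have hxy' : resCoh (Q : Subgroup G) A 2 x = resCoh (Q : Subgroup G) A 2 y := hxy
    refine eq_zero_of_resCoh_sylow Q A 2 (x - y) (a + b) ?_ ?_
    · have h1 : p ^ (a + b) • x = 0 := by rw [pow_add, mul_comm, mul_smul, ha, smul_zero]
      have h2 : p ^ (a + b) • y = 0 := by rw [pow_add, mul_smul, hb, smul_zero]
      rw [smul_sub, h1, h2, sub_zero]
    · rw [map_sub, hxy', sub_self]
  refine ⟨Finite.of_injective φ hφ, ?_⟩
  calc Nat.card (pPowerTorsion (groupCohomology A 2) p)
      ≤ Nat.card (groupCohomology (res (Q : Subgroup G).subtype A) 2) :=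
        Nat.card_le_card_of_injective φ hφ
    _ ≤ Nat.card (Q : Subgroup G) := hle
    _ = p ^ (Nat.card G).factorization p := Q.card_eq_multiplicity

/-- **The `p`-part of `|H²(G, A)|` divides the `p`-part of `|G|`**, for every finite layer. -/
theorem card_pPowerTorsion_H2_dvd_of_layers
    (h_res : ∀ (P : Type) [Group P] [Finite P] (B : Rep ℤ P) (H : Subgroup P),
      Pr P B → Pr H (res H.subtype B))
    (h_cyc1 : ∀ (P : Type) [Group P] [Finite P] (B : Rep ℤ P) (N : Subgroup P) [N.Normal],
      Pr P B → N.index = p → IsZero (groupCohomology (B.quotientToInvariants N) 1))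
    (h_cyc2 : ∀ (P : Type) [Group P] [Finite P] (B : Rep ℤ P) (N : Subgroup P) [N.Normal],
      Pr P B → N.index = p →
      Finite (groupCohomology (B.quotientToInvariants N) 2) ∧
        Nat.card (groupCohomology (B.quotientToInvariants N) 2) ≤ p)
    (G : Type) [Group G] [Finite G] (A : Rep ℤ G) (hA : Pr G A) :
    Nat.card (pPowerTorsion (groupCohomology A 2) p) ∣ p ^ (Nat.card G).factorization p := by
  obtain ⟨hfin, hle⟩ := card_pPowerTorsion_H2_le_of_layers Pr p h_res h_cyc1 h_cyc2 G A hA
  obtain ⟨n, hn⟩ := exists_card_pPowerTorsion_eq_pow (groupCohomology A 2) p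
  rw [hn] at hle ⊢
  exact pow_dvd_pow p ((Nat.pow_le_pow_iff_right hp.out.one_lt).1 hle)

/-- **Cyclicity of the `p`-part of `H²`**: a class `u ∈ H²(G, A)` of order exactly the `p`-part of
`|G|` generates the `p`-power torsion of `H²(G, A)`, which therefore is cyclic of that order. -/
theorem pPowerTorsion_H2_eq_zmultiples_of_layers
    (h_res : ∀ (P : Type) [Group P] [Finite P] (B : Rep ℤ P) (H : Subgroup P),
      Pr P B → Pr H (res H.subtype B))
    (h_cyc1 : ∀ (P : Type) [Group P] [Finite P] (B : Rep ℤ P) (N : Subgroup P) [N.Normal],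
      Pr P B → N.index = p → IsZero (groupCohomology (B.quotientToInvariants N) 1))
    (h_cyc2 : ∀ (P : Type) [Group P] [Finite P] (B : Rep ℤ P) (N : Subgroup P) [N.Normal],
      Pr P B → N.index = p →
      Finite (groupCohomology (B.quotientToInvariants N) 2) ∧
        Nat.card (groupCohomology (B.quotientToInvariants N) 2) ≤ p)
    (G : Type) [Group G] [Finite G] (A : Rep ℤ G) (hA : Pr G A)
    (u : groupCohomology A 2) (hu : addOrderOf u = p ^ (Nat.card G).factorization p) :
    pPowerTorsion (groupCohomology A 2) p = AddSubgroup.zmultiples u ∧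
      Nat.card (pPowerTorsion (groupCohomology A 2) p) = p ^ (Nat.card G).factorization p := by
  obtain ⟨hfin, hle⟩ := card_pPowerTorsion_H2_le_of_layers Pr p h_res h_cyc1 h_cyc2 G A hA
  have hsub : AddSubgroup.zmultiples u ≤ pPowerTorsion (groupCohomology A 2) p := by
    rw [AddSubgroup.zmultiples_le]
    exact mem_pPowerTorsion_of_addOrderOf hu
  have hcu : Nat.card (AddSubgroup.zmultiples u) = p ^ (Nat.card G).factorization p := by
    rw [Nat.card_zmultiples, hu]
  have heq : AddSubgroup.zmultiples u = pPowerTorsion (groupCohomology A 2) p :=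
    AddSubgroup.eq_of_le_of_card_ge hsub (by rw [hcu]; exact hle)
  exact ⟨heq.symm, by rw [← heq, hcu]⟩

end LayersAbstract

end Fermat.Agent.CFT
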