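import Fermat.Agent.CFT.Global.CyclicFund
import Fermat.Agent.CFT.Global.FormationCF
import Fermat.Agent.CFT.Global.LayersAbstract

/-!
# From cyclic layers to arbitrary layers (C6a, part b3)

Functoriality of `ideleGalMap`, `ideleClassGalMap` for composable squares, and the Artin–Tate
comparison in field language: if `E/K` is a cyclic layer of degree `p^a` with injective invariant
`ψ_E` of image `(1/p^a)ℤ/ℤ`, `L/K` a layer with `p^a ∣ [L : K]` whose `H²(L/K, C_L)` has at most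
`p^a` elements of `p`-power order, `M ⊇ L, E`, and the layer `M/L` carries an injective invariant
with `ψ_{M/L} ∘ res = [L : K] • ψ_E`, then the `p`-primary classes of `H²(L/K, C_L)` become, after
inflation to `M`, inflations of classes of `H²(E/K, C_E)`.
-/

open CategoryTheory groupCohomology Rep

namespace Fermat.Agent.CFT

noncomputable section

section CompBase

variable {L₁ L₂ L₃ : Type} [Field L₁] [Field L₂] [Field L₃] [Algebra L₁ L₂] [Algebra L₂ L₃]
  [Algebra L₁ L₃] [IsScalarTower L₁ L₂ L₃]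

theorem ideleMap_algebraMap_comp (x : ideleGroup L₁) :
    ideleMap (algebraMap L₂ L₃) (ideleMap (algebraMap L₁ L₂) x) =
      ideleMap (algebraMap L₁ L₃) x := by
  apply Subtype.ext
  funext q
  apply Subtype.ext
  funext τ
  show ((x : IdeleProd L₁) q : LocalEmb (q : ℕ) L₁ → (PadicAlgCl (q : ℕ))ˣ)
      ((τ.comp (algebraMap L₂ L₃)).comp (algebraMap L₁ L₂)) =
    ((x : IdeleProd L₁) q : LocalEmb (q : ℕ) L₁ → (PadicAlgCl (q : ℕ))ˣ)
      (τ.comp (algebraMap L₁ L₃))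
  have h : (τ.comp (algebraMap L₂ L₃)).comp (algebraMap L₁ L₂) = τ.comp (algebraMap L₁ L₃) := by
    refine RingHom.ext fun y => ?_
    simp only [RingHom.comp_apply]
    rw [← IsScalarTower.algebraMap_apply L₁ L₂ L₃]
  rw [h]

end CompBase

section Comp

variable (K₁ L₁ K₂ L₂ K₃ L₃ : Type) [Field K₁] [Field L₁] [Field K₂] [Field L₂] [Field K₃]
  [Field L₃] [Algebra K₁ L₁] [Algebra K₂ L₂] [Algebra K₃ L₃]
  [Algebra K₁ K₂] [Algebra L₁ L₂] [Algebra K₁ L₂] [IsScalarTower K₁ K₂ L₂]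
  [IsScalarTower K₁ L₁ L₂] [Normal K₁ L₁]
  [Algebra K₂ K₃] [Algebra L₂ L₃] [Algebra K₂ L₃] [IsScalarTower K₂ K₃ L₃]
  [IsScalarTower K₂ L₂ L₃] [Normal K₂ L₂]
  [Algebra K₁ K₃] [Algebra L₁ L₃] [Algebra K₁ L₃] [IsScalarTower K₁ K₃ L₃]
  [IsScalarTower K₁ L₁ L₃] [IsScalarTower L₁ L₂ L₃]

/-- Functoriality of `ideleGalMap` for a composable pair of squares. -/
theorem ideleGalMap_comp (n : ℕ) :
    ideleGalMap K₁ L₁ K₂ L₂ n ≫ ideleGalMap K₂ L₂ K₃ L₃ n = ideleGalMap K₁ L₁ K₃ L₃ n := by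
  rw [ideleGalMap, ideleGalMap, ideleGalMap, ← groupCohomology.map_comp]
  refine groupCohomology.map_congr (galRes_comp K₁ L₁ K₂ L₂ K₃ L₃) ?_ n
  refine LinearMap.ext fun x => ?_
  exact congrArg Additive.ofMul
    (ideleMap_algebraMap_comp (L₂ := L₂) (L₃ := L₃) (Additive.toMul x))

/-- Functoriality of `ideleClassGalMap` for a composable pair of squares. -/
theorem ideleClassGalMap_comp (n : ℕ) :
    ideleClassGalMap K₁ L₁ K₂ L₂ n ≫ ideleClassGalMap K₂ L₂ K₃ L₃ n =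
      ideleClassGalMap K₁ L₁ K₃ L₃ n := by
  rw [ideleClassGalMap, ideleClassGalMap, ideleClassGalMap, ← groupCohomology.map_comp]
  refine groupCohomology.map_congr (galRes_comp K₁ L₁ K₂ L₂ K₃ L₃) ?_ n
  refine LinearMap.ext fun c => ?_
  obtain ⟨x, hx⟩ := QuotientGroup.mk_surjective (Additive.toMul c)
  have hc : c = Additive.ofMul (QuotientGroup.mk x : ideleClass L₁) :=
    (congrArg Additive.ofMul hx).symm
  rw [hc]
  exact congrArg (fun y => Additive.ofMul (QuotientGroup.mk y : ideleClass L₃))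
    (ideleMap_algebraMap_comp (L₂ := L₂) (L₃ := L₃) x)

theorem ideleClassGalMap_comp_apply (n : ℕ)
    (x : groupCohomology (ideleClassRep L₁ (L₁ ≃ₐ[K₁] L₁)) n) :
    (ideleClassGalMap K₂ L₂ K₃ L₃ n).hom ((ideleClassGalMap K₁ L₁ K₂ L₂ n).hom x) =
      (ideleClassGalMap K₁ L₁ K₃ L₃ n).hom x :=
  ConcreteCategory.congr_hom (ideleClassGalMap_comp K₁ L₁ K₂ L₂ K₃ L₃ n) x

end Comp

section Abstract

/-- **Abstract Artin–Tate comparison.**  `H₁ = H²(E/K, C_E)`, `H₂ = H²(L/K, C_L)`,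
`H = H²(M/K, C_M)`, `H' = H²(M/L, C_M)`; `i₁`, `i₂` inflations, `r` restriction. -/
theorem exists_eq_of_card_pPrimary {H₁ H₂ H H' : Type*} [AddCommGroup H₁] [AddCommGroup H₂]
    [AddCommGroup H] [AddCommGroup H'] (i₁ : H₁ →+ H) (i₂ : H₂ →+ H) (r : H →+ H')
    (hi₁ : Function.Injective i₁) (hi₂ : Function.Injective i₂)
    (hexact : ∀ z : H, r z = 0 → ∃ x : H₂, i₂ x = z)
    (p a d : ℕ) [Fact p.Prime] (hd : p ^ a ∣ d)
    (ψ₁ : H₁ →+ AddCircle (1 : ℚ)) (hψ₁ : Function.Injective ψ₁)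
    (hψ₁range : ψ₁.range = AddSubgroup.zmultiples
      ((((1 : ℚ) / ((p ^ a : ℕ) : ℚ) : ℚ)) : AddCircle (1 : ℚ)))
    (ψ' : H' →+ AddCircle (1 : ℚ)) (hψ' : Function.Injective ψ')
    (hcompat : ∀ y : H₁, ψ' (r (i₁ y)) = d • ψ₁ y)
    (hfin₂ : {x : H₂ | ∃ n : ℕ, p ^ n • x = 0}.Finite)
    (hcard₂ : Nat.card {x : H₂ | ∃ n : ℕ, p ^ n • x = 0} ≤ p ^ a)
    (x : H₂) (hx : ∃ n : ℕ, p ^ n • x = 0) :
    ∃ y : H₁, i₁ y = i₂ x := by
  have hpa : 0 < p ^ a := pow_pos (Fact.out : p.Prime).pos a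
  -- classes inflated from `E/K` restrict to zero on `M/L`
  have hres : ∀ y : H₁, r (i₁ y) = 0 := by
    intro y
    apply hψ'
    rw [hcompat, map_zero]
    obtain ⟨c, rfl⟩ := hd
    have hy : ψ₁ y ∈ ψ₁.range := ⟨y, rfl⟩
    rw [hψ₁range, AddSubgroup.mem_zmultiples_iff] at hy
    obtain ⟨m, hm⟩ := hy
    have h0 : (p ^ a) • ((((1 : ℚ) / ((p ^ a : ℕ) : ℚ) : ℚ)) : AddCircle (1 : ℚ)) = 0 := by
      have := addOrderOf_nsmul_eq_zero ((((1 : ℚ) / ((p ^ a : ℕ) : ℚ) : ℚ)) : AddCircle (1 : ℚ))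
      rwa [addOrderOf_one_div hpa] at this
    rw [← hm, mul_nsmul, smul_comm (p ^ a) m, h0, smul_zero, smul_zero]
  have h12 : i₁.range ≤ i₂.range := by
    rintro _ ⟨y, rfl⟩
    obtain ⟨z, hz⟩ := hexact _ (hres y)
    exact ⟨z, hz⟩
  have hc1 : Nat.card i₁.range = p ^ a := by
    rw [← card_zmultiples_one_div hpa, ← hψ₁range]
    exact (Nat.card_congr (Equiv.ofInjective i₁ hi₁)).symm.trans
      (Nat.card_congr (Equiv.ofInjective ψ₁ hψ₁))
  set T₂ : Set H₂ := {x | ∃ n : ℕ, p ^ n • x = 0} with hT₂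
  set T : Set H := {z | z ∈ i₂.range ∧ ∃ n : ℕ, p ^ n • z = 0} with hT
  have himg : T = i₂ '' T₂ := by
    ext z
    constructor
    · rintro ⟨⟨w, rfl⟩, n, hn⟩
      refine ⟨w, ⟨n, hi₂ ?_⟩, rfl⟩
      rw [map_nsmul, hn, map_zero]
    · rintro ⟨w, ⟨n, hn⟩, rfl⟩
      exact ⟨⟨w, rfl⟩, n, by rw [← map_nsmul, hn, map_zero]⟩
  have hfinT : T.Finite := by rw [himg]; exact hfin₂.image _
  have hcT : Nat.card T ≤ p ^ a := by
    rw [himg, Nat.card_image_of_injective hi₂]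
    exact hcard₂
  have hmem : i₂ x ∈ i₁.range := by
    refine mem_of_card_pPrimary_le p a i₁.range i₂.range h12 hc1 hfinT hcT ⟨x, rfl⟩ ?_
    obtain ⟨n, hn⟩ := hx
    exact ⟨n, by rw [← map_nsmul, hn, map_zero]⟩
  obtain ⟨y, hy⟩ := hmem
  exact ⟨y, hy⟩

end Abstract

section AbstractInv

/-- **Abstract Artin–Tate invariant.**  In the situation of `exists_eq_of_card_pPrimary`, the
`p`-power torsion of `H₂` is isomorphic to `H₁`, hence carries an injective invariant with image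
`(1/p^a)ℤ/ℤ`, characterised by `inv x = ψ₁ y` whenever `i₁ y = i₂ x`. -/
theorem exists_pPrimaryInv_of_card {H₁ H₂ H H' : Type*} [AddCommGroup H₁] [AddCommGroup H₂]
    [AddCommGroup H] [AddCommGroup H'] (i₁ : H₁ →+ H) (i₂ : H₂ →+ H) (r : H →+ H')
    (hi₁ : Function.Injective i₁) (hi₂ : Function.Injective i₂)
    (hexact : ∀ z : H, r z = 0 → ∃ x : H₂, i₂ x = z)
    (p a d : ℕ) [Fact p.Prime] (hd : p ^ a ∣ d)
    (ψ₁ : H₁ →+ AddCircle (1 : ℚ)) (hψ₁ : Function.Injective ψ₁)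
    (hψ₁range : ψ₁.range = AddSubgroup.zmultiples
      ((((1 : ℚ) / ((p ^ a : ℕ) : ℚ) : ℚ)) : AddCircle (1 : ℚ)))
    (ψ' : H' →+ AddCircle (1 : ℚ)) (hψ' : Function.Injective ψ')
    (hcompat : ∀ y : H₁, ψ' (r (i₁ y)) = d • ψ₁ y)
    (hfin₂ : Finite (pPowerTorsion H₂ p))
    (hcard₂ : Nat.card (pPowerTorsion H₂ p) ≤ p ^ a) :
    ∃ inv : pPowerTorsion H₂ p →+ AddCircle (1 : ℚ),
      Function.Injective inv ∧
      inv.range = AddSubgroup.zmultiples
        ((((1 : ℚ) / ((p ^ a : ℕ) : ℚ) : ℚ)) : AddCircle (1 : ℚ)) ∧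
      (∀ (x : pPowerTorsion H₂ p) (y : H₁), i₁ y = i₂ x.1 → inv x = ψ₁ y) ∧
      (∀ x : pPowerTorsion H₂ p, ∃ y : H₁, i₁ y = i₂ x.1) ∧
      (∀ y : H₁, ∃ x : pPowerTorsion H₂ p, i₁ y = i₂ x.1) ∧
      Nat.card (pPowerTorsion H₂ p) = p ^ a := by
  have hpa : 0 < p ^ a := pow_pos (Fact.out : p.Prime).pos a
  have hA : ∀ x : pPowerTorsion H₂ p, ∃ y : H₁, i₁ y = i₂ x.1 := fun x =>
    exists_eq_of_card_pPrimary i₁ i₂ r hi₁ hi₂ hexact p a d hd ψ₁ hψ₁ hψ₁range ψ' hψ' hcompat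
      (Set.finite_coe_iff.1 hfin₂) hcard₂ x.1 x.2
  choose φ hφ using hA
  have hφadd : ∀ x y, φ (x + y) = φ x + φ y := by
    intro x y
    apply hi₁
    rw [map_add, hφ, hφ, hφ]
    exact map_add i₂ x.1 y.1
  let Φ : pPowerTorsion H₂ p →+ H₁ := AddMonoidHom.mk' φ hφadd
  have hΦ : ∀ x, i₁ (Φ x) = i₂ x.1 := hφ
  have hΦinj : Function.Injective Φ := by
    intro x y hxy
    apply Subtype.ext
    apply hi₂
    rw [← hΦ, ← hΦ, hxy]
  -- every class of `H₁` is killed by `p ^ a`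
  have hkill : ∀ y : H₁, p ^ a • y = 0 := by
    intro y
    apply hψ₁
    rw [map_nsmul, map_zero]
    have hy : ψ₁ y ∈ ψ₁.range := ⟨y, rfl⟩
    rw [hψ₁range, AddSubgroup.mem_zmultiples_iff] at hy
    obtain ⟨m, hm⟩ := hy
    have h0 : (p ^ a) • ((((1 : ℚ) / ((p ^ a : ℕ) : ℚ) : ℚ)) : AddCircle (1 : ℚ)) = 0 := by
      have := addOrderOf_nsmul_eq_zero ((((1 : ℚ) / ((p ^ a : ℕ) : ℚ) : ℚ)) : AddCircle (1 : ℚ))
      rwa [addOrderOf_one_div hpa] at this
    rw [← hm, smul_comm (p ^ a) m, h0, smul_zero]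
  have hres : ∀ y : H₁, r (i₁ y) = 0 := by
    intro y
    apply hψ'
    rw [hcompat, map_zero]
    obtain ⟨c, rfl⟩ := hd
    rw [mul_nsmul, ← map_nsmul, hkill, map_zero, smul_zero]
  have hB : ∀ y : H₁, ∃ x : pPowerTorsion H₂ p, i₁ y = i₂ x.1 := by
    intro y
    obtain ⟨x, hx⟩ := hexact _ (hres y)
    refine ⟨⟨x, a, hi₂ ?_⟩, hx.symm⟩
    rw [map_nsmul, hx, ← map_nsmul, hkill, map_zero, map_zero]
  have hΦsurj : Function.Surjective Φ := by
    intro y
    obtain ⟨x, hx⟩ := hB y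
    exact ⟨x, hi₁ ((hΦ x).trans hx.symm)⟩
  refine ⟨ψ₁.comp Φ, hψ₁.comp hΦinj, ?_, ?_, fun x => ⟨φ x, hφ x⟩, hB, ?_⟩
  · rw [AddMonoidHom.range_comp, AddMonoidHom.range_eq_top.2 hΦsurj, ← AddMonoidHom.range_eq_map,
      hψ₁range]
  · intro x y hxy
    have : Φ x = y := hi₁ ((hΦ x).trans hxy.symm)
    rw [AddMonoidHom.comp_apply, this]
  · rw [← card_zmultiples_one_div hpa, ← hψ₁range]
    exact (Nat.card_congr (Equiv.ofBijective Φ ⟨hΦinj, hΦsurj⟩)).trans
      (Nat.card_congr (Equiv.ofInjective ψ₁ hψ₁))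

end AbstractInv

section Torsion

/-- An element killed by a power of `p` and by a number prime to `p` vanishes. -/
lemma eq_zero_of_pow_nsmul_of_coprime_nsmul {W : Type*} [AddCommGroup W] {p : ℕ}
    (hp : p.Prime) {m n : ℕ} (hm : ¬ p ∣ m) (t : W) (h1 : p ^ n • t = 0) (h2 : m • t = 0) :
    t = 0 := by
  have hcop : Nat.Coprime (p ^ n) m := Nat.Coprime.pow_left n ((Nat.Prime.coprime_iff_not_dvd hp).2 hm)
  have h3 : addOrderOf t ∣ Nat.gcd (p ^ n) m :=
    Nat.dvd_gcd (addOrderOf_dvd_of_nsmul_eq_zero h1) (addOrderOf_dvd_of_nsmul_eq_zero h2)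
  rw [hcop, Nat.dvd_one] at h3
  exact AddMonoid.addOrderOf_eq_one_iff.1 h3

/-- **`p`-primary reciprocity suffices.**  If an additive map `φ` on `Y` vanishes on the images
under `f` of the `p`-power torsion classes, and `X` is killed by `N ≠ 0`, then `φ` vanishes on
every `p`-power torsion class in the image of `f`. -/
lemma map_eq_zero_of_pPrimary {X Y W : Type*} [AddCommGroup X] [AddCommGroup Y]
    [AddCommGroup W] {p : ℕ} (hp : p.Prime) (f : X →+ Y) (φ : Y →+ W) {N : ℕ} (hN : N ≠ 0)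
    (hkill : ∀ u : X, N • u = 0)
    (hrec : ∀ u : X, (∃ n : ℕ, p ^ n • u = 0) → φ (f u) = 0)
    (u : X) (hu : ∃ n : ℕ, p ^ n • f u = 0) : φ (f u) = 0 := by
  obtain ⟨n, hn⟩ := hu
  obtain ⟨b, m, hm, hNm⟩ := Nat.exists_eq_pow_mul_and_not_dvd hN p hp.ne_one
  refine eq_zero_of_pow_nsmul_of_coprime_nsmul hp hm _ ?_ ?_ (n := n)
  · rw [← map_nsmul, hn, map_zero]
  · rw [← map_nsmul, ← map_nsmul]
    refine hrec (m • u) ⟨b, ?_⟩
    rw [← mul_nsmul', ← hNm]
    exact hkill u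

end Torsion

section Fields

variable (K E L M : Type) [Field K] [Field E] [Field L] [Field M]
  [Algebra K E] [Algebra K L] [Algebra K M] [Algebra E M] [Algebra L M]
  [IsScalarTower K E M] [IsScalarTower K L M] [Normal K E] [Normal K L] [Normal K M]

/-- **Artin–Tate, field language.**  `K ⊆ E, L ⊆ M`, all normal over `K`.  `E/K` has an injective
invariant `ψE` with image `(1/p^a)ℤ/ℤ`; `M/L` has an injective invariant `ψML` with
`ψML ∘ (res ∘ infl) = d • ψE`, `p^a ∣ d` (e.g. `d = [L : K]`); inflation `H²(L/K, C_L) → H²(M/K, C_M)`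
is injective with image the kernel of restriction to `M/L`; inflation from `E/K` is injective;
and the `p`-power torsion of `H²(L/K, C_L)` has at most `p^a` elements.  Then the `p`-power torsion
of `H²(L/K, C_L)` carries an injective invariant with image `(1/p^a)ℤ/ℤ`, computed by inflating to
`M` and descending to `E`. -/
theorem exists_artinTateInv
    (hi₁ : Function.Injective (ideleClassGalMap K E K M 2).hom)
    (hi₂ : Function.Injective (ideleClassGalMap K L K M 2).hom)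
    (hexact : ∀ z : groupCohomology (ideleClassRep M (M ≃ₐ[K] M)) 2,
      (ideleClassGalMap K M L M 2).hom z = 0 → ∃ x, (ideleClassGalMap K L K M 2).hom x = z)
    (p a d : ℕ) [Fact p.Prime] (hd : p ^ a ∣ d)
    (ψE : groupCohomology (ideleClassRep E (E ≃ₐ[K] E)) 2 →+ AddCircle (1 : ℚ))
    (hψE : Function.Injective ψE)
    (hψErange : ψE.range = AddSubgroup.zmultiples
      ((((1 : ℚ) / ((p ^ a : ℕ) : ℚ) : ℚ)) : AddCircle (1 : ℚ)))
    (ψML : groupCohomology (ideleClassRep M (M ≃ₐ[L] M)) 2 →+ AddCircle (1 : ℚ))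
    (hψML : Function.Injective ψML)
    (hcompat : ∀ y, ψML ((ideleClassGalMap K E L M 2).hom y) = d • ψE y)
    (hfin₂ : Finite (pPowerTorsion (groupCohomology (ideleClassRep L (L ≃ₐ[K] L)) 2) p))
    (hcard₂ : Nat.card (pPowerTorsion (groupCohomology (ideleClassRep L (L ≃ₐ[K] L)) 2) p) ≤
      p ^ a) :
    ∃ inv : pPowerTorsion (groupCohomology (ideleClassRep L (L ≃ₐ[K] L)) 2) p →+
        AddCircle (1 : ℚ),
      Function.Injective inv ∧
      inv.range = AddSubgroup.zmultiples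
        ((((1 : ℚ) / ((p ^ a : ℕ) : ℚ) : ℚ)) : AddCircle (1 : ℚ)) ∧
      (∀ (x : pPowerTorsion (groupCohomology (ideleClassRep L (L ≃ₐ[K] L)) 2) p)
        (y : groupCohomology (ideleClassRep E (E ≃ₐ[K] E)) 2),
        (ideleClassGalMap K E K M 2).hom y = (ideleClassGalMap K L K M 2).hom x.1 →
          inv x = ψE y) ∧
      (∀ x : pPowerTorsion (groupCohomology (ideleClassRep L (L ≃ₐ[K] L)) 2) p,
        ∃ y, (ideleClassGalMap K E K M 2).hom y = (ideleClassGalMap K L K M 2).hom x.1) ∧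
      (∀ y, ∃ x : pPowerTorsion (groupCohomology (ideleClassRep L (L ≃ₐ[K] L)) 2) p,
        (ideleClassGalMap K E K M 2).hom y = (ideleClassGalMap K L K M 2).hom x.1) ∧
      Nat.card (pPowerTorsion (groupCohomology (ideleClassRep L (L ≃ₐ[K] L)) 2) p) = p ^ a := by
  have hcompat' : ∀ y, ψML ((ideleClassGalMap K M L M 2).hom.toAddMonoidHom
      ((ideleClassGalMap K E K M 2).hom.toAddMonoidHom y)) = d • ψE y := by
    intro y
    rw [← hcompat y, ← ideleClassGalMap_comp_apply K E K M L M 2 y]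
    rfl
  exact exists_pPrimaryInv_of_card (ideleClassGalMap K E K M 2).hom.toAddMonoidHom
    (ideleClassGalMap K L K M 2).hom.toAddMonoidHom (ideleClassGalMap K M L M 2).hom.toAddMonoidHom
    hi₁ hi₂ hexact p a d hd ψE hψE hψErange ψML hψML hcompat' hfin₂ hcard₂

/-- Exactness of `H²(G, Lˣ) → H²(G, J_L) → H²(G, C_L)` for an arbitrary layer. -/
theorem ideleH2_exact {K L : Type} [Field K] [Field L] [Algebra K L]
    (h : PrincipalIsIdele L) (hinj : Function.Injective (principalIdele L))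
    (y : groupCohomology (ideleRep L (L ≃ₐ[K] L)) 2)
    (hy : (ideleH2g K (L := L)).hom y = 0) : ∃ x, (ideleH2f K h).hom x = y :=
  map_H2_exact (ideleShortComplex_shortExact K h hinj) y hy

omit [Normal K M] in
/-- **Local–global compatibility of the Artin–Tate invariant.**  If `inv` is the invariant of
`exists_artinTateInv` (characterised by `hinv`, `hinv'`), `ψE ∘ (H²(J_E) → H²(C_E)) = invJE`,
the idelic invariants are compatible with inflation to `M`, and the `p`-primary reciprocity law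
holds for `M/K`, then `inv (π z) = invJL z` for every `p`-power torsion class `z ∈ H²(L/K, J_L)`. -/
theorem artinTateInv_ideleH2g [FiniteDimensional K M] [Finite (E ≃ₐ[K] E)]
    (p a : ℕ) [Fact p.Prime] (hcardE : Nat.card (E ≃ₐ[K] E) = p ^ a)
    (hM : PrincipalIsIdele M) (hinjM : Function.Injective (principalIdele M))
    (invJE : groupCohomology (ideleRep E (E ≃ₐ[K] E)) 2 →+ AddCircle (1 : ℚ))
    (invJL : groupCohomology (ideleRep L (L ≃ₐ[K] L)) 2 →+ AddCircle (1 : ℚ))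
    (invJM : groupCohomology (ideleRep M (M ≃ₐ[K] M)) 2 →+ AddCircle (1 : ℚ))
    (hrecM : ∀ u : groupCohomology (Rep.ofAlgebraAutOnUnits K M) 2,
      (∃ n : ℕ, p ^ n • u = 0) → invJM ((ideleH2f K hM).hom u) = 0)
    (hinflE : ∀ w, invJM ((ideleGalMap K E K M 2).hom w) = invJE w)
    (hinflL : ∀ z, invJM ((ideleGalMap K L K M 2).hom z) = invJL z)
    (ψE : groupCohomology (ideleClassRep E (E ≃ₐ[K] E)) 2 →+ AddCircle (1 : ℚ))
    (hψEg : ∀ w, ψE ((ideleH2g K (L := E)).hom w) = invJE w)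
    (hsurjE : Function.Surjective (ideleH2g K (L := E)).hom)
    (inv : pPowerTorsion (groupCohomology (ideleClassRep L (L ≃ₐ[K] L)) 2) p →+
      AddCircle (1 : ℚ))
    (hinv : ∀ (x : pPowerTorsion (groupCohomology (ideleClassRep L (L ≃ₐ[K] L)) 2) p)
      (y : groupCohomology (ideleClassRep E (E ≃ₐ[K] E)) 2),
      (ideleClassGalMap K E K M 2).hom y = (ideleClassGalMap K L K M 2).hom x.1 → inv x = ψE y)
    (hinv' : ∀ x : pPowerTorsion (groupCohomology (ideleClassRep L (L ≃ₐ[K] L)) 2) p,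
      ∃ y, (ideleClassGalMap K E K M 2).hom y = (ideleClassGalMap K L K M 2).hom x.1)
    (x : pPowerTorsion (groupCohomology (ideleClassRep L (L ≃ₐ[K] L)) 2) p)
    (z : groupCohomology (ideleRep L (L ≃ₐ[K] L)) 2) (hz : ∃ n : ℕ, p ^ n • z = 0)
    (hzx : (ideleH2g K (L := L)).hom z = x.1) : inv x = invJL z := by
  have hp : p.Prime := Fact.out
  obtain ⟨y, hy⟩ := hinv' x
  obtain ⟨w, rfl⟩ := hsurjE y
  rw [hinv x _ hy, hψEg, ← hinflE, ← hinflL]
  have ht : (ideleH2g K (L := M)).hom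
      ((ideleGalMap K E K M 2).hom w - (ideleGalMap K L K M 2).hom z) = 0 := by
    rw [map_sub, ← ideleClassGalMap_ideleH2g, ← ideleClassGalMap_ideleH2g, hy, hzx, sub_self]
  obtain ⟨u, hu⟩ := ideleH2_exact hM hinjM _ ht
  have hw : p ^ a • w = 0 := by
    rw [← hcardE]
    exact card_nsmul_groupCohomology_eq_zero (ideleRep E (E ≃ₐ[K] E)) 1 w
  obtain ⟨n, hn⟩ := hz
  have htp : ∃ n : ℕ, p ^ n • (ideleH2f K hM).hom u = 0 := by
    refine ⟨a + n, ?_⟩
    have h1 : p ^ (a + n) • w = 0 := by rw [pow_add, mul_nsmul, hw, smul_zero]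
    have h2 : p ^ (a + n) • z = 0 := by rw [pow_add, mul_comm, mul_nsmul, hn, smul_zero]
    rw [hu, smul_sub, ← map_nsmul, ← map_nsmul, h1, h2, map_zero, map_zero, sub_self]
  have h0 : invJM ((ideleH2f K hM).hom u) = 0 :=
    map_eq_zero_of_pPrimary hp (ideleH2f K hM).hom.toAddMonoidHom invJM
      (N := Nat.card (M ≃ₐ[K] M)) Nat.card_pos.ne'
      (fun u => card_nsmul_groupCohomology_eq_zero (Rep.ofAlgebraAutOnUnits K M) 1 u) hrecM u htp
  rw [hu, map_sub, sub_eq_zero] at h0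
  exact h0

end Fields

end

end Fermat.Agent.CFT
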