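import Mathlib

/-!
# Layer C, node C3A: indices of box subgroups of a product of abelian groups

For a family of abelian groups `A v` and subgroups `B v ≤ C v` which agree outside a finite set `F`
of indices, `[∏ C v : ∏ B v] = ∏_{v ∈ F} [C v : B v]` (`relIndex_box`).
-/

set_option autoImplicit false

namespace Fermat.Agent.CFT

open Subgroup

variable {V : Type*} {A : V → Type*} [∀ v, CommGroup (A v)]

/-- The box subgroup `∏_v B v` of `∏_v A v`. -/
abbrev box (B : ∀ v, Subgroup (A v)) : Subgroup (∀ v, A v) := Subgroup.pi Set.univ B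

theorem mem_box {B : ∀ v, Subgroup (A v)} {x : ∀ v, A v} : x ∈ box B ↔ ∀ v, x v ∈ B v := by
  simp [box, Subgroup.mem_pi]

theorem box_mono {B C : ∀ v, Subgroup (A v)} (h : ∀ v, B v ≤ C v) : box B ≤ box C :=
  fun _ hx => mem_box.2 fun v => h v (mem_box.1 hx v)

/-- `[∏ C v : ∏ B v] = ∏_{v ∈ F} [C v : B v]` if `B v = C v` outside the finite set `F`. -/
theorem relIndex_box (B C : ∀ v, Subgroup (A v)) (F : Finset V)
    (hF : ∀ v, v ∉ F → C v ≤ B v) :
    (box B).relIndex (box C) = ∏ v ∈ F, (B v).relIndex (C v) := by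
  classical
  -- the homomorphism `∏ C v → ∏_{v ∈ F} C v / B v`
  let φ : box C →* ∀ v : F, (C v ⧸ (B v).subgroupOf (C v)) :=
    { toFun := fun x v => QuotientGroup.mk ⟨x.1 v, mem_box.1 x.2 v⟩
      map_one' := by
        funext v
        rfl
      map_mul' := fun x y => by
        funext v
        rfl }
  have hker : φ.ker = (box B).subgroupOf (box C) := by
    ext x
    rw [MonoidHom.mem_ker, mem_subgroupOf, mem_box]
    constructor
    · intro hx v
      by_cases hv : v ∈ F
      · have := congrFun hx ⟨v, hv⟩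
        have h1 : (QuotientGroup.mk ⟨x.1 v, mem_box.1 x.2 v⟩ :
            C v ⧸ (B v).subgroupOf (C v)) = 1 := this
        rw [QuotientGroup.eq_one_iff, mem_subgroupOf] at h1
        exact h1
      · exact hF v hv (mem_box.1 x.2 v)
    · intro hx
      funext v
      show (QuotientGroup.mk ⟨x.1 v, mem_box.1 x.2 v⟩ :
            C v ⧸ (B v).subgroupOf (C v)) = 1
      rw [QuotientGroup.eq_one_iff, mem_subgroupOf]
      exact hx v
  have hsurj : Function.Surjective φ := by
    intro c
    choose r hr using fun v : F => QuotientGroup.mk_surjective (c v)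
    let x : ∀ v, A v := fun v => if hv : v ∈ F then ((r ⟨v, hv⟩ : C v) : A v) else 1
    have hx : x ∈ box C := mem_box.2 fun v => by
      by_cases hv : v ∈ F
      · simp only [x, dif_pos hv]
        exact (r ⟨v, hv⟩).2
      · simp only [x, dif_neg hv]
        exact (C v).one_mem
    refine ⟨⟨x, hx⟩, ?_⟩
    funext v
    show (QuotientGroup.mk ⟨x v, mem_box.1 hx v⟩ : C v ⧸ (B v).subgroupOf (C v)) = c v
    rw [← hr v]
    congr 1
    apply Subtype.ext
    simp only [x, dif_pos v.2]
  have h1 : (box B).relIndex (box C) = Nat.card φ.range := by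
    rw [relIndex, ← hker, index_ker]
  rw [h1, MonoidHom.range_eq_top.2 hsurj]
  rw [Nat.card_congr (Subgroup.topEquiv (G := ∀ v : F, (C v ⧸ (B v).subgroupOf (C v)))).toEquiv,
    Nat.card_pi]
  rw [← Finset.prod_coe_sort F (fun v => (B v).relIndex (C v))]
  rfl

end Fermat.Agent.CFT
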