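import Fermat.Agent.CFT.PT.CSFullTower
import Fermat.Agent.CFT.LC.KummerPairing
import Fermat.Agent.CFT.Local.LCDict

/-!
# [G4-FIN] Finiteness of `(C_S')^{Gal(Ω/E)} / p`

`Ω/k` Galois, `L` a level structure on `Gal(Ω/k)`, `S` a set of primes, `E` an intermediate field
with `Gal(Ω/E)` open and cofinal finite-level descent over `E` (`HasCofinalSClassDescent`).  The
invariants of `C_S' = csFullRep L Ω S` under `Gal(Ω/E)` are the image of `C_S(E)`
(`exists_sClassIncl_eq_of_mem_CSFull`), so `LCSym.VQuot (csFullTowerRep L S E) p` is a quotient of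
`C_S(E) / C_S(E)^p`; it is finite as soon as the `p`-th powers have finite index in `C_S(E)`
(`finite_vQuot_csFullTowerRep_of_index_ne_zero`).
-/

set_option autoImplicit false
set_option linter.unusedSectionVars false
set_option linter.style.haveILetI false

noncomputable section

namespace Fermat.Agent.CFT.PT

open Fermat.Agent.CFT Fermat.Agent.CFT.GaloisTower IntermediateField LCSym

variable {k Ω : Type} [Field k] [Field Ω] [Algebra k Ω] [IsGalois k Ω]
variable (L : LevelStructure (Ω ≃ₐ[k] Ω)) (S : Set Nat.Primes) (E : IntermediateField k Ω)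

/-- The image of a class of `C_S(E)` in `C_S'` is invariant under `Gal(Ω/E)`. -/
theorem isInv_csIncl_self (hopen : L.IsOpen E.fixingSubgroup)
    (c : ideleClassS (layer (le_refl E)) S) :
    IsInv (csFullTowerRep L S E)
      (Additive.ofMul (csIncl L S (le_refl E) hopen c) : Additive (CSFull L Ω S)) := by
  intro σ
  apply Additive.toMul.injective
  rw [csFullTowerRep_ρ_apply]
  exact Subtype.ext (smul_sClassIncl_of_mem (le_refl E) S c σ.2)

/-- `C_S(E) → (C_S')^{Gal(Ω/E)}`, additively. -/
def csInvSubHom (hopen : L.IsOpen E.fixingSubgroup) :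
    Additive (ideleClassS (layer (le_refl E)) S) →+ ↥(invSub (csFullTowerRep L S E)) where
  toFun c := ⟨Additive.ofMul (csIncl L S (le_refl E) hopen (Additive.toMul c)),
    isInv_csIncl_self L S E hopen _⟩
  map_zero' := Subtype.ext (congrArg Additive.ofMul (map_one (csIncl L S (le_refl E) hopen)))
  map_add' c c' := Subtype.ext (congrArg Additive.ofMul
    (map_mul (csIncl L S (le_refl E) hopen) (Additive.toMul c) (Additive.toMul c')))

theorem csInvSubHom_surjective (hopen : L.IsOpen E.fixingSubgroup)
    (hne : ∃ q ∈ S, Nonempty (LocalEmb ((q : Nat.Primes) : ℕ) Ω))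
    (hdesc : HasCofinalSClassDescent L S (le_refl E)) :
    Function.Surjective (csInvSubHom L S E hopen) := by
  intro a
  have hfix : ∀ σ ∈ E.fixingSubgroup, (σ : Ω ≃ₐ[k] Ω) •
      ((Additive.toMul (a.1 : Additive (CSFull L Ω S)) : CSFull L Ω S) : ideleClassS Ω S) =
        ((Additive.toMul (a.1 : Additive (CSFull L Ω S)) : CSFull L Ω S) : ideleClassS Ω S) := by
    intro σ hσ
    have h1 := isInv_of_mem a.2 ⟨σ, hσ⟩
    have h2 := congrArg (fun z : Additive (CSFull L Ω S) =>
      ((Additive.toMul z : CSFull L Ω S) : ideleClassS Ω S)) h1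
    exact h2
  obtain ⟨c', hc'⟩ := exists_sClassIncl_eq_of_mem_CSFull hne hdesc
    (Additive.toMul (a.1 : Additive (CSFull L Ω S)) : CSFull L Ω S).2 hfix
  exact ⟨Additive.ofMul c', Subtype.ext (congrArg Additive.ofMul (Subtype.ext hc'))⟩

/-- **[G4-FIN], generic form**: `(C_S')^{Gal(Ω/E)} / p` is finite as soon as the `p`-th powers
have finite index in `C_S(E)`. -/
theorem finite_vQuot_csFullTowerRep_of_index_ne_zero (p : ℕ)
    (hopen : L.IsOpen E.fixingSubgroup)
    (hne : ∃ q ∈ S, Nonempty (LocalEmb ((q : Nat.Primes) : ℕ) Ω))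
    (hdesc : HasCofinalSClassDescent L S (le_refl E))
    (hidx : (powMonoidHom (α := ideleClassS (layer (le_refl E)) S) p).range.index ≠ 0) :
    Finite (VQuot (csFullTowerRep L S E) p) := by
  haveI : (powMonoidHom (α := ideleClassS (layer (le_refl E)) S) p).range.FiniteIndex := ⟨hidx⟩
  haveI : Finite (ideleClassS (layer (le_refl E)) S ⧸
      (powMonoidHom (α := ideleClassS (layer (le_refl E)) S) p).range) :=
    Subgroup.finite_quotient_of_finiteIndex
  -- the map `C_S(E) → VQuot`
  let f : ideleClassS (layer (le_refl E)) S → VQuot (csFullTowerRep L S E) p := fun c =>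
    QuotientAddGroup.mk (csInvSubHom L S E hopen (Additive.ofMul c))
  have hf : ∀ c c' : ideleClassS (layer (le_refl E)) S,
      QuotientGroup.leftRel (powMonoidHom (α := ideleClassS (layer (le_refl E)) S) p).range c c' →
        f c = f c' := by
    intro c c' hcc
    rw [QuotientGroup.leftRel_apply] at hcc
    obtain ⟨y, hy⟩ := hcc
    rw [powMonoidHom_apply] at hy
    have hc' : c' = c * y ^ p := by rw [hy, mul_inv_cancel_left]
    show (QuotientAddGroup.mk (csInvSubHom L S E hopen (Additive.ofMul c)) :
      VQuot (csFullTowerRep L S E) p) = QuotientAddGroup.mk (csInvSubHom L S E hopen (Additive.ofMul c'))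
    rw [QuotientAddGroup.eq]
    refine ⟨csInvSubHom L S E hopen (Additive.ofMul y), ?_⟩
    rw [nsmulAddMonoidHom_apply, ← map_nsmul, ← map_neg, ← map_add, hc']
    congr 1
    show Additive.ofMul (y ^ p) = Additive.ofMul (c⁻¹ * (c * y ^ p))
    rw [inv_mul_cancel_left]
  refine Finite.of_surjective (Quotient.lift f hf) ?_
  intro v
  induction v using QuotientAddGroup.induction_on with
  | H a =>
    obtain ⟨c, rfl⟩ := csInvSubHom_surjective L S E hopen hne hdesc a
    exact ⟨Quotient.mk _ (Additive.toMul c), rfl⟩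

/-! ### Level structures of admissible Galois type -/

section Adm

variable (Adm : IntermediateField k Ω → Prop)
  (hGalA : ∀ N, L.IsLevel N → ∃ F : IntermediateField k Ω,
    Adm F ∧ Normal k F ∧ N = F.fixingSubgroup)
  (hcofA : ∀ E' : IntermediateField k Ω, Adm E' → ∃ N, L.IsLevel N ∧ N ≤ E'.fixingSubgroup)
  (hsup : ∀ {B B' : IntermediateField k Ω}, Adm B → Adm B' → Adm (B ⊔ B'))
  (hne : ∃ q ∈ S, Nonempty (LocalEmb ((q : Nat.Primes) : ℕ) Ω))
  (hdescA : ∀ {B B' B'' : IntermediateField k Ω} (h : B ≤ B') (h' : B' ≤ B''), Adm B'' →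
    ∀ [Normal B (layer (h.trans h'))], HasSClassDescent h S h')
  (hE : Adm E)

include hGalA hsup hdescA hE in
/-- Cofinal descent over the trivial layer `E/E` of an admissible field. -/
theorem hasCofinalSClassDescent_le_refl : HasCofinalSClassDescent L S (le_refl E) := by
  intro N hN
  obtain ⟨F, hF, hFn, rfl⟩ := hGalA N hN
  have h' : E ≤ E ⊔ F := le_sup_left
  haveI : Normal E (layer ((le_refl E).trans h')) := normal_layer_sup_left E F
  refine ⟨E ⊔ F, h', ?_, inferInstance, hdescA (le_refl E) h' (hsup hE hF)⟩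
  rw [IntermediateField.fixingSubgroup_sup]
  exact inf_le_right

include hGalA hcofA hsup hne hdescA hE in
/-- **[G4-FIN]** in the setting of `PT/CSFullDict.lean` (`csFullDict`): `(C_S')^{Gal(Ω/E)} / p` is
finite for an admissible `E` such that the `p`-th powers have finite index in `C_S(E)`. -/
theorem finite_vQuot_csFullTowerRep_of_admissible (p : ℕ)
    (hidx : (powMonoidHom (α := ideleClassS (layer (le_refl E)) S) p).range.index ≠ 0) :
    Finite (VQuot (csFullTowerRep L S E) p) :=
  finite_vQuot_csFullTowerRep_of_index_ne_zero L S E p (hcofA E hE) hne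
    (hasCofinalSClassDescent_le_refl L S E Adm hGalA hsup hdescA hE) hidx

end Adm

end Fermat.Agent.CFT.PT

end
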