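import Mathlib

/-!
# Layer C, node C3A (abstract core): the Chevalley–Tate index computation

Pure group theory (`J` an abelian group = ideles, `P` = principal ideles, `N` = norm group).

* `relIndex_sup_mul_relIndex_inf` : for `B ≤ A` and any `C`:
  `[A ⊔ C : B ⊔ C] * [A ⊓ C : B ⊓ C] = [A : B]`;
* `sup_eq_of_relIndex_le` : the counting argument `J_S = K_S · D`;
* `index_sup_dvd_of_chevalley` : the abstract second inequality `[J : P · N] ∣ p`.
-/

set_option autoImplicit false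

namespace Fermat.Agent.CFT

open Subgroup

section IndexLemma

variable {J : Type*} [CommGroup J]

/-- For `B ≤ A` and any `C` in an abelian group:
`[A ⊔ C : B ⊔ C] * [A ⊓ C : B ⊓ C] = [A : B]`. -/
theorem relIndex_sup_mul_relIndex_inf (A B C : Subgroup J) (hBA : B ≤ A) :
    (B ⊔ C).relIndex (A ⊔ C) * (B ⊓ C).relIndex (A ⊓ C) = B.relIndex A := by
  -- `[A ⊔ C : B ⊔ C] = [A : B ⊔ (A ⊓ C)]`
  have h1 : (B ⊔ C).relIndex (A ⊔ C) = (B ⊔ (A ⊓ C)).relIndex A := by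
    have hsup : A ⊔ (B ⊔ C) = A ⊔ C := by
      rw [← sup_assoc, sup_eq_left.2 hBA]
    have h := relIndex_sup_right (H := A) (K := B ⊔ C)
    rw [hsup] at h
    rw [h, ← inf_relIndex_right (H := B ⊔ C) (K := A), ← inf_relIndex_right (H := B ⊔ (A ⊓ C)) (K := A)]
    congr 1
    -- modular law
    rw [inf_comm (B ⊔ C) A, inf_comm (B ⊔ (A ⊓ C)) A]
    have hmod : (B ⊔ C) ⊓ A = B ⊔ C ⊓ A := sup_inf_assoc_of_le C hBA
    rw [inf_comm A (B ⊔ C), hmod, inf_comm C A]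
    exact (inf_eq_right.2 (sup_le hBA inf_le_left)).symm
  -- `[B ⊔ (A ⊓ C) : B] = [A ⊓ C : B ⊓ C]`
  have h2 : (B ⊓ C).relIndex (A ⊓ C) = B.relIndex (B ⊔ (A ⊓ C)) := by
    rw [relIndex_sup_left, ← inf_relIndex_right (H := B) (K := A ⊓ C)]
    congr 1
    rw [← inf_assoc, inf_eq_left.2 hBA]
  rw [h1, h2, mul_comm]
  exact relIndex_mul_relIndex B (B ⊔ (A ⊓ C)) A le_sup_left (sup_le hBA inf_le_left)

/-- If `a ^ p ∈ Q` then `[Q ⊔ ⟨a⟩ : Q] ≤ p`. -/
theorem relIndex_sup_zpowers_le (p : ℕ) (hp : 0 < p) (Q : Subgroup J) (a : J) (hap : a ^ p ∈ Q) :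
    Q.relIndex (Q ⊔ zpowers a) ≤ p := by
  classical
  have : NeZero p := ⟨hp.ne'⟩
  set Z := Q ⊔ zpowers a with hZ
  have haZ : a ∈ Z := le_sup_right (a := Q) (mem_zpowers a)
  -- surjection `Fin p → Z ⧸ Q`
  let f : Fin p → Z ⧸ Q.subgroupOf Z := fun k => QuotientGroup.mk (⟨a, haZ⟩ ^ (k : ℕ))
  have hf : Function.Surjective f := by
    intro c
    induction c using QuotientGroup.induction_on with
    | H z =>
      obtain ⟨q, hq, w, hw, hqw⟩ := Subgroup.mem_sup.1 z.2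
      obtain ⟨n, rfl⟩ := mem_zpowers_iff.1 hw
      have h1 : 0 ≤ n % (p : ℤ) := Int.emod_nonneg n (by exact_mod_cast hp.ne')
      have h2 : n % (p : ℤ) < p := Int.emod_lt_of_pos n (by exact_mod_cast hp)
      obtain ⟨r, hr⟩ : ∃ r : ℕ, (r : ℤ) = n % (p : ℤ) := ⟨(n % (p : ℤ)).toNat, Int.toNat_of_nonneg h1⟩
      have hrp : r < p := by omega
      set m : ℤ := n / (p : ℤ) with hm
      have hnrm : n = (r : ℤ) + (p : ℤ) * m := by
        rw [hr]
        exact (Int.emod_add_mul_ediv n p).symm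
      have han : a ^ n = a ^ r * (a ^ p) ^ m := by
        rw [hnrm, zpow_add, zpow_mul, zpow_natCast, zpow_natCast]
      refine ⟨⟨r, hrp⟩, ?_⟩
      show (QuotientGroup.mk (⟨a, haZ⟩ ^ r) : Z ⧸ Q.subgroupOf Z) = QuotientGroup.mk z
      rw [QuotientGroup.eq, mem_subgroupOf]
      have hcalc : (((⟨a, haZ⟩ ^ r : Z)⁻¹ * z : Z) : J) = q * (a ^ p) ^ m := by
        simp only [Subgroup.coe_mul, Subgroup.coe_inv, Subgroup.coe_pow]
        rw [← hqw, han, mul_left_comm q, inv_mul_cancel_left]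
      rw [hcalc]
      exact Q.mul_mem hq (Q.zpow_mem hap _)
  have hcard : Nat.card (Z ⧸ Q.subgroupOf Z) ≤ Nat.card (Fin p) :=
    Nat.card_le_card_of_surjective f hf
  simpa [relIndex, index] using hcard

/-- The counting argument `J_S = K_S · D` of the Chevalley–Tate proof: if `[J_S : D] = p ^ t`,
`[K_S : Q] = p ^ (t + 1)`, `a ^ p ∈ Q` and `K_S ∩ D ≤ Q · ⟨a⟩`, then `K_S · D = J_S`. -/
theorem sup_eq_of_relIndex_bound (p t : ℕ) (hp : 0 < p) (JS KS D Q : Subgroup J) (a : J)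
    (hKS : KS ≤ JS) (hD : D ≤ JS) (hQ : Q ≤ KS) (ha : a ∈ KS) (hap : a ^ p ∈ Q)
    (hJSD : D.relIndex JS = p ^ t) (hKSQ : Q.relIndex KS = p ^ (t + 1))
    (hker : KS ⊓ D ≤ Q ⊔ zpowers a) : KS ⊔ D = JS := by
  have hpt : 0 < p ^ t := Nat.pos_of_ne_zero (pow_ne_zero _ hp.ne')
  set Z := Q ⊔ zpowers a with hZ
  have hZKS : Z ≤ KS := sup_le hQ (by rwa [zpowers_le])
  -- `[KS : Z] * [Z : Q] = p ^ (t + 1)` and `[Z : Q] ≤ p`, so `p ^ t ≤ [KS : Z]`
  have hmul : Q.relIndex Z * Z.relIndex KS = p ^ (t + 1) := by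
    rw [relIndex_mul_relIndex Q Z KS le_sup_left hZKS, hKSQ]
  have hZQ : Q.relIndex Z ≤ p := relIndex_sup_zpowers_le p hp Q a hap
  have hKSZ : p ^ t ≤ Z.relIndex KS := by
    by_contra hlt
    push Not at hlt
    have : Q.relIndex Z * Z.relIndex KS < p * p ^ t := by
      calc Q.relIndex Z * Z.relIndex KS ≤ p * Z.relIndex KS := Nat.mul_le_mul_right _ hZQ
        _ < p * p ^ t := Nat.mul_lt_mul_of_pos_left hlt hp
    rw [hmul, pow_succ, mul_comm] at this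
    exact lt_irrefl _ this
  -- `[KS : KS ⊓ D]` is a multiple of `[KS : Z]`
  have hdvd1 : Z.relIndex KS ∣ D.relIndex KS := by
    rw [← inf_relIndex_right (H := D) (K := KS), inf_comm]
    exact relIndex_dvd_of_le_left KS hker
  -- `[JS : KS ⊔ D] * [KS : KS ⊓ D] = [JS : D] = p ^ t`
  have hmul2 : D.relIndex (KS ⊔ D) * (KS ⊔ D).relIndex JS = p ^ t := by
    rw [relIndex_mul_relIndex D (KS ⊔ D) JS le_sup_right (sup_le hKS hD), hJSD]
  rw [relIndex_sup_right] at hmul2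
  have hDKS_pos : 0 < D.relIndex KS := by
    rcases Nat.eq_zero_or_pos (D.relIndex KS) with h0 | h0
    · rw [h0, zero_mul] at hmul2
      exact absurd hmul2.symm hpt.ne'
    · exact h0
  have hDKS_ge : p ^ t ≤ D.relIndex KS := le_trans hKSZ (Nat.le_of_dvd hDKS_pos hdvd1)
  have hone : (KS ⊔ D).relIndex JS = 1 := by
    have hle : D.relIndex KS * (KS ⊔ D).relIndex JS ≤ D.relIndex KS * 1 := by
      rw [hmul2, mul_one]; exact hDKS_ge
    have h1 : (KS ⊔ D).relIndex JS ≤ 1 := Nat.le_of_mul_le_mul_left hle hDKS_pos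
    have h2 : (KS ⊔ D).relIndex JS ≠ 0 := by
      intro h0
      rw [h0, mul_zero] at hmul2
      exact absurd hmul2.symm hpt.ne'
    omega
  exact le_antisymm (sup_le hKS hD) (relIndex_eq_one.1 hone)

/-- The subgroup of `p`-th powers of a subgroup. -/
abbrev powSubgroup (H : Subgroup J) (p : ℕ) : Subgroup J := H.map (powMonoidHom p)

theorem mem_powSubgroup {H : Subgroup J} {p : ℕ} {x : J} :
    x ∈ powSubgroup H p ↔ ∃ y ∈ H, y ^ p = x := by
  simp [powSubgroup, Subgroup.mem_map]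

theorem powSubgroup_le (H : Subgroup J) (p : ℕ) : powSubgroup H p ≤ H := by
  rintro x hx
  obtain ⟨y, hy, rfl⟩ := mem_powSubgroup.1 hx
  exact H.pow_mem hy p

/-- **Abstract Chevalley–Tate index computation** (second inequality).
`J` = ideles, `P` = principal ideles, `N` = norm group, `JS = J_{K,S}`, `JST = J_{K,S ∪ T}`,
`D = ∏_S K_vˣ × ∏_T U_v^p × ∏ U_v`, `E = ∏_S K_v^{×p} × ∏_T K_vˣ × ∏ U_v`, `a` the Kummer generator,
`t = |T| = |S| + r - 1`. -/
theorem index_sup_dvd_of_chevalley (p t : ℕ) (hp : 0 < p) (P N JS JST D E : Subgroup J) (a : J)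
    (hJ : P ⊔ JS = ⊤) (hJS : JS ≤ JST) (hD : D ≤ JS) (hE : E ≤ JST)
    (hJSD : D.relIndex JS = p ^ t)
    (ha : a ∈ P ⊓ JS)
    (hker : ∀ x ∈ P ⊓ D, ∃ (k : ℤ) (y : J), y ∈ P ⊓ JS ∧ x = a ^ k * y ^ p)
    (hKS : (powSubgroup (P ⊓ JS) p).relIndex (P ⊓ JS) = p ^ (t + 1))
    (hJSTE : E.relIndex JST = p ^ (2 * t + 2))
    (hKST : (powSubgroup (P ⊓ JST) p).relIndex (P ⊓ JST) = p ^ (2 * t + 1))
    (hpow : ∀ y ∈ JST, y ^ p ∈ E)
    (htf : ∀ y ∈ P, y ^ p ∈ JST → y ∈ JST)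
    (hFI : ∀ x ∈ P ⊓ E, (¬ ∃ y ∈ P, y ^ p = x) → ∃ Nx : Subgroup J, D ≤ Nx ∧ P ⊔ Nx ≠ ⊤)
    (hEN : E ≤ N) :
    (P ⊔ N).index ∣ p := by
  -- Step 1: `J_S = K_S · D`, hence `J = P · D`.
  have hstep1 : (P ⊓ JS) ⊔ D = JS := by
    refine sup_eq_of_relIndex_bound p t hp JS (P ⊓ JS) D (powSubgroup (P ⊓ JS) p) a
      inf_le_right hD (powSubgroup_le _ _) ha (mem_powSubgroup.2 ⟨a, ha, rfl⟩) hJSD hKS ?_
    intro x hx
    have hxPD : x ∈ P ⊓ D := ⟨hx.1.1, hx.2⟩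
    obtain ⟨k, y, hy, rfl⟩ := hker x hxPD
    rw [mul_comm]
    exact Subgroup.mul_mem_sup (mem_powSubgroup.2 ⟨y, hy, rfl⟩)
      (Subgroup.zpow_mem _ (mem_zpowers a) k)
  have hPD : P ⊔ D = ⊤ := by
    rw [eq_top_iff, ← hJ, ← hstep1]
    exact sup_le le_sup_left (sup_le (le_trans inf_le_left le_sup_left) le_sup_right)
  -- Step 2: `P ∩ E = (P ∩ J_{S ∪ T})^p`.
  have hstep2 : E ⊓ P = powSubgroup (P ⊓ JST) p := by
    apply le_antisymm
    · intro x hx
      have hxPE : x ∈ P ⊓ E := ⟨hx.2, hx.1⟩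
      by_cases hpth : ∃ y ∈ P, y ^ p = x
      · obtain ⟨y, hyP, rfl⟩ := hpth
        exact mem_powSubgroup.2 ⟨y, ⟨hyP, htf y hyP (hE hx.1)⟩, rfl⟩
      · obtain ⟨Nx, hDN, hne⟩ := hFI x hxPE hpth
        exact absurd (top_le_iff.1 (hPD ▸ sup_le_sup_left hDN P)) hne
    · intro x hx
      obtain ⟨y, hy, rfl⟩ := mem_powSubgroup.1 hx
      exact ⟨hpow y hy.2, P.pow_mem hy.1 p⟩
  -- Step 3: the index lemma.
  have hidx := relIndex_sup_mul_relIndex_inf JST E P hE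
  have hJSTP : JST ⊔ P = ⊤ := by
    rw [eq_top_iff, ← hJ, sup_comm]
    exact sup_le_sup_right hJS P
  rw [hJSTP, relIndex_top_right, hstep2, inf_comm JST P, hKST, hJSTE] at hidx
  have hEP : (E ⊔ P).index = p := by
    have hpos : 0 < p ^ (2 * t + 1) := Nat.pos_of_ne_zero (pow_ne_zero _ hp.ne')
    have : (E ⊔ P).index * p ^ (2 * t + 1) = p * p ^ (2 * t + 1) := by
      rw [hidx, ← pow_succ']
    exact Nat.eq_of_mul_eq_mul_right hpos this
  rw [← hEP]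
  exact index_dvd_of_le (by rw [sup_comm]; exact sup_le_sup_left hEN P)

end IndexLemma

section Transfer

variable {A A' : Type*} [CommGroup A] [CommGroup A']

/-- **Reduction of the second inequality to a ground field containing `μ_p`** (abstract form):
`A = C_K`, `A' = C_{K'}` with `K' = K(μ_p)` of degree `d` prime to `p`, `i` the inclusion, `ν` the
norm, `H`, `H'` the norm groups of `L/K` and `LK'/K'`. -/
theorem index_dvd_of_coprime_transfer (p d : ℕ) (hd : Nat.Coprime d p)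
    (H : Subgroup A) (H' : Subgroup A') (i : A →* A') (ν : A' →* A)
    (hνi : ∀ x, ν (i x) = x ^ d) (hi : ∀ x ∈ H, i x ∈ H') (hν : ∀ y ∈ H', ν y ∈ H)
    (hpow : ∀ x : A, x ^ p ∈ H) (hH' : H'.index ∣ p) : H.index ∣ p := by
  have hcomap : H'.comap i = H := by
    apply le_antisymm
    · intro x hx
      have h1 : x ^ d ∈ H := by
        rw [← hνi]
        exact hν _ hx
      have h2 : x ^ p ∈ H := hpow x
      have hb : x ^ ((d : ℤ) * Nat.gcdA d p + (p : ℤ) * Nat.gcdB d p) = x := by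
        rw [← Nat.gcd_eq_gcd_ab, hd.gcd_eq_one]
        simp
      rw [← hb, zpow_add, zpow_mul, zpow_mul, zpow_natCast, zpow_natCast]
      exact H.mul_mem (H.zpow_mem h1 _) (H.zpow_mem h2 _)
    · intro x hx
      exact hi x hx
  rw [← hcomap, Subgroup.index_comap]
  exact dvd_trans (Subgroup.relIndex_dvd_index_of_normal _ _) hH'

end Transfer

end Fermat.Agent.CFT
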