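/-
S55 / C7 (abstract core): **global existence theorem mod `p`, abstract form**.

Pure group theory / `𝔽_p`-linear algebra behind hypothesis (E)/(G4) of the S55 plan:
the pairing `C_S(K)/p × Hom(G_S(K), 𝔽_p) → 𝔽_p` is perfect.
`J` = idele group of `K` (multiplicative), `X` = a finite group of characters (additive),
`b : J → X → ZMod p` the reciprocity pairing `b x χ = inv_K (x ∪ δχ) = χ(rec x)`.

* `eq_zero_of_forall_pairing_eq_zero`, `mem_of_forall_pairing_eq_zero` : left-nondegenerate in `χ`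
  (first inequality) + `[J : Q] ≤ |X|` (enough Kummer characters) ⟹ the left kernel is `Q`.
* `card_eq_of_nondegenerate`, `index_eq_card_of_nondegenerate` : nondegenerate on both sides ⟹
  `[J : Q] = |X|`.
* `index_sup_eq_of_count` : `[J : P · E] = p^t` from the local indices, the `S`-unit index and the
  injectivity `K_S/p ↪ ∏_{v∈S} K_v^×/p`.
* `left_kernel_le_of_count` : the two combined (case of a large set `S`, `μ_p ⊆ K`).
* `mem_of_forall_eq_zero_of_forall_mem`, `mem_sup_of_forall_pairing_eq_zero` : enlargement step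
  `S ⊆ S'`.
* `mem_sup_sup_of_count` : case A for `S'` + enlargement = the existence theorem for `S`.
* `mem_of_coprime_descent` : descent from `K(μ_p)` to `K`.
-/
import Mathlib
import Fermat.Agent.CFT.Global.ChevalleyIndex
import Fermat.Agent.CFT.Local.ExistenceModPAux

set_option autoImplicit false

namespace Fermat.Agent.CFT

namespace ExistenceAbstract

open Subgroup

section Bilin

variable {p : ℕ} {V X : Type*} [AddCommGroup V] [AddCommGroup X]
  [Module (ZMod p) V] [Module (ZMod p) X]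

/-- The bilinear form attached to a biadditive pairing of `𝔽_p`-vector spaces. -/
def bilin (bV : V →+ X →+ ZMod p) : V →ₗ[ZMod p] X →ₗ[ZMod p] ZMod p :=
  LinearMap.mk₂ (ZMod p) (fun v χ => bV v χ)
    (fun v w χ => by rw [map_add]; rfl)
    (fun c v χ => ZMod.map_smul (bV.flip χ) c v)
    (fun v χ χ' => map_add (bV v) χ χ')
    (fun c v χ => ZMod.map_smul (bV v) c χ)

theorem bilin_apply (bV : V →+ X →+ ZMod p) (v : V) (χ : X) : bilin bV v χ = bV v χ := rfl

end Bilin

section LinearCore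

variable {p : ℕ} [Fact p.Prime] {V X : Type*} [AddCommGroup V] [AddCommGroup X]
  [Module (ZMod p) V] [Module (ZMod p) X] [Finite V] [Finite X]

omit [AddCommGroup X] [Module (ZMod p) X] [Finite X] in
theorem natCard_dual_eq : Nat.card (Module.Dual (ZMod p) V) = Nat.card V := by
  have : Module.Finite (ZMod p) V := Module.Finite.of_finite
  have : Finite (Module.Dual (ZMod p) V) := Module.finite_of_finite (ZMod p)
  rw [Module.natCard_eq_pow_finrank (K := ZMod p), Module.natCard_eq_pow_finrank (K := ZMod p)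
    (V := V), Subspace.dual_finrank_eq]

/-- Linear-algebra core: a biadditive pairing `V × X → 𝔽_p` of finite `𝔽_p`-vector spaces which is
nondegenerate in `X` and with `|V| ≤ |X|` is nondegenerate in `V`, and `|X| = |V|`. -/
theorem eq_zero_of_forall_pairing_eq_zero (bV : V →+ X →+ ZMod p)
    (hnd : ∀ χ, χ ≠ 0 → ∃ v, bV v χ ≠ 0) (hcount : Nat.card V ≤ Nat.card X) :
    (∀ v, (∀ χ, bV v χ = 0) → v = 0) ∧ Nat.card X = Nat.card V := by
  have hp : p.Prime := Fact.out
  have hinj : Function.Injective (bilin bV).flip := by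
    rw [injective_iff_map_eq_zero]
    intro χ hχ
    by_contra hne
    obtain ⟨v, hv⟩ := hnd χ hne
    apply hv
    rw [← bilin_apply, ← LinearMap.flip_apply, hχ, LinearMap.zero_apply]
  have : Module.Finite (ZMod p) X := Module.Finite.of_finite
  have : Module.Finite (ZMod p) V := Module.Finite.of_finite
  have : Finite (Module.Dual (ZMod p) V) := Module.finite_of_finite (ZMod p)
  have hle : Nat.card X ≤ Nat.card V := by
    have h1 : Nat.card X ≤ Nat.card (Module.Dual (ZMod p) V) :=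
      Nat.card_le_card_of_injective _ hinj
    rwa [natCard_dual_eq] at h1
  have hcard : Nat.card X = Nat.card V := le_antisymm hle hcount
  have hdim : Module.finrank (ZMod p) V = Module.finrank (ZMod p) X := by
    have h1 := Module.natCard_eq_pow_finrank (K := ZMod p) (V := X)
    have h2 := Module.natCard_eq_pow_finrank (K := ZMod p) (V := V)
    rw [hcard, h2] at h1
    have hc : Nat.card (ZMod p) = p := by simp
    rw [hc] at h1
    exact Nat.pow_right_injective hp.two_le h1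
  have hbij := PowIndex.bijective_of_injective_flip_of_finrank_eq (bilin bV) hinj hdim
  refine ⟨fun v hv => ?_, hcard⟩
  have h0 : bilin bV v = 0 := by
    ext χ
    rw [bilin_apply, hv]
    rfl
  exact hbij.1 (h0.trans (map_zero (bilin bV)).symm)

/-- A biadditive pairing of finite `𝔽_p`-vector spaces which is nondegenerate on both sides is
between spaces of the same cardinality. -/
theorem card_eq_of_nondegenerate (bV : V →+ X →+ ZMod p)
    (hV : ∀ v, (∀ χ, bV v χ = 0) → v = 0) (hX : ∀ χ, (∀ v, bV v χ = 0) → χ = 0) :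
    Nat.card V = Nat.card X := by
  have : Module.Finite (ZMod p) X := Module.Finite.of_finite
  have : Module.Finite (ZMod p) V := Module.Finite.of_finite
  have : Finite (Module.Dual (ZMod p) V) := Module.finite_of_finite (ZMod p)
  have : Finite (Module.Dual (ZMod p) X) := Module.finite_of_finite (ZMod p)
  have hinj1 : Function.Injective (bilin bV) := by
    rw [injective_iff_map_eq_zero]
    intro v hv
    refine hV v (fun χ => ?_)
    rw [← bilin_apply, hv, LinearMap.zero_apply]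
  have hinj2 : Function.Injective (bilin bV).flip := by
    rw [injective_iff_map_eq_zero]
    intro χ hχ
    refine hX χ (fun v => ?_)
    rw [← bilin_apply, ← LinearMap.flip_apply, hχ, LinearMap.zero_apply]
  have h1 : Nat.card V ≤ Nat.card X := by
    have := Nat.card_le_card_of_injective _ hinj1
    rwa [natCard_dual_eq] at this
  have h2 : Nat.card X ≤ Nat.card V := by
    have := Nat.card_le_card_of_injective _ hinj2
    rwa [natCard_dual_eq] at this
  exact le_antisymm h1 h2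

/-- Linear-algebra core of the enlargement step: if a functional `f` on a finite `𝔽_p`-vector
space vanishes on the common kernel of an additive group `F` of functionals, then `f ∈ F`. -/
theorem mem_of_forall_eq_zero_of_forall_mem (F : AddSubgroup (X →+ ZMod p)) (f : X →+ ZMod p)
    (hf : ∀ χ : X, (∀ φ ∈ F, φ χ = 0) → f χ = 0) : f ∈ F := by
  have : Module.Finite (ZMod p) X := Module.Finite.of_finite
  -- transport to linear duals
  let e : (X →+ ZMod p) ≃+ Module.Dual (ZMod p) X := AddMonoidHom.toZModLinearMapEquiv p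
  let F' : Submodule (ZMod p) (Module.Dual (ZMod p) X) :=
    AddSubgroup.toZModSubmodule p (F.map e.toAddMonoidHom)
  have hmemF' : ∀ φ : Module.Dual (ZMod p) X, φ ∈ F' ↔ ∃ ψ ∈ F, e ψ = φ := by
    intro φ
    exact AddSubgroup.mem_map
  have h1 : e f ∈ F'.dualCoannihilator.dualAnnihilator := by
    rw [Submodule.mem_dualAnnihilator]
    intro χ hχ
    rw [Submodule.mem_dualCoannihilator] at hχ
    refine hf χ (fun φ hφ => ?_)
    exact hχ (e φ) ((hmemF' _).2 ⟨φ, hφ, rfl⟩)
  rw [Subspace.dualCoannihilator_dualAnnihilator_eq] at h1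
  obtain ⟨ψ, hψ, hψe⟩ := (hmemF' _).1 h1
  rwa [← e.injective hψe]

end LinearCore

section GroupForm

variable {J X : Type*} [CommGroup J] [AddCommGroup X] (p : ℕ) [Fact p.Prime]
  (b : J → X → ZMod p)

/-- A pairing which is nondegenerate in `χ` has values in a group killed by `p`. -/
theorem nsmul_eq_zero_of_nondegenerate
    (hadd : ∀ x χ χ', b x (χ + χ') = b x χ + b x χ')
    (hnd : ∀ χ, χ ≠ 0 → ∃ x, b x χ ≠ 0) (χ : X) : p • χ = 0 := by
  have hb0 : ∀ x, b x 0 = 0 := by
    intro x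
    have h := hadd x 0 0
    rw [add_zero] at h
    exact (add_eq_left.mp h.symm)
  have hbnsmul : ∀ (n : ℕ) x χ, b x (n • χ) = n • b x χ := by
    intro n x χ
    induction n with
    | zero => simp [hb0]
    | succ n ih => rw [succ_nsmul, hadd, ih, succ_nsmul]
  by_contra hne
  obtain ⟨x, hx⟩ := hnd _ hne
  apply hx
  rw [hbnsmul]
  simp

theorem nsmul_quot_eq_zero (Q : Subgroup J) (hpow : ∀ x : J, x ^ p ∈ Q)
    (v : Additive (J ⧸ Q)) : p • v = 0 := by
  induction v using Additive.rec with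
  | ofMul v =>
    induction v using QuotientGroup.induction_on with
    | H x =>
      rw [← ofMul_pow, ← QuotientGroup.mk_pow, (QuotientGroup.eq_one_iff _).2 (hpow x)]
      rfl

/-- The pairing induced on `J ⧸ Q` by a biadditive pairing vanishing on `Q`. -/
theorem exists_quotPairing (Q : Subgroup J)
    (hmul : ∀ x y χ, b (x * y) χ = b x χ + b y χ)
    (hadd : ∀ x χ χ', b x (χ + χ') = b x χ + b x χ')
    (hQ : ∀ x ∈ Q, ∀ χ, b x χ = 0) :
    ∃ bV : Additive (J ⧸ Q) →+ X →+ ZMod p,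
      ∀ x χ, bV (Additive.ofMul (QuotientGroup.mk x)) χ = b x χ := by
  let bX : J → (X →+ ZMod p) := fun x => AddMonoidHom.mk' (b x) (hadd x)
  let bJ : J →* Multiplicative (X →+ ZMod p) :=
    MonoidHom.mk' (fun x => Multiplicative.ofAdd (bX x)) (fun x y => by
      apply Multiplicative.toAdd.injective
      ext χ
      exact hmul x y χ)
  have hker : Q ≤ bJ.ker := by
    intro x hx
    rw [MonoidHom.mem_ker]
    apply Multiplicative.toAdd.injective
    ext χ
    exact hQ x hx χ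
  exact ⟨MonoidHom.toAdditiveLeft (QuotientGroup.lift Q bJ hker), fun x χ => rfl⟩

/-- **Abstract existence theorem, counting form.**
`b : J × X → 𝔽_p` biadditive, `Q ≤ J` in the left kernel with `J^p ≤ Q`, `X` finite,
every `χ ≠ 0` pairs nontrivially with some `x` (first inequality) and `[J : Q] ≤ |X|` (existence
of enough characters). Then the left kernel is exactly `Q`, and `|X| = [J : Q]`. -/
theorem mem_of_forall_pairing_eq_zero [Finite X] (Q : Subgroup J)
    (hmul : ∀ x y χ, b (x * y) χ = b x χ + b y χ)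
    (hadd : ∀ x χ χ', b x (χ + χ') = b x χ + b x χ')
    (hQ : ∀ x ∈ Q, ∀ χ, b x χ = 0)
    (hpow : ∀ x : J, x ^ p ∈ Q)
    (hnd : ∀ χ, χ ≠ 0 → ∃ x, b x χ ≠ 0)
    (hidx : Q.index ≠ 0) (hcount : Q.index ≤ Nat.card X) :
    (∀ x, (∀ χ, b x χ = 0) → x ∈ Q) ∧ Nat.card X = Q.index := by
  have hfinV : Finite (J ⧸ Q) := Subgroup.index_ne_zero_iff_finite.1 hidx
  let _ : Module (ZMod p) X :=
    AddCommGroup.zmodModule (nsmul_eq_zero_of_nondegenerate p b hadd hnd)
  let _ : Module (ZMod p) (Additive (J ⧸ Q)) :=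
    AddCommGroup.zmodModule (nsmul_quot_eq_zero p Q hpow)
  have : Finite (Additive (J ⧸ Q)) := hfinV
  obtain ⟨bV, hbV⟩ := exists_quotPairing p b Q hmul hadd hQ
  have hndV : ∀ χ, χ ≠ 0 → ∃ v, bV v χ ≠ 0 := by
    intro χ hχ
    obtain ⟨x, hx⟩ := hnd χ hχ
    exact ⟨Additive.ofMul (QuotientGroup.mk x), by rwa [hbV]⟩
  have hcardV : Nat.card (Additive (J ⧸ Q)) = Q.index := rfl
  obtain ⟨h1, h2⟩ := eq_zero_of_forall_pairing_eq_zero (p := p) bV hndV (hcardV ▸ hcount)
  refine ⟨fun x hx => ?_, h2.trans hcardV⟩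
  have h3 := h1 (Additive.ofMul (QuotientGroup.mk x)) (fun χ => (hbV x χ).trans (hx χ))
  exact (QuotientGroup.eq_one_iff x).1 (Additive.ofMul.injective h3)

/-- A pairing `J × X → 𝔽_p` with left kernel exactly `Q` (of finite index, `J^p ≤ Q`) and trivial
right kernel satisfies `[J : Q] = |X|`. -/
theorem index_eq_card_of_nondegenerate [Finite X] (Q : Subgroup J)
    (hmul : ∀ x y χ, b (x * y) χ = b x χ + b y χ)
    (hadd : ∀ x χ χ', b x (χ + χ') = b x χ + b x χ')
    (hQ : ∀ x ∈ Q, ∀ χ, b x χ = 0)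
    (hpow : ∀ x : J, x ^ p ∈ Q)
    (hker : ∀ x, (∀ χ, b x χ = 0) → x ∈ Q)
    (hnd : ∀ χ, χ ≠ 0 → ∃ x, b x χ ≠ 0)
    (hidx : Q.index ≠ 0) : Q.index = Nat.card X := by
  have hfinV : Finite (J ⧸ Q) := Subgroup.index_ne_zero_iff_finite.1 hidx
  let _ : Module (ZMod p) X :=
    AddCommGroup.zmodModule (nsmul_eq_zero_of_nondegenerate p b hadd hnd)
  let _ : Module (ZMod p) (Additive (J ⧸ Q)) :=
    AddCommGroup.zmodModule (nsmul_quot_eq_zero p Q hpow)
  have : Finite (Additive (J ⧸ Q)) := hfinV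
  obtain ⟨bV, hbV⟩ := exists_quotPairing p b Q hmul hadd hQ
  have hcardV : Nat.card (Additive (J ⧸ Q)) = Q.index := rfl
  rw [← hcardV]
  apply card_eq_of_nondegenerate (p := p) bV
  · intro v hv
    induction v using Additive.rec with
    | ofMul v =>
      induction v using QuotientGroup.induction_on with
      | H x =>
        have hx : x ∈ Q := hker x (fun χ => by rw [← hbV, hv])
        rw [(QuotientGroup.eq_one_iff x).2 hx]
        rfl
  · intro χ hχ
    by_contra hne
    obtain ⟨x, hx⟩ := hnd χ hne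
    exact hx (by rw [← hbV, hχ])

/-- **Abstract existence theorem, enlargement step** (`S ⊆ S'`).
`b : J × X → 𝔽_p` biadditive with left kernel contained in `Q'` (the case of the large set `S'`);
`W ≤ J` (the local units at the places of `S' ∖ S`), `Y ≤ X` (the characters unramified outside
`S`) such that a character killing `W` lies in `Y`. Then the elements of `J` orthogonal to `Y` lie
in `Q' ⊔ W`. -/
theorem mem_sup_of_forall_pairing_eq_zero [Finite X] (Q' W : Subgroup J)
    (Y : AddSubgroup X)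
    (hmul : ∀ x y χ, b (x * y) χ = b x χ + b y χ)
    (hadd : ∀ x χ χ', b x (χ + χ') = b x χ + b x χ')
    (hpX : ∀ χ : X, p • χ = 0)
    (hA : ∀ x, (∀ χ, b x χ = 0) → x ∈ Q')
    (hW : ∀ χ, (∀ w ∈ W, b w χ = 0) → χ ∈ Y)
    (x : J) (hx : ∀ χ ∈ Y, b x χ = 0) : x ∈ Q' ⊔ W := by
  let _ : Module (ZMod p) X := AddCommGroup.zmodModule hpX
  let bX : J → (X →+ ZMod p) := fun x => AddMonoidHom.mk' (b x) (hadd x)
  let bJ : J →* Multiplicative (X →+ ZMod p) :=
    MonoidHom.mk' (fun x => Multiplicative.ofAdd (bX x)) (fun x y => by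
      apply Multiplicative.toAdd.injective
      ext χ
      exact hmul x y χ)
  let F : AddSubgroup (X →+ ZMod p) := Subgroup.toAddSubgroup' (W.map bJ)
  have hmemF : ∀ φ, φ ∈ F ↔ ∃ w ∈ W, bX w = φ := by
    intro φ
    constructor
    · rintro ⟨w, hw, hwφ⟩
      exact ⟨w, hw, Multiplicative.ofAdd.injective hwφ⟩
    · rintro ⟨w, hw, rfl⟩
      exact ⟨w, hw, rfl⟩
  have hfF : bX x ∈ F := by
    apply mem_of_forall_eq_zero_of_forall_mem (p := p) F (bX x)
    intro χ hχ
    refine hx χ (hW χ (fun w hw => ?_))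
    exact hχ (bX w) ((hmemF _).2 ⟨w, hw, rfl⟩)
  obtain ⟨w, hw, hwx⟩ := (hmemF _).1 hfF
  have hxw : x * w⁻¹ ∈ Q' := by
    apply hA
    intro χ
    have h1 : b (x * w⁻¹) χ + b w χ = b x χ := by
      rw [← hmul, inv_mul_cancel_right]
    have h2 : b w χ = b x χ := congrArg (fun φ : X →+ ZMod p => φ χ) hwx
    rw [h2] at h1
    exact add_eq_right.mp h1
  have : x = (x * w⁻¹) * w := by rw [inv_mul_cancel_right]
  rw [this]
  exact Subgroup.mul_mem_sup hxw hw

end GroupForm

section Count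

variable {J : Type*} [CommGroup J]

/-- **Index count** `[J : P · E] = p^t` (case of a large set `S`).
`P` = principal ideles, `JS = J_{K,S}`, `E = ∏_{v∈S} K_v^{×p} × ∏_{v∉S} U_v`, `t = |S| + r₂`:
`[JS : E] = p^{2t}` (local indices), `[K_S : K_S^p] = p^t` (`S`-units), and an `S`-unit which is
a local `p`-th power at all places of `S` is a `p`-th power (first inequality). -/
theorem index_sup_eq_of_count (p t : ℕ) (hp : 1 < p) (P JS E : Subgroup J)
    (hJ : P ⊔ JS = ⊤) (hE : E ≤ JS)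
    (hJSE : E.relIndex JS = p ^ (2 * t))
    (hKS : (powSubgroup (P ⊓ JS) p).relIndex (P ⊓ JS) = p ^ t)
    (hpow : ∀ y ∈ JS, y ^ p ∈ E)
    (hinj : ∀ x ∈ P ⊓ E, ∃ y ∈ P ⊓ JS, y ^ p = x) :
    (P ⊔ E).index = p ^ t := by
  have h := relIndex_sup_mul_relIndex_inf JS E P hE
  have h1 : JS ⊔ P = ⊤ := by rw [sup_comm]; exact hJ
  have h2 : E ⊓ P = powSubgroup (P ⊓ JS) p := by
    apply le_antisymm
    · intro x hx
      obtain ⟨y, hy, hyx⟩ := hinj x ⟨hx.2, hx.1⟩
      exact mem_powSubgroup.2 ⟨y, hy, hyx⟩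
    · intro x hx
      obtain ⟨y, hy, rfl⟩ := mem_powSubgroup.1 hx
      exact ⟨hpow y hy.2, P.pow_mem hy.1 p⟩
  rw [h1, relIndex_top_right, h2, inf_comm JS P, hKS, hJSE, sup_comm] at h
  have hpt : 0 < p ^ t := Nat.pos_of_ne_zero (pow_ne_zero t (by omega))
  have : p ^ (2 * t) = p ^ t * p ^ t := by rw [two_mul, pow_add]
  rw [this] at h
  exact Nat.eq_of_mul_eq_mul_right hpt h

end Count

section CaseA

variable {J X : Type*} [CommGroup J] [AddCommGroup X]

/-- **Existence theorem mod `p`, case of a large set `S`** (`μ_p ⊆ K`, `S ⊇ {v ∣ p}` generating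
the class group): the left kernel of the reciprocity pairing on `J × X` is `P · E`,
and `|X| = p^t`. -/
theorem left_kernel_le_of_count [Finite X] (p t : ℕ) [Fact p.Prime] (P JS E : Subgroup J)
    (b : J → X → ZMod p)
    (hmul : ∀ x y χ, b (x * y) χ = b x χ + b y χ)
    (hadd : ∀ x χ χ', b x (χ + χ') = b x χ + b x χ')
    (hP : ∀ x ∈ P, ∀ χ, b x χ = 0) (hE0 : ∀ x ∈ E, ∀ χ, b x χ = 0)
    (hJ : P ⊔ JS = ⊤) (hE : E ≤ JS)
    (hJSE : E.relIndex JS = p ^ (2 * t))
    (hKS : (powSubgroup (P ⊓ JS) p).relIndex (P ⊓ JS) = p ^ t)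
    (hpow : ∀ y ∈ JS, y ^ p ∈ E)
    (hinj : ∀ x ∈ P ⊓ E, ∃ y ∈ P ⊓ JS, y ^ p = x)
    (hnd : ∀ χ, χ ≠ 0 → ∃ x, b x χ ≠ 0)
    (hX : p ^ t ≤ Nat.card X) :
    (∀ x, (∀ χ, b x χ = 0) → x ∈ P ⊔ E) ∧ Nat.card X = p ^ t ∧ (P ⊔ E).index = p ^ t := by
  have hp : p.Prime := Fact.out
  have hidx := index_sup_eq_of_count p t hp.one_lt P JS E hJ hE hJSE hKS hpow hinj
  have hQ : ∀ x ∈ P ⊔ E, ∀ χ, b x χ = 0 := by
    intro x hx χ
    obtain ⟨a, ha, e, he, rfl⟩ := Subgroup.mem_sup.1 hx
    rw [hmul, hP a ha, hE0 e he, add_zero]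
  have hpowJ : ∀ x : J, x ^ p ∈ P ⊔ E := by
    intro x
    have hx : x ∈ P ⊔ JS := hJ ▸ Subgroup.mem_top x
    obtain ⟨a, ha, y, hy, rfl⟩ := Subgroup.mem_sup.1 hx
    rw [mul_pow]
    exact Subgroup.mul_mem_sup (P.pow_mem ha p) (hpow y hy)
  have hne : (P ⊔ E).index ≠ 0 := by
    rw [hidx]
    exact pow_ne_zero t hp.ne_zero
  obtain ⟨h1, h2⟩ := mem_of_forall_pairing_eq_zero p b (P ⊔ E) hmul hadd hQ hpowJ hnd hne
    (hidx ▸ hX)
  exact ⟨h1, h2.trans hidx, hidx⟩

/-- **Existence theorem mod `p`, abstract form** (`μ_p ⊆ K`, any `S ⊇ {v ∣ p}`): choose a large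
`S' ⊇ S`; `P, JS, E` are the data of `S'`, `X` the characters of `Gal(K(K_{S'}^{1/p})/K)`,
`Y ≤ X` the characters unramified outside `S`, `W = ∏_{v ∈ S' ∖ S} U_v`. Every idele orthogonal
to `Y` lies in `P · E · W`. -/
theorem mem_sup_sup_of_count [Finite X] (p t : ℕ) [Fact p.Prime] (P JS E W : Subgroup J)
    (Y : AddSubgroup X) (b : J → X → ZMod p)
    (hmul : ∀ x y χ, b (x * y) χ = b x χ + b y χ)
    (hadd : ∀ x χ χ', b x (χ + χ') = b x χ + b x χ')
    (hP : ∀ x ∈ P, ∀ χ, b x χ = 0) (hE0 : ∀ x ∈ E, ∀ χ, b x χ = 0)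
    (hJ : P ⊔ JS = ⊤) (hE : E ≤ JS)
    (hJSE : E.relIndex JS = p ^ (2 * t))
    (hKS : (powSubgroup (P ⊓ JS) p).relIndex (P ⊓ JS) = p ^ t)
    (hpow : ∀ y ∈ JS, y ^ p ∈ E)
    (hinj : ∀ x ∈ P ⊓ E, ∃ y ∈ P ⊓ JS, y ^ p = x)
    (hnd : ∀ χ, χ ≠ 0 → ∃ x, b x χ ≠ 0)
    (hX : p ^ t ≤ Nat.card X)
    (hW : ∀ χ, (∀ w ∈ W, b w χ = 0) → χ ∈ Y)
    (x : J) (hx : ∀ χ ∈ Y, b x χ = 0) : x ∈ P ⊔ E ⊔ W := by
  obtain ⟨hA, -, -⟩ := left_kernel_le_of_count p t P JS E b hmul hadd hP hE0 hJ hE hJSE hKS hpow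
    hinj hnd hX
  exact mem_sup_of_forall_pairing_eq_zero p b (P ⊔ E) W Y hmul hadd
    (nsmul_eq_zero_of_nondegenerate p b hadd hnd) hA hW x hx

end CaseA

section Descent

variable {A A' X X' : Type*} [CommGroup A] [CommGroup A']

/-- **Descent along an extension of degree prime to `p`** (`K' = K(μ_p)`).
`i : A → A'` the inclusion, `ν : A' → A` the norm, `ν ∘ i = (·)^d` with `d` prime to `p`;
`cor` the corestriction of characters with the projection formula `b' (i x) χ' = b x (cor χ')`.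
If the left kernel of `b'` is contained in `Q'`, `ν Q' ≤ Q` and `A^p ≤ Q`, then the left kernel of
`b` is contained in `Q`. -/
theorem mem_of_coprime_descent (p d : ℕ) (hd : Nat.Coprime d p)
    (Q : Subgroup A) (Q' : Subgroup A') (i : A →* A') (ν : A' →* A)
    (hνi : ∀ x, ν (i x) = x ^ d) (hν : ∀ y ∈ Q', ν y ∈ Q) (hpow : ∀ x : A, x ^ p ∈ Q)
    (b : A → X → ZMod p) (b' : A' → X' → ZMod p) (cor : X' → X)
    (hproj : ∀ x χ', b' (i x) χ' = b x (cor χ'))
    (hA' : ∀ y, (∀ χ', b' y χ' = 0) → y ∈ Q')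
    (x : A) (hx : ∀ χ, b x χ = 0) : x ∈ Q := by
  have h1 : i x ∈ Q' := hA' (i x) (fun χ' => by rw [hproj, hx])
  have h2 : x ^ d ∈ Q := by
    rw [← hνi]
    exact hν _ h1
  have h3 : x ^ p ∈ Q := hpow x
  have hcop : IsCoprime (d : ℤ) (p : ℤ) := Nat.isCoprime_iff_coprime.mpr hd
  obtain ⟨u, v, huv⟩ := hcop
  have : x = (x ^ d) ^ u * (x ^ p) ^ v := by
    rw [← zpow_natCast x d, ← zpow_natCast x p, ← zpow_mul, ← zpow_mul, ← zpow_add,
      mul_comm (d : ℤ), mul_comm (p : ℤ), huv, zpow_one]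
  rw [this]
  exact Q.mul_mem (Q.zpow_mem h2 u) (Q.zpow_mem h3 v)

end Descent

end ExistenceAbstract

end Fermat.Agent.CFT
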