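/-
S55 / C7 (assembly, input (H-ii), group-theoretic part): for a finite commutative group `G` of
exponent `p` (e.g. `Gal(K(K_T^{1/p})/K)`), `|Hom(G, ℤ/p)| = |G|`.
-/
import Fermat.Agent.CFT.Global.ExistencePairing

set_option autoImplicit false

namespace Fermat.Agent.CFT

namespace ExistenceModP

/-- For a finite elementary abelian `p`-group `V` (additive): `|Hom(V, ℤ/p)| = |V|`. -/
theorem natCard_addMonoidHom_zmod {V : Type*} [AddCommGroup V] [Finite V] (p : ℕ)
    [Fact p.Prime] (hV : ∀ v : V, p • v = 0) : Nat.card (V →+ ZMod p) = Nat.card V := by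
  have _inst : Module (ZMod p) V := AddCommGroup.zmodModule hV
  rw [← ExistenceAbstract.natCard_dual_eq (p := p) (V := V)]
  refine Nat.card_congr (Equiv.symm ?_)
  exact
    { toFun := fun φ => φ.toAddMonoidHom
      invFun := fun f => f.toZModLinearMap p
      left_inv := fun φ => by ext v; rfl
      right_inv := fun f => by ext v; rfl }

/-- **Input (H-ii), group part.** For a finite commutative group `G` of exponent `p`:
`|Hom(G, ℤ/p)| = |G|`. -/
theorem natCard_monoidHom_zmod {G : Type*} [CommGroup G] [Finite G] (p : ℕ) [Fact p.Prime]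
    (hG : ∀ g : G, g ^ p = 1) :
    Nat.card (G →* Multiplicative (ZMod p)) = Nat.card G := by
  rw [← Nat.card_congr (AddMonoidHom.toMultiplicativeRight (α := G) (β := ZMod p)),
    natCard_addMonoidHom_zmod (V := Additive G) p (fun v => by
      induction v using Additive.rec with
      | ofMul g => rw [← ofMul_pow, hG g]; rfl)]
  exact Nat.card_congr Additive.toMul

end ExistenceModP

end Fermat.Agent.CFT
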