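/-
S55 / C7 (assembly): **global existence theorem mod `p` at finite level, in the idele model
of `Global/IdeleDefs.lean`, hypothesis form**.

`K` a number field (here: any field; the arithmetic enters only through the hypotheses),
`S ⊆ T` sets of rational primes, `J = ideleGroup K`, `P = principalSubgroup K`,
`jT K T = J_{K,T}`, `uS K S = U_{K,S}` (both as subgroups of `J`),
`eT K T p = J_{K,T}^p · U_{K,T}` (`= ∏_{v∈T} K_v^{×p} × ∏_{v∉T} U_v`).

* `mk_mem_range_pow` : an idele in `P · E_T · U_{K,S}` has a `p`-th power class in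
  `C_S(K) = ideleClassS K S`.
* `exists_pow_eq_mk_of_orthogonal` : **(E)-hard, `μ_p ⊆ K`**: every idele orthogonal to the
  characters unramified outside `S` has a `p`-th power class in `C_S(K)`.
* `exists_pairing_ne_zero_of_norm` : **(E)-easy**.
-/
import Fermat.Agent.CFT.Global.IdeleDefs
import Fermat.Agent.CFT.Global.ExistencePairing

set_option autoImplicit false

namespace Fermat.Agent.CFT

namespace ExistenceModP

open Subgroup

section Model

variable (K : Type) [Field K]

/-- `J_{K,T}` as a subgroup of the idele group. -/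
noncomputable def jT (T : Set Nat.Primes) : Subgroup (ideleGroup K) :=
  (ideleGroupOutside K T).subgroupOf (ideleGroup K)

/-- `U_{K,S}` as a subgroup of the idele group. -/
noncomputable def uS (S : Set Nat.Primes) : Subgroup (ideleGroup K) :=
  (unitIdelesOutside K S).subgroupOf (ideleGroup K)

/-- `E_T = J_{K,T}^p · U_{K,T}` (`= ∏_{v ∈ T} K_v^{×p} × ∏_{v ∉ T} U_v`). -/
noncomputable def eT (T : Set Nat.Primes) (p : ℕ) : Subgroup (ideleGroup K) :=
  powSubgroup (jT K T) p ⊔ uS K T

variable {K}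

theorem mem_jT {T : Set Nat.Primes} {x : ideleGroup K} :
    x ∈ jT K T ↔ ∀ q : Nat.Primes, q ∉ T → (x : IdeleProd K) q ∈ semiLocalIntegral (q : ℕ) K :=
  Iff.rfl

theorem mem_uS {S : Set Nat.Primes} {x : ideleGroup K} :
    x ∈ uS K S ↔ (∀ q : Nat.Primes, q ∉ S → (x : IdeleProd K) q ∈ semiLocalIntegral (q : ℕ) K) ∧
      ∀ q : Nat.Primes, q ∈ S → (x : IdeleProd K) q = 1 :=
  Iff.rfl

theorem uS_anti {S T : Set Nat.Primes} (hST : S ⊆ T) : uS K T ≤ uS K S := by
  intro x hx
  rw [mem_uS] at hx ⊢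
  refine ⟨fun q hq => ?_, fun q hq => hx.2 q (hST hq)⟩
  by_cases hqT : q ∈ T
  · rw [hx.2 q hqT]; exact one_mem _
  · exact hx.1 q hqT

theorem uS_le_jT {S T : Set Nat.Primes} (hST : S ⊆ T) : uS K S ≤ jT K T := by
  intro x hx
  rw [mem_uS] at hx
  rw [mem_jT]
  exact fun q hq => hx.1 q (fun h => hq (hST h))

theorem jT_mono {S T : Set Nat.Primes} (hST : S ⊆ T) : jT K S ≤ jT K T := by
  intro x hx
  rw [mem_jT] at hx ⊢
  exact fun q hq => hx q (fun h => hq (hST h))

theorem eT_le_jT (T : Set Nat.Primes) (p : ℕ) : eT K T p ≤ jT K T :=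
  sup_le (powSubgroup_le _ _) (uS_le_jT subset_rfl)

theorem pow_mem_eT {T : Set Nat.Primes} (p : ℕ) {y : ideleGroup K} (hy : y ∈ jT K T) :
    y ^ p ∈ eT K T p :=
  Subgroup.mem_sup_left (mem_powSubgroup.2 ⟨y, hy, rfl⟩)

theorem principalSubgroup_le_principalUnitSubgroup (S : Set Nat.Primes) :
    principalSubgroup K ≤ principalUnitSubgroup K S := by
  intro x hx
  exact Subgroup.mem_sup_left hx

theorem uS_le_principalUnitSubgroup (S : Set Nat.Primes) :
    uS K S ≤ principalUnitSubgroup K S := by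
  intro x hx
  exact Subgroup.mem_sup_right hx

/-- An idele in `Kˣ · J_{K,T}^p U_{K,T} · U_{K,S}` (`S ⊆ T`) has a `p`-th power class in
`C_S(K)`. -/
theorem mk_mem_range_pow {S T : Set Nat.Primes} (hST : S ⊆ T) (p : ℕ) (x : ideleGroup K)
    (hx : x ∈ principalSubgroup K ⊔ eT K T p ⊔ uS K S) :
    ∃ y : ideleClassS K S, y ^ p = (QuotientGroup.mk x : ideleClassS K S) := by
  obtain ⟨ae, hae, w, hw, rfl⟩ := Subgroup.mem_sup.1 hx
  obtain ⟨a, ha, e, he, rfl⟩ := Subgroup.mem_sup.1 hae
  obtain ⟨yp, hyp, u, hu, rfl⟩ := Subgroup.mem_sup.1 he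
  obtain ⟨y, -, rfl⟩ := mem_powSubgroup.1 hyp
  refine ⟨QuotientGroup.mk y, ?_⟩
  rw [← QuotientGroup.mk_pow, QuotientGroup.eq]
  have h1 : a ∈ principalUnitSubgroup K S := principalSubgroup_le_principalUnitSubgroup S ha
  have h2 : u ∈ principalUnitSubgroup K S :=
    uS_le_principalUnitSubgroup S (uS_anti hST hu)
  have h3 : w ∈ principalUnitSubgroup K S := uS_le_principalUnitSubgroup S hw
  have h : (y ^ p)⁻¹ * (a * (y ^ p * u) * w) = a * u * w := by
    rw [mul_left_comm a (y ^ p) u, mul_assoc (y ^ p), inv_mul_cancel_left]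
  rw [h]
  exact mul_mem (mul_mem h1 h2) h3

end Model

section Hard

variable (K : Type) [Field K]

/-- **Global existence theorem mod `p`, hard half, `μ_p ⊆ K`, idele-model form.**
`S ⊆ T` sets of rational primes; `X` = characters of `Gal(M_T/K)`, `M_T = K(K_T^{1/p})`;
`Y ≤ X` the characters unramified outside `S`; `b` the reciprocity pairing
`b x χ = Σ_v (x_v, χ_v)_v`. Hypotheses:
* `hmul, hadd` biadditivity (S1);
* `hrecip` reciprocity law: `b` kills principal ideles (C5d);
* `hunr` unramified formula: `b` kills `U_{K,T}` (`M_T/K` unramified outside `T`) (S3);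
* `hgen` `J_K = Kˣ J_{K,T}` (`T` generates the class group) (C1c);
* `hloc` local index `[J_{K,T} : E_T] = p^{2t}` (B5 + PlaceProd);
* `hunits` `T`-unit index `[K_T : K_T^p] = p^t` (C2a);
* `hinj` a `T`-unit which is a local `p`-th power at `T` is a `p`-th power (first inequality);
* `hnd` every character `χ ≠ 0` pairs nontrivially with some idele (first inequality);
* `hX` Kummer theory: at least `p^t` characters;
* `hW` a character killing `U_{K,S}` is unramified outside `S` (local converse, N6).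
Conclusion: an idele orthogonal to `Y` has a `p`-th power class in `C_S(K)`. -/
theorem exists_pow_eq_mk_of_orthogonal {X : Type*} [AddCommGroup X] [Finite X]
    (p t : ℕ) [Fact p.Prime] {S T : Set Nat.Primes} (hST : S ⊆ T)
    (Y : AddSubgroup X) (b : ideleGroup K → X → ZMod p)
    (hmul : ∀ x y χ, b (x * y) χ = b x χ + b y χ)
    (hadd : ∀ x χ χ', b x (χ + χ') = b x χ + b x χ')
    (hrecip : ∀ x ∈ principalSubgroup K, ∀ χ, b x χ = 0)
    (hunr : ∀ x ∈ uS K T, ∀ χ, b x χ = 0)
    (hgen : principalSubgroup K ⊔ jT K T = ⊤)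
    (hloc : (eT K T p).relIndex (jT K T) = p ^ (2 * t))
    (hunits : (powSubgroup (principalSubgroup K ⊓ jT K T) p).relIndex
      (principalSubgroup K ⊓ jT K T) = p ^ t)
    (hinj : ∀ x ∈ principalSubgroup K ⊓ eT K T p,
      ∃ y ∈ principalSubgroup K ⊓ jT K T, y ^ p = x)
    (hnd : ∀ χ, χ ≠ 0 → ∃ x, b x χ ≠ 0)
    (hX : p ^ t ≤ Nat.card X)
    (hW : ∀ χ, (∀ w ∈ uS K S, b w χ = 0) → χ ∈ Y)
    (x : ideleGroup K) (hx : ∀ χ ∈ Y, b x χ = 0) :
    ∃ y : ideleClassS K S, y ^ p = (QuotientGroup.mk x : ideleClassS K S) := by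
  have hb1 : ∀ χ, b 1 χ = 0 := by
    intro χ
    have h := hmul 1 1 χ
    rw [mul_one] at h
    exact add_eq_left.mp h.symm
  have hbpow : ∀ (n : ℕ) (y : ideleGroup K) χ, b (y ^ n) χ = n • b y χ := by
    intro n y χ
    induction n with
    | zero => simp [hb1]
    | succ n ih => rw [pow_succ, hmul, ih, succ_nsmul]
  have hE0 : ∀ x ∈ eT K T p, ∀ χ, b x χ = 0 := by
    intro x hx χ
    obtain ⟨yp, hyp, u, hu, rfl⟩ := Subgroup.mem_sup.1 hx
    obtain ⟨y, -, rfl⟩ := mem_powSubgroup.1 hyp
    rw [hmul, hbpow, hunr u hu χ, add_zero]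
    simp
  refine mk_mem_range_pow hST p x ?_
  exact ExistenceAbstract.mem_sup_sup_of_count p t (principalSubgroup K) (jT K T) (eT K T p)
    (uS K S) Y b hmul hadd hrecip hE0 hgen (eT_le_jT T p) hloc hunits
    (fun y hy => pow_mem_eT p hy) hinj hnd hX hW x hx

end Hard

section Finite

variable (K : Type) [Field K]

/-- `P · E_T ≤` the kernel of `J_K → C_S(K)/p`. -/
theorem sup_eT_le_comap {S T : Set Nat.Primes} (hST : S ⊆ T) (p : ℕ) :
    principalSubgroup K ⊔ eT K T p ≤
      ((powMonoidHom (α := ideleClassS K S) p).range).comap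
        (QuotientGroup.mk' (principalUnitSubgroup K S)) := by
  intro x hx
  rw [Subgroup.mem_comap, MonoidHom.mem_range]
  obtain ⟨y, hy⟩ := mk_mem_range_pow hST p x
    (Subgroup.mem_sup_left (T := uS K S) hx)
  exact ⟨y, hy⟩

/-- **Finiteness of `C_S(K)/p`** (`μ_p ⊆ K`), from the index count `[J_K : Kˣ E_T] = p^t`:
`[C_S(K) : C_S(K)^p]` divides `p^t`. -/
theorem index_range_pow_dvd (p t : ℕ) (hp : 1 < p) {S T : Set Nat.Primes} (hST : S ⊆ T)
    (hgen : principalSubgroup K ⊔ jT K T = ⊤)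
    (hloc : (eT K T p).relIndex (jT K T) = p ^ (2 * t))
    (hunits : (powSubgroup (principalSubgroup K ⊓ jT K T) p).relIndex
      (principalSubgroup K ⊓ jT K T) = p ^ t)
    (hinj : ∀ x ∈ principalSubgroup K ⊓ eT K T p,
      ∃ y ∈ principalSubgroup K ⊓ jT K T, y ^ p = x) :
    (powMonoidHom (α := ideleClassS K S) p).range.index ∣ p ^ t := by
  have hidx : (principalSubgroup K ⊔ eT K T p).index = p ^ t :=
    ExistenceAbstract.index_sup_eq_of_count p t hp (principalSubgroup K) (jT K T) (eT K T p)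
      hgen (eT_le_jT T p) hloc hunits (fun y hy => pow_mem_eT p hy) hinj
  rw [← hidx, ← Subgroup.index_comap_of_surjective _
    (QuotientGroup.mk'_surjective (principalUnitSubgroup K S))]
  exact Subgroup.index_dvd_of_le (sup_eT_le_comap K hST p)

theorem finiteIndex_range_pow (p t : ℕ) (hp : 1 < p) {S T : Set Nat.Primes} (hST : S ⊆ T)
    (hgen : principalSubgroup K ⊔ jT K T = ⊤)
    (hloc : (eT K T p).relIndex (jT K T) = p ^ (2 * t))
    (hunits : (powSubgroup (principalSubgroup K ⊓ jT K T) p).relIndex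
      (principalSubgroup K ⊓ jT K T) = p ^ t)
    (hinj : ∀ x ∈ principalSubgroup K ⊓ eT K T p,
      ∃ y ∈ principalSubgroup K ⊓ jT K T, y ^ p = x) :
    (powMonoidHom (α := ideleClassS K S) p).range.FiniteIndex :=
  ⟨fun h0 => by
    have h := index_range_pow_dvd K p t hp hST hgen hloc hunits hinj
    rw [h0, zero_dvd_iff] at h
    exact pow_ne_zero t (by omega) h⟩

end Finite

section Easy

/-- **(E), easy half.** If the elements orthogonal to `χ` form (are contained in) a proper
subgroup `N` (the norm group of the cyclic extension cut out by `χ`: (S2); `N ≠ ⊤` by the first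
inequality), some element pairs nontrivially with `χ`. -/
theorem exists_pairing_ne_zero_of_norm {J X : Type*} [Group J] {p : ℕ} (b : J → X → ZMod p)
    (χ : X) (N : Subgroup J) (hN : ∀ x, b x χ = 0 → x ∈ N) (hfirst : N ≠ ⊤) :
    ∃ x, b x χ ≠ 0 := by
  by_contra hcon
  push Not at hcon
  exact hfirst (eq_top_iff.2 fun x _ => hN x (hcon x))

end Easy

end ExistenceModP

end Fermat.Agent.CFT
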