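/-
S55 / C7 (assembly, input (D1)): for a number field `K` and a finite set `S` of rational primes
there is a finite `T ⊇ S` with `J_K = Kˣ · J_{K,T}` (hypothesis `hgen` of
`ExistenceModP.exists_pow_eq_mk_of_orthogonal`), from helper14's dictionary
(`IdeleDict.exists_finite_generatesClassGroup`, `exists_principal_div_mem_ideleOutside`).
-/
import Fermat.Agent.CFT.Global.ExistenceModP
import Fermat.Agent.CFT.Global.IdeleDict.DictGen

set_option autoImplicit false

namespace Fermat.Agent.CFT

namespace ExistenceModP

open NumberField IsDedekindDomain Fermat.Agent.CFT.IdeleDict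

variable (K : Type) [Field K] [NumberField K]

/-- `Kˣ · J_{K,T} = J_K` (inside the idele group) when the primes over `T` generate the class
group. -/
theorem sup_jT_eq_top {T : Set Nat.Primes} (hT : GeneratesClassGroup K (primesOver K T)) :
    principalSubgroup K ⊔ jT K T = ⊤ := by
  rw [eq_top_iff]
  intro x _
  obtain ⟨y, hy⟩ := exists_principal_div_mem_ideleOutside hT x.2
  rw [← ideleGroupOutside_eq_ideleOutside] at hy
  let a : ideleGroup K := ⟨principalIdele K y, principalIdele_mem_ideleGroup y⟩
  have ha : a ∈ principalSubgroup K := by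
    show (a : IdeleProd K) ∈ (principalIdele K).range
    exact ⟨y, rfl⟩
  have hxa : x / a ∈ jT K T := by
    show ((x / a : ideleGroup K) : IdeleProd K) ∈ ideleGroupOutside K T
    exact hy
  have : x = a * (x / a) := (mul_div_cancel _ _).symm
  rw [this]
  exact Subgroup.mul_mem_sup ha hxa

/-- **Input (D1).** Every finite set `S` of rational primes is contained in a finite set `T`
whose primes generate the class group; then `Kˣ · J_{K,T} = J_K`. -/
theorem exists_finite_superset_generates {S : Set Nat.Primes} (hS : S.Finite) :
    ∃ T : Set Nat.Primes, S ⊆ T ∧ T.Finite ∧ GeneratesClassGroup K (primesOver K T) ∧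
      principalSubgroup K ⊔ jT K T = ⊤ := by
  classical
  obtain ⟨S₀, hS₀fin, hS₀⟩ := exists_finite_generatesClassGroup (K := K)
  choose q hq using fun P : HeightOneSpectrum (𝓞 K) => exists_prime_mem P
  refine ⟨S ∪ q '' S₀, Set.subset_union_left, hS.union (hS₀fin.image q), ?_⟩
  have hgen : GeneratesClassGroup K (primesOver K (S ∪ q '' S₀)) := by
    refine hS₀.mono ?_
    intro P hP
    exact ⟨q P, Or.inr ⟨P, hP, rfl⟩, hq P⟩
  exact ⟨hgen, sup_jT_eq_top K hgen⟩

end ExistenceModP

end Fermat.Agent.CFT
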