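import Mathlib
import Fermat.Agent.CFT.Herbrand

set_option autoImplicit false

namespace Fermat.Agent.CFT.FGCount

open Fermat.Agent.CFT DNPair

variable {A B : Type*} [AddCommGroup A] [AddCommGroup B]

/-- Functoriality of `ofTrivial`. -/
def ofTrivialHom (f : A →+ B) (n : ℕ) : Hom (ofTrivial A n) (ofTrivial B n) where
  toFun := f
  map_D a := by simp [ofTrivial]
  map_N a := by simp [ofTrivial]

/-- `|Ĥ⁰|` of the trivial pair is the index of `n A`. -/
theorem card_H0_ofTrivial (n : ℕ) :
    Nat.card (ofTrivial A n).H0 = (nsmulAddMonoidHom n : A →+ A).range.index := by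
  have hker : (ofTrivial A n).D.ker = ⊤ := by
    ext a
    simp [ofTrivial]
  change Nat.card ((ofTrivial A n).D.ker ⧸ ((ofTrivial A n).N.range.addSubgroupOf
    (ofTrivial A n).D.ker)) = _
  rw [← AddSubgroup.index_eq_card, ← AddSubgroup.relIndex, hker, AddSubgroup.relIndex_top_right]
  rfl

/-- `|Ĥ¹|` of the trivial pair is the number of `n`-torsion elements. -/
theorem card_H1_ofTrivial (n : ℕ) :
    Nat.card (ofTrivial A n).H1 = Nat.card (nsmulAddMonoidHom n : A →+ A).ker := by
  have hr : (ofTrivial A n).swap.N.range = ⊥ := by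
    ext a
    simp [ofTrivial]
  change Nat.card ((ofTrivial A n).swap.D.ker ⧸ ((ofTrivial A n).swap.N.range.addSubgroupOf
    (ofTrivial A n).swap.D.ker)) = _
  rw [← AddSubgroup.index_eq_card, ← AddSubgroup.relIndex, hr, AddSubgroup.relIndex_bot_left]
  rfl


/-- Multiplication by `n` on `ι → ℤ`: index of the image. -/
theorem index_range_nsmul_pi_int (ι : Type*) [Fintype ι] (n : ℕ) :
    (nsmulAddMonoidHom n : (ι → ℤ) →+ (ι → ℤ)).range.index = n ^ Fintype.card ι := by
  have h : (nsmulAddMonoidHom n : (ι → ℤ) →+ (ι → ℤ)).range =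
      AddSubgroup.pi Set.univ (fun _ : ι => AddSubgroup.zmultiples (n : ℤ)) := by
    ext f
    rw [AddMonoidHom.mem_range, AddSubgroup.mem_pi]
    constructor
    · rintro ⟨g, rfl⟩ i _
      rw [AddSubgroup.mem_zmultiples_iff]
      exact ⟨g i, by simp [mul_comm]⟩
    · intro hf
      have hf' : ∀ i, ∃ k : ℤ, k • (n : ℤ) = f i := fun i =>
        AddSubgroup.mem_zmultiples_iff.mp (hf i (Set.mem_univ i))
      choose g hg using hf'
      refine ⟨g, ?_⟩
      funext i
      rw [← hg i]
      simp [mul_comm]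
  rw [h, AddSubgroup.index_pi]
  simp [Int.index_zmultiples]

theorem isHFinite_ofTrivial_pi_int (ι : Type*) [Fintype ι] (n : ℕ) (hn : n ≠ 0) :
    (ofTrivial (ι → ℤ) n).IsHFinite ∧ (ofTrivial (ι → ℤ) n).herbrand = (n : ℚ) ^ Fintype.card ι := by
  have h0 : Nat.card (ofTrivial (ι → ℤ) n).H0 = n ^ Fintype.card ι := by
    rw [card_H0_ofTrivial, index_range_nsmul_pi_int]
  have h1 : Nat.card (ofTrivial (ι → ℤ) n).H1 = 1 := by
    rw [card_H1_ofTrivial]
    have : (nsmulAddMonoidHom n : (ι → ℤ) →+ (ι → ℤ)).ker = ⊥ := by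
      ext f
      rw [AddMonoidHom.mem_ker, AddSubgroup.mem_bot]
      constructor
      · intro hf
        funext i
        have := congrFun hf i
        simpa [hn] using this
      · rintro rfl
        simp
    rw [this]
    simp
  refine ⟨⟨?_, ?_⟩, ?_⟩
  · apply Nat.finite_of_card_ne_zero
    rw [h0]
    exact pow_ne_zero _ hn
  · apply Nat.finite_of_card_ne_zero
    rw [h1]
    exact one_ne_zero
  · unfold herbrand
    rw [h0, h1]
    simp


/-- Transport along an additive isomorphism. -/
theorem isHFinite_herbrand_ofTrivial_congr (e : A ≃+ B) (n : ℕ)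
    (hB : (ofTrivial B n).IsHFinite) :
    (ofTrivial A n).IsHFinite ∧ (ofTrivial A n).herbrand = (ofTrivial B n).herbrand := by
  have h := herbrand_eq_of_bijective (ofTrivialHom e.toAddMonoidHom n) e.bijective
  have hA := h.1.mpr hB
  exact ⟨hA, h.2 hA⟩

/-- **Herbrand quotient of multiplication by `n`** on a finitely generated abelian group:
`|A / nA| / |A[n]| = n ^ rank A`. -/
theorem isHFinite_herbrand_ofTrivial_of_finite [Module.Finite ℤ A] (n : ℕ) (hn : n ≠ 0) :
    (ofTrivial A n).IsHFinite ∧ (ofTrivial A n).herbrand = (n : ℚ) ^ Module.finrank ℤ A := by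
  classical
  -- the torsion subgroup
  let T : Submodule ℤ A := Submodule.torsion ℤ A
  have hTfin : Finite T :=
    Module.finite_of_fg_torsion T (Submodule.torsion_isTorsion (R := ℤ) (M := A))
  have : Module.IsTorsionFree ℤ (A ⧸ T) := inferInstance
  obtain ⟨r, b⟩ := Module.basisOfFiniteTypeTorsionFree' (R := ℤ) (M := A ⧸ T)
  -- rank computation
  have hrank : Module.finrank ℤ A = r := by
    have h1 := Submodule.finrank_quotient_add_finrank T
    have h2 : Module.finrank ℤ T = 0 :=
      (Submodule.torsion_isTorsion (R := ℤ) (M := A)).finrank_eq_zero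
    have h3 : Module.finrank ℤ (A ⧸ T) = r := by
      rw [Module.finrank_eq_card_basis b, Fintype.card_fin]
    omega
  -- the quotient
  have hQ0 := isHFinite_ofTrivial_pi_int (Fin r) n hn
  rw [Fintype.card_fin] at hQ0
  have hQ1 := isHFinite_herbrand_ofTrivial_congr (b.equivFun.toAddEquiv) n hQ0.1
  rw [hQ0.2] at hQ1
  -- compare the quotient pair with the trivial pair on the quotient
  have hD : ∀ a ∈ T.toAddSubgroup, (ofTrivial A n).D a ∈ T.toAddSubgroup := by
    intro a _
    simp [ofTrivial]
  have hN : ∀ a ∈ T.toAddSubgroup, (ofTrivial A n).N a ∈ T.toAddSubgroup := by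
    intro a ha
    exact T.toAddSubgroup.nsmul_mem ha n
  let ι : Hom ((ofTrivial A n).quotient T.toAddSubgroup hD hN) (ofTrivial (A ⧸ T) n) :=
    { toFun := AddMonoidHom.id _
      map_D := fun x => by
        obtain ⟨a, rfl⟩ := QuotientAddGroup.mk_surjective x
        simp [ofTrivial, DNPair.quotient]
        all_goals rfl
      map_N := fun x => by
        obtain ⟨a, rfl⟩ := QuotientAddGroup.mk_surjective x
        simp [ofTrivial, DNPair.quotient]
        all_goals rfl }
  have hι := herbrand_eq_of_bijective ι Function.bijective_id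
  have hQ2 : ((ofTrivial A n).quotient T.toAddSubgroup hD hN).IsHFinite := hι.1.mpr hQ1.1
  have hQ3 := hι.2 hQ2
  have : Finite T.toAddSubgroup := hTfin
  have hA := isHFinite_of_quotient_of_finite (ofTrivial A n) T.toAddSubgroup hD hN hQ2
  refine ⟨hA, ?_⟩
  have h4 := (herbrand_quotient_of_finite (ofTrivial A n) T.toAddSubgroup hD hN hA).2
  rw [← h4, hQ3, hQ1.2, hrank]

/-- Counting form: `|A / nA| = n ^ rank A * |A[n]|` for a finitely generated abelian group. -/
theorem index_range_nsmul_eq [Module.Finite ℤ A] (n : ℕ) (hn : n ≠ 0) :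
    (nsmulAddMonoidHom n : A →+ A).range.index =
      n ^ Module.finrank ℤ A * Nat.card (nsmulAddMonoidHom n : A →+ A).ker := by
  obtain ⟨hfin, hh⟩ := isHFinite_herbrand_ofTrivial_of_finite (A := A) n hn
  unfold herbrand at hh
  rw [card_H0_ofTrivial, card_H1_ofTrivial] at hh
  have hpos : (0 : ℚ) < (Nat.card (nsmulAddMonoidHom n : A →+ A).ker : ℚ) := by
    have := hfin.card_H1_pos
    rw [card_H1_ofTrivial] at this
    exact_mod_cast this
  rw [div_eq_iff hpos.ne'] at hh
  exact_mod_cast hh

end Fermat.Agent.CFT.FGCount
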