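/-
S55 / Layer C (global class field theory), interface-free piece:
**Dirichlet's `S`-unit theorem** (a Mathlib TODO in `RingTheory/DedekindDomain/SInteger`).

For a Dedekind domain `R` with fraction field `K`, finite class group, and a finite set `S` of
height-one primes, the sequence `0 → Rˣ → S.unit K → ℤ^S` is exact and the image of the last map
contains `h • ℤ^S` (`h` = class number).  Hence `S.unit K` is finitely generated as soon as `Rˣ` is
and `rank (S.unit K) = rank Rˣ + |S|`.  For a number field: rank `= r₁ + r₂ - 1 + |S|`.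
-/
import Mathlib

set_option autoImplicit false

open IsDedekindDomain

namespace Fermat.Agent.CFT.SUnits

section General

variable {R : Type*} [CommRing R] [IsDedekindDomain R] (K : Type*) [Field K] [Algebra R K]
  [IsFractionRing R K]

/-- The `v`-adic order of a unit of `K`, as a homomorphism to `Multiplicative ℤ`
(so `unitOrd K v x = ofAdd (-ord_v x)` in the usual normalisation). -/
noncomputable def unitOrd (v : HeightOneSpectrum R) : Kˣ →* Multiplicative ℤ :=
  (WithZero.unitsWithZeroEquiv (α := Multiplicative ℤ)).toMonoidHom.comp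
    (Units.map ((v.valuation K).toMonoidWithZeroHom : K →* WithZero (Multiplicative ℤ)))

theorem coe_unitOrd (v : HeightOneSpectrum R) (x : Kˣ) :
    ((unitOrd K v x : Multiplicative ℤ) : WithZero (Multiplicative ℤ)) = v.valuation K (x : K) := by
  simp [unitOrd, WithZero.unitsWithZeroEquiv]

theorem unitOrd_eq_one_iff (v : HeightOneSpectrum R) (x : Kˣ) :
    unitOrd K v x = 1 ↔ v.valuation K (x : K) = 1 := by
  rw [← coe_unitOrd, ← WithZero.coe_one, WithZero.coe_inj]

/-- An element of `Kˣ` all of whose valuations are trivial is (the image of) a unit of `R`. -/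
theorem exists_unit_of_forall_valuation_eq_one (x : Kˣ)
    (h : ∀ v : HeightOneSpectrum R, v.valuation K (x : K) = 1) :
    ∃ u : Rˣ, algebraMap R K u = x := by
  obtain ⟨a, ha⟩ := HeightOneSpectrum.mem_integers_of_valuation_le_one K (x : K)
    (fun v => (h v).le)
  obtain ⟨b, hb⟩ := HeightOneSpectrum.mem_integers_of_valuation_le_one K ((x⁻¹ : Kˣ) : K)
    (fun v => by rw [Units.val_inv_eq_inv_val, map_inv₀, h v, inv_one])
  have hab : a * b = 1 := by
    apply IsFractionRing.injective R K
    rw [map_mul, ha, hb, map_one, Units.mul_inv]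
  exact ⟨⟨a, b, hab, by rw [mul_comm]; exact hab⟩, ha⟩

theorem valuation_algebraMap_unit (v : HeightOneSpectrum R) (u : Rˣ) :
    v.valuation K (algebraMap R K u) = 1 := by
  rw [HeightOneSpectrum.valuation_of_algebraMap, HeightOneSpectrum.intValuation_eq_one_iff]
  intro hu
  exact v.isPrime.ne_top (Ideal.eq_top_of_isUnit_mem _ hu u.isUnit)

/-- Valuation at `v` of a generator of `v ^ h`. -/
theorem intValuation_self_of_span_eq_pow (v : HeightOneSpectrum R) {π : R} {h : ℕ}
    (hπ : Ideal.span {π} = v.asIdeal ^ h) :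
    v.intValuation π = WithZero.exp (-(h : ℤ)) := by
  have hπ0 : π ≠ 0 := by
    rintro rfl
    rw [Ideal.span_singleton_eq_bot.mpr rfl] at hπ
    exact pow_ne_zero h v.ne_bot hπ.symm
  have hmem : π ∈ v.asIdeal ^ h := by rw [← hπ]; exact Ideal.mem_span_singleton_self π
  have h1 := (v.intValuation_le_pow_iff_mem π h).mpr hmem
  have h2 : ¬ v.intValuation π ≤ WithZero.exp (-((h + 1 : ℕ) : ℤ)) := by
    rw [v.intValuation_le_pow_iff_mem π (h + 1)]
    intro hm
    have hle : v.asIdeal ^ h ≤ v.asIdeal ^ (h + 1) := by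
      rw [← hπ, Ideal.span_singleton_le_iff_mem]; exact hm
    exact absurd hle (not_le_of_gt (Ideal.pow_succ_lt_pow v.ne_bot h))
  rw [HeightOneSpectrum.intValuation_if_neg v hπ0] at h1 h2 ⊢
  rw [WithZero.exp_le_exp] at h1 h2
  congr 1
  push_cast at h2
  omega

/-- Valuation at `w ≠ v` of a generator of `v ^ h`. -/
theorem intValuation_of_ne_of_span_eq_pow {v w : HeightOneSpectrum R} (hwv : w ≠ v) {π : R} {h : ℕ}
    (hπ : Ideal.span {π} = v.asIdeal ^ h) :
    w.intValuation π = 1 := by
  rw [HeightOneSpectrum.intValuation_eq_one_iff]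
  intro hm
  apply hwv
  have hle : v.asIdeal ^ h ≤ w.asIdeal := by
    rw [← hπ, Ideal.span_singleton_le_iff_mem]; exact hm
  have hle' : v.asIdeal ≤ w.asIdeal := Ideal.IsPrime.le_of_pow_le hle
  exact HeightOneSpectrum.ext (v.isMaximal.eq_of_le w.isPrime.ne_top hle').symm


variable (S : Set (HeightOneSpectrum R))

/-- The inclusion of the units of `R` into the `S`-units of `K`. -/
noncomputable def unitsToSUnit : Rˣ →* S.unit K where
  toFun u := ⟨Units.map (algebraMap R K : R →* K) u, fun v _ => valuation_algebraMap_unit K v u⟩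
  map_one' := by ext; simp
  map_mul' a b := by ext; simp

theorem coe_unitsToSUnit (u : Rˣ) : ((unitsToSUnit K S u : Kˣ) : K) = algebraMap R K u := rfl

theorem unitsToSUnit_injective : Function.Injective (unitsToSUnit K S) := by
  intro a b hab
  have h := congrArg (fun x : S.unit K => ((x : Kˣ) : K)) hab
  simp only [coe_unitsToSUnit] at h
  exact Units.ext (IsFractionRing.injective R K h)

/-- The vector of orders at the places in `S`, additively. -/
noncomputable def sUnitOrd : Additive (S.unit K) →+ (S → ℤ) :=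
  AddMonoidHom.pi fun v : S =>
    MonoidHom.toAdditiveLeft ((unitOrd K v.1).comp (S.unit K).subtype)

theorem sUnitOrd_apply (x : Additive (S.unit K)) (v : S) :
    sUnitOrd K S x v = Multiplicative.toAdd (unitOrd K v.1 (Additive.toMul x : S.unit K)) := rfl

theorem sUnitOrd_eq_zero_iff (x : Additive (S.unit K)) :
    sUnitOrd K S x = 0 ↔ ∃ u : Rˣ, unitsToSUnit K S u = Additive.toMul x := by
  constructor
  · intro h
    have hall : ∀ v : HeightOneSpectrum R,
        v.valuation K (((Additive.toMul x : S.unit K) : Kˣ) : K) = 1 := by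
      intro v
      by_cases hv : v ∈ S
      · have := congrFun h ⟨v, hv⟩
        rw [sUnitOrd_apply, Pi.zero_apply] at this
        rw [← unitOrd_eq_one_iff]
        exact this
      · exact (Additive.toMul x).2 v hv
    obtain ⟨u, hu⟩ := exists_unit_of_forall_valuation_eq_one K _ hall
    exact ⟨u, Subtype.ext (Units.ext hu)⟩
  · rintro ⟨u, hu⟩
    funext v
    rw [sUnitOrd_apply, Pi.zero_apply, ← hu]
    have : unitOrd K v.1 ((unitsToSUnit K S u : S.unit K) : Kˣ) = 1 := by
      rw [unitOrd_eq_one_iff, coe_unitsToSUnit]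
      exact valuation_algebraMap_unit K v.1 u
    exact congrArg Multiplicative.toAdd this


/-- For `v ∈ S` there is an `S`-unit whose order vector is `-h` at `v` and `0` elsewhere, where
`h` is the class number. -/
theorem exists_sUnitOrd_eq_single [Finite (ClassGroup R)] [DecidableEq S] (v : S) :
    ∃ x : Additive (S.unit K),
      sUnitOrd K S x = Pi.single v (-(Nat.card (ClassGroup R) : ℤ)) := by
  set h := Nat.card (ClassGroup R) with hh
  have hv0 : v.1.asIdeal ∈ nonZeroDivisors (Ideal R) :=
    mem_nonZeroDivisors_of_ne_zero v.1.ne_bot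
  have hpow0 : v.1.asIdeal ^ h ∈ nonZeroDivisors (Ideal R) :=
    mem_nonZeroDivisors_of_ne_zero (pow_ne_zero h v.1.ne_bot)
  have hprinc : (v.1.asIdeal ^ h).IsPrincipal := by
    rw [← ClassGroup.mk0_eq_one_iff hpow0]
    have : (⟨v.1.asIdeal ^ h, hpow0⟩ : nonZeroDivisors (Ideal R)) = ⟨v.1.asIdeal, hv0⟩ ^ h := by
      ext; simp
    rw [this, map_pow, hh]
    exact pow_card_eq_one'
  obtain ⟨π, hπ⟩ := hprinc.principal
  have hπ' : Ideal.span {π} = v.1.asIdeal ^ h := by
    rw [hπ]
  have hπ0 : π ≠ 0 := by
    rintro rfl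
    rw [Ideal.span_singleton_eq_bot.mpr rfl] at hπ'
    exact pow_ne_zero h v.1.ne_bot hπ'.symm
  have hπK : algebraMap R K π ≠ 0 := by
    rwa [Ne, FaithfulSMul.algebraMap_eq_zero_iff]
  have hmem : Units.mk0 (algebraMap R K π) hπK ∈ S.unit K := by
    intro w hw
    have hwv : w ≠ v.1 := fun e => hw (e ▸ v.2)
    rw [Units.val_mk0, HeightOneSpectrum.valuation_of_algebraMap]
    exact intValuation_of_ne_of_span_eq_pow hwv hπ'
  refine ⟨Additive.ofMul ⟨_, hmem⟩, ?_⟩
  funext w
  rw [sUnitOrd_apply]
  by_cases hwv : w = v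
  · subst hwv
    rw [Pi.single_eq_same]
    have h1 := coe_unitOrd K w.1 (Units.mk0 (algebraMap R K π) hπK)
    rw [Units.val_mk0, HeightOneSpectrum.valuation_of_algebraMap,
      intValuation_self_of_span_eq_pow w.1 hπ'] at h1
    have h2 : unitOrd K w.1 (Units.mk0 (algebraMap R K π) hπK) =
        Multiplicative.ofAdd (-(h : ℤ)) := WithZero.coe_inj.mp h1
    exact congrArg Multiplicative.toAdd h2
  · rw [Pi.single_eq_of_ne hwv]
    have hwv' : w.1 ≠ v.1 := fun e => hwv (Subtype.ext e)
    have h1 : unitOrd K w.1 (Units.mk0 (algebraMap R K π) hπK) = 1 := by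
      rw [unitOrd_eq_one_iff, Units.val_mk0, HeightOneSpectrum.valuation_of_algebraMap]
      exact intValuation_of_ne_of_span_eq_pow hwv' hπ'
    exact congrArg Multiplicative.toAdd h1

/-- The image of the order map contains `h • ℤ^S`, `h` the class number. -/
theorem nsmul_mem_range_sUnitOrd [Finite (ClassGroup R)] [Finite S] (f : S → ℤ) :
    Nat.card (ClassGroup R) • f ∈ (sUnitOrd K S).range := by
  classical
  have := Fintype.ofFinite S
  have hf : Nat.card (ClassGroup R) • f =
      ∑ v : S, (-(f v)) • Pi.single v (-(Nat.card (ClassGroup R) : ℤ)) := by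
    funext w
    rw [Finset.sum_apply, Finset.sum_eq_single w]
    · simp [mul_comm]
    · intro b _ hb
      simp [Pi.single_eq_of_ne (Ne.symm hb)]
    · intro hw; exact absurd (Finset.mem_univ w) hw
  rw [hf]
  refine AddSubgroup.sum_mem _ (fun v _ => ?_)
  obtain ⟨x, hx⟩ := exists_sUnitOrd_eq_single K S v
  rw [← hx]
  exact AddSubgroup.zsmul_mem _ (AddMonoidHom.mem_range.mpr ⟨x, rfl⟩) _


theorem range_unitsToSUnit_eq_ker :
    LinearMap.range (MonoidHom.toAdditive (unitsToSUnit K S)).toIntLinearMap =
      LinearMap.ker (sUnitOrd K S).toIntLinearMap := by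
  ext x
  rw [LinearMap.mem_range, LinearMap.mem_ker]
  have h0 : (sUnitOrd K S).toIntLinearMap x = sUnitOrd K S x := rfl
  rw [h0, sUnitOrd_eq_zero_iff]
  constructor
  · rintro ⟨u, rfl⟩
    exact ⟨Additive.toMul u, rfl⟩
  · rintro ⟨u, hu⟩
    exact ⟨Additive.ofMul u, congrArg Additive.ofMul hu⟩

section Rank

variable [Finite (ClassGroup R)] [Finite S]

/-- The range of the order map has full rank. -/
theorem finrank_range_sUnitOrd :
    Module.finrank ℤ (sUnitOrd K S).toIntLinearMap.range = Nat.card S := by
  classical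
  have := Fintype.ofFinite S
  have hcard : Module.finrank ℤ (S → ℤ) = Nat.card S := by
    rw [Module.finrank_fintype_fun_eq_card, Nat.card_eq_fintype_card]
  apply le_antisymm
  · rw [← hcard]
    exact Submodule.finrank_le _
  · rw [← hcard]
    have hh : (Nat.card (ClassGroup R) : ℤ) ≠ 0 := by
      exact_mod_cast Nat.card_pos.ne'
    let g : (S → ℤ) →ₗ[ℤ] (sUnitOrd K S).toIntLinearMap.range :=
      LinearMap.codRestrict _ (LinearMap.lsmul ℤ (S → ℤ) (Nat.card (ClassGroup R) : ℤ))
        (fun f => by
          have := nsmul_mem_range_sUnitOrd K S f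
          rw [LinearMap.mem_range]
          obtain ⟨x, hx⟩ := AddMonoidHom.mem_range.mp this
          refine ⟨x, ?_⟩
          rw [AddMonoidHom.coe_toIntLinearMap, hx, LinearMap.lsmul_apply, natCast_zsmul])
    apply LinearMap.finrank_le_finrank_of_injective (f := g)
    intro a b hab
    have h1 := congrArg Subtype.val hab
    simp only [g, LinearMap.codRestrict_apply, LinearMap.lsmul_apply] at h1
    exact smul_right_injective _ hh h1

variable [Module.Finite ℤ (Additive Rˣ)]

omit [Finite (ClassGroup R)] in
/-- **Finite generation of the `S`-units** (Dedekind domain with finitely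
generated unit group, `S` finite). -/
theorem moduleFinite_sUnit : Module.Finite ℤ (Additive (S.unit K)) := by
  have := Fintype.ofFinite S
  have h1 : IsNoetherian ℤ (Additive Rˣ) := isNoetherian_of_isNoetherianRing_of_finite ℤ _
  have h2 : IsNoetherian ℤ (S → ℤ) := isNoetherian_of_isNoetherianRing_of_finite ℤ _
  have h3 : IsNoetherian ℤ (Additive (S.unit K)) :=
    isNoetherian_of_range_eq_ker _ _ (range_unitsToSUnit_eq_ker K S)
  exact Module.IsNoetherian.finite ℤ _

/-- **Dirichlet's `S`-unit theorem, rank form**: `rank (S-units) = rank (units) + |S|`. -/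
theorem finrank_sUnit :
    Module.finrank ℤ (Additive (S.unit K)) = Module.finrank ℤ (Additive Rˣ) + Nat.card S := by
  have := moduleFinite_sUnit K S
  set φ := (sUnitOrd K S).toIntLinearMap with hφ
  have h1 := Submodule.finrank_quotient_add_finrank (LinearMap.ker φ)
  rw [← h1, LinearEquiv.finrank_eq φ.quotKerEquivRange, finrank_range_sUnitOrd,
    ← range_unitsToSUnit_eq_ker, add_comm]
  congr 1
  symm
  apply LinearEquiv.finrank_eq
  apply LinearEquiv.ofInjective
  intro a b hab
  rw [AddMonoidHom.coe_toIntLinearMap] at hab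
  exact congrArg Additive.ofMul
    (unitsToSUnit_injective K S (congrArg Additive.toMul hab))

end Rank

end General

section NumberFieldCase

open NumberField

variable (K : Type*) [Field K] [NumberField K] (S : Set (HeightOneSpectrum (𝓞 K))) [Finite S]

/-- The `S`-units of a number field form a finitely generated group. -/
instance moduleFinite_sUnit_numberField : Module.Finite ℤ (Additive (S.unit K)) :=
  moduleFinite_sUnit K S

/-- **Dirichlet's `S`-unit theorem** for number fields: the `S`-units have rank
`r₁ + r₂ - 1 + |S|`. -/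
theorem finrank_sUnit_numberField :
    Module.finrank ℤ (Additive (S.unit K)) = NumberField.Units.rank K + Nat.card S := by
  rw [finrank_sUnit K S, NumberField.Units.finrank_eq]

end NumberFieldCase

end Fermat.Agent.CFT.SUnits
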