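import Mathlib
import Fermat.Agent.CFT.Global.SUnits
import Fermat.Agent.CFT.Global.FGCount

set_option autoImplicit false

open IsDedekindDomain

namespace Fermat.Agent.CFT.SUnits

section General

variable {R : Type*} [CommRing R] [IsDedekindDomain R] (K : Type*) [Field K] [Algebra R K]
  [IsFractionRing R K] (S : Set (HeightOneSpectrum R))

/-- Roots of unity are `S`-units. -/
theorem mem_sUnit_of_pow_eq_one {ζ : Kˣ} {n : ℕ} (hn : n ≠ 0) (hζ : ζ ^ n = 1) : ζ ∈ S.unit K := by
  intro v _
  have h : (v.valuation K (ζ : K)) ^ n = 1 := by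
    rw [← map_pow, ← Units.val_pow_eq_pow_val, hζ, Units.val_one, map_one]
  exact (pow_eq_one_iff_left hn).mp h

/-- The `n`-torsion of the `S`-units is the group of `n`-th roots of unity of `K`. -/
noncomputable def kerPowEquivRootsOfUnity (n : ℕ) [NeZero n] :
    (powMonoidHom n : S.unit K →* S.unit K).ker ≃ rootsOfUnity n K where
  toFun x := ⟨((x : S.unit K) : Kˣ), by
    rw [mem_rootsOfUnity]
    have := x.2
    rw [MonoidHom.mem_ker, powMonoidHom_apply] at this
    exact congrArg (fun y : S.unit K => (y : Kˣ)) this⟩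
  invFun ζ := ⟨⟨(ζ : Kˣ), mem_sUnit_of_pow_eq_one K S (NeZero.ne n) ((mem_rootsOfUnity n _).mp ζ.2)⟩, by
    rw [MonoidHom.mem_ker, powMonoidHom_apply]
    exact Subtype.ext ((mem_rootsOfUnity n _).mp ζ.2)⟩
  left_inv x := rfl
  right_inv ζ := rfl

variable [Finite (ClassGroup R)] [Finite S] [Module.Finite ℤ (Additive Rˣ)]

/-- `(U_S : U_S^n) = n ^ (rank Rˣ + |S|) * |μ_n(K)|`. -/
theorem index_range_pow_sUnit (n : ℕ) [NeZero n] :
    (powMonoidHom n : S.unit K →* S.unit K).range.index =
      n ^ (Module.finrank ℤ (Additive Rˣ) + Nat.card S) * Nat.card (rootsOfUnity n K) := by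
  have := moduleFinite_sUnit K S
  have h := FGCount.index_range_nsmul_eq (A := Additive (S.unit K)) n (NeZero.ne n)
  rw [finrank_sUnit K S] at h
  rw [← Nat.card_congr (kerPowEquivRootsOfUnity K S n)]
  exact h

end General

section NumberFieldCase

open NumberField

variable (K : Type*) [Field K] [NumberField K] (S : Set (HeightOneSpectrum (𝓞 K))) [Finite S]

/-- For a number field: `(U_S : U_S^n) = n ^ (r₁ + r₂ - 1 + |S|) * |μ_n(K)|`. -/
theorem index_range_pow_sUnit_numberField (n : ℕ) [NeZero n] :
    (powMonoidHom n : S.unit K →* S.unit K).range.index =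
      n ^ (NumberField.Units.rank K + Nat.card S) * Nat.card (rootsOfUnity n K) := by
  rw [index_range_pow_sUnit K S n, NumberField.Units.finrank_eq]

end NumberFieldCase

end Fermat.Agent.CFT.SUnits
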