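import Fermat.Agent.CFT.Global.PlaceCount
import Fermat.Agent.CFT.Global.IdeleDict.DictGen
import Fermat.Agent.CFT.Global.SUnitsCount

/-!
# Layer C, node C3A (model instantiation): places of the model versus primes of `𝓞 K`

* `IdelePlace.prime v : HeightOneSpectrum (𝓞 K)` (injective, surjective);
* `boxIdele_sIdeleFam_eq` : `boxIdele (sIdeleFam S) = J_{K,S'} ∩ J_K` with `S' = prime '' S`
  (helper14's `ideleOutside`);
* `principal_sup_boxIdele_eq_top` : `Kˣ · J_{K,S} = J_K` if `S'` generates the class group;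
* `relIndex_pow_principal_inf_boxIdele` : `[K_S : K_S^p] = p ^ (rank + |S| + 1)` for the `S`-units
  `K_S = Kˣ ∩ J_{K,S}` (inside the idele group), `K ∋ ζ_p`;
* `two_mul_rank_add_one` : `2 (rank + 1) = [K : ℚ]` for `K ∋ ζ_p`, `p` odd.
-/

set_option autoImplicit false
set_option linter.unusedSectionVars false

open scoped NumberField

noncomputable section

namespace Fermat.Agent.CFT

open Subgroup IsDedekindDomain IdeleDict

variable {K : Type} [Field K] [NumberField K]

/-- The prime of `𝓞 K` attached to a place of the model. -/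
def IdelePlace.prime (v : IdelePlace K) : HeightOneSpectrum (𝓞 K) := primeOfH v.2.emb

theorem IdelePlace.prime_injective : Function.Injective (IdelePlace.prime (K := K)) := by
  rintro ⟨q, ω⟩ ⟨q', ω'⟩ h
  have hq : q = q' := prime_eq_of_primeOfH_eq ω.emb ω'.emb h
  subst hq
  have h1 : primeOf ω.emb = primeOf ω'.emb := congrArg HeightOneSpectrum.asIdeal h
  obtain ⟨γ, hγ⟩ := primeOf_eq_iff_exists_smul.1 h1
  have h2 : ω.emb.place = ω'.emb.place := by
    rw [← hγ, LocalEmb.place_smul]
  rw [ω.place_emb, ω'.place_emb] at h2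
  rw [h2]

theorem IdelePlace.prime_mk (q : Nat.Primes) (τ : LocalEmb (q : ℕ) K) :
    IdelePlace.prime (⟨q, τ.place⟩ : IdelePlace K) = primeOfH τ := by
  obtain ⟨γ, hγ⟩ := τ.exists_smul_emb_place
  show primeOfH τ.place.emb = primeOfH τ
  calc primeOfH τ.place.emb = primeOfH (γ • τ.place.emb) := (primeOfH_smul γ _).symm
    _ = primeOfH τ := by rw [hγ]

theorem IdelePlace.prime_surjective : Function.Surjective (IdelePlace.prime (K := K)) := by
  intro P
  obtain ⟨q, τ, hτ⟩ := exists_emb P
  exact ⟨⟨q, τ.place⟩, by rw [IdelePlace.prime_mk, hτ]⟩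

/-- The norm of the value of a semi-local unit depends only on the place. -/
theorem norm_apply_place_emb {q : Nat.Primes} (f : semiLocalUnits (q : ℕ) K)
    (τ : LocalEmb (q : ℕ) K) :
    ‖((f : LocalEmb (q : ℕ) K → (PadicAlgCl (q : ℕ))ˣ) τ.place.emb : PadicAlgCl (q : ℕ))‖ =
      ‖((f : LocalEmb (q : ℕ) K → (PadicAlgCl (q : ℕ))ˣ) τ : PadicAlgCl (q : ℕ))‖ := by
  conv_rhs => rw [← τ.toRep_smul, semiLocalUnits_apply_smul, norm_gq_apply']

/-- **Dictionary**: the box of the `S`-idele family is `J_{K,S'} ∩ J_K`, `S'` the set of primes of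
the places in `S`. -/
theorem boxIdele_sIdeleFam_eq (S : Set (IdelePlace K)) :
    boxIdele (sIdeleFam S) =
      (ideleOutside K (IdelePlace.prime '' S)).subgroupOf (ideleGroup K) := by
  ext x
  rw [mem_boxIdele, mem_subgroupOf, mem_ideleOutside_iff_norm]
  constructor
  · intro h q τ hτ
    have hv : (⟨q, τ.place⟩ : IdelePlace K) ∉ S := fun hmem =>
      hτ ⟨_, hmem, IdelePlace.prime_mk q τ⟩
    have h1 := h ⟨q, τ.place⟩
    rw [sIdeleFam_of_notMem hv, LocalPow.mem_normOneUnits] at h1
    rw [← norm_apply_place_emb]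
    exact h1
  · intro h v
    by_cases hv : v ∈ S
    · rw [sIdeleFam_of_mem hv]
      exact mem_top _
    · rw [sIdeleFam_of_notMem hv, LocalPow.mem_normOneUnits]
      apply h v.1 v.2.emb
      rintro ⟨w, hw, hwv⟩
      exact hv (IdelePlace.prime_injective hwv ▸ hw)

/-- `Kˣ · J_{K,S} = J_K` if the primes of `S` generate the class group. -/
theorem principal_sup_boxIdele_eq_top (S : Set (IdelePlace K)) (hfin : S.Finite)
    (hS : GeneratesClassGroup K (IdelePlace.prime '' S)) :
    principalSubgroup K ⊔ boxIdele (sIdeleFam S) = ⊤ := by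
  have hfin' : (IdelePlace.prime '' S).Finite := hfin.image _
  have h := sup_eq_ideleGroup hS hfin'
  have hP : (principalIdele K).range ≤ ideleGroup K := by
    rintro _ ⟨y, rfl⟩
    exact principalIdele_mem_ideleGroup y
  rw [boxIdele_sIdeleFam_eq, principalSubgroup,
    ← subgroupOf_sup hP (ideleOutside_le_ideleGroup hfin'), h, subgroupOf_self]

/-- The `S`-units as ideles. -/
def sUnitIdeleHom (S : Set (IdelePlace K)) :
    (IdelePlace.prime '' S).unit K →* ideleGroup K where
  toFun y := ⟨principalIdele K (y : Kˣ), principalIdele_mem_ideleGroup _⟩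
  map_one' := Subtype.ext (map_one _)
  map_mul' _ _ := Subtype.ext (map_mul _ _ _)

theorem sUnitIdeleHom_injective (S : Set (IdelePlace K)) :
    Function.Injective (sUnitIdeleHom S) := by
  intro y z h
  apply Subtype.ext
  exact principalIdele_injective (congrArg Subtype.val h)

/-- `Kˣ ∩ J_{K,S}` is the group of `S`-units. -/
theorem range_sUnitIdeleHom (S : Set (IdelePlace K)) :
    (sUnitIdeleHom S).range = principalSubgroup K ⊓ boxIdele (sIdeleFam S) := by
  ext x
  rw [boxIdele_sIdeleFam_eq, MonoidHom.mem_range, Subgroup.mem_inf, mem_subgroupOf, principalSubgroup,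
    mem_subgroupOf, MonoidHom.mem_range]
  constructor
  · rintro ⟨y, rfl⟩
    exact ⟨⟨(y : Kˣ), rfl⟩, (principalIdele_mem_ideleOutside_iff _ _).2 y.2⟩
  · rintro ⟨⟨y, hy⟩, hx⟩
    rw [← hy, principalIdele_mem_ideleOutside_iff] at hx
    exact ⟨⟨y, hx⟩, Subtype.ext hy⟩

/-- **`S`-unit count inside the idele group**: `[K_S : K_S^p] = p ^ (rank + |S| + 1)`. -/
theorem relIndex_pow_principal_inf_boxIdele (pp : Nat.Primes) {ζ : K}
    (hζ : IsPrimitiveRoot ζ (pp : ℕ)) (S : Finset (IdelePlace K)) :
    ((principalSubgroup K ⊓ boxIdele (sIdeleFam (S : Set (IdelePlace K)))).map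
        (powMonoidHom (pp : ℕ))).relIndex
      (principalSubgroup K ⊓ boxIdele (sIdeleFam (S : Set (IdelePlace K)))) =
      (pp : ℕ) ^ (NumberField.Units.rank K + S.card + 1) := by
  have : NeZero (pp : ℕ) := ⟨pp.2.ne_zero⟩
  have hfin : (IdelePlace.prime '' (S : Set (IdelePlace K))).Finite := S.finite_toSet.image _
  have : Finite (IdelePlace.prime '' (S : Set (IdelePlace K))) := hfin.to_subtype
  rw [← range_sUnitIdeleHom, LocalPow.relIndex_map_pow_eq_index_range,
    ← LocalPow.index_range_pow_of_mulEquiv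
      (MonoidHom.ofInjective (sUnitIdeleHom_injective (S : Set (IdelePlace K)))) (pp : ℕ),
    SUnits.index_range_pow_sUnit_numberField K _ (pp : ℕ), hζ.card_rootsOfUnity,
    Nat.card_coe_set_eq, Set.ncard_image_of_injective _ IdelePlace.prime_injective,
    Set.ncard_coe_finset, pow_succ]

/-- `2 (rank + 1) = [K : ℚ]` for a number field containing a primitive `p`-th root of unity,
`p > 2`. -/
theorem two_mul_rank_add_one {p : ℕ} (hp : 2 < p) {ζ : K} (hζ : IsPrimitiveRoot ζ p) :
    2 * (NumberField.Units.rank K + 1) = Module.finrank ℚ K := by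
  have h0 := NumberField.InfinitePlace.IsPrimitiveRoot.nrRealPlaces_eq_zero_of_two_lt hp hζ
  have h1 := NumberField.InfinitePlace.card_add_two_mul_card_eq_rank K
  have h2 := NumberField.InfinitePlace.card_eq_nrRealPlaces_add_nrComplexPlaces K
  have h3 : 0 < Module.finrank ℚ K := Module.finrank_pos
  rw [NumberField.Units.rank]
  omega

end Fermat.Agent.CFT
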