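/-
S55 / C7b (i), place model (helper17's `PlaceProd`/`PlaceCount`/`PlaceDict`):
`[J_K : Kˣ · E_T] = p ^ (r + |T| + 1)` with `J_{K,T} = boxIdele (sIdeleFam T)`,
`E_T = boxIdele (sPowFam p T)`; the only remaining hypothesis is the injectivity
`K_T / p ↪ ∏_{v ∈ T} K_vˣ / p` (corollary of the first inequality).
-/
import Mathlib
import Fermat.Agent.CFT.Global.PlaceDict
import Fermat.Agent.CFT.Global.ExistencePairing

set_option autoImplicit false

open scoped NumberField

namespace Fermat.Agent.CFT

namespace ExistenceCount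

open Subgroup NumberField IsDedekindDomain IdeleDict

section PlaceModel

variable {K : Type} [Field K] [NumberField K]

/-- **C7b (i), place model**: `[J_K : Kˣ · E_T] = p ^ (r + |T| + 1)` for a finite set `T` of places
of `K ∋ μ_p` (`2 < p`) containing the places over `p` and generating the class group, given the
injectivity `K_T / p ↪ ∏_{v ∈ T} K_vˣ / p` (`hinj`, a corollary of the first inequality). -/
theorem index_principalSubgroup_sup_boxIdele (pp : Nat.Primes) (hp2 : 2 < (pp : ℕ)) {ζ : K}
    (hζ : IsPrimitiveRoot ζ (pp : ℕ)) (T : Finset (IdelePlace K))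
    (hT : ∀ v : IdelePlace K, v.1 = pp → v ∈ T)
    (hgen : GeneratesClassGroup K (IdelePlace.prime '' (T : Set (IdelePlace K))))
    (hinj : ∀ x ∈ principalSubgroup K ⊓ boxIdele (sPowFam (pp : ℕ) (T : Set (IdelePlace K))),
      ∃ y ∈ principalSubgroup K ⊓ boxIdele (sIdeleFam (T : Set (IdelePlace K))),
        y ^ (pp : ℕ) = x) :
    (principalSubgroup K ⊔ boxIdele (sPowFam (pp : ℕ) (T : Set (IdelePlace K)))).index =
      (pp : ℕ) ^ (NumberField.Units.rank K + T.card + 1) := by
  refine ExistenceAbstract.index_sup_eq_of_count (pp : ℕ) _ pp.2.one_lt (principalSubgroup K)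
    (boxIdele (sIdeleFam (T : Set (IdelePlace K))))
    (boxIdele (sPowFam (pp : ℕ) (T : Set (IdelePlace K))))
    (principal_sup_boxIdele_eq_top _ T.finite_toSet hgen)
    (boxIdele_mono (sPowFam_le_sIdeleFam _ _)) ?_
    (relIndex_pow_principal_inf_boxIdele pp hζ T) ?_ hinj
  · rw [relIndex_sPowFam pp hζ T hT, ← two_mul_rank_add_one hp2 hζ]
    congr 1
    ring
  · intro y hy
    rw [mem_boxIdele] at hy ⊢
    intro v
    by_cases hv : v ∈ (T : Set (IdelePlace K))
    · rw [sPowFam_of_mem hv, map_pow]
      exact ⟨_, rfl⟩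
    · rw [sPowFam_of_notMem hv, map_pow]
      have := hy v
      rw [sIdeleFam_of_notMem hv] at this
      exact pow_mem this _

end PlaceModel

end ExistenceCount

end Fermat.Agent.CFT
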