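/-
S55 / C7: **core of the global existence theorem mod `p`** (`μ_p ⊆ K`) in helper17's place model,
over an abstract reciprocity pairing `b : J_K → X → ZMod p`.

* `unitOutsideFam S` (`U_{K,S}`: trivial at `S`, local units outside), `unitBetweenFam S T`
  (local units at `T ∖ S`, trivial elsewhere);
* `boxIdele_sPowFam_le` : `E_T ≤ U_{K,T} · J_K^p`;
* `mem_of_forall_pairing_eq_zero_place` : every idele orthogonal to the characters unramified outside
  `S` lies in `Kˣ · U_{K,S} · J_K^p`;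
* `boxIdele_unitOutsideFam_eq` : bridge to `unitIdelesOutside K S₀` for `S` = places over `S₀`;
* `mem_principalUnitSubgroup_sup_pow` : the same conclusion for `principalUnitSubgroup K S₀`.
-/
import Mathlib
import Fermat.Agent.CFT.Global.ExistenceCountPlace

set_option autoImplicit false

open scoped NumberField

namespace Fermat.Agent.CFT

namespace ExistenceCore

open Subgroup NumberField IsDedekindDomain IdeleDict

section Families

variable {K : Type} [Field K]

open Classical in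
/-- The local family of `U_{K,S}`: trivial at `S`, local units outside `S`. -/
noncomputable def unitOutsideFam (S : Set (IdelePlace K)) (v : IdelePlace K) :
    Subgroup (localFieldAt v.2.emb)ˣ :=
  if v ∈ S then ⊥ else placeUnitGroup v

open Classical in
/-- The local family of `∏_{v ∈ T ∖ S} U_v`. -/
noncomputable def unitBetweenFam (S T : Set (IdelePlace K)) (v : IdelePlace K) :
    Subgroup (localFieldAt v.2.emb)ˣ :=
  if v ∈ T ∧ v ∉ S then placeUnitGroup v else ⊥

theorem unitOutsideFam_of_mem {S : Set (IdelePlace K)} {v : IdelePlace K} (hv : v ∈ S) :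
    unitOutsideFam S v = ⊥ := by
  classical
  exact if_pos hv

theorem unitOutsideFam_of_notMem {S : Set (IdelePlace K)} {v : IdelePlace K} (hv : v ∉ S) :
    unitOutsideFam S v = placeUnitGroup v := by
  classical
  exact if_neg hv

theorem unitOutsideFam_anti {S T : Set (IdelePlace K)} (h : S ⊆ T) (v : IdelePlace K) :
    unitOutsideFam T v ≤ unitOutsideFam S v := by
  by_cases hvT : v ∈ T
  · rw [unitOutsideFam_of_mem hvT]
    exact bot_le
  · rw [unitOutsideFam_of_notMem hvT, unitOutsideFam_of_notMem (fun hvS => hvT (h hvS))]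

theorem unitBetweenFam_le (S T : Set (IdelePlace K)) (v : IdelePlace K) :
    unitBetweenFam S T v ≤ unitOutsideFam S v := by
  classical
  unfold unitBetweenFam
  split_ifs with h
  · rw [unitOutsideFam_of_notMem h.2]
  · exact bot_le

/-- `E_T ≤ U_{K,T} · J_K^p`. -/
theorem boxIdele_sPowFam_le (p : ℕ) (T : Finset (IdelePlace K)) :
    boxIdele (sPowFam p (T : Set (IdelePlace K))) ≤
      boxIdele (unitOutsideFam (T : Set (IdelePlace K))) ⊔ powSubgroup ⊤ p := by
  classical
  intro x hx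
  rw [mem_boxIdele] at hx
  -- local roots at the places of `T`
  have hroot : ∀ v : IdelePlace K, v ∈ (T : Set (IdelePlace K)) →
      ∃ g : (localFieldAt v.2.emb)ˣ, g ^ p = idelePlaceHom x v := by
    intro v hv
    have := hx v
    rw [sPowFam_of_mem hv] at this
    obtain ⟨g, hg⟩ := this
    exact ⟨g, hg⟩
  choose g hg using hroot
  let gl : ∀ v : IdelePlace K, (localFieldAt v.2.emb)ˣ :=
    fun v => if h : v ∈ (T : Set (IdelePlace K)) then g v h else 1
  have hgl : gl ∈ box (fun v : IdelePlace K =>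
      if v ∈ (T : Set (IdelePlace K)) then (⊤ : Subgroup (localFieldAt v.2.emb)ˣ) else ⊥) := by
    rw [mem_box]
    intro v
    by_cases hv : v ∈ (T : Set (IdelePlace K))
    · rw [if_pos hv]
      exact mem_top _
    · rw [if_neg hv, mem_bot]
      exact dif_neg hv
  obtain ⟨gI, hgI⟩ := box_le_range_idelePlaceHom _ T (fun v hv => by
    have hv' : v ∉ (T : Set (IdelePlace K)) := hv
    rw [if_neg hv']
    exact bot_le) hgl
  have hu : x / gI ^ p ∈ boxIdele (unitOutsideFam (T : Set (IdelePlace K))) := by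
    rw [mem_boxIdele]
    intro v
    rw [map_div, map_pow, hgI, Pi.div_apply, Pi.pow_apply]
    by_cases hv : v ∈ (T : Set (IdelePlace K))
    · rw [unitOutsideFam_of_mem hv, mem_bot]
      have : gl v = g v hv := dif_pos hv
      rw [this, hg v hv, div_self']
    · rw [unitOutsideFam_of_notMem hv]
      have : gl v = 1 := dif_neg hv
      rw [this, one_pow, div_one]
      have := hx v
      rwa [sPowFam_of_notMem hv] at this
  have : x = (x / gI ^ p) * gI ^ p := by rw [div_mul_cancel]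
  rw [this]
  exact Subgroup.mul_mem_sup hu (mem_powSubgroup.2 ⟨gI, mem_top _, rfl⟩)

end Families

section Core

variable {K : Type} [Field K] [NumberField K] {X : Type*} [AddCommGroup X]

/-- `J_K^p ≤ Kˣ · E_T` when `T` generates the class group. -/
theorem pow_mem_principal_sup_boxIdele (p : ℕ) (T : Finset (IdelePlace K))
    (hgen : GeneratesClassGroup K (IdelePlace.prime '' (T : Set (IdelePlace K))))
    (x : ideleGroup K) :
    x ^ p ∈ principalSubgroup K ⊔ boxIdele (sPowFam p (T : Set (IdelePlace K))) := by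
  have hx : x ∈ principalSubgroup K ⊔ boxIdele (sIdeleFam (T : Set (IdelePlace K))) := by
    rw [principal_sup_boxIdele_eq_top _ T.finite_toSet hgen]
    exact mem_top x
  obtain ⟨a, ha, y, hy, rfl⟩ := Subgroup.mem_sup.1 hx
  rw [mul_pow]
  refine Subgroup.mul_mem_sup (pow_mem ha _) ?_
  rw [mem_boxIdele] at hy ⊢
  intro v
  by_cases hv : v ∈ (T : Set (IdelePlace K))
  · rw [sPowFam_of_mem hv, map_pow]
    exact ⟨_, rfl⟩
  · rw [sPowFam_of_notMem hv, map_pow]
    have := hy v
    rw [sIdeleFam_of_notMem hv] at this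
    exact pow_mem this _

omit [NumberField K] in
/-- `Kˣ · E_T ≤ Kˣ · U_{K,S} · J_K^p` for `S ⊆ T`. -/
theorem principal_sup_boxIdele_sPowFam_le (p : ℕ) (S T : Finset (IdelePlace K)) (hST : S ⊆ T) :
    principalSubgroup K ⊔ boxIdele (sPowFam p (T : Set (IdelePlace K))) ≤
      principalSubgroup K ⊔ boxIdele (unitOutsideFam (S : Set (IdelePlace K))) ⊔
        powSubgroup ⊤ p := by
  refine sup_le (le_sup_of_le_left le_sup_left) ?_
  refine (boxIdele_sPowFam_le p T).trans (sup_le ?_ le_sup_right)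
  refine le_sup_of_le_left (le_sup_of_le_right ?_)
  exact boxIdele_mono (unitOutsideFam_anti (by exact_mod_cast hST))

/-- **Global existence theorem mod `p`, core** (`μ_p ⊆ K`, place model, abstract pairing).
`S ⊆ T` finite sets of places, `T` containing the places over `p` and generating the class group;
`X` = characters of `Gal(K(K_T^{1/p})/K)`, `Y ≤ X` the characters unramified outside `S`.
Every idele orthogonal to `Y` lies in `Kˣ · U_{K,S} · J_K^p`. -/
theorem mem_of_forall_pairing_eq_zero_place [Finite X] (pp : Nat.Primes) (hp2 : 2 < (pp : ℕ))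
    {ζ : K} (hζ : IsPrimitiveRoot ζ (pp : ℕ)) (S T : Finset (IdelePlace K)) (hST : S ⊆ T)
    (hT : ∀ v : IdelePlace K, v.1 = pp → v ∈ T)
    (hgen : GeneratesClassGroup K (IdelePlace.prime '' (T : Set (IdelePlace K))))
    (hinj : ∀ x ∈ principalSubgroup K ⊓ boxIdele (sPowFam (pp : ℕ) (T : Set (IdelePlace K))),
      ∃ y ∈ principalSubgroup K ⊓ boxIdele (sIdeleFam (T : Set (IdelePlace K))),
        y ^ (pp : ℕ) = x)
    (Y : AddSubgroup X) (b : ideleGroup K → X → ZMod (pp : ℕ))
    (hmul : ∀ x y χ, b (x * y) χ = b x χ + b y χ)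
    (hadd : ∀ x χ χ', b x (χ + χ') = b x χ + b x χ')
    (hP : ∀ x ∈ principalSubgroup K, ∀ χ, b x χ = 0)
    (hE0 : ∀ x ∈ boxIdele (sPowFam (pp : ℕ) (T : Set (IdelePlace K))), ∀ χ, b x χ = 0)
    (hnd : ∀ χ, χ ≠ 0 → ∃ x, b x χ ≠ 0)
    (hX : (pp : ℕ) ^ (NumberField.Units.rank K + T.card + 1) ≤ Nat.card X)
    (hW : ∀ χ, (∀ w ∈ boxIdele (unitBetweenFam (S : Set (IdelePlace K)) (T : Set (IdelePlace K))),
      b w χ = 0) → χ ∈ Y)
    (x : ideleGroup K) (hx : ∀ χ ∈ Y, b x χ = 0) :
    x ∈ principalSubgroup K ⊔ boxIdele (unitOutsideFam (S : Set (IdelePlace K))) ⊔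
      powSubgroup ⊤ (pp : ℕ) := by
  have : Fact (pp : ℕ).Prime := ⟨pp.2⟩
  have hidx := ExistenceCount.index_principalSubgroup_sup_boxIdele pp hp2 hζ T hT hgen hinj
  have hne : (principalSubgroup K ⊔
      boxIdele (sPowFam (pp : ℕ) (T : Set (IdelePlace K)))).index ≠ 0 := by
    rw [hidx]
    exact pow_ne_zero _ pp.2.ne_zero
  have hQ : ∀ x ∈ principalSubgroup K ⊔ boxIdele (sPowFam (pp : ℕ) (T : Set (IdelePlace K))),
      ∀ χ, b x χ = 0 := by
    intro x hx χ
    obtain ⟨a, ha, e, he, rfl⟩ := Subgroup.mem_sup.1 hx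
    rw [hmul, hP a ha, hE0 e he, add_zero]
  obtain ⟨hA, -⟩ := ExistenceAbstract.mem_of_forall_pairing_eq_zero (pp : ℕ) b _ hmul hadd hQ
    (pow_mem_principal_sup_boxIdele (pp : ℕ) T hgen) hnd hne (hidx ▸ hX)
  have h1 := ExistenceAbstract.mem_sup_of_forall_pairing_eq_zero (pp : ℕ) b _ _ Y hmul hadd
    (ExistenceAbstract.nsmul_eq_zero_of_nondegenerate (pp : ℕ) b hadd hnd) hA hW x hx
  -- `P ⊔ E_T ⊔ W ≤ P ⊔ U_S ⊔ J^p`
  have hle : principalSubgroup K ⊔ boxIdele (sPowFam (pp : ℕ) (T : Set (IdelePlace K))) ⊔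
      boxIdele (unitBetweenFam (S : Set (IdelePlace K)) (T : Set (IdelePlace K))) ≤
      principalSubgroup K ⊔ boxIdele (unitOutsideFam (S : Set (IdelePlace K))) ⊔
        powSubgroup ⊤ (pp : ℕ) := by
    refine sup_le (principal_sup_boxIdele_sPowFam_le (pp : ℕ) S T hST) ?_
    refine le_sup_of_le_left (le_sup_of_le_right ?_)
    exact boxIdele_mono (unitBetweenFam_le _ _)
  exact hle h1

end Core

section Bridge

variable {K : Type} [Field K]

/-- The set of places of the model lying over a set of rational primes. -/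
def placesOver (K : Type) [Field K] (S₀ : Set Nat.Primes) : Set (IdelePlace K) :=
  {v | v.1 ∈ S₀}

theorem mem_placesOver {S₀ : Set Nat.Primes} {v : IdelePlace K} :
    v ∈ placesOver K S₀ ↔ v.1 ∈ S₀ := Iff.rfl

/-- **Bridge**: for `S` the set of places over a set `S₀` of rational primes, `U_{K,S}` in the place
model is `unitIdelesOutside K S₀` (inside the idele group). -/
theorem boxIdele_unitOutsideFam_eq (S₀ : Set Nat.Primes) :
    boxIdele (unitOutsideFam (placesOver K S₀)) =
      (unitIdelesOutside K S₀).subgroupOf (ideleGroup K) := by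
  ext x
  rw [mem_boxIdele, mem_subgroupOf]
  constructor
  · intro h
    refine ⟨fun q hq => ?_, fun q hq => ?_⟩
    · rw [mem_semiLocalIntegral_iff_placeProd]
      intro ω
      have hv : (⟨q, ω⟩ : IdelePlace K) ∉ placesOver K S₀ := hq
      have := h ⟨q, ω⟩
      rwa [unitOutsideFam_of_notMem hv] at this
    · apply semiLocalEvalEquiv.injective
      funext ω
      have hv : (⟨q, ω⟩ : IdelePlace K) ∈ placesOver K S₀ := hq
      have := h ⟨q, ω⟩
      rw [unitOutsideFam_of_mem hv, mem_bot] at this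
      rw [map_one]
      exact this
  · rintro ⟨h1, h2⟩ v
    by_cases hv : v ∈ placesOver K S₀
    · rw [unitOutsideFam_of_mem hv, mem_bot, idelePlaceHom_apply, h2 v.1 hv, map_one]
    · rw [unitOutsideFam_of_notMem hv]
      exact (mem_semiLocalIntegral_iff_placeProd (x : IdeleProd K) v.1).1 (h1 v.1 hv) v.2

end Bridge

section Final

variable {K : Type} [Field K] [NumberField K] {X : Type*} [AddCommGroup X]

theorem placesOver_finite (S₀ : Finset Nat.Primes) :
    (placesOver K (S₀ : Set Nat.Primes)).Finite := by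
  have : Finite (Σ q : S₀, LocalPlace ((q : Nat.Primes) : ℕ) K) := inferInstance
  refine (Set.finite_range (fun v : Σ q : S₀, LocalPlace ((q : Nat.Primes) : ℕ) K =>
    (⟨v.1.1, v.2⟩ : IdelePlace K))).subset ?_
  rintro ⟨q, ω⟩ hq
  exact ⟨⟨⟨q, hq⟩, ω⟩, rfl⟩

/-- `Kˣ · U_{K,S}` in the place model is `principalUnitSubgroup K S₀`, `S` the places over `S₀`. -/
theorem principal_sup_boxIdele_unitOutsideFam_eq (S₀ : Set Nat.Primes) :
    principalSubgroup K ⊔ boxIdele (unitOutsideFam (placesOver K S₀)) =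
      principalUnitSubgroup K S₀ := by
  have hP : (principalIdele K).range ≤ ideleGroup K := by
    rintro _ ⟨y, rfl⟩
    exact principalIdele_mem_ideleGroup y
  rw [boxIdele_unitOutsideFam_eq, principalSubgroup, principalUnitSubgroup,
    ← subgroupOf_sup hP (unitIdelesOutside_le_ideleGroup S₀)]

/-- The number of characters: `|X| = p ^ (rank + |T| + 1)`. -/
theorem card_eq_pow_place [Finite X] (pp : Nat.Primes) (hp2 : 2 < (pp : ℕ))
    {ζ : K} (hζ : IsPrimitiveRoot ζ (pp : ℕ)) (T : Finset (IdelePlace K))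
    (hT : ∀ v : IdelePlace K, v.1 = pp → v ∈ T)
    (hgen : GeneratesClassGroup K (IdelePlace.prime '' (T : Set (IdelePlace K))))
    (hinj : ∀ x ∈ principalSubgroup K ⊓ boxIdele (sPowFam (pp : ℕ) (T : Set (IdelePlace K))),
      ∃ y ∈ principalSubgroup K ⊓ boxIdele (sIdeleFam (T : Set (IdelePlace K))),
        y ^ (pp : ℕ) = x)
    (b : ideleGroup K → X → ZMod (pp : ℕ))
    (hmul : ∀ x y χ, b (x * y) χ = b x χ + b y χ)
    (hadd : ∀ x χ χ', b x (χ + χ') = b x χ + b x χ')
    (hP : ∀ x ∈ principalSubgroup K, ∀ χ, b x χ = 0)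
    (hE0 : ∀ x ∈ boxIdele (sPowFam (pp : ℕ) (T : Set (IdelePlace K))), ∀ χ, b x χ = 0)
    (hnd : ∀ χ, χ ≠ 0 → ∃ x, b x χ ≠ 0)
    (hX : (pp : ℕ) ^ (NumberField.Units.rank K + T.card + 1) ≤ Nat.card X) :
    Nat.card X = (pp : ℕ) ^ (NumberField.Units.rank K + T.card + 1) := by
  have : Fact (pp : ℕ).Prime := ⟨pp.2⟩
  have hidx := ExistenceCount.index_principalSubgroup_sup_boxIdele pp hp2 hζ T hT hgen hinj
  have hne : (principalSubgroup K ⊔
      boxIdele (sPowFam (pp : ℕ) (T : Set (IdelePlace K)))).index ≠ 0 := by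
    rw [hidx]
    exact pow_ne_zero _ pp.2.ne_zero
  have hQ : ∀ x ∈ principalSubgroup K ⊔ boxIdele (sPowFam (pp : ℕ) (T : Set (IdelePlace K))),
      ∀ χ, b x χ = 0 := by
    intro x hx χ
    obtain ⟨a, ha, e, he, rfl⟩ := Subgroup.mem_sup.1 hx
    rw [hmul, hP a ha, hE0 e he, add_zero]
  obtain ⟨-, hcard⟩ := ExistenceAbstract.mem_of_forall_pairing_eq_zero (pp : ℕ) b _ hmul hadd hQ
    (pow_mem_principal_sup_boxIdele (pp : ℕ) T hgen) hnd hne (hidx ▸ hX)
  rw [hcard, hidx]

/-- `Kˣ · U_{K,S} · J_K^p` has finite index, dividing `p ^ (rank + |T| + 1)`. -/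
theorem index_principal_sup_unitOutside_sup_pow_dvd (pp : Nat.Primes) (hp2 : 2 < (pp : ℕ))
    {ζ : K} (hζ : IsPrimitiveRoot ζ (pp : ℕ)) (S T : Finset (IdelePlace K)) (hST : S ⊆ T)
    (hT : ∀ v : IdelePlace K, v.1 = pp → v ∈ T)
    (hgen : GeneratesClassGroup K (IdelePlace.prime '' (T : Set (IdelePlace K))))
    (hinj : ∀ x ∈ principalSubgroup K ⊓ boxIdele (sPowFam (pp : ℕ) (T : Set (IdelePlace K))),
      ∃ y ∈ principalSubgroup K ⊓ boxIdele (sIdeleFam (T : Set (IdelePlace K))),
        y ^ (pp : ℕ) = x) :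
    (principalSubgroup K ⊔ boxIdele (unitOutsideFam (S : Set (IdelePlace K))) ⊔
      powSubgroup ⊤ (pp : ℕ)).index ∣ (pp : ℕ) ^ (NumberField.Units.rank K + T.card + 1) := by
  rw [← ExistenceCount.index_principalSubgroup_sup_boxIdele pp hp2 hζ T hT hgen hinj]
  exact Subgroup.index_dvd_of_le (principal_sup_boxIdele_sPowFam_le (pp : ℕ) S T hST)

theorem index_principal_sup_unitOutside_sup_pow_ne_zero (pp : Nat.Primes) (hp2 : 2 < (pp : ℕ))
    {ζ : K} (hζ : IsPrimitiveRoot ζ (pp : ℕ)) (S T : Finset (IdelePlace K)) (hST : S ⊆ T)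
    (hT : ∀ v : IdelePlace K, v.1 = pp → v ∈ T)
    (hgen : GeneratesClassGroup K (IdelePlace.prime '' (T : Set (IdelePlace K))))
    (hinj : ∀ x ∈ principalSubgroup K ⊓ boxIdele (sPowFam (pp : ℕ) (T : Set (IdelePlace K))),
      ∃ y ∈ principalSubgroup K ⊓ boxIdele (sIdeleFam (T : Set (IdelePlace K))),
        y ^ (pp : ℕ) = x) :
    (principalSubgroup K ⊔ boxIdele (unitOutsideFam (S : Set (IdelePlace K))) ⊔
      powSubgroup ⊤ (pp : ℕ)).index ≠ 0 :=
  ne_zero_of_dvd_ne_zero (pow_ne_zero _ pp.2.ne_zero)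
    (index_principal_sup_unitOutside_sup_pow_dvd pp hp2 hζ S T hST hT hgen hinj)

/-- **Global existence theorem mod `p`, core, in terms of `principalUnitSubgroup`**: `S₀` a finite
set of rational primes, `T` a finite set of places containing the places over `S₀` and over `p` and
generating the class group. Every idele orthogonal to the characters unramified outside `S₀` is in
`Kˣ · U_{K,S₀} · J_K^p`, i.e. its class in `ideleClassS K S₀` is a `p`-th power. -/
theorem mem_principalUnitSubgroup_sup_pow [Finite X] (pp : Nat.Primes) (hp2 : 2 < (pp : ℕ))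
    {ζ : K} (hζ : IsPrimitiveRoot ζ (pp : ℕ)) (S₀ : Finset Nat.Primes)
    (T : Finset (IdelePlace K)) (hST : ∀ v : IdelePlace K, v.1 ∈ S₀ → v ∈ T)
    (hT : ∀ v : IdelePlace K, v.1 = pp → v ∈ T)
    (hgen : GeneratesClassGroup K (IdelePlace.prime '' (T : Set (IdelePlace K))))
    (hinj : ∀ x ∈ principalSubgroup K ⊓ boxIdele (sPowFam (pp : ℕ) (T : Set (IdelePlace K))),
      ∃ y ∈ principalSubgroup K ⊓ boxIdele (sIdeleFam (T : Set (IdelePlace K))),
        y ^ (pp : ℕ) = x)
    (Y : AddSubgroup X) (b : ideleGroup K → X → ZMod (pp : ℕ))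
    (hmul : ∀ x y χ, b (x * y) χ = b x χ + b y χ)
    (hadd : ∀ x χ χ', b x (χ + χ') = b x χ + b x χ')
    (hP : ∀ x ∈ principalSubgroup K, ∀ χ, b x χ = 0)
    (hE0 : ∀ x ∈ boxIdele (sPowFam (pp : ℕ) (T : Set (IdelePlace K))), ∀ χ, b x χ = 0)
    (hnd : ∀ χ, χ ≠ 0 → ∃ x, b x χ ≠ 0)
    (hX : (pp : ℕ) ^ (NumberField.Units.rank K + T.card + 1) ≤ Nat.card X)
    (hW : ∀ χ, (∀ w ∈ boxIdele (unitBetweenFam (placesOver K (S₀ : Set Nat.Primes))
      (T : Set (IdelePlace K))), b w χ = 0) → χ ∈ Y)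
    (x : ideleGroup K) (hx : ∀ χ ∈ Y, b x χ = 0) :
    x ∈ principalUnitSubgroup K (S₀ : Set Nat.Primes) ⊔ powSubgroup ⊤ (pp : ℕ) := by
  have hS : (((placesOver_finite (K := K) S₀).toFinset : Finset (IdelePlace K)) :
      Set (IdelePlace K)) = placesOver K (S₀ : Set Nat.Primes) := Set.Finite.coe_toFinset _
  have hsub : (placesOver_finite (K := K) S₀).toFinset ⊆ T := by
    intro v hv
    exact hST v (mem_placesOver.1 ((Set.Finite.mem_toFinset (placesOver_finite (K := K) S₀)).1 hv))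
  have := mem_of_forall_pairing_eq_zero_place pp hp2 hζ _ T hsub hT hgen hinj Y b hmul hadd hP hE0
    hnd hX (by rwa [hS]) x hx
  rwa [hS, principal_sup_boxIdele_unitOutsideFam_eq] at this

/-- Finiteness of `ideleClassS K S₀ / p`. -/
theorem index_principalUnitSubgroup_sup_pow_ne_zero (pp : Nat.Primes) (hp2 : 2 < (pp : ℕ))
    {ζ : K} (hζ : IsPrimitiveRoot ζ (pp : ℕ)) (S₀ : Finset Nat.Primes)
    (T : Finset (IdelePlace K)) (hST : ∀ v : IdelePlace K, v.1 ∈ S₀ → v ∈ T)
    (hT : ∀ v : IdelePlace K, v.1 = pp → v ∈ T)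
    (hgen : GeneratesClassGroup K (IdelePlace.prime '' (T : Set (IdelePlace K))))
    (hinj : ∀ x ∈ principalSubgroup K ⊓ boxIdele (sPowFam (pp : ℕ) (T : Set (IdelePlace K))),
      ∃ y ∈ principalSubgroup K ⊓ boxIdele (sIdeleFam (T : Set (IdelePlace K))),
        y ^ (pp : ℕ) = x) :
    (principalUnitSubgroup K (S₀ : Set Nat.Primes) ⊔ powSubgroup ⊤ (pp : ℕ)).index ≠ 0 := by
  have hS : (((placesOver_finite (K := K) S₀).toFinset : Finset (IdelePlace K)) :
      Set (IdelePlace K)) = placesOver K (S₀ : Set Nat.Primes) := Set.Finite.coe_toFinset _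
  have hsub : (placesOver_finite (K := K) S₀).toFinset ⊆ T := by
    intro v hv
    exact hST v (mem_placesOver.1 ((Set.Finite.mem_toFinset (placesOver_finite (K := K) S₀)).1 hv))
  have := index_principal_sup_unitOutside_sup_pow_ne_zero pp hp2 hζ _ T hsub hT hgen hinj
  rwa [hS, principal_sup_boxIdele_unitOutsideFam_eq] at this

end Final



end ExistenceCore

end Fermat.Agent.CFT
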