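import Fermat.Agent.CFT.Global.IdeleDefs

/-!
# Layer C: the norm subgroup `N_{L/K} J_L ≤ J_K` in the idele model

For a finite extension `L/K` (in practice Galois) the norm subgroup is
`ideleNormSubgroup K L = {x ∈ J_K | ∃ y ∈ J_L, ∏_{σ ∈ Aut(L/K)} σ • y = (image of x in J_L)}`.
This is the `N` of the second inequality `[J_K : Kˣ · N] ∣ p` (node C3A) and the target of the local
norm facts (node C3K').
-/

set_option autoImplicit false

noncomputable section

namespace Fermat.Agent.CFT

variable (K L : Type) [Field K] [Field L] [Algebra K L] [FiniteDimensional K L]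

/-- The norm subgroup `N_{L/K} J_L` of the idele group of `K`. -/
def ideleNormSubgroup : Subgroup (ideleGroup K) where
  carrier := {x | ∃ y : ideleGroup L, ∏ σ : L ≃ₐ[K] L, σ • y = ideleMap (algebraMap K L) x}
  mul_mem' := by
    rintro x x' ⟨y, hy⟩ ⟨y', hy'⟩
    refine ⟨y * y', ?_⟩
    simp only [smul_mul', Finset.prod_mul_distrib, hy, hy', map_mul]
  one_mem' := ⟨1, by simp⟩
  inv_mem' := by
    rintro x ⟨y, hy⟩
    refine ⟨y⁻¹, ?_⟩
    simp only [smul_inv', Finset.prod_inv_distrib, hy, map_inv]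

variable {K L}

theorem mem_ideleNormSubgroup {x : ideleGroup K} :
    x ∈ ideleNormSubgroup K L ↔
      ∃ y : ideleGroup L, ∏ σ : L ≃ₐ[K] L, σ • y = ideleMap (algebraMap K L) x :=
  Iff.rfl

end Fermat.Agent.CFT
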