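/-
S55 / C7b: the injectivity hypothesis `hinj` of the index count
(`K_T / p ↪ ∏_{v ∈ T} K_vˣ / p`) from the first inequality (`hFI`) and the local norm facts
N1–N3 (`hnorm`), in helper17's place model; and the resulting index count.
-/
import Mathlib
import Fermat.Agent.CFT.Global.ExistenceCountPlace
import Fermat.Agent.CFT.Global.IdeleNorm
import Fermat.Agent.CFT.Kummer.KummerNumberField

set_option autoImplicit false

open scoped NumberField

open Polynomial

namespace Fermat.Agent.CFT

namespace ExistenceCount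

open Subgroup NumberField IsDedekindDomain IdeleDict

section LocalRoot

variable {K : Type} [Field K]

/-- A root of a local unit is a local unit. -/
theorem mem_placeUnitGroup_of_pow_mem {n : ℕ} (hn : n ≠ 0) (v : IdelePlace K)
    {u : (localFieldAt v.2.emb)ˣ} (hu : u ^ n ∈ placeUnitGroup v) : u ∈ placeUnitGroup v := by
  rw [LocalPow.mem_normOneUnits] at hu ⊢
  rw [Units.val_pow_eq_pow_val, SubmonoidClass.coe_pow, norm_pow] at hu
  exact (pow_eq_one_iff_of_nonneg (norm_nonneg _) hn).mp hu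

/-- `y ^ n ∈ J_{K,T}` implies `y ∈ J_{K,T}`. -/
theorem mem_boxIdele_sIdeleFam_of_pow_mem {n : ℕ} (hn : n ≠ 0) (T : Set (IdelePlace K))
    {y : ideleGroup K} (hy : y ^ n ∈ boxIdele (sIdeleFam T)) : y ∈ boxIdele (sIdeleFam T) := by
  rw [mem_boxIdele] at hy ⊢
  intro v
  by_cases hv : v ∈ T
  · rw [sIdeleFam_of_mem hv]
    exact mem_top _
  · have := hy v
    rw [sIdeleFam_of_notMem hv, map_pow, Pi.pow_apply] at this
    rw [sIdeleFam_of_notMem hv]
    exact mem_placeUnitGroup_of_pow_mem hn v this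

end LocalRoot

end ExistenceCount



namespace ExistenceCount

open Subgroup NumberField IsDedekindDomain IdeleDict

section Inj

variable {K : Type} [Field K] [NumberField K]

/-- **The injectivity hypothesis `hinj` of the index count from the first inequality.**
Hypotheses: `hFI` = first inequality for cyclic extensions of degree `p`
(`Kˣ · N_{L/K} J_L ≠ J_K`); `hnorm` = local norm facts (N1–N3): if `a` is a `T`-unit which is a
`p`-th power at all places of `T ⊇ {v ∣ p}`, then `J_{K,T} ⊆ N_{L/K} J_L` for `L = K(a^{1/p})`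
(split at `T`, unramified outside `T`). -/
theorem exists_pow_eq_of_mem_inf_boxIdele_sPowFam (pp : Nat.Primes) {ζ : K}
    (hζ : IsPrimitiveRoot ζ (pp : ℕ)) (T : Finset (IdelePlace K))
    (hgen : GeneratesClassGroup K (IdelePlace.prime '' (T : Set (IdelePlace K))))
    (hFI : ∀ (L : Type) [Field L] [NumberField L] [Algebra K L] [IsGalois K L]
      [IsCyclic (L ≃ₐ[K] L)] [FiniteDimensional K L], Module.finrank K L = (pp : ℕ) →
      principalSubgroup K ⊔ ideleNormSubgroup K L ≠ ⊤)
    (hnorm : ∀ (L : Type) [Field L] [NumberField L] [Algebra K L] [IsGalois K L]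
      [IsCyclic (L ≃ₐ[K] L)] [FiniteDimensional K L] (a : Kˣ) (α : L),
      Module.finrank K L = (pp : ℕ) → α ^ (pp : ℕ) = algebraMap K L a →
      IntermediateField.adjoin K {α} = ⊤ →
      (∀ h : principalIdele K a ∈ ideleGroup K,
        (⟨principalIdele K a, h⟩ : ideleGroup K) ∈
          boxIdele (sPowFam (pp : ℕ) (T : Set (IdelePlace K)))) →
      boxIdele (sIdeleFam (T : Set (IdelePlace K))) ≤ ideleNormSubgroup K L) :
    ∀ x ∈ principalSubgroup K ⊓ boxIdele (sPowFam (pp : ℕ) (T : Set (IdelePlace K))),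
      ∃ y ∈ principalSubgroup K ⊓ boxIdele (sIdeleFam (T : Set (IdelePlace K))),
        y ^ (pp : ℕ) = x := by
  rintro ⟨x, hxJ⟩ ⟨⟨a, ha⟩, hxE⟩
  have ha' : principalIdele K a = x := ha
  -- `a` is a `p`-th power in `K`
  have hpow : ∃ b : K, b ^ (pp : ℕ) = (a : K) := by
    by_contra hne
    push Not at hne
    obtain ⟨L, _, _, _, _, _, α, hdeg, hα, hgenα⟩ :=
      KummerNF.exists_kummer_extension K pp.2 hζ (a : K) hne
    have : FiniteDimensional K L := Module.finite_of_finrank_pos (by rw [hdeg]; exact pp.2.pos)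
    have hle := hnorm L a α hdeg hα hgenα (fun h => by
      have : (⟨principalIdele K a, h⟩ : ideleGroup K) = ⟨x, hxJ⟩ := Subtype.ext ha'
      rw [this]
      exact hxE)
    apply hFI L hdeg
    rw [eq_top_iff, ← principal_sup_boxIdele_eq_top _ T.finite_toSet hgen]
    exact sup_le_sup_left hle _
  obtain ⟨b, hb⟩ := hpow
  have hb0 : b ≠ 0 := by
    rintro rfl
    rw [zero_pow pp.2.ne_zero] at hb
    exact a.ne_zero hb.symm
  set z : Kˣ := Units.mk0 b hb0 with hz
  have hzp : z ^ (pp : ℕ) = a := Units.ext hb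
  have hzJ : principalIdele K z ∈ ideleGroup K := principalIdele_mem_ideleGroup z
  have hzx : (⟨principalIdele K z, hzJ⟩ : ideleGroup K) ^ (pp : ℕ) = ⟨x, hxJ⟩ := by
    apply Subtype.ext
    change (principalIdele K z) ^ (pp : ℕ) = x
    rw [← map_pow, hzp, ha']
  refine ⟨⟨principalIdele K z, hzJ⟩, ⟨⟨z, rfl⟩, ?_⟩, hzx⟩
  apply mem_boxIdele_sIdeleFam_of_pow_mem pp.2.ne_zero
  rw [hzx]
  exact boxIdele_mono (sPowFam_le_sIdeleFam _ _) hxE

/-- **C7b (i), place model, from the first inequality**: `[J_K : Kˣ · E_T] = p ^ (r + |T| + 1)`. -/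
theorem index_principalSubgroup_sup_boxIdele_of_firstIneq (pp : Nat.Primes)
    (hp2 : 2 < (pp : ℕ)) {ζ : K} (hζ : IsPrimitiveRoot ζ (pp : ℕ)) (T : Finset (IdelePlace K))
    (hT : ∀ v : IdelePlace K, v.1 = pp → v ∈ T)
    (hgen : GeneratesClassGroup K (IdelePlace.prime '' (T : Set (IdelePlace K))))
    (hFI : ∀ (L : Type) [Field L] [NumberField L] [Algebra K L] [IsGalois K L]
      [IsCyclic (L ≃ₐ[K] L)] [FiniteDimensional K L], Module.finrank K L = (pp : ℕ) →
      principalSubgroup K ⊔ ideleNormSubgroup K L ≠ ⊤)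
    (hnorm : ∀ (L : Type) [Field L] [NumberField L] [Algebra K L] [IsGalois K L]
      [IsCyclic (L ≃ₐ[K] L)] [FiniteDimensional K L] (a : Kˣ) (α : L),
      Module.finrank K L = (pp : ℕ) → α ^ (pp : ℕ) = algebraMap K L a →
      IntermediateField.adjoin K {α} = ⊤ →
      (∀ h : principalIdele K a ∈ ideleGroup K,
        (⟨principalIdele K a, h⟩ : ideleGroup K) ∈
          boxIdele (sPowFam (pp : ℕ) (T : Set (IdelePlace K)))) →
      boxIdele (sIdeleFam (T : Set (IdelePlace K))) ≤ ideleNormSubgroup K L) :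
    (principalSubgroup K ⊔ boxIdele (sPowFam (pp : ℕ) (T : Set (IdelePlace K)))).index =
      (pp : ℕ) ^ (NumberField.Units.rank K + T.card + 1) :=
  index_principalSubgroup_sup_boxIdele pp hp2 hζ T hT hgen
    (exists_pow_eq_of_mem_inf_boxIdele_sPowFam pp hζ T hgen hFI hnorm)

end Inj

end ExistenceCount

end Fermat.Agent.CFT
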