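import Fermat.Agent.CFT.Global.SemiLocalCoh
import Fermat.Agent.CFT.Global.RestrictedCohRep

/-!
# Layer C / C1a: local structure of the semi-local units (part 4: consequences)

* `apply_mem_localFieldAt_restrict_iff`: `τ' β ∈ K_τ` iff the decomposition group fixes `β`;
* `localUnitsCohIso`: `Hⁿ(decompAt τ', L_τ'ˣ) ≅ Hⁿ(Gal(L_τ'/K_τ), L_τ'ˣ)`
  (Mathlib's `Rep.ofAlgebraAutOnUnits`);
* Hilbert 90: `subsingleton_H1_localUnitsRep`, `subsingleton_H1_semiLocalRep` and, in the cocycle
  language of `RestrictedCoh.lean`, `semiLocal_h1TrivialOn :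
  H1TrivialOn (L ≃ₐ[K] L) (⊤ : Subgroup (semiLocalUnits q L))`;
* `semiLocal_h2_eq_zero_iff`: a class in `H²(H, A_q L)` vanishes iff all its localisations do.
-/

set_option autoImplicit false
set_option linter.unusedSectionVars false
set_option linter.style.haveILetI false

open scoped Pointwise

noncomputable section

namespace Fermat.Agent.CFT

open Fermat.Agent.CFT.GaloisTower CategoryTheory groupCohomology

variable {q : ℕ} [Fact q.Prime] (K : Type) [Field K] {L : Type} [Field L] [Algebra K L]
  [Normal K L]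

local notation "Ω" => PadicAlgCl q

/-- An element of `L` lies in `K_τ` (under `τ'`) iff it is fixed by the decomposition group. -/
theorem apply_mem_localFieldAt_restrict_iff (τ' : LocalEmb q L) (β : L) :
    τ' β ∈ localFieldAt (localEmbRestrict K τ') ↔ ∀ σ ∈ decompAt K τ', σ β = β := by
  rw [← forall_fixingSubgroup_apply_eq_iff]
  constructor
  · rintro h _ ⟨γ, rfl⟩
    apply τ'.injective
    rw [← apply_apply_eq_decompHom]
    exact h γ γ.2
  · intro h γ hγ
    rw [apply_apply_eq_decompHom K τ' ⟨γ, hγ⟩ β, h _ ⟨⟨γ, hγ⟩, rfl⟩]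

/-- `Hⁿ(H_w, L_wˣ) ≅ Hⁿ(Gal(L_w/K_v), L_wˣ)`. -/
def localUnitsCohIso (τ' : LocalEmb q L) (n : ℕ) :
    groupCohomology (localUnitsRep K τ') n ≅
      groupCohomology (Rep.ofAlgebraAutOnUnits (localFieldAt (localEmbRestrict K τ'))
        (localLayer K τ')) n :=
  groupCohomology.mapIso (decompEquiv K τ').symm (LinearEquiv.refl ℤ _) (fun _ => rfl) n

/-- Hilbert 90 for the local layer. -/
theorem subsingleton_H1_localUnitsRep (τ' : LocalEmb q L)
    [FiniteDimensional (localFieldAt (localEmbRestrict K τ')) (localLayer K τ')] :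
    Subsingleton (groupCohomology (localUnitsRep K τ') 1) := by
  have e := (localUnitsCohIso K τ' 1).toLinearEquiv
  haveI : Subsingleton (groupCohomology (Rep.ofAlgebraAutOnUnits
      (localFieldAt (localEmbRestrict K τ')) (localLayer K τ')) 1) :=
    (groupCohomology.H1ofAutOnUnitsUnique _ _).instSubsingleton
  exact e.toEquiv.subsingleton

/-- `H¹(Gal(L/K), A_q L) = 0` (Hilbert 90 + Shapiro). -/
theorem subsingleton_H1_semiLocalRep [NumberField K] [NumberField L] :
    Subsingleton (groupCohomology (semiLocalRep L (L ≃ₐ[K] L) q) 1) := by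
  have hbij := bijective_semiLocalLoc₁ (q := q) K (L := L)
  haveI : ∀ ω : LocalPlace q K, Subsingleton (groupCohomology
      (localUnitsRep K (placeLift K ω : LocalEmb q L)) 1) := fun ω => by
    haveI := finiteDimensional_localLayer K (placeLift K ω : LocalEmb q L)
    exact subsingleton_H1_localUnitsRep K _
  exact hbij.1.subsingleton

/-- `H¹(Gal(L/K), A_q L) = 0` in cocycle form (input `hA1` of `IdeleCoh.lean`). -/
theorem semiLocal_h1TrivialOn [NumberField K] [NumberField L] :
    H1TrivialOn (L ≃ₐ[K] L) (⊤ : Subgroup (semiLocalUnits q L)) := by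
  haveI : Subsingleton (groupCohomology.H1
      (Rep.ofMulDistribMulAction (L ≃ₐ[K] L) (semiLocalUnits q L))) :=
    subsingleton_H1_semiLocalRep K
  exact h1TrivialOn_of_subsingleton_H1

/-- A class in `H²(Gal(L/K), A_q L)` vanishes iff all its localisations vanish. -/
theorem semiLocal_h2_eq_zero_iff [Finite (LocalPlace q K)]
    (x : groupCohomology (semiLocalRep L (L ≃ₐ[K] L) q) 2) :
    x = 0 ↔ ∀ ω : LocalPlace q K,
      groupCohomology.map (decompAt K (placeLift K ω : LocalEmb q L)).subtype
        (semiLocalLoc K (placeLift K ω)) 2 x = 0 := by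
  have hbij := bijective_semiLocalLoc₂ (q := q) K (L := L)
  constructor
  · rintro rfl ω
    exact map_zero _
  · intro h
    apply hbij.1
    funext ω
    exact (h ω).trans (map_zero _).symm

end Fermat.Agent.CFT

end
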