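import Mathlib
import Fermat.Agent.CFT.Global.SemiLocalH

/-!
# Layer C / C3K' (converse part, N5): the local Kummer criterion in the semi-local model

`K` a field containing `μ_p`, `L/K` normal, `τ' : LocalEmb q L` with restriction `τ` to `K`,
`K_τ = localFieldAt τ ≤ L_τ' = localFieldAt τ'`, `decompAt K τ' ≤ Gal(L/K)` the decomposition group.

* `exists_pow_eq_iff_decompAt_fixes` (N5/K0): for `x : K` and `β : L` with `β ^ p = x`:
  `x` is a `p`-th power in `K_τ` iff `decompAt K τ'` fixes `β`;
* `decompAt_eq_bot_iff`: `decompAt K τ' = ⊥ ↔ L_τ' = K_τ` (the place splits completely);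
* `decompAt_eq_bot_iff_forall`: the same in the `hsplit` shape of
  `FirstIneq.exists_prod_smul_eq_of_split`;
* `decompAt_eq_bot_iff_apply_mem`, `decompAt_eq_bot_iff_exists_pow_eq` (N1 and its converse): for
  `L = K(α)`, `α ^ p = a`: the place splits iff `τ' α ∈ K_τ` iff `a` is a `p`-th power in `K_τ`.
-/

set_option autoImplicit false
set_option linter.unusedSectionVars false

open Polynomial

namespace Fermat.Agent.CFT

open Fermat.Agent.CFT.GaloisTower

variable {q : ℕ} [Fact q.Prime] (K : Type) [Field K] {L : Type} [Field L] [Algebra K L]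
  [Normal K L]

local notation "Ω" => PadicAlgCl q

/-- **Kummer criterion** (K0): for `μ_p ⊆ K`, `x ∈ K` and a `p`-th root `β` of `x` in a normal
extension `L`: `x` is a `p`-th power in the local field `K_τ` iff the decomposition group of
`τ'` fixes `β`. -/
theorem exists_pow_eq_iff_decompAt_fixes {p : ℕ} (hp : 0 < p) {ζ : K} (hζ : IsPrimitiveRoot ζ p)
    (τ' : LocalEmb q L) (x : K) (β : L) (hβ : β ^ p = algebraMap K L x) :
    (∃ y ∈ localFieldAt (localEmbRestrict K τ'), y ^ p = localEmbRestrict K τ' x) ↔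
      ∀ σ ∈ decompAt K τ', σ β = β := by
  rw [← apply_mem_localFieldAt_restrict_iff]
  have hpow : (τ' β) ^ p = localEmbRestrict K τ' x := by
    rw [← map_pow, hβ]
    rfl
  constructor
  · rintro ⟨y, hy, hyp⟩
    by_cases hβ0 : τ' β = 0
    · rw [hβ0]
      exact zero_mem _
    have hζ' : IsPrimitiveRoot (localEmbRestrict K τ' ζ) p :=
      hζ.map_of_injective (localEmbRestrict K τ').injective
    have h1 : (y / τ' β) ^ p = 1 := by
      rw [div_pow, hyp, hpow, div_self]
      rw [← hpow]
      exact pow_ne_zero _ hβ0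
    have : NeZero p := ⟨hp.ne'⟩
    obtain ⟨i, -, hi⟩ := hζ'.eq_pow_of_pow_eq_one h1
    have hy0 : y ≠ 0 := by
      rintro rfl
      rw [zero_pow hp.ne', ← hpow] at hyp
      exact hβ0 (pow_eq_zero_iff hp.ne' |>.1 hyp.symm)
    have h2 : τ' β = y / (localEmbRestrict K τ' ζ) ^ i := by
      rw [hi]
      field_simp
    rw [h2]
    exact div_mem hy (pow_mem (apply_mem_localFieldAt _ ζ) i)
  · intro h
    exact ⟨τ' β, h, hpow⟩

/-- An automorphism fixing a generator is the identity. -/
theorem algEquiv_eq_one_of_apply_eq {α : L} (hgen : IntermediateField.adjoin K {α} = ⊤)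
    (σ : L ≃ₐ[K] L) (h : σ α = α) : σ = 1 := by
  ext x
  have hx : x ∈ IntermediateField.adjoin K {α} := by rw [hgen]; exact IntermediateField.mem_top
  induction hx using IntermediateField.adjoin_induction with
  | mem y hy =>
    rw [Set.mem_singleton_iff] at hy
    rw [hy, h]
    rfl
  | algebraMap r => rw [AlgEquiv.commutes]; rfl
  | add y z _ _ hy hz => rw [map_add, hy, hz]; rfl
  | inv y _ hy => rw [map_inv₀, hy]; rfl
  | mul y z _ _ hy hz => rw [map_mul, hy, hz]; rfl

/-- The decomposition group is trivial iff the place splits: `L_τ' = K_τ`. -/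
theorem decompAt_eq_bot_iff (τ' : LocalEmb q L) :
    decompAt K τ' = ⊥ ↔ localFieldAt τ' = localFieldAt (localEmbRestrict K τ') := by
  constructor
  · intro h
    apply le_antisymm _ (localFieldAt_restrict_le K τ')
    rw [localFieldAt, IntermediateField.adjoin_le_iff]
    rintro _ ⟨β, rfl⟩
    rw [SetLike.mem_coe, apply_mem_localFieldAt_restrict_iff, h]
    intro σ hσ
    rw [Subgroup.mem_bot.1 hσ]
    rfl
  · intro h
    rw [eq_bot_iff]
    intro σ hσ
    rw [Subgroup.mem_bot]
    ext β
    have hβ : τ' β ∈ localFieldAt (localEmbRestrict K τ') := by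
      rw [← h]
      exact apply_mem_localFieldAt τ' β
    exact (apply_mem_localFieldAt_restrict_iff K τ' β).1 hβ σ hσ

/-- The decomposition group is trivial iff `τ'` has trivial stabiliser in `Gal(L/K)` modulo `Gq`
(the shape of the hypothesis `hsplit` of `FirstIneq.exists_prod_smul_eq_of_split`). -/
theorem decompAt_eq_bot_iff_forall (τ' : LocalEmb q L) :
    decompAt K τ' = ⊥ ↔
      ∀ g : L ≃ₐ[K] L, (∃ γ : Gq q, τ'.comp (g : L →+* L) = γ • τ') → g = 1 := by
  constructor
  · rintro h g ⟨γ, hγ⟩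
    have : g ∈ decompAt K τ' := (mem_decompAt_iff K τ' g).2 ⟨γ, hγ.symm⟩
    rw [h] at this
    exact Subgroup.mem_bot.1 this
  · intro h
    rw [eq_bot_iff]
    intro σ hσ
    obtain ⟨γ, hγ⟩ := (mem_decompAt_iff K τ' σ).1 hσ
    exact Subgroup.mem_bot.2 (h σ ⟨γ, hγ.symm⟩)

/-- (N1) For `L = K(α)`: the place `τ'` splits iff `τ' α ∈ K_τ`. -/
theorem decompAt_eq_bot_iff_apply_mem {α : L} (hgen : IntermediateField.adjoin K {α} = ⊤)
    (τ' : LocalEmb q L) :
    decompAt K τ' = ⊥ ↔ τ' α ∈ localFieldAt (localEmbRestrict K τ') := by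
  rw [apply_mem_localFieldAt_restrict_iff]
  constructor
  · intro h σ hσ
    rw [h] at hσ
    rw [Subgroup.mem_bot.1 hσ]
    rfl
  · intro h
    rw [eq_bot_iff]
    intro σ hσ
    exact Subgroup.mem_bot.2 (algEquiv_eq_one_of_apply_eq K hgen σ (h σ hσ))

/-- (N1) For `μ_p ⊆ K` and `L = K(α)`, `α ^ p = a`: the place `τ'` splits (trivial decomposition
group) iff `a` is a `p`-th power in `K_τ`. -/
theorem decompAt_eq_bot_iff_exists_pow_eq {p : ℕ} (hp : 0 < p) {ζ : K}
    (hζ : IsPrimitiveRoot ζ p) {a : K} {α : L} (hα : α ^ p = algebraMap K L a)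
    (hgen : IntermediateField.adjoin K {α} = ⊤) (τ' : LocalEmb q L) :
    decompAt K τ' = ⊥ ↔
      ∃ y ∈ localFieldAt (localEmbRestrict K τ'), y ^ p = localEmbRestrict K τ' a := by
  rw [exists_pow_eq_iff_decompAt_fixes K hp hζ τ' a α hα, decompAt_eq_bot_iff_apply_mem K hgen,
    apply_mem_localFieldAt_restrict_iff]

end Fermat.Agent.CFT
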