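import Mathlib
import Fermat.Agent.CFT.Local.Instantiate
import Fermat.Agent.CFT.Local.TameUnram
import Fermat.Agent.CFT.Local.NormOrd

/-!
# CFT (C3K'): local norm facts for Kummer layers inside `PadicAlgCl q`

* `isIntegral_iff_norm_le_one`: `x : PadicAlgCl q` is integral over `ℤ_[q]` iff `‖x‖ ≤ 1`;
  for a finite subextension `E` the ring of integers `intRing q E` is the unit ball and its units
  are the elements of norm one (`mem_intRing_iff`, `isUnit_intRing_iff`);
* `dvd_card_residueField_sub_one`: if `E ∋ ζ_p` and `p ≠ q` then `p ∣ |k_E| - 1`;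
* `exists_norm_eq_of_unit_root` (**N3, local form**): `E ≤ E'` finite over `ℚ_[q]`, `p ≠ q`,
  `ζ_p ∈ E`, `E' = E(β)` with `β ^ p = b ∈ E`, `‖b‖ = 1`, `E'/E` Galois. Then every `u ∈ E` with
  `‖u‖ = 1` is the norm of some `s ∈ E'` with `‖s‖ = 1` (the extension is unramified).
-/

set_option autoImplicit false
set_option linter.unusedSectionVars false
set_option linter.style.haveILetI false

open Polynomial IsLocalRing
open Fermat.Agent.CFT.Tower Fermat.Agent.CFT.PadicTower Fermat.Agent.CFT.GaloisTower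

namespace Fermat.Agent.CFT.KummerLocal

variable {q : ℕ} [Fact q.Prime]

local notation "Ω" => PadicAlgCl q

section Bridge

/-- Elements of `ℚ_[q]` of norm at most one come from `ℤ_[q]`. -/
theorem exists_padicInt_of_norm_le_one {a : ℚ_[q]} (ha : ‖a‖ ≤ 1) :
    ∃ b : ℤ_[q], algebraMap ℤ_[q] ℚ_[q] b = a :=
  ⟨⟨a, ha⟩, rfl⟩

/-- `‖x‖ ≤ 1` implies integrality over `ℤ_[q]`. -/
theorem isIntegral_of_norm_le_one {x : Ω} (hx : ‖x‖ ≤ 1) : IsIntegral ℤ_[q] x := by
  have hint : IsIntegral ℚ_[q] x := Algebra.IsIntegral.isIntegral x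
  have hmonic : (minpoly ℚ_[q] x).Monic := minpoly.monic hint
  have h1 : spectralValue (minpoly ℚ_[q] x) ≤ 1 := hx
  rw [spectralValue_le_one_iff hmonic] at h1
  have hlift : minpoly ℚ_[q] x ∈ Polynomial.lifts (algebraMap ℤ_[q] ℚ_[q]) := by
    rw [Polynomial.lifts_iff_coeff_lifts]
    intro n
    obtain ⟨b, hb⟩ := exists_padicInt_of_norm_le_one (h1 n)
    exact ⟨b, hb⟩
  obtain ⟨P, hP, _, hPm⟩ := Polynomial.lifts_and_degree_eq_and_monic hlift hmonic
  refine ⟨P, hPm, ?_⟩
  have h2 : Polynomial.aeval x (P.map (algebraMap ℤ_[q] ℚ_[q])) = 0 := by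
    rw [hP]
    exact minpoly.aeval _ _
  rw [Polynomial.aeval_map_algebraMap] at h2
  exact h2

/-- Integrality over `ℤ_[q]` implies `‖x‖ ≤ 1`. -/
theorem norm_le_one_of_isIntegral {x : Ω} (hx : IsIntegral ℤ_[q] x) : ‖x‖ ≤ 1 := by
  have h := minpoly.isIntegrallyClosed_eq_field_fractions' ℚ_[q] hx
  have hint : IsIntegral ℚ_[q] x := Algebra.IsIntegral.isIntegral x
  have hmonic : (minpoly ℚ_[q] x).Monic := minpoly.monic hint
  show spectralValue (minpoly ℚ_[q] x) ≤ 1
  rw [spectralValue_le_one_iff hmonic]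
  intro n
  rw [h, Polynomial.coeff_map]
  exact PadicInt.norm_le_one _

theorem isIntegral_iff_norm_le_one (x : Ω) : IsIntegral ℤ_[q] x ↔ ‖x‖ ≤ 1 :=
  ⟨norm_le_one_of_isIntegral, isIntegral_of_norm_le_one⟩

variable (E : IntermediateField ℚ_[q] (PadicAlgCl q))

/-- The ring of integers of `E` is its unit ball. -/
theorem mem_intRing_iff (x : E) : x ∈ intRing q E ↔ ‖(x : Ω)‖ ≤ 1 := by
  rw [← isIntegral_iff_norm_le_one]
  exact mem_integralClosure_iff_coe ℤ_[q] E x

/-- The units of the ring of integers of `E` are the elements of norm one. -/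
theorem isUnit_intRing_iff (x : intRing q E) : IsUnit x ↔ ‖((x : E) : Ω)‖ = 1 := by
  constructor
  · intro hx
    obtain ⟨y, hy⟩ := hx.exists_right_inv
    have h1 : ‖((x : E) : Ω)‖ ≤ 1 := (mem_intRing_iff E x).mp x.2
    have h2 : ‖((y : E) : Ω)‖ ≤ 1 := (mem_intRing_iff E y).mp y.2
    have h3 : ((x : E) : Ω) * ((y : E) : Ω) = 1 := by
      have := congrArg (fun z : intRing q E => ((z : E) : Ω)) hy
      simpa using this
    have h4 : ‖((x : E) : Ω)‖ * ‖((y : E) : Ω)‖ = 1 := by rw [← norm_mul, h3, norm_one]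
    have h5 : 0 ≤ ‖((x : E) : Ω)‖ := norm_nonneg _
    nlinarith [norm_nonneg ((y : E) : Ω)]
  · intro hx
    have hx0 : (x : E) ≠ 0 := by
      intro h0
      rw [h0] at hx
      simp at hx
    have hinv : (x : E)⁻¹ ∈ intRing q E := by
      rw [mem_intRing_iff]
      push_cast
      rw [norm_inv, hx, inv_one]
    refine IsUnit.of_mul_eq_one ⟨(x : E)⁻¹, hinv⟩ ?_
    apply Subtype.ext
    show (x : E) * (x : E)⁻¹ = 1
    exact mul_inv_cancel₀ hx0

/-- An element of norm one as an element of the ring of integers. -/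
def intOfNormOne {u : E} (hu : ‖(u : Ω)‖ = 1) : intRing q E :=
  ⟨u, (mem_intRing_iff E u).mpr hu.le⟩

theorem isUnit_intOfNormOne {u : E} (hu : ‖(u : Ω)‖ = 1) : IsUnit (intOfNormOne E hu) :=
  (isUnit_intRing_iff E _).mpr hu

end Bridge

section Unram

variable {E E' : IntermediateField ℚ_[q] (PadicAlgCl q)}

theorem norm_natCast_eq_one {p : ℕ} (hp : p.Prime) (hpq : p ≠ q) : ‖((p : ℕ) : Ω)‖ = 1 := by
  rw [← map_natCast (algebraMap ℚ_[q] Ω), PadicAlgCl.norm_extends, Padic.norm_natCast_eq_one_iff]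
  exact (Nat.coprime_primes (Fact.out : q.Prime) hp).mpr (Ne.symm hpq)

/-- If `E ∋ ζ_p` and `p ≠ q` then `p ∣ |k_E| - 1`. -/
theorem dvd_card_residueField_sub_one [FiniteDimensional ℚ_[q] E] {p : ℕ} (hp : p.Prime)
    (hpq : p ≠ q) {ζ : E} (hζ : IsPrimitiveRoot ζ p) :
    haveI := PadicTower.intRing_isLocalRing q E
    p ∣ Nat.card (ResidueField (intRing q E)) - 1 := by
  haveI := PadicTower.intRing_isLocalRing q E
  haveI := PadicTower.intRing_finite_residueField q E
  haveI : Fact p.Prime := ⟨hp⟩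
  have hζ1 : ‖((ζ : E) : Ω)‖ = 1 := by
    have h1 : ((ζ : E) : Ω) ^ p = 1 := by
      have := congrArg (fun z : E => (z : Ω)) hζ.pow_eq_one
      simpa using this
    have h2 : ‖((ζ : E) : Ω)‖ ^ p = 1 := by rw [← norm_pow, h1, norm_one]
    exact (pow_eq_one_iff_of_nonneg (norm_nonneg _) hp.ne_zero).mp h2
  let ζ₀ : intRing q E := intOfNormOne E hζ1
  have hζ₀ : IsPrimitiveRoot ζ₀ p :=
    IsPrimitiveRoot.of_map_of_injective (f := algebraMap (intRing q E) E) (by exact hζ)
      Subtype.val_injective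
  have hpu : IsUnit ((p : ℕ) : intRing q E) := by
    rw [isUnit_intRing_iff]
    have : (((p : ℕ) : intRing q E) : E) = ((p : ℕ) : E) := by push_cast; rfl
    rw [this]
    push_cast
    exact norm_natCast_eq_one hp hpq
  -- the residue of `ζ₀` has order `p`
  set r : ResidueField (intRing q E) := residue (intRing q E) ζ₀ with hr
  have hrp : r ^ p = 1 := by rw [hr, ← map_pow, hζ₀.pow_eq_one, map_one]
  have hr1 : r ≠ 1 := by
    intro h1
    have hu := TameSym.isUnit_one_sub_pow hζ₀ hpu (k := 1)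
      (fun hd => hp.one_lt.ne' (Nat.dvd_one.mp hd))
    rw [pow_one] at hu
    have h2 : residue (intRing q E) (1 - ζ₀) = 0 := by rw [map_sub, map_one, ← hr, h1, sub_self]
    have h3 : (1 - ζ₀) ∈ maximalIdeal (intRing q E) := (residue_eq_zero_iff _).mp h2
    exact (mem_maximalIdeal _).mp h3 hu
  have hr0 : r ≠ 0 := by
    intro h0
    rw [h0, zero_pow hp.ne_zero] at hrp
    exact zero_ne_one hrp
  have hord : orderOf (Units.mk0 r hr0) = p := by
    apply orderOf_eq_prime
    · apply Units.ext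
      simpa using hrp
    · intro h1
      apply hr1
      have := congrArg Units.val h1
      simpa using this
  have hdvd := orderOf_dvd_natCard (Units.mk0 r hr0)
  rw [hord, Nat.card_units] at hdvd
  exact hdvd

/-- **(N3), local form.**  `E ≤ E'` finite over `ℚ_[q]`, `p ≠ q`, `ζ_p ∈ E`, `E' = E(β)` Galois over
`E` with `β ^ p = b ∈ E`, `‖b‖ = 1`.  Then every element of `E` of norm one is the norm of an element
of `E'` of norm one. -/
theorem exists_norm_eq_of_unit_root (h : E ≤ E') [FiniteDimensional ℚ_[q] E']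
    [IsGalois E (layer h)] {p : ℕ} (hp : p.Prime) (hpq : p ≠ q) {ζ : E}
    (hζ : IsPrimitiveRoot ζ p) {β : layer h} {b : E} (hβ : β ^ p = algebraMap E (layer h) b)
    (hb : ‖(b : Ω)‖ = 1) (htop : IntermediateField.adjoin E {β} = ⊤) {u : E}
    (hu : ‖(u : Ω)‖ = 1) :
    ∃ s : layer h, ‖(s : Ω)‖ = 1 ∧ Algebra.norm E s = u := by
  haveI : FiniteDimensional ℚ_[q] E := finiteDimensional_of_le' h
  haveI := PadicTower.intRing_isDiscreteValuationRing q E
  haveI := PadicTower.intRing_isAdicComplete q E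
  haveI := PadicTower.intRing_finite_residueField q E
  haveI := PadicTower.intRing_isFractionRing q E
  haveI := Tower.finiteDimensional_layer' h
  haveI := Fermat.Agent.CFT.intRing_isLocalRing (intRing q E) E (layer h)
  haveI := Fermat.Agent.CFT.intRing_isLocalHom (intRing q E) E (layer h)
  haveI : NeZero p := ⟨hp.ne_zero⟩
  have hζ1 : ‖((ζ : E) : Ω)‖ = 1 := by
    have h1 : ((ζ : E) : Ω) ^ p = 1 := by
      have := congrArg (fun z : E => (z : Ω)) hζ.pow_eq_one
      simpa using this
    have h2 : ‖((ζ : E) : Ω)‖ ^ p = 1 := by rw [← norm_pow, h1, norm_one]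
    exact (pow_eq_one_iff_of_nonneg (norm_nonneg _) hp.ne_zero).mp h2
  have hn := dvd_card_residueField_sub_one hp hpq hζ
  have hβ0 : β ≠ 0 := by
    rintro rfl
    rw [zero_pow hp.ne_zero] at hβ
    have hb0 : b = 0 := by
      have := (algebraMap E (layer h)).injective (hβ.symm.trans (map_zero _).symm)
      exact this
    rw [hb0] at hb
    simp at hb
  have hunr : IsUnramExt (intRing q E) (layer h) :=
    TameSym.isUnramExt_of_root_unit (O := intRing q E) (K := E) (L := layer h)
      (ζ₀ := intOfNormOne E hζ1) (u₀ := intOfNormOne E hb) hζ rfl hn hβ0 ⟨b, hβ.symm⟩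
      (isUnit_intOfNormOne E hb) (by rw [hβ]; rfl) htop
  have hunr' : IsUnramifiedExt (intRing q E) E (layer h) :=
    (isUnramifiedExt_iff_isUnramExt (intRing q E) E (layer h)).mpr hunr
  obtain ⟨s, hs⟩ := exists_unit_norm_eq_of_isUnramifiedExt (intRing q E) E (layer h) hunr'
    (isUnit_intOfNormOne E hu).unit
  refine ⟨((s : integralClosure (intRing q E) (layer h)) : layer h), ?_, hs⟩
  -- the norm of `s` is one
  have hmem : ∀ t : integralClosure (intRing q E) (layer h), ‖((t : layer h) : Ω)‖ ≤ 1 := by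
    intro t
    rw [← isIntegral_iff_norm_le_one]
    exact (mem_integralClosure_layer_iff ℤ_[q] h (t : layer h)).mp t.2
  have h1 := hmem s
  have h2 := hmem (s⁻¹ : (integralClosure (intRing q E) (layer h))ˣ)
  have h3 : (((s : integralClosure (intRing q E) (layer h)) : layer h) : Ω) *
      ((((s⁻¹ : (integralClosure (intRing q E) (layer h))ˣ) :
        integralClosure (intRing q E) (layer h)) : layer h) : Ω) = 1 := by
    have e : (s : integralClosure (intRing q E) (layer h)) *
        ((s⁻¹ : (integralClosure (intRing q E) (layer h))ˣ) :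
          integralClosure (intRing q E) (layer h)) = 1 := s.mul_inv
    have := congrArg (fun z : integralClosure (intRing q E) (layer h) => ((z : layer h) : Ω)) e
    exact this
  have h4 : ‖(((s : integralClosure (intRing q E) (layer h)) : layer h) : Ω)‖ *
      ‖((((s⁻¹ : (integralClosure (intRing q E) (layer h))ˣ) :
        integralClosure (intRing q E) (layer h)) : layer h) : Ω)‖ = 1 := by
    rw [← norm_mul, h3, norm_one]
  nlinarith [norm_nonneg (((s : integralClosure (intRing q E) (layer h)) : layer h) : Ω),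
    norm_nonneg ((((s⁻¹ : (integralClosure (intRing q E) (layer h))ˣ) :
        integralClosure (intRing q E) (layer h)) : layer h) : Ω)]

end Unram

end Fermat.Agent.CFT.KummerLocal
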