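import Mathlib
import Fermat.Agent.CFT.Global.IdeleDefs

/-!
# Layer C, node C2c: principal `n`-th roots near `1` in `ℚ̄_q` and openness of `n`-th powers

In `PadicAlgCl q` (not complete, but algebraically closed with an ultrametric norm invariant under
`Gal(ℚ̄_q/ℚ_q)`) every `u` with `‖u - 1‖ < ‖n‖ ^ n` has a unique `n`-th root `r` with
`‖r - 1‖ < ‖n‖`.  By uniqueness the root is Galois-equivariant, hence semi-local units close to
`1` are `n`-th powers of semi-local units.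
-/

set_option autoImplicit false

noncomputable section

namespace Fermat.Agent.CFT

namespace PadicRoot

variable {q : ℕ} [Fact q.Prime]

/-- Elements of `Gal(ℚ̄_q/ℚ_q)` are isometries. -/
theorem norm_gq (γ : Gq q) (x : PadicAlgCl q) : ‖γ x‖ = ‖x‖ := by
  rw [← PadicAlgCl.spectralNorm_eq, ← PadicAlgCl.spectralNorm_eq]
  exact (spectralNorm_eq_of_equiv γ x).symm

theorem norm_add_le_max' (x y : PadicAlgCl q) : ‖x + y‖ ≤ max ‖x‖ ‖y‖ :=
  IsUltrametricDist.norm_add_le_max x y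

theorem norm_eq_one_of_sub_one_lt {x : PadicAlgCl q} (h : ‖x - 1‖ < 1) : ‖x‖ = 1 := by
  have h1 : ‖x‖ ≤ 1 := by
    have := norm_add_le_max' (x - 1) 1
    rw [sub_add_cancel, norm_one] at this
    exact this.trans (max_le h.le le_rfl)
  have h2 : (1 : ℝ) ≤ ‖x‖ := by
    by_contra hlt
    push Not at hlt
    have := norm_add_le_max' (x - 1) (-x)
    rw [show x - 1 + -x = -1 by ring, norm_neg, norm_one, norm_neg] at this
    exact absurd this (not_le.mpr (max_lt h hlt))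
  exact le_antisymm h1 h2

theorem norm_mul_sub_one_lt {a b : PadicAlgCl q} {δ : ℝ} (hδ : δ ≤ 1) (ha : ‖a - 1‖ < δ)
    (hb : ‖b - 1‖ < δ) : ‖a * b - 1‖ < δ := by
  have ha1 : ‖a‖ = 1 := norm_eq_one_of_sub_one_lt (ha.trans_le hδ)
  have : a * b - 1 = a * (b - 1) + (a - 1) := by ring
  rw [this]
  refine (norm_add_le_max' _ _).trans_lt (max_lt ?_ ha)
  rw [norm_mul, ha1, one_mul]
  exact hb

theorem norm_pow_sub_one_lt {a : PadicAlgCl q} {δ : ℝ} (hδ0 : 0 < δ) (hδ : δ ≤ 1)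
    (ha : ‖a - 1‖ < δ) (n : ℕ) : ‖a ^ n - 1‖ < δ := by
  induction n with
  | zero => simpa using hδ0
  | succ n ih =>
    rw [pow_succ]
    exact norm_mul_sub_one_lt hδ ih ha

theorem norm_natCast_le_one (n : ℕ) : ‖(n : PadicAlgCl q)‖ ≤ 1 :=
  IsUltrametricDist.norm_natCast_le_one (PadicAlgCl q) n

theorem norm_natCast_pos {n : ℕ} (hn : n ≠ 0) : 0 < ‖(n : PadicAlgCl q)‖ :=
  norm_pos_iff.mpr (Nat.cast_ne_zero.mpr hn)

/-- Uniqueness of `n`-th roots close to `1`. -/
theorem eq_of_pow_eq_of_near_one {n : ℕ} (hn : n ≠ 0) {r r' : PadicAlgCl q} (h : r ^ n = r' ^ n)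
    (hr : ‖r - 1‖ < ‖(n : PadicAlgCl q)‖) (hr' : ‖r' - 1‖ < ‖(n : PadicAlgCl q)‖) : r = r' := by
  set δ := ‖(n : PadicAlgCl q)‖ with hδ
  have hδ0 : 0 < δ := norm_natCast_pos hn
  have hδ1 : δ ≤ 1 := norm_natCast_le_one n
  -- `(r - r') * ∑ r^i r'^(n-1-i) = 0`
  have hfac : (∑ i ∈ Finset.range n, r ^ i * r' ^ (n - 1 - i)) * (r - r') = 0 := by
    rw [(Commute.all r r').geom_sum₂_mul, h, sub_self]
  rcases mul_eq_zero.mp hfac with hsum | hsub
  · exfalso
    -- the sum is `n + e` with `‖e‖ < ‖n‖`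
    have hterm : ∀ i ∈ Finset.range n, ‖r ^ i * r' ^ (n - 1 - i) - 1‖ < δ := fun i _ =>
      norm_mul_sub_one_lt hδ1 (norm_pow_sub_one_lt hδ0 hδ1 hr _)
        (norm_pow_sub_one_lt hδ0 hδ1 hr' _)
    have hsum' : ∑ i ∈ Finset.range n, (r ^ i * r' ^ (n - 1 - i) - 1) = -(n : PadicAlgCl q) := by
      rw [Finset.sum_sub_distrib, hsum]
      simp
    have hne : (Finset.range n).Nonempty := Finset.nonempty_range_iff.mpr hn
    obtain ⟨i, hi, hle⟩ := IsUltrametricDist.exists_norm_finsetSum_le_of_nonempty hne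
      (fun i => r ^ i * r' ^ (n - 1 - i) - 1)
    rw [hsum', norm_neg] at hle
    exact absurd (hterm i hi) (not_lt.mpr hle)
  · exact sub_eq_zero.mp hsub

/-- Existence of an `n`-th root close to `1`. -/
theorem exists_root_near_one {n : ℕ} (hn : n ≠ 0) {u : PadicAlgCl q} {δ : ℝ} (hδ : 0 < δ)
    (hu : ‖u - 1‖ < δ ^ n) : ∃ r : PadicAlgCl q, r ^ n = u ∧ ‖r - 1‖ < δ := by
  classical
  by_contra hcon
  push Not at hcon
  -- split `X ^ n - C u`
  have hsplit : (Polynomial.X ^ n - Polynomial.C u : Polynomial (PadicAlgCl q)).Splits :=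
    IsAlgClosed.splits _
  have hmonic : (Polynomial.X ^ n - Polynomial.C u : Polynomial (PadicAlgCl q)).Monic :=
    Polynomial.monic_X_pow_sub_C u hn
  have hprod := hsplit.eq_prod_roots_of_monic hmonic
  have hcard : Multiset.card (Polynomial.X ^ n - Polynomial.C u :
      Polynomial (PadicAlgCl q)).roots = n := by
    rw [← hsplit.natDegree_eq_card_roots, Polynomial.natDegree_X_pow_sub_C]
  have heval := congrArg (Polynomial.eval 1) hprod
  rw [Polynomial.eval_sub, Polynomial.eval_pow, Polynomial.eval_X, Polynomial.eval_C, one_pow,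
    Polynomial.eval_multiset_prod, Multiset.map_map] at heval
  set M := (Polynomial.X ^ n - Polynomial.C u : Polynomial (PadicAlgCl q)).roots with hM
  have hroot : ∀ a ∈ M, δ ≤ ‖(1 : PadicAlgCl q) - a‖ := by
    intro a ha
    have ha' : a ^ n = u := by
      have := (Polynomial.mem_roots hmonic.ne_zero).mp ha
      simpa [sub_eq_zero] using this
    have := hcon a ha'
    rwa [norm_sub_rev] at this
  have heval' : (1 : PadicAlgCl q) - u = (M.map (fun a => (1 : PadicAlgCl q) - a)).prod := by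
    rw [heval]
    congr 1
    exact Multiset.map_congr rfl (fun a _ => by simp)
  have hnn : ‖(1 : PadicAlgCl q) - u‖₊ = (M.map (fun a => ‖(1 : PadicAlgCl q) - a‖₊)).prod := by
    rw [heval']
    have := map_multiset_prod (nnnormHom : PadicAlgCl q →*₀ NNReal)
      (M.map (fun a => (1 : PadicAlgCl q) - a))
    rw [Multiset.map_map] at this
    exact this
  have hδnn : (⟨δ, hδ.le⟩ : NNReal) ^ n ≤ ‖(1 : PadicAlgCl q) - u‖₊ := by
    rw [hnn, ← hcard]
    have := Multiset.pow_card_le_prod (s := M.map (fun a => ‖(1 : PadicAlgCl q) - a‖₊))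
      (a := (⟨δ, hδ.le⟩ : NNReal)) (by
        intro x hx
        obtain ⟨a, ha, rfl⟩ := Multiset.mem_map.mp hx
        exact hroot a ha)
    rwa [Multiset.card_map] at this
  have hge : δ ^ n ≤ ‖(1 : PadicAlgCl q) - u‖ := by
    have h3 : ((⟨δ, hδ.le⟩ : NNReal) : ℝ) ^ n ≤ (‖(1 : PadicAlgCl q) - u‖₊ : ℝ) := by
      exact_mod_cast hδnn
    simpa using h3
  rw [norm_sub_rev] at hge
  exact absurd hu (not_lt.mpr hge)

/-- The principal `n`-th root of an element close to `1` (junk value `1` otherwise). -/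
def nthRoot (n : ℕ) (u : PadicAlgCl q) : PadicAlgCl q :=
  if h : n ≠ 0 ∧ ‖u - 1‖ < ‖(n : PadicAlgCl q)‖ ^ n then
    (exists_root_near_one h.1 (norm_natCast_pos h.1) h.2).choose
  else 1

theorem nthRoot_spec {n : ℕ} (hn : n ≠ 0) {u : PadicAlgCl q}
    (hu : ‖u - 1‖ < ‖(n : PadicAlgCl q)‖ ^ n) :
    nthRoot n u ^ n = u ∧ ‖nthRoot n u - 1‖ < ‖(n : PadicAlgCl q)‖ := by
  rw [nthRoot, dif_pos ⟨hn, hu⟩]
  exact (exists_root_near_one hn (norm_natCast_pos hn) hu).choose_spec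

theorem nthRoot_unique {n : ℕ} (hn : n ≠ 0) {u r : PadicAlgCl q}
    (hu : ‖u - 1‖ < ‖(n : PadicAlgCl q)‖ ^ n) (hr : r ^ n = u)
    (hr1 : ‖r - 1‖ < ‖(n : PadicAlgCl q)‖) : r = nthRoot n u := by
  obtain ⟨h1, h2⟩ := nthRoot_spec hn hu
  exact eq_of_pow_eq_of_near_one hn (hr.trans h1.symm) hr1 h2

theorem nthRoot_gq {n : ℕ} (hn : n ≠ 0) {u : PadicAlgCl q}
    (hu : ‖u - 1‖ < ‖(n : PadicAlgCl q)‖ ^ n) (γ : Gq q) :
    γ (nthRoot n u) = nthRoot n (γ u) := by
  obtain ⟨h1, h2⟩ := nthRoot_spec hn hu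
  have hγu : ‖γ u - 1‖ < ‖(n : PadicAlgCl q)‖ ^ n := by
    have : γ u - 1 = γ (u - 1) := by rw [map_sub, map_one]
    rw [this, norm_gq]
    exact hu
  refine nthRoot_unique hn hγu ?_ ?_
  · rw [← map_pow, h1]
  · have : γ (nthRoot n u) - 1 = γ (nthRoot n u - 1) := by rw [map_sub, map_one]
    rw [this, norm_gq]
    exact h2

/-- **Openness of `n`-th powers** in the semi-local units: a semi-local unit all of whose values are
close to `1` is the `n`-th power of an integral semi-local unit. -/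
theorem exists_pow_eq_of_near_one {K : Type} [Field K] {n : ℕ} (hn : n ≠ 0)
    (f : semiLocalUnits q K)
    (hf : ∀ τ : LocalEmb q K, ‖((f : LocalEmb q K → (PadicAlgCl q)ˣ) τ : PadicAlgCl q) - 1‖ <
      ‖(n : PadicAlgCl q)‖ ^ n) :
    ∃ g : semiLocalUnits q K, g ^ n = f ∧ g ∈ semiLocalIntegral q K := by
  have hroot : ∀ τ : LocalEmb q K,
      nthRoot n ((f : LocalEmb q K → (PadicAlgCl q)ˣ) τ : PadicAlgCl q) ≠ 0 := by
    intro τ h0
    have h1 := (nthRoot_spec hn (hf τ)).1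
    rw [h0, zero_pow hn] at h1
    exact (Units.ne_zero _) h1.symm
  refine ⟨⟨fun τ => Units.mk0 _ (hroot τ), ?_⟩, ?_, ?_⟩
  · intro γ τ
    ext
    simp only [Units.val_mk0, gqUnitsHom_coe]
    rw [nthRoot_gq hn (hf τ) γ]
    congr 1
    exact semiLocalUnits_apply_smul f γ τ
  · apply Subtype.ext
    funext τ
    ext
    simp only [Subgroup.coe_pow, Pi.pow_apply, Units.val_pow_eq_pow_val, Units.val_mk0]
    exact (nthRoot_spec hn (hf τ)).1
  · intro τ
    simp only [Units.val_mk0]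
    exact norm_eq_one_of_sub_one_lt
      ((nthRoot_spec hn (hf τ)).2.trans_le (norm_natCast_le_one n))

end PadicRoot

end Fermat.Agent.CFT
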