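import Fermat.Agent.CFT.Global.SemiLocalGalois
import Fermat.Agent.CFT.CoindDecomp

/-!
# Layer C / C1a: local structure of the semi-local units (part 3: Shapiro–Mackey)

`L/K` normal, `H = Gal(L/K)`.  For every place `ω` of `K` above `q` we fix the embedding
`ω.emb : LocalEmb q K` and a lift `placeLift K ω : LocalEmb q L`.

* `semiLocalOfLocalData`: descent — a semi-local unit of `L` is the same as a compatible family
  `v ω h = f ((placeLift ω) ∘ h)`;
* `localUnitsRep K τ'`: `L_τ'ˣ` as a module over the decomposition group `decompAt K τ'`;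
* `semiLocalTheta K τ' : semiLocalRep H L q ⟶ coind_{decompAt τ'}^H (localUnitsRep K τ')`,
  `f ↦ (h ↦ f (τ' ∘ h))`; the family over the places of `K` is jointly bijective
  (`semiLocalTheta_bijective`): `A_q(L) = ∏_{v ∣ q} Coind_{H_w}^H L_wˣ`;
* `semiLocalLoc K τ'`: the localisation `res_{H_w} A_q(L) ⟶ L_wˣ`, `f ↦ f τ'`;
  `bijective_semiLocalLoc₁/₂`: `Hⁿ(H, A_q L) ≅ ∏_{v ∣ q} Hⁿ(H_w, L_wˣ)` for `n = 1, 2`.
-/

set_option autoImplicit false
set_option linter.unusedSectionVars false
set_option linter.style.haveILetI false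

open scoped Pointwise

noncomputable section

namespace Fermat.Agent.CFT

open Fermat.Agent.CFT.GaloisTower CategoryTheory

variable {q : ℕ} [Fact q.Prime] (K : Type) [Field K] {L : Type} [Field L] [Algebra K L]
  [Normal K L]

local notation "Ω" => PadicAlgCl q

theorem localEmb_smul_comp (γ : Gq q) (τ' : LocalEmb q L) (h : L ≃ₐ[K] L) :
    (γ • τ').comp (h : L →+* L) = γ • (τ'.comp (h : L →+* L)) := rfl

theorem localEmb_comp_mul (τ' : LocalEmb q L) (s h : L ≃ₐ[K] L) :
    τ'.comp ((s * h : L ≃ₐ[K] L) : L →+* L) = (τ'.comp (s : L →+* L)).comp (h : L →+* L) := rfl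

/-- Cancel an automorphism on the right. -/
theorem localEmb_eq_comp_of_comp_eq {τ' τ'' : LocalEmb q L} {h h' : L ≃ₐ[K] L}
    (e : τ''.comp (h : L →+* L) = τ'.comp (h' : L →+* L)) :
    τ'' = τ'.comp ((h' * h⁻¹ : L ≃ₐ[K] L) : L →+* L) := by
  ext x
  have := congrArg (fun ρ : LocalEmb q L => ρ (h⁻¹ x)) e
  simp only [RingHom.comp_apply] at this
  have hx : (h : L →+* L) (h⁻¹ x) = x := by
    show h (h⁻¹ x) = x
    exact AlgEquiv.apply_symm_apply h x
  rw [hx] at this
  rw [this]
  rfl

/-! ### Lifts of the places of `K` -/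

/-- A chosen embedding of `L` above the chosen embedding of the place `ω` of `K`. -/
def placeLift (ω : LocalPlace q K) : LocalEmb q L :=
  haveI : Algebra.IsAlgebraic K L := Normal.toIsAlgebraic
  Function.surjInv (localEmbRestrict_surjective (q := q) K (L := L)) ω.emb

theorem localEmbRestrict_placeLift (ω : LocalPlace q K) :
    localEmbRestrict K (placeLift K ω : LocalEmb q L) = ω.emb := by
  haveI : Algebra.IsAlgebraic K L := Normal.toIsAlgebraic
  exact Function.surjInv_eq (localEmbRestrict_surjective (q := q) K (L := L)) ω.emb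

/-- Every embedding of `L` is `γ • (placeLift ω ∘ h)`. -/
theorem exists_eq_smul_placeLift_comp (τ'' : LocalEmb q L) :
    ∃ h : L ≃ₐ[K] L, τ'' = (localEmbRestrict K τ'').toRep •
      ((placeLift K (localEmbRestrict K τ'').place : LocalEmb q L).comp (h : L →+* L)) := by
  set τ := localEmbRestrict K τ'' with hτ
  have h1 : localEmbRestrict K (placeLift K τ.place : LocalEmb q L) =
      localEmbRestrict K (τ.toRep⁻¹ • τ'') := by
    rw [localEmbRestrict_placeLift, localEmbRestrict_smul, ← hτ]
    exact (inv_smul_eq_iff.2 τ.toRep_smul.symm).symm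
  obtain ⟨h, hh, -⟩ := exists_unique_algEquiv_comp K h1
  refine ⟨h, ?_⟩
  rw [← hh, smul_inv_smul]

/-- The automorphism `h` with `τ'' = γ • (placeLift ω ∘ h)`. -/
def LocalEmb.toAut (τ'' : LocalEmb q L) : L ≃ₐ[K] L :=
  (exists_eq_smul_placeLift_comp K τ'').choose

theorem LocalEmb.eq_smul_placeLift_comp (τ'' : LocalEmb q L) :
    τ'' = (localEmbRestrict K τ'').toRep •
      ((placeLift K (localEmbRestrict K τ'').place : LocalEmb q L).comp
        (LocalEmb.toAut K τ'' : L →+* L)) :=
  (exists_eq_smul_placeLift_comp K τ'').choose_spec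

/-! ### Descent data -/

/-- Compatibility of a family `v ω h` (to be the values `f (placeLift ω ∘ h)` of a semi-local
unit). -/
def IsLocalData (v : LocalPlace q K → (L ≃ₐ[K] L) → Ωˣ) : Prop :=
  ∀ (ω : LocalPlace q K) (δ : Gq q) (s h : L ≃ₐ[K] L),
    δ • (placeLift K ω : LocalEmb q L) = (placeLift K ω : LocalEmb q L).comp (s : L →+* L) →
      v ω (s * h) = gqUnitsHom δ (v ω h)

variable {K}

theorem IsLocalData.eq_of_smul_eq {v : LocalPlace q K → (L ≃ₐ[K] L) → Ωˣ} (hv : IsLocalData K v)
    (ω : LocalPlace q K) {γ γ' : Gq q} {h h' : L ≃ₐ[K] L}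
    (e : γ • ((placeLift K ω : LocalEmb q L).comp (h : L →+* L)) =
      γ' • ((placeLift K ω : LocalEmb q L).comp (h' : L →+* L))) :
    gqUnitsHom γ (v ω h) = gqUnitsHom γ' (v ω h') := by
  have e1 : ((γ'⁻¹ * γ) • (placeLift K ω : LocalEmb q L)).comp (h : L →+* L) =
      (placeLift K ω : LocalEmb q L).comp (h' : L →+* L) := by
    rw [localEmb_smul_comp, mul_smul, e, inv_smul_smul]
  have e2 := localEmb_eq_comp_of_comp_eq K e1
  have e3 := hv ω (γ'⁻¹ * γ) (h' * h⁻¹) h e2
  rw [inv_mul_cancel_right] at e3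
  rw [e3]
  apply Units.ext
  show γ _ = γ' ((γ'⁻¹ * γ) _)
  rw [AlgEquiv.mul_apply]
  exact (AlgEquiv.apply_symm_apply γ' _).symm

theorem IsLocalData.eq_of_smul_eq' {v : LocalPlace q K → (L ≃ₐ[K] L) → Ωˣ}
    (hv : IsLocalData K v) {ω ω' : LocalPlace q K} (hω : ω' = ω) {γ γ' : Gq q}
    {h h' : L ≃ₐ[K] L}
    (e : γ • ((placeLift K ω' : LocalEmb q L).comp (h : L →+* L)) =
      γ' • ((placeLift K ω : LocalEmb q L).comp (h' : L →+* L))) :
    gqUnitsHom γ (v ω' h) = gqUnitsHom γ' (v ω h') := by
  subst hω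
  exact hv.eq_of_smul_eq ω' e

/-- The semi-local unit with prescribed local data. -/
def semiLocalOfLocalData (v : LocalPlace q K → (L ≃ₐ[K] L) → Ωˣ) (hv : IsLocalData K v) :
    semiLocalUnits q L :=
  ⟨fun τ'' => gqUnitsHom (localEmbRestrict K τ'').toRep
      (v (localEmbRestrict K τ'').place (LocalEmb.toAut K τ'')), by
    intro δ τ''
    have hplace : (localEmbRestrict K (δ • τ'')).place = (localEmbRestrict K τ'').place := by
      rw [localEmbRestrict_smul]
      exact LocalEmb.place_smul δ _
    have e : (localEmbRestrict K (δ • τ'')).toRep •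
        ((placeLift K (localEmbRestrict K (δ • τ'')).place : LocalEmb q L).comp
          (LocalEmb.toAut K (δ • τ'') : L →+* L)) =
        (δ * (localEmbRestrict K τ'').toRep) •
          ((placeLift K (localEmbRestrict K τ'').place : LocalEmb q L).comp
            (LocalEmb.toAut K τ'' : L →+* L)) := by
      rw [← LocalEmb.eq_smul_placeLift_comp, mul_smul, ← LocalEmb.eq_smul_placeLift_comp]
    show gqUnitsHom (localEmbRestrict K (δ • τ'')).toRep
        (v (localEmbRestrict K (δ • τ'')).place (LocalEmb.toAut K (δ • τ''))) =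
      gqUnitsHom δ (gqUnitsHom (localEmbRestrict K τ'').toRep
        (v (localEmbRestrict K τ'').place (LocalEmb.toAut K τ'')))
    rw [hv.eq_of_smul_eq' hplace e]
    apply Units.ext
    rfl⟩

theorem semiLocalOfLocalData_apply_comp (v : LocalPlace q K → (L ≃ₐ[K] L) → Ωˣ)
    (hv : IsLocalData K v) (ω : LocalPlace q K) (h : L ≃ₐ[K] L) :
    ((semiLocalOfLocalData v hv : semiLocalUnits q L) : LocalEmb q L → Ωˣ)
      ((placeLift K ω : LocalEmb q L).comp (h : L →+* L)) = v ω h := by
  set τ'' : LocalEmb q L := (placeLift K ω : LocalEmb q L).comp (h : L →+* L) with hτ''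
  have hres : localEmbRestrict K τ'' = ω.emb := by
    rw [hτ'', localEmbRestrict_comp_algEquiv, localEmbRestrict_placeLift]
  have hplace : (localEmbRestrict K τ'').place = ω := by
    rw [hres]; exact ω.place_emb
  have e : (localEmbRestrict K τ'').toRep •
      ((placeLift K (localEmbRestrict K τ'').place : LocalEmb q L).comp
        (LocalEmb.toAut K τ'' : L →+* L)) =
      (1 : Gq q) • ((placeLift K ω : LocalEmb q L).comp (h : L →+* L)) := by
    rw [← LocalEmb.eq_smul_placeLift_comp, one_smul]
  show gqUnitsHom (localEmbRestrict K τ'').toRep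
      (v (localEmbRestrict K τ'').place (LocalEmb.toAut K τ'')) = v ω h
  rw [hv.eq_of_smul_eq' hplace e]
  apply Units.ext
  rfl

/-- A semi-local unit is determined by its values at the `placeLift ω ∘ h`. -/
theorem semiLocalUnits_ext_placeLift {f g : semiLocalUnits q L}
    (hfg : ∀ (ω : LocalPlace q K) (h : L ≃ₐ[K] L),
      (f : LocalEmb q L → Ωˣ) ((placeLift K ω : LocalEmb q L).comp (h : L →+* L)) =
        (g : LocalEmb q L → Ωˣ) ((placeLift K ω : LocalEmb q L).comp (h : L →+* L))) :
    f = g := by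
  apply Subtype.ext
  funext τ''
  rw [LocalEmb.eq_smul_placeLift_comp K τ'', f.2, g.2, hfg]

/-! ### The local units as a module over the decomposition group -/

variable (K)

/-- `L_τ'ˣ` as a representation of the decomposition group `decompAt K τ' ≤ Gal(L/K)`
(through `decompEquiv`). -/
def localUnitsRep (τ' : LocalEmb q L) : Rep ℤ (decompAt K τ') :=
  Rep.res (decompEquiv K τ').symm.toMonoidHom
    (Rep.ofAlgebraAutOnUnits (localFieldAt (localEmbRestrict K τ')) (localLayer K τ'))

/-- The underlying unit of `ℚ̄_q` of an element of `localUnitsRep`. -/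
def localUnitsRep.val (τ' : LocalEmb q L) (u : localUnitsRep K τ') : Ωˣ :=
  Units.map (algebraMap (localLayer K τ') Ω : localLayer K τ' →* Ω)
    (Additive.toMul (u : Additive (localLayer K τ')ˣ))

theorem localUnitsRep.val_injective (τ' : LocalEmb q L) :
    Function.Injective (localUnitsRep.val K τ') := by
  intro u u' h
  have h1 : (Additive.toMul (u : Additive (localLayer K τ')ˣ)) =
      (Additive.toMul (u' : Additive (localLayer K τ')ˣ)) := by
    apply Units.ext
    apply Subtype.ext
    exact congrArg (fun w : Ωˣ => (w : Ω)) h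
  exact h1

theorem localUnitsRep.val_add (τ' : LocalEmb q L) (u u' : localUnitsRep K τ') :
    localUnitsRep.val K τ' (u + u') = localUnitsRep.val K τ' u * localUnitsRep.val K τ' u' :=
  map_mul _ _ _

theorem localUnitsRep.val_mem (τ' : LocalEmb q L) (u : localUnitsRep K τ') :
    (localUnitsRep.val K τ' u : Ω) ∈ localFieldAt τ' :=
  ((Additive.toMul (u : Additive (localLayer K τ')ˣ) : (localLayer K τ')ˣ) : localLayer K τ').2

/-- The action of `s = decompHom γ` on `L_τ'ˣ` is the action of `γ`. -/
theorem localUnitsRep.val_ρ (τ' : LocalEmb q L) (γ : localGalAt K τ') (s : decompAt K τ')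
    (hs : (s : L ≃ₐ[K] L) = decompHom K τ' γ) (u : localUnitsRep K τ') :
    localUnitsRep.val K τ' ((localUnitsRep K τ').ρ s u) =
      gqUnitsHom (γ : Gq q) (localUnitsRep.val K τ' u) := by
  have hs' : s = ⟨decompHom K τ' γ, γ, rfl⟩ := Subtype.ext hs
  subst hs'
  apply Units.ext
  exact decompEquiv_symm_apply_eq K τ' γ _

/-- The element of `L_τ'ˣ` with a given underlying unit of `ℚ̄_q`. -/
def localUnitsRep.mk (τ' : LocalEmb q L) (w : Ωˣ) (hw : (w : Ω) ∈ localFieldAt τ') :
    localUnitsRep K τ' :=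
  Additive.ofMul (Units.mk0 (⟨(w : Ω), hw⟩ : localLayer K τ')
    (fun h0 => w.ne_zero (congrArg Subtype.val h0)))

@[simp]
theorem localUnitsRep.val_mk (τ' : LocalEmb q L) (w : Ωˣ) (hw : (w : Ω) ∈ localFieldAt τ') :
    localUnitsRep.val K τ' (localUnitsRep.mk K τ' w hw) = w := by
  apply Units.ext
  rfl

theorem semiLocalUnits_apply_comp_mem (τ' : LocalEmb q L) (f : semiLocalUnits q L)
    (h : L ≃ₐ[K] L) :
    ((f : LocalEmb q L → Ωˣ) (τ'.comp (h : L →+* L)) : Ω) ∈ localFieldAt τ' := by
  rw [← localFieldAt_comp_algEquiv K τ' h]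
  exact semiLocalUnits_apply_mem f _

/-- `f ↦ (h ↦ f (τ' ∘ h))`, as a function into the coinduced module. -/
def semiLocalThetaFun (τ' : LocalEmb q L) (f : semiLocalUnits q L) :
    Rep.coind (decompAt K τ').subtype (localUnitsRep K τ') :=
  ⟨fun h => localUnitsRep.mk K τ' ((f : LocalEmb q L → Ωˣ) (τ'.comp (h : L →+* L)))
      (semiLocalUnits_apply_comp_mem K τ' f h), by
    intro s h
    obtain ⟨γ, hγ⟩ := s.2
    apply localUnitsRep.val_injective
    rw [localUnitsRep.val_ρ K τ' γ s hγ.symm, localUnitsRep.val_mk, localUnitsRep.val_mk]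
    have e : τ'.comp (((decompAt K τ').subtype s * h : L ≃ₐ[K] L) : L →+* L) =
        (γ : Gq q) • τ'.comp (h : L →+* L) := by
      rw [localEmb_comp_mul, ← localEmb_smul_comp]
      congr 1
      rw [Subgroup.coe_subtype, ← hγ]
      exact (smul_eq_comp_decompFun K τ' γ).symm
    rw [e]
    exact f.2 _ _⟩

theorem semiLocalThetaFun_val (τ' : LocalEmb q L) (f : semiLocalUnits q L) (h : L ≃ₐ[K] L) :
    localUnitsRep.val K τ' ((semiLocalThetaFun K τ' f).1 h) =
      (f : LocalEmb q L → Ωˣ) (τ'.comp (h : L →+* L)) :=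
  localUnitsRep.val_mk K τ' _ _

/-- `f ↦ (h ↦ f (τ' ∘ h))` as an additive map. -/
def semiLocalThetaAdd (τ' : LocalEmb q L) :
    Additive (semiLocalUnits q L) →+
      Rep.coind (decompAt K τ').subtype (localUnitsRep K τ') where
  toFun f := semiLocalThetaFun K τ' (Additive.toMul f)
  map_zero' := by
    apply Subtype.ext
    funext h
    apply localUnitsRep.val_injective
    show localUnitsRep.val K τ' ((semiLocalThetaFun K τ' 1).1 h) = localUnitsRep.val K τ' 0
    rw [semiLocalThetaFun_val]
    rfl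
  map_add' f g := by
    apply Subtype.ext
    funext h
    apply localUnitsRep.val_injective
    show localUnitsRep.val K τ'
        ((semiLocalThetaFun K τ' (Additive.toMul f * Additive.toMul g)).1 h) =
      localUnitsRep.val K τ' ((semiLocalThetaFun K τ' (Additive.toMul f)).1 h +
        (semiLocalThetaFun K τ' (Additive.toMul g)).1 h)
    rw [localUnitsRep.val_add, semiLocalThetaFun_val, semiLocalThetaFun_val,
      semiLocalThetaFun_val]
    rfl

/-- `A_q(L) ⟶ Coind_{H_w}^H L_wˣ`, `f ↦ (h ↦ f (τ' ∘ h))`. -/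
def semiLocalTheta (τ' : LocalEmb q L) :
    semiLocalRep L (L ≃ₐ[K] L) q ⟶ Rep.coind (decompAt K τ').subtype (localUnitsRep K τ') :=
  Rep.ofHom ⟨(semiLocalThetaAdd K τ').toIntLinearMap, fun σ => by
    ext f h
    apply localUnitsRep.val_injective
    show localUnitsRep.val K τ'
        ((semiLocalThetaFun K τ' (σ • Additive.toMul f)).1 h) =
      localUnitsRep.val K τ' ((semiLocalThetaFun K τ' (Additive.toMul f)).1 (h * σ))
    rw [semiLocalThetaFun_val, semiLocalThetaFun_val]
    rfl⟩

theorem semiLocalTheta_hom_apply (τ' : LocalEmb q L) (f : Additive (semiLocalUnits q L)) :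
    (semiLocalTheta K τ').hom f = semiLocalThetaFun K τ' (Additive.toMul f) := rfl

/-! ### `A_q(L) = ∏_{v ∣ q} Coind_{H_w}^H L_wˣ` -/

/-- The local data attached to a family of elements of the coinduced modules. -/
theorem isLocalData_of_coind
    (F : ∀ ω : LocalPlace q K, Rep.coind (decompAt K (placeLift K ω : LocalEmb q L)).subtype
      (localUnitsRep K (placeLift K ω))) :
    IsLocalData K fun ω h => localUnitsRep.val K (placeLift K ω) ((F ω).1 h) := by
  intro ω δ s h hδ
  have hs : s ∈ decompAt K (placeLift K ω : LocalEmb q L) :=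
    (mem_decompAt_iff K _ s).2 ⟨δ, hδ⟩
  have hδ' : δ ∈ localGalAt K (placeLift K ω : LocalEmb q L) := by
    rw [mem_fixingSubgroup_localFieldAt_iff, ← localEmbRestrict_smul, hδ,
      localEmbRestrict_comp_algEquiv]
  have h1 := (F ω).2 ⟨s, hs⟩ h
  have h2 : (s : L ≃ₐ[K] L) = decompHom K (placeLift K ω) ⟨δ, hδ'⟩ :=
    ((decompHom_eq_iff K _ ⟨δ, hδ'⟩ s).2 hδ).symm
  show localUnitsRep.val K (placeLift K ω) ((F ω).1 (s * h)) = _
  have h3 : (F ω).1 (s * h) = (localUnitsRep K (placeLift K ω)).ρ ⟨s, hs⟩ ((F ω).1 h) := h1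
  rw [h3, localUnitsRep.val_ρ K (placeLift K ω) ⟨δ, hδ'⟩ ⟨s, hs⟩ h2]

/-- **The semi-local units of `L` are the product over the places `v ∣ q` of `K` of the modules
coinduced from the local units `L_wˣ`**, `w ∣ v` the chosen place. -/
theorem semiLocalTheta_bijective :
    Function.Bijective fun (a : semiLocalRep L (L ≃ₐ[K] L) q) (ω : LocalPlace q K) =>
      (semiLocalTheta K (placeLift K ω)).hom a := by
  constructor
  · intro a b hab
    have h1 : ∀ (ω : LocalPlace q K) (h : L ≃ₐ[K] L),
        ((Additive.toMul a : semiLocalUnits q L) : LocalEmb q L → Ωˣ)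
            ((placeLift K ω : LocalEmb q L).comp (h : L →+* L)) =
          ((Additive.toMul b : semiLocalUnits q L) : LocalEmb q L → Ωˣ)
            ((placeLift K ω : LocalEmb q L).comp (h : L →+* L)) := by
      intro ω h
      have h2 := congrFun hab ω
      have h3 : semiLocalThetaFun K (placeLift K ω) (Additive.toMul a) =
          semiLocalThetaFun K (placeLift K ω) (Additive.toMul b) := h2
      rw [← semiLocalThetaFun_val K (placeLift K ω), ← semiLocalThetaFun_val K (placeLift K ω), h3]
    exact Additive.toMul.injective (semiLocalUnits_ext_placeLift h1)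
  · intro F
    have hv := isLocalData_of_coind K F
    refine ⟨Additive.ofMul (semiLocalOfLocalData _ hv), ?_⟩
    funext ω
    apply Subtype.ext
    funext h
    apply localUnitsRep.val_injective
    show localUnitsRep.val K (placeLift K ω)
      ((semiLocalThetaFun K (placeLift K ω) (semiLocalOfLocalData _ hv)).1 h) = _
    rw [semiLocalThetaFun_val, semiLocalOfLocalData_apply_comp]

/-! ### Localisation and cohomology -/

/-- The localisation at `τ'`: `res_{H_w} A_q(L) ⟶ L_wˣ`, `f ↦ f τ'`. -/
abbrev semiLocalLoc (τ' : LocalEmb q L) :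
    Rep.res (decompAt K τ').subtype (semiLocalRep L (L ≃ₐ[K] L) q) ⟶ localUnitsRep K τ' :=
  (Rep.resFunctor (decompAt K τ').subtype).map (semiLocalTheta K τ') ≫
    Cup.ev₁ (decompAt K τ') (localUnitsRep K τ')

theorem semiLocalLoc_val (τ' : LocalEmb q L) (f : Additive (semiLocalUnits q L)) :
    localUnitsRep.val K τ' ((semiLocalLoc K τ').hom f) =
      ((Additive.toMul f : semiLocalUnits q L) : LocalEmb q L → Ωˣ) τ' := by
  show localUnitsRep.val K τ' ((semiLocalThetaFun K τ' (Additive.toMul f)).1 1) = _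
  rw [semiLocalThetaFun_val]
  rfl

/-- **Shapiro–Mackey in degree `1`**: `H¹(H, A_q L) ≅ ∏_{v ∣ q} H¹(H_w, L_wˣ)`. -/
theorem bijective_semiLocalLoc₁ [Finite (LocalPlace q K)] :
    Function.Bijective fun (x : groupCohomology (semiLocalRep L (L ≃ₐ[K] L) q) 1)
        (ω : LocalPlace q K) =>
      groupCohomology.map (decompAt K (placeLift K ω : LocalEmb q L)).subtype
        (semiLocalLoc K (placeLift K ω)) 1 x := by
  classical
  letI : Fintype (LocalPlace q K) := Fintype.ofFinite _
  exact CoindDecomp.bijective_pi_map_locHom₁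
    (fun ω : LocalPlace q K => decompAt K (placeLift K ω : LocalEmb q L))
    (fun ω => localUnitsRep K (placeLift K ω)) (fun ω => semiLocalTheta K (placeLift K ω))
    (semiLocalTheta_bijective K)

/-- **Shapiro–Mackey in degree `2`**: `H²(H, A_q L) ≅ ∏_{v ∣ q} H²(H_w, L_wˣ)`. -/
theorem bijective_semiLocalLoc₂ [Finite (LocalPlace q K)] :
    Function.Bijective fun (x : groupCohomology (semiLocalRep L (L ≃ₐ[K] L) q) 2)
        (ω : LocalPlace q K) =>
      groupCohomology.map (decompAt K (placeLift K ω : LocalEmb q L)).subtype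
        (semiLocalLoc K (placeLift K ω)) 2 x := by
  classical
  letI : Fintype (LocalPlace q K) := Fintype.ofFinite _
  exact CoindDecomp.bijective_pi_map_locHom₂
    (fun ω : LocalPlace q K => decompAt K (placeLift K ω : LocalEmb q L))
    (fun ω => localUnitsRep K (placeLift K ω)) (fun ω => semiLocalTheta K (placeLift K ω))
    (semiLocalTheta_bijective K)

instance finite_localPlace [NumberField K] : Finite (LocalPlace q K) :=
  Quotient.finite _

end Fermat.Agent.CFT

end
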