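import Mathlib
import Fermat.Agent.CFT.Global.SemiLocalCoh
import Fermat.Agent.CFT.Global.PadicRoot

/-!
# CFT (C3K' / C1a): semi-local norms from local norms

`L/K` a finite Galois extension of fields (number fields in the application), `H = Gal(L/K)`,
`q` a prime.  The norm of `z ∈ semiLocalUnits q L` is `∏ σ : H, σ • z`, an element of the image of
`semiLocalMap (algebraMap K L)`.

* `orbitUnit τ₀ s hs` : the semi-local unit supported on the `Gq`-orbit of the embedding `τ₀`, with
  value `γ s` at `γ • τ₀` (`s ∈ (localFieldAt τ₀)ˣ`);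
* `placeSupp ω x` : the part of a semi-local unit `x` supported on the place `ω`;
  `prod_placeSupp : ∏ ω, placeSupp ω x = x`;
* `prod_smul_orbitUnit` : the norm of `orbitUnit τ' s` is the semi-local unit of `K` supported on
  the place below, with value `N_{L_τ'/K_τ}(s)` there;
* `exists_prod_smul_eq_of_local_norm` (**norm criterion, `⇐`**): if for every `τ'` the value
  `x (τ'|_K)` is a norm from `L_τ'`, then `x` is a norm from `semiLocalUnits q L`; the preimage can
  be taken integral if the local preimages have norm one.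
-/

set_option autoImplicit false
set_option linter.unusedSectionVars false
set_option linter.style.haveILetI false

open scoped Pointwise

noncomputable section

namespace Fermat.Agent.CFT

open Fermat.Agent.CFT.GaloisTower

variable {q : ℕ} [Fact q.Prime]

local notation "Ω" => PadicAlgCl q

section OrbitUnit

variable {F : Type} [Field F]

open Classical in
/-- The function underlying `orbitUnit`. -/
def orbitFun (τ₀ : LocalEmb q F) (s : Ωˣ) (τ : LocalEmb q F) : Ωˣ :=
  if h : ∃ γ : Gq q, γ • τ₀ = τ then gqUnitsHom h.choose s else 1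

theorem orbitFun_smul (τ₀ : LocalEmb q F) (s : Ωˣ) (hs : (s : Ω) ∈ localFieldAt τ₀) (γ : Gq q) :
    orbitFun τ₀ s (γ • τ₀) = gqUnitsHom γ s := by
  have h : ∃ γ' : Gq q, γ' • τ₀ = γ • τ₀ := ⟨γ, rfl⟩
  unfold orbitFun
  rw [dif_pos h]
  apply Units.ext
  exact apply_eq_of_smul_eq h.choose_spec hs

theorem orbitFun_of_not (τ₀ : LocalEmb q F) (s : Ωˣ) {τ : LocalEmb q F}
    (h : ¬ ∃ γ : Gq q, γ • τ₀ = τ) : orbitFun τ₀ s τ = 1 := by
  unfold orbitFun
  rw [dif_neg h]

/-- The semi-local unit supported on the orbit of `τ₀`, with value `γ s` at `γ • τ₀`. -/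
def orbitUnit (τ₀ : LocalEmb q F) (s : Ωˣ) (hs : (s : Ω) ∈ localFieldAt τ₀) :
    semiLocalUnits q F :=
  ⟨orbitFun τ₀ s, by
    intro δ τ
    by_cases h : ∃ γ : Gq q, γ • τ₀ = τ
    · obtain ⟨γ, rfl⟩ := h
      rw [← mul_smul, orbitFun_smul τ₀ s hs, orbitFun_smul τ₀ s hs]
      apply Units.ext
      rfl
    · have h' : ¬ ∃ γ : Gq q, γ • τ₀ = δ • τ := by
        rintro ⟨γ, hγ⟩
        exact h ⟨δ⁻¹ * γ, by rw [mul_smul, hγ, inv_smul_smul]⟩
      rw [orbitFun_of_not τ₀ s h, orbitFun_of_not τ₀ s h', map_one]⟩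

theorem orbitUnit_apply_smul (τ₀ : LocalEmb q F) (s : Ωˣ) (hs : (s : Ω) ∈ localFieldAt τ₀)
    (γ : Gq q) :
    ((orbitUnit τ₀ s hs : semiLocalUnits q F) : LocalEmb q F → Ωˣ) (γ • τ₀) = gqUnitsHom γ s :=
  orbitFun_smul τ₀ s hs γ

theorem orbitUnit_apply_self (τ₀ : LocalEmb q F) (s : Ωˣ) (hs : (s : Ω) ∈ localFieldAt τ₀) :
    ((orbitUnit τ₀ s hs : semiLocalUnits q F) : LocalEmb q F → Ωˣ) τ₀ = s := by
  have := orbitUnit_apply_smul τ₀ s hs 1
  rw [one_smul] at this
  rw [this]
  apply Units.ext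
  rfl

theorem orbitUnit_apply_of_not (τ₀ : LocalEmb q F) (s : Ωˣ) (hs : (s : Ω) ∈ localFieldAt τ₀)
    {τ : LocalEmb q F} (h : ¬ ∃ γ : Gq q, γ • τ₀ = τ) :
    ((orbitUnit τ₀ s hs : semiLocalUnits q F) : LocalEmb q F → Ωˣ) τ = 1 :=
  orbitFun_of_not τ₀ s h

theorem orbitUnit_mem_integral (τ₀ : LocalEmb q F) (s : Ωˣ) (hs : (s : Ω) ∈ localFieldAt τ₀)
    (h1 : ‖(s : Ω)‖ = 1) : orbitUnit τ₀ s hs ∈ semiLocalIntegral q F := by
  intro τ
  by_cases h : ∃ γ : Gq q, γ • τ₀ = τ
  · obtain ⟨γ, rfl⟩ := h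
    rw [orbitUnit_apply_smul]
    show ‖γ (s : Ω)‖ = 1
    rw [PadicRoot.norm_gq, h1]
  · rw [orbitUnit_apply_of_not τ₀ s hs h]
    simp

/-- Two semi-local units agreeing at one embedding agree on its orbit. -/
theorem semiLocalUnits_eq_on_orbit {x y : semiLocalUnits q F} {τ : LocalEmb q F}
    (h : (x : LocalEmb q F → Ωˣ) τ = (y : LocalEmb q F → Ωˣ) τ) (γ : Gq q) :
    (x : LocalEmb q F → Ωˣ) (γ • τ) = (y : LocalEmb q F → Ωˣ) (γ • τ) := by
  rw [x.2 γ τ, y.2 γ τ, h]

end OrbitUnit

section Norm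

variable (K : Type) [Field K] {L : Type} [Field L] [Algebra K L] [Normal K L]
  [FiniteDimensional K L]

/-- `τ' ∘ σ` lies in the `Gq`-orbit of `τ'` iff `σ` is in the decomposition group. -/
theorem exists_smul_eq_comp_iff (τ' : LocalEmb q L) (σ : L ≃ₐ[K] L) :
    (∃ γ : Gq q, γ • τ' = τ'.comp (σ : L →+* L)) ↔ σ ∈ decompAt K τ' :=
  (mem_decompAt_iff K τ' σ).symm

/-- **Core computation**: the product of the values of `orbitUnit τ' s` over the fibre of `τ'` is
the local norm of `s`. -/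
theorem prod_orbitUnit_comp_eq_norm (τ' : LocalEmb q L)
    [FiniteDimensional (localFieldAt (localEmbRestrict K τ')) (localLayer K τ')]
    (s : Ωˣ) (hs : (s : Ω) ∈ localFieldAt τ') :
    ((∏ σ : L ≃ₐ[K] L, ((orbitUnit τ' s hs : semiLocalUnits q L) : LocalEmb q L → Ωˣ)
        (τ'.comp (σ : L →+* L)) : Ωˣ) : Ω) =
      ((Algebra.norm (localFieldAt (localEmbRestrict K τ'))
        (⟨(s : Ω), hs⟩ : localLayer K τ') : localFieldAt (localEmbRestrict K τ')) : Ω) := by
  classical
  haveI := isGalois_localLayer K τ'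
  set f : (L ≃ₐ[K] L) → Ωˣ := fun σ =>
    ((orbitUnit τ' s hs : semiLocalUnits q L) : LocalEmb q L → Ωˣ) (τ'.comp (σ : L →+* L)) with hf
  -- restrict the product to the decomposition group
  have h1 : ∏ σ : L ≃ₐ[K] L, f σ = ∏ d : decompAt K τ', f (d : L ≃ₐ[K] L) := by
    rw [← Finset.prod_subtype (Finset.univ.filter (· ∈ decompAt K τ')) (by simp) f]
    symm
    apply Finset.prod_subset (Finset.filter_subset _ _)
    intro σ _ hσ
    have hσ' : σ ∉ decompAt K τ' := by simpa using hσ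
    apply orbitUnit_apply_of_not
    rwa [exists_smul_eq_comp_iff]
  -- reindex by the local Galois group
  have h2 : ∏ d : decompAt K τ', f (d : L ≃ₐ[K] L) =
      ∏ g : (localLayer K τ') ≃ₐ[localFieldAt (localEmbRestrict K τ')] (localLayer K τ'),
        f ((decompEquiv K τ' g : decompAt K τ') : L ≃ₐ[K] L) :=
    (Fintype.prod_equiv (decompEquiv K τ').toEquiv _ _ (fun _ => rfl)).symm
  -- the values
  have h3 : ∀ g : (localLayer K τ') ≃ₐ[localFieldAt (localEmbRestrict K τ')] (localLayer K τ'),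
      ((f ((decompEquiv K τ' g : decompAt K τ') : L ≃ₐ[K] L) : Ωˣ) : Ω) =
        ((g (⟨(s : Ω), hs⟩ : localLayer K τ') : localLayer K τ') : Ω) := by
    intro g
    obtain ⟨γ, rfl⟩ := layerRes_surjective (localFieldAt_restrict_le K τ') g
    rw [decompEquiv_layerRes, layerRes_apply, hf]
    show ((((orbitUnit τ' s hs : semiLocalUnits q L) : LocalEmb q L → Ωˣ)
      (τ'.comp (decompHom K τ' γ : L →+* L)) : Ωˣ) : Ω) = (γ : Gq q) (s : Ω)
    rw [decompHom_apply, ← smul_eq_comp_decompFun, orbitUnit_apply_smul]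
    rfl
  show ((∏ σ : L ≃ₐ[K] L, f σ : Ωˣ) : Ω) = _
  rw [h1, h2, Units.coe_prod, Finset.prod_congr rfl (fun g _ => h3 g)]
  have h4 := Algebra.norm_eq_prod_automorphisms (localFieldAt (localEmbRestrict K τ'))
    (⟨(s : Ω), hs⟩ : localLayer K τ')
  have h5 : ((Algebra.norm (localFieldAt (localEmbRestrict K τ'))
        (⟨(s : Ω), hs⟩ : localLayer K τ') : localFieldAt (localEmbRestrict K τ')) : Ω) =
      ((∏ g : (localLayer K τ') ≃ₐ[localFieldAt (localEmbRestrict K τ')] (localLayer K τ'),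
        g (⟨(s : Ω), hs⟩ : localLayer K τ') : localLayer K τ') : Ω) :=
    congrArg (fun y : localLayer K τ' => (y : Ω)) h4
  rw [h5]
  exact (map_prod (localLayer K τ').val _ _).symm

theorem orbitUnit_congr {F : Type} [Field F] {τ₀ τ₁ : LocalEmb q F} (h : τ₀ = τ₁) (s : Ωˣ)
    (hs : (s : Ω) ∈ localFieldAt τ₀) :
    orbitUnit τ₀ s hs = orbitUnit τ₁ s (h ▸ hs) := by
  subst h; rfl

theorem coe_prod_smul_apply (z : semiLocalUnits q L) (τ'' : LocalEmb q L) :
    ((∏ σ : L ≃ₐ[K] L, σ • z : semiLocalUnits q L) : LocalEmb q L → Ωˣ) τ'' =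
      ∏ σ : L ≃ₐ[K] L, (z : LocalEmb q L → Ωˣ) (τ''.comp (σ : L →+* L)) := by
  have h : ∀ (t : Finset (L ≃ₐ[K] L)),
      ((∏ σ ∈ t, σ • z : semiLocalUnits q L) : LocalEmb q L → Ωˣ) τ'' =
        ∏ σ ∈ t, (z : LocalEmb q L → Ωˣ) (τ''.comp (σ : L →+* L)) := by
    intro t
    classical
    induction t using Finset.induction_on with
    | empty => simp
    | insert a t ha ih =>
      rw [Finset.prod_insert ha, Finset.prod_insert ha, ← ih]
      rfl
  exact h Finset.univ

/-- The norm of an orbit unit: it is the semi-local unit of `K` supported on the place below, with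
value the local norm. -/
theorem prod_smul_orbitUnit (τ' : LocalEmb q L)
    [FiniteDimensional (localFieldAt (localEmbRestrict K τ')) (localLayer K τ')]
    (s : Ωˣ) (hs : (s : Ω) ∈ localFieldAt τ') (n : Ωˣ)
    (hn : (n : Ω) ∈ localFieldAt (localEmbRestrict K τ'))
    (hnorm : ((Algebra.norm (localFieldAt (localEmbRestrict K τ'))
        (⟨(s : Ω), hs⟩ : localLayer K τ') : localFieldAt (localEmbRestrict K τ')) : Ω) = (n : Ω)) :
    ∏ σ : L ≃ₐ[K] L, σ • (orbitUnit τ' s hs : semiLocalUnits q L) =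
      semiLocalMap (algebraMap K L) (orbitUnit (localEmbRestrict K τ') n hn) := by
  apply Subtype.ext
  funext τ''
  rw [coe_prod_smul_apply]
  show _ = ((orbitUnit (localEmbRestrict K τ') n hn : semiLocalUnits q K) :
    LocalEmb q K → Ωˣ) (localEmbRestrict K τ'')
  by_cases hτ : ∃ γ : Gq q, γ • localEmbRestrict K τ' = localEmbRestrict K τ''
  · obtain ⟨γ, hγ⟩ := hτ
    rw [← hγ, orbitUnit_apply_smul]
    have h1 : localEmbRestrict K (γ • τ') = localEmbRestrict K τ'' := by
      rw [localEmbRestrict_smul, hγ]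
    obtain ⟨h, hh, -⟩ := exists_unique_algEquiv_comp K h1
    -- `τ'' = γ • (τ' ∘ h)`
    have h2 : ∀ σ : L ≃ₐ[K] L, τ''.comp (σ : L →+* L) =
        γ • (τ'.comp ((h * σ : L ≃ₐ[K] L) : L →+* L)) := by
      intro σ
      rw [hh]
      rfl
    have h3 : ∏ σ : L ≃ₐ[K] L, ((orbitUnit τ' s hs : semiLocalUnits q L) : LocalEmb q L → Ωˣ)
        (τ''.comp (σ : L →+* L)) =
        gqUnitsHom γ (∏ σ : L ≃ₐ[K] L,
          ((orbitUnit τ' s hs : semiLocalUnits q L) : LocalEmb q L → Ωˣ)
            (τ'.comp (σ : L →+* L))) := by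
      rw [map_prod]
      rw [← Fintype.prod_equiv (Equiv.mulLeft h) (fun σ =>
        gqUnitsHom γ (((orbitUnit τ' s hs : semiLocalUnits q L) : LocalEmb q L → Ωˣ)
          (τ'.comp ((h * σ : L ≃ₐ[K] L) : L →+* L)))) (fun σ =>
        gqUnitsHom γ (((orbitUnit τ' s hs : semiLocalUnits q L) : LocalEmb q L → Ωˣ)
          (τ'.comp (σ : L →+* L)))) (fun σ => rfl)]
      refine Finset.prod_congr rfl fun σ _ => ?_
      rw [h2 σ]
      exact (orbitUnit τ' s hs).2 γ _
    rw [h3]
    congr 1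
    apply Units.ext
    rw [prod_orbitUnit_comp_eq_norm, hnorm]
  · rw [orbitUnit_apply_of_not _ _ _ hτ]
    apply Finset.prod_eq_one
    intro σ _
    apply orbitUnit_apply_of_not
    rintro ⟨γ, hγ⟩
    apply hτ
    refine ⟨γ, ?_⟩
    rw [← localEmbRestrict_smul, hγ, localEmbRestrict_comp_algEquiv]

end Norm

section Decomp

variable {F : Type} [Field F]

theorem coe_finset_prod_apply {ι : Type*} (t : Finset ι) (u : ι → semiLocalUnits q F)
    (τ : LocalEmb q F) :
    ((∏ i ∈ t, u i : semiLocalUnits q F) : LocalEmb q F → Ωˣ) τ =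
      ∏ i ∈ t, (u i : LocalEmb q F → Ωˣ) τ := by
  classical
  induction t using Finset.induction_on with
  | empty => simp
  | insert a t ha ih =>
    rw [Finset.prod_insert ha, Finset.prod_insert ha, ← ih]
    rfl

/-- A semi-local unit is the product of its parts supported on the places. -/
theorem prod_orbitUnit_emb [Fintype (LocalPlace q F)] (x : semiLocalUnits q F) :
    ∏ ω : LocalPlace q F, orbitUnit ω.emb ((x : LocalEmb q F → Ωˣ) ω.emb)
      (semiLocalUnits_apply_mem x ω.emb) = x := by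
  classical
  apply Subtype.ext
  funext τ
  rw [coe_finset_prod_apply]
  rw [Finset.prod_eq_single τ.place]
  · have h := orbitUnit_apply_smul τ.place.emb ((x : LocalEmb q F → Ωˣ) τ.place.emb)
      (semiLocalUnits_apply_mem x _) τ.toRep
    rw [τ.toRep_smul] at h
    rw [h, ← x.2, τ.toRep_smul]
  · intro ω _ hω
    apply orbitUnit_apply_of_not
    rintro ⟨γ, hγ⟩
    apply hω
    rw [← hγ, LocalEmb.place_smul, ω.place_emb]
  · intro h
    exact absurd (Finset.mem_univ _) h

end Decomp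

section Main

variable (K : Type) [Field K] {L : Type} [Field L] [Algebra K L] [Normal K L]
  [FiniteDimensional K L] [NumberField K] [NumberField L]

/-- **Norm criterion (`⇐`)**: a semi-local unit of `K` all of whose local components are local
norms is the norm of a semi-local unit of `L`, which can be taken integral as soon as the local
preimages have norm one. -/
theorem exists_prod_smul_eq_of_local_norm (x : semiLocalUnits q K)
    (hloc : ∀ τ' : LocalEmb q L, ∃ (s : Ωˣ) (hs : (s : Ω) ∈ localFieldAt τ'),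
      ((Algebra.norm (localFieldAt (localEmbRestrict K τ'))
        (⟨(s : Ω), hs⟩ : localLayer K τ') : localFieldAt (localEmbRestrict K τ')) : Ω) =
          ((x : LocalEmb q K → Ωˣ) (localEmbRestrict K τ') : Ω) ∧
      (‖((x : LocalEmb q K → Ωˣ) (localEmbRestrict K τ') : Ω)‖ = 1 → ‖(s : Ω)‖ = 1)) :
    ∃ z : semiLocalUnits q L,
      ∏ σ : L ≃ₐ[K] L, σ • z = semiLocalMap (algebraMap K L) x ∧
      (x ∈ semiLocalIntegral q K → z ∈ semiLocalIntegral q L) := by
  classical
  haveI : Fintype (LocalPlace q K) := Fintype.ofFinite _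
  choose s hs hnorm hint using hloc
  let z : LocalPlace q K → semiLocalUnits q L := fun ω =>
    orbitUnit (placeLift K ω) (s (placeLift K ω)) (hs (placeLift K ω))
  refine ⟨∏ ω : LocalPlace q K, z ω, ?_, ?_⟩
  · have h1 : ∀ σ : L ≃ₐ[K] L, σ • ∏ ω : LocalPlace q K, z ω = ∏ ω : LocalPlace q K, σ • z ω :=
      fun σ => Finset.smul_prod' (s := Finset.univ) (f := z) (r := σ)
    simp_rw [h1]
    rw [Finset.prod_comm]
    conv_rhs => rw [← prod_orbitUnit_emb x, map_prod]
    refine Finset.prod_congr rfl fun ω _ => ?_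
    haveI := finiteDimensional_localLayer K (placeLift K ω : LocalEmb q L)
    have h2 := prod_smul_orbitUnit K (placeLift K ω : LocalEmb q L) (s (placeLift K ω))
      (hs (placeLift K ω)) ((x : LocalEmb q K → Ωˣ) (localEmbRestrict K (placeLift K ω)))
      (semiLocalUnits_apply_mem x _) (hnorm (placeLift K ω))
    rw [h2]
    congr 1
    have e := localEmbRestrict_placeLift K (L := L) ω
    rw [orbitUnit_congr e]
    congr 1
    rw [e]
  · intro hx
    apply Subgroup.prod_mem
    intro ω _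
    apply orbitUnit_mem_integral
    exact hint _ (hx _)

end Main

end Fermat.Agent.CFT

end
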