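import Mathlib
import Fermat.Agent.CFT.Global.KummerLocalConv
import Fermat.Agent.CFT.Global.KummerLocalField
import Fermat.Agent.CFT.Global.SemiLocalNormPatch
import Fermat.Agent.CFT.Global.IdeleNorm

/-!
# Layer C / C3K': the local norm facts for a Kummer extension of prime degree

`K`, `L` number fields, `L = K(α)`, `α ^ p = a ∈ K`, `[L : K] = p` prime, `μ_p ⊆ K`, `L/K` Galois.

* `adjoin_localLayer_eq_top` : `L_τ' = K_τ(τ' α)`;
* `finrank_localLayer_eq_card`, `finrank_localLayer_dvd` : `[L_τ' : K_τ] = |decompAt τ'|` divides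
  `[L : K]`;
* `exists_local_norm_of_kummer` (N1-N3 at one embedding `τ'`): a unit `u` of `K_τ` is a norm from
  `L_τ'` (of an element of absolute value one if `|u| = 1`) as soon as (i) `a` is a `p`-th power in
  `K_τ`, or (ii) `q ≠ p`, `|a| = 1 = |u|`, or (iii) `u` is a `p`-th power in `K_τ`;
* `exists_prod_smul_eq_of_kummer` (SL): the semi-local form at a prime `q`, with integrality;
* `mem_ideleNormSubgroup_of_kummer` (ID): an idele of `K` satisfying the trichotomy at all
  `(q, τ)` lies in `ideleNormSubgroup K L`.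
-/

set_option autoImplicit false
set_option linter.unusedSectionVars false
set_option linter.style.haveILetI false

noncomputable section

namespace Fermat.Agent.CFT.KummerLocal

open Fermat.Agent.CFT Fermat.Agent.CFT.GaloisTower

variable {q : ℕ} [Fact q.Prime]

local notation "Ω" => PadicAlgCl q

section LocalLayer

variable (K : Type) [Field K] {L : Type} [Field L] [Algebra K L] [Normal K L]

/-- If `L = K(α)` then `L_τ' = K_τ(τ' α)`. -/
theorem adjoin_localLayer_eq_top {α : L} (hgen : IntermediateField.adjoin K {α} = ⊤)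
    (τ' : LocalEmb q L) :
    IntermediateField.adjoin (localFieldAt (localEmbRestrict K τ'))
      {(⟨τ' α, apply_mem_localFieldAt τ' α⟩ : localLayer K τ')} = ⊤ := by
  rw [eq_top_iff]
  intro y _
  rw [← IntermediateField.mem_lift, IntermediateField.lift_adjoin_simple]
  have hle : localFieldAt τ' ≤ (IntermediateField.adjoin (localFieldAt (localEmbRestrict K τ'))
      {τ' α}).restrictScalars ℚ_[q] := by
    rw [localFieldAt, IntermediateField.adjoin_le_iff]
    rintro _ ⟨x, rfl⟩
    have hx : x ∈ IntermediateField.adjoin K {α} := by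
      rw [hgen]; exact IntermediateField.mem_top
    show τ' x ∈ IntermediateField.adjoin (localFieldAt (localEmbRestrict K τ')) {τ' α}
    induction hx using IntermediateField.adjoin_induction with
    | mem y hy =>
      rw [Set.mem_singleton_iff] at hy
      rw [hy]
      exact IntermediateField.mem_adjoin_simple_self _ _
    | algebraMap r =>
      have : τ' (algebraMap K L r) = algebraMap (localFieldAt (localEmbRestrict K τ')) Ω
          ⟨localEmbRestrict K τ' r, apply_mem_localFieldAt _ r⟩ := rfl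
      rw [this]
      exact IntermediateField.algebraMap_mem _ _
    | add y z _ _ hy hz => rw [map_add]; exact add_mem hy hz
    | inv y _ hy => rw [map_inv₀]; exact inv_mem hy
    | mul y z _ _ hy hz => rw [map_mul]; exact mul_mem hy hz
  exact hle y.2

/-- The local degree is the order of the decomposition group. -/
theorem finrank_localLayer_eq_card [NumberField L] (τ' : LocalEmb q L) :
    Module.finrank (localFieldAt (localEmbRestrict K τ')) (localLayer K τ') =
      Nat.card (decompAt K τ') := by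
  haveI := isGalois_localLayer K τ'
  haveI := finiteDimensional_localLayer K τ'
  rw [← IsGalois.card_aut_eq_finrank]
  exact Nat.card_congr (decompEquiv K τ').toEquiv

/-- The local degree divides the global degree. -/
theorem finrank_localLayer_dvd [NumberField L] [FiniteDimensional K L] [IsGalois K L]
    (τ' : LocalEmb q L) :
    Module.finrank (localFieldAt (localEmbRestrict K τ')) (localLayer K τ') ∣
      Module.finrank K L := by
  rw [finrank_localLayer_eq_card, ← IsGalois.card_aut_eq_finrank]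
  exact Subgroup.card_subgroup_dvd_card _

/-- The norm of an element of `K_τ`, viewed in `L_τ'`, is its `[L_τ' : K_τ]`-th power. -/
theorem exists_local_norm_of_pow [NumberField L] (τ' : LocalEmb q L) {w : Ω}
    (hw : w ∈ localFieldAt (localEmbRestrict K τ')) (hw0 : w ≠ 0) :
    ∃ (s : Ωˣ) (hs : (s : Ω) ∈ localFieldAt τ'), (s : Ω) = w ∧
      ((Algebra.norm (localFieldAt (localEmbRestrict K τ'))
        (⟨(s : Ω), hs⟩ : localLayer K τ') : localFieldAt (localEmbRestrict K τ')) : Ω) =
          w ^ Module.finrank (localFieldAt (localEmbRestrict K τ')) (localLayer K τ') := by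
  refine ⟨Units.mk0 w hw0, localFieldAt_restrict_le K τ' hw, rfl, ?_⟩
  have h1 : (⟨((Units.mk0 w hw0 : Ωˣ) : Ω), localFieldAt_restrict_le K τ' hw⟩ : localLayer K τ') =
      algebraMap (localFieldAt (localEmbRestrict K τ')) (localLayer K τ') ⟨w, hw⟩ := rfl
  rw [h1, Algebra.norm_algebraMap]
  rfl

/-- **The local Kummer norm facts** (N1–N3 at one embedding): under one of the three local
conditions the unit `u ∈ K_τ` is a norm from `L_τ'`, of a unit of absolute value one if `u` has
absolute value one. -/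
theorem exists_local_norm_of_kummer [NumberField L] [FiniteDimensional K L]
    [IsGalois K L] {p : ℕ} (hp : p.Prime) (hrank : Module.finrank K L = p) {ζ : K}
    (hζ : IsPrimitiveRoot ζ p) {a : K} {α : L} (hα : α ^ p = algebraMap K L a)
    (hgen : IntermediateField.adjoin K {α} = ⊤) (τ' : LocalEmb q L) (u : Ωˣ)
    (hu : (u : Ω) ∈ localFieldAt (localEmbRestrict K τ'))
    (h : (∃ c ∈ localFieldAt (localEmbRestrict K τ'), c ^ p = localEmbRestrict K τ' a) ∨
      (q ≠ p ∧ ‖localEmbRestrict K τ' a‖ = 1 ∧ ‖(u : Ω)‖ = 1) ∨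
      (∃ v ∈ localFieldAt (localEmbRestrict K τ'), v ^ p = (u : Ω))) :
    ∃ (s : Ωˣ) (hs : (s : Ω) ∈ localFieldAt τ'),
      ((Algebra.norm (localFieldAt (localEmbRestrict K τ'))
        (⟨(s : Ω), hs⟩ : localLayer K τ') : localFieldAt (localEmbRestrict K τ')) : Ω) = (u : Ω) ∧
      (‖(u : Ω)‖ = 1 → ‖(s : Ω)‖ = 1) := by
  have hdvd : Module.finrank (localFieldAt (localEmbRestrict K τ')) (localLayer K τ') ∣ p := by
    rw [← hrank]
    exact finrank_localLayer_dvd K τ'
  rcases h with h | h | h
  · -- (i) the place splits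
    have hbot : decompAt K τ' = ⊥ :=
      (decompAt_eq_bot_iff_exists_pow_eq K hp.pos hζ hα hgen τ').2 h
    have hf : Module.finrank (localFieldAt (localEmbRestrict K τ')) (localLayer K τ') = 1 := by
      rw [finrank_localLayer_eq_card, hbot]
      exact Subgroup.card_bot
    obtain ⟨s, hs, hsu, hnorm⟩ := exists_local_norm_of_pow K τ' hu u.ne_zero
    refine ⟨s, hs, ?_, fun h1 => ?_⟩
    · rw [hnorm, hf, pow_one]
    · rw [hsu]; exact h1
  · -- (ii) the unramified case
    obtain ⟨hqp, ha1, hu1⟩ := h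
    haveI := finiteDimensional_localFieldAt τ'
    haveI := isGalois_localLayer K τ'
    have hζ' : IsPrimitiveRoot
        (⟨localEmbRestrict K τ' ζ, apply_mem_localFieldAt _ ζ⟩ :
          localFieldAt (localEmbRestrict K τ')) p := by
      apply IsPrimitiveRoot.of_map_of_injective
        (f := algebraMap (localFieldAt (localEmbRestrict K τ')) Ω) ?_
        (algebraMap (localFieldAt (localEmbRestrict K τ')) Ω).injective
      exact hζ.map_of_injective (localEmbRestrict K τ').injective
    have hβ : (⟨τ' α, apply_mem_localFieldAt τ' α⟩ : localLayer K τ') ^ p =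
        algebraMap (localFieldAt (localEmbRestrict K τ')) (localLayer K τ')
          ⟨localEmbRestrict K τ' a, apply_mem_localFieldAt _ a⟩ := by
      apply Subtype.ext
      show (τ' α) ^ p = τ' (algebraMap K L a)
      rw [← map_pow, hα]
    obtain ⟨s, hs1, hsn⟩ := exists_norm_eq_of_unit_root (localFieldAt_restrict_le K τ') hp
      (Ne.symm hqp) hζ' hβ ha1 (adjoin_localLayer_eq_top K hgen τ')
      (u := (⟨(u : Ω), hu⟩ : localFieldAt (localEmbRestrict K τ'))) hu1
    have hs0 : (s : Ω) ≠ 0 := by
      intro h0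
      rw [h0, norm_zero] at hs1
      exact zero_ne_one hs1
    refine ⟨Units.mk0 (s : Ω) hs0, s.2, ?_, fun _ => hs1⟩
    have : (⟨((Units.mk0 (s : Ω) hs0 : Ωˣ) : Ω), s.2⟩ : localLayer K τ') = s := rfl
    rw [this, hsn]
  · -- (iii) `u` is a `p`-th power
    obtain ⟨v, hv, hvp⟩ := h
    obtain ⟨k, hk⟩ := hdvd
    have hv0 : v ≠ 0 := by
      rintro rfl
      rw [zero_pow hp.ne_zero] at hvp
      exact u.ne_zero hvp.symm
    obtain ⟨s, hs, hsu, hnorm⟩ := exists_local_norm_of_pow K τ' (pow_mem hv k)
      (pow_ne_zero k hv0)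
    refine ⟨s, hs, ?_, fun h1 => ?_⟩
    · rw [hnorm, ← pow_mul, mul_comm, ← hk, hvp]
    · rw [hsu, norm_pow]
      have h2 : ‖v‖ ^ p = 1 := by rw [← norm_pow, hvp, h1]
      have h3 : ‖v‖ = 1 := (pow_eq_one_iff_of_nonneg (norm_nonneg v) hp.ne_zero).1 h2
      rw [h3, one_pow]

end LocalLayer

section Global

variable (K : Type) [Field K] {L : Type} [Field L] [Algebra K L] [NumberField K] [NumberField L]
  [FiniteDimensional K L] [IsGalois K L]

/-- **(SL) The semi-local Kummer norm theorem**: `L = K(α)`, `α ^ p = a`, `[L : K] = p`,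
`μ_p ⊆ K`.  A semi-local unit `x` of `K` at `q` is the norm of a semi-local unit of `L` (integral
if `x` is) provided at every embedding `τ` either (i) `a` is a local `p`-th power, or (ii) `q ≠ p`
and `a`, `x τ` are local units, or (iii) `x τ` is a local `p`-th power. -/
theorem exists_prod_smul_eq_of_kummer {p : ℕ} (hp : p.Prime) (hrank : Module.finrank K L = p)
    {ζ : K} (hζ : IsPrimitiveRoot ζ p) {a : K} {α : L} (hα : α ^ p = algebraMap K L a)
    (hgen : IntermediateField.adjoin K {α} = ⊤) (x : semiLocalUnits q K)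
    (hx : ∀ τ : LocalEmb q K,
      (∃ c ∈ localFieldAt τ, c ^ p = τ a) ∨
      (q ≠ p ∧ ‖τ a‖ = 1 ∧ ‖((x : LocalEmb q K → Ωˣ) τ : Ω)‖ = 1) ∨
      (∃ v ∈ localFieldAt τ, v ^ p = ((x : LocalEmb q K → Ωˣ) τ : Ω))) :
    ∃ z : semiLocalUnits q L,
      ∏ σ : L ≃ₐ[K] L, σ • z = semiLocalMap (algebraMap K L) x ∧
      (x ∈ semiLocalIntegral q K → z ∈ semiLocalIntegral q L) :=
  exists_prod_smul_eq_of_local_norm K x fun τ' =>
    exists_local_norm_of_kummer K hp hrank hζ hα hgen τ' _ (semiLocalUnits_apply_mem x _) (hx _)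

/-- **(ID) The idele form**: an idele of `K` satisfying the local trichotomy at every prime `q`
and every embedding `τ` is a norm from `J_L`. -/
theorem mem_ideleNormSubgroup_of_kummer {p : ℕ} (hp : p.Prime)
    (hrank : Module.finrank K L = p) {ζ : K} (hζ : IsPrimitiveRoot ζ p) {a : K} {α : L}
    (hα : α ^ p = algebraMap K L a) (hgen : IntermediateField.adjoin K {α} = ⊤)
    (y : ideleGroup K)
    (hy : ∀ (r : Nat.Primes) (τ : LocalEmb (r : ℕ) K),
      (∃ c ∈ localFieldAt τ, c ^ p = τ a) ∨
      ((r : ℕ) ≠ p ∧ ‖τ a‖ = 1 ∧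
        ‖((((y : IdeleProd K) r : semiLocalUnits (r : ℕ) K) :
          LocalEmb (r : ℕ) K → (PadicAlgCl (r : ℕ))ˣ) τ : PadicAlgCl (r : ℕ))‖ = 1) ∨
      (∃ v ∈ localFieldAt τ, v ^ p =
        ((((y : IdeleProd K) r : semiLocalUnits (r : ℕ) K) :
          LocalEmb (r : ℕ) K → (PadicAlgCl (r : ℕ))ˣ) τ : PadicAlgCl (r : ℕ)))) :
    y ∈ ideleNormSubgroup K L := by
  have hz : ∀ r : Nat.Primes, ∃ z : semiLocalUnits (r : ℕ) L,
      ∏ σ : L ≃ₐ[K] L, σ • z = semiLocalMap (algebraMap K L) ((y : IdeleProd K) r) ∧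
      ((y : IdeleProd K) r ∈ semiLocalIntegral (r : ℕ) K → z ∈ semiLocalIntegral (r : ℕ) L) :=
    fun r => exists_prod_smul_eq_of_kummer K hp hrank hζ hα hgen ((y : IdeleProd K) r) (hy r)
  choose z hz1 hz2 using hz
  have hmem : (fun r => z r : IdeleProd L) ∈ ideleGroup L := by
    have h := y.2
    rw [mem_ideleGroup] at h ⊢
    filter_upwards [h] with r hr
    exact hz2 r hr
  rw [mem_ideleNormSubgroup]
  refine ⟨⟨fun r => z r, hmem⟩, ?_⟩
  apply Subtype.ext
  funext r
  rw [ideleMap_coe, ideleProdMap_apply, ← hz1 r]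
  have h1 : ∀ (s : Finset (L ≃ₐ[K] L)) (f : (L ≃ₐ[K] L) → ideleGroup L),
      ((∏ σ ∈ s, f σ : ideleGroup L) : IdeleProd L) r = ∏ σ ∈ s, (f σ : IdeleProd L) r := by
    intro s f
    rw [SubmonoidClass.coe_finsetProd, Finset.prod_apply]
  rw [h1]
  rfl

end Global

end Fermat.Agent.CFT.KummerLocal

end
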