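import Mathlib
import Fermat.Agent.CFT.Global.KummerLocal
import Fermat.Agent.CFT.Global.IdeleDict.DictGen
import Fermat.Agent.CFT.Global.ExistenceInj

/-!
# Layer C / C7 (i): the norm input `hnorm` and the injectivity input `hinj` of the index count

`K` a number field containing `μ_p`, `T ∋ p` a set of primes (resp. places).  For a `T`-unit `a`
which is a `p`-th power locally at `T` and `L = K(a^{1/p})` of degree `p`:

* `mem_ideleNormSubgroup_of_mem_ideleOutside` / `boxIdele_sIdeleFam_le_ideleNormSubgroup` (hnorm):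
  `J_{K,T} ⊆ N J_L` (rational-prime model resp. place model), from the local norm facts
  `KummerLocal.mem_ideleNormSubgroup_of_kummer`;
* `mem_ideleNormSubgroup_of_kummer_place` : the idele form (ID) with the trichotomy checked at the
  chosen embedding of every place only;
* `principal_sup_norm_eq_top_of_kummer` : `Kˣ · N J_L = J_K` when the primes over `T` generate the
  class group;
* `exists_pow_eq_of_forall_local_pow` (hinj, rational-prime model) from the first inequality in
  hypothesis form;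
* `index_principalSubgroup_sup_boxIdele_of_firstIneq_only` : the index count of C7 (i) in the place
  model with the first inequality as only remaining hypothesis.
-/

set_option autoImplicit false
set_option linter.unusedSectionVars false
set_option linter.style.haveILetI false

open scoped NumberField

noncomputable section

namespace Fermat.Agent.CFT.KummerLocal

open Polynomial NumberField IsDedekindDomain Fermat.Agent.CFT Fermat.Agent.CFT.IdeleDict

section Global

variable (K : Type) [Field K] [NumberField K]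

/-- A `T`-unit has absolute value one at the embeddings over primes outside `T`. -/
theorem norm_emb_eq_one_of_mem_unit {T : Set Nat.Primes} {y : Kˣ}
    (hy : y ∈ (primesOver K T).unit K) (r : Nat.Primes) (hr : r ∉ T) (τ : LocalEmb (r : ℕ) K) :
    ‖τ (y : K)‖ = 1 := by
  have h1 := (principalIdele_mem_ideleOutside_iff (primesOver K T) y).2 hy
  rw [mem_ideleOutside_iff_norm] at h1
  have h2 := h1 r τ (by rw [primeOfH_mem_primesOver_iff]; exact hr)
  rw [principalIdele_apply, semiLocalDiag_apply] at h2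
  exact h2

variable {L : Type} [Field L] [Algebra K L] [NumberField L] [FiniteDimensional K L] [IsGalois K L]

/-- `J_{K,T} ⊆ N J_L` for `L = K(y^{1/p})`, `y` a `T`-unit which is a local `p`-th power at the
primes of `T ∋ p`. -/
theorem mem_ideleNormSubgroup_of_mem_ideleOutside {p : ℕ} (hp : p.Prime)
    (hrank : Module.finrank K L = p) {ζ : K} (hζ : IsPrimitiveRoot ζ p) {T : Set Nat.Primes}
    (hpT : ∀ r : Nat.Primes, (r : ℕ) = p → r ∈ T) {y : Kˣ} (hy : y ∈ (primesOver K T).unit K)
    (hloc : ∀ r ∈ T, ∃ g : semiLocalUnits (r : ℕ) K, g ^ p = semiLocalDiag y)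
    {α : L} (hα : α ^ p = algebraMap K L (y : K)) (hgen : IntermediateField.adjoin K {α} = ⊤)
    (x : ideleGroup K) (hx : (x : IdeleProd K) ∈ ideleOutside K (primesOver K T)) :
    x ∈ ideleNormSubgroup K L := by
  apply mem_ideleNormSubgroup_of_kummer K hp hrank hζ hα hgen x
  intro r τ
  by_cases hr : r ∈ T
  · left
    obtain ⟨g, hg⟩ := hloc r hr
    refine ⟨((g : LocalEmb (r : ℕ) K → (PadicAlgCl (r : ℕ))ˣ) τ : PadicAlgCl (r : ℕ)),
      semiLocalUnits_apply_mem g τ, ?_⟩
    rw [← semiLocalDiag_apply (q := (r : ℕ)) y τ, ← hg]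
    rfl
  · right; left
    refine ⟨fun h => hr (hpT r h), norm_emb_eq_one_of_mem_unit K hy r hr τ, ?_⟩
    rw [mem_ideleOutside_iff_norm] at hx
    exact hx r τ (by rw [primeOfH_mem_primesOver_iff]; exact hr)

/-- `Kˣ · N J_L = J_K` for `L = K(y^{1/p})`, `y` a `T`-unit which is a local `p`-th power at the
primes of `T ∋ p`, when the primes over `T` generate the class group. -/
theorem principal_sup_norm_eq_top_of_kummer {p : ℕ} (hp : p.Prime)
    (hrank : Module.finrank K L = p) {ζ : K} (hζ : IsPrimitiveRoot ζ p) {T : Set Nat.Primes}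
    (hpT : ∀ r : Nat.Primes, (r : ℕ) = p → r ∈ T)
    (hT : GeneratesClassGroup K (primesOver K T)) {y : Kˣ} (hy : y ∈ (primesOver K T).unit K)
    (hloc : ∀ r ∈ T, ∃ g : semiLocalUnits (r : ℕ) K, g ^ p = semiLocalDiag y)
    {α : L} (hα : α ^ p = algebraMap K L (y : K)) (hgen : IntermediateField.adjoin K {α} = ⊤) :
    principalSubgroup K ⊔ ideleNormSubgroup K L = ⊤ := by
  rw [eq_top_iff]
  intro x _
  obtain ⟨a, ha⟩ := exists_principal_div_mem_ideleOutside hT x.2
  have hmem : principalIdele K a ∈ ideleGroup K := principalIdele_mem_ideleGroup a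
  have hx : x = (⟨principalIdele K a, hmem⟩ : ideleGroup K) *
      (x / ⟨principalIdele K a, hmem⟩) := by
    rw [mul_div_cancel]
  rw [hx]
  apply Subgroup.mul_mem_sup
  · rw [principalSubgroup, Subgroup.mem_subgroupOf]
    exact ⟨a, rfl⟩
  · exact mem_ideleNormSubgroup_of_mem_ideleOutside K hp hrank hζ hpT hy hloc hα hgen _ ha

end Global

section Hinj

variable (K : Type) [Field K] [NumberField K]

/-- **(hinj)** A `T`-unit which is a `p`-th power locally at all primes of `T` is a `p`-th power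
in `K` (`μ_p ⊆ K`, `p ∈ T`, the primes over `T` generate the class group), given the first
inequality `Kˣ · N J_L ≠ J_K` for the cyclic extensions `L/K` of degree `p`. -/
theorem exists_pow_eq_of_forall_local_pow {p : ℕ} (hp : p.Prime) {ζ : K}
    (hζ : IsPrimitiveRoot ζ p) {T : Set Nat.Primes}
    (hpT : ∀ r : Nat.Primes, (r : ℕ) = p → r ∈ T)
    (hT : GeneratesClassGroup K (primesOver K T))
    (hfirst : ∀ (L : Type) [Field L] [Algebra K L] [NumberField L] [FiniteDimensional K L]
      [IsGalois K L], Module.finrank K L = p →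
        principalSubgroup K ⊔ ideleNormSubgroup K L ≠ ⊤)
    {y : Kˣ} (hy : y ∈ (primesOver K T).unit K)
    (hloc : ∀ r ∈ T, ∃ g : semiLocalUnits (r : ℕ) K, g ^ p = semiLocalDiag y) :
    ∃ z : Kˣ, z ^ p = y := by
  by_contra hne
  have hirr : Irreducible (X ^ p - C (y : K)) := by
    apply X_pow_sub_C_irreducible_of_prime hp
    intro b hb
    have hb0 : b ≠ 0 := by
      rintro rfl
      rw [zero_pow hp.ne_zero] at hb
      exact y.ne_zero hb.symm
    exact hne ⟨Units.mk0 b hb0, Units.ext hb⟩
  haveI := Fact.mk hirr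
  have hζ' : (primitiveRoots p K).Nonempty := ⟨ζ, (mem_primitiveRoots hp.pos).2 hζ⟩
  haveI := isSplittingField_AdjoinRoot_X_pow_sub_C hζ' hirr
  haveI : IsGalois K (AdjoinRoot (X ^ p - C (y : K))) :=
    isGalois_of_isSplittingField_X_pow_sub_C hζ' hirr _
  haveI : FiniteDimensional K (AdjoinRoot (X ^ p - C (y : K))) :=
    Polynomial.IsSplittingField.finiteDimensional _ (X ^ p - C (y : K))
  haveI : CharZero (AdjoinRoot (X ^ p - C (y : K))) :=
    charZero_of_injective_algebraMap (algebraMap K _).injective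
  haveI : FiniteDimensional ℚ (AdjoinRoot (X ^ p - C (y : K))) :=
    Module.Finite.trans K _
  haveI : NumberField (AdjoinRoot (X ^ p - C (y : K))) := ⟨⟩
  have hrank : Module.finrank K (AdjoinRoot (X ^ p - C (y : K))) = p :=
    finrank_of_isSplittingField_X_pow_sub_C hζ' hirr _
  refine hfirst (AdjoinRoot (X ^ p - C (y : K))) hrank
    (principal_sup_norm_eq_top_of_kummer K hp hrank hζ hpT hT hy hloc
      (α := AdjoinRoot.root _) (root_X_pow_sub_C_pow p (y : K)) ?_)
  exact IntermediateField.adjoin_eq_top_of_algebra K _ (AdjoinRoot.adjoinRoot_eq_top)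

end Hinj

section Place

variable (K : Type) [Field K] [NumberField K]
  {L : Type} [Field L] [Algebra K L] [NumberField L] [FiniteDimensional K L] [IsGalois K L]

/-- **(ID), place form**: it suffices to check the local trichotomy at the chosen embedding of
every place. -/
theorem mem_ideleNormSubgroup_of_kummer_place {p : ℕ} (hp : p.Prime)
    (hrank : Module.finrank K L = p) {ζ : K} (hζ : IsPrimitiveRoot ζ p) {a : K} {α : L}
    (hα : α ^ p = algebraMap K L a) (hgen : IntermediateField.adjoin K {α} = ⊤)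
    (y : ideleGroup K)
    (hy : ∀ v : IdelePlace K,
      (∃ c ∈ localFieldAt v.2.emb, c ^ p = v.2.emb a) ∨
      ((v.1 : ℕ) ≠ p ∧ ‖v.2.emb a‖ = 1 ∧
        ‖((((y : IdeleProd K) v.1 : semiLocalUnits (v.1 : ℕ) K) :
          LocalEmb (v.1 : ℕ) K → (PadicAlgCl (v.1 : ℕ))ˣ) v.2.emb : PadicAlgCl (v.1 : ℕ))‖ = 1) ∨
      (∃ w ∈ localFieldAt v.2.emb, w ^ p =
        ((((y : IdeleProd K) v.1 : semiLocalUnits (v.1 : ℕ) K) :
          LocalEmb (v.1 : ℕ) K → (PadicAlgCl (v.1 : ℕ))ˣ) v.2.emb : PadicAlgCl (v.1 : ℕ)))) :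
    y ∈ ideleNormSubgroup K L := by
  apply mem_ideleNormSubgroup_of_kummer K hp hrank hζ hα hgen y
  intro r τ
  obtain ⟨γ, hγ⟩ := τ.exists_smul_emb_place
  have hval : ((((y : IdeleProd K) r : semiLocalUnits (r : ℕ) K) :
      LocalEmb (r : ℕ) K → (PadicAlgCl (r : ℕ))ˣ) τ : PadicAlgCl (r : ℕ)) =
      γ ((((y : IdeleProd K) r : semiLocalUnits (r : ℕ) K) :
        LocalEmb (r : ℕ) K → (PadicAlgCl (r : ℕ))ˣ) τ.place.emb : PadicAlgCl (r : ℕ)) := by
    rw [← semiLocalUnits_apply_smul, hγ]
  have hτa : τ a = γ (τ.place.emb a) := by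
    have h0 : (γ • τ.place.emb) a = γ (τ.place.emb a) := rfl
    rw [← h0, hγ]
  have hmem : ∀ c : PadicAlgCl (r : ℕ), c ∈ localFieldAt τ.place.emb → γ c ∈ localFieldAt τ := by
    intro c hc
    have h0 := (mem_localFieldAt_smul_iff γ τ.place.emb c).2 hc
    rwa [hγ] at h0
  rcases hy ⟨r, τ.place⟩ with h | h | h
  · left
    obtain ⟨c, hc, hcp⟩ := h
    refine ⟨γ c, ?_, ?_⟩
    · exact hmem c hc
    · rw [← map_pow, hcp, hτa]
  · right; left
    obtain ⟨h1, h2, h3⟩ := h
    refine ⟨h1, ?_, ?_⟩
    · rw [hτa, norm_gq_apply']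
      exact h2
    · rw [hval, norm_gq_apply']
      exact h3
  · right; right
    obtain ⟨w, hw, hwp⟩ := h
    refine ⟨γ w, ?_, ?_⟩
    · exact hmem w hw
    · rw [← map_pow, hwp, hval]

/-- **(hnorm)** `J_{K,T} ⊆ N J_L` in the place model: `L = K(a^{1/p})`, `a` a `p`-th power at the
places of `T` and a unit outside `T`, `T ⊇ {v ∣ p}`. -/
theorem boxIdele_sIdeleFam_le_ideleNormSubgroup (pp : Nat.Primes) {ζ : K}
    (hζ : IsPrimitiveRoot ζ (pp : ℕ)) (T : Set (IdelePlace K))
    (hT : ∀ v : IdelePlace K, v.1 = pp → v ∈ T) (a : Kˣ) (α : L)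
    (hrank : Module.finrank K L = (pp : ℕ)) (hα : α ^ (pp : ℕ) = algebraMap K L a)
    (hgen : IntermediateField.adjoin K {α} = ⊤)
    (ha : ∀ h : principalIdele K a ∈ ideleGroup K,
      (⟨principalIdele K a, h⟩ : ideleGroup K) ∈ boxIdele (sPowFam (pp : ℕ) T)) :
    boxIdele (sIdeleFam T) ≤ ideleNormSubgroup K L := by
  intro x hx
  have ha' := ha (IdeleDict.principalIdele_mem_ideleGroup a)
  rw [mem_boxIdele] at ha' hx
  apply mem_ideleNormSubgroup_of_kummer_place K pp.2 hrank hζ hα hgen x
  intro v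
  by_cases hv : v ∈ T
  · left
    have h1 := ha' v
    rw [sPowFam_of_mem hv] at h1
    obtain ⟨u, hu⟩ := h1
    refine ⟨((u : localFieldAt v.2.emb) : PadicAlgCl (v.1 : ℕ)), (u : localFieldAt v.2.emb).2, ?_⟩
    have h2 := congrArg (fun w : (localFieldAt v.2.emb)ˣ =>
      ((w : localFieldAt v.2.emb) : PadicAlgCl (v.1 : ℕ))) hu
    simp only [powMonoidHom_apply, Units.val_pow_eq_pow_val, SubmonoidClass.coe_pow] at h2
    rw [h2]
    rfl
  · right; left
    refine ⟨fun h => hv (hT v (Subtype.ext h)), ?_, ?_⟩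
    · have h1 := ha' v
      rw [sPowFam_of_notMem hv, LocalPow.mem_normOneUnits] at h1
      exact h1
    · have h1 := hx v
      rw [sIdeleFam_of_notMem hv, LocalPow.mem_normOneUnits] at h1
      exact h1

end Place

section Count

variable {K : Type} [Field K] [NumberField K]

/-- **C7 (i), place model**: `[J_K : Kˣ · E_T] = p ^ (r + |T| + 1)` with the first inequality as
only hypothesis. -/
theorem index_principalSubgroup_sup_boxIdele_of_firstIneq_only (pp : Nat.Primes)
    (hp2 : 2 < (pp : ℕ)) {ζ : K} (hζ : IsPrimitiveRoot ζ (pp : ℕ)) (T : Finset (IdelePlace K))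
    (hT : ∀ v : IdelePlace K, v.1 = pp → v ∈ T)
    (hgen : GeneratesClassGroup K (IdelePlace.prime '' (T : Set (IdelePlace K))))
    (hFI : ∀ (L : Type) [Field L] [NumberField L] [Algebra K L] [IsGalois K L]
      [IsCyclic (L ≃ₐ[K] L)] [FiniteDimensional K L], Module.finrank K L = (pp : ℕ) →
      principalSubgroup K ⊔ ideleNormSubgroup K L ≠ ⊤) :
    (principalSubgroup K ⊔ boxIdele (sPowFam (pp : ℕ) (T : Set (IdelePlace K)))).index =
      (pp : ℕ) ^ (NumberField.Units.rank K + T.card + 1) :=
  ExistenceCount.index_principalSubgroup_sup_boxIdele_of_firstIneq pp hp2 hζ T hT hgen hFI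
    (fun _ _ _ _ _ _ _ a α hr hα hg ha =>
      boxIdele_sIdeleFam_le_ideleNormSubgroup K pp hζ (T : Set (IdelePlace K))
        (fun v hv => Finset.mem_coe.2 (hT v hv)) a α hr hα hg ha)

end Count

end Fermat.Agent.CFT.KummerLocal

end
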