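/-
S55 / C7: **core of the global existence theorem mod `p`** (`μ_p ⊆ K`, place model, abstract
reciprocity pairing) **with the first inequality as the only index input**.

Same statements as `Global/ExistenceCore.lean`, the hypothesis `hinj` (a `T`-unit which is a local
`p`-th power at `T` is a global `p`-th power) being discharged from the first inequality `hFI`
for cyclic extensions of degree `p` (through `ExistenceInj` and helper1's `KummerGlobalPow`).
-/
import Mathlib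
import Fermat.Agent.CFT.Global.ExistenceCore
import Fermat.Agent.CFT.Global.KummerGlobalPow

set_option autoImplicit false

open scoped NumberField

namespace Fermat.Agent.CFT

namespace ExistenceCore

open Subgroup NumberField IsDedekindDomain IdeleDict

variable {K : Type} [Field K] [NumberField K] {X : Type*} [AddCommGroup X]

/-- **(hinj) from the first inequality**: a `T`-unit which is a `p`-th power at the places of
`T ⊇ {v ∣ p}` (`T` generating the class group) is the `p`-th power of a `T`-unit. -/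
theorem exists_pow_eq_of_firstIneq (pp : Nat.Primes) {ζ : K}
    (hζ : IsPrimitiveRoot ζ (pp : ℕ)) (T : Finset (IdelePlace K))
    (hT : ∀ v : IdelePlace K, v.1 = pp → v ∈ T)
    (hgen : GeneratesClassGroup K (IdelePlace.prime '' (T : Set (IdelePlace K))))
    (hFI : ∀ (L : Type) [Field L] [NumberField L] [Algebra K L] [IsGalois K L]
      [IsCyclic (L ≃ₐ[K] L)] [FiniteDimensional K L], Module.finrank K L = (pp : ℕ) →
      principalSubgroup K ⊔ ideleNormSubgroup K L ≠ ⊤) :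
    ∀ x ∈ principalSubgroup K ⊓ boxIdele (sPowFam (pp : ℕ) (T : Set (IdelePlace K))),
      ∃ y ∈ principalSubgroup K ⊓ boxIdele (sIdeleFam (T : Set (IdelePlace K))),
        y ^ (pp : ℕ) = x :=
  ExistenceCount.exists_pow_eq_of_mem_inf_boxIdele_sPowFam pp hζ T hgen hFI
    (fun _ _ _ _ _ _ _ a α hr hα hg ha =>
      KummerLocal.boxIdele_sIdeleFam_le_ideleNormSubgroup K pp hζ (T : Set (IdelePlace K))
        (fun v hv => Finset.mem_coe.2 (hT v hv)) a α hr hα hg ha)

/-- `|X| = p ^ (rank + |T| + 1)`, first-inequality form. -/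
theorem card_eq_pow_place_of_firstIneq [Finite X] (pp : Nat.Primes) (hp2 : 2 < (pp : ℕ))
    {ζ : K} (hζ : IsPrimitiveRoot ζ (pp : ℕ)) (T : Finset (IdelePlace K))
    (hT : ∀ v : IdelePlace K, v.1 = pp → v ∈ T)
    (hgen : GeneratesClassGroup K (IdelePlace.prime '' (T : Set (IdelePlace K))))
    (hFI : ∀ (L : Type) [Field L] [NumberField L] [Algebra K L] [IsGalois K L]
      [IsCyclic (L ≃ₐ[K] L)] [FiniteDimensional K L], Module.finrank K L = (pp : ℕ) →
      principalSubgroup K ⊔ ideleNormSubgroup K L ≠ ⊤)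
    (b : ideleGroup K → X → ZMod (pp : ℕ))
    (hmul : ∀ x y χ, b (x * y) χ = b x χ + b y χ)
    (hadd : ∀ x χ χ', b x (χ + χ') = b x χ + b x χ')
    (hP : ∀ x ∈ principalSubgroup K, ∀ χ, b x χ = 0)
    (hE0 : ∀ x ∈ boxIdele (sPowFam (pp : ℕ) (T : Set (IdelePlace K))), ∀ χ, b x χ = 0)
    (hnd : ∀ χ, χ ≠ 0 → ∃ x, b x χ ≠ 0)
    (hX : (pp : ℕ) ^ (NumberField.Units.rank K + T.card + 1) ≤ Nat.card X) :
    Nat.card X = (pp : ℕ) ^ (NumberField.Units.rank K + T.card + 1) :=
  card_eq_pow_place pp hp2 hζ T hT hgen (exists_pow_eq_of_firstIneq pp hζ T hT hgen hFI) b hmul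
    hadd hP hE0 hnd hX

/-- **Global existence theorem mod `p`, core, first-inequality form** (place model). -/
theorem mem_of_forall_pairing_eq_zero_place_of_firstIneq [Finite X] (pp : Nat.Primes)
    (hp2 : 2 < (pp : ℕ)) {ζ : K} (hζ : IsPrimitiveRoot ζ (pp : ℕ))
    (S T : Finset (IdelePlace K)) (hST : S ⊆ T)
    (hT : ∀ v : IdelePlace K, v.1 = pp → v ∈ T)
    (hgen : GeneratesClassGroup K (IdelePlace.prime '' (T : Set (IdelePlace K))))
    (hFI : ∀ (L : Type) [Field L] [NumberField L] [Algebra K L] [IsGalois K L]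
      [IsCyclic (L ≃ₐ[K] L)] [FiniteDimensional K L], Module.finrank K L = (pp : ℕ) →
      principalSubgroup K ⊔ ideleNormSubgroup K L ≠ ⊤)
    (Y : AddSubgroup X) (b : ideleGroup K → X → ZMod (pp : ℕ))
    (hmul : ∀ x y χ, b (x * y) χ = b x χ + b y χ)
    (hadd : ∀ x χ χ', b x (χ + χ') = b x χ + b x χ')
    (hP : ∀ x ∈ principalSubgroup K, ∀ χ, b x χ = 0)
    (hE0 : ∀ x ∈ boxIdele (sPowFam (pp : ℕ) (T : Set (IdelePlace K))), ∀ χ, b x χ = 0)
    (hnd : ∀ χ, χ ≠ 0 → ∃ x, b x χ ≠ 0)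
    (hX : (pp : ℕ) ^ (NumberField.Units.rank K + T.card + 1) ≤ Nat.card X)
    (hW : ∀ χ, (∀ w ∈ boxIdele (unitBetweenFam (S : Set (IdelePlace K)) (T : Set (IdelePlace K))),
      b w χ = 0) → χ ∈ Y)
    (x : ideleGroup K) (hx : ∀ χ ∈ Y, b x χ = 0) :
    x ∈ principalSubgroup K ⊔ boxIdele (unitOutsideFam (S : Set (IdelePlace K))) ⊔
      powSubgroup ⊤ (pp : ℕ) :=
  mem_of_forall_pairing_eq_zero_place pp hp2 hζ S T hST hT hgen
    (exists_pow_eq_of_firstIneq pp hζ T hT hgen hFI) Y b hmul hadd hP hE0 hnd hX hW x hx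

/-- **Global existence theorem mod `p`, core, first-inequality form, `principalUnitSubgroup`**. -/
theorem mem_principalUnitSubgroup_sup_pow_of_firstIneq [Finite X] (pp : Nat.Primes)
    (hp2 : 2 < (pp : ℕ)) {ζ : K} (hζ : IsPrimitiveRoot ζ (pp : ℕ)) (S₀ : Finset Nat.Primes)
    (T : Finset (IdelePlace K)) (hST : ∀ v : IdelePlace K, v.1 ∈ S₀ → v ∈ T)
    (hT : ∀ v : IdelePlace K, v.1 = pp → v ∈ T)
    (hgen : GeneratesClassGroup K (IdelePlace.prime '' (T : Set (IdelePlace K))))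
    (hFI : ∀ (L : Type) [Field L] [NumberField L] [Algebra K L] [IsGalois K L]
      [IsCyclic (L ≃ₐ[K] L)] [FiniteDimensional K L], Module.finrank K L = (pp : ℕ) →
      principalSubgroup K ⊔ ideleNormSubgroup K L ≠ ⊤)
    (Y : AddSubgroup X) (b : ideleGroup K → X → ZMod (pp : ℕ))
    (hmul : ∀ x y χ, b (x * y) χ = b x χ + b y χ)
    (hadd : ∀ x χ χ', b x (χ + χ') = b x χ + b x χ')
    (hP : ∀ x ∈ principalSubgroup K, ∀ χ, b x χ = 0)
    (hE0 : ∀ x ∈ boxIdele (sPowFam (pp : ℕ) (T : Set (IdelePlace K))), ∀ χ, b x χ = 0)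
    (hnd : ∀ χ, χ ≠ 0 → ∃ x, b x χ ≠ 0)
    (hX : (pp : ℕ) ^ (NumberField.Units.rank K + T.card + 1) ≤ Nat.card X)
    (hW : ∀ χ, (∀ w ∈ boxIdele (unitBetweenFam (placesOver K (S₀ : Set Nat.Primes))
      (T : Set (IdelePlace K))), b w χ = 0) → χ ∈ Y)
    (x : ideleGroup K) (hx : ∀ χ ∈ Y, b x χ = 0) :
    x ∈ principalUnitSubgroup K (S₀ : Set Nat.Primes) ⊔ powSubgroup ⊤ (pp : ℕ) :=
  mem_principalUnitSubgroup_sup_pow pp hp2 hζ S₀ T hST hT hgen
    (exists_pow_eq_of_firstIneq pp hζ T hT hgen hFI) Y b hmul hadd hP hE0 hnd hX hW x hx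

/-- Finiteness of `ideleClassS K S₀ / p`, first-inequality form. -/
theorem index_principalUnitSubgroup_sup_pow_ne_zero_of_firstIneq (pp : Nat.Primes)
    (hp2 : 2 < (pp : ℕ)) {ζ : K} (hζ : IsPrimitiveRoot ζ (pp : ℕ)) (S₀ : Finset Nat.Primes)
    (T : Finset (IdelePlace K)) (hST : ∀ v : IdelePlace K, v.1 ∈ S₀ → v ∈ T)
    (hT : ∀ v : IdelePlace K, v.1 = pp → v ∈ T)
    (hgen : GeneratesClassGroup K (IdelePlace.prime '' (T : Set (IdelePlace K))))
    (hFI : ∀ (L : Type) [Field L] [NumberField L] [Algebra K L] [IsGalois K L]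
      [IsCyclic (L ≃ₐ[K] L)] [FiniteDimensional K L], Module.finrank K L = (pp : ℕ) →
      principalSubgroup K ⊔ ideleNormSubgroup K L ≠ ⊤) :
    (principalUnitSubgroup K (S₀ : Set Nat.Primes) ⊔ powSubgroup ⊤ (pp : ℕ)).index ≠ 0 :=
  index_principalUnitSubgroup_sup_pow_ne_zero pp hp2 hζ S₀ T hST hT hgen
    (exists_pow_eq_of_firstIneq pp hζ T hT hgen hFI)

end ExistenceCore

end Fermat.Agent.CFT
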