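import Mathlib
import Fermat.Agent.CFT.Global.IdeleDefs
import Fermat.Agent.CFT.Global.RestrictedCoh
import Fermat.Agent.CFT.Global.RestrictedCohRep

/-!
# Layer C, node C1b: cohomology of the idele group

The idele group `ideleGroup L` of `IdeleDefs.lean` is the restricted product of the semi-local
units `semiLocalUnits q L` with respect to `semiLocalIntegral q L`; we instantiate the abstract
results of `RestrictedCoh.lean`.  The local inputs (node C1a) are hypotheses:

* `hA1 : ∀ q, H1TrivialOn H (⊤ : Subgroup (semiLocalUnits q L))`  (Hilbert 90 + Shapiro);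
* `hU1, hU2, hU0 : ∀ᶠ q in cofinite, H1TrivialOn / H2TrivialOn / NormSurjOn H
  (semiLocalIntegral q L)`  (unramified primes).
-/

set_option autoImplicit false

open groupCohomology

namespace Fermat.Agent.CFT

section Instantiate

variable (H L : Type) [Field L] [Group H] [MulSemiringAction H L]

/-- The idele group is the restricted product of the semi-local unit groups. -/
def ideleRestrictedProd :
    RestrictedProd H (ideleGroup L) (fun q : Nat.Primes => semiLocalUnits (q : ℕ) L)
      (fun q : Nat.Primes => semiLocalIntegral (q : ℕ) L) where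
  proj q :=
    { toFun := fun x => (x : IdeleProd L) q
      map_one' := rfl
      map_mul' := fun _ _ => rfl }
  proj_smul _ _ _ := rfl
  ext _ _ h := Subtype.ext (funext h)
  mem_cofinite x := x.2
  glue a ha := ⟨⟨a, ha⟩, fun _ => rfl⟩

@[simp]
theorem ideleRestrictedProd_proj_apply (q : Nat.Primes) (x : ideleGroup L) :
    (ideleRestrictedProd H L).proj q x = (x : IdeleProd L) q := rfl

variable {H L}

/-- `H¹(H, J_L) = 0`, cocycle form. -/
theorem idele_h1TrivialOn [Finite H]
    (hA1 : ∀ q : Nat.Primes, H1TrivialOn H (⊤ : Subgroup (semiLocalUnits (q : ℕ) L)))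
    (hU1 : ∀ᶠ q : Nat.Primes in Filter.cofinite, H1TrivialOn H (semiLocalIntegral (q : ℕ) L)) :
    H1TrivialOn H (⊤ : Subgroup (ideleGroup L)) :=
  (ideleRestrictedProd H L).h1TrivialOn_top hA1 hU1

/-- `H¹(H, J_L) = 0` for Mathlib's group cohomology of `ideleRep H L`. -/
theorem subsingleton_H1_ideleRep [Finite H]
    (hA1 : ∀ q : Nat.Primes, H1TrivialOn H (⊤ : Subgroup (semiLocalUnits (q : ℕ) L)))
    (hU1 : ∀ᶠ q : Nat.Primes in Filter.cofinite, H1TrivialOn H (semiLocalIntegral (q : ℕ) L)) :
    Subsingleton (groupCohomology.H1 (ideleRep L H)) :=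
  subsingleton_H1_of_h1TrivialOn (idele_h1TrivialOn hA1 hU1)

/-- Injectivity of `H²(H, J_L) → ∏_q H²(H, A_q L)`, cocycle form. -/
theorem idele_isMulCoboundary₂_iff [Finite H]
    (hU2 : ∀ᶠ q : Nat.Primes in Filter.cofinite, H2TrivialOn H (semiLocalIntegral (q : ℕ) L))
    {f : H × H → ideleGroup L} (hf : IsMulCocycle₂ f) :
    IsMulCoboundary₂ f ↔
      ∀ q : Nat.Primes, IsMulCoboundary₂ fun p => ((f p : ideleGroup L) : IdeleProd L) q :=
  (ideleRestrictedProd H L).isMulCoboundary₂_iff hU2 hf

/-- The local components of a 2-cocycle of the idele group are coboundaries at almost all `q`. -/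
theorem idele_eventually_isMulCoboundary₂ [Finite H]
    (hU2 : ∀ᶠ q : Nat.Primes in Filter.cofinite, H2TrivialOn H (semiLocalIntegral (q : ℕ) L))
    {f : H × H → ideleGroup L} (hf : IsMulCocycle₂ f) :
    ∀ᶠ q : Nat.Primes in Filter.cofinite,
      IsMulCoboundary₂ fun p => ((f p : ideleGroup L) : IdeleProd L) q :=
  (ideleRestrictedProd H L).eventually_isMulCoboundary₂ hU2 hf

/-- Every family of local 2-cocycles which is integral at almost all `q` comes from a 2-cocycle of
the idele group. -/
theorem idele_exists_cocycle₂ [Finite H]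
    (c : ∀ q : Nat.Primes, H × H → semiLocalUnits (q : ℕ) L)
    (hc : ∀ q, IsMulCocycle₂ (c q))
    (hcU : ∀ᶠ q : Nat.Primes in Filter.cofinite, ∀ p, c q p ∈ semiLocalIntegral (q : ℕ) L) :
    ∃ f : H × H → ideleGroup L, IsMulCocycle₂ f ∧
      ∀ (q : Nat.Primes) (p : H × H), ((f p : ideleGroup L) : IdeleProd L) q = c q p :=
  (ideleRestrictedProd H L).exists_cocycle₂ c hc hcU

/-- An `H`-invariant idele is a norm iff it is a norm at every `q`. -/
theorem idele_exists_norm_eq_iff [Fintype H]
    (hU0 : ∀ᶠ q : Nat.Primes in Filter.cofinite, NormSurjOn H (semiLocalIntegral (q : ℕ) L))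
    {x : ideleGroup L} (hx : ∀ σ : H, σ • x = x) :
    (∃ y : ideleGroup L, ∏ σ : H, σ • y = x) ↔
      ∀ q : Nat.Primes, ∃ b : semiLocalUnits (q : ℕ) L, ∏ σ : H, σ • b = (x : IdeleProd L) q :=
  (ideleRestrictedProd H L).exists_norm_eq_iff hU0 hx

/-- Invariance of an idele can be checked componentwise. -/
theorem idele_smul_eq_iff (σ : H) (x : ideleGroup L) :
    σ • x = x ↔ ∀ q : Nat.Primes, σ • (x : IdeleProd L) q = (x : IdeleProd L) q :=
  (ideleRestrictedProd H L).smul_eq_iff σ x

end Instantiate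

section Invariants

variable {K L : Type} [Field K] [Field L] (φ : K →+* L) {H : Type} [Group H]
  [MulSemiringAction H L]

/-- The image of `J_K → J_L` consists of `H`-invariant ideles when `H` fixes the image of `K`. -/
theorem smul_ideleMap (hφ : ∀ (σ : H) (a : K), σ • φ a = φ a) (σ : H) (x : ideleGroup K) :
    σ • ideleMap φ x = ideleMap φ x := by
  apply Subtype.ext
  funext q
  apply Subtype.ext
  funext τ
  show ((x : IdeleProd K) q : LocalEmb (q : ℕ) K → (PadicAlgCl (q : ℕ))ˣ)
      ((τ.comp (MulSemiringAction.toRingHom H L σ)).comp φ) =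
    ((x : IdeleProd K) q : LocalEmb (q : ℕ) K → (PadicAlgCl (q : ℕ))ˣ) (τ.comp φ)
  have h : (τ.comp (MulSemiringAction.toRingHom H L σ)).comp φ = τ.comp φ :=
    RingHom.ext fun a => by
      simp only [RingHom.comp_apply, MulSemiringAction.toRingHom_apply, hφ σ a]
  rw [h]

/-- `J_L^H = J_K`: an `H`-invariant idele of `L` comes from `K`, given the local statement
`(A_q L)^H = A_q K` and surjectivity of the restriction of embeddings. -/
theorem exists_ideleMap_eq_of_smul_eq
    (hinv : ∀ (q : Nat.Primes) (f : semiLocalUnits (q : ℕ) L), (∀ σ : H, σ • f = f) →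
      ∃ g : semiLocalUnits (q : ℕ) K, semiLocalMap φ g = f)
    (hres : ∀ q : Nat.Primes,
      Function.Surjective fun τ : LocalEmb (q : ℕ) L => (τ.comp φ : LocalEmb (q : ℕ) K))
    {x : ideleGroup L} (hx : ∀ σ : H, σ • x = x) :
    ∃ y : ideleGroup K, ideleMap φ y = x := by
  have hq : ∀ q : Nat.Primes, ∃ g : semiLocalUnits (q : ℕ) K,
      semiLocalMap φ g = (x : IdeleProd L) q := fun q =>
    hinv q _ fun σ => (idele_smul_eq_iff σ x).1 (hx σ) q
  choose g hg using hq
  have hgint : ∀ q : Nat.Primes, (x : IdeleProd L) q ∈ semiLocalIntegral (q : ℕ) L →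
      g q ∈ semiLocalIntegral (q : ℕ) K := by
    intro q hxq τ
    obtain ⟨τ', rfl⟩ := hres q τ
    have := hxq τ'
    rw [← hg q] at this
    exact this
  have hgJ : g ∈ ideleGroup K := by
    have hx2 := x.2
    rw [mem_ideleGroup] at hx2 ⊢
    filter_upwards [hx2] with q hq using hgint q hq
  refine ⟨⟨g, hgJ⟩, Subtype.ext (funext fun q => ?_)⟩
  exact hg q

end Invariants

end Fermat.Agent.CFT
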