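/-
S55 / C7 (assembly, part 2): **the reciprocity pairing `b x χ = inv (x ∪ δχ)` with values in
`ZMod p`**, generic construction + idele instantiation.

* `circleToZMod`, `zmodCircle_circleToZMod` : the `p`-torsion of `ℚ/ℤ` is `ZMod p`.
* `symbZ A p inv a ha x χ : ZMod p` for an invariant map `inv : H²(G, A) →+ ℚ/ℤ`, a family
  `a : J → A` of `G`-invariant elements and `χ : Additive (G →* Multiplicative (ZMod p))`:
  the `ZMod p`-value of `inv (a x ∪ δχ)` (helper1's `localSymbol`); `symbZ_mul`, `symbZ_add`,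
  `symbZ_eq_zero_iff`.
* `ideleClassOfBase K M x : ideleClassRep M (M ≃ₐ[K] M)` : the class of the idele `x` of `K` in `C_M`,
  invariant, multiplicative, trivial on principal ideles.
* `exists_pow_eq_mk_of_forall_inv_eq_zero` : **(E)-hard in terms of an abstract global invariant**
  `invM : H²(Gal(M/K), C_M) →+ ℚ/ℤ`.
-/
import Fermat.Agent.CFT.Global.ExistenceModP
import Fermat.Agent.CFT.Global.IdeleCoh
import Fermat.Agent.CFT.Local.LocalSymbol
import Fermat.Agent.CFT.Local.TameGlue

set_option autoImplicit false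
set_option linter.unusedSectionVars false

namespace Fermat.Agent.CFT

namespace ExistenceModP

open groupCohomology

section Circle

variable (p : ℕ) [NeZero p]

/-- Every element of `ℚ/ℤ` killed by `p` is in the image of `ZMod p`. -/
theorem exists_zmodCircle_eq {t : AddCircle (1 : ℚ)} (ht : p • t = 0) :
    ∃ k : ZMod p, TameSym.zmodCircle p k = t := by
  obtain ⟨r, rfl⟩ := QuotientAddGroup.mk_surjective t
  have hp : ((p : ℕ) : ℚ) ≠ 0 := Nat.cast_ne_zero.mpr (NeZero.ne p)
  have h : (((p : ℚ) * r : ℚ) : AddCircle (1 : ℚ)) = 0 := by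
    have : (((p : ℚ) * r : ℚ) : AddCircle (1 : ℚ)) = p • ((r : ℚ) : AddCircle (1 : ℚ)) := by
      rw [← AddCircle.coe_nsmul, nsmul_eq_mul]
    rw [this]; exact ht
  rw [AddCircle.coe_eq_zero_iff] at h
  obtain ⟨m, hm⟩ := h
  refine ⟨(m : ZMod p), ?_⟩
  rw [TameSym.zmodCircle_intCast]
  congr 1
  rw [zsmul_eq_mul, mul_one] at hm
  rw [hm, mul_div_cancel_left₀ _ hp]

/-- The inverse of `zmodCircle p` on the `p`-torsion (junk value `0` elsewhere). -/
noncomputable def circleToZMod (t : AddCircle (1 : ℚ)) : ZMod p :=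
  open Classical in if ht : p • t = 0 then (exists_zmodCircle_eq p ht).choose else 0

theorem zmodCircle_circleToZMod {t : AddCircle (1 : ℚ)} (ht : p • t = 0) :
    TameSym.zmodCircle p (circleToZMod p t) = t := by
  unfold circleToZMod
  rw [dif_pos ht]
  exact (exists_zmodCircle_eq p ht).choose_spec

theorem circleToZMod_eq_zero_iff {t : AddCircle (1 : ℚ)} (ht : p • t = 0) :
    circleToZMod p t = 0 ↔ t = 0 := by
  constructor
  · intro h
    rw [← zmodCircle_circleToZMod p ht, h, map_zero]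
  · intro h
    apply TameSym.zmodCircle_injective
    rw [zmodCircle_circleToZMod p ht, h, map_zero]

theorem circleToZMod_add {s t : AddCircle (1 : ℚ)} (hs : p • s = 0) (ht : p • t = 0) :
    circleToZMod p (s + t) = circleToZMod p s + circleToZMod p t := by
  apply TameSym.zmodCircle_injective
  rw [map_add, zmodCircle_circleToZMod p hs, zmodCircle_circleToZMod p ht,
    zmodCircle_circleToZMod p (by rw [nsmul_add, hs, ht, add_zero])]

end Circle

section SymPairing

variable {G : Type} [Group G] (A : Rep.{0} ℤ G) (p : ℕ) [NeZero p]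
  (inv : H2 A →+ AddCircle (1 : ℚ))
  {J : Type*} [Group J] (a : J → A) (ha : ∀ x, IsInv A (a x))

/-- The symbol `inv (a x ∪ δχ) ∈ ℚ/ℤ`. -/
noncomputable def symbQ (x : J) (χ : Additive (G →* Multiplicative (ZMod p))) :
    AddCircle (1 : ℚ) :=
  localSymbol A inv (Additive.toMul χ) (a x) (ha x)

theorem symbQ_add (x : J) (χ χ' : Additive (G →* Multiplicative (ZMod p))) :
    symbQ A p inv a ha x (χ + χ') = symbQ A p inv a ha x χ + symbQ A p inv a ha x χ' := by
  unfold symbQ
  rw [toMul_add, localSymbol_mul_char]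

theorem symbQ_zero (x : J) : symbQ A p inv a ha x 0 = 0 := by
  have h := symbQ_add A p inv a ha x 0 0
  rw [add_zero] at h
  exact add_eq_left.mp h.symm

theorem symbQ_nsmul (x : J) (n : ℕ) (χ : Additive (G →* Multiplicative (ZMod p))) :
    symbQ A p inv a ha x (n • χ) = n • symbQ A p inv a ha x χ := by
  induction n with
  | zero => rw [zero_nsmul, zero_nsmul, symbQ_zero]
  | succ n ih => rw [succ_nsmul, succ_nsmul, symbQ_add, ih]

theorem nsmul_char_eq_zero (χ : Additive (G →* Multiplicative (ZMod p))) : p • χ = 0 := by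
  apply Additive.toMul.injective
  rw [toMul_nsmul, toMul_zero]
  ext g
  rw [MonoidHom.pow_apply, MonoidHom.one_apply]
  apply Multiplicative.toAdd.injective
  rw [toAdd_pow, toAdd_one, nsmul_eq_mul, ZMod.natCast_self, zero_mul]

theorem nsmul_symbQ (x : J) (χ : Additive (G →* Multiplicative (ZMod p))) :
    p • symbQ A p inv a ha x χ = 0 := by
  rw [← symbQ_nsmul, nsmul_char_eq_zero, symbQ_zero]

theorem symbQ_mul (hmul : ∀ x y, a (x * y) = a x + a y) (x y : J)
    (χ : Additive (G →* Multiplicative (ZMod p))) :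
    symbQ A p inv a ha (x * y) χ = symbQ A p inv a ha x χ + symbQ A p inv a ha y χ := by
  unfold symbQ
  rw [← localSymbol_add]
  unfold localSymbol
  congr 1
  exact symClass_congr A _ (ha (x * y)) (hmul x y)

/-- The symbol `inv (a x ∪ δχ)` as an element of `ZMod p`. -/
noncomputable def symbZ (x : J) (χ : Additive (G →* Multiplicative (ZMod p))) : ZMod p :=
  circleToZMod p (symbQ A p inv a ha x χ)

theorem symbZ_eq_zero_iff (x : J) (χ : Additive (G →* Multiplicative (ZMod p))) :
    symbZ A p inv a ha x χ = 0 ↔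
      inv (symClass A (Additive.toMul χ) (a x) (ha x)) = 0 :=
  circleToZMod_eq_zero_iff p (nsmul_symbQ A p inv a ha x χ)

theorem symbZ_add (x : J) (χ χ' : Additive (G →* Multiplicative (ZMod p))) :
    symbZ A p inv a ha x (χ + χ') = symbZ A p inv a ha x χ + symbZ A p inv a ha x χ' := by
  unfold symbZ
  rw [symbQ_add, circleToZMod_add p (nsmul_symbQ A p inv a ha x χ)
    (nsmul_symbQ A p inv a ha x χ')]

theorem symbZ_mul (hmul : ∀ x y, a (x * y) = a x + a y) (x y : J)
    (χ : Additive (G →* Multiplicative (ZMod p))) :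
    symbZ A p inv a ha (x * y) χ = symbZ A p inv a ha x χ + symbZ A p inv a ha y χ := by
  unfold symbZ
  rw [symbQ_mul A p inv a ha hmul, circleToZMod_add p (nsmul_symbQ A p inv a ha x χ)
    (nsmul_symbQ A p inv a ha y χ)]

theorem symbZ_of_eq_zero (x : J) (hx : a x = 0) (χ : Additive (G →* Multiplicative (ZMod p))) :
    symbZ A p inv a ha x χ = 0 := by
  rw [symbZ_eq_zero_iff]
  have h : symClass A (Additive.toMul χ) (a x) (ha x) = 0 := by
    rw [symClass_congr A _ (ha x) hx]
    exact symClass_zero A _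
  rw [h, map_zero]

end SymPairing

section GenericE

variable (K : Type) [Field K]

/-- **(E)-hard, `μ_p ⊆ K`, generic box.** Same as `exists_pow_eq_mk_of_orthogonal` but for an
arbitrary model `E` of `∏_{v∈T} K_v^{×p} × ∏_{v∉T} U_v` (helper5's `box (localPowOutside K p T)`
or helper17's `boxIdele (sPowFam p T)`), with the index count `[J_K : Kˣ E] = p^n` as input. -/
theorem exists_pow_eq_mk_of_orthogonal_of_index {X : Type*} [AddCommGroup X] [Finite X]
    (p n : ℕ) [Fact p.Prime] (S : Set Nat.Primes) (E : Subgroup (ideleGroup K))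
    (Y : AddSubgroup X) (b : ideleGroup K → X → ZMod p)
    (hmul : ∀ x y χ, b (x * y) χ = b x χ + b y χ)
    (hadd : ∀ x χ χ', b x (χ + χ') = b x χ + b x χ')
    (hrecip : ∀ x ∈ principalSubgroup K, ∀ χ, b x χ = 0)
    (hE0 : ∀ x ∈ E, ∀ χ, b x χ = 0)
    (hEle : E ≤ uS K S ⊔ Subgroup.map (powMonoidHom p) ⊤)
    (hpowE : ∀ x : ideleGroup K, x ^ p ∈ principalSubgroup K ⊔ E)
    (hidx : (principalSubgroup K ⊔ E).index = p ^ n)
    (hnd : ∀ χ, χ ≠ 0 → ∃ x, b x χ ≠ 0)
    (hX : p ^ n ≤ Nat.card X)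
    (hW : ∀ χ, (∀ w ∈ uS K S, b w χ = 0) → χ ∈ Y)
    (x : ideleGroup K) (hx : ∀ χ ∈ Y, b x χ = 0) :
    ∃ y : ideleClassS K S, y ^ p = (QuotientGroup.mk x : ideleClassS K S) := by
  have hQ : ∀ x ∈ principalSubgroup K ⊔ E, ∀ χ, b x χ = 0 := by
    intro x hx χ
    obtain ⟨a, ha, e, he, rfl⟩ := Subgroup.mem_sup.1 hx
    rw [hmul, hrecip a ha, hE0 e he, add_zero]
  have hidx0 : (principalSubgroup K ⊔ E).index ≠ 0 := by
    rw [hidx]; exact pow_ne_zero n (Fact.out : p.Prime).ne_zero
  have hA := (ExistenceAbstract.mem_of_forall_pairing_eq_zero p b (principalSubgroup K ⊔ E)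
    hmul hadd hQ hpowE hnd hidx0 (hidx ▸ hX)).1
  have hmem := ExistenceAbstract.mem_sup_of_forall_pairing_eq_zero p b
    (principalSubgroup K ⊔ E) (uS K S) Y hmul hadd
    (ExistenceAbstract.nsmul_eq_zero_of_nondegenerate p b hadd hnd) hA hW x hx
  -- `x ∈ P ⊔ E ⊔ U_S ≤ P ⊔ U_S ⊔ J^p`
  obtain ⟨ae, hae, w, hw, rfl⟩ := Subgroup.mem_sup.1 hmem
  obtain ⟨a, ha, e, he, rfl⟩ := Subgroup.mem_sup.1 hae
  obtain ⟨u, hu, yp, hyp, rfl⟩ := Subgroup.mem_sup.1 (hEle he)
  obtain ⟨y, -, rfl⟩ := Subgroup.mem_map.1 hyp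
  refine ⟨QuotientGroup.mk y, ?_⟩
  rw [← QuotientGroup.mk_pow, QuotientGroup.eq]
  have h1 : a ∈ principalUnitSubgroup K S := principalSubgroup_le_principalUnitSubgroup S ha
  have h2 : u ∈ principalUnitSubgroup K S := uS_le_principalUnitSubgroup S hu
  have h3 : w ∈ principalUnitSubgroup K S := uS_le_principalUnitSubgroup S hw
  have h : (y ^ p)⁻¹ * (a * (u * powMonoidHom p y) * w) = a * u * w := by
    rw [powMonoidHom_apply, mul_comm u (y ^ p), mul_left_comm a (y ^ p) u, mul_assoc (y ^ p),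
      inv_mul_cancel_left]
  rw [h]
  exact mul_mem (mul_mem h1 h2) h3

end GenericE

section Idele

variable (K M : Type) [Field K] [Field M] [Algebra K M]

/-- The class in `C_M` of an idele of `K`, as an element of `ideleClassRep M Gal(M/K)`. -/
noncomputable def ideleClassOfBase (x : ideleGroup K) : ideleClassRep M (M ≃ₐ[K] M) :=
  Additive.ofMul (QuotientGroup.mk (ideleMap (algebraMap K M) x) : ideleClass M)

theorem ideleClassOfBase_mul (x y : ideleGroup K) :
    ideleClassOfBase K M (x * y) = ideleClassOfBase K M x + ideleClassOfBase K M y := by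
  unfold ideleClassOfBase
  rw [map_mul, QuotientGroup.mk_mul]
  rfl

theorem isInv_ideleClassOfBase (x : ideleGroup K) : IsInv _ (ideleClassOfBase K M x) := by
  intro σ
  show Additive.ofMul (σ • (QuotientGroup.mk (ideleMap (algebraMap K M) x) : ideleClass M)) = _
  rw [ideleClass_smul_mk, smul_ideleMap (algebraMap K M) (fun τ a => by
    rw [AlgEquiv.smul_def, AlgEquiv.commutes]) σ x]
  rfl

theorem ideleClassOfBase_of_mem_principalSubgroup {x : ideleGroup K} (hx : x ∈ principalSubgroup K) :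
    ideleClassOfBase K M x = 0 := by
  unfold ideleClassOfBase
  have h : ideleMap (algebraMap K M) x ∈ principalSubgroup M := by
    obtain ⟨a, ha⟩ := hx
    refine ⟨Units.map (algebraMap K M : K →* M) a, ?_⟩
    show principalIdele M _ = ideleProdMap (algebraMap K M) (x : IdeleProd K)
    have ha' : principalIdele K a = (x : IdeleProd K) := ha
    rw [← ha', ideleProdMap_principal]
  rw [(QuotientGroup.eq_one_iff _).2 h]
  rfl

/-- **(E)-hard, `μ_p ⊆ K`, in terms of an abstract global invariant** `invM` on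
`H²(Gal(M/K), C_M)` (`M/K` finite Galois; in the application `M = K(K_T^{1/p})`), for the pairing
`(x, χ) ↦ invM ([x] ∪ δχ)` (helper1's `symClass`). `Y` = characters unramified outside `S`. -/
theorem exists_pow_eq_mk_of_forall_inv_eq_zero [Finite (M ≃ₐ[K] M)]
    (p n : ℕ) [Fact p.Prime] (S : Set Nat.Primes) (E : Subgroup (ideleGroup K))
    (invM : H2 (ideleClassRep M (M ≃ₐ[K] M)) →+ AddCircle (1 : ℚ))
    (Y : Subgroup ((M ≃ₐ[K] M) →* Multiplicative (ZMod p)))
    (hE0 : ∀ x ∈ E, ∀ χ : (M ≃ₐ[K] M) →* Multiplicative (ZMod p),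
      invM (symClass _ χ (ideleClassOfBase K M x) (isInv_ideleClassOfBase K M x)) = 0)
    (hEle : E ≤ uS K S ⊔ Subgroup.map (powMonoidHom p) ⊤)
    (hpowE : ∀ x : ideleGroup K, x ^ p ∈ principalSubgroup K ⊔ E)
    (hidx : (principalSubgroup K ⊔ E).index = p ^ n)
    (hnd : ∀ χ : (M ≃ₐ[K] M) →* Multiplicative (ZMod p), χ ≠ 1 → ∃ x : ideleGroup K,
      invM (symClass _ χ (ideleClassOfBase K M x) (isInv_ideleClassOfBase K M x)) ≠ 0)
    (hX : p ^ n ≤ Nat.card ((M ≃ₐ[K] M) →* Multiplicative (ZMod p)))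
    (hW : ∀ χ : (M ≃ₐ[K] M) →* Multiplicative (ZMod p), (∀ w ∈ uS K S,
      invM (symClass _ χ (ideleClassOfBase K M w) (isInv_ideleClassOfBase K M w)) = 0) → χ ∈ Y)
    (x : ideleGroup K) (hx : ∀ χ ∈ Y,
      invM (symClass _ χ (ideleClassOfBase K M x) (isInv_ideleClassOfBase K M x)) = 0) :
    ∃ y : ideleClassS K S, y ^ p = (QuotientGroup.mk x : ideleClassS K S) := by
  have : NeZero p := ⟨(Fact.out : p.Prime).ne_zero⟩
  have : Finite ((M ≃ₐ[K] M) →* Multiplicative (ZMod p)) := DFunLike.finite _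
  let b : ideleGroup K → Additive ((M ≃ₐ[K] M) →* Multiplicative (ZMod p)) → ZMod p :=
    symbZ (ideleClassRep M (M ≃ₐ[K] M)) p invM (ideleClassOfBase K M) (isInv_ideleClassOfBase K M)
  have hb0 : ∀ x χ, b x χ = 0 ↔
      invM (symClass _ (Additive.toMul χ) (ideleClassOfBase K M x) (isInv_ideleClassOfBase K M x)) = 0 :=
    fun x χ => symbZ_eq_zero_iff _ p invM _ _ x χ
  refine exists_pow_eq_mk_of_orthogonal_of_index K p n S E (Subgroup.toAddSubgroup Y) b
    (fun x y χ => symbZ_mul _ p invM _ _ (ideleClassOfBase_mul K M) x y χ)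
    (fun x χ χ' => symbZ_add _ p invM _ _ x χ χ')
    (fun x hx χ => symbZ_of_eq_zero _ p invM _ _ x
      (ideleClassOfBase_of_mem_principalSubgroup K M hx) χ)
    (fun x hx χ => (hb0 x χ).2 (hE0 x hx _)) hEle hpowE hidx ?_ ?_ ?_ x ?_
  · intro χ hχ
    obtain ⟨x, hx⟩ := hnd (Additive.toMul χ) (fun h => hχ (by
      apply Additive.toMul.injective; rw [h]; rfl))
    exact ⟨x, fun h => hx ((hb0 x χ).1 h)⟩
  · rw [Nat.card_congr Additive.toMul]; exact hX
  · intro χ h
    exact hW (Additive.toMul χ) (fun w hw => (hb0 w χ).1 (h w hw))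
  · intro χ hχ
    exact (hb0 x χ).2 (hx (Additive.toMul χ) hχ)

end Idele

end ExistenceModP

end Fermat.Agent.CFT
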