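/-
S55 / C7: **packaging of the place-model index inputs for helper28's assembly**
(`Global/ExistenceModPSym.lean`): for `E := boxIdele (sPowFam p T)` the three inputs
`hEle`, `hpowE`, `hidx` of `ExistenceModP.exists_pow_eq_mk_of_forall_inv_eq_zero`, and the resulting
statement of (E)-hard for `μ_p ⊆ K` with the first inequality as the only index input.
-/
import Mathlib
import Fermat.Agent.CFT.Global.ExistenceCoreFI
import Fermat.Agent.CFT.Global.ExistenceModPSym

set_option autoImplicit false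
set_option linter.unusedSectionVars false

open scoped NumberField

namespace Fermat.Agent.CFT

namespace ExistenceCore

open Subgroup NumberField IsDedekindDomain IdeleDict groupCohomology

variable {K : Type} [Field K] [NumberField K]

/-- `U_{K,S}` of `ExistenceModP` is the box of `unitOutsideFam` over the places above `S`. -/
theorem boxIdele_unitOutsideFam_eq_uS (S : Set Nat.Primes) :
    boxIdele (unitOutsideFam (placesOver K S)) = ExistenceModP.uS K S :=
  boxIdele_unitOutsideFam_eq S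

/-- **(hEle)** `E_T ≤ U_{K,S} · J_K^p` for `T` containing the places over `S`. -/
theorem boxIdele_sPowFam_le_uS_sup_pow (p : ℕ) (S : Set Nat.Primes) (T : Finset (IdelePlace K))
    (hST : ∀ v : IdelePlace K, v.1 ∈ S → v ∈ T) :
    boxIdele (sPowFam p (T : Set (IdelePlace K))) ≤
      ExistenceModP.uS K S ⊔ Subgroup.map (powMonoidHom p) ⊤ := by
  refine (boxIdele_sPowFam_le p T).trans (sup_le_sup_right ?_ _)
  rw [← boxIdele_unitOutsideFam_eq_uS]
  exact boxIdele_mono (unitOutsideFam_anti fun v hv => Finset.mem_coe.2 (hST v hv))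

/-- **(E)-hard, `μ_p ⊆ K`, place model, first inequality as only index input**: helper28's
`ExistenceModP.exists_pow_eq_mk_of_forall_inv_eq_zero` with `E := boxIdele (sPowFam p T)`,
`n := rank K + |T| + 1`, the inputs `hEle`, `hpowE`, `hidx` discharged. -/
theorem exists_pow_eq_mk_of_forall_inv_eq_zero_of_firstIneq (M : Type) [Field M] [Algebra K M]
    [Finite (M ≃ₐ[K] M)] (pp : Nat.Primes) (hp2 : 2 < (pp : ℕ)) {ζ : K}
    (hζ : IsPrimitiveRoot ζ (pp : ℕ)) (S : Set Nat.Primes) (T : Finset (IdelePlace K))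
    (hST : ∀ v : IdelePlace K, v.1 ∈ S → v ∈ T)
    (hT : ∀ v : IdelePlace K, v.1 = pp → v ∈ T)
    (hgen : GeneratesClassGroup K (IdelePlace.prime '' (T : Set (IdelePlace K))))
    (hFI : ∀ (L : Type) [Field L] [NumberField L] [Algebra K L] [IsGalois K L]
      [IsCyclic (L ≃ₐ[K] L)] [FiniteDimensional K L], Module.finrank K L = (pp : ℕ) →
      principalSubgroup K ⊔ ideleNormSubgroup K L ≠ ⊤)
    (invM : H2 (ideleClassRep M (M ≃ₐ[K] M)) →+ AddCircle (1 : ℚ))
    (Y : Subgroup ((M ≃ₐ[K] M) →* Multiplicative (ZMod (pp : ℕ))))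
    (hE0 : ∀ x ∈ boxIdele (sPowFam (pp : ℕ) (T : Set (IdelePlace K))),
      ∀ χ : (M ≃ₐ[K] M) →* Multiplicative (ZMod (pp : ℕ)),
      invM (symClass _ χ (ExistenceModP.ideleClassOfBase K M x)
        (ExistenceModP.isInv_ideleClassOfBase K M x)) = 0)
    (hnd : ∀ χ : (M ≃ₐ[K] M) →* Multiplicative (ZMod (pp : ℕ)), χ ≠ 1 → ∃ x : ideleGroup K,
      invM (symClass _ χ (ExistenceModP.ideleClassOfBase K M x)
        (ExistenceModP.isInv_ideleClassOfBase K M x)) ≠ 0)
    (hX : (pp : ℕ) ^ (NumberField.Units.rank K + T.card + 1) ≤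
      Nat.card ((M ≃ₐ[K] M) →* Multiplicative (ZMod (pp : ℕ))))
    (hW : ∀ χ : (M ≃ₐ[K] M) →* Multiplicative (ZMod (pp : ℕ)),
      (∀ w ∈ ExistenceModP.uS K S,
        invM (symClass _ χ (ExistenceModP.ideleClassOfBase K M w)
          (ExistenceModP.isInv_ideleClassOfBase K M w)) = 0) → χ ∈ Y)
    (x : ideleGroup K) (hx : ∀ χ ∈ Y,
      invM (symClass _ χ (ExistenceModP.ideleClassOfBase K M x)
        (ExistenceModP.isInv_ideleClassOfBase K M x)) = 0) :
    ∃ y : ideleClassS K S, y ^ (pp : ℕ) = (QuotientGroup.mk x : ideleClassS K S) := by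
  have : Fact (pp : ℕ).Prime := ⟨pp.2⟩
  exact ExistenceModP.exists_pow_eq_mk_of_forall_inv_eq_zero K M (pp : ℕ)
    (NumberField.Units.rank K + T.card + 1) S
    (boxIdele (sPowFam (pp : ℕ) (T : Set (IdelePlace K)))) invM Y hE0
    (boxIdele_sPowFam_le_uS_sup_pow (pp : ℕ) S T hST)
    (pow_mem_principal_sup_boxIdele (pp : ℕ) T hgen)
    (ExistenceCount.index_principalSubgroup_sup_boxIdele pp hp2 hζ T hT hgen
      (exists_pow_eq_of_firstIneq pp hζ T hT hgen hFI))
    hnd hX hW x hx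

/-- **Finiteness of `C_S(K)/p`** (`μ_p ⊆ K`, place model, first-inequality form):
`[C_S(K) : C_S(K)^p]` divides `p ^ (rank K + |T| + 1)`. -/
theorem index_range_pow_ideleClassS_dvd (pp : Nat.Primes) (hp2 : 2 < (pp : ℕ)) {ζ : K}
    (hζ : IsPrimitiveRoot ζ (pp : ℕ)) (S : Set Nat.Primes) (T : Finset (IdelePlace K))
    (hST : ∀ v : IdelePlace K, v.1 ∈ S → v ∈ T)
    (hT : ∀ v : IdelePlace K, v.1 = pp → v ∈ T)
    (hgen : GeneratesClassGroup K (IdelePlace.prime '' (T : Set (IdelePlace K))))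
    (hFI : ∀ (L : Type) [Field L] [NumberField L] [Algebra K L] [IsGalois K L]
      [IsCyclic (L ≃ₐ[K] L)] [FiniteDimensional K L], Module.finrank K L = (pp : ℕ) →
      principalSubgroup K ⊔ ideleNormSubgroup K L ≠ ⊤) :
    (powMonoidHom (α := ideleClassS K S) (pp : ℕ)).range.index ∣
      (pp : ℕ) ^ (NumberField.Units.rank K + T.card + 1) := by
  rw [← ExistenceCount.index_principalSubgroup_sup_boxIdele pp hp2 hζ T hT hgen
      (exists_pow_eq_of_firstIneq pp hζ T hT hgen hFI),
    ← Subgroup.index_comap_of_surjective _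
      (QuotientGroup.mk'_surjective (principalUnitSubgroup K S))]
  refine Subgroup.index_dvd_of_le ?_
  intro x hx
  rw [Subgroup.mem_comap, MonoidHom.mem_range]
  obtain ⟨a, ha, e, he, rfl⟩ := Subgroup.mem_sup.1 hx
  obtain ⟨u, hu, yp, hyp, rfl⟩ :=
    Subgroup.mem_sup.1 (boxIdele_sPowFam_le_uS_sup_pow (pp : ℕ) S T hST he)
  obtain ⟨y, -, rfl⟩ := Subgroup.mem_map.1 hyp
  refine ⟨QuotientGroup.mk y, ?_⟩
  rw [powMonoidHom_apply, QuotientGroup.mk'_apply, ← QuotientGroup.mk_pow, QuotientGroup.eq]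
  have h1 : a ∈ principalUnitSubgroup K S :=
    ExistenceModP.principalSubgroup_le_principalUnitSubgroup S ha
  have h2 : u ∈ principalUnitSubgroup K S := ExistenceModP.uS_le_principalUnitSubgroup S hu
  have h : (y ^ (pp : ℕ))⁻¹ * (a * (u * powMonoidHom (pp : ℕ) y)) = a * u := by
    rw [powMonoidHom_apply, mul_comm u (y ^ (pp : ℕ)), mul_left_comm a (y ^ (pp : ℕ)) u,
      inv_mul_cancel_left]
  rw [h]
  exact mul_mem h1 h2

end ExistenceCore

end Fermat.Agent.CFT
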