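import Fermat.Agent.CFT.Global.GlobalInvDef
import Fermat.Agent.CFT.LayerConj
import Fermat.Agent.CFT.Tate.InnerTrivial

/-!
# Layer C6 (N2): the local invariants do not depend on the choice of the embedding

* `locGroupHom K τ' : Gal(L_τ'/K_τ) →* Gal(L/K)`, `locRepHom K τ'` (evaluation at `τ'`) and
  `semiLocalLocAt_eq_map`: the localisation `semiLocalLocAt K q τ'` is the single map
  `groupCohomology.map (locGroupHom K τ') (locRepHom K τ') 2`;
* `semiLocalInvAt_comp` (T2a), `semiLocalInvAt_smul` (T2b), `semiLocalInv_eq_finsum` (T2c).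
-/

set_option autoImplicit false
set_option linter.unusedSectionVars false
set_option linter.style.haveILetI false

open CategoryTheory groupCohomology

noncomputable section

namespace Fermat.Agent.CFT

open GaloisTower LayerMaps

variable (I : LocalInvFamily)
  (K : Type) [Field K] {L : Type} [Field L] [Algebra K L] [Normal K L]

section Loc

variable {q : ℕ} [Fact q.Prime]

local notation "Ω" => PadicAlgCl q

/-- `Gal(L_τ'/K_τ) → Gal(L/K)`: the decomposition group as the local Galois group. -/
def locGroupHom (τ' : LocalEmb q L) :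
    ((localLayer K τ') ≃ₐ[localFieldAt (localEmbRestrict K τ')] (localLayer K τ')) →*
      (L ≃ₐ[K] L) :=
  (decompAt K τ').subtype.comp (decompEquiv K τ').symm.symm.toMonoidHom

theorem locGroupHom_apply (τ' : LocalEmb q L)
    (g : (localLayer K τ') ≃ₐ[localFieldAt (localEmbRestrict K τ')] (localLayer K τ')) :
    locGroupHom K τ' g = ((decompEquiv K τ' g : decompAt K τ') : L ≃ₐ[K] L) := rfl

/-- `locGroupHom τ' g` is the automorphism `σ` of `L` with `g (τ' x) = τ' (σ x)`. -/
theorem locGroupHom_eq_iff (τ' : LocalEmb q L)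
    (g : (localLayer K τ') ≃ₐ[localFieldAt (localEmbRestrict K τ')] (localLayer K τ'))
    (σ : L ≃ₐ[K] L) :
    locGroupHom K τ' g = σ ↔ ∀ x : L,
      ((g (⟨τ' x, apply_mem_localFieldAt τ' x⟩ : localLayer K τ') : localLayer K τ') : Ω) =
        τ' (σ x) := by
  constructor
  · rintro rfl x
    exact apply_apply_eq_decompEquiv K τ' g x
  · intro h
    ext x
    apply τ'.injective
    rw [← h x, locGroupHom_apply]
    exact (apply_apply_eq_decompEquiv K τ' g x).symm

/-- The identity `L_τ'ˣ → L_τ'ˣ` from the module over the decomposition group to the module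
over the local Galois group. -/
def localUnitsRepHom (τ' : LocalEmb q L) :
    Rep.res (decompEquiv K τ').symm.symm.toMonoidHom (localUnitsRep K τ') ⟶
      Rep.ofAlgebraAutOnUnits (localFieldAt (localEmbRestrict K τ')) (localLayer K τ') :=
  Rep.ofHom ⟨LinearMap.id, fun g => by
    refine LinearMap.ext fun x => ?_
    show (Rep.ofAlgebraAutOnUnits (localFieldAt (localEmbRestrict K τ')) (localLayer K τ')).ρ
        ((decompEquiv K τ').symm (decompEquiv K τ' g)) x =
      (Rep.ofAlgebraAutOnUnits (localFieldAt (localEmbRestrict K τ')) (localLayer K τ')).ρ g x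
    rw [MulEquiv.symm_apply_apply]⟩

theorem localUnitsCohIso_hom (τ' : LocalEmb q L) (n : ℕ) :
    (localUnitsCohIso K τ' n).hom =
      groupCohomology.map (decompEquiv K τ').symm.symm.toMonoidHom (localUnitsRepHom K τ') n :=
  rfl

/-- Evaluation at `τ'`, `A_q(L) → L_τ'ˣ`, as a morphism of representations of `Gal(L_τ'/K_τ)`. -/
def locRepHom (τ' : LocalEmb q L) :
    Rep.res (locGroupHom K τ') (semiLocalRep L (L ≃ₐ[K] L) q) ⟶
      Rep.ofAlgebraAutOnUnits (localFieldAt (localEmbRestrict K τ')) (localLayer K τ') :=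
  (Rep.resFunctor (decompEquiv K τ').symm.symm.toMonoidHom).map (semiLocalLoc K τ') ≫
    localUnitsRepHom K τ'

/-- The value of `locRepHom τ' f` is `f τ'`. -/
theorem locRepHom_val (τ' : LocalEmb q L) (f : Additive (semiLocalUnits q L)) :
    ((((Additive.toMul ((locRepHom K τ').hom f : Additive (localLayer K τ')ˣ) :
      (localLayer K τ')ˣ) : localLayer K τ') : Ω)) =
      (((Additive.toMul f : semiLocalUnits q L) : LocalEmb q L → Ωˣ) τ' : Ω) := by
  have h := semiLocalLoc_val K τ' f
  have h2 := congrArg (fun w : Ωˣ => (w : Ω)) h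
  exact h2

/-- The localisation at `τ'` as a single `groupCohomology.map`. -/
theorem map_locGroupHom_locRepHom (τ' : LocalEmb q L) (n : ℕ) :
    groupCohomology.map (locGroupHom K τ') (locRepHom K τ') n =
      groupCohomology.map (decompAt K τ').subtype (semiLocalLoc K τ') n ≫
        (localUnitsCohIso K τ' n).hom := by
  rw [localUnitsCohIso_hom]
  exact groupCohomology.map_comp (decompAt K τ').subtype
    (decompEquiv K τ').symm.symm.toMonoidHom (semiLocalLoc K τ') (localUnitsRepHom K τ') n


/-- An `inv_layerMap` for layers with equal fields: the invariant does not see the proofs. -/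
theorem LayerInvSystem.inv_congr {k Ω' : Type} [Field k] [Field Ω'] [Algebra k Ω']
    (S : LayerInvSystem k Ω') {E E' : IntermediateField k Ω'} (h₁ h₂ : E ≤ E')
    (x : groupCohomology (Rep.ofAlgebraAutOnUnits E (layer h₁)) 2) :
    S.inv h₂ x = S.inv h₁ x := rfl

/-- Transport lemma for (T2a): a localisation datum `(ι, ev)` on a layer `F ≤ F'` with `F = K_τ`,
`F' = L_τ'` which behaves like the localisation at `τ' ∘ s` has the same invariant as the
localisation at `τ'`. -/
theorem inv_map_eq_of_comp (S : LayerInvSystem ℚ_[q] Ω) (τ' : LocalEmb q L) (s : L ≃ₐ[K] L)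
    {F F' : IntermediateField ℚ_[q] Ω} (hF : F ≤ F')
    (e : F = localFieldAt (localEmbRestrict K τ')) (e' : F' = localFieldAt τ')
    (ι : ((layer hF) ≃ₐ[F] (layer hF)) →* (L ≃ₐ[K] L))
    (ev : Rep.res ι (semiLocalRep L (L ≃ₐ[K] L) q) ⟶ Rep.ofAlgebraAutOnUnits F (layer hF))
    (hι : ∀ (g : (layer hF) ≃ₐ[F] (layer hF)) (y : layer hF) (x : L), (y : Ω) = τ' (s x) →
      ((g y : layer hF) : Ω) = τ' (s (ι g x)))
    (hev : ∀ f : Additive (semiLocalUnits q L),
      (((Additive.toMul (ev.hom f : Additive (layer hF)ˣ) : (layer hF)ˣ) : layer hF) : Ω) =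
        (((Additive.toMul f : semiLocalUnits q L) : LocalEmb q L → Ωˣ)
          (τ'.comp (s : L →+* L)) : Ω))
    (x : groupCohomology (semiLocalRep L (L ≃ₐ[K] L) q) 2) :
    S.inv hF ((groupCohomology.map ι ev 2).hom x) =
      S.inv (localFieldAt_restrict_le K τ')
        ((groupCohomology.map (locGroupHom K τ') (locRepHom K τ') 2).hom x) := by
  subst e e'
  have hgrp : ι = (conjInvHom s).comp (locGroupHom K τ') := by
    ext g : 1
    rw [MonoidHom.comp_apply, conjInvHom_apply]
    ext x
    apply s.injective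
    apply τ'.injective
    rw [← hι g ⟨τ' (s x), apply_mem_localFieldAt τ' (s x)⟩ x rfl]
    have h1 := apply_apply_eq_decompEquiv K τ' g (s x)
    rw [h1]
    show τ' (locGroupHom K τ' g (s x)) = τ' (s ((s⁻¹ * locGroupHom K τ' g * s) x))
    rw [AlgEquiv.mul_apply, AlgEquiv.mul_apply, AlgEquiv.aut_inv, AlgEquiv.apply_symm_apply]
  have key : groupCohomology.map ι ev 2 =
      groupCohomology.map (locGroupHom K τ') (locRepHom K τ') 2 := by
    calc groupCohomology.map ι ev 2
        = groupCohomology.map ((conjInvHom s).comp (locGroupHom K τ'))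
            ((Rep.resFunctor (locGroupHom K τ')).map
              (conjRepHom (semiLocalRep L (L ≃ₐ[K] L) q) s) ≫ locRepHom K τ') 2 := by
          refine groupCohomology.map_congr hgrp ?_ 2
          refine LinearMap.ext fun f => ?_
          apply Additive.toMul.injective
          apply Units.ext
          apply Subtype.ext
          refine (hev f).trans ?_
          have h1 := locRepHom_val K τ'
            ((conjRepHom (semiLocalRep L (L ≃ₐ[K] L) q) s).hom f)
          refine Eq.trans ?_ h1.symm
          have h2 : τ'.comp (s : L →+* L) =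
              τ'.comp (MulSemiringAction.toRingHom (L ≃ₐ[K] L) L s) := RingHom.ext fun _ => rfl
          rw [h2]
          rfl
      _ = groupCohomology.map (conjInvHom s) (conjRepHom (semiLocalRep L (L ≃ₐ[K] L) q) s) 2 ≫
            groupCohomology.map (locGroupHom K τ') (locRepHom K τ') 2 :=
          groupCohomology.map_comp _ _ _ _ 2
      _ = _ := by rw [map_conj_H2, Category.id_comp]
  rw [key]

/-- Transport lemma for (T2b): a localisation datum `(ι, ev)` on a layer `F ≤ F'` with
`F = γ K_τ`, `F' = γ L_τ'` which behaves like the localisation at `γ • τ'` has the same invariant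
as the localisation at `τ'`, for a conjugation invariant system. -/
theorem inv_map_eq_of_smul [NumberField L] (S : LayerInvSystem ℚ_[q] Ω) (hS : S.IsConjInvariant)
    (τ' : LocalEmb q L) (γ : Gq q)
    {F F' : IntermediateField ℚ_[q] Ω} (hF : F ≤ F')
    (e : F = conjField γ (localFieldAt (localEmbRestrict K τ')))
    (e' : F' = conjField γ (localFieldAt τ'))
    (ι : ((layer hF) ≃ₐ[F] (layer hF)) →* (L ≃ₐ[K] L))
    (ev : Rep.res ι (semiLocalRep L (L ≃ₐ[K] L) q) ⟶ Rep.ofAlgebraAutOnUnits F (layer hF))
    (hι : ∀ (g : (layer hF) ≃ₐ[F] (layer hF)) (y : layer hF) (x : L), (y : Ω) = γ (τ' x) →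
      ((g y : layer hF) : Ω) = γ (τ' (ι g x)))
    (hev : ∀ f : Additive (semiLocalUnits q L),
      (((Additive.toMul (ev.hom f : Additive (layer hF)ˣ) : (layer hF)ˣ) : layer hF) : Ω) =
        γ (((Additive.toMul f : semiLocalUnits q L) : LocalEmb q L → Ωˣ) τ' : Ω))
    (x : groupCohomology (semiLocalRep L (L ≃ₐ[K] L) q) 2) :
    S.inv hF ((groupCohomology.map ι ev 2).hom x) =
      S.inv (localFieldAt_restrict_le K τ')
        ((groupCohomology.map (locGroupHom K τ') (locRepHom K τ') 2).hom x) := by
  subst e e'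
  haveI := finiteDimensional_localFieldAt τ'
  rw [← hS γ (localFieldAt_restrict_le K τ') _]
  letI := algConjBase γ (localFieldAt (localEmbRestrict K τ'))
  letI := algConjTop γ (localFieldAt_restrict_le K τ')
  letI := algConjDiag γ (localFieldAt_restrict_le K τ')
  haveI := conj_tower_base γ (localFieldAt_restrict_le K τ')
  haveI := conj_tower_top γ (localFieldAt_restrict_le K τ')
  have hgrp : ι = (locGroupHom K τ').comp
      (galRes (localFieldAt (localEmbRestrict K τ')) (localLayer K τ')
        (conjField γ (localFieldAt (localEmbRestrict K τ')))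
        (layer (conjField_mono γ (localFieldAt_restrict_le K τ')))) := by
    ext g : 1
    symm
    rw [MonoidHom.comp_apply, locGroupHom_eq_iff]
    intro x
    apply γ.injective
    have h1 := galRes_commutes (K₁ := localFieldAt (localEmbRestrict K τ'))
      (L₁ := localLayer K τ') (K₂ := conjField γ (localFieldAt (localEmbRestrict K τ')))
      (L₂ := layer (conjField_mono γ (localFieldAt_restrict_le K τ'))) g
      (⟨τ' x, apply_mem_localFieldAt τ' x⟩ : localLayer K τ')
    have h2 := congrArg (fun w : layer (conjField_mono γ (localFieldAt_restrict_le K τ')) =>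
      (w : Ω)) h1
    rw [← hι g (conjTop γ (localFieldAt_restrict_le K τ')
      (⟨τ' x, apply_mem_localFieldAt τ' x⟩ : localLayer K τ')) x rfl]
    exact h2
  have key : groupCohomology.map ι ev 2 =
      groupCohomology.map (locGroupHom K τ') (locRepHom K τ') 2 ≫
        layerConj γ (localFieldAt_restrict_le K τ') 2 := by
    show _ = _ ≫ galMap (localFieldAt (localEmbRestrict K τ')) (localLayer K τ')
        (conjField γ (localFieldAt (localEmbRestrict K τ')))
        (layer (conjField_mono γ (localFieldAt_restrict_le K τ'))) 2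
    rw [galMap, ← groupCohomology.map_comp]
    refine groupCohomology.map_congr hgrp ?_ 2
    refine LinearMap.ext fun f => ?_
    apply Additive.toMul.injective
    apply Units.ext
    apply Subtype.ext
    refine (hev f).trans ?_
    have h1 := locRepHom_val K τ' f
    rw [← h1]
    rfl
  rw [key]
  rfl

end Loc

section Inv

theorem semiLocalLocAt_apply (q : Nat.Primes) (τ' : LocalEmb ((q : Nat.Primes) : ℕ) L)
    (x : groupCohomology (semiLocalRep L (L ≃ₐ[K] L) ((q : Nat.Primes) : ℕ)) 2) :
    semiLocalLocAt K q τ' x =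
      (groupCohomology.map (locGroupHom K τ') (locRepHom K τ') 2).hom x := by
  rw [map_locGroupHom_locRepHom]
  rfl

theorem semiLocalInvAt_apply (q : Nat.Primes) (τ' : LocalEmb ((q : Nat.Primes) : ℕ) L)
    (x : groupCohomology (semiLocalRep L (L ≃ₐ[K] L) ((q : Nat.Primes) : ℕ)) 2) :
    semiLocalInvAt I K q τ' x =
      (I q).inv (localFieldAt_restrict_le K τ')
        ((groupCohomology.map (locGroupHom K τ') (locRepHom K τ') 2).hom x) := by
  rw [← semiLocalLocAt_apply]
  rfl

/-- **(T2a)** Changing the embedding by an automorphism of `L/K` does not change the local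
invariant (inner automorphisms act trivially on `H²`). -/
theorem semiLocalInvAt_comp (q : Nat.Primes) (τ' : LocalEmb ((q : Nat.Primes) : ℕ) L)
    (s : L ≃ₐ[K] L) :
    semiLocalInvAt I K q (τ'.comp (s : L →+* L)) = semiLocalInvAt I K q τ' := by
  refine AddMonoidHom.ext fun x => ?_
  rw [semiLocalInvAt_apply, semiLocalInvAt_apply]
  refine inv_map_eq_of_comp K (I q) τ' s (localFieldAt_restrict_le K (τ'.comp (s : L →+* L)))
    ?_ (localFieldAt_comp_algEquiv K τ' s) _ _ ?_ ?_ x
  · rw [localEmbRestrict_comp_algEquiv]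
  · intro g y x hy
    have hy' : y = (⟨(τ'.comp (s : L →+* L)) x, apply_mem_localFieldAt _ x⟩ :
        localLayer K (τ'.comp (s : L →+* L))) := Subtype.ext hy
    rw [hy']
    exact apply_apply_eq_decompEquiv K (τ'.comp (s : L →+* L)) g x
  · intro f
    exact locRepHom_val K (τ'.comp (s : L →+* L)) f

/-- **(T2b)** Changing the embedding by an element of `Gal(ℚ̄_q/ℚ_q)` does not change the local
invariant (transport of structure). -/
theorem semiLocalInvAt_smul [NumberField L] (hI : ∀ q, (I q).IsConjInvariant) (q : Nat.Primes)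
    (γ : Gq ((q : Nat.Primes) : ℕ)) (τ' : LocalEmb ((q : Nat.Primes) : ℕ) L) :
    semiLocalInvAt I K q (γ • τ') = semiLocalInvAt I K q τ' := by
  refine AddMonoidHom.ext fun x => ?_
  rw [semiLocalInvAt_apply, semiLocalInvAt_apply]
  refine inv_map_eq_of_smul K (I q) (hI q) τ' γ (localFieldAt_restrict_le K (γ • τ'))
    ?_ (localFieldAt_smul γ τ') _ _ ?_ ?_ x
  · rw [localEmbRestrict_smul, localFieldAt_smul]
  · intro g y x hy
    have hy' : y = (⟨(γ • τ') x, apply_mem_localFieldAt _ x⟩ : localLayer K (γ • τ')) :=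
      Subtype.ext hy
    rw [hy']
    exact apply_apply_eq_decompEquiv K (γ • τ') g x
  · intro f
    rw [locRepHom_val K (γ • τ') f]
    exact semiLocalUnits_apply_smul _ γ τ'

/-- The local invariant at `τ'` only depends on the place of `K` below `τ'`. -/
theorem semiLocalInvAt_eq_of_place_eq [NumberField L] (hI : ∀ q, (I q).IsConjInvariant)
    (q : Nat.Primes) {τ₁' τ₂' : LocalEmb ((q : Nat.Primes) : ℕ) L}
    (h : (localEmbRestrict K τ₁').place = (localEmbRestrict K τ₂').place) :
    semiLocalInvAt I K q τ₁' = semiLocalInvAt I K q τ₂' := by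
  obtain ⟨γ, hγ⟩ := Quotient.exact h
  have h1 : localEmbRestrict K (γ⁻¹ • τ₁') = localEmbRestrict K τ₂' := by
    rw [localEmbRestrict_smul, ← hγ, inv_smul_smul]
  obtain ⟨σ, hσ, -⟩ := exists_unique_algEquiv_comp K h1
  rw [hσ, semiLocalInvAt_comp, semiLocalInvAt_smul I K hI]

/-- **(T2c)** The semi-local invariant can be computed with any system of lifts of the places. -/
theorem semiLocalInv_eq_finsum [NumberField L] (hI : ∀ q, (I q).IsConjInvariant) (q : Nat.Primes)
    [Finite (LocalPlace ((q : Nat.Primes) : ℕ) K)]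
    (t : LocalPlace ((q : Nat.Primes) : ℕ) K → LocalEmb ((q : Nat.Primes) : ℕ) L)
    (ht : ∀ ω, (localEmbRestrict K (t ω)).place = ω)
    (x : groupCohomology (semiLocalRep L (L ≃ₐ[K] L) ((q : Nat.Primes) : ℕ)) 2) :
    semiLocalInv I K q x = ∑ᶠ ω, semiLocalInvAt I K q (t ω) x := by
  rw [semiLocalInv_apply]
  refine finsum_congr fun ω => ?_
  rw [semiLocalInvAt_eq_of_place_eq I K hI q (τ₁' := placeLift K ω) (τ₂' := t ω)]
  rw [localEmbRestrict_placeLift, ht ω]
  exact ω.place_emb

end Inv

end Fermat.Agent.CFT

end
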