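import Fermat.Agent.CFT.Global.SemiLocalH

/-!
# Layer C / C1a: local structure of the semi-local units (part 5: norms)

`L/K` finite Galois, `H = Gal(L/K)`.

* `norm_gq_apply`: `Gq` acts on `ℚ̄_q` by isometries;
* `prod_smul_apply`: `(∏_σ σ • f) τ' = ∏_σ f (τ' ∘ σ)`;
* `exists_localNorm_eq_prod`: `(N_H f) τ'` is a norm from `L_τ'` to `K_τ`;
* `semiLocal_exists_norm_eq_iff`: an `H`-invariant semi-local unit `x` is a norm from `A_q(L)` iff
  for every place its value is a local norm (Shapiro for `Ĥ⁰`);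
* integral versions: `semiLocalIntegral_normSurjOn` (hypothesis form).
-/

set_option autoImplicit false
set_option linter.unusedSectionVars false
set_option linter.style.haveILetI false

open scoped Pointwise

noncomputable section

namespace Fermat.Agent.CFT

open Fermat.Agent.CFT.GaloisTower CategoryTheory groupCohomology

variable {q : ℕ} [Fact q.Prime] (K : Type) [Field K] {L : Type} [Field L] [Algebra K L]
  [Normal K L]

local notation "Ω" => PadicAlgCl q

/-- `Gal(ℚ̄_q/ℚ_q)` acts by isometries. -/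
theorem norm_gq_apply (γ : Gq q) (x : Ω) : ‖γ x‖ = ‖x‖ := by
  rw [← PadicAlgCl.spectralNorm_eq, ← PadicAlgCl.spectralNorm_eq]
  exact (spectralNorm_eq_of_equiv γ x).symm

theorem localUnitsRep.val_zero (τ' : LocalEmb q L) :
    localUnitsRep.val K τ' 0 = 1 := by
  apply Units.ext
  rfl

theorem localUnitsRep.val_sum (τ' : LocalEmb q L) {ι : Type*} (s : Finset ι)
    (u : ι → localUnitsRep K τ') :
    localUnitsRep.val K τ' (∑ i ∈ s, u i) = ∏ i ∈ s, localUnitsRep.val K τ' (u i) := by
  classical
  induction s using Finset.induction_on with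
  | empty => simpa using localUnitsRep.val_zero K τ'
  | insert a s ha ih =>
    rw [Finset.sum_insert ha, Finset.prod_insert ha, localUnitsRep.val_add, ih]

variable [FiniteDimensional K L]

/-- `(∏_σ σ • f) τ' = ∏_σ f (τ' ∘ σ)`. -/
theorem prod_smul_apply (f : semiLocalUnits q L) (τ' : LocalEmb q L) :
    ((∏ σ : L ≃ₐ[K] L, σ • f : semiLocalUnits q L) : LocalEmb q L → Ωˣ) τ' =
      ∏ σ : L ≃ₐ[K] L, (f : LocalEmb q L → Ωˣ) (τ'.comp (σ : L →+* L)) := by
  have h : ∀ (s : Finset (L ≃ₐ[K] L)),
      ((∏ σ ∈ s, σ • f : semiLocalUnits q L) : LocalEmb q L → Ωˣ) τ' =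
        ∏ σ ∈ s, (f : LocalEmb q L → Ωˣ) (τ'.comp (σ : L →+* L)) := by
    classical
    intro s
    induction s using Finset.induction_on with
    | empty => simp
    | insert a s ha ih =>
      rw [Finset.prod_insert ha, Finset.prod_insert ha, Subgroup.coe_mul, Pi.mul_apply, ih]
      rfl
  exact h Finset.univ

/-- The sum over `H` of the coinduced function attached to `f` is `(N_H f) τ'`. -/
theorem val_sum_semiLocalThetaFun (f : semiLocalUnits q L) (τ' : LocalEmb q L) :
    localUnitsRep.val K τ' (∑ σ : L ≃ₐ[K] L, (semiLocalThetaFun K τ' f).1 σ) =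
      ((∏ σ : L ≃ₐ[K] L, σ • f : semiLocalUnits q L) : LocalEmb q L → Ωˣ) τ' := by
  rw [localUnitsRep.val_sum, prod_smul_apply]
  exact Finset.prod_congr rfl fun σ _ => semiLocalThetaFun_val K τ' f σ

open scoped Classical in
/-- The sum over the decomposition group of the conjugates of `Y ∈ L_τ'ˣ` is the field norm. -/
theorem val_sum_ρ_eq_norm [NumberField L] (τ' : LocalEmb q L) (Y : localUnitsRep K τ') :
    haveI := finiteDimensional_localLayer K τ'
    ((localUnitsRep.val K τ' (∑ s : decompAt K τ', (localUnitsRep K τ').ρ s Y) : Ωˣ) : Ω) =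
      ((Algebra.norm (localFieldAt (localEmbRestrict K τ'))
        ((Additive.toMul (Y : Additive (localLayer K τ')ˣ) : (localLayer K τ')ˣ) :
          localLayer K τ') : localFieldAt (localEmbRestrict K τ')) : Ω) := by
  haveI := finiteDimensional_localLayer K τ'
  haveI := isGalois_localLayer K τ'
  set y : localLayer K τ' :=
    ((Additive.toMul (Y : Additive (localLayer K τ')ˣ) : (localLayer K τ')ˣ) : localLayer K τ')
    with hy
  have h1 : algebraMap (localFieldAt (localEmbRestrict K τ')) (localLayer K τ')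
      (Algebra.norm (localFieldAt (localEmbRestrict K τ')) y) =
      ∏ g : (localLayer K τ') ≃ₐ[localFieldAt (localEmbRestrict K τ')] (localLayer K τ'), g y :=
    Algebra.norm_eq_prod_automorphisms _ y
  have h2 : ((Algebra.norm (localFieldAt (localEmbRestrict K τ')) y :
      localFieldAt (localEmbRestrict K τ')) : Ω) =
      ((algebraMap (localFieldAt (localEmbRestrict K τ')) (localLayer K τ')
        (Algebra.norm (localFieldAt (localEmbRestrict K τ')) y) : localLayer K τ') : Ω) := rfl
  rw [h2, h1, localUnitsRep.val_sum]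
  rw [← Fintype.prod_equiv (decompEquiv K τ').toEquiv
    (fun g => localUnitsRep.val K τ' ((localUnitsRep K τ').ρ (decompEquiv K τ' g) Y))
    (fun s => localUnitsRep.val K τ' ((localUnitsRep K τ').ρ s Y)) (fun g => rfl)]
  rw [Units.coe_prod]
  have h4 : ((∏ g : (localLayer K τ') ≃ₐ[localFieldAt (localEmbRestrict K τ')] (localLayer K τ'),
      g y : localLayer K τ') : Ω) = ∏ g : (localLayer K τ') ≃ₐ[localFieldAt
        (localEmbRestrict K τ')] (localLayer K τ'), ((g y : localLayer K τ') : Ω) :=
    map_prod (algebraMap (localLayer K τ') Ω) _ _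
  rw [h4]
  refine Finset.prod_congr rfl fun g _ => ?_
  show ((localUnitsRep.val K τ' ((localUnitsRep K τ').ρ (decompEquiv K τ' g) Y) : Ωˣ) : Ω) =
    ((g y : localLayer K τ') : Ω)
  have h3 : (decompEquiv K τ').symm (decompEquiv K τ' g) = g := MulEquiv.symm_apply_apply _ g
  show (((decompEquiv K τ').symm (decompEquiv K τ' g) y : localLayer K τ') : Ω) = _
  rw [h3]

open scoped Classical in
/-- Summing an element of the coinduced module over `H` is summing a partial sum over the
decomposition group. -/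
theorem exists_sum_ρ_eq_sum (τ' : LocalEmb q L)
    (F : Rep.coind (decompAt K τ').subtype (localUnitsRep K τ')) :
    ∃ Y : localUnitsRep K τ', ∑ s : decompAt K τ', (localUnitsRep K τ').ρ s Y =
      ∑ σ : L ≃ₐ[K] L, F.1 σ := by
  obtain ⟨T, hT, -⟩ := Subgroup.exists_isComplement_right (decompAt K τ') 1
  letI : Fintype T := Fintype.ofFinite T
  refine ⟨∑ t : T, F.1 t, ?_⟩
  have hbij : Function.Bijective fun x : decompAt K τ' × T => ((x.1 : L ≃ₐ[K] L) * (x.2 : L ≃ₐ[K] L)) :=
    hT
  rw [← Fintype.sum_bijective _ hbij (fun x => F.1 ((x.1 : L ≃ₐ[K] L) * (x.2 : L ≃ₐ[K] L)))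
    (fun σ => F.1 σ) (fun x => rfl), Fintype.sum_prod_type]
  refine Finset.sum_congr rfl fun s _ => ?_
  rw [map_sum]
  refine Finset.sum_congr rfl fun t _ => ?_
  exact (F.2 s t).symm

/-- `(N_H f) τ'` is a norm from `L_τ'` to `K_τ`. -/
theorem exists_localNorm_eq_prod [NumberField L] (f : semiLocalUnits q L) (τ' : LocalEmb q L) :
    ∃ y : (localLayer K τ')ˣ,
      ((Algebra.norm (localFieldAt (localEmbRestrict K τ')) (y : localLayer K τ') :
        localFieldAt (localEmbRestrict K τ')) : Ω) =
      (((∏ σ : L ≃ₐ[K] L, σ • f : semiLocalUnits q L) : LocalEmb q L → Ωˣ) τ' : Ω) := by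
  classical
  obtain ⟨Y, hY⟩ := exists_sum_ρ_eq_sum K τ' (semiLocalThetaFun K τ' f)
  refine ⟨Additive.toMul (Y : Additive (localLayer K τ')ˣ), ?_⟩
  rw [← val_sum_semiLocalThetaFun, ← hY]
  exact (val_sum_ρ_eq_norm K τ' Y).symm

open scoped Classical in
/-- The element of the coinduced module supported on the decomposition group, with value `Y` at
`1`. -/
def coindOfLocal (τ' : LocalEmb q L) (Y : localUnitsRep K τ') :
    Rep.coind (decompAt K τ').subtype (localUnitsRep K τ') :=
  ⟨fun h => if hh : h ∈ decompAt K τ' then (localUnitsRep K τ').ρ ⟨h, hh⟩ Y else 0, by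
    intro s h
    by_cases hh : h ∈ decompAt K τ'
    · have hsh : (decompAt K τ').subtype s * h ∈ decompAt K τ' := mul_mem s.2 hh
      simp only [dif_pos hh, dif_pos hsh]
      have : (⟨(decompAt K τ').subtype s * h, hsh⟩ : decompAt K τ') = s * ⟨h, hh⟩ :=
        Subtype.ext rfl
      rw [this, map_mul]
      rfl
    · have hsh : (decompAt K τ').subtype s * h ∉ decompAt K τ' := fun hc =>
        hh (by
          have := mul_mem (inv_mem s.2) hc
          simpa using this)
      simp only [dif_neg hh, dif_neg hsh]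
      exact (map_zero _).symm⟩

open scoped Classical in
theorem sum_coindOfLocal (τ' : LocalEmb q L) (Y : localUnitsRep K τ') :
    ∑ σ : L ≃ₐ[K] L, (coindOfLocal K τ' Y).1 σ =
      ∑ s : decompAt K τ', (localUnitsRep K τ').ρ s Y := by
  have h1 : ∑ σ ∈ Finset.univ.filter (fun σ : L ≃ₐ[K] L => σ ∈ decompAt K τ'),
      (coindOfLocal K τ' Y).1 σ = ∑ σ : L ≃ₐ[K] L, (coindOfLocal K τ' Y).1 σ := by
    apply Finset.sum_filter_of_ne
    intro σ _ hσ
    by_contra hc
    exact hσ (dif_neg hc)
  rw [← h1, Finset.sum_subtype (p := fun σ : L ≃ₐ[K] L => σ ∈ decompAt K τ')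
    (Finset.univ.filter (fun σ : L ≃ₐ[K] L => σ ∈ decompAt K τ')) (by simp)]
  refine Finset.sum_congr rfl fun s _ => ?_
  exact dif_pos s.2

/-- The norm `∏_σ σ • f` is `H`-invariant. -/
theorem smul_prod_smul (h : L ≃ₐ[K] L) (f : semiLocalUnits q L) :
    h • (∏ σ : L ≃ₐ[K] L, σ • f) = ∏ σ : L ≃ₐ[K] L, σ • f := by
  rw [Finset.smul_prod']
  simp only [← mul_smul]
  exact Fintype.prod_bijective (fun σ => h * σ) (Group.mulLeft_bijective h) _ _ fun σ => rfl

/-- **Shapiro for `Ĥ⁰`**: an `H`-invariant semi-local unit of `L` is a norm from `A_q(L)` iff its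
value at every embedding `τ'` is a norm from the local field `L_τ'` to `K_τ`. -/
theorem semiLocal_exists_norm_eq_iff [NumberField K] [NumberField L] (x : semiLocalUnits q L)
    (hx : ∀ σ : L ≃ₐ[K] L, σ • x = x) :
    (∃ f : semiLocalUnits q L, ∏ σ : L ≃ₐ[K] L, σ • f = x) ↔
      ∀ τ' : LocalEmb q L, ∃ y : (localLayer K τ')ˣ,
        ((Algebra.norm (localFieldAt (localEmbRestrict K τ')) (y : localLayer K τ') :
          localFieldAt (localEmbRestrict K τ')) : Ω) =
        ((x : LocalEmb q L → Ωˣ) τ' : Ω) := by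
  classical
  constructor
  · rintro ⟨f, rfl⟩ τ'
    exact exists_localNorm_eq_prod K f τ'
  · intro hloc
    choose y hy using fun ω : LocalPlace q K => hloc (placeLift K ω)
    obtain ⟨a, ha⟩ := (semiLocalTheta_bijective (q := q) K (L := L)).2
      fun ω => coindOfLocal K (placeLift K ω) (Additive.ofMul (y ω))
    refine ⟨Additive.toMul a, ?_⟩
    apply semiLocalUnits_ext_placeLift (K := K)
    intro ω h
    have hinv : ∀ (g : semiLocalUnits q L), (∀ σ : L ≃ₐ[K] L, σ • g = g) →
        (g : LocalEmb q L → Ωˣ) ((placeLift K ω : LocalEmb q L).comp (h : L →+* L)) =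
          (g : LocalEmb q L → Ωˣ) (placeLift K ω) := by
      intro g hg
      have := congrArg (fun G : semiLocalUnits q L =>
        (G : LocalEmb q L → Ωˣ) (placeLift K ω)) (hg h)
      exact this
    rw [hinv _ (fun σ => smul_prod_smul K σ _), hinv x hx]
    apply Units.ext
    rw [← hy ω, ← val_sum_semiLocalThetaFun]
    have h1 : semiLocalThetaFun K (placeLift K ω) (Additive.toMul a) =
        coindOfLocal K (placeLift K ω) (Additive.ofMul (y ω)) := congrFun ha ω
    rw [h1, sum_coindOfLocal, val_sum_ρ_eq_norm]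
    rfl

end Fermat.Agent.CFT

end
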