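import Mathlib
import Fermat.Agent.CFT.Global.KummerLocalField
import Fermat.Agent.CFT.Global.SemiLocalH
import Fermat.Agent.CFT.Local.UnramSymbol
import Fermat.Agent.CFT.Global.SemiLocalNorm
import Fermat.Agent.CFT.Global.SemiLocalNormPatch
import Fermat.Agent.CFT.Local.LayerUnramDefs


/-!
# Layer C / C3K' (N4, N6): unramifiedness at a place in the semi-local model

`K ⊆ L` number fields, `L/K` Galois, `τ' : LocalEmb q L` with restriction `τ` to `K`,
`K_τ = localFieldAt τ`, `L_τ' = localLayer K τ'`, base ring `PadicTower.intRing q K_τ`.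

* `localGalHom K τ' : Gal(L_τ'/K_τ) →* Gal(L/K)` (injective, range `decompAt K τ'`);
* `inertiaAt K τ' ≤ decompAt K τ'` the inertia group at the place of `τ'`;
  `inertiaAt_eq_bot_iff : inertiaAt K τ' = ⊥ ↔ IsUnrLayer ℤ_[q] (localFieldAt_restrict_le K τ')`;
* `isUnrLayer_localLayer_iff_forall_norm` (N2 + N4): for a cyclic decomposition group the layer is
  unramified iff every element of norm one of `K_τ` is a norm from `L_τ'`;
* `isUnrLayer_localLayer_of_normSurj` (N4, semi-local form): if every integral semi-local unit of
  `K` at `q` is a semi-local norm from `L`, the layer is unramified;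
* `forall_inertiaAt_eq_one_iff` (N6): a character `χ : Gal(L/K) → ℤ/p` is trivial on
  `inertiaAt K τ'` iff the symbol classes `u ∪ δχ_w ∈ H²(Gal(L_τ'/K_τ), L_τ'ˣ)` vanish for all
  `u ∈ K_τ` of norm one.
-/

set_option autoImplicit false
set_option linter.unusedSectionVars false
set_option linter.style.haveILetI false

open IsLocalRing groupCohomology

namespace Fermat.Agent.CFT

open Fermat.Agent.CFT.GaloisTower Fermat.Agent.CFT.PadicTower

variable {q : ℕ} [Fact q.Prime] (K : Type) [Field K] {L : Type} [Field L] [Algebra K L]
  [NumberField K] [NumberField L] [IsGalois K L]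

local notation "Ω" => PadicAlgCl q

/-- The local Galois group `Gal(L_τ'/K_τ)` as a subgroup of `Gal(L/K)`. -/
noncomputable def localGalHom (τ' : LocalEmb q L) :
    ((localLayer K τ') ≃ₐ[localFieldAt (localEmbRestrict K τ')] (localLayer K τ')) →*
      (L ≃ₐ[K] L) :=
  (decompAt K τ').subtype.comp (decompEquiv K τ').toMonoidHom

theorem localGalHom_apply (τ' : LocalEmb q L)
    (g : (localLayer K τ') ≃ₐ[localFieldAt (localEmbRestrict K τ')] (localLayer K τ')) :
    localGalHom K τ' g = ((decompEquiv K τ' g : decompAt K τ') : L ≃ₐ[K] L) := rfl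

theorem localGalHom_injective (τ' : LocalEmb q L) : Function.Injective (localGalHom K τ') :=
  fun _ _ h => (decompEquiv K τ').injective (Subtype.ext h)

theorem range_localGalHom (τ' : LocalEmb q L) : (localGalHom K τ').range = decompAt K τ' := by
  ext σ
  constructor
  · rintro ⟨g, rfl⟩
    exact (decompEquiv K τ' g).2
  · intro h
    exact ⟨(decompEquiv K τ').symm ⟨σ, h⟩, by rw [localGalHom_apply, MulEquiv.apply_symm_apply]⟩

/-- The inertia group at the place of `L` defined by `τ'`, as a subgroup of `Gal(L/K)`. -/
noncomputable def inertiaAt (τ' : LocalEmb q L) : Subgroup (L ≃ₐ[K] L) :=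
  haveI := finiteDimensional_localFieldAt (localEmbRestrict K τ')
  haveI := PadicTower.intRing_isLocalRing q (localFieldAt (localEmbRestrict K τ'))
  haveI := PadicTower.intRing_isDiscreteValuationRing q (localFieldAt (localEmbRestrict K τ'))
  haveI := PadicTower.intRing_isAdicComplete q (localFieldAt (localEmbRestrict K τ'))
  haveI := PadicTower.intRing_finite_residueField q (localFieldAt (localEmbRestrict K τ'))
  haveI := PadicTower.intRing_isFractionRing q (localFieldAt (localEmbRestrict K τ'))
  haveI := finiteDimensional_localLayer K τ'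
  haveI := Fermat.Agent.CFT.intRing_isLocalRing (intRing q (localFieldAt (localEmbRestrict K τ')))
    (localFieldAt (localEmbRestrict K τ')) (localLayer K τ')
  haveI := Fermat.Agent.CFT.intRing_isLocalHom (intRing q (localFieldAt (localEmbRestrict K τ')))
    (localFieldAt (localEmbRestrict K τ')) (localLayer K τ')
  (inertiaGal (intRing q (localFieldAt (localEmbRestrict K τ')))
    (localFieldAt (localEmbRestrict K τ')) (localLayer K τ')).map (localGalHom K τ')

theorem inertiaAt_le_decompAt (τ' : LocalEmb q L) : inertiaAt K τ' ≤ decompAt K τ' := by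
  rw [← range_localGalHom]
  rintro _ ⟨g, -, rfl⟩
  exact ⟨g, rfl⟩

/-- Units of the ring of integers of `E` are the elements of norm one (unit-group form). -/
theorem forall_intRing_units_iff (E : IntermediateField ℚ_[q] Ω) (P : Eˣ → Prop) :
    (∀ u : (intRing q E)ˣ, P (Units.map (algebraMap (intRing q E) E : intRing q E →* E) u)) ↔
      ∀ u : Eˣ, ‖((u : E) : Ω)‖ = 1 → P u := by
  constructor
  · intro h u hu
    have := h (KummerLocal.isUnit_intOfNormOne E hu).unit
    convert this using 1
    apply Units.ext
    rfl
  · intro h u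
    exact h _ ((KummerLocal.isUnit_intRing_iff E (u : intRing q E)).mp u.isUnit)

/-- (N2 + N4 in the model) If the decomposition group of `τ'` is cyclic: the local layer
`L_τ'/K_τ` is unramified iff every element of norm one of `K_τ` is a norm from `L_τ'`. -/
theorem isUnrLayer_localLayer_iff_forall_norm (τ' : LocalEmb q L)
    (hcyc : IsCyclic (decompAt K τ')) :
    IsUnrLayer ℤ_[q] (localFieldAt_restrict_le K τ') ↔
      ∀ u : localFieldAt (localEmbRestrict K τ'), ‖(u : Ω)‖ = 1 →
        ∃ y : localLayer K τ', Algebra.norm (localFieldAt (localEmbRestrict K τ')) y = u := by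
  haveI := finiteDimensional_localFieldAt (localEmbRestrict K τ')
  haveI := PadicTower.intRing_isLocalRing q (localFieldAt (localEmbRestrict K τ'))
  haveI := PadicTower.intRing_isDiscreteValuationRing q (localFieldAt (localEmbRestrict K τ'))
  haveI := PadicTower.intRing_isAdicComplete q (localFieldAt (localEmbRestrict K τ'))
  haveI := PadicTower.intRing_finite_residueField q (localFieldAt (localEmbRestrict K τ'))
  haveI := PadicTower.intRing_isFractionRing q (localFieldAt (localEmbRestrict K τ'))
  haveI := finiteDimensional_localLayer K τ'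
  haveI := isGalois_localLayer K τ'
  haveI := Fermat.Agent.CFT.intRing_isLocalRing (intRing q (localFieldAt (localEmbRestrict K τ')))
    (localFieldAt (localEmbRestrict K τ')) (localLayer K τ')
  have hcyc' : IsCyclic ((localLayer K τ') ≃ₐ[localFieldAt (localEmbRestrict K τ')]
      (localLayer K τ')) :=
    isCyclic_of_surjective (decompEquiv K τ').symm (decompEquiv K τ').symm.surjective
  obtain ⟨σ, hσ⟩ := hcyc'.exists_generator
  have hiff : IsUnrLayer ℤ_[q] (localFieldAt_restrict_le K τ') ↔
      IsUnramExt (intRing q (localFieldAt (localEmbRestrict K τ'))) (localLayer K τ') :=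
    ⟨fun h => h.2.2, fun h => ⟨finiteDimensional_localFieldAt τ', inferInstance, h⟩⟩
  rw [hiff, isUnramExt_iff_ramIdx (intRing q (localFieldAt (localEmbRestrict K τ')))
    (localFieldAt (localEmbRestrict K τ')) (localLayer K τ'),
    ← forall_unit_norm_iff_ramIdx_eq_one (intRing q (localFieldAt (localEmbRestrict K τ')))
    (localFieldAt (localEmbRestrict K τ')) (localLayer K τ') σ hσ]
  constructor
  · intro h u hu
    exact h (KummerLocal.isUnit_intOfNormOne (localFieldAt (localEmbRestrict K τ')) hu).unit
  · intro h u
    have h1 : ‖(((u : intRing q (localFieldAt (localEmbRestrict K τ'))) :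
        localFieldAt (localEmbRestrict K τ')) : Ω)‖ = 1 :=
      (KummerLocal.isUnit_intRing_iff (localFieldAt (localEmbRestrict K τ'))
        (u : intRing q (localFieldAt (localEmbRestrict K τ')))).mp u.isUnit
    exact h ((u : intRing q (localFieldAt (localEmbRestrict K τ'))) :
        localFieldAt (localEmbRestrict K τ')) h1

/-- (N4, semi-local form) If the decomposition group of `τ'` is cyclic and every integral
semi-local unit of `K` at `q` is a norm from the semi-local units of `L`, then the local layer
`L_τ'/K_τ` is unramified. -/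
theorem isUnrLayer_localLayer_of_normSurj (τ' : LocalEmb q L) (hcyc : IsCyclic (decompAt K τ'))
    (h : ∀ x ∈ semiLocalIntegral q K, ∃ z : semiLocalUnits q L,
      ∏ σ : L ≃ₐ[K] L, σ • z = semiLocalMap (algebraMap K L) x) :
    IsUnrLayer ℤ_[q] (localFieldAt_restrict_le K τ') := by
  rw [isUnrLayer_localLayer_iff_forall_norm K τ' hcyc]
  intro u hu
  have hu0 : (u : Ω) ≠ 0 := by
    intro h0
    rw [h0, norm_zero] at hu
    exact zero_ne_one hu
  obtain ⟨z, hz⟩ := h (orbitUnit (localEmbRestrict K τ') (Units.mk0 (u : Ω) hu0) u.2)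
    (orbitUnit_mem_integral _ _ _ hu)
  obtain ⟨y, hy⟩ := exists_localNorm_eq_prod K z τ'
  refine ⟨y, ?_⟩
  apply Subtype.ext
  rw [hy, hz]
  show (((orbitUnit (localEmbRestrict K τ') (Units.mk0 (u : Ω) hu0) u.2 : semiLocalUnits q K) :
    LocalEmb q K → Ωˣ) (localEmbRestrict K τ') : Ω) = u
  rw [orbitUnit_apply_self]
  rfl

/-- The inertia group at `τ'` is trivial iff the local layer is unramified. -/
theorem inertiaAt_eq_bot_iff (τ' : LocalEmb q L) :
    inertiaAt K τ' = ⊥ ↔ IsUnrLayer ℤ_[q] (localFieldAt_restrict_le K τ') := by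
  haveI := finiteDimensional_localFieldAt (localEmbRestrict K τ')
  haveI := PadicTower.intRing_isLocalRing q (localFieldAt (localEmbRestrict K τ'))
  haveI := PadicTower.intRing_isDiscreteValuationRing q (localFieldAt (localEmbRestrict K τ'))
  haveI := PadicTower.intRing_isAdicComplete q (localFieldAt (localEmbRestrict K τ'))
  haveI := PadicTower.intRing_finite_residueField q (localFieldAt (localEmbRestrict K τ'))
  haveI := PadicTower.intRing_isFractionRing q (localFieldAt (localEmbRestrict K τ'))
  haveI := finiteDimensional_localLayer K τ'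
  haveI := isGalois_localLayer K τ'
  haveI := Fermat.Agent.CFT.intRing_isLocalRing (intRing q (localFieldAt (localEmbRestrict K τ')))
    (localFieldAt (localEmbRestrict K τ')) (localLayer K τ')
  haveI := Fermat.Agent.CFT.intRing_isLocalHom (intRing q (localFieldAt (localEmbRestrict K τ')))
    (localFieldAt (localEmbRestrict K τ')) (localLayer K τ')
  have hiff : IsUnrLayer ℤ_[q] (localFieldAt_restrict_le K τ') ↔
      IsUnramExt (intRing q (localFieldAt (localEmbRestrict K τ'))) (localLayer K τ') :=
    ⟨fun h => h.2.2, fun h => ⟨finiteDimensional_localFieldAt τ', inferInstance, h⟩⟩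
  rw [hiff, isUnramExt_iff_ramIdx (intRing q (localFieldAt (localEmbRestrict K τ')))
    (localFieldAt (localEmbRestrict K τ')) (localLayer K τ'),
    ← card_inertiaGal (intRing q (localFieldAt (localEmbRestrict K τ')))
    (localFieldAt (localEmbRestrict K τ')) (localLayer K τ'), Subgroup.card_eq_one]
  unfold inertiaAt
  rw [(Subgroup.map_eq_bot_iff_of_injective _ (localGalHom_injective K τ'))]

variable {p : ℕ} [Fact p.Prime]

/-- (N6) A character `χ` of `Gal(L/K)` is unramified at the place of `τ'` (trivial on the inertia
group) iff the local symbol classes `u ∪ δχ_w ∈ H²(Gal(L_τ'/K_τ), L_τ'ˣ)` vanish for all local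
units `u` (elements of `K_τ` of norm one). -/
theorem forall_inertiaAt_eq_one_iff (χ : (L ≃ₐ[K] L) →* Multiplicative (ZMod p))
    (τ' : LocalEmb q L) :
    haveI : NeZero p := ⟨(Fact.out : p.Prime).ne_zero⟩
    (∀ σ ∈ inertiaAt K τ', χ σ = 1) ↔
      ∀ u : (localFieldAt (localEmbRestrict K τ'))ˣ,
        ‖((u : localFieldAt (localEmbRestrict K τ')) : Ω)‖ = 1 →
          galSymClass (localFieldAt (localEmbRestrict K τ')) (localLayer K τ')
            (χ.comp (localGalHom K τ')) u = 0 := by
  haveI := finiteDimensional_localFieldAt (localEmbRestrict K τ')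
  haveI := PadicTower.intRing_isLocalRing q (localFieldAt (localEmbRestrict K τ'))
  haveI := PadicTower.intRing_isDiscreteValuationRing q (localFieldAt (localEmbRestrict K τ'))
  haveI := PadicTower.intRing_isAdicComplete q (localFieldAt (localEmbRestrict K τ'))
  haveI := PadicTower.intRing_finite_residueField q (localFieldAt (localEmbRestrict K τ'))
  haveI := PadicTower.intRing_isFractionRing q (localFieldAt (localEmbRestrict K τ'))
  haveI := finiteDimensional_localLayer K τ'
  haveI := isGalois_localLayer K τ'
  haveI := Fermat.Agent.CFT.intRing_isLocalRing (intRing q (localFieldAt (localEmbRestrict K τ')))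
    (localFieldAt (localEmbRestrict K τ')) (localLayer K τ')
  haveI := Fermat.Agent.CFT.intRing_isLocalHom (intRing q (localFieldAt (localEmbRestrict K τ')))
    (localFieldAt (localEmbRestrict K τ')) (localLayer K τ')
  rw [← forall_intRing_units_iff (localFieldAt (localEmbRestrict K τ'))
    (fun u => galSymClass (localFieldAt (localEmbRestrict K τ')) (localLayer K τ')
            (χ.comp (localGalHom K τ')) u = 0)]
  rw [← forall_inertiaGal_eq_one_iff (intRing q (localFieldAt (localEmbRestrict K τ')))
    (localFieldAt (localEmbRestrict K τ')) (localLayer K τ') (χ.comp (localGalHom K τ'))]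
  constructor
  · intro h g hg
    exact h _ ⟨g, hg, rfl⟩
  · rintro h _ ⟨g, hg, rfl⟩
    exact h g hg

end Fermat.Agent.CFT
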