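/-
S55 / C7: **the global existence theorem mod `p` at finite level from local inputs**
(`μ_p ⊆ K`, place model, pairing `⟨x, χ⟩ = invM ([x] ∪ δχ)` on `C_L`).

* `invM_symClass_eq_finsum` : under `(H-lg)` (`invM ∘ (J_L → C_L)_* = invJ` on `p`-torsion classes)
  the pairing is the sum of the local symbols;
* `invM_symClass_eq_zero_of_mem_boxIdele` **(hE0)** : the pairing kills
  `E_T = ∏_{v ∈ T} K_v^{×p} × ∏_{v ∉ T} U_v` if the local unit symbols vanish outside `T`;
* `inv_galSymClass_eq_zero_of_forall_uS` **(hW)**, local form: a character whose pairing kills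
  `U_{K,S}` has vanishing local unit symbols at all places outside `S` (ideles supported at one
  place; conjugation invariance of the local invariants);
* `unramCharsOutside K L p S` : the characters of `Gal(L/K)` unramified outside `S`
  (helper26's `inertiaAt`);
* `exists_pow_eq_mk_of_forall_unramChars` : **(E)-hard, finite level**, with hypotheses
  `hFI` (first inequality), `hlg`, `hunr` (`L/K` unramified outside `T`), `hnd`, `hX` only.
-/
import Mathlib
import Fermat.Agent.CFT.Global.ExistenceLocalExp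
import Fermat.Agent.CFT.Global.ExistenceModPPlace
import Fermat.Agent.CFT.Global.KummerLocalUnram
import Fermat.Agent.CFT.Global.GlobalInvConj
import Fermat.Agent.CFT.Global.Second.IdeleNorm

set_option autoImplicit false
set_option linter.unusedSectionVars false

open CategoryTheory groupCohomology

noncomputable section

namespace Fermat.Agent.CFT

namespace ExistenceLocal

open GaloisTower

section Transport

variable {q : ℕ} [Fact q.Prime] {K : Type} [Field K]

local notation "Ω" => PadicAlgCl q

/-- Being a `p`-th power in `K_τˣ` does not depend on the name of `τ`. -/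
theorem exists_pow_eq_semiLocalEvalAt_of_eq {τ₁ τ₂ : LocalEmb q K} (h : τ₁ = τ₂) (p : ℕ)
    (f : semiLocalUnits q K)
    (hf : ∃ g : (localFieldAt τ₂)ˣ, g ^ p = semiLocalEvalAt τ₂ f) :
    ∃ g : (localFieldAt τ₁)ˣ, g ^ p = semiLocalEvalAt τ₁ f := by
  subst h
  exact hf

end Transport

section Pairing

variable (K : Type) [Field K] [NumberField K] {L : Type} [Field L] [Algebra K L] [Normal K L]
  {p : ℕ} [NeZero p]

/-- **Expansion of the pairing**: under the local-global compatibility `(H-lg)` of the invariant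
`invM` of `C_L` on the `p`-torsion classes, `invM ([x] ∪ δχ) = Σ_q Σ_{ω ∣ q} inv_ω (x_ω ∪ δχ_ω)`. -/
theorem invM_symClass_eq_finsum (I : LocalInvFamily)
    (invM : H2 (ideleClassRep L (L ≃ₐ[K] L)) →+ AddCircle (1 : ℚ))
    (hlg : ∀ z : H2 (ideleRep L (L ≃ₐ[K] L)), p • z = 0 →
      invM ((ideleH2g K).hom z) = invJFun I K z)
    (χ : (L ≃ₐ[K] L) →* Multiplicative (ZMod p)) (x : ideleGroup K) :
    invM (symClass (ideleClassRep L (L ≃ₐ[K] L)) χ (ExistenceModP.ideleClassOfBase K L x)
        (ExistenceModP.isInv_ideleClassOfBase K L x)) =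
      ∑ᶠ q : Nat.Primes, ∑ᶠ ω : LocalPlace ((q : Nat.Primes) : ℕ) K,
        semiLocalInvAt I K q (placeLift K ω) (semiSymClass K χ ((x : IdeleProd K) q)) := by
  rw [← ideleH2g_ideleSymClass,
    hlg (ideleSymClass K χ x) (nsmul_symClass_eq_zero _ χ (isInv_ideleMap K x)),
    invJFun_ideleSymClass]


/-- The local invariant of `[f ∪ δχ]` at `τ'` vanishes if the component of `f` at `τ'|_K` is a
`p`-th power. -/
theorem semiLocalInvAt_semiSymClass_of_pow (I : LocalInvFamily) (q : Nat.Primes)
    (τ' : LocalEmb ((q : Nat.Primes) : ℕ) L) (χ : (L ≃ₐ[K] L) →* Multiplicative (ZMod p))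
    (f : semiLocalUnits ((q : Nat.Primes) : ℕ) K)
    (hf : ∃ g : (localFieldAt (localEmbRestrict K τ'))ˣ,
      g ^ p = semiLocalEvalAt (localEmbRestrict K τ') f) :
    semiLocalInvAt I K q τ' (semiSymClass K χ f) = 0 := by
  obtain ⟨g, hg⟩ := hf
  have hpow : ∀ m : ℕ, galSymClass (localFieldAt (localEmbRestrict K τ')) (localLayer K τ')
      (χ.comp (locSquare K τ').res) (g ^ m) =
      m • galSymClass (localFieldAt (localEmbRestrict K τ')) (localLayer K τ')
        (χ.comp (locSquare K τ').res) g := by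
    intro m
    induction m with
    | zero => rw [pow_zero, zero_smul, galSymClass_one]
    | succ m ih => rw [pow_succ, galSymClass_mul, ih, succ_nsmul]
  rw [semiLocalInvAt_semiSymClass, ← hg, hpow]
  unfold galSymClass
  rw [nsmul_symClass_eq_zero, map_zero]

/-- **(hE0)** The pairing kills `E_T = ∏_{v ∈ T} K_v^{×p} × ∏_{v ∉ T} U_v` if the local unit
symbols vanish at the places outside `T` (`L/K` unramified outside `T`). -/
theorem invM_symClass_eq_zero_of_mem_boxIdele (I : LocalInvFamily)
    (invM : H2 (ideleClassRep L (L ≃ₐ[K] L)) →+ AddCircle (1 : ℚ))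
    (hlg : ∀ z : H2 (ideleRep L (L ≃ₐ[K] L)), p • z = 0 →
      invM ((ideleH2g K).hom z) = invJFun I K z)
    (χ : (L ≃ₐ[K] L) →* Multiplicative (ZMod p)) (T : Set (IdelePlace K))
    (hunr : ∀ (q : Nat.Primes) (τ' : LocalEmb ((q : Nat.Primes) : ℕ) L),
      (⟨q, (localEmbRestrict K τ').place⟩ : IdelePlace K) ∉ T →
      ∀ u : (localFieldAt (localEmbRestrict K τ'))ˣ,
        ‖((u : localFieldAt (localEmbRestrict K τ')) : PadicAlgCl ((q : Nat.Primes) : ℕ))‖ = 1 →
        (I q).inv (localFieldAt_restrict_le K τ')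
          (galSymClass (localFieldAt (localEmbRestrict K τ')) (localLayer K τ')
            (χ.comp (locSquare K τ').res) u) = 0)
    (x : ideleGroup K) (hx : x ∈ boxIdele (sPowFam p T)) :
    invM (symClass (ideleClassRep L (L ≃ₐ[K] L)) χ (ExistenceModP.ideleClassOfBase K L x)
        (ExistenceModP.isInv_ideleClassOfBase K L x)) = 0 := by
  rw [invM_symClass_eq_finsum K I invM hlg]
  refine finsum_eq_zero_of_forall_eq_zero fun q => finsum_eq_zero_of_forall_eq_zero fun ω => ?_
  have hτ : localEmbRestrict K (placeLift K ω : LocalEmb ((q : Nat.Primes) : ℕ) L) = ω.emb :=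
    localEmbRestrict_placeLift K ω
  have hxv := mem_boxIdele.1 hx ⟨q, ω⟩
  by_cases hv : (⟨q, ω⟩ : IdelePlace K) ∈ T
  · rw [sPowFam_of_mem hv] at hxv
    obtain ⟨g, hg⟩ := hxv
    refine semiLocalInvAt_semiSymClass_of_pow K I q _ χ _ ?_
    exact exists_pow_eq_semiLocalEvalAt_of_eq hτ p _ ⟨g, hg⟩
  · rw [sPowFam_of_notMem hv, LocalPow.mem_normOneUnits] at hxv
    rw [semiLocalInvAt_semiSymClass]
    refine hunr q _ ?_ _ ?_
    · rw [hτ, ω.place_emb]
      exact hv
    · rw [semiLocalEvalAt_coe, hτ]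
      exact hxv

end Pairing

section HW

variable (K : Type) [Field K] [NumberField K] {L : Type} [Field L] [Algebra K L] [NumberField L]
  [Normal K L] {p : ℕ} [NeZero p]

/-- **(hW), local form.** If the pairing with `χ` kills `U_{K,S}`, then at every place outside `S`
all local unit symbols of `χ` have invariant zero. -/
theorem inv_galSymClass_eq_zero_of_forall_uS (I : LocalInvFamily)
    (hI : ∀ q, (I q).IsConjInvariant)
    (invM : H2 (ideleClassRep L (L ≃ₐ[K] L)) →+ AddCircle (1 : ℚ))
    (hlg : ∀ z : H2 (ideleRep L (L ≃ₐ[K] L)), p • z = 0 →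
      invM ((ideleH2g K).hom z) = invJFun I K z)
    (χ : (L ≃ₐ[K] L) →* Multiplicative (ZMod p)) (S : Set Nat.Primes)
    (hw : ∀ w ∈ ExistenceModP.uS K S,
      invM (symClass (ideleClassRep L (L ≃ₐ[K] L)) χ (ExistenceModP.ideleClassOfBase K L w)
        (ExistenceModP.isInv_ideleClassOfBase K L w)) = 0)
    (q : Nat.Primes) (hq : q ∉ S) (τ' : LocalEmb ((q : Nat.Primes) : ℕ) L)
    (u : (localFieldAt (localEmbRestrict K τ'))ˣ)
    (hu : ‖((u : localFieldAt (localEmbRestrict K τ')) : PadicAlgCl ((q : Nat.Primes) : ℕ))‖ = 1) :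
    (I q).inv (localFieldAt_restrict_le K τ')
      (galSymClass (localFieldAt (localEmbRestrict K τ')) (localLayer K τ')
        (χ.comp (locSquare K τ').res) u) = 0 := by
  have hu0 : ((u : localFieldAt (localEmbRestrict K τ')) :
      PadicAlgCl ((q : Nat.Primes) : ℕ)) ≠ 0 := by
    intro h0
    rw [h0, norm_zero] at hu
    exact zero_ne_one hu
  -- the semi-local unit supported at the place of `τ'|_K` with component `u`
  set f : semiLocalUnits ((q : Nat.Primes) : ℕ) K :=
    orbitUnit (localEmbRestrict K τ') (Units.mk0 _ hu0) (u : localFieldAt (localEmbRestrict K τ')).2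
    with hf
  have hfint : f ∈ semiLocalIntegral ((q : Nat.Primes) : ℕ) K := orbitUnit_mem_integral _ _ _ hu
  have hfu : semiLocalEvalAt (localEmbRestrict K τ') f = u := by
    apply Units.ext
    apply Subtype.ext
    rw [semiLocalEvalAt_coe, hf, orbitUnit_apply_self]
    rfl
  -- the idele supported at `q` with component `f`
  have hwmem : Second.singleIdele K q f ∈ ExistenceModP.uS K S := by
    rw [ExistenceModP.mem_uS]
    refine ⟨fun q' _ => ?_, fun q' hq' => ?_⟩
    · by_cases h : q' = q
      · subst h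
        rw [Second.singleIdele_apply_self]
        exact hfint
      · rw [Second.singleIdele_apply_of_ne h]
        exact one_mem _
    · have h : q' ≠ q := fun h => hq (h ▸ hq')
      exact Second.singleIdele_apply_of_ne h f
  have h0 := hw _ hwmem
  rw [invM_symClass_eq_finsum K I invM hlg, finsum_eq_single _ q, Second.singleIdele_apply_self,
    finsum_eq_single _ (localEmbRestrict K τ').place] at h0
  · rw [← h0, semiLocalInvAt_eq_of_place_eq I K hI q (τ₂' := τ'), semiLocalInvAt_semiSymClass, hfu]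
    rw [localEmbRestrict_placeLift, LocalPlace.place_emb]
  · intro ω hω
    refine semiLocalInvAt_semiSymClass_of_eval_eq_one K I q _ χ f ?_
    apply Units.ext
    apply Subtype.ext
    rw [semiLocalEvalAt_coe, hf, orbitUnit_apply_of_not]
    · rfl
    · rintro ⟨γ, hγ⟩
      apply hω
      rw [localEmbRestrict_placeLift] at hγ
      rw [← ω.place_emb, ← hγ, LocalEmb.place_smul]
  · intro q' hq'
    refine finsum_eq_zero_of_forall_eq_zero fun ω => ?_
    rw [Second.singleIdele_apply_of_ne hq', semiSymClass_one, map_zero]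

end HW

section Final

variable (K : Type) [Field K] [NumberField K] (L : Type) [Field L] [Algebra K L] [NumberField L]
  [IsGalois K L]

/-- The characters of `Gal(L/K)` with values in `ℤ/p` which are unramified outside `S`: trivial on
the inertia groups `inertiaAt K τ'` of all embeddings `τ' : L → ℚ̄_q`, `q ∉ S`. -/
def unramCharsOutside (p : ℕ) (S : Set Nat.Primes) :
    Subgroup ((L ≃ₐ[K] L) →* Multiplicative (ZMod p)) where
  carrier := {χ | ∀ q : Nat.Primes, q ∉ S → ∀ τ' : LocalEmb ((q : Nat.Primes) : ℕ) L,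
    ∀ σ ∈ inertiaAt K τ', χ σ = 1}
  one_mem' := fun _ _ _ _ _ => rfl
  mul_mem' := by
    intro χ χ' h h' q hq τ' σ hσ
    rw [MonoidHom.mul_apply, h q hq τ' σ hσ, h' q hq τ' σ hσ, one_mul]
  inv_mem' := by
    intro χ h q hq τ' σ hσ
    rw [MonoidHom.inv_apply, h q hq τ' σ hσ, inv_one]

variable {K L}

theorem mem_unramCharsOutside {p : ℕ} {S : Set Nat.Primes}
    {χ : (L ≃ₐ[K] L) →* Multiplicative (ZMod p)} :
    χ ∈ unramCharsOutside K L p S ↔
      ∀ q : Nat.Primes, q ∉ S → ∀ τ' : LocalEmb ((q : Nat.Primes) : ℕ) L,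
        ∀ σ ∈ inertiaAt K τ', χ σ = 1 := Iff.rfl

variable (K L)

open Subgroup NumberField IsDedekindDomain IdeleDict in
/-- **Global existence theorem mod `p`, hard half, `μ_p ⊆ K`, finite level**: `L/K` a finite Galois
extension of number fields which is unramified outside the finite set `T` of places,
`T ⊇ {v ∣ p} ∪ {v ∣ q, q ∈ S}` generating the class group, with at least `p ^ (r + |T| + 1)`
characters `Gal(L/K) → ℤ/p` (`L = K(K_T^{1/p})`); `invM` an invariant on `H²(Gal(L/K), C_L)`
compatible with the local invariants on `p`-torsion classes (`hlg`) and satisfying the first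
inequality for characters (`hnd`). Then an idele of `K` orthogonal to all characters of `Gal(L/K)`
unramified outside `S` is a `p`-th power in `C_S(K)`. -/
theorem exists_pow_eq_mk_of_forall_unramChars (pp : Nat.Primes) (hp2 : 2 < (pp : ℕ)) {ζ : K}
    (hζ : IsPrimitiveRoot ζ (pp : ℕ)) (S : Set Nat.Primes) (T : Finset (IdelePlace K))
    (hST : ∀ v : IdelePlace K, v.1 ∈ S → v ∈ T)
    (hT : ∀ v : IdelePlace K, v.1 = pp → v ∈ T)
    (hgen : GeneratesClassGroup K (IdelePlace.prime '' (T : Set (IdelePlace K))))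
    (hFI : ∀ (F : Type) [Field F] [NumberField F] [Algebra K F] [IsGalois K F]
      [IsCyclic (F ≃ₐ[K] F)] [FiniteDimensional K F], Module.finrank K F = (pp : ℕ) →
      principalSubgroup K ⊔ ideleNormSubgroup K F ≠ ⊤)
    (I : LocalInvFamily) (hI : ∀ q, (I q).IsConjInvariant)
    (invM : H2 (ideleClassRep L (L ≃ₐ[K] L)) →+ AddCircle (1 : ℚ))
    (hlg : ∀ z : H2 (ideleRep L (L ≃ₐ[K] L)), (pp : ℕ) • z = 0 →
      invM ((ideleH2g K).hom z) = invJFun I K z)
    (hunr : ∀ (q : Nat.Primes) (τ' : LocalEmb ((q : Nat.Primes) : ℕ) L),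
      (⟨q, (localEmbRestrict K τ').place⟩ : IdelePlace K) ∉ T → inertiaAt K τ' = ⊥)
    (hnd : ∀ χ : (L ≃ₐ[K] L) →* Multiplicative (ZMod (pp : ℕ)), χ ≠ 1 → ∃ x : ideleGroup K,
      invM (symClass _ χ (ExistenceModP.ideleClassOfBase K L x)
        (ExistenceModP.isInv_ideleClassOfBase K L x)) ≠ 0)
    (hX : (pp : ℕ) ^ (NumberField.Units.rank K + T.card + 1) ≤
      Nat.card ((L ≃ₐ[K] L) →* Multiplicative (ZMod (pp : ℕ))))
    (x : ideleGroup K) (hx : ∀ χ ∈ unramCharsOutside K L (pp : ℕ) S,
      invM (symClass _ χ (ExistenceModP.ideleClassOfBase K L x)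
        (ExistenceModP.isInv_ideleClassOfBase K L x)) = 0) :
    ∃ y : ideleClassS K S, y ^ (pp : ℕ) = (QuotientGroup.mk x : ideleClassS K S) := by
  have : Fact (pp : ℕ).Prime := ⟨pp.2⟩
  refine ExistenceCore.exists_pow_eq_mk_of_forall_inv_eq_zero_of_firstIneq L pp hp2 hζ S T hST hT
    hgen hFI invM (unramCharsOutside K L (pp : ℕ) S) ?_ hnd hX ?_ x hx
  · -- (hE0)
    intro y hy χ
    refine invM_symClass_eq_zero_of_mem_boxIdele K I invM hlg χ (T : Set (IdelePlace K)) ?_ y hy
    intro q τ' hv u hu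
    have h1 : ∀ σ ∈ inertiaAt K τ', χ σ = 1 := by
      intro σ hσ
      rw [hunr q τ' hv, Subgroup.mem_bot] at hσ
      rw [hσ, map_one]
    have h2 := (forall_inertiaAt_eq_one_iff K χ τ').1 h1 u hu
    rw [locSquare_res]
    exact (congrArg _ h2).trans (map_zero _)
  · -- (hW)
    intro χ hχ
    rw [mem_unramCharsOutside]
    intro q hq τ'
    rw [forall_inertiaAt_eq_one_iff K χ τ']
    intro u hu
    have h1 := inv_galSymClass_eq_zero_of_forall_uS K I hI invM hlg χ S hχ q hq τ' u hu
    rw [locSquare_res] at h1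
    have := finiteDimensional_localFieldAt τ'
    have := normal_localLayer K τ'
    exact (I q).inv_injective (localFieldAt_restrict_le K τ') (h1.trans (map_zero _).symm)

end Final

end ExistenceLocal

end Fermat.Agent.CFT
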