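import Fermat.Agent.CFT.Tate.CohTrivFinal

/-!
# C6s-abs SClassAbstract: dividing out a cohomologically trivial submodule

Let `0 ⟶ W ⟶ C ⟶ C' ⟶ 0` be a short exact sequence of `G`-modules (`X : ShortComplex (Rep k G)`,
`W = X.X₁`, `C = X.X₂`, `C' = X.X₃`).

* `map_g_injective_of_isZero`: if `Hⁿ(G, W) = 0` then `Hⁿ(G, C) ⟶ Hⁿ(G, C')` is injective;
* `map_g_surjective_of_isZero`: if `Hⁿ⁺¹(G, W) = 0` then `Hⁿ(G, C) ⟶ Hⁿ(G, C')` is surjective;
* `map_g_bijective_of_isZero`, `isIso_map_g_of_isZero`: both together;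
* `exists_invariant_lift_of_isZero_H1`: if `H¹(G, W) = 0` then `C^G ⟶ C'^G` is surjective.

If `G` is finite and `H¹(H, W) = H²(H, W) = 0` for all subgroups `H` (so that `W` is
cohomologically trivial by the Nakayama–Tate criterion `cohTriv_of_H1_H2`), then for every
subgroup `H` and every `n`, `Hⁿ⁺¹(H, C) ⟶ Hⁿ⁺¹(H, C')` is bijective
(`map_res_g_bijective_of_cohTriv`, `map_g_bijective_of_cohTriv`), and `C^H ⟶ C'^H` is surjective
(`exists_invariant_lift_of_cohTriv`).
-/

open CategoryTheory Limits groupCohomology Rep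

namespace Fermat.Agent.CFT

universe u

section General

variable {k G : Type u} [CommRing k] [Group G] {X : ShortComplex (Rep k G)}

/-- If `Hⁿ(G, X₁) = 0` then `Hⁿ(G, X₂) ⟶ Hⁿ(G, X₃)` is injective. -/
theorem map_g_injective_of_isZero (hX : X.ShortExact) (n : ℕ)
    (h : IsZero (groupCohomology X.X₁ n)) :
    Function.Injective (groupCohomology.map (MonoidHom.id G) X.g n).hom := by
  have hex := mapShortComplex₂_exact hX n
  rw [injective_iff_map_eq_zero]
  intro x hx
  obtain ⟨y, hy⟩ := (ShortComplex.moduleCat_exact_iff _).mp hex x hx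
  have hy0 : y = 0 := (ModuleCat.subsingleton_of_isZero h).elim _ _
  rw [← hy, hy0]
  exact map_zero _

/-- If `Hⁿ⁺¹(G, X₁) = 0` then `Hⁿ(G, X₂) ⟶ Hⁿ(G, X₃)` is surjective. -/
theorem map_g_surjective_of_isZero (hX : X.ShortExact) (n : ℕ)
    (h : IsZero (groupCohomology X.X₁ (n + 1))) :
    Function.Surjective (groupCohomology.map (MonoidHom.id G) X.g n).hom := by
  have hex := mapShortComplex₃_exact hX (rfl : n + 1 = n + 1)
  intro z
  have hs : Subsingleton (groupCohomology X.X₁ (n + 1)) := ModuleCat.subsingleton_of_isZero h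
  obtain ⟨y, hy⟩ := (ShortComplex.moduleCat_exact_iff _).mp hex z (hs.elim _ _)
  exact ⟨y, hy⟩

/-- If `Hⁿ(G, X₁) = Hⁿ⁺¹(G, X₁) = 0` then `Hⁿ(G, X₂) ⟶ Hⁿ(G, X₃)` is bijective. -/
theorem map_g_bijective_of_isZero (hX : X.ShortExact) (n : ℕ)
    (h : IsZero (groupCohomology X.X₁ n)) (h' : IsZero (groupCohomology X.X₁ (n + 1))) :
    Function.Bijective (groupCohomology.map (MonoidHom.id G) X.g n).hom :=
  ⟨map_g_injective_of_isZero hX n h, map_g_surjective_of_isZero hX n h'⟩

/-- If `Hⁿ(G, X₁) = Hⁿ⁺¹(G, X₁) = 0` then `Hⁿ(G, X₂) ⟶ Hⁿ(G, X₃)` is an isomorphism. -/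
theorem isIso_map_g_of_isZero (hX : X.ShortExact) (n : ℕ)
    (h : IsZero (groupCohomology X.X₁ n)) (h' : IsZero (groupCohomology X.X₁ (n + 1))) :
    IsIso (groupCohomology.map (MonoidHom.id G) X.g n) :=
  (ConcreteCategory.isIso_iff_bijective _).2 (map_g_bijective_of_isZero hX n h h')

/-- If `H¹(G, X₁) = 0` then every `G`-invariant element of `X₃` lifts to a `G`-invariant element
of `X₂`. -/
theorem exists_invariant_lift_of_isZero_H1 (hX : X.ShortExact)
    (h : IsZero (groupCohomology X.X₁ 1)) (c' : X.X₃) (hc' : ∀ g : G, X.X₃.ρ g c' = c') :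
    ∃ c : X.X₂, (∀ g : G, X.X₂.ρ g c = c) ∧ X.g.hom c = c' := by
  have hinj : Function.Injective X.f.hom := (Rep.mono_iff_injective _).1 hX.mono_f
  have hsurj : Function.Surjective X.g.hom := (Rep.epi_iff_surjective _).1 hX.epi_g
  have hex : ∀ x : X.X₂, X.g.hom x = 0 → ∃ y : X.X₁, X.f.hom y = x :=
    (rep_exact_iff X).1 hX.exact
  have hgf : ∀ y : X.X₁, X.g.hom (X.f.hom y) = 0 := fun y => by
    have := congrArg (fun φ => φ.hom y) X.zero
    exact this
  obtain ⟨c₀, hc₀⟩ := hsurj c'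
  have hw : ∀ g : G, ∃ w : X.X₁, X.f.hom w = X.X₂.ρ g c₀ - c₀ := fun g => by
    apply hex
    rw [map_sub, Rep.hom_comm_apply, hc₀, hc' g, sub_self]
  choose w hw using hw
  have hcoc : w ∈ cocycles₁ X.X₁ := by
    rw [mem_cocycles₁_iff]
    intro g₁ g₂
    apply hinj
    rw [map_add, Rep.hom_comm_apply, hw, hw, hw, map_sub, map_mul]
    simp only [Module.End.mul_apply]
    abel
  obtain ⟨a, ha⟩ := exists_eq_sub_of_isZero_H1 X.X₁ h ⟨w, hcoc⟩
  refine ⟨c₀ - X.f.hom a, fun g => ?_, ?_⟩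
  · have h1 : X.f.hom (w g) = X.f.hom (X.X₁.ρ g a - a) := congrArg _ (ha g)
    rw [hw, map_sub, Rep.hom_comm_apply] at h1
    rw [map_sub]
    calc X.X₂.ρ g c₀ - X.X₂.ρ g (X.f.hom a)
        = (X.X₂.ρ g c₀ - c₀) - (X.X₂.ρ g (X.f.hom a) - X.f.hom a) + (c₀ - X.f.hom a) := by abel
      _ = c₀ - X.f.hom a := by rw [h1]; abel
  · rw [map_sub, hc₀, hgf, sub_zero]

end General

section CohTriv

variable {k G : Type u} [CommRing k] [Group G] [Finite G] {X : ShortComplex (Rep k G)}

/-- **Dividing out a cohomologically trivial submodule does not change cohomology**: if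
`H¹(H, X₁) = H²(H, X₁) = 0` for all subgroups `H` of the finite group `G`, then for every subgroup
`H` and every `n` the map `Hⁿ⁺¹(H, X₂) ⟶ Hⁿ⁺¹(H, X₃)` is bijective. -/
theorem map_res_g_bijective_of_cohTriv (hX : X.ShortExact)
    (h1 : ∀ H : Subgroup G, IsZero (groupCohomology (res H.subtype X.X₁) 1))
    (h2 : ∀ H : Subgroup G, IsZero (groupCohomology (res H.subtype X.X₁) 2))
    (H : Subgroup G) (n : ℕ) :
    Function.Bijective
      (groupCohomology.map (A := res H.subtype X.X₂) (B := res H.subtype X.X₃)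
        (MonoidHom.id H) ((resFunctor H.subtype).map X.g) (n + 1)).hom := by
  have hz := (cohTriv_of_H1_H2 X.X₁ h1 h2 H).1
  exact map_g_bijective_of_isZero (shortExact_map_resFunctor H hX) (n + 1) (hz n) (hz (n + 1))

/-- The case `H = G` of `map_res_g_bijective_of_cohTriv`. -/
theorem map_g_bijective_of_cohTriv (hX : X.ShortExact)
    (h1 : ∀ H : Subgroup G, IsZero (groupCohomology (res H.subtype X.X₁) 1))
    (h2 : ∀ H : Subgroup G, IsZero (groupCohomology (res H.subtype X.X₁) 2)) (n : ℕ) :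
    Function.Bijective (groupCohomology.map (MonoidHom.id G) X.g (n + 1)).hom := by
  have hz := (cohTriv_of_H1_H2_top X.X₁ h1 h2).1
  exact map_g_bijective_of_isZero hX (n + 1) (hz n) (hz (n + 1))

/-- Isomorphism form of `map_g_bijective_of_cohTriv`. -/
theorem isIso_map_g_of_cohTriv (hX : X.ShortExact)
    (h1 : ∀ H : Subgroup G, IsZero (groupCohomology (res H.subtype X.X₁) 1))
    (h2 : ∀ H : Subgroup G, IsZero (groupCohomology (res H.subtype X.X₁) 2)) (n : ℕ) :
    IsIso (groupCohomology.map (MonoidHom.id G) X.g (n + 1)) :=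
  (ConcreteCategory.isIso_iff_bijective _).2 (map_g_bijective_of_cohTriv hX h1 h2 n)

omit [Finite G] in
/-- If `H¹(H, X₁) = 0` for the subgroup `H`, every `H`-invariant element of `X₃` lifts to an
`H`-invariant element of `X₂`. -/
theorem exists_invariant_lift_of_cohTriv (hX : X.ShortExact)
    (h1 : ∀ H : Subgroup G, IsZero (groupCohomology (res H.subtype X.X₁) 1))
    (H : Subgroup G) (c' : X.X₃) (hc' : ∀ g : H, X.X₃.ρ g c' = c') :
    ∃ c : X.X₂, (∀ g : H, X.X₂.ρ g c = c) ∧ X.g.hom c = c' :=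
  exists_invariant_lift_of_isZero_H1 (shortExact_map_resFunctor H hX) (h1 H) c' hc'

end CohTriv

end Fermat.Agent.CFT
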