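import Fermat.Agent.CFT.Global.IdeleDefs
import Fermat.Agent.CFT.GaloisTowerUnits

/-!
# Layer C / C1a: local structure of the semi-local units (part 1: sets and fields)

In the choice-free idele model of `IdeleDefs.lean` (`LocalEmb q K = K →+* ℚ̄_q`,
`semiLocalUnits q K` = `Gq`-equivariant maps `LocalEmb q K → ℚ̄_qˣ`):

* `localFieldAt τ = ℚ_q(τ K)`, the completion of `K` at the place defined by `τ`; it is finite over
  `ℚ_q` for a number field, its fixing subgroup is the stabiliser of `τ`, and
  `localFieldAt (γ • τ) = γ (localFieldAt τ)`;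
* `LocalEmb q K` is finite of cardinality `[K : ℚ]`;
* values: `f τ ∈ localFieldAt τ` for `f ∈ semiLocalUnits q K`; the evaluation isomorphism
  `semiLocalEvalEquiv : semiLocalUnits q K ≃* ∏_{orbits ω} (localFieldAt ω.out)ˣ`;
* restriction `localEmbRestrict : LocalEmb q L → LocalEmb q K` along an algebraic extension is onto
  and `Gq`-equivariant; for `L/K` normal its fibres are torsors under `L ≃ₐ[K] L`;
* `semiLocalMap (algebraMap K L)` is injective with image the `Gal(L/K)`-invariants.
-/

set_option autoImplicit false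
set_option linter.unusedSectionVars false
set_option linter.style.haveILetI false

open scoped Pointwise

noncomputable section

namespace Fermat.Agent.CFT

open Fermat.Agent.CFT.GaloisTower

variable {q : ℕ} [Fact q.Prime] {K : Type} [Field K]

local notation "Ω" => PadicAlgCl q

/-! ### The local field `K_τ = ℚ_q(τ K)` -/

/-- The completion of `K` at the place defined by the embedding `τ`, as the subfield
`ℚ_q(τ K)` of `ℚ̄_q`. -/
def localFieldAt (τ : LocalEmb q K) : IntermediateField ℚ_[q] Ω :=
  IntermediateField.adjoin ℚ_[q] (Set.range τ)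

theorem apply_mem_localFieldAt (τ : LocalEmb q K) (x : K) : τ x ∈ localFieldAt τ :=
  IntermediateField.subset_adjoin _ _ ⟨x, rfl⟩

theorem mem_fixingSubgroup_localFieldAt_iff (γ : Gq q) (τ : LocalEmb q K) :
    γ ∈ (localFieldAt τ).fixingSubgroup ↔ γ • τ = τ := by
  rw [IntermediateField.mem_fixingSubgroup_iff]
  constructor
  · intro h
    ext x
    exact h _ (apply_mem_localFieldAt τ x)
  · intro h y hy
    induction hy using IntermediateField.adjoin_induction with
    | mem y hy =>
      obtain ⟨x, rfl⟩ := hy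
      exact congrArg (fun σ : LocalEmb q K => σ x) h
    | algebraMap r => exact γ.commutes r
    | add y z _ _ hy hz => rw [map_add, hy, hz]
    | inv y _ hy => rw [map_inv₀, hy]
    | mul y z _ _ hy hz => rw [map_mul, hy, hz]

/-- The stabiliser of `τ` in `Gq` is `Gal(ℚ̄_q/K_τ)`. -/
theorem stabilizer_localEmb (τ : LocalEmb q K) :
    MulAction.stabilizer (Gq q) τ = (localFieldAt τ).fixingSubgroup := by
  ext γ
  rw [MulAction.mem_stabilizer_iff, mem_fixingSubgroup_localFieldAt_iff]

/-- `K_{γτ} = γ(K_τ)`. -/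
theorem localFieldAt_smul (γ : Gq q) (τ : LocalEmb q K) :
    localFieldAt (γ • τ) = (localFieldAt τ).map (γ : Ω →ₐ[ℚ_[q]] Ω) := by
  rw [localFieldAt, localFieldAt, IntermediateField.adjoin_map]
  congr 1
  ext y
  constructor
  · rintro ⟨x, rfl⟩
    exact ⟨τ x, ⟨x, rfl⟩, rfl⟩
  · rintro ⟨_, ⟨x, rfl⟩, rfl⟩
    exact ⟨x, rfl⟩

theorem mem_localFieldAt_smul_iff (γ : Gq q) (τ : LocalEmb q K) (y : Ω) :
    γ y ∈ localFieldAt (γ • τ) ↔ y ∈ localFieldAt τ := by
  rw [localFieldAt_smul]
  constructor
  · rintro ⟨z, hz, hzy⟩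
    have : z = y := γ.injective hzy
    rwa [← this]
  · intro hy
    exact ⟨y, hy, rfl⟩

/-- If `α` generates `K` over `ℚ` then `K_τ = ℚ_q(τ α)`. -/
theorem localFieldAt_eq_adjoin_simple [CharZero K] (τ : LocalEmb q K) {α : K}
    (hα : IntermediateField.adjoin ℚ {α} = ⊤) :
    localFieldAt τ = IntermediateField.adjoin ℚ_[q] {τ α} := by
  apply le_antisymm
  · rw [localFieldAt, IntermediateField.adjoin_le_iff]
    rintro _ ⟨x, rfl⟩
    have hx : x ∈ IntermediateField.adjoin ℚ {α} := by rw [hα]; trivial
    rw [SetLike.mem_coe]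
    induction hx using IntermediateField.adjoin_induction with
    | mem y hy =>
      have : y = α := hy
      rw [this]
      exact IntermediateField.mem_adjoin_simple_self _ _
    | algebraMap r =>
      have : τ (algebraMap ℚ K r) = algebraMap ℚ_[q] Ω (r : ℚ_[q]) := by
        rw [eq_ratCast, map_ratCast, map_ratCast]
      rw [this]
      exact IntermediateField.algebraMap_mem _ _
    | add y z _ _ hy hz => rw [map_add]; exact add_mem hy hz
    | inv y _ hy => rw [map_inv₀]; exact inv_mem hy
    | mul y z _ _ hy hz => rw [map_mul]; exact mul_mem hy hz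
  · rw [IntermediateField.adjoin_le_iff]
    intro y hy
    have : y = τ α := hy
    rw [this]
    exact apply_mem_localFieldAt τ α

/-- `K_τ/ℚ_q` is finite for a number field `K`. -/
theorem finiteDimensional_localFieldAt [NumberField K] (τ : LocalEmb q K) :
    FiniteDimensional ℚ_[q] (localFieldAt τ) := by
  obtain ⟨α, hα⟩ := Field.exists_primitive_element ℚ K
  rw [localFieldAt_eq_adjoin_simple τ hα]
  exact IntermediateField.adjoin.finiteDimensional (Algebra.IsIntegral.isIntegral (τ α))

/-- A number field has `[K : ℚ]` embeddings into `ℚ̄_q`. -/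
theorem card_localEmb [NumberField K] : Nat.card (LocalEmb q K) = Module.finrank ℚ K := by
  rw [Nat.card_eq_fintype_card]
  exact NumberField.Embeddings.card K Ω

instance finite_localEmb [NumberField K] : Finite (LocalEmb q K) :=
  inferInstanceAs (Finite (K →+* Ω))

/-! ### Values of semi-local units -/

/-- The value of a semi-local unit at `τ` lies in `K_τ`. -/
theorem semiLocalUnits_apply_mem (f : semiLocalUnits q K) (τ : LocalEmb q K) :
    ((f : LocalEmb q K → Ωˣ) τ : Ω) ∈ localFieldAt τ := by
  rw [← forall_fixingSubgroup_apply_eq_iff]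
  intro γ hγ
  rw [mem_fixingSubgroup_localFieldAt_iff] at hγ
  rw [← semiLocalUnits_apply_smul, hγ]

/-- Evaluation at `τ`, with values in `K_τˣ`. -/
def semiLocalEvalAt (τ : LocalEmb q K) : semiLocalUnits q K →* (localFieldAt τ)ˣ where
  toFun f := Units.mk0 (⟨((f : LocalEmb q K → Ωˣ) τ : Ω), semiLocalUnits_apply_mem f τ⟩ :
      localFieldAt τ)
    (fun h0 => ((f : LocalEmb q K → Ωˣ) τ).ne_zero (congrArg Subtype.val h0))
  map_one' := by
    apply Units.ext
    apply Subtype.ext
    rfl
  map_mul' f g := by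
    apply Units.ext
    apply Subtype.ext
    rfl

@[simp]
theorem semiLocalEvalAt_coe (τ : LocalEmb q K) (f : semiLocalUnits q K) :
    (((semiLocalEvalAt τ f : (localFieldAt τ)ˣ) : localFieldAt τ) : Ω) =
      ((f : LocalEmb q K → Ωˣ) τ : Ω) := rfl

/-- The set of places of `K` above `q`: `Gq`-orbits of embeddings. -/
abbrev LocalPlace (q : ℕ) [Fact q.Prime] (K : Type) [Field K] : Type :=
  MulAction.orbitRel.Quotient (Gq q) (LocalEmb q K)

/-- The place defined by an embedding. -/
abbrev LocalEmb.place (τ : LocalEmb q K) : LocalPlace q K :=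
  Quotient.mk (MulAction.orbitRel (Gq q) (LocalEmb q K)) τ

/-- The chosen embedding representing a place. -/
abbrev LocalPlace.emb (ω : LocalPlace q K) : LocalEmb q K := Quotient.out ω

theorem LocalPlace.place_emb (ω : LocalPlace q K) : ω.emb.place = ω := Quotient.out_eq ω

theorem LocalEmb.exists_smul_emb_place (τ : LocalEmb q K) : ∃ γ : Gq q, γ • τ.place.emb = τ := by
  have h : τ.place.emb.place = τ.place := τ.place.place_emb
  have h' := Quotient.exact h
  obtain ⟨γ, hγ⟩ := h'
  exact ⟨γ⁻¹, by rw [← hγ, inv_smul_smul]⟩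

theorem LocalEmb.place_smul (γ : Gq q) (τ : LocalEmb q K) : (γ • τ).place = τ.place :=
  Quotient.sound ⟨γ, rfl⟩

/-- A chosen element of `Gq` carrying the representative of the place of `τ` to `τ`. -/
def LocalEmb.toRep (τ : LocalEmb q K) : Gq q := Classical.choose τ.exists_smul_emb_place

theorem LocalEmb.toRep_smul (τ : LocalEmb q K) : τ.toRep • τ.place.emb = τ :=
  Classical.choose_spec τ.exists_smul_emb_place

/-- Two elements of `Gq` with the same effect on `τ` agree on `K_τ`. -/
theorem apply_eq_of_smul_eq {τ : LocalEmb q K} {γ γ' : Gq q} (h : γ • τ = γ' • τ) {y : Ω}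
    (hy : y ∈ localFieldAt τ) : γ y = γ' y := by
  have hmem : γ'⁻¹ * γ ∈ (localFieldAt τ).fixingSubgroup := by
    rw [mem_fixingSubgroup_localFieldAt_iff, mul_smul, h, inv_smul_smul]
  have := (IntermediateField.mem_fixingSubgroup_iff _ _).1 hmem y hy
  have h2 : γ' ((γ'⁻¹ * γ) y) = γ' y := congrArg γ' this
  rw [AlgEquiv.mul_apply] at h2
  rw [← h2]
  exact (AlgEquiv.apply_symm_apply γ' (γ y)).symm

/-- The underlying units of `ℚ̄_q` of a family of local units. -/
def placeUnitsVal (u : ∀ ω : LocalPlace q K, (localFieldAt ω.emb)ˣ) (ω : LocalPlace q K) : Ωˣ :=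
  Units.map (algebraMap (localFieldAt ω.emb) Ω : localFieldAt ω.emb →* Ω) (u ω)

theorem placeUnitsVal_mem (u : ∀ ω : LocalPlace q K, (localFieldAt ω.emb)ˣ)
    (ω : LocalPlace q K) : (placeUnitsVal u ω : Ω) ∈ localFieldAt ω.emb :=
  ((u ω : (localFieldAt ω.emb)ˣ) : localFieldAt ω.emb).2

theorem gqUnitsHom_placeUnitsVal_eq (u : ∀ ω : LocalPlace q K, (localFieldAt ω.emb)ˣ)
    (ω : LocalPlace q K) {γ γ' : Gq q} (h : γ • ω.emb = γ' • ω.emb) :
    gqUnitsHom γ (placeUnitsVal u ω) = gqUnitsHom γ' (placeUnitsVal u ω) :=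
  Units.ext (apply_eq_of_smul_eq h (placeUnitsVal_mem u ω))

theorem gqUnitsHom_placeUnitsVal_of_eq (u : ∀ ω : LocalPlace q K, (localFieldAt ω.emb)ˣ)
    {ω ω' : LocalPlace q K} (h : ω' = ω) {γ : Gq q} (hγ : γ • ω'.emb = ω.emb) :
    ((gqUnitsHom γ (placeUnitsVal u ω') : Ωˣ) : Ω) = (placeUnitsVal u ω : Ω) := by
  subst h
  have h2 : γ • ω'.emb = (1 : Gq q) • ω'.emb := by rw [hγ, one_smul]
  rw [gqUnitsHom_placeUnitsVal_eq u ω' h2]
  rfl

/-- The semi-local unit with prescribed values at the representatives of the places. -/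
def semiLocalOfPlaceUnits (u : ∀ ω : LocalPlace q K, (localFieldAt ω.emb)ˣ) :
    semiLocalUnits q K :=
  ⟨fun τ => gqUnitsHom τ.toRep (placeUnitsVal u τ.place), by
    intro δ τ
    have key : ∀ ω' : LocalPlace q K, ω' = τ.place → ∀ γ : Gq q, γ • ω'.emb = δ • τ →
        gqUnitsHom γ (placeUnitsVal u ω') =
          gqUnitsHom δ (gqUnitsHom τ.toRep (placeUnitsVal u τ.place)) := by
      rintro _ rfl γ hγ
      have h2 : γ • τ.place.emb = (δ * τ.toRep) • τ.place.emb := by
        rw [hγ, mul_smul, τ.toRep_smul]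
      rw [gqUnitsHom_placeUnitsVal_eq u τ.place h2]
      apply Units.ext
      rfl
    exact key (δ • τ).place (LocalEmb.place_smul δ τ) (δ • τ).toRep (δ • τ).toRep_smul⟩

theorem semiLocalOfPlaceUnits_apply (u : ∀ ω : LocalPlace q K, (localFieldAt ω.emb)ˣ)
    (τ : LocalEmb q K) :
    ((semiLocalOfPlaceUnits u : semiLocalUnits q K) : LocalEmb q K → Ωˣ) τ =
      gqUnitsHom τ.toRep (placeUnitsVal u τ.place) := rfl

/-- **Evaluation isomorphism**: `(K ⊗ ℚ_q)ˣ = ∏_{v ∣ q} K_vˣ`, evaluating at one chosen embedding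
per place. -/
def semiLocalEvalEquiv :
    semiLocalUnits q K ≃* (∀ ω : LocalPlace q K, (localFieldAt ω.emb)ˣ) where
  toFun f ω := semiLocalEvalAt ω.emb f
  invFun u := semiLocalOfPlaceUnits u
  left_inv f := by
    apply Subtype.ext
    funext τ
    apply Units.ext
    rw [semiLocalOfPlaceUnits_apply]
    show τ.toRep ((f : LocalEmb q K → Ωˣ) τ.place.emb : Ω) = _
    rw [← semiLocalUnits_apply_smul, τ.toRep_smul]
  right_inv u := by
    funext ω
    apply Units.ext
    apply Subtype.ext
    show ((gqUnitsHom ω.emb.toRep (placeUnitsVal u ω.emb.place) : Ωˣ) : Ω) = _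
    exact gqUnitsHom_placeUnitsVal_of_eq u ω.place_emb ω.emb.toRep_smul
  map_mul' f g := by
    funext ω
    exact map_mul _ f g

@[simp]
theorem semiLocalEvalEquiv_apply (f : semiLocalUnits q K) (ω : LocalPlace q K) :
    semiLocalEvalEquiv f ω = semiLocalEvalAt ω.emb f := rfl

/-! ### Restriction of embeddings along an extension `L/K` -/

section Restrict

variable (K) {L : Type} [Field L] [Algebra K L]

/-- Restriction of an embedding of `L` to `K`. -/
def localEmbRestrict (τ' : LocalEmb q L) : LocalEmb q K := τ'.comp (algebraMap K L)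

@[simp]
theorem localEmbRestrict_apply (τ' : LocalEmb q L) (x : K) :
    localEmbRestrict K τ' x = τ' (algebraMap K L x) := rfl

theorem localEmbRestrict_smul (γ : Gq q) (τ' : LocalEmb q L) :
    localEmbRestrict K (γ • τ') = γ • localEmbRestrict K τ' := rfl

/-- Every embedding of `K` extends to an algebraic extension `L`. -/
theorem localEmbRestrict_surjective [Algebra.IsAlgebraic K L] :
    Function.Surjective (localEmbRestrict K : LocalEmb q L → LocalEmb q K) := by
  intro τ
  letI : Algebra K Ω := τ.toAlgebra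
  let φ : L →ₐ[K] Ω := IsAlgClosed.lift
  refine ⟨φ.toRingHom, ?_⟩
  ext x
  exact φ.commutes x

theorem localEmbRestrict_comp_algEquiv (τ' : LocalEmb q L) (σ : L ≃ₐ[K] L) :
    localEmbRestrict K (τ'.comp (σ : L →+* L)) = localEmbRestrict K τ' := by
  ext x
  show τ' (σ (algebraMap K L x)) = τ' (algebraMap K L x)
  rw [σ.commutes]

/-- For a normal extension `L/K`, two embeddings of `L` with the same restriction to `K` differ by
a unique automorphism: the fibres of the restriction map are torsors under `Gal(L/K)`. -/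
theorem exists_unique_algEquiv_comp [Normal K L] {τ' τ'' : LocalEmb q L}
    (h : localEmbRestrict K τ' = localEmbRestrict K τ'') :
    ∃! σ : L ≃ₐ[K] L, τ'' = τ'.comp (σ : L →+* L) := by
  letI : Algebra L Ω := τ'.toAlgebra
  letI : Algebra K Ω := (localEmbRestrict K τ').toAlgebra
  haveI : IsScalarTower K L Ω := IsScalarTower.of_algebraMap_eq fun x => rfl
  let φ'' : L →ₐ[K] Ω :=
    { (τ'' : L →+* Ω) with
      commutes' := fun x => by
        show τ'' (algebraMap K L x) = localEmbRestrict K τ' x
        rw [h]; rfl }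
  obtain ⟨σ, hσ⟩ := (Normal.algHomEquivAut K Ω L).symm.surjective φ''
  have hσ' : ∀ x, τ'' x = τ' (σ x) := fun x => by
    have := congrArg (fun ψ : L →ₐ[K] Ω => ψ x) hσ
    exact this.symm
  refine ⟨σ, RingHom.ext hσ', fun σ' h' => ?_⟩
  ext x
  apply τ'.injective
  rw [← hσ' x, h']
  rfl

end Restrict

/-! ### Galois invariants of the semi-local units -/

section Invariants

variable (K) {L : Type} [Field L] [Algebra K L]

theorem semiLocalMap_algebraMap_injective [Algebra.IsAlgebraic K L] :
    Function.Injective (semiLocalMap (q := q) (algebraMap K L)) := by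
  intro f g hfg
  apply Subtype.ext
  funext τ
  obtain ⟨τ', rfl⟩ := localEmbRestrict_surjective (q := q) K (L := L) τ
  have := congrArg (fun F : semiLocalUnits q L => (F : LocalEmb q L → Ωˣ) τ') hfg
  exact this

theorem smul_semiLocalMap_algebraMap (σ : L ≃ₐ[K] L) (g : semiLocalUnits q K) :
    σ • semiLocalMap (q := q) (algebraMap K L) g = semiLocalMap (algebraMap K L) g := by
  apply Subtype.ext
  funext τ'
  show (g : LocalEmb q K → Ωˣ) ((τ'.comp (MulSemiringAction.toRingHom (L ≃ₐ[K] L) L σ)).comp
    (algebraMap K L)) = (g : LocalEmb q K → Ωˣ) (τ'.comp (algebraMap K L))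
  have hcomp : (τ'.comp (MulSemiringAction.toRingHom (L ≃ₐ[K] L) L σ)).comp (algebraMap K L) =
      τ'.comp (algebraMap K L) := by
    ext x
    show τ' (σ (algebraMap K L x)) = τ' (algebraMap K L x)
    rw [σ.commutes]
  rw [hcomp]

/-- `(A_q L)^{Gal(L/K)} = A_q K`: the semi-local units of `K` are the Galois invariants of those
of `L`. -/
theorem mem_range_semiLocalMap_iff [Normal K L] (f : semiLocalUnits q L) :
    f ∈ (semiLocalMap (q := q) (algebraMap K L)).range ↔ ∀ σ : L ≃ₐ[K] L, σ • f = f := by
  haveI : Algebra.IsAlgebraic K L := Normal.toIsAlgebraic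
  constructor
  · rintro ⟨g, rfl⟩ σ
    exact smul_semiLocalMap_algebraMap K σ g
  · intro hf
    have hsurj := localEmbRestrict_surjective (q := q) K (L := L)
    -- `f` is constant on the fibres of the restriction map
    have hconst : ∀ τ' τ'' : LocalEmb q L, localEmbRestrict K τ' = localEmbRestrict K τ'' →
        (f : LocalEmb q L → Ωˣ) τ'' = (f : LocalEmb q L → Ωˣ) τ' := by
      intro τ' τ'' h
      obtain ⟨σ, hσ, -⟩ := exists_unique_algEquiv_comp K h
      have := congrArg (fun F : semiLocalUnits q L => (F : LocalEmb q L → Ωˣ) τ') (hf σ)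
      rw [hσ]
      exact this
    refine ⟨⟨fun τ => (f : LocalEmb q L → Ωˣ) (Function.surjInv hsurj τ), ?_⟩, ?_⟩
    · intro γ τ
      have h1 : localEmbRestrict K (γ • Function.surjInv hsurj τ) =
          localEmbRestrict K (Function.surjInv hsurj (γ • τ)) := by
        rw [localEmbRestrict_smul, Function.surjInv_eq hsurj, Function.surjInv_eq hsurj]
      show (f : LocalEmb q L → Ωˣ) (Function.surjInv hsurj (γ • τ)) =
        gqUnitsHom γ ((f : LocalEmb q L → Ωˣ) (Function.surjInv hsurj τ))
      rw [hconst _ _ h1]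
      exact f.2 γ _
    · apply Subtype.ext
      funext τ'
      exact hconst _ _ (Function.surjInv_eq hsurj _).symm

end Invariants

end Fermat.Agent.CFT

end
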