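import Fermat.Agent.CFT.Global.ArtinTate
import Fermat.Agent.CFT.Global.IdeleCoh
import Fermat.Agent.CFT.Global.SemiLocal
import Fermat.Agent.CFT.Global.SClassAbstract
import Fermat.Agent.CFT.GalMapInfRes

/-!
# Inflation–restriction for idele classes in field language (C6c)

For `K ⊆ L' ⊆ L` with `L/K` finite Galois and `L'/K` normal:

* `ideleClassSubIso`: `H^n(galSub, C_L) ≅ H^n(Gal(L/L'), C_L)`, identifying restriction to the
  subgroup with `ideleClassGalMap K L L' L n`;
* `ideleClassToInvariants_bijective`: `C_{L'} ≅ (C_L)^{Gal(L/L')}` (uses Hilbert 90 and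
  `J_L^{Gal(L/L')} = J_{L'}`);
* `ideleClassQuotIso`: `H^n(Gal(L/K)/galKer, (C_L)^{galKer}) ≅ H^n(Gal(L'/K), C_{L'})`, identifying
  inflation with `ideleClassGalMap K L' K L n`;
* the inflation–restriction sequence in degree two
  `0 → H²(L'/K, C_{L'}) → H²(L/K, C_L) → H²(L/L', C_L)` is exact if `H¹(L/L', C_L) = 0`
  (`ideleClassInfl_two_injective`, `exists_ideleClassInfl_eq_of_rest_eq_zero`).
-/

set_option maxSynthPendingDepth 2

open CategoryTheory groupCohomology Rep

namespace Fermat.Agent.CFT

noncomputable section

section Basic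

variable {L : Type} [Field L]

theorem ideleMap_id (x : ideleGroup L) : ideleMap (RingHom.id L) x = x := by
  apply Subtype.ext
  funext q
  apply Subtype.ext
  funext τ
  rfl

theorem ideleClassMap_self (c : ideleClass L) : ideleClassMap L L c = c := by
  induction c using QuotientGroup.induction_on with
  | H x =>
    rw [ideleClassMap_mk]
    exact congrArg _ (ideleMap_id x)

end Basic

section SubTransport

variable (K E L : Type) [Field K] [Field E] [Field L] [Algebra K E] [Algebra K L] [Algebra E L]
  [IsScalarTower K E L] [Normal K L]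

/-- The two actions of `Gal(L/E)` on `J_L` (directly, and through `Gal(L/K)`) agree. -/
theorem galRes_rest_smul_idele (τ : L ≃ₐ[E] L) (x : ideleGroup L) :
    galRes K L E L τ • x = τ • x := by
  have h := ideleMap_galRes_smul K L E L τ x
  have e : algebraMap L L = RingHom.id L := rfl
  rwa [e, ideleMap_id, ideleMap_id] at h

/-- The two actions of `Gal(L/E)` on `C_L` agree. -/
theorem galRes_rest_smul_ideleClass (τ : L ≃ₐ[E] L) (c : ideleClass L) :
    galRes K L E L τ • c = τ • c := by
  induction c using QuotientGroup.induction_on with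
  | H x =>
    rw [ideleClass_smul_mk, ideleClass_smul_mk, galRes_rest_smul_idele]

/-- **Subgroup transport** for idele classes: `H^n(galSub, C_L) ≅ H^n(Gal(L/E), C_L)`. -/
def ideleClassSubIso (n : ℕ) :
    groupCohomology (res (galSub K E L).subtype (ideleClassRep L (L ≃ₐ[K] L))) n ≅
      groupCohomology (ideleClassRep L (L ≃ₐ[E] L)) n :=
  groupCohomology.mapIso (galSubEquiv K E L).symm
    (LinearEquiv.refl ℤ (ideleClassRep L (L ≃ₐ[E] L)).V)
    (fun g => by
      refine LinearMap.ext fun c => ?_
      obtain ⟨τ, rfl⟩ := (galSubEquiv K E L).surjective g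
      rw [MulEquiv.symm_apply_apply]
      exact congrArg Additive.ofMul
        (galRes_rest_smul_ideleClass K E L τ (Additive.toMul c))) n

/-- The subgroup transport identifies restriction to `galSub` with `ideleClassGalMap K L E L`. -/
theorem res_comp_ideleClassSubIso_hom (n : ℕ) :
    groupCohomology.map (galSub K E L).subtype (𝟙 _) n ≫ (ideleClassSubIso K E L n).hom =
      ideleClassGalMap K L E L n := by
  change groupCohomology.map _ _ n ≫ groupCohomology.map _ _ n = _
  rw [← groupCohomology.map_comp]
  change _ = groupCohomology.map (galRes K L E L) (ideleClassGalHom K L E L) n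
  refine groupCohomology.map_congr ?_ ?_ n
  · rfl
  · refine LinearMap.ext fun c => ?_
    exact congrArg Additive.ofMul (ideleClassMap_self (Additive.toMul c)).symm

end SubTransport

section Invariants

variable (K L' L : Type) [Field K] [Field L'] [Field L] [Algebra K L'] [Algebra K L] [Algebra L' L]
  [IsScalarTower K L' L] [IsGalois K L] [FiniteDimensional K L]

omit [IsGalois K L] [FiniteDimensional K L] in
/-- `J_{L'} → J_L` is injective on the full products. -/
theorem ideleProdMap_algebraMap_injective [Algebra.IsAlgebraic L' L] :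
    Function.Injective (ideleProdMap (algebraMap L' L)) := by
  intro x y hxy
  funext q
  apply semiLocalMap_algebraMap_injective (q := (q : ℕ)) L' (L := L)
  exact congrFun hxy q

include K in
/-- `C_{L'} → C_L` is injective (`L/L'` Galois, principal ideles of `L` determined by the
element). -/
theorem ideleClassMap_injective_of_isGalois (hinjL : Function.Injective (principalIdele L)) :
    Function.Injective (ideleClassMap L' L) := by
  have hgal : IsGalois L' L := IsGalois.tower_top_of_isGalois K L' L
  have hfd : FiniteDimensional L' L := FiniteDimensional.right K L' L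
  rw [injective_iff_map_eq_one]
  intro c hc
  induction c using QuotientGroup.induction_on with
  | H x =>
    rw [ideleClassMap_mk, QuotientGroup.eq_one_iff] at hc
    obtain ⟨a, ha⟩ := hc
    have ha' : principalIdele L a = ideleProdMap (algebraMap L' L) (x : IdeleProd L') := ha
    have hfix : ∀ τ : L ≃ₐ[L'] L, τ (a : L) = a := by
      intro τ
      have h1 : τ • ideleMap (algebraMap L' L) x = ideleMap (algebraMap L' L) x :=
        smul_ideleMap (algebraMap L' L) (fun σ b => σ.commutes b) τ x
      have h2 : principalIdele L (unitsSmul τ a) = principalIdele L a := by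
        funext q
        show semiLocalDiag (unitsSmul τ a) = semiLocalDiag a
        rw [← smul_semiLocalDiag]
        have h3 : τ • (ideleProdMap (algebraMap L' L) (x : IdeleProd L')) q =
            (ideleProdMap (algebraMap L' L) (x : IdeleProd L')) q :=
          congrArg (fun y : ideleGroup L => (y : IdeleProd L) q) h1
        rw [← ha'] at h3
        exact h3
      exact congrArg Units.val (hinjL h2)
    obtain ⟨a', ha'0⟩ : ∃ a' : L', algebraMap L' L a' = a := by
      have hbot : (a : L) ∈ (⊥ : IntermediateField L' L) :=
        (IsGalois.mem_bot_iff_fixed _).mpr hfix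
      exact IntermediateField.mem_bot.mp hbot
    have hne : a' ≠ 0 := by
      rintro rfl
      rw [map_zero] at ha'0
      exact a.ne_zero ha'0.symm
    rw [QuotientGroup.eq_one_iff]
    refine ⟨Units.mk0 a' hne, ?_⟩
    apply ideleProdMap_algebraMap_injective L' L
    rw [ideleProdMap_principal]
    refine Eq.trans ?_ ha'
    congr 1
    exact Units.ext ha'0

include K in
/-- Invariant idele classes lift to `C_{L'}` (Hilbert 90 and `J_L^{Gal(L/L')} = J_{L'}`). -/
theorem exists_ideleClassMap_eq_of_smul_eq (hL : PrincipalIsIdele L)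
    (hinjL : Function.Injective (principalIdele L)) (c : ideleClass L)
    (hc : ∀ τ : L ≃ₐ[L'] L, τ • c = c) : ∃ c' : ideleClass L', ideleClassMap L' L c' = c := by
  have hgal : IsGalois L' L := IsGalois.tower_top_of_isGalois K L' L
  have hfd : FiniteDimensional L' L := FiniteDimensional.right K L' L
  have hX := ideleShortComplex_shortExact L' hL hinjL
  have h1 : Limits.IsZero (groupCohomology (ideleShortComplex L' hL).X₁ 1) := isZero_H1_units L'
  obtain ⟨x, hx, hxc⟩ := exists_invariant_lift_of_isZero_H1 hX h1 (Additive.ofMul c)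
    (fun τ => congrArg Additive.ofMul (hc τ))
  have hx' : ∀ τ : L ≃ₐ[L'] L, τ • (Additive.toMul x : ideleGroup L) = Additive.toMul x :=
    fun τ => congrArg Additive.toMul (hx τ)
  obtain ⟨y, hy⟩ := exists_ideleMap_eq_of_smul_eq (algebraMap L' L) (H := L ≃ₐ[L'] L)
    (fun q f hf => (mem_range_semiLocalMap_iff (q := (q : ℕ)) L' f).2 hf)
    (fun q => localEmbRestrict_surjective (q := (q : ℕ)) L' (L := L)) hx'
  refine ⟨QuotientGroup.mk y, ?_⟩
  rw [ideleClassMap_mk, hy]
  exact congrArg Additive.toMul hxc

end Invariants

section QuotTransport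

variable (K L' L : Type) [Field K] [Field L'] [Field L] [Algebra K L'] [Algebra K L] [Algebra L' L]
  [IsScalarTower K L' L] [Normal K L'] [IsGalois K L] [FiniteDimensional K L]

omit [IsGalois K L] [FiniteDimensional K L] in
/-- `C_{L'} → C_L` lands in the invariants of `galKer`. -/
theorem smul_ideleClassMap_of_mem_galKer (s : galKer K L' L) (c : ideleClass L') :
    (s : L ≃ₐ[K] L) • ideleClassMap L' L c = ideleClassMap L' L c := by
  have h := ideleClassMap_galRes_smul K L' K L s.1 c
  have h1 : galRes K L' K L s.1 = 1 := s.2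
  rw [h1, one_smul] at h
  exact h.symm

/-- The map `C_{L'} → (C_L)^{galKer}`. -/
def ideleClassToInvariants :
    Additive (ideleClass L') →ₗ[ℤ] Representation.invariants
      ((ideleClassRep L (L ≃ₐ[K] L)).ρ.comp (galKer K L' L).subtype) :=
  LinearMap.codRestrict _ ((ideleClassMap L' L).toAdditive.toIntLinearMap)
    (fun c => by
      intro s
      exact congrArg Additive.ofMul
        (smul_ideleClassMap_of_mem_galKer K L' L s (Additive.toMul c)))

omit [IsGalois K L] [FiniteDimensional K L] in
theorem coe_ideleClassToInvariants (c : Additive (ideleClass L')) :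
    ((ideleClassToInvariants K L' L c).1 : Additive (ideleClass L)) =
      Additive.ofMul (ideleClassMap L' L (Additive.toMul c)) := rfl

variable (hL : PrincipalIsIdele L) (hinjL : Function.Injective (principalIdele L))

include hL hinjL in
theorem ideleClassToInvariants_bijective :
    Function.Bijective (ideleClassToInvariants K L' L) := by
  constructor
  · intro a b hab
    have h1 : ideleClassMap L' L (Additive.toMul a) = ideleClassMap L' L (Additive.toMul b) :=
      congrArg (fun z : Representation.invariants
        ((ideleClassRep L (L ≃ₐ[K] L)).ρ.comp (galKer K L' L).subtype) =>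
          (Additive.toMul (z.1 : Additive (ideleClass L)) : ideleClass L)) hab
    exact Additive.toMul.injective (ideleClassMap_injective_of_isGalois K L' L hinjL h1)
  · rintro ⟨y, hy⟩
    have hfix : ∀ τ : L ≃ₐ[L'] L, τ • (Additive.toMul y : ideleClass L) = Additive.toMul y := by
      intro τ
      rw [← galRes_rest_smul_ideleClass K L' L τ]
      exact congrArg Additive.toMul (hy ⟨galRes K L L' L τ, galRes_mem_galKer K L' L τ⟩)
    obtain ⟨c', hc'⟩ := exists_ideleClassMap_eq_of_smul_eq K L' L hL hinjL _ hfix
    exact ⟨Additive.ofMul c', Subtype.ext (congrArg Additive.ofMul hc')⟩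

/-- `(C_L)^{galKer} ≃ C_{L'}`. -/
def ideleClassInvariantsEquiv :
    Representation.invariants
      ((ideleClassRep L (L ≃ₐ[K] L)).ρ.comp (galKer K L' L).subtype) ≃ₗ[ℤ]
        Additive (ideleClass L') :=
  (LinearEquiv.ofBijective (ideleClassToInvariants K L' L)
    (ideleClassToInvariants_bijective K L' L hL hinjL)).symm

theorem ideleClassInvariantsEquiv_toInvariants (c : Additive (ideleClass L')) :
    ideleClassInvariantsEquiv K L' L hL hinjL (ideleClassToInvariants K L' L c) = c :=
  (LinearEquiv.ofBijective (ideleClassToInvariants K L' L)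
    (ideleClassToInvariants_bijective K L' L hL hinjL)).symm_apply_apply c

omit [IsGalois K L] [FiniteDimensional K L] in
theorem quotientToInvariants_ideleClassToInvariants (σ : L ≃ₐ[K] L)
    (c : Additive (ideleClass L')) :
    ((ideleClassRep L (L ≃ₐ[K] L)).ρ.quotientToInvariants (galKer K L' L))
      (QuotientGroup.mk σ) (ideleClassToInvariants K L' L c) =
    ideleClassToInvariants K L' L
      ((ideleClassRep L' (L' ≃ₐ[K] L')).ρ (galRes K L' K L σ) c) := by
  apply Subtype.ext
  exact congrArg Additive.ofMul
    (ideleClassMap_galRes_smul K L' K L σ (Additive.toMul c)).symm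

/-- **Quotient transport** for idele classes:
`H^n(Gal(L/K)/galKer, (C_L)^galKer) ≅ H^n(Gal(L'/K), C_{L'})`. -/
def ideleClassQuotIso (n : ℕ) :
    groupCohomology ((ideleClassRep L (L ≃ₐ[K] L)).quotientToInvariants (galKer K L' L)) n ≅
      groupCohomology (ideleClassRep L' (L' ≃ₐ[K] L')) n :=
  groupCohomology.mapIso (galQuotEquiv K L' L) (ideleClassInvariantsEquiv K L' L hL hinjL)
    (fun g => by
      obtain ⟨σ, rfl⟩ := QuotientGroup.mk_surjective g
      refine LinearMap.ext fun y => ?_
      obtain ⟨x, rfl⟩ := (ideleClassToInvariants_bijective K L' L hL hinjL).2 y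
      refine (congrArg (ideleClassInvariantsEquiv K L' L hL hinjL)
        (quotientToInvariants_ideleClassToInvariants K L' L σ x)).trans ?_
      refine (ideleClassInvariantsEquiv_toInvariants K L' L hL hinjL _).trans ?_
      exact congrArg ((ideleClassRep L' (L' ≃ₐ[K] L')).ρ (galRes K L' K L σ))
        (ideleClassInvariantsEquiv_toInvariants K L' L hL hinjL x).symm) n

/-- The quotient transport identifies inflation from `Gal(L/K) ⧸ galKer` with
`ideleClassGalMap K L' K L`. -/
theorem ideleClassQuotIso_inv_comp_inf (n : ℕ) :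
    (ideleClassQuotIso K L' L hL hinjL n).inv ≫
      groupCohomology.map (QuotientGroup.mk' (galKer K L' L))
        (ofHom <| (ideleClassRep L (L ≃ₐ[K] L)).ρ.quotientToInvariants_lift (galKer K L' L)) n =
      ideleClassGalMap K L' K L n := by
  change groupCohomology.map _ _ n ≫ groupCohomology.map _ _ n = _
  rw [← groupCohomology.map_comp]
  change _ = groupCohomology.map (galRes K L' K L) (ideleClassGalHom K L' K L) n
  refine groupCohomology.map_congr ?_ ?_ n
  · rfl
  · refine LinearMap.ext fun x => ?_
    rfl

end QuotTransport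

section InfRes

variable (K L' L : Type) [Field K] [Field L'] [Field L] [Algebra K L'] [Algebra K L] [Algebra L' L]
  [IsScalarTower K L' L] [Normal K L'] [IsGalois K L] [FiniteDimensional K L]

omit [Normal K L'] [FiniteDimensional K L] in
/-- `H¹(Gal(L/L'), C_L) = 0`, transported to a subgroup of `Gal(L/K)`. -/
theorem isZero_H1_res_ideleClass_of_eq_galSub (S : Subgroup (L ≃ₐ[K] L))
    (hS : S = galSub K L' L)
    (h1 : Limits.IsZero (groupCohomology (ideleClassRep L (L ≃ₐ[L'] L)) 1)) :
    Limits.IsZero (groupCohomology (res S.subtype (ideleClassRep L (L ≃ₐ[K] L))) 1) := by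
  subst hS
  exact h1.of_iso (ideleClassSubIso K L' L 1)

omit [Normal K L'] [FiniteDimensional K L] in
theorem res_ideleClass_eq_zero_of_rest_eq_zero (S : Subgroup (L ≃ₐ[K] L))
    (hS : S = galSub K L' L) (n : ℕ)
    (x : groupCohomology (ideleClassRep L (L ≃ₐ[K] L)) n)
    (hx : (ideleClassGalMap K L L' L n).hom x = 0) :
    (groupCohomology.map S.subtype (𝟙 (res S.subtype (ideleClassRep L (L ≃ₐ[K] L)))) n).hom x =
      0 := by
  subst hS
  rw [← res_comp_ideleClassSubIso_hom, ModuleCat.comp_apply] at hx
  have hinj : Function.Injective (ideleClassSubIso K L' L n).hom.hom :=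
    (ConcreteCategory.bijective_of_isIso (ideleClassSubIso K L' L n).hom).1
  apply hinj
  rw [hx, map_zero]

variable (hL : PrincipalIsIdele L) (hinjL : Function.Injective (principalIdele L))
  (h1 : Limits.IsZero (groupCohomology (ideleClassRep L (L ≃ₐ[L'] L)) 1))

include hL hinjL h1

/-- **Inflation is injective** on `H²` of idele classes: `H²(L'/K, C_{L'}) ↪ H²(L/K, C_L)`, given
`H¹(L/L', C_L) = 0`. -/
theorem ideleClassInfl_two_injective :
    Function.Injective (ideleClassGalMap K L' K L 2).hom := by
  have h := H2Inf_injective (ideleClassRep L (L ≃ₐ[K] L)) (galKer K L' L)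
    (isZero_H1_res_ideleClass_of_eq_galSub K L' L _ (galKer_eq_galSub K L' L) h1)
  have hc := ideleClassQuotIso_inv_comp_inf K L' L hL hinjL 2
  have hbij : Function.Bijective (ideleClassQuotIso K L' L hL hinjL 2).inv.hom :=
    ConcreteCategory.bijective_of_isIso (ideleClassQuotIso K L' L hL hinjL 2).inv
  rw [← hc]
  intro a b hab
  rw [ModuleCat.comp_apply, ModuleCat.comp_apply] at hab
  exact hbij.1 (h hab)

/-- **Inflation–restriction exactness** on `H²` of idele classes: a class of `H²(L/K, C_L)` which
restricts to zero in `H²(L/L', C_L)` is inflated from `H²(L'/K, C_{L'})`. -/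
theorem exists_ideleClassInfl_eq_of_rest_eq_zero
    (x : groupCohomology (ideleClassRep L (L ≃ₐ[K] L)) 2)
    (hx : (ideleClassGalMap K L L' L 2).hom x = 0) :
    ∃ y : groupCohomology (ideleClassRep L' (L' ≃ₐ[K] L')) 2,
      (ideleClassGalMap K L' K L 2).hom y = x := by
  have hres := res_ideleClass_eq_zero_of_rest_eq_zero K L' L (galKer K L' L)
    (galKer_eq_galSub K L' L) 2 x hx
  obtain ⟨y', hy'⟩ := H2_exists_inf_of_res_eq_zero (ideleClassRep L (L ≃ₐ[K] L)) (galKer K L' L)
    (isZero_H1_res_ideleClass_of_eq_galSub K L' L _ (galKer_eq_galSub K L' L) h1) x hres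
  refine ⟨(ideleClassQuotIso K L' L hL hinjL 2).hom.hom y', ?_⟩
  rw [← ideleClassQuotIso_inv_comp_inf K L' L hL hinjL 2, ModuleCat.comp_apply]
  have : (ideleClassQuotIso K L' L hL hinjL 2).inv.hom
      ((ideleClassQuotIso K L' L hL hinjL 2).hom.hom y') = y' := by
    rw [← ModuleCat.comp_apply, Iso.hom_inv_id]
    rfl
  rw [this]
  exact hy'

end InfRes

end

end Fermat.Agent.CFT
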