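import Fermat.Agent.CFT.Tate.CohTriv

/-!
# Cyclic layers: the `H²` sequence of a short exact sequence and the counting argument

For a finite cyclic group `G` and a short exact sequence `0 ⟶ X₁ ⟶ X₂ ⟶ X₃ ⟶ 0` of
`G`-representations with `H¹(G, X₁) = 0` and `H¹(G, X₃) = 0`, the sequence
`0 ⟶ H²(G, X₁) ⟶ H²(G, X₂) ⟶ H²(G, X₃) ⟶ 0` is exact (`H³(G, X₁) ≅ H¹(G, X₁) = 0` by
periodicity).

The counting lemma `ker_eq_range_of_card_le` then identifies the kernel of an "invariant map"
`inv : H²(G, X₂) →+ W` vanishing on `H²(G, X₁)` with the image of `H²(G, X₁)`, as soon as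
`|H²(G, X₃)| ≤ |im inv|`.

This is the abstract core of node C6a (`X = (Lˣ ⟶ J_L ⟶ C_L)` for a cyclic extension `L/K` of
number fields).
-/

open CategoryTheory Limits groupCohomology Rep

namespace Fermat.Agent.CFT

universe u

section Counting

variable {X Y Z W : Type*} [AddCommGroup X] [AddCommGroup Y] [AddCommGroup Z] [AddCommGroup W]

/-- **Counting lemma**: `X --f--> Y --g--> Z --> 0` exact, `φ : Y →+ W` vanishing on `im f`, and
`|Z| ≤ |im φ|` (finite). Then `ker φ = im f`, and `φ` induces an injection `Z →+ W`. -/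
theorem ker_eq_range_of_card_le (f : X →+ Y) (g : Y →+ Z) (φ : Y →+ W)
    (hex : ∀ y, g y = 0 → ∃ x, f x = y) (hg : Function.Surjective g)
    (hφf : ∀ x, φ (f x) = 0) [Finite Z] (hcard : Nat.card Z ≤ Nat.card φ.range) :
    (∀ y, φ y = 0 ↔ ∃ x, f x = y) ∧
      ∃ ψ : Z →+ W, Function.Injective ψ ∧ (∀ y, ψ (g y) = φ y) ∧ ψ.range = φ.range := by
  have hker : g.ker ≤ φ.ker := by
    intro y hy
    obtain ⟨x, rfl⟩ := hex y hy
    exact hφf x
  set ψ : Z →+ W := g.liftOfSurjective hg ⟨φ, hker⟩ with hψ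
  have hψg : ∀ y, ψ (g y) = φ y := fun y =>
    AddMonoidHom.liftOfRightInverse_comp_apply g _ (Function.rightInverse_surjInv hg) ⟨φ, hker⟩ y
  have hrange : ψ.range = φ.range := by
    ext w
    constructor
    · rintro ⟨z, rfl⟩
      obtain ⟨y, rfl⟩ := hg z
      exact ⟨y, (hψg y).symm⟩
    · rintro ⟨y, rfl⟩
      exact ⟨g y, hψg y⟩
  have hbij : Function.Bijective ψ.rangeRestrict :=
    Function.Surjective.bijective_of_nat_card_le ψ.rangeRestrict_surjective (by rwa [hrange])
  have hinj : Function.Injective ψ := by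
    intro z z' h
    apply hbij.1
    exact Subtype.ext h
  refine ⟨fun y => ⟨fun hy => ?_, ?_⟩, ψ, hinj, hψg, hrange⟩
  · apply hex
    apply hinj
    rw [hψg, hy, map_zero]
  · rintro ⟨x, rfl⟩
    exact hφf x

end Counting

section Layer

variable {k G : Type u} [CommRing k] [Group G]

/-- Periodicity for finite cyclic groups: `H¹ = 0 ⇒ H³ = 0`. -/
lemma isZero_H3_of_isCyclic [IsCyclic G] [Finite G] (A : Rep k G)
    (h1 : IsZero (groupCohomology A 1)) : IsZero (groupCohomology A 3) := by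
  let _ : CommGroup G := IsCyclic.commGroup
  let _ := Fintype.ofFinite G
  obtain ⟨g, hg⟩ := IsCyclic.exists_generator (α := G)
  exact cyclic_isZero_odd A g hg h1 3 (by decide)

variable {X : ShortComplex (Rep k G)} (hX : X.ShortExact)

include hX

/-- `H²(X₁) ⟶ H²(X₂)` is injective if `H¹(X₃) = 0`. -/
lemma map_H2_f_injective (h : IsZero (groupCohomology X.X₃ 1)) :
    Function.Injective (groupCohomology.map (MonoidHom.id G) X.f 2).hom := by
  have hex := mapShortComplex₁_exact hX (i := 1) (j := 2) rfl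
  have : Mono (mapShortComplex₁ hX (i := 1) (j := 2) rfl).g := hex.mono_g (h.eq_of_src _ _)
  exact (ModuleCat.mono_iff_injective _).1 this

/-- Exactness at `H²(X₂)`, elementwise. -/
lemma map_H2_exact (y : groupCohomology X.X₂ 2)
    (hy : (groupCohomology.map (MonoidHom.id G) X.g 2).hom y = 0) :
    ∃ x, (groupCohomology.map (MonoidHom.id G) X.f 2).hom x = y :=
  (ShortComplex.moduleCat_exact_iff _).1 (mapShortComplex₂_exact hX 2) y hy

/-- `H²(X₂) ⟶ H²(X₃)` is surjective if `H³(X₁) = 0`. -/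
lemma map_H2_g_surjective (h : IsZero (groupCohomology X.X₁ 3)) :
    Function.Surjective (groupCohomology.map (MonoidHom.id G) X.g 2).hom := by
  have hex := mapShortComplex₃_exact hX (i := 2) (j := 3) rfl
  have : Epi (mapShortComplex₃ hX (i := 2) (j := 3) rfl).f := hex.epi_f (h.eq_of_tgt _ _)
  exact (ModuleCat.epi_iff_surjective _).1 this

/-- For a finite cyclic group and `H¹(X₁) = 0`, `H²(X₂) ⟶ H²(X₃)` is surjective. -/
lemma map_H2_g_surjective_of_isCyclic [IsCyclic G] [Finite G]
    (h : IsZero (groupCohomology X.X₁ 1)) :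
    Function.Surjective (groupCohomology.map (MonoidHom.id G) X.g 2).hom :=
  map_H2_g_surjective hX (isZero_H3_of_isCyclic X.X₁ h)

/-- **Cyclic layer theorem**: `G` finite cyclic, `H¹(X₁) = 0`,
`inv : H²(X₂) →+ W` vanishing on the image of `H²(X₁)` and `|H²(X₃)| ≤ |im inv|`. Then
`ker inv = im H²(X₁)` and `inv` induces an injection `H²(X₃) →+ W` with the same image. -/
theorem cyclicLayer_ker_inv [IsCyclic G] [Finite G] {W : Type*} [AddCommGroup W]
    (h1 : IsZero (groupCohomology X.X₁ 1)) (inv : groupCohomology X.X₂ 2 →+ W)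
    (hinv : ∀ x, inv ((groupCohomology.map (MonoidHom.id G) X.f 2).hom x) = 0)
    [Finite (groupCohomology X.X₃ 2)]
    (hcard : Nat.card (groupCohomology X.X₃ 2) ≤ Nat.card inv.range) :
    (∀ y, inv y = 0 ↔ ∃ x, (groupCohomology.map (MonoidHom.id G) X.f 2).hom x = y) ∧
      ∃ ψ : groupCohomology X.X₃ 2 →+ W, Function.Injective ψ ∧
        (∀ y, ψ ((groupCohomology.map (MonoidHom.id G) X.g 2).hom y) = inv y) ∧
        ψ.range = inv.range := by
  exact ker_eq_range_of_card_le
    (groupCohomology.map (MonoidHom.id G) X.f 2).hom.toAddMonoidHom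
    (groupCohomology.map (MonoidHom.id G) X.g 2).hom.toAddMonoidHom inv
    (map_H2_exact hX) (map_H2_g_surjective_of_isCyclic hX h1) hinv hcard

end Layer

end Fermat.Agent.CFT
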