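import Fermat.Agent.CFT.Global.IdeleDefs
import Fermat.Agent.CFT.Global.CyclicLayer

/-!
# The short exact sequence `0 ⟶ Lˣ ⟶ J_L ⟶ C_L ⟶ 0` of Galois modules

In the idele model of `IdeleDefs.lean`, for a field extension `L/K` with `G = L ≃ₐ[K] L` we build
the short complex `Rep.ofAlgebraAutOnUnits K L ⟶ ideleRep G L ⟶ ideleClassRep G L` of
`Rep ℤ G` and prove that it is short exact, under the two number-field facts
(`PrincipalIsIdele L`: principal ideles are ideles; injectivity of `principalIdele L`), which are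
taken as hypotheses here.  We then specialise the cyclic layer theorem of `CyclicLayer.lean`.
-/

open CategoryTheory Limits groupCohomology Rep

namespace Fermat.Agent.CFT

noncomputable section

/-- Principal ideles are ideles (true for number fields). -/
def PrincipalIsIdele (L : Type) [Field L] : Prop := ∀ x : Lˣ, principalIdele L x ∈ ideleGroup L

variable (K : Type) {L : Type} [Field K] [Field L] [Algebra K L]

/-- The principal idele map `Lˣ →* J_L`. -/
def principalIdeleHom (h : PrincipalIsIdele L) : Lˣ →* ideleGroup L :=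
  (principalIdele L).codRestrict _ h

@[simp]
lemma principalIdeleHom_coe (h : PrincipalIsIdele L) (x : Lˣ) :
    ((principalIdeleHom h x : ideleGroup L) : IdeleProd L) = principalIdele L x := rfl

lemma smul_principalIdeleHom (h : PrincipalIsIdele L) (σ : L ≃ₐ[K] L) (x : Lˣ) :
    σ • principalIdeleHom h x = principalIdeleHom h (σ • x) := by
  apply Subtype.ext
  funext q
  show σ • (semiLocalDiag x : semiLocalUnits (q : ℕ) L) = semiLocalDiag (σ • x)
  rw [smul_semiLocalDiag]
  congr 1

lemma range_principalIdeleHom (h : PrincipalIsIdele L) :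
    (principalIdeleHom h).range = principalSubgroup L := by
  ext x
  constructor
  · rintro ⟨a, rfl⟩
    exact ⟨a, rfl⟩
  · rintro ⟨a, ha⟩
    exact ⟨a, Subtype.ext ha⟩

/-- `Lˣ ⟶ J_L` as a morphism of representations. -/
def unitsToIdele (h : PrincipalIsIdele L) :
    Rep.ofAlgebraAutOnUnits K L ⟶ ideleRep L (L ≃ₐ[K] L) :=
  ofHom ⟨(principalIdeleHom h).toAdditive.toIntLinearMap, fun σ => by
    refine LinearMap.ext fun x => ?_
    exact congrArg Additive.ofMul (smul_principalIdeleHom K h σ (Additive.toMul x)).symm⟩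

/-- `J_L ⟶ C_L` as a morphism of representations. -/
def ideleToClass : ideleRep L (L ≃ₐ[K] L) ⟶ ideleClassRep L (L ≃ₐ[K] L) :=
  ofHom ⟨(QuotientGroup.mk' (principalSubgroup L)).toAdditive.toIntLinearMap, fun σ => by
    refine LinearMap.ext fun x => ?_
    rfl⟩

@[simp]
lemma unitsToIdele_apply (h : PrincipalIsIdele L) (x : Additive Lˣ) :
    ((unitsToIdele K h).hom x : Additive (ideleGroup L)) =
      Additive.ofMul (principalIdeleHom h (Additive.toMul x)) := rfl

@[simp]
lemma ideleToClass_apply (x : Additive (ideleGroup L)) :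
    ((ideleToClass K (L := L)).hom x : Additive (ideleClass L)) =
      Additive.ofMul (QuotientGroup.mk (Additive.toMul x) : ideleClass L) := rfl

/-- The short complex `Lˣ ⟶ J_L ⟶ C_L`. -/
def ideleShortComplex (h : PrincipalIsIdele L) : ShortComplex (Rep ℤ (L ≃ₐ[K] L)) where
  X₁ := Rep.ofAlgebraAutOnUnits K L
  X₂ := ideleRep L (L ≃ₐ[K] L)
  X₃ := ideleClassRep L (L ≃ₐ[K] L)
  f := unitsToIdele K h
  g := ideleToClass K
  zero := by
    ext x
    show Additive.ofMul (QuotientGroup.mk (principalIdeleHom h (Additive.toMul x)) :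
      ideleClass L) = 0
    have : principalIdeleHom h (Additive.toMul x) ∈ principalSubgroup L := by
      rw [← range_principalIdeleHom h]
      exact ⟨_, rfl⟩
    rw [(QuotientGroup.eq_one_iff _).2 this]
    rfl

/-- `0 ⟶ Lˣ ⟶ J_L ⟶ C_L ⟶ 0` is short exact. -/
theorem ideleShortComplex_shortExact (h : PrincipalIsIdele L)
    (hinj : Function.Injective (principalIdele L)) : (ideleShortComplex K h).ShortExact := by
  apply rep_shortExact_of
  · intro x y hxy
    have h1 : principalIdeleHom h (Additive.toMul x) = principalIdeleHom h (Additive.toMul y) :=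
      Additive.ofMul.injective hxy
    have h2 : principalIdele L (Additive.toMul x) = principalIdele L (Additive.toMul y) :=
      congrArg Subtype.val h1
    exact Additive.toMul.injective (hinj h2)
  · intro x hx
    have h1 : (QuotientGroup.mk (Additive.toMul x) : ideleClass L) = 1 :=
      Additive.ofMul.injective hx
    rw [QuotientGroup.eq_one_iff, ← range_principalIdeleHom h] at h1
    obtain ⟨a, ha⟩ := h1
    exact ⟨Additive.ofMul a, congrArg Additive.ofMul ha⟩
  · intro c
    obtain ⟨x, rfl⟩ := QuotientGroup.mk_surjective (Additive.toMul c)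
    exact ⟨Additive.ofMul x, rfl⟩

/-- Hilbert 90 in `IsZero` form. -/
lemma isZero_H1_units [FiniteDimensional K L] :
    IsZero (groupCohomology (Rep.ofAlgebraAutOnUnits K L) 1) := by
  rw [ModuleCat.isZero_iff_subsingleton]
  exact (inferInstance : Subsingleton (H1 (Rep.ofAlgebraAutOnUnits K L)))

/-- The map `H²(G, Lˣ) ⟶ H²(G, J_L)`. -/
abbrev ideleH2f (h : PrincipalIsIdele L) :
    groupCohomology (Rep.ofAlgebraAutOnUnits K L) 2 ⟶
      groupCohomology (ideleRep L (L ≃ₐ[K] L)) 2 :=
  groupCohomology.map (A := Rep.ofAlgebraAutOnUnits K L) (B := ideleRep L (L ≃ₐ[K] L))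
    (MonoidHom.id (L ≃ₐ[K] L)) (unitsToIdele K h) 2

/-- The map `H²(G, J_L) ⟶ H²(G, C_L)`. -/
abbrev ideleH2g :
    groupCohomology (ideleRep L (L ≃ₐ[K] L)) 2 ⟶
      groupCohomology (ideleClassRep L (L ≃ₐ[K] L)) 2 :=
  groupCohomology.map (A := ideleRep L (L ≃ₐ[K] L)) (B := ideleClassRep L (L ≃ₐ[K] L))
    (MonoidHom.id (L ≃ₐ[K] L)) (ideleToClass K) 2

variable {K}

/-- **C6a, cyclic layers**: `L/K` finite with cyclic automorphism group `G`, `H¹(G, C_L) = 0`.
Then `0 ⟶ H²(G, Lˣ) ⟶ H²(G, J_L) ⟶ H²(G, C_L) ⟶ 0` is exact. -/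
theorem ideleCyclicLayer_exact [FiniteDimensional K L] [IsCyclic (L ≃ₐ[K] L)]
    (h : PrincipalIsIdele L) (hinj : Function.Injective (principalIdele L))
    (h1C : IsZero (groupCohomology (ideleClassRep L (L ≃ₐ[K] L)) 1)) :
    Function.Injective (ideleH2f K h).hom ∧
      (∀ y, (ideleH2g K (L := L)).hom y = 0 → ∃ x, (ideleH2f K h).hom x = y) ∧
      Function.Surjective (ideleH2g K (L := L)).hom := by
  have hX := ideleShortComplex_shortExact K h hinj
  have h1 : IsZero (groupCohomology (ideleShortComplex K h).X₁ 1) := isZero_H1_units K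
  have h3 : IsZero (groupCohomology (ideleShortComplex K h).X₃ 1) := h1C
  have hfin : Finite (L ≃ₐ[K] L) := inferInstance
  have e1 := map_H2_f_injective hX h3
  have e2 := map_H2_exact hX
  have e3 := map_H2_g_surjective_of_isCyclic hX h1
  exact ⟨e1, e2, e3⟩

/-- **C6a, counting**: `L/K` finite with cyclic automorphism group `G`; if
`inv : H²(G, J_L) →+ W` vanishes on the image of `H²(G, Lˣ)` (reciprocity law) and
`|H²(G, C_L)| ≤ |im inv|`, then `ker inv = im H²(G, Lˣ)` and `inv` induces an injection
`H²(G, C_L) →+ W` with the same image as `inv`. -/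
theorem ideleCyclicLayer_ker_inv [FiniteDimensional K L] [IsCyclic (L ≃ₐ[K] L)]
    (h : PrincipalIsIdele L) (hinj : Function.Injective (principalIdele L))
    {W : Type*} [AddCommGroup W] (inv : groupCohomology (ideleRep L (L ≃ₐ[K] L)) 2 →+ W)
    (hinv : ∀ x, inv ((ideleH2f K h).hom x) = 0)
    [hfin : Finite (groupCohomology (ideleClassRep L (L ≃ₐ[K] L)) 2)]
    (hcard : Nat.card (groupCohomology (ideleClassRep L (L ≃ₐ[K] L)) 2) ≤ Nat.card inv.range) :
    (∀ y, inv y = 0 ↔ ∃ x, (ideleH2f K h).hom x = y) ∧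
      ∃ ψ : groupCohomology (ideleClassRep L (L ≃ₐ[K] L)) 2 →+ W, Function.Injective ψ ∧
        (∀ y, ψ ((ideleH2g K (L := L)).hom y) = inv y) ∧ ψ.range = inv.range := by
  have hX := ideleShortComplex_shortExact K h hinj
  have h1 : IsZero (groupCohomology (ideleShortComplex K h).X₁ 1) := isZero_H1_units K
  have : Finite (groupCohomology (ideleShortComplex K h).X₃ 2) := hfin
  exact cyclicLayer_ker_inv hX h1 inv hinv hcard

end

end Fermat.Agent.CFT
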