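import Fermat.Agent.CFT.Global.IdeleDefs
import Fermat.Agent.CFT.LC.Cochains
import Fermat.Agent.CFT.Tate.DimShift

/-!
# Layer C/D1: the smooth `S`-modules `E_S ⊆ J_S ↠ C_S` of a level group

Let `G` be a group with a level structure `L`, acting on a field `K` by ring automorphisms
(in the application `G = G_ℚ`, `K = ℚ̄`, `L = globalLevel S`), and let `S` be a set of primes.

* `smoothSubgroup L M`: the subgroup of smooth vectors of a multiplicative `G`-module `M`
  (fixed by some level), a `G`-submodule; `smoothRep L M : Rep ℤ G` is smooth.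
* `SIdeleProd K S = ∏_{q ∈ S} (K ⊗ ℚ_q)ˣ` and `JS L K S`, its smooth part
  (`= colim_F ∏_{w ∣ q ∈ S} F_wˣ`);
* `ES L K S ≤ Kˣ`: the smooth elements of `Kˣ` which are units at all embeddings above primes
  `q ∉ S` (`= S`-units of `K^{smooth} = ℚ_S`);
* `esToJs : ES →* JS` the diagonal map and `CS L K S = JS ⧸ ES`;
* the representations `esRep`, `jsRep`, `csRep : Rep ℤ G`, all smooth, and the short exact
  sequence `sModulesSES` (`sModulesSES_shortExact`).
-/

set_option autoImplicit false

open CategoryTheory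

noncomputable section

namespace Fermat.Agent.CFT

section MulRepHom

variable {G H : Type} [Group G] [Group H] {M M' M'' : Type} [CommGroup M] [CommGroup M']
  [CommGroup M'']

/-- The morphism of representations attached to a monoid homomorphism which is equivariant
along a group homomorphism `r : H →* G`. -/
def mulRepHomRes [MulDistribMulAction G M] [MulDistribMulAction H M'] (r : H →* G) (f : M →* M')
    (hf : ∀ (h : H) (m : M), f (r h • m) = h • f m) :
    Rep.res r (Rep.ofMulDistribMulAction G M) ⟶ Rep.ofMulDistribMulAction H M' :=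
  Rep.ofHom ⟨f.toAdditive.toIntLinearMap, fun h => by
    refine LinearMap.ext fun x => ?_
    exact congrArg Additive.ofMul (hf h (Additive.toMul x))⟩

@[simp]
theorem mulRepHomRes_apply [MulDistribMulAction G M] [MulDistribMulAction H M'] (r : H →* G)
    (f : M →* M') (hf : ∀ (h : H) (m : M), f (r h • m) = h • f m) (x : Additive M) :
    ((mulRepHomRes r f hf).hom x : Additive M') = Additive.ofMul (f (Additive.toMul x)) := rfl

/-- The morphism of representations attached to an equivariant monoid homomorphism. -/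
def mulRepHom [MulDistribMulAction G M] [MulDistribMulAction G M'] (f : M →* M')
    (hf : ∀ (g : G) (m : M), f (g • m) = g • f m) :
    Rep.ofMulDistribMulAction G M ⟶ Rep.ofMulDistribMulAction G M' :=
  Rep.ofHom ⟨f.toAdditive.toIntLinearMap, fun g => by
    refine LinearMap.ext fun x => ?_
    exact congrArg Additive.ofMul (hf g (Additive.toMul x))⟩

@[simp]
theorem mulRepHom_apply [MulDistribMulAction G M] [MulDistribMulAction G M'] (f : M →* M')
    (hf : ∀ (g : G) (m : M), f (g • m) = g • f m) (x : Additive M) :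
    ((mulRepHom f hf).hom x : Additive M') = Additive.ofMul (f (Additive.toMul x)) := rfl

end MulRepHom

section Smooth

variable {G : Type} [Group G] (L : LevelStructure G) (M : Type) [CommGroup M]
  [MulDistribMulAction G M]

/-- The smooth vectors of a multiplicative `G`-module: those fixed by some level. -/
def smoothSubgroup : Subgroup M where
  carrier := {m | ∃ N, L.IsLevel N ∧ ∀ g ∈ N, g • m = m}
  one_mem' := by
    obtain ⟨N, hN⟩ := L.exists_level
    exact ⟨N, hN, fun g _ => smul_one g⟩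
  mul_mem' := by
    rintro a b ⟨N, hN, ha⟩ ⟨N', hN', hb⟩
    obtain ⟨N'', hN'', hle⟩ := L.directed hN hN'
    exact ⟨N'', hN'', fun g hg => by
      rw [smul_mul', ha g (hle hg).1, hb g (hle hg).2]⟩
  inv_mem' := by
    rintro a ⟨N, hN, ha⟩
    exact ⟨N, hN, fun g hg => by rw [smul_inv', ha g hg]⟩

variable {L M}

theorem mem_smoothSubgroup {m : M} :
    m ∈ smoothSubgroup L M ↔ ∃ N, L.IsLevel N ∧ ∀ g ∈ N, g • m = m := Iff.rfl

theorem smul_mem_smoothSubgroup (g : G) {m : M} (hm : m ∈ smoothSubgroup L M) :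
    g • m ∈ smoothSubgroup L M := by
  obtain ⟨N, hN, hfix⟩ := hm
  have hn := L.normal hN
  refine ⟨N, hN, fun n hn' => ?_⟩
  have h1 : g⁻¹ * n * g ∈ N := by
    have := hn.conj_mem n hn' g⁻¹
    simpa [mul_assoc] using this
  have h2 : n * g = g * (g⁻¹ * n * g) := by group
  rw [← mul_smul, h2, mul_smul, hfix _ h1]

/-- `G` acts on the smooth vectors. -/
instance smoothAction : MulDistribMulAction G (smoothSubgroup L M) where
  smul g m := ⟨g • m.1, smul_mem_smoothSubgroup g m.2⟩
  one_smul m := Subtype.ext (one_smul G m.1)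
  mul_smul g h m := Subtype.ext (mul_smul g h m.1)
  smul_mul g m m' := Subtype.ext (smul_mul' g m.1 m'.1)
  smul_one g := Subtype.ext (smul_one g)

@[simp]
theorem smooth_smul_coe (g : G) (m : smoothSubgroup L M) :
    ((g • m : smoothSubgroup L M) : M) = g • (m : M) := rfl

variable (L M)

/-- The smooth part of a multiplicative `G`-module, as a representation. -/
def smoothRep : Rep ℤ G := Rep.ofMulDistribMulAction G (smoothSubgroup L M)

theorem isSmooth_ofMul_of_forall {M' : Type} [CommGroup M'] [MulDistribMulAction G M']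
    (h : ∀ m : M', ∃ N, L.IsLevel N ∧ ∀ g ∈ N, g • m = m) :
    IsSmooth L (Rep.ofMulDistribMulAction G M') := by
  intro a
  obtain ⟨N, hN, hfix⟩ := h (Additive.toMul a)
  exact ⟨N, hN, fun g hg => congrArg Additive.ofMul (hfix g hg)⟩

theorem isSmooth_smoothRep : IsSmooth L (smoothRep L M) :=
  isSmooth_ofMul_of_forall L fun m => by
    obtain ⟨N, hN, hfix⟩ := m.2
    exact ⟨N, hN, fun g hg => Subtype.ext (hfix g hg)⟩

/-- The inclusion of the smooth part. -/
def smoothRepι : smoothRep L M ⟶ Rep.ofMulDistribMulAction G M :=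
  mulRepHom (smoothSubgroup L M).subtype fun _ _ => rfl

end Smooth

section SModules

variable {G : Type} [Group G] (L : LevelStructure G) (K : Type) [Field K]
  [MulSemiringAction G K] (S : Set Nat.Primes)

/-- The product `∏_{q ∈ S} (K ⊗ ℚ_q)ˣ`. -/
abbrev SIdeleProd : Type := ∀ q : S, semiLocalUnits ((q : Nat.Primes) : ℕ) K

/-- `G` acts componentwise on `∏_{q ∈ S} (K ⊗ ℚ_q)ˣ`. -/
instance sIdeleProdAction : MulDistribMulAction G (SIdeleProd K S) where
  smul σ x := fun q => σ • x q
  one_smul x := funext fun q => one_smul G (x q)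
  mul_smul σ ρ x := funext fun q => mul_smul σ ρ (x q)
  smul_mul σ x y := funext fun q => smul_mul' σ (x q) (y q)
  smul_one σ := funext fun _ => smul_one σ

@[simp]
theorem sIdeleProd_smul_apply (σ : G) (x : SIdeleProd K S) (q : S) : (σ • x) q = σ • x q := rfl

/-- `J_S`: the smooth part of `∏_{q ∈ S} (K ⊗ ℚ_q)ˣ`. -/
abbrev JS : Subgroup (SIdeleProd K S) := smoothSubgroup L (SIdeleProd K S)

/-- The diagonal map `Kˣ → ∏_{q ∈ S} (K ⊗ ℚ_q)ˣ`. -/
def sDiag : Kˣ →* SIdeleProd K S where
  toFun x _ := semiLocalDiag x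
  map_one' := funext fun _ => map_one _
  map_mul' x y := funext fun _ => map_mul _ x y

@[simp]
theorem sDiag_apply (x : Kˣ) (q : S) : sDiag K S x q = semiLocalDiag x := rfl

theorem smul_sDiag (σ : G) (x : Kˣ) : σ • sDiag K S x = sDiag K S (unitsSmul σ x) :=
  funext fun _ => smul_semiLocalDiag σ x

/-- The smooth elements of `Kˣ`: fixed by some level. -/
def smoothUnits : Subgroup Kˣ where
  carrier := {x | ∃ N, L.IsLevel N ∧ ∀ g ∈ N, unitsSmul g x = x}
  one_mem' := by
    obtain ⟨N, hN⟩ := L.exists_level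
    exact ⟨N, hN, fun g _ => map_one _⟩
  mul_mem' := by
    rintro a b ⟨N, hN, ha⟩ ⟨N', hN', hb⟩
    obtain ⟨N'', hN'', hle⟩ := L.directed hN hN'
    exact ⟨N'', hN'', fun g hg => by
      rw [map_mul, ha g (hle hg).1, hb g (hle hg).2]⟩
  inv_mem' := by
    rintro a ⟨N, hN, ha⟩
    exact ⟨N, hN, fun g hg => by rw [map_inv, ha g hg]⟩

variable {L K}

theorem unitsSmul_one (x : Kˣ) : unitsSmul (1 : G) x = x := Units.ext (one_smul G (x : K))

theorem unitsSmul_mul (σ ρ : G) (x : Kˣ) :
    unitsSmul (σ * ρ) x = unitsSmul σ (unitsSmul ρ x) := Units.ext (mul_smul σ ρ (x : K))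

theorem unitsSmul_mem_smoothUnits (g : G) {x : Kˣ} (hx : x ∈ smoothUnits L K) :
    unitsSmul g x ∈ smoothUnits L K := by
  obtain ⟨N, hN, hfix⟩ := hx
  have hn := L.normal hN
  refine ⟨N, hN, fun n hn' => ?_⟩
  have h1 : g⁻¹ * n * g ∈ N := by
    have := hn.conj_mem n hn' g⁻¹
    simpa [mul_assoc] using this
  have h2 : n * g = g * (g⁻¹ * n * g) := by group
  rw [← unitsSmul_mul, h2, unitsSmul_mul, hfix _ h1]

variable (L K)

/-- `E_S`: the smooth elements of `Kˣ` which are units at every embedding above a prime outside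
`S` (the `S`-units of the field of smooth elements). -/
def ES : Subgroup Kˣ where
  carrier := {x | x ∈ smoothUnits L K ∧ ∀ q : Nat.Primes, q ∉ S →
    (semiLocalDiag x : semiLocalUnits (q : ℕ) K) ∈ semiLocalIntegral (q : ℕ) K}
  one_mem' := ⟨one_mem _, fun q _ => by rw [map_one]; exact one_mem _⟩
  mul_mem' := by
    rintro a b ⟨ha, ha'⟩ ⟨hb, hb'⟩
    exact ⟨mul_mem ha hb, fun q hq => by rw [map_mul]; exact mul_mem (ha' q hq) (hb' q hq)⟩
  inv_mem' := by
    rintro a ⟨ha, ha'⟩
    exact ⟨inv_mem ha, fun q hq => by rw [map_inv]; exact inv_mem (ha' q hq)⟩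

variable {L K S}

theorem mem_ES {x : Kˣ} : x ∈ ES L K S ↔ x ∈ smoothUnits L K ∧ ∀ q : Nat.Primes, q ∉ S →
    (semiLocalDiag x : semiLocalUnits (q : ℕ) K) ∈ semiLocalIntegral (q : ℕ) K := Iff.rfl

theorem unitsSmul_mem_ES (σ : G) {x : Kˣ} (hx : x ∈ ES L K S) : unitsSmul σ x ∈ ES L K S := by
  refine ⟨unitsSmul_mem_smoothUnits σ hx.1, fun q hq => ?_⟩
  rw [← smul_semiLocalDiag]
  exact smul_mem_semiLocalIntegral σ (hx.2 q hq)

/-- `G` acts on `E_S`. -/
instance esAction : MulDistribMulAction G (ES L K S) where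
  smul g m := ⟨unitsSmul g m.1, unitsSmul_mem_ES g m.2⟩
  one_smul m := Subtype.ext (unitsSmul_one m.1)
  mul_smul g h m := Subtype.ext (unitsSmul_mul g h m.1)
  smul_mul g m m' := Subtype.ext (map_mul _ m.1 m'.1)
  smul_one g := Subtype.ext (map_one _)

@[simp]
theorem es_smul_coe (g : G) (m : ES L K S) : ((g • m : ES L K S) : Kˣ) = unitsSmul g (m : Kˣ) :=
  rfl

theorem sDiag_mem_JS {x : Kˣ} (hx : x ∈ smoothUnits L K) : sDiag K S x ∈ JS L K S := by
  obtain ⟨N, hN, hfix⟩ := hx
  exact ⟨N, hN, fun g hg => by rw [smul_sDiag K S, hfix g hg]⟩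

variable (L K S)

/-- The diagonal map `E_S → J_S`. -/
def esToJs : ES L K S →* JS L K S where
  toFun x := ⟨sDiag K S x.1, sDiag_mem_JS x.2.1⟩
  map_one' := Subtype.ext (map_one _)
  map_mul' x y := Subtype.ext (map_mul _ x.1 y.1)

@[simp]
theorem esToJs_coe (x : ES L K S) : ((esToJs L K S x : JS L K S) : SIdeleProd K S) = sDiag K S x.1 :=
  rfl

theorem esToJs_smul (σ : G) (x : ES L K S) : esToJs L K S (σ • x) = σ • esToJs L K S x :=
  Subtype.ext (smul_sDiag K S σ x.1).symm

/-- `C_S := J_S / E_S`. -/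
abbrev CS : Type := JS L K S ⧸ (esToJs L K S).range

variable {L K S}

theorem smul_mem_range_esToJs (σ : G) {x : JS L K S} (hx : x ∈ (esToJs L K S).range) :
    σ • x ∈ (esToJs L K S).range := by
  obtain ⟨e, rfl⟩ := hx
  exact ⟨σ • e, esToJs_smul L K S σ e⟩

/-- `G` acts on `C_S`. -/
instance csAction : MulDistribMulAction G (CS L K S) where
  smul σ := QuotientGroup.map _ _ (MulDistribMulAction.toMonoidHom (JS L K S) σ)
    (fun _ hx => Subgroup.mem_comap.2 (smul_mem_range_esToJs σ hx))
  one_smul c := by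
    induction c using QuotientGroup.induction_on with
    | H x => exact congrArg _ (one_smul G x)
  mul_smul σ ρ c := by
    induction c using QuotientGroup.induction_on with
    | H x => exact congrArg _ (mul_smul σ ρ x)
  smul_mul σ c d := map_mul _ c d
  smul_one σ := map_one _

@[simp]
theorem cs_smul_mk (σ : G) (x : JS L K S) :
    σ • (QuotientGroup.mk x : CS L K S) = QuotientGroup.mk (σ • x) := rfl

variable (L K S)

/-- `E_S` as a representation. -/
def esRep : Rep ℤ G := Rep.ofMulDistribMulAction G (ES L K S)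

/-- `J_S` as a representation. -/
def jsRep : Rep ℤ G := Rep.ofMulDistribMulAction G (JS L K S)

/-- `C_S` as a representation. -/
def csRep : Rep ℤ G := Rep.ofMulDistribMulAction G (CS L K S)

/-- The diagonal morphism `E_S ⟶ J_S`. -/
def esToJsHom : esRep L K S ⟶ jsRep L K S :=
  mulRepHom (esToJs L K S) (esToJs_smul L K S)

/-- The projection `J_S ⟶ C_S`. -/
def jsToCsHom : jsRep L K S ⟶ csRep L K S :=
  mulRepHom (QuotientGroup.mk' (esToJs L K S).range) fun _ _ => rfl

theorem isSmooth_esRep : IsSmooth L (esRep L K S) :=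
  isSmooth_ofMul_of_forall L fun m => by
    obtain ⟨N, hN, hfix⟩ := m.2.1
    exact ⟨N, hN, fun g hg => Subtype.ext (hfix g hg)⟩

theorem isSmooth_jsRep : IsSmooth L (jsRep L K S) := isSmooth_smoothRep L _

theorem isSmooth_csRep : IsSmooth L (csRep L K S) :=
  isSmooth_ofMul_of_forall L fun c => by
    induction c using QuotientGroup.induction_on with
    | H x =>
      obtain ⟨N, hN, hfix⟩ := x.2
      exact ⟨N, hN, fun g hg => by
        rw [cs_smul_mk]
        exact congrArg _ (Subtype.ext (hfix g hg))⟩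

/-- The short complex `E_S ⟶ J_S ⟶ C_S`. -/
def sModulesSES : ShortComplex (Rep ℤ G) where
  X₁ := esRep L K S
  X₂ := jsRep L K S
  X₃ := csRep L K S
  f := esToJsHom L K S
  g := jsToCsHom L K S
  zero := by
    ext x
    refine congrArg Additive.ofMul ?_
    exact (QuotientGroup.eq_one_iff _).2 ⟨Additive.toMul x, rfl⟩

theorem esToJs_injective (hne : ∃ q : S, Nonempty (LocalEmb ((q : Nat.Primes) : ℕ) K)) :
    Function.Injective (esToJs L K S) := by
  obtain ⟨q, ⟨τ⟩⟩ := hne
  intro x y hxy
  apply Subtype.ext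
  apply Units.ext
  have h1 : sDiag K S x.1 q = sDiag K S y.1 q := congrFun (congrArg Subtype.val hxy) q
  have h2 := congrArg (fun f : semiLocalUnits ((q : Nat.Primes) : ℕ) K =>
    (((f : LocalEmb ((q : Nat.Primes) : ℕ) K → (PadicAlgCl ((q : Nat.Primes) : ℕ))ˣ) τ :
      (PadicAlgCl ((q : Nat.Primes) : ℕ))ˣ) : PadicAlgCl ((q : Nat.Primes) : ℕ))) h1
  simp only [sDiag_apply, semiLocalDiag_apply] at h2
  exact τ.injective h2

/-- `0 ⟶ E_S ⟶ J_S ⟶ C_S ⟶ 0` is short exact. -/
theorem sModulesSES_shortExact (hne : ∃ q : S, Nonempty (LocalEmb ((q : Nat.Primes) : ℕ) K)) :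
    (sModulesSES L K S).ShortExact := by
  apply rep_shortExact_of
  · intro x y hxy
    exact congrArg Additive.ofMul (esToJs_injective L K S hne
      (congrArg Additive.toMul hxy))
  · intro x hx
    have hx' : (QuotientGroup.mk (Additive.toMul x) : CS L K S) = 1 :=
      congrArg Additive.toMul hx
    obtain ⟨e, he⟩ := (QuotientGroup.eq_one_iff _).1 hx'
    exact ⟨Additive.ofMul e, congrArg Additive.ofMul he⟩
  · intro c
    obtain ⟨x, hx⟩ := QuotientGroup.mk_surjective (Additive.toMul c)
    exact ⟨Additive.ofMul x, congrArg Additive.ofMul hx⟩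

end SModules

end Fermat.Agent.CFT

end
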