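import Fermat.Agent.CFT.Global.SClassAbstract
import Fermat.Agent.CFT.Global.SModules
import Fermat.Agent.CFT.Global.RestrictedCohRep

/-!
# C6s-idele: `Hⁿ(H, C_L) ≅ Hⁿ(H, C_S(L))` for layers unramified outside `S`

`L` a field with a group `G` acting by ring automorphisms, `S` a set of primes.

* `unitIdelesOutsideAction`: `G` acts on `U_{L,S} = unitIdelesOutside L S`; `unitRep L G S`;
* `unitClassHom S : U_{L,S} →* C_L`, `classToClassS S : C_L →* C_S(L)` and the short complex
  `sClassSES L G S : U_{L,S} ⟶ C_L ⟶ C_S(L)` of `G`-representations, which is short exact as soon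
  as some prime of `S` admits an embedding `L → ℚ̄_q` (`sClassSES_shortExact`; then
  `U_{L,S} ∩ Lˣ = 1`);
* `h1TrivialOn_unitIdelesOutside`, `h2TrivialOn_unitIdelesOutside`: `H¹`, `H²` of `U_{L,S}` vanish
  if they vanish on the integral semi-local units at every `q ∉ S` (product argument);
* `map_ideleClass_ideleClassS_bijective` (and the `res`, `IsIso`, invariants versions): if `G` is
  finite and for every subgroup `H` and every `q ∉ S` the integral semi-local units at `q` have
  trivial `H¹` and `H²` (e.g. `L/L^G` unramified outside `S`), then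
  `Hⁿ⁺¹(H, C_L) ⟶ Hⁿ⁺¹(H, C_S(L))` is bijective for all `n` and all subgroups `H`, and
  `C_L^H ⟶ C_S(L)^H` is surjective.
-/

set_option autoImplicit false

open CategoryTheory groupCohomology Rep

noncomputable section

namespace Fermat.Agent.CFT

section UnitIdeles

variable {L : Type} [Field L] {G : Type} [Group G] [MulSemiringAction G L] (S : Set Nat.Primes)

/-- `G` acts on the unit ideles outside `S` componentwise. -/
instance unitIdelesOutsideAction : MulDistribMulAction G (unitIdelesOutside L S) where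
  smul σ x := ⟨fun q => σ • (x : IdeleProd L) q,
    fun q hq => smul_mem_semiLocalIntegral σ (x.2.1 q hq),
    fun q hq => by
      show σ • (x : IdeleProd L) q = 1
      rw [x.2.2 q hq, smul_one]⟩
  one_smul x := Subtype.ext (funext fun q => one_smul G ((x : IdeleProd L) q))
  mul_smul σ ρ x := Subtype.ext (funext fun q => mul_smul σ ρ ((x : IdeleProd L) q))
  smul_mul σ x y :=
    Subtype.ext (funext fun q => smul_mul' σ ((x : IdeleProd L) q) ((y : IdeleProd L) q))
  smul_one σ := Subtype.ext (funext fun q => smul_one σ)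

@[simp]
theorem unitIdelesOutside_smul_coe (σ : G) (x : unitIdelesOutside L S) (q : Nat.Primes) :
    ((σ • x : unitIdelesOutside L S) : IdeleProd L) q = σ • (x : IdeleProd L) q := rfl

/-- The map `U_{L,S} → C_L`. -/
def unitClassHom : unitIdelesOutside L S →* ideleClass L :=
  (QuotientGroup.mk' (principalSubgroup L)).comp
    (Subgroup.inclusion (unitIdelesOutside_le_ideleGroup S))

theorem unitClassHom_apply (u : unitIdelesOutside L S) :
    unitClassHom S u =
      QuotientGroup.mk (⟨u.1, unitIdelesOutside_le_ideleGroup S u.2⟩ : ideleGroup L) := rfl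

theorem unitClassHom_smul (σ : G) (u : unitIdelesOutside L S) :
    unitClassHom S (σ • u) = σ • unitClassHom S u := rfl

theorem principalSubgroup_le_principalUnitSubgroup :
    principalSubgroup L ≤ principalUnitSubgroup L S := by
  intro x hx
  exact Subgroup.mem_subgroupOf.2 (Subgroup.mem_sup_left (Subgroup.mem_subgroupOf.1 hx))

/-- The projection `C_L → C_S(L)`. -/
def classToClassS : ideleClass L →* ideleClassS L S :=
  QuotientGroup.map (principalSubgroup L) (principalUnitSubgroup L S)
    (MonoidHom.id (ideleGroup L)) (principalSubgroup_le_principalUnitSubgroup S)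

@[simp]
theorem classToClassS_mk (x : ideleGroup L) :
    classToClassS S (QuotientGroup.mk x : ideleClass L) = QuotientGroup.mk x := rfl

theorem classToClassS_smul (σ : G) (c : ideleClass L) :
    classToClassS S (σ • c) = σ • classToClassS S c := by
  induction c using QuotientGroup.induction_on with
  | H x => rfl

theorem classToClassS_surjective : Function.Surjective (classToClassS (L := L) S) := by
  intro c
  obtain ⟨x, rfl⟩ := QuotientGroup.mk_surjective c
  exact ⟨QuotientGroup.mk x, rfl⟩

theorem classToClassS_unitClassHom (u : unitIdelesOutside L S) :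
    classToClassS S (unitClassHom S u) = 1 := by
  rw [unitClassHom_apply, classToClassS_mk]
  exact (QuotientGroup.eq_one_iff _).2
    (Subgroup.mem_subgroupOf.2 (Subgroup.mem_sup_right u.2))

/-- `U_{L,S} ∩ Lˣ = 1` as soon as some prime of `S` admits an embedding of `L` into `ℚ̄_q`. -/
theorem unitClassHom_injective (hne : ∃ q ∈ S, Nonempty (LocalEmb ((q : Nat.Primes) : ℕ) L)) :
    Function.Injective (unitClassHom (L := L) S) := by
  obtain ⟨q, hqS, ⟨τ⟩⟩ := hne
  rw [injective_iff_map_eq_one]
  intro u hu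
  rw [unitClassHom_apply] at hu
  obtain ⟨a, ha⟩ := Subgroup.mem_subgroupOf.1 ((QuotientGroup.eq_one_iff _).1 hu)
  have ha' : principalIdele L a = (u : IdeleProd L) := ha
  have h1 : (semiLocalDiag a : semiLocalUnits (q : ℕ) L) = 1 := by
    have := congrFun ha' q
    rw [principalIdele_apply] at this
    rw [this, u.2.2 q hqS]
  have h2 : τ (a : L) = 1 := by
    have := congrArg (fun f : semiLocalUnits (q : ℕ) L =>
      (((f : LocalEmb (q : ℕ) L → (PadicAlgCl (q : ℕ))ˣ) τ : (PadicAlgCl (q : ℕ))ˣ) :
        PadicAlgCl (q : ℕ))) h1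
    simpa using this
  have h3 : a = 1 := Units.ext (τ.injective (h2.trans (map_one τ).symm))
  apply Subtype.ext
  rw [← ha', h3, map_one]
  rfl

/-- Exactness at `C_L`. -/
theorem exists_unitClassHom_eq_of_classToClassS_eq_one (c : ideleClass L)
    (hc : classToClassS S c = 1) : ∃ u : unitIdelesOutside L S, unitClassHom S u = c := by
  obtain ⟨x, rfl⟩ := QuotientGroup.mk_surjective c
  rw [classToClassS_mk] at hc
  have hx : (x : IdeleProd L) ∈ (principalIdele L).range ⊔ unitIdelesOutside L S :=
    Subgroup.mem_subgroupOf.1 ((QuotientGroup.eq_one_iff _).1 hc)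
  obtain ⟨y, ⟨a, rfl⟩, z, hz, hyz⟩ := Subgroup.mem_sup.1 hx
  refine ⟨⟨z, hz⟩, ?_⟩
  rw [unitClassHom_apply]
  refine (QuotientGroup.eq).2 (Subgroup.mem_subgroupOf.2 ⟨a, ?_⟩)
  show principalIdele L a = z⁻¹ * (x : IdeleProd L)
  rw [← hyz, mul_comm (principalIdele L a) z, inv_mul_cancel_left]

end UnitIdeles

section Reps

variable (L : Type) [Field L] (G : Type) [Group G] [MulSemiringAction G L] (S : Set Nat.Primes)

/-- `U_{L,S}` as a `G`-representation. -/
def unitRep : Rep ℤ G := Rep.ofMulDistribMulAction G (unitIdelesOutside L S)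

/-- `U_{L,S} ⟶ C_L` as a morphism of representations. -/
def unitClassRepHom : unitRep L G S ⟶ ideleClassRep L G :=
  mulRepHom (unitClassHom S) (unitClassHom_smul S)

/-- `C_L ⟶ C_S(L)` as a morphism of representations. -/
def classToClassSRepHom : ideleClassRep L G ⟶ ideleClassSRep L G S :=
  mulRepHom (classToClassS S) (classToClassS_smul S)

/-- The short complex `U_{L,S} ⟶ C_L ⟶ C_S(L)`. -/
def sClassSES : ShortComplex (Rep ℤ G) where
  X₁ := unitRep L G S
  X₂ := ideleClassRep L G
  X₃ := ideleClassSRep L G S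
  f := unitClassRepHom L G S
  g := classToClassSRepHom L G S
  zero := by
    ext x
    exact congrArg Additive.ofMul (classToClassS_unitClassHom S (Additive.toMul x))

/-- `0 ⟶ U_{L,S} ⟶ C_L ⟶ C_S(L) ⟶ 0` is short exact when some prime of `S` admits an embedding of
`L` into `ℚ̄_q`. -/
theorem sClassSES_shortExact (hne : ∃ q ∈ S, Nonempty (LocalEmb ((q : Nat.Primes) : ℕ) L)) :
    (sClassSES L G S).ShortExact := by
  apply rep_shortExact_of
  · intro x y hxy
    exact congrArg Additive.ofMul (unitClassHom_injective S hne (congrArg Additive.toMul hxy))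
  · intro x hx
    obtain ⟨u, hu⟩ := exists_unitClassHom_eq_of_classToClassS_eq_one S (Additive.toMul x)
      (congrArg Additive.toMul hx)
    exact ⟨Additive.ofMul u, congrArg Additive.ofMul hu⟩
  · intro c
    obtain ⟨x, hx⟩ := classToClassS_surjective S (Additive.toMul c)
    exact ⟨Additive.ofMul x, congrArg Additive.ofMul hx⟩

end Reps

section Vanishing

variable {L : Type} [Field L] {G : Type} [Group G] [MulSemiringAction G L] (S : Set Nat.Primes)

/-- `H¹(G, U_{L,S}) = 0` if `H¹(G, ∏_{v ∣ q} 𝒪_vˣ) = 0` for all `q ∉ S` (cocycle form). -/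
theorem h1TrivialOn_unitIdelesOutside
    (h : ∀ q : Nat.Primes, q ∉ S → H1TrivialOn G (semiLocalIntegral (q : ℕ) L)) :
    H1TrivialOn G (⊤ : Subgroup (unitIdelesOutside L S)) := by
  intro f _ hf
  have hcoc : ∀ q : Nat.Primes,
      IsMulCocycle₁ fun g => ((f g : unitIdelesOutside L S) : IdeleProd L) q := fun q g₁ g₂ =>
    congrArg (fun u : unitIdelesOutside L S => (u : IdeleProd L) q) (hf g₁ g₂)
  have key : ∀ q : Nat.Primes, ∃ x : semiLocalUnits (q : ℕ) L,
      (q ∉ S → x ∈ semiLocalIntegral (q : ℕ) L) ∧ (q ∈ S → x = 1) ∧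
        ∀ g : G, g • x / x = ((f g : unitIdelesOutside L S) : IdeleProd L) q := by
    intro q
    by_cases hq : q ∈ S
    · refine ⟨1, fun h' => absurd hq h', fun _ => rfl, fun g => ?_⟩
      rw [smul_one, div_one]
      exact ((f g).2.2 q hq).symm
    · obtain ⟨x, hx, hx'⟩ := h q hq _ (fun g => (f g).2.1 q hq) (hcoc q)
      exact ⟨x, fun _ => hx, fun h' => absurd h' hq, hx'⟩
  choose a ha1 ha2 ha3 using key
  refine ⟨⟨a, fun q hq => ha1 q hq, fun q hq => ha2 q hq⟩, Subgroup.mem_top _, fun g => ?_⟩
  apply Subtype.ext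
  funext q
  exact ha3 q g

/-- `H²(G, U_{L,S}) = 0` if `H²(G, ∏_{v ∣ q} 𝒪_vˣ) = 0` for all `q ∉ S` (cocycle form). -/
theorem h2TrivialOn_unitIdelesOutside
    (h : ∀ q : Nat.Primes, q ∉ S → H2TrivialOn G (semiLocalIntegral (q : ℕ) L)) :
    H2TrivialOn G (⊤ : Subgroup (unitIdelesOutside L S)) := by
  intro f _ hf
  have hcoc : ∀ q : Nat.Primes,
      IsMulCocycle₂ fun p => ((f p : unitIdelesOutside L S) : IdeleProd L) q :=
    fun q g₁ g₂ g₃ =>
      congrArg (fun u : unitIdelesOutside L S => (u : IdeleProd L) q) (hf g₁ g₂ g₃)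
  have key : ∀ q : Nat.Primes, ∃ x : G → semiLocalUnits (q : ℕ) L,
      (q ∉ S → ∀ g, x g ∈ semiLocalIntegral (q : ℕ) L) ∧ (q ∈ S → ∀ g, x g = 1) ∧
        ∀ g₁ g₂ : G, g₁ • x g₂ / x (g₁ * g₂) * x g₁ =
          ((f (g₁, g₂) : unitIdelesOutside L S) : IdeleProd L) q := by
    intro q
    by_cases hq : q ∈ S
    · refine ⟨fun _ => 1, fun h' => absurd hq h', fun _ _ => rfl, fun g₁ g₂ => ?_⟩
      rw [smul_one, div_one, one_mul]
      exact ((f (g₁, g₂)).2.2 q hq).symm
    · obtain ⟨x, hx, hx'⟩ := h q hq _ (fun p => (f p).2.1 q hq) (hcoc q)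
      exact ⟨x, fun _ => hx, fun h' => absurd h' hq, hx'⟩
  choose a ha1 ha2 ha3 using key
  refine ⟨fun g => ⟨fun q => a q g, fun q hq => ha1 q hq g, fun q hq => ha2 q hq g⟩,
    fun _ => Subgroup.mem_top _, fun g₁ g₂ => ?_⟩
  apply Subtype.ext
  funext q
  exact ha3 q g₁ g₂

/-- `H¹(G, U_{L,S}) = 0` for Mathlib's group cohomology. -/
theorem isZero_H1_unitRep
    (h : ∀ q : Nat.Primes, q ∉ S → H1TrivialOn G (semiLocalIntegral (q : ℕ) L)) :
    Limits.IsZero (groupCohomology (unitRep L G S) 1) := by
  have : Subsingleton (groupCohomology (unitRep L G S) 1) :=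
    subsingleton_H1_of_h1TrivialOn (h1TrivialOn_unitIdelesOutside S h)
  exact ModuleCat.isZero_of_subsingleton _

/-- `H²(G, U_{L,S}) = 0` for Mathlib's group cohomology. -/
theorem isZero_H2_unitRep
    (h : ∀ q : Nat.Primes, q ∉ S → H2TrivialOn G (semiLocalIntegral (q : ℕ) L)) :
    Limits.IsZero (groupCohomology (unitRep L G S) 2) := by
  have : Subsingleton (groupCohomology (unitRep L G S) 2) :=
    subsingleton_H2_of_h2TrivialOn (h2TrivialOn_unitIdelesOutside S h)
  exact ModuleCat.isZero_of_subsingleton _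

end Vanishing

section Main

variable (L : Type) [Field L] (G : Type) [Group G] [MulSemiringAction G L] (S : Set Nat.Primes)

/-- The restriction of `unitRep` to a subgroup is `unitRep` of the subgroup. -/
theorem res_unitRep (H : Subgroup G) : res H.subtype (unitRep L G S) = unitRep L H S := rfl

variable {L G S}

/-- **`Hⁿ⁺¹(H, C_L) ≅ Hⁿ⁺¹(H, C_S(L))` for every subgroup `H`**, if the integral semi-local units
at all `q ∉ S` have trivial `H¹` and `H²` for all subgroups of the finite group `G`. -/
theorem map_res_ideleClass_ideleClassS_bijective [Finite G]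
    (hne : ∃ q ∈ S, Nonempty (LocalEmb ((q : Nat.Primes) : ℕ) L))
    (hunr1 : ∀ (H : Subgroup G) (q : Nat.Primes), q ∉ S →
      H1TrivialOn H (semiLocalIntegral (q : ℕ) L))
    (hunr2 : ∀ (H : Subgroup G) (q : Nat.Primes), q ∉ S →
      H2TrivialOn H (semiLocalIntegral (q : ℕ) L))
    (H : Subgroup G) (n : ℕ) :
    Function.Bijective
      (groupCohomology.map (A := res H.subtype (ideleClassRep L G))
        (B := res H.subtype (ideleClassSRep L G S)) (MonoidHom.id H)
        ((resFunctor H.subtype).map (classToClassSRepHom L G S)) (n + 1)).hom :=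
  map_res_g_bijective_of_cohTriv (X := sClassSES L G S) (sClassSES_shortExact L G S hne)
    (fun H' => isZero_H1_unitRep (G := H') S (hunr1 H'))
    (fun H' => isZero_H2_unitRep (G := H') S (hunr2 H')) H n

/-- **`Hⁿ⁺¹(G, C_L) ≅ Hⁿ⁺¹(G, C_S(L))`**. -/
theorem map_ideleClass_ideleClassS_bijective [Finite G]
    (hne : ∃ q ∈ S, Nonempty (LocalEmb ((q : Nat.Primes) : ℕ) L))
    (hunr1 : ∀ (H : Subgroup G) (q : Nat.Primes), q ∉ S →
      H1TrivialOn H (semiLocalIntegral (q : ℕ) L))
    (hunr2 : ∀ (H : Subgroup G) (q : Nat.Primes), q ∉ S →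
      H2TrivialOn H (semiLocalIntegral (q : ℕ) L)) (n : ℕ) :
    Function.Bijective
      (groupCohomology.map (A := ideleClassRep L G) (B := ideleClassSRep L G S)
        (MonoidHom.id G) (classToClassSRepHom L G S) (n + 1)).hom :=
  map_g_bijective_of_cohTriv (X := sClassSES L G S) (sClassSES_shortExact L G S hne)
    (fun H' => isZero_H1_unitRep (G := H') S (hunr1 H'))
    (fun H' => isZero_H2_unitRep (G := H') S (hunr2 H')) n

/-- Isomorphism form of `map_ideleClass_ideleClassS_bijective`. -/
theorem isIso_map_ideleClass_ideleClassS [Finite G]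
    (hne : ∃ q ∈ S, Nonempty (LocalEmb ((q : Nat.Primes) : ℕ) L))
    (hunr1 : ∀ (H : Subgroup G) (q : Nat.Primes), q ∉ S →
      H1TrivialOn H (semiLocalIntegral (q : ℕ) L))
    (hunr2 : ∀ (H : Subgroup G) (q : Nat.Primes), q ∉ S →
      H2TrivialOn H (semiLocalIntegral (q : ℕ) L)) (n : ℕ) :
    IsIso (groupCohomology.map (A := ideleClassRep L G) (B := ideleClassSRep L G S)
      (MonoidHom.id G) (classToClassSRepHom L G S) (n + 1)) :=
  (ConcreteCategory.isIso_iff_bijective _).2
    (map_ideleClass_ideleClassS_bijective hne hunr1 hunr2 n)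

/-- **`C_L^H ⟶ C_S(L)^H` is surjective** for every subgroup `H`, if the integral semi-local units
at all `q ∉ S` have trivial `H¹(H, -)`. -/
theorem exists_invariant_ideleClass_lift
    (hne : ∃ q ∈ S, Nonempty (LocalEmb ((q : Nat.Primes) : ℕ) L))
    (hunr1 : ∀ (H : Subgroup G) (q : Nat.Primes), q ∉ S →
      H1TrivialOn H (semiLocalIntegral (q : ℕ) L))
    (H : Subgroup G) (c' : ideleClassS L S) (hc' : ∀ σ : H, σ • c' = c') :
    ∃ c : ideleClass L, (∀ σ : H, σ • c = c) ∧ classToClassS S c = c' := by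
  obtain ⟨c, hc, hcc'⟩ := exists_invariant_lift_of_cohTriv (X := sClassSES L G S)
    (sClassSES_shortExact L G S hne)
    (fun H' => isZero_H1_unitRep (G := H') S (hunr1 H')) H (Additive.ofMul c')
    (fun σ => congrArg Additive.ofMul (hc' σ))
  exact ⟨Additive.toMul c, fun σ => congrArg Additive.toMul (hc σ),
    congrArg Additive.toMul hcc'⟩

end Main

end Fermat.Agent.CFT

end
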