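import Mathlib
import Fermat.Agent.CFT.Global.LayersAbstract
import Fermat.Agent.CFT.Global.IdeleClassInfRes
import Fermat.Agent.CFT.Global.SClassIdele
import Fermat.Agent.CFT.Global.IdeleDict.DictAdapters
import Fermat.Agent.CFT.Local.SecondIneq

/-!
# CFT, Layer C (C4-inst): the class formation inequalities for idele classes of number fields

We instantiate the abstract dévissage of `Global/LayersAbstract.lean` for the hereditary predicate
`GlobalPr P B` = "`(P, B)` is isomorphic to `(Gal(L/K), C_L)` for a finite Galois extension `L/K`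
of number fields" (`C_L` the *finite* idele class group of `Global/IdeleDefs.lean`).

The inputs are the two cyclic-layer statements, for cyclic extensions of prime degree `p`:

* `CyclicLayerH1 p`: `H¹(Gal(L/K), C_L) = 0`;
* `CyclicLayerH2 p`: `|H²(Gal(L/K), C_L)| ≤ p`.

(Both follow from the first and the second inequality; since `C_L` is built from the finite ideles
only, they hold for *odd* `p` only.)  The outputs, for every finite Galois extension `L/K` of
number fields:

* `pPowerTorsion_H1_ideleClass_eq_bot`: `H¹(Gal(L/K), C_L)` has no `p`-power torsion;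
* `isZero_H1_ideleClass_of_card_eq_pow`: `H¹(Gal(L/K), C_L) = 0` if `Gal(L/K)` is a `p`-group;
* `card_pPowerTorsion_H2_ideleClass_le`: `|H²(Gal(L/K), C_L)[p^∞]| ≤ |Gal(L/K)|_p`;
* the same statements for the `S`-idele class groups `C_S(L)`, if `L/K` is unramified outside
  `S`.
-/

set_option autoImplicit false
set_option maxSynthPendingDepth 2

open CategoryTheory Limits groupCohomology Rep

namespace Fermat.Agent.CFT

/-! ### The action on idele classes only depends on the induced ring automorphism -/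

/-- Two elements of (possibly different) groups acting on `L` through the same ring automorphism
act in the same way on the idele classes. -/
theorem ideleClass_smul_eq_of_forall_smul_eq {L : Type} [Field L] {G₁ G₂ : Type} [Group G₁]
    [Group G₂] [MulSemiringAction G₁ L] [MulSemiringAction G₂ L] (g₁ : G₁) (g₂ : G₂)
    (h : ∀ x : L, g₁ • x = g₂ • x) (c : ideleClass L) : g₁ • c = g₂ • c := by
  have hr : MulSemiringAction.toRingHom G₁ L g₁ = MulSemiringAction.toRingHom G₂ L g₂ :=
    RingHom.ext h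
  induction c using QuotientGroup.induction_on with
  | H x =>
    rw [ideleClass_smul_mk, ideleClass_smul_mk]
    congr 1
    apply Subtype.ext
    funext q
    show g₁ • (x : IdeleProd L) q = g₂ • (x : IdeleProd L) q
    rw [semiLocal_smul_def, semiLocal_smul_def, hr]

/-! ### The bundled setting and the hereditary predicate -/

/-- A finite Galois extension `L/K` of number fields. -/
structure GlobalGalPair where
  /-- the base field -/
  K : Type
  /-- the top field -/
  L : Type
  [fieldK : Field K]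
  [fieldL : Field L]
  [numberFieldK : NumberField K]
  [numberFieldL : NumberField L]
  [algKL : Algebra K L]
  [galKL : IsGalois K L]

attribute [instance] GlobalGalPair.fieldK GlobalGalPair.fieldL GlobalGalPair.numberFieldK
  GlobalGalPair.numberFieldL GlobalGalPair.algKL GlobalGalPair.galKL

/-- The hereditary predicate: `(P, B)` is isomorphic to `(Gal(L/K), C_L)` for a finite Galois
extension of number fields. -/
def GlobalPr (P : Type) [Group P] (B : Rep.{0} ℤ P) : Prop :=
  ∃ (D : GlobalGalPair) (e : P ≃* (D.L ≃ₐ[D.K] D.L)),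
    Nonempty (B ≅ res e.toMonoidHom (ideleClassRep D.L (D.L ≃ₐ[D.K] D.L)))

/-- The tautological instance of the predicate. -/
theorem globalPr_ideleClass (K L : Type) [Field K] [Field L] [NumberField K] [NumberField L]
    [Algebra K L] [IsGalois K L] :
    GlobalPr (L ≃ₐ[K] L) (ideleClassRep L (L ≃ₐ[K] L)) :=
  ⟨{ K := K, L := L }, MulEquiv.refl _, ⟨Iso.refl _⟩⟩

/-- The extension `L/E`, for an intermediate field `E` of a Galois extension `L/K` of number
fields. -/
abbrev GlobalGalPair.ofIntermediate (K L : Type) [Field K] [Field L] [NumberField K] [NumberField L]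
    [Algebra K L] [IsGalois K L] (E : IntermediateField K L) : GlobalGalPair :=
  { K := E, L := L }

/-- The extension `E/K`, for an intermediate field `E`, Galois over `K`, of an extension `L/K` of
number fields. -/
abbrev GlobalGalPair.ofBottom (K L : Type) [Field K] [Field L] [NumberField K] [NumberField L]
    [Algebra K L] (E : IntermediateField K L) [IsGalois K E] : GlobalGalPair :=
  { K := K, L := E }

/-- The hereditary predicate is stable under restriction to subgroups. -/
theorem GlobalPr.res {P : Type} [Group P] {B : Rep.{0} ℤ P} (h : GlobalPr P B)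
    (H : Subgroup P) : GlobalPr H (Rep.res H.subtype B) := by
  obtain ⟨D, e, ⟨i⟩⟩ := h
  refine ⟨GlobalGalPair.ofIntermediate D.K D.L
      (IntermediateField.fixedField (H.map e.toMonoidHom)),
    (e.subgroupMap H).trans (galFixedEquiv D.K D.L (H.map e.toMonoidHom)), ?_⟩
  have hl := linearEquivOfRepIsoRes_ρ i
  generalize linearEquivOfRepIsoRes i = l at hl
  refine ⟨repIsoResOfLinearEquiv _ _ _ l ?_⟩
  intro g b
  have h1 := hl (g : P) b
  refine h1.trans ?_
  apply congrArg Additive.ofMul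
  refine ideleClass_smul_eq_of_forall_smul_eq _ _ (fun x => ?_) _
  exact (galFixedEquiv_apply D.K D.L (H.map e.toMonoidHom) (e.subgroupMap H g) x).symm

/-! ### The cyclic layers -/

/-- Quotient transport for idele classes along an equality `N = galKer K L' L`. -/
theorem nonempty_quotientCoh_ideleClass_linearEquiv (K L' L : Type) [Field K] [Field L'] [Field L]
    [Algebra K L'] [Algebra K L] [Algebra L' L] [IsScalarTower K L' L] [Normal K L']
    [IsGalois K L] [FiniteDimensional K L] (hL : PrincipalIsIdele L)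
    (hinjL : Function.Injective (principalIdele L)) (N : Subgroup (L ≃ₐ[K] L)) [N.Normal]
    (hN : N = galKer K L' L) (n : ℕ) :
    Nonempty (groupCohomology ((ideleClassRep L (L ≃ₐ[K] L)).quotientToInvariants N) n ≃ₗ[ℤ]
      groupCohomology (ideleClassRep L' (L' ≃ₐ[K] L')) n) := by
  subst hN
  exact ⟨(ideleClassQuotIso K L' L hL hinjL n).toLinearEquiv⟩

/-- For a layer `(P, B) ≅ (Gal(L/K), C_L)` and a normal subgroup `N` of `P`, the quotient layer
`(P ⧸ N, B^N)` has the cohomology of `(Gal(L'/K), C_{L'})`, `L'` the fixed field of `N`. -/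
theorem GlobalPr.exists_quotient_linearEquiv {P : Type} [Group P] {B : Rep.{0} ℤ P}
    (h : GlobalPr P B) (N : Subgroup P) [N.Normal] (n : ℕ) :
    ∃ D' : GlobalGalPair, Nat.card (D'.L ≃ₐ[D'.K] D'.L) = N.index ∧
      Nonempty (groupCohomology (B.quotientToInvariants N) n ≃ₗ[ℤ]
        groupCohomology (ideleClassRep D'.L (D'.L ≃ₐ[D'.K] D'.L)) n) := by
  obtain ⟨D, e, ⟨i⟩⟩ := h
  have hn' : (N.map e.toMonoidHom).Normal := Subgroup.Normal.map inferInstance _ e.surjective
  have hidx : (N.map e.toMonoidHom).index = N.index := Subgroup.index_map_equiv N e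
  have E := quotientCohLinearEquivOfRepIso B (ideleClassRep D.L (D.L ≃ₐ[D.K] D.L)) e i N
    (N.map e.toMonoidHom) rfl n
  obtain ⟨E'⟩ := nonempty_quotientCoh_ideleClass_linearEquiv D.K
    (IntermediateField.fixedField (N.map e.toMonoidHom)) D.L (IdeleDict.principalIsIdele D.L)
    (IdeleDict.principalIdele_injective' D.L) (N.map e.toMonoidHom)
    (galKer_fixedField D.K D.L (N.map e.toMonoidHom)).symm n
  refine ⟨GlobalGalPair.ofBottom D.K D.L (IntermediateField.fixedField (N.map e.toMonoidHom)),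
    ?_, ⟨E.trans E'⟩⟩
  rw [← hidx, Subgroup.index_eq_card]
  exact (Nat.card_congr (galFixedQuotEquiv D.K D.L (N.map e.toMonoidHom)).toEquiv).symm

/-- **Cyclic layers, `H¹`**: `H¹(Gal(L/K), C_L) = 0` for every Galois extension `L/K` of number
fields of degree `p` (a consequence of the first and the second inequality). -/
def CyclicLayerH1 (p : ℕ) : Prop :=
  ∀ (K L : Type) [Field K] [Field L] [NumberField K] [NumberField L] [Algebra K L]
    [IsGalois K L], Nat.card (L ≃ₐ[K] L) = p →
      IsZero (groupCohomology (ideleClassRep L (L ≃ₐ[K] L)) 1)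

/-- **Cyclic layers, `H²`**: `|H²(Gal(L/K), C_L)| ≤ p` for every Galois extension `L/K` of number
fields of degree `p` (the second inequality). -/
def CyclicLayerH2 (p : ℕ) : Prop :=
  ∀ (K L : Type) [Field K] [Field L] [NumberField K] [NumberField L] [Algebra K L]
    [IsGalois K L], Nat.card (L ≃ₐ[K] L) = p →
      Finite (groupCohomology (ideleClassRep L (L ≃ₐ[K] L)) 2) ∧
        Nat.card (groupCohomology (ideleClassRep L (L ≃ₐ[K] L)) 2) ≤ p

/-- The cyclic layers of a global layer have trivial `H¹`. -/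
theorem GlobalPr.isZero_H1_quotient {p : ℕ} (hc1 : CyclicLayerH1 p) {P : Type} [Group P]
    {B : Rep.{0} ℤ P} (h : GlobalPr P B) (N : Subgroup P) [N.Normal] (hN : N.index = p) :
    IsZero (groupCohomology (B.quotientToInvariants N) 1) := by
  obtain ⟨D', hcard, ⟨E⟩⟩ := h.exists_quotient_linearEquiv N 1
  have hz := hc1 D'.K D'.L (hcard.trans hN)
  have h1 : Subsingleton (groupCohomology (ideleClassRep D'.L (D'.L ≃ₐ[D'.K] D'.L)) 1) :=
    ModuleCat.subsingleton_of_isZero hz
  have h2 : Subsingleton (groupCohomology (B.quotientToInvariants N) 1) :=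
    E.toEquiv.subsingleton
  exact ModuleCat.isZero_of_subsingleton _

/-- The cyclic layers of a global layer have `|H²| ≤ p`. -/
theorem GlobalPr.card_H2_quotient_le {p : ℕ} (hc2 : CyclicLayerH2 p) {P : Type} [Group P]
    {B : Rep.{0} ℤ P} (h : GlobalPr P B) (N : Subgroup P) [N.Normal] (hN : N.index = p) :
    Finite (groupCohomology (B.quotientToInvariants N) 2) ∧
      Nat.card (groupCohomology (B.quotientToInvariants N) 2) ≤ p := by
  obtain ⟨D', hcard, ⟨E⟩⟩ := h.exists_quotient_linearEquiv N 2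
  obtain ⟨hfin, hle⟩ := hc2 D'.K D'.L (hcard.trans hN)
  refine ⟨E.toEquiv.finite_iff.2 hfin, ?_⟩
  rw [Nat.card_congr E.toEquiv]
  exact hle

/-! ### The class formation inequalities for global layers -/

section Main

variable (p : ℕ) [hp : Fact p.Prime]

/-- `H¹` of a global layer has no `p`-power torsion. -/
theorem GlobalPr.pPowerTorsion_H1_eq_bot (hc1 : CyclicLayerH1 p) {G : Type} [Group G] [Finite G]
    {A : Rep.{0} ℤ G} (hA : GlobalPr G A) : pPowerTorsion (groupCohomology A 1) p = ⊥ :=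
  pPowerTorsion_H1_eq_bot_of_layers GlobalPr p (fun _ _ _ _ H hB => hB.res H)
    (fun _ _ _ _ N _ hB hN => hB.isZero_H1_quotient hc1 N hN) G A hA

/-- `H¹` of a global layer with a `p`-group vanishes. -/
theorem GlobalPr.isZero_H1_of_card_eq_pow (hc1 : CyclicLayerH1 p) {G : Type} [Group G] [Finite G]
    {A : Rep.{0} ℤ G} (hA : GlobalPr G A) (n : ℕ) (hG : Nat.card G = p ^ n) :
    IsZero (groupCohomology A 1) :=
  isZero_H1_of_layers_pgroup GlobalPr p (fun _ _ _ _ H hB => hB.res H)
    (fun _ _ _ _ N _ hB hN => hB.isZero_H1_quotient hc1 N hN) n G A hG hA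

/-- The `p`-part of `H²` of a global layer has at most `|G|_p` elements. -/
theorem GlobalPr.card_pPowerTorsion_H2_le (hc1 : CyclicLayerH1 p) (hc2 : CyclicLayerH2 p)
    {G : Type} [Group G] [Finite G] {A : Rep.{0} ℤ G} (hA : GlobalPr G A) :
    Finite (pPowerTorsion (groupCohomology A 2) p) ∧
      Nat.card (pPowerTorsion (groupCohomology A 2) p) ≤ p ^ (Nat.card G).factorization p :=
  card_pPowerTorsion_H2_le_of_layers GlobalPr p (fun _ _ _ _ H hB => hB.res H)
    (fun _ _ _ _ N _ hB hN => hB.isZero_H1_quotient hc1 N hN)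
    (fun _ _ _ _ N _ hB hN => hB.card_H2_quotient_le hc2 N hN) G A hA

/-- The `p`-part of `|H²|` of a global layer divides `|G|_p`. -/
theorem GlobalPr.card_pPowerTorsion_H2_dvd (hc1 : CyclicLayerH1 p) (hc2 : CyclicLayerH2 p)
    {G : Type} [Group G] [Finite G] {A : Rep.{0} ℤ G} (hA : GlobalPr G A) :
    Nat.card (pPowerTorsion (groupCohomology A 2) p) ∣ p ^ (Nat.card G).factorization p :=
  card_pPowerTorsion_H2_dvd_of_layers GlobalPr p (fun _ _ _ _ H hB => hB.res H)
    (fun _ _ _ _ N _ hB hN => hB.isZero_H1_quotient hc1 N hN)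
    (fun _ _ _ _ N _ hB hN => hB.card_H2_quotient_le hc2 N hN) G A hA

/-- `|H²| ≤ |G|` for a global layer with a `p`-group. -/
theorem GlobalPr.card_H2_le_of_card_eq_pow (hc1 : CyclicLayerH1 p) (hc2 : CyclicLayerH2 p)
    {G : Type} [Group G] [Finite G] {A : Rep.{0} ℤ G} (hA : GlobalPr G A) (n : ℕ)
    (hG : Nat.card G = p ^ n) :
    Finite (groupCohomology A 2) ∧ Nat.card (groupCohomology A 2) ≤ Nat.card G :=
  card_H2_le_card_of_layers_pgroup GlobalPr p (fun _ _ _ _ H hB => hB.res H)
    (fun _ _ _ _ N _ hB hN => hB.isZero_H1_quotient hc1 N hN)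
    (fun _ _ _ _ N _ hB hN => hB.card_H2_quotient_le hc2 N hN) n G A hG hA

/-- A class of order `|G|_p` generates the `p`-part of `H²` of a global layer. -/
theorem GlobalPr.pPowerTorsion_H2_eq_zmultiples (hc1 : CyclicLayerH1 p) (hc2 : CyclicLayerH2 p)
    {G : Type} [Group G] [Finite G] {A : Rep.{0} ℤ G} (hA : GlobalPr G A)
    (u : groupCohomology A 2) (hu : addOrderOf u = p ^ (Nat.card G).factorization p) :
    pPowerTorsion (groupCohomology A 2) p = AddSubgroup.zmultiples u ∧
      Nat.card (pPowerTorsion (groupCohomology A 2) p) = p ^ (Nat.card G).factorization p :=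
  pPowerTorsion_H2_eq_zmultiples_of_layers GlobalPr p (fun _ _ _ _ H hB => hB.res H)
    (fun _ _ _ _ N _ hB hN => hB.isZero_H1_quotient hc1 N hN)
    (fun _ _ _ _ N _ hB hN => hB.card_H2_quotient_le hc2 N hN) G A hA u hu

variable (K L : Type) [Field K] [Field L] [NumberField K] [NumberField L] [Algebra K L]
  [IsGalois K L]

/-- **(CF1)** `H¹(Gal(L/K), C_L)` has no `p`-power torsion. -/
theorem pPowerTorsion_H1_ideleClass_eq_bot (hc1 : CyclicLayerH1 p) :
    pPowerTorsion (groupCohomology (ideleClassRep L (L ≃ₐ[K] L)) 1) p = ⊥ :=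
  (globalPr_ideleClass K L).pPowerTorsion_H1_eq_bot p hc1

/-- **(CF1), `p`-groups**: `H¹(Gal(L/K), C_L) = 0` if `[L : K]` is a power of `p`. -/
theorem isZero_H1_ideleClass_of_card_eq_pow (hc1 : CyclicLayerH1 p) (n : ℕ)
    (hG : Nat.card (L ≃ₐ[K] L) = p ^ n) :
    IsZero (groupCohomology (ideleClassRep L (L ≃ₐ[K] L)) 1) :=
  (globalPr_ideleClass K L).isZero_H1_of_card_eq_pow p hc1 n hG

/-- **(CF1), subgroups**: `H¹(H, C_L)` has no `p`-power torsion, for every subgroup `H` of
`Gal(L/K)`. -/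
theorem pPowerTorsion_H1_res_ideleClass_eq_bot (hc1 : CyclicLayerH1 p)
    (H : Subgroup (L ≃ₐ[K] L)) :
    pPowerTorsion (groupCohomology (ideleClassRep L H) 1) p = ⊥ :=
  ((globalPr_ideleClass K L).res H).pPowerTorsion_H1_eq_bot p hc1

/-- **(CF2)** `|H²(Gal(L/K), C_L)[p^∞]| ≤ |Gal(L/K)|_p`. -/
theorem card_pPowerTorsion_H2_ideleClass_le (hc1 : CyclicLayerH1 p) (hc2 : CyclicLayerH2 p) :
    Finite (pPowerTorsion (groupCohomology (ideleClassRep L (L ≃ₐ[K] L)) 2) p) ∧
      Nat.card (pPowerTorsion (groupCohomology (ideleClassRep L (L ≃ₐ[K] L)) 2) p) ≤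
        p ^ (Nat.card (L ≃ₐ[K] L)).factorization p :=
  (globalPr_ideleClass K L).card_pPowerTorsion_H2_le p hc1 hc2

/-- **(CF2), subgroups**: `|H²(H, C_L)[p^∞]| ≤ |H|_p`, for every subgroup `H` of `Gal(L/K)`. -/
theorem card_pPowerTorsion_H2_res_ideleClass_le (hc1 : CyclicLayerH1 p) (hc2 : CyclicLayerH2 p)
    (H : Subgroup (L ≃ₐ[K] L)) :
    Finite (pPowerTorsion (groupCohomology (ideleClassRep L H) 2) p) ∧
      Nat.card (pPowerTorsion (groupCohomology (ideleClassRep L H) 2) p) ≤
        p ^ (Nat.card H).factorization p :=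
  ((globalPr_ideleClass K L).res H).card_pPowerTorsion_H2_le p hc1 hc2

/-- **(CF2), `p`-groups**: `|H²(Gal(L/K), C_L)| ≤ [L : K]` if `[L : K]` is a power of `p`. -/
theorem card_H2_ideleClass_le_of_card_eq_pow (hc1 : CyclicLayerH1 p) (hc2 : CyclicLayerH2 p)
    (n : ℕ) (hG : Nat.card (L ≃ₐ[K] L) = p ^ n) :
    Finite (groupCohomology (ideleClassRep L (L ≃ₐ[K] L)) 2) ∧
      Nat.card (groupCohomology (ideleClassRep L (L ≃ₐ[K] L)) 2) ≤ Nat.card (L ≃ₐ[K] L) :=
  (globalPr_ideleClass K L).card_H2_le_of_card_eq_pow p hc1 hc2 n hG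

end Main

/-! ### Transport of the `p`-power torsion along additive bijections -/

section TorsionTransport

variable {M M' : Type*} [AddCommGroup M] [AddCommGroup M']

/-- An additive bijection carries trivial `p`-power torsion to trivial `p`-power torsion. -/
theorem pPowerTorsion_eq_bot_of_bijective (f : M →+ M') (hf : Function.Bijective f) (p : ℕ)
    (h : pPowerTorsion M p = ⊥) : pPowerTorsion M' p = ⊥ := by
  rw [eq_bot_iff]
  rintro x ⟨m, hm⟩
  obtain ⟨y, rfl⟩ := hf.2 x
  have hy : y ∈ pPowerTorsion M p := ⟨m, hf.1 (by rw [map_nsmul, hm, map_zero])⟩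
  rw [h, AddSubgroup.mem_bot] at hy
  rw [AddSubgroup.mem_bot, hy, map_zero]

/-- An additive bijection induces a bijection on the `p`-power torsion. -/
noncomputable def pPowerTorsionEquivOfBijective (f : M →+ M') (hf : Function.Bijective f)
    (p : ℕ) : pPowerTorsion M p ≃ pPowerTorsion M' p :=
  Equiv.ofBijective
    (fun x => ⟨f x.1, by
      obtain ⟨n, hn⟩ := x.2
      exact ⟨n, by rw [← map_nsmul, hn, map_zero]⟩⟩)
    ⟨fun x y hxy => Subtype.ext (hf.1 (congrArg Subtype.val hxy)), by
      rintro ⟨y, n, hn⟩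
      obtain ⟨x, rfl⟩ := hf.2 y
      exact ⟨⟨x, n, hf.1 (by rw [map_nsmul, hn, map_zero])⟩, rfl⟩⟩

end TorsionTransport

/-! ### The `S`-idele class groups -/

section SClass

variable (p : ℕ) [hp : Fact p.Prime]
variable (K L : Type) [Field K] [Field L] [NumberField K] [NumberField L] [Algebra K L]
  [IsGalois K L] (S : Set Nat.Primes)

/-- **(CF1) for `C_S(L)`**: `H¹(Gal(L/K), C_S(L))` has no `p`-power torsion, if the integral
semi-local units outside `S` are cohomologically trivial (`L/K` unramified outside `S`). -/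
theorem pPowerTorsion_H1_ideleClassS_eq_bot (hc1 : CyclicLayerH1 p)
    (hne : ∃ q ∈ S, Nonempty (LocalEmb ((q : Nat.Primes) : ℕ) L))
    (hunr1 : ∀ (H : Subgroup (L ≃ₐ[K] L)) (q : Nat.Primes), q ∉ S →
      H1TrivialOn H (semiLocalIntegral (q : ℕ) L))
    (hunr2 : ∀ (H : Subgroup (L ≃ₐ[K] L)) (q : Nat.Primes), q ∉ S →
      H2TrivialOn H (semiLocalIntegral (q : ℕ) L)) :
    pPowerTorsion (groupCohomology (ideleClassSRep L (L ≃ₐ[K] L) S) 1) p = ⊥ :=
  pPowerTorsion_eq_bot_of_bijective
    (groupCohomology.map (A := ideleClassRep L (L ≃ₐ[K] L))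
      (B := ideleClassSRep L (L ≃ₐ[K] L) S) (MonoidHom.id (L ≃ₐ[K] L))
      (classToClassSRepHom L (L ≃ₐ[K] L) S) 1).hom.toAddMonoidHom
    (map_ideleClass_ideleClassS_bijective hne hunr1 hunr2 0) p
    (pPowerTorsion_H1_ideleClass_eq_bot p K L hc1)

/-- **(CF1) for `C_S(L)`, `p`-groups**: `H¹(Gal(L/K), C_S(L)) = 0` if `[L : K]` is a power of
`p`. -/
theorem isZero_H1_ideleClassS_of_card_eq_pow (hc1 : CyclicLayerH1 p)
    (hne : ∃ q ∈ S, Nonempty (LocalEmb ((q : Nat.Primes) : ℕ) L))
    (hunr1 : ∀ (H : Subgroup (L ≃ₐ[K] L)) (q : Nat.Primes), q ∉ S →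
      H1TrivialOn H (semiLocalIntegral (q : ℕ) L))
    (hunr2 : ∀ (H : Subgroup (L ≃ₐ[K] L)) (q : Nat.Primes), q ∉ S →
      H2TrivialOn H (semiLocalIntegral (q : ℕ) L)) (n : ℕ)
    (hG : Nat.card (L ≃ₐ[K] L) = p ^ n) :
    IsZero (groupCohomology (ideleClassSRep L (L ≃ₐ[K] L) S) 1) := by
  have hz := isZero_H1_ideleClass_of_card_eq_pow p K L hc1 n hG
  have h1 : Subsingleton (groupCohomology (ideleClassRep L (L ≃ₐ[K] L)) 1) :=
    ModuleCat.subsingleton_of_isZero hz
  have h2 : Subsingleton (groupCohomology (ideleClassSRep L (L ≃ₐ[K] L) S) 1) :=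
    (Equiv.ofBijective _
      (map_ideleClass_ideleClassS_bijective (S := S) hne hunr1 hunr2 0)).symm.subsingleton
  exact ModuleCat.isZero_of_subsingleton _

/-- **(CF2) for `C_S(L)`**: `|H²(Gal(L/K), C_S(L))[p^∞]| ≤ |Gal(L/K)|_p`, if the integral
semi-local units outside `S` are cohomologically trivial (`L/K` unramified outside `S`). -/
theorem card_pPowerTorsion_H2_ideleClassS_le (hc1 : CyclicLayerH1 p) (hc2 : CyclicLayerH2 p)
    (hne : ∃ q ∈ S, Nonempty (LocalEmb ((q : Nat.Primes) : ℕ) L))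
    (hunr1 : ∀ (H : Subgroup (L ≃ₐ[K] L)) (q : Nat.Primes), q ∉ S →
      H1TrivialOn H (semiLocalIntegral (q : ℕ) L))
    (hunr2 : ∀ (H : Subgroup (L ≃ₐ[K] L)) (q : Nat.Primes), q ∉ S →
      H2TrivialOn H (semiLocalIntegral (q : ℕ) L)) :
    Finite (pPowerTorsion (groupCohomology (ideleClassSRep L (L ≃ₐ[K] L) S) 2) p) ∧
      Nat.card (pPowerTorsion (groupCohomology (ideleClassSRep L (L ≃ₐ[K] L) S) 2) p) ≤
        p ^ (Nat.card (L ≃ₐ[K] L)).factorization p := by
  obtain ⟨hfin, hle⟩ := card_pPowerTorsion_H2_ideleClass_le p K L hc1 hc2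
  have e := pPowerTorsionEquivOfBijective
    (groupCohomology.map (A := ideleClassRep L (L ≃ₐ[K] L))
      (B := ideleClassSRep L (L ≃ₐ[K] L) S) (MonoidHom.id (L ≃ₐ[K] L))
      (classToClassSRepHom L (L ≃ₐ[K] L) S) 2).hom.toAddMonoidHom
    (map_ideleClass_ideleClassS_bijective hne hunr1 hunr2 1) p
  refine ⟨e.finite_iff.1 hfin, ?_⟩
  rw [← Nat.card_congr e]
  exact hle

/-- **(CF2) for `C_S(L)`, `p`-groups**: `|H²(Gal(L/K), C_S(L))| ≤ [L : K]` if `[L : K]` is a
power of `p`. -/
theorem card_H2_ideleClassS_le_of_card_eq_pow (hc1 : CyclicLayerH1 p) (hc2 : CyclicLayerH2 p)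
    (hne : ∃ q ∈ S, Nonempty (LocalEmb ((q : Nat.Primes) : ℕ) L))
    (hunr1 : ∀ (H : Subgroup (L ≃ₐ[K] L)) (q : Nat.Primes), q ∉ S →
      H1TrivialOn H (semiLocalIntegral (q : ℕ) L))
    (hunr2 : ∀ (H : Subgroup (L ≃ₐ[K] L)) (q : Nat.Primes), q ∉ S →
      H2TrivialOn H (semiLocalIntegral (q : ℕ) L)) (n : ℕ)
    (hG : Nat.card (L ≃ₐ[K] L) = p ^ n) :
    Finite (groupCohomology (ideleClassSRep L (L ≃ₐ[K] L) S) 2) ∧
      Nat.card (groupCohomology (ideleClassSRep L (L ≃ₐ[K] L) S) 2) ≤
        Nat.card (L ≃ₐ[K] L) := by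
  obtain ⟨hfin, hle⟩ := card_H2_ideleClass_le_of_card_eq_pow p K L hc1 hc2 n hG
  have e := Equiv.ofBijective _
    (map_ideleClass_ideleClassS_bijective (S := S) hne hunr1 hunr2 1)
  refine ⟨e.finite_iff.1 hfin, ?_⟩
  rw [← Nat.card_congr e]
  exact hle

end SClass

end Fermat.Agent.CFT
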