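import Mathlib
import Fermat.Agent.CFT.Global.IdeleDefs

/-!
# Layer C, node C2c: embeddings of a Galois extension into `ℚ̄_q`, invariants and split norms

For fields `K ⊆ L` (`L/K` algebraic, normal) and a prime `q`:

* restriction `LocalEmb q L → LocalEmb q K` is onto, its fibres are `Gal(L/K)`-orbits;
* a `Gal(L/K)`-invariant semi-local unit of `L` comes from a semi-local unit of `K`;
* if all decomposition groups at `q` are trivial, every semi-local unit of `K` is the norm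
  (product over `Gal(L/K)`) of a semi-local unit of `L`, integral if the given one is.
-/

set_option autoImplicit false
set_option linter.style.haveILetI false

noncomputable section

namespace Fermat.Agent.CFT

namespace FirstIneq

variable {q : ℕ} [Fact q.Prime] {K L : Type} [Field K] [Field L] [Algebra K L]

variable (K) in
/-- Restriction of embeddings from `L` to `K`. -/
def resEmb (τ' : LocalEmb q L) : LocalEmb q K := τ'.comp (algebraMap K L)

@[simp]
theorem resEmb_apply (τ' : LocalEmb q L) (x : K) : resEmb K τ' x = τ' (algebraMap K L x) := rfl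

theorem resEmb_smul (γ : Gq q) (τ' : LocalEmb q L) : resEmb K (γ • τ') = γ • resEmb K τ' := rfl

theorem resEmb_comp_algEquiv (τ' : LocalEmb q L) (g : L ≃ₐ[K] L) :
    resEmb K (τ'.comp (g : L →+* L)) = resEmb K τ' := by
  ext x
  simp [resEmb]

theorem smul_comp (γ : Gq q) (τ' : LocalEmb q L) (g : L →+* L) :
    (γ • τ').comp g = γ • (τ'.comp g) := rfl

/-- Every embedding of `K` extends to `L`. -/
theorem resEmb_surjective [Algebra.IsAlgebraic K L] :
    Function.Surjective (resEmb K : LocalEmb q L → LocalEmb q K) := by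
  intro τ
  letI : Algebra K (PadicAlgCl q) := τ.toAlgebra
  let φ : L →ₐ[K] PadicAlgCl q := IsAlgClosed.lift
  refine ⟨φ.toRingHom, ?_⟩
  ext x
  exact φ.commutes x

/-- Two extensions of the same embedding of `K` differ by an element of `Gal(L/K)`. -/
theorem exists_comp_eq_of_resEmb_eq [Normal K L] {τ₁ τ₂ : LocalEmb q L}
    (h : resEmb K τ₁ = resEmb K τ₂) : ∃ g : L ≃ₐ[K] L, τ₂ = τ₁.comp (g : L →+* L) := by
  letI : Algebra K (PadicAlgCl q) := (resEmb K τ₁).toAlgebra
  letI : Algebra L (PadicAlgCl q) := τ₁.toAlgebra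
  haveI : IsScalarTower K L (PadicAlgCl q) := IsScalarTower.of_algebraMap_eq fun x => rfl
  let φ₂ : L →ₐ[K] PadicAlgCl q :=
    { τ₂ with commutes' := fun x => (RingHom.congr_fun h x).symm }
  refine ⟨Normal.algHomEquivAut K (PadicAlgCl q) L φ₂, ?_⟩
  have := (Normal.algHomEquivAut K (PadicAlgCl q) L).left_inv φ₂
  ext x
  have hx := AlgHom.congr_fun this x
  exact hx.symm

theorem toRingHom_algEquiv (g : L ≃ₐ[K] L) :
    MulSemiringAction.toRingHom (L ≃ₐ[K] L) L g = (g : L →+* L) := rfl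

theorem smul_apply (g : L ≃ₐ[K] L) (f : semiLocalUnits q L) (τ' : LocalEmb q L) :
    ((g • f : semiLocalUnits q L) : LocalEmb q L → (PadicAlgCl q)ˣ) τ' =
      (f : LocalEmb q L → (PadicAlgCl q)ˣ) (τ'.comp (g : L →+* L)) := rfl

/-- A `Gal(L/K)`-invariant semi-local unit of `L` comes from `K`. -/
theorem exists_semiLocalMap_eq_of_invariant [Normal K L]
    (f : semiLocalUnits q L) (hf : ∀ g : L ≃ₐ[K] L, g • f = f) :
    ∃ y : semiLocalUnits q K, semiLocalMap (algebraMap K L) y = f := by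
  have hwd : ∀ τ₁ τ₂ : LocalEmb q L, resEmb K τ₁ = resEmb K τ₂ →
      (f : LocalEmb q L → (PadicAlgCl q)ˣ) τ₁ = (f : LocalEmb q L → (PadicAlgCl q)ˣ) τ₂ := by
    intro τ₁ τ₂ h
    obtain ⟨g, rfl⟩ := exists_comp_eq_of_resEmb_eq h
    rw [← smul_apply, hf g]
  let s : LocalEmb q K → LocalEmb q L := Function.surjInv (resEmb_surjective (q := q) (K := K))
  have hs : ∀ τ, resEmb K (s τ) = τ := Function.surjInv_eq _
  refine ⟨⟨fun τ => (f : LocalEmb q L → (PadicAlgCl q)ˣ) (s τ), ?_⟩, ?_⟩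
  · intro γ τ
    have h1 : resEmb K (s (γ • τ)) = resEmb K (γ • s τ) := by
      rw [hs, resEmb_smul, hs]
    show (f : LocalEmb q L → (PadicAlgCl q)ˣ) (s (γ • τ)) =
      gqUnitsHom γ ((f : LocalEmb q L → (PadicAlgCl q)ˣ) (s τ))
    rw [hwd _ _ h1]
    exact f.2 γ (s τ)
  · apply Subtype.ext
    funext τ'
    show (f : LocalEmb q L → (PadicAlgCl q)ˣ) (s (τ'.comp (algebraMap K L))) = _
    exact hwd _ _ (hs _)

section Split

variable [FiniteDimensional K L] [Normal K L]

open Classical in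
/-- If all decomposition groups at `q` are trivial, every semi-local unit of `K` is the norm of a
semi-local unit of `L`, integral if the given one is integral. -/
theorem exists_prod_smul_eq_of_split
    (hsplit : ∀ (τ' : LocalEmb q L) (g : L ≃ₐ[K] L),
      (∃ γ : Gq q, τ'.comp (g : L →+* L) = γ • τ') → g = 1)
    (y : semiLocalUnits q K) :
    ∃ z : semiLocalUnits q L,
      (∀ τ' : LocalEmb q L, ∏ g : L ≃ₐ[K] L,
        (z : LocalEmb q L → (PadicAlgCl q)ˣ) (τ'.comp (g : L →+* L)) =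
          (y : LocalEmb q K → (PadicAlgCl q)ˣ) (resEmb K τ')) ∧
      (y ∈ semiLocalIntegral q K → z ∈ semiLocalIntegral q L) := by
  haveI : Algebra.IsAlgebraic K L := Algebra.IsAlgebraic.of_finite K L
  let s : LocalEmb q K → LocalEmb q L := Function.surjInv (resEmb_surjective (q := q) (K := K))
  have hs : ∀ τ, resEmb K (s τ) = τ := Function.surjInv_eq _
  -- orbit representatives in `LocalEmb q K`
  let rep : LocalEmb q K → LocalEmb q K := fun τ =>
    (Quotient.mk (MulAction.orbitRel (Gq q) (LocalEmb q K)) τ).out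
  have hrep : ∀ τ, ∃ γ : Gq q, γ • rep τ = τ := by
    intro τ
    have h : (MulAction.orbitRel (Gq q) (LocalEmb q K)) (rep τ) τ := Quotient.mk_out τ
    obtain ⟨γ, hγ⟩ := h
    have hγ' : γ • τ = rep τ := hγ
    exact ⟨γ⁻¹, by rw [← hγ', inv_smul_smul]⟩
  have hrep_smul : ∀ (γ : Gq q) τ, rep (γ • τ) = rep τ := by
    intro γ τ
    have : Quotient.mk (MulAction.orbitRel (Gq q) (LocalEmb q K)) (γ • τ) =
        Quotient.mk (MulAction.orbitRel (Gq q) (LocalEmb q K)) τ :=
      Quotient.sound ⟨γ, rfl⟩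
    simp only [rep, this]
  let base : LocalEmb q L → LocalEmb q L := fun τ' => s (rep (resEmb K τ'))
  have hbase_smul : ∀ (γ : Gq q) τ', base (γ • τ') = base τ' := by
    intro γ τ'
    simp only [base, resEmb_smul, hrep_smul]
  have hbase_comp : ∀ τ' (g : L ≃ₐ[K] L), base (τ'.comp (g : L →+* L)) = base τ' := by
    intro τ' g
    simp only [base, resEmb_comp_algEquiv]
  let X₀ : Set (LocalEmb q L) := {τ' | ∃ γ : Gq q, τ' = γ • base τ'}
  have hX₀_smul : ∀ (γ : Gq q) τ', τ' ∈ X₀ ↔ γ • τ' ∈ X₀ := by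
    intro γ τ'
    constructor
    · rintro ⟨δ, hδ⟩
      refine ⟨γ * δ, ?_⟩
      rw [hbase_smul, mul_smul, ← hδ]
    · rintro ⟨δ, hδ⟩
      refine ⟨γ⁻¹ * δ, ?_⟩
      rw [hbase_smul] at hδ
      rw [mul_smul, ← hδ, inv_smul_smul]
  -- existence and uniqueness of the translate in `X₀`
  have hex : ∀ τ' : LocalEmb q L, ∃ g : L ≃ₐ[K] L, τ'.comp (g : L →+* L) ∈ X₀ := by
    intro τ'
    obtain ⟨γ, hγ⟩ := hrep (resEmb K τ')
    have h1 : resEmb K (γ⁻¹ • τ') = resEmb K (base τ') := by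
      show resEmb K (γ⁻¹ • τ') = resEmb K (s (rep (resEmb K τ')))
      rw [resEmb_smul, hs]
      conv_lhs => rw [← hγ]
      rw [inv_smul_smul]
    obtain ⟨g, hg⟩ := exists_comp_eq_of_resEmb_eq h1
    refine ⟨g, γ, ?_⟩
    rw [hbase_comp, hg, smul_comp, smul_inv_smul]
  have huniq : ∀ (τ' : LocalEmb q L) (g₁ g₂ : L ≃ₐ[K] L), τ'.comp (g₁ : L →+* L) ∈ X₀ →
      τ'.comp (g₂ : L →+* L) ∈ X₀ → g₁ = g₂ := by
    rintro τ' g₁ g₂ ⟨γ₁, h₁⟩ ⟨γ₂, h₂⟩
    rw [hbase_comp] at h₁ h₂
    have h3 : (τ'.comp (g₁ : L →+* L)).comp ((g₁⁻¹ * g₂ : L ≃ₐ[K] L) : L →+* L) =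
        (γ₂ * γ₁⁻¹) • (τ'.comp (g₁ : L →+* L)) := by
      have e : (τ'.comp (g₁ : L →+* L)).comp ((g₁⁻¹ * g₂ : L ≃ₐ[K] L) : L →+* L) =
          τ'.comp (g₂ : L →+* L) := by
        ext x
        show τ' (g₁ ((g₁⁻¹ * g₂) x)) = τ' (g₂ x)
        rw [AlgEquiv.mul_apply]
        congr 1
        exact AlgEquiv.apply_symm_apply g₁ (g₂ x)
      rw [e, h₂, h₁, mul_smul, inv_smul_smul]
    have := hsplit _ _ ⟨_, h3⟩
    exact inv_mul_eq_one.mp this
  -- the unit `z`
  have hz_mem : (fun τ' : LocalEmb q L =>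
      if τ' ∈ X₀ then (y : LocalEmb q K → (PadicAlgCl q)ˣ) (resEmb K τ') else 1) ∈
        semiLocalUnits q L := by
    intro γ τ'
    by_cases h : τ' ∈ X₀
    · have h' : γ • τ' ∈ X₀ := (hX₀_smul γ τ').mp h
      simp only [if_pos h, if_pos h', resEmb_smul]
      exact y.2 γ _
    · have h' : γ • τ' ∉ X₀ := fun h' => h ((hX₀_smul γ τ').mpr h')
      simp only [if_neg h, if_neg h', map_one]
  refine ⟨⟨_, hz_mem⟩, ?_, ?_⟩
  · intro τ'
    obtain ⟨g₀, hg₀⟩ := hex τ'
    rw [Finset.prod_eq_single g₀]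
    · simp only [if_pos hg₀, resEmb_comp_algEquiv]
    · intro g _ hg
      have : τ'.comp (g : L →+* L) ∉ X₀ := fun h => hg (huniq τ' g g₀ h hg₀)
      simp only [if_neg this]
    · intro h
      exact absurd (Finset.mem_univ g₀) h
  · intro hy τ'
    show ‖(((if τ' ∈ X₀ then (y : LocalEmb q K → (PadicAlgCl q)ˣ) (resEmb K τ') else 1 :
      (PadicAlgCl q)ˣ)) : PadicAlgCl q)‖ = 1
    by_cases h : τ' ∈ X₀
    · rw [if_pos h]
      exact hy _
    · rw [if_neg h]
      simp

end Split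

end FirstIneq

end Fermat.Agent.CFT
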