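import Mathlib
import Fermat.Agent.CFT.Global.IdeleDefs
import Fermat.Agent.CFT.Global.PadicRoot
import Fermat.Agent.CFT.Global.FirstIneqEmb
import Fermat.Agent.CFT.Global.IdeleCoh
import Fermat.Agent.CFT.Global.CyclicBridge

/-!
# Layer C, node C2c: `Ĥ⁰(G, C_L)` versus `J_K / Kˣ N J_L`, and the split case

`L/K` a finite Galois extension of number fields, `G = Gal(L/K)`.

* `ideleNormSubgroup K L`: the ideles of `K` whose image in `J_L` is a norm `∏_g g • z`.
* `principal_sup_norm_eq_top_of_split`: if all decomposition groups at the primes outside a finite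
  set `S` are trivial, then `J_K = Kˣ · N J_L`  (weak approximation + `p`-adic roots at `S`,
  explicit norms at the split primes).
* cyclic case, generator `σ` of order `n`: `subsingleton_H0_iff`:
  `Ĥ⁰(C_L)` (for `smulPair σ n` on `ideleClass L`) is trivial iff `Kˣ · N J_L = J_K`.

Inputs in hypothesis form: weak approximation for `K` (`WeakApprox K`) and "principal ideles are
ideles" (`PrincipalIsIdele`), both node C1c.
-/

set_option autoImplicit false
set_option linter.style.haveILetI false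

noncomputable section

namespace Fermat.Agent.CFT

namespace FirstIneq

/-- Weak approximation in the embedding model (node C1c (vi)). -/
def WeakApprox (K : Type) [Field K] : Prop :=
  ∀ (S : Finset Nat.Primes) (x : IdeleProd K) (ε : ℝ), 0 < ε → ∃ a : Kˣ, ∀ q ∈ S,
    ∀ τ : LocalEmb (q : ℕ) K,
      ‖τ (a : K) / ((x q : LocalEmb (q : ℕ) K → (PadicAlgCl (q : ℕ))ˣ) τ : PadicAlgCl (q : ℕ)) - 1‖
        < ε

/-- Principal ideles are ideles (node C1c (iii)). -/
def PrincipalIsIdele (K : Type) [Field K] : Prop :=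
  ∀ a : Kˣ, principalIdele K a ∈ ideleGroup K

section Embeddings

variable (q : ℕ) [Fact q.Prime] (L : Type) [Field L] [NumberField L]

/-- A number field embeds into `ℚ̄_q`. -/
theorem nonempty_localEmb : Nonempty (LocalEmb q L) := by
  haveI : Algebra.IsAlgebraic ℚ L := Algebra.IsAlgebraic.of_finite ℚ L
  exact ⟨(IsAlgClosed.lift : L →ₐ[ℚ] PadicAlgCl q).toRingHom⟩

theorem semiLocalDiag_injective :
    Function.Injective (semiLocalDiag : Lˣ →* semiLocalUnits q L) := by
  intro a b hab
  obtain ⟨τ⟩ := nonempty_localEmb q L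
  have h3 : τ (a : L) = τ (b : L) := by
    rw [← semiLocalDiag_apply (q := q) a τ, ← semiLocalDiag_apply (q := q) b τ, hab]
  exact Units.ext (τ.injective h3)

end Embeddings

section Principal

variable {L : Type} [Field L]

/-- The principal idele of `a`, as an element of the idele group. -/
def principalIdeleIn (hPI : PrincipalIsIdele L) : Lˣ →* ideleGroup L :=
  (principalIdele L).codRestrict (ideleGroup L) hPI

@[simp]
theorem principalIdeleIn_coe (hPI : PrincipalIsIdele L) (a : Lˣ) :
    ((principalIdeleIn hPI a : ideleGroup L) : IdeleProd L) = principalIdele L a := rfl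

theorem principalIdeleIn_mem (hPI : PrincipalIsIdele L) (a : Lˣ) :
    principalIdeleIn hPI a ∈ principalSubgroup L :=
  ⟨a, rfl⟩

theorem mk_principalIdeleIn (hPI : PrincipalIsIdele L) (a : Lˣ) :
    (QuotientGroup.mk (principalIdeleIn hPI a) : ideleClass L) = 1 :=
  (QuotientGroup.eq_one_iff _).2 (principalIdeleIn_mem hPI a)

theorem exists_eq_principalIdeleIn (hPI : PrincipalIsIdele L) {x : ideleGroup L}
    (hx : x ∈ principalSubgroup L) : ∃ a : Lˣ, x = principalIdeleIn hPI a := by
  obtain ⟨a, ha⟩ := hx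
  exact ⟨a, Subtype.ext ha.symm⟩

theorem principalIdeleIn_injective [NumberField L] (hPI : PrincipalIsIdele L) :
    Function.Injective (principalIdeleIn hPI) := by
  intro a b hab
  let q : Nat.Primes := ⟨2, Nat.prime_two⟩
  have h := congrFun (congrArg Subtype.val hab) q
  exact semiLocalDiag_injective (q : ℕ) L h

variable {K : Type} [Field K] [Algebra K L]

theorem smul_principalIdeleIn (hPI : PrincipalIsIdele L) (g : L ≃ₐ[K] L) (a : Lˣ) :
    g • principalIdeleIn hPI a = principalIdeleIn hPI (unitsSmul g a) := by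
  apply Subtype.ext
  funext q
  exact smul_semiLocalDiag g a

theorem ideleMap_principalIdeleIn (hK : PrincipalIsIdele K) (hL : PrincipalIsIdele L) (a : Kˣ) :
    ideleMap (algebraMap K L) (principalIdeleIn hK a) =
      principalIdeleIn hL (Units.map (algebraMap K L : K →* L) a) := by
  apply Subtype.ext
  exact ideleProdMap_principal (algebraMap K L) a

end Principal

section NormHom

variable (G M : Type*) [Group G] [Fintype G] [CommGroup M] [MulDistribMulAction G M]

/-- The norm endomorphism `x ↦ ∏_g g • x`. -/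
def smulNormHom : M →* M := ∏ g : G, MulDistribMulAction.toMonoidHom M g

variable {G M}

@[simp]
theorem smulNormHom_apply (x : M) : smulNormHom G M x = ∏ g : G, g • x := by
  simp [smulNormHom]

theorem smul_smulNormHom (h : G) (x : M) : h • smulNormHom G M x = smulNormHom G M x := by
  classical
  rw [smulNormHom_apply, Finset.smul_prod']
  simp only [← mul_smul]
  exact Equiv.prod_comp (Equiv.mulLeft h) (fun g => g • x)

end NormHom

section Galois

variable {K L : Type} [Field K] [Field L] [Algebra K L]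

theorem smul_semiLocalMap {q : ℕ} [Fact q.Prime] (g : L ≃ₐ[K] L) (f : semiLocalUnits q K) :
    g • semiLocalMap (algebraMap K L) f = semiLocalMap (algebraMap K L) f := by
  apply Subtype.ext
  funext τ'
  show (f : LocalEmb q K → (PadicAlgCl q)ˣ) ((τ'.comp (g : L →+* L)).comp (algebraMap K L)) =
    (f : LocalEmb q K → (PadicAlgCl q)ˣ) (τ'.comp (algebraMap K L))
  have := resEmb_comp_algEquiv (K := K) τ' g
  unfold resEmb at this
  rw [this]

theorem smul_ideleMap_algebraMap (g : L ≃ₐ[K] L) (y : ideleGroup K) :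
    g • ideleMap (algebraMap K L) y = ideleMap (algebraMap K L) y :=
  smul_ideleMap (algebraMap K L) (fun σ a => by
    show (σ : L ≃ₐ[K] L) (algebraMap K L a) = algebraMap K L a
    exact σ.commutes a) g y

variable [FiniteDimensional K L]

theorem idele_prod_smul_coe (z : ideleGroup L) (q : Nat.Primes) :
    ((∏ g : L ≃ₐ[K] L, g • z : ideleGroup L) : IdeleProd L) q =
      ∏ g : L ≃ₐ[K] L, g • (z : IdeleProd L) q := by
  rw [Subgroup.val_finsetProd, Finset.prod_apply]
  rfl

theorem semiLocal_prod_smul_apply {q : ℕ} [Fact q.Prime] (z : semiLocalUnits q L)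
    (τ' : LocalEmb q L) :
    ((∏ g : L ≃ₐ[K] L, g • z : semiLocalUnits q L) : LocalEmb q L → (PadicAlgCl q)ˣ) τ' =
      ∏ g : L ≃ₐ[K] L, (z : LocalEmb q L → (PadicAlgCl q)ˣ) (τ'.comp (g : L →+* L)) := by
  rw [Subgroup.val_finsetProd, Finset.prod_apply]
  rfl

variable (K L) in
/-- The norm subgroup `N J_L ⊆ J_K`: the ideles of `K` whose image in `J_L` is of the form
`∏_g g • z`. -/
def ideleNormSubgroup : Subgroup (ideleGroup K) :=
  (smulNormHom (L ≃ₐ[K] L) (ideleGroup L)).range.comap (ideleMap (algebraMap K L))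

theorem mem_ideleNormSubgroup {y : ideleGroup K} :
    y ∈ ideleNormSubgroup K L ↔
      ∃ z : ideleGroup L, ∏ g : L ≃ₐ[K] L, g • z = ideleMap (algebraMap K L) y := by
  unfold ideleNormSubgroup
  rw [Subgroup.mem_comap, MonoidHom.mem_range]
  simp only [smulNormHom_apply]

section Split

omit [Algebra K L] [FiniteDimensional K L] in
theorem coe_div_apply {q : ℕ} [Fact q.Prime] (f g : semiLocalUnits q K) (τ : LocalEmb q K) :
    (((f / g : semiLocalUnits q K) : LocalEmb q K → (PadicAlgCl q)ˣ) τ : PadicAlgCl q) =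
      ((f : LocalEmb q K → (PadicAlgCl q)ˣ) τ : PadicAlgCl q) /
        ((g : LocalEmb q K → (PadicAlgCl q)ˣ) τ : PadicAlgCl q) := by
  rw [Subgroup.coe_div, Pi.div_apply, Units.val_div_eq_div_val]

variable [IsGalois K L]

/-- **Split primes**: if all decomposition groups of `L/K` at the primes outside a finite set `S`
are trivial, every idele of `K` is a principal idele times a norm from `L`. -/
theorem exists_norm_of_split (S : Finset Nat.Primes)
    (hsplit : ∀ q : Nat.Primes, q ∉ S → ∀ (τ' : LocalEmb (q : ℕ) L) (g : L ≃ₐ[K] L),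
      (∃ γ : Gq (q : ℕ), τ'.comp (g : L →+* L) = γ • τ') → g = 1)
    (hWA : WeakApprox K) (hPI : PrincipalIsIdele K) (y : ideleGroup K) :
    ∃ (a : Kˣ) (z : ideleGroup L),
      ∏ g : L ≃ₐ[K] L, g • z = ideleMap (algebraMap K L) (y / principalIdeleIn hPI a) := by
  classical
  set n := Fintype.card (L ≃ₐ[K] L) with hn
  have hn0 : n ≠ 0 := Fintype.card_ne_zero
  -- the precision
  let ε : ℝ := ∏ q ∈ S, ‖(n : PadicAlgCl (q : ℕ))‖ ^ n
  have hε0 : 0 < ε := Finset.prod_pos fun q _ => pow_pos (PadicRoot.norm_natCast_pos hn0) n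
  have hεle : ∀ q ∈ S, ε ≤ ‖(n : PadicAlgCl (q : ℕ))‖ ^ n := by
    intro q hq
    show ∏ q ∈ S, ‖(n : PadicAlgCl (q : ℕ))‖ ^ n ≤ _
    rw [← Finset.mul_prod_erase S _ hq]
    apply mul_le_of_le_one_right (pow_nonneg (norm_nonneg _) n)
    apply Finset.prod_le_one
    · intro i _
      exact pow_nonneg (norm_nonneg _) n
    · intro i _
      exact pow_le_one₀ (norm_nonneg _) (PadicRoot.norm_natCast_le_one n)
  obtain ⟨a, ha⟩ := hWA S y.1 ε hε0
  set w : ideleGroup K := principalIdeleIn hPI a / y with hw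
  have hwS : ∀ q ∈ S, ∀ τ : LocalEmb (q : ℕ) K,
      ‖((((w : IdeleProd K) q : semiLocalUnits (q : ℕ) K) :
        LocalEmb (q : ℕ) K → (PadicAlgCl (q : ℕ))ˣ) τ : PadicAlgCl (q : ℕ)) - 1‖ <
        ‖(n : PadicAlgCl (q : ℕ))‖ ^ n := by
    intro q hq τ
    refine lt_of_lt_of_le ?_ (hεle q hq)
    have h1 : (w : IdeleProd K) q = semiLocalDiag a / (y : IdeleProd K) q := rfl
    rw [h1, coe_div_apply, semiLocalDiag_apply]
    exact ha q hq τ
  have hloc : ∀ q : Nat.Primes, ∃ zq : semiLocalUnits (q : ℕ) L,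
      (∏ g : L ≃ₐ[K] L, g • zq = semiLocalMap (algebraMap K L) ((w : IdeleProd K) q)⁻¹) ∧
      (q ∉ S → (w : IdeleProd K) q ∈ semiLocalIntegral (q : ℕ) K →
        zq ∈ semiLocalIntegral (q : ℕ) L) := by
    intro q
    by_cases hq : q ∈ S
    · obtain ⟨r, hr, -⟩ :=
        PadicRoot.exists_pow_eq_of_near_one hn0 ((w : IdeleProd K) q) (hwS q hq)
      refine ⟨semiLocalMap (algebraMap K L) r⁻¹, ?_, fun h => absurd hq h⟩
      rw [Finset.prod_congr rfl (fun g' _ => smul_semiLocalMap g' r⁻¹), Finset.prod_const,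
        Finset.card_univ, ← map_pow, inv_pow, hr]
    · obtain ⟨z, hz, hzint⟩ :=
        exists_prod_smul_eq_of_split (hsplit q hq) ((w : IdeleProd K) q)⁻¹
      refine ⟨z, ?_, fun _ hwint => hzint (inv_mem hwint)⟩
      apply Subtype.ext
      funext τ'
      rw [semiLocal_prod_smul_apply, hz τ']
      rfl
  choose zf hz1 hz2 using hloc
  have hzJ : zf ∈ ideleGroup L := by
    rw [mem_ideleGroup]
    have hwJ := w.2
    rw [mem_ideleGroup] at hwJ
    have hS : ∀ᶠ q : Nat.Primes in Filter.cofinite, q ∉ S := by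
      have : (↑S : Set Nat.Primes)ᶜ ∈ Filter.cofinite :=
        S.finite_toSet.compl_mem_cofinite
      exact this
    filter_upwards [hwJ, hS] with q h1 h2 using hz2 q h2 h1
  refine ⟨a, ⟨zf, hzJ⟩, ?_⟩
  apply Subtype.ext
  funext q
  rw [idele_prod_smul_coe]
  show ∏ g : L ≃ₐ[K] L, g • zf q =
    semiLocalMap (algebraMap K L) (((y / principalIdeleIn hPI a : ideleGroup K) : IdeleProd K) q)
  rw [hz1 q]
  have : (w : IdeleProd K) q =
      (((y / principalIdeleIn hPI a : ideleGroup K) : IdeleProd K) q)⁻¹ := by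
    rw [hw]
    show ((principalIdeleIn hPI a : IdeleProd K) / (y : IdeleProd K)) q =
      (((y : IdeleProd K) / (principalIdeleIn hPI a : IdeleProd K)) q)⁻¹
    rw [← Pi.inv_apply, inv_div]
  rw [this, inv_inv]

/-- If all decomposition groups outside `S` are trivial, `J_K = Kˣ · N J_L`. -/
theorem principal_sup_norm_eq_top_of_split (S : Finset Nat.Primes)
    (hsplit : ∀ q : Nat.Primes, q ∉ S → ∀ (τ' : LocalEmb (q : ℕ) L) (g : L ≃ₐ[K] L),
      (∃ γ : Gq (q : ℕ), τ'.comp (g : L →+* L) = γ • τ') → g = 1)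
    (hWA : WeakApprox K) (hPI : PrincipalIsIdele K) :
    principalSubgroup K ⊔ ideleNormSubgroup K L = ⊤ := by
  rw [eq_top_iff]
  intro y _
  obtain ⟨a, z, hz⟩ := exists_norm_of_split S hsplit hWA hPI y
  have h1 : y = principalIdeleIn hPI a * (y / principalIdeleIn hPI a) := by
    rw [mul_div_cancel]
  rw [h1]
  exact Subgroup.mul_mem_sup (principalIdeleIn_mem hPI a) (mem_ideleNormSubgroup.2 ⟨z, hz⟩)

end Split

section Cyclic

variable [NumberField L] [IsGalois K L]

/-- A `σ`-invariant idele class of a cyclic extension is represented by a `G`-invariant idele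
(Hilbert 90). -/
theorem exists_mul_principal_invariant (hPI : PrincipalIsIdele L) {σ : L ≃ₐ[K] L}
    (hgen : ∀ g, g ∈ Subgroup.zpowers σ) (x : ideleGroup L)
    (hx : σ • (QuotientGroup.mk x : ideleClass L) = QuotientGroup.mk x) :
    ∃ c : Lˣ, ∀ g : L ≃ₐ[K] L,
      g • (x * principalIdeleIn hPI c) = x * principalIdeleIn hPI c := by
  classical
  haveI : IsCyclic (L ≃ₐ[K] L) := ⟨⟨σ, hgen⟩⟩
  rw [ideleClass_smul_mk, QuotientGroup.eq] at hx
  obtain ⟨b, hb⟩ := exists_eq_principalIdeleIn hPI hx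
  have hxb : x = σ • x * principalIdeleIn hPI b := by rw [← hb, mul_inv_cancel_left]
  have hg : ∀ g : L ≃ₐ[K] L,
      g • x = (g * σ) • x * principalIdeleIn hPI (unitsSmul g b) := by
    intro g
    conv_lhs => rw [hxb]
    rw [smul_mul', mul_smul, smul_principalIdeleIn]
  have hprod : ∏ g : L ≃ₐ[K] L, g • x = (∏ g : L ≃ₐ[K] L, g • x) *
      principalIdeleIn hPI (∏ g : L ≃ₐ[K] L, unitsSmul g b) := by
    conv_lhs => rw [Finset.prod_congr rfl (fun g _ => hg g)]
    rw [Finset.prod_mul_distrib, map_prod]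
    congr 1
    exact Equiv.prod_comp (Equiv.mulRight σ) (fun g => g • x)
  have hone : principalIdeleIn hPI (∏ g : L ≃ₐ[K] L, unitsSmul g b) = 1 :=
    left_eq_mul.mp hprod
  have hb1 : ∏ g : L ≃ₐ[K] L, unitsSmul g b = 1 :=
    principalIdeleIn_injective hPI (by rw [hone, map_one])
  have hnorm : Algebra.norm K (b : L) = 1 := by
    apply (algebraMap K L).injective
    rw [Algebra.norm_eq_prod_automorphisms, map_one]
    have := congrArg (fun u : Lˣ => (u : L)) hb1
    simpa [Units.coe_prod] using this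
  obtain ⟨a, ha⟩ := groupCohomology.exists_div_of_norm_eq_one hgen hnorm
  refine ⟨a⁻¹, ?_⟩
  have hσ : σ • (x * principalIdeleIn hPI a⁻¹) = x * principalIdeleIn hPI a⁻¹ := by
    have hσx : σ • x = x * (principalIdeleIn hPI b)⁻¹ := by
      rw [eq_mul_inv_iff_mul_eq]
      exact hxb.symm
    rw [smul_mul', smul_principalIdeleIn, hσx, mul_assoc, ← map_inv, ← map_mul]
    congr 2
    ext
    have ha0 : (a : L) ≠ 0 := a.ne_zero
    have hσa0 : σ (a : L) ≠ 0 := (map_ne_zero σ).mpr ha0
    simp only [Units.val_mul, Units.val_inv_eq_inv_val, unitsSmul_coe, AlgEquiv.smul_def,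
      map_inv₀, ← ha]
    field_simp
  intro g
  have hstab : σ ∈ MulAction.stabilizer (L ≃ₐ[K] L) (x * principalIdeleIn hPI a⁻¹) := hσ
  obtain ⟨k, rfl⟩ := Subgroup.mem_zpowers_iff.1 (hgen g)
  exact (MulAction.stabilizer _ _).zpow_mem hstab k

end Cyclic

end Galois

end FirstIneq

end Fermat.Agent.CFT
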