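import Mathlib
import Fermat.Agent.CFT.Global.FirstIneqSplit

/-!
# Layer C, node C2c: `Ĥ⁰(G, C_L) ≅ J_K / Kˣ N J_L` for cyclic `L/K`

`L/K` a cyclic extension of number fields with generator `σ` of order `n`;
`P = smulPair σ n` on `Additive (ideleClass L)` (`D = σ - 1`, `N = 1 + σ + ⋯ + σ^(n-1)`).

* `toH0 : Additive (ideleGroup K) →+ P.H0`, surjective (`toH0_surjective`, Hilbert 90 + descent),
  with kernel `Kˣ · N J_L` (`toH0_eq_zero_iff`);
* `index_principal_sup_norm : (principalSubgroup K ⊔ ideleNormSubgroup K L).index = Nat.card P.H0`;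
* `subsingleton_H0_iff`, and **(c1)** `subsingleton_H0_of_split`: if almost all primes split
  completely then `Ĥ⁰(G, C_L) = 0`.
-/

set_option autoImplicit false
set_option linter.style.haveILetI false

noncomputable section

namespace Fermat.Agent.CFT

namespace FirstIneq

section Galois

variable {K L : Type} [Field K] [Field L] [Algebra K L] [FiniteDimensional K L]

section H0

variable (K L) in
/-- The map `J_K → C_L`. -/
def classMap : ideleGroup K →* ideleClass L :=
  (QuotientGroup.mk' (principalSubgroup L)).comp (ideleMap (algebraMap K L))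

omit [FiniteDimensional K L] in
theorem classMap_apply (y : ideleGroup K) :
    classMap K L y = (QuotientGroup.mk (ideleMap (algebraMap K L) y) : ideleClass L) := rfl

omit [FiniteDimensional K L] in
theorem smul_classMap (g : L ≃ₐ[K] L) (y : ideleGroup K) :
    g • classMap K L y = classMap K L y := by
  rw [classMap_apply, ideleClass_smul_mk, smul_ideleMap_algebraMap]

omit [FiniteDimensional K L] in
theorem classMap_principalIdeleIn (hK : PrincipalIsIdele K) (hL : PrincipalIsIdele L) (a : Kˣ) :
    classMap K L (principalIdeleIn hK a) = 1 := by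
  rw [classMap_apply, ideleMap_principalIdeleIn hK hL, mk_principalIdeleIn]

theorem prod_smul_mk (z : ideleGroup L) :
    ∏ g : L ≃ₐ[K] L, g • (QuotientGroup.mk z : ideleClass L) =
      (QuotientGroup.mk (∏ g : L ≃ₐ[K] L, g • z) : ideleClass L) := by
  have := map_prod (QuotientGroup.mk' (principalSubgroup L)) (fun g : L ≃ₐ[K] L => g • z)
    Finset.univ
  rw [QuotientGroup.mk'_apply] at this
  rw [this]
  rfl

variable {σ : L ≃ₐ[K] L} {n : ℕ} (hσ : σ ^ n = 1)

omit [FiniteDimensional K L] in
theorem D_classMap (y : ideleGroup K) :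
    (smulPair (M := ideleClass L) σ n hσ).D (Additive.ofMul (classMap K L y)) = 0 := by
  rw [smulPair_D_apply]
  show Additive.ofMul (σ • classMap K L y / classMap K L y) = 0
  rw [smul_classMap, div_self']
  rfl

/-- The map `J_K → Ĥ⁰(C_L)`. -/
def toH0 : Additive (ideleGroup K) →+ (smulPair (M := ideleClass L) σ n hσ).H0 :=
  (QuotientAddGroup.mk' _).comp
    ((MonoidHom.toAdditive (classMap K L)).codRestrict
      (smulPair (M := ideleClass L) σ n hσ).D.ker
      (fun y => AddMonoidHom.mem_ker.mpr (D_classMap hσ y.toMul)))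

omit [FiniteDimensional K L] in
theorem toH0_apply (y : ideleGroup K) :
    toH0 hσ (Additive.ofMul y) = (smulPair (M := ideleClass L) σ n hσ).mk0
      (Additive.ofMul (classMap K L y)) (D_classMap hσ y) := rfl

variable [NumberField L] [IsGalois K L]

theorem toH0_surjective (hL : PrincipalIsIdele L) (hgen : ∀ g, g ∈ Subgroup.zpowers σ) :
    Function.Surjective (toH0 (K := K) hσ) := by
  intro c
  obtain ⟨a, ha, hc⟩ := (smulPair (M := ideleClass L) σ n hσ).mk0_surjective c
  obtain ⟨x, hx⟩ := QuotientGroup.mk_surjective a.toMul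
  have hinv : σ • (QuotientGroup.mk x : ideleClass L) = QuotientGroup.mk x := by
    rw [smulPair_D_apply] at ha
    have h1 : σ • a.toMul / a.toMul = 1 := ha
    rw [hx]
    exact div_eq_one.1 h1
  obtain ⟨c₁, hc₁⟩ := exists_mul_principal_invariant hL hgen x hinv
  haveI : Algebra.IsAlgebraic K L := Algebra.IsAlgebraic.of_finite K L
  obtain ⟨y, hy⟩ := exists_ideleMap_eq_of_smul_eq (algebraMap K L) (H := L ≃ₐ[K] L)
    (fun q f hf => exists_semiLocalMap_eq_of_invariant f hf)
    (fun q => resEmb_surjective (q := (q : ℕ)) (K := K) (L := L)) hc₁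
  refine ⟨Additive.ofMul y, ?_⟩
  rw [toH0_apply, ← hc]
  have hcl : classMap K L y = a.toMul := by
    rw [classMap_apply, hy, ← hx]
    refine QuotientGroup.eq.2 ?_
    rw [mul_inv_rev, inv_mul_cancel_right]
    exact inv_mem (principalIdeleIn_mem hL c₁)
  exact DNPair.mk0_congr _ (congrArg Additive.ofMul hcl) (D_classMap hσ y)

theorem toH0_eq_zero_iff (hK : PrincipalIsIdele K) (hL : PrincipalIsIdele L)
    (hgen : ∀ g, g ∈ Subgroup.zpowers σ) (hord : orderOf σ = n) (y : ideleGroup K) :
    toH0 hσ (Additive.ofMul y) = 0 ↔ y ∈ principalSubgroup K ⊔ ideleNormSubgroup K L := by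
  rw [toH0_apply, DNPair.mk0_eq_zero_iff]
  have hN : ∀ z : ideleGroup L, (smulPair (M := ideleClass L) σ n hσ).N
      (Additive.ofMul (QuotientGroup.mk z : ideleClass L)) =
      Additive.ofMul (QuotientGroup.mk (∏ g : L ≃ₐ[K] L, g • z) : ideleClass L) := by
    intro z
    have h5 : ∏ g : L ≃ₐ[K] L, g • (QuotientGroup.mk z : ideleClass L) =
        ∏ k ∈ Finset.range (orderOf σ), σ ^ k • (QuotientGroup.mk z : ideleClass L) :=
      prod_univ_smul_eq_prod_range hgen _
    rw [smulPair_N_apply, ← prod_smul_mk, h5, hord]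
    rfl
  constructor
  · rintro ⟨b, hb⟩
    obtain ⟨z, hz⟩ := QuotientGroup.mk_surjective b.toMul
    have hb' : (QuotientGroup.mk (∏ g : L ≃ₐ[K] L, g • z) : ideleClass L) =
        QuotientGroup.mk (ideleMap (algebraMap K L) y) := by
      have := hN z
      rw [hz] at this
      have h2 : Additive.ofMul (QuotientGroup.mk (∏ g : L ≃ₐ[K] L, g • z) : ideleClass L) =
          Additive.ofMul (classMap K L y) := by
        rw [← this]
        exact hb
      exact Additive.ofMul.injective h2
    rw [QuotientGroup.eq] at hb'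
    obtain ⟨c, hc⟩ := exists_eq_principalIdeleIn hL hb'
    -- `c` is fixed by the Galois group
    have hfix : ∀ g : L ≃ₐ[K] L, g (c : L) = c := by
      intro g
      have h3 : g • principalIdeleIn hL c = principalIdeleIn hL c := by
        rw [← hc, smul_mul', smul_inv', smul_ideleMap_algebraMap]
        congr 2
        have := smul_smulNormHom g z
        rwa [smulNormHom_apply] at this
      rw [smul_principalIdeleIn] at h3
      have h4 := principalIdeleIn_injective hL h3
      have := congrArg (fun u : Lˣ => (u : L)) h4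
      exact this
    obtain ⟨c', hc'⟩ := (IsGalois.mem_range_algebraMap_iff_fixed (F := K) (c : L)).2 hfix
    have hc'0 : c' ≠ 0 := by
      rintro rfl
      rw [map_zero] at hc'
      exact c.ne_zero hc'.symm
    have hcu : Units.map (algebraMap K L : K →* L) (Units.mk0 c' hc'0) = c :=
      Units.ext hc'
    have hy : y = principalIdeleIn hK (Units.mk0 c' hc'0) *
        (y / principalIdeleIn hK (Units.mk0 c' hc'0)) := by
      rw [mul_div_cancel]
    rw [hy]
    refine Subgroup.mul_mem_sup (principalIdeleIn_mem hK _) (mem_ideleNormSubgroup.2 ⟨z, ?_⟩)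
    rw [map_div, ideleMap_principalIdeleIn hK hL, hcu, ← hc]
    rw [div_eq_mul_inv, mul_inv_rev, inv_inv, mul_inv_cancel_left]
  · intro hy
    obtain ⟨p, hp, m, hm, rfl⟩ := Subgroup.mem_sup.1 hy
    obtain ⟨a, rfl⟩ := exists_eq_principalIdeleIn hK hp
    obtain ⟨z, hz⟩ := mem_ideleNormSubgroup.1 hm
    refine ⟨Additive.ofMul (QuotientGroup.mk z : ideleClass L), ?_⟩
    have hcl : classMap K L (principalIdeleIn hK a * m) =
        QuotientGroup.mk (∏ g : L ≃ₐ[K] L, g • z) := by
      rw [classMap_apply]
      refine QuotientGroup.eq.2 ?_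
      rw [hz, map_mul, mul_comm (ideleMap (algebraMap K L) (principalIdeleIn hK a)), mul_inv_rev,
        inv_mul_cancel_right, ideleMap_principalIdeleIn hK hL]
      exact inv_mem (principalIdeleIn_mem hL _)
    rw [hN z, hcl]

set_option synthInstance.maxHeartbeats 200000 in
/-- `Ĥ⁰(G, C_L) ≅ J_K / Kˣ N J_L` for a cyclic extension: equality of cardinalities. -/
theorem index_principal_sup_norm (hK : PrincipalIsIdele K) (hL : PrincipalIsIdele L)
    (hgen : ∀ g, g ∈ Subgroup.zpowers σ) (hord : orderOf σ = n) :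
    (principalSubgroup K ⊔ ideleNormSubgroup K L).index =
      Nat.card (smulPair (M := ideleClass L) σ n hσ).H0 := by
  have hker : (toH0 (K := K) hσ).ker =
      Subgroup.toAddSubgroup (principalSubgroup K ⊔ ideleNormSubgroup K L) := by
    ext y
    rw [AddMonoidHom.mem_ker]
    exact toH0_eq_zero_iff hσ hK hL hgen hord y.toMul
  rw [← Subgroup.index_toAddSubgroup, ← hker, AddSubgroup.index_ker,
    AddMonoidHom.range_eq_top.2 (toH0_surjective hσ hL hgen), AddSubgroup.card_top]

/-- `Ĥ⁰(G, C_L) = 0` iff `J_K = Kˣ N J_L`. -/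
theorem subsingleton_H0_iff (hK : PrincipalIsIdele K) (hL : PrincipalIsIdele L)
    (hgen : ∀ g, g ∈ Subgroup.zpowers σ) (hord : orderOf σ = n) :
    Subsingleton (smulPair (M := ideleClass L) σ n hσ).H0 ↔
      principalSubgroup K ⊔ ideleNormSubgroup K L = ⊤ := by
  constructor
  · intro h
    rw [eq_top_iff]
    intro y _
    rw [← toH0_eq_zero_iff hσ hK hL hgen hord]
    exact Subsingleton.elim _ _
  · intro h
    refine subsingleton_of_forall_eq 0 fun c => ?_
    obtain ⟨y, hy⟩ := toH0_surjective (K := K) hσ hL hgen c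
    have h1 : toH0 hσ (Additive.ofMul y.toMul) = 0 := by
      rw [toH0_eq_zero_iff hσ hK hL hgen hord, h]
      exact Subgroup.mem_top _
    rw [← hy]
    exact h1

/-- **(c1)** If all decomposition groups of the cyclic extension `L/K` outside a finite set `S`
are trivial, then `Ĥ⁰(G, C_L) = 0`. -/
theorem subsingleton_H0_of_split (S : Finset Nat.Primes)
    (hsplit : ∀ q : Nat.Primes, q ∉ S → ∀ (τ' : LocalEmb (q : ℕ) L) (g : L ≃ₐ[K] L),
      (∃ γ : Gq (q : ℕ), τ'.comp (g : L →+* L) = γ • τ') → g = 1)
    (hWA : WeakApprox K) (hK : PrincipalIsIdele K) (hL : PrincipalIsIdele L)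
    (hgen : ∀ g, g ∈ Subgroup.zpowers σ) (hord : orderOf σ = n) :
    Subsingleton (smulPair (M := ideleClass L) σ n hσ).H0 :=
  (subsingleton_H0_iff hσ hK hL hgen hord).2
    (principal_sup_norm_eq_top_of_split S hsplit hWA hK)

end H0

end Galois

end FirstIneq

end Fermat.Agent.CFT
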