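import Fermat.Agent.CFT.Global.SemiLocalIntegral

/-!
# Layer C / C1a: corollaries for the integral semi-local units

* `semiLocalIntegral_exists_norm_eq`: at an unramified prime every integral semi-local unit of `K`
  is the norm of an integral semi-local unit of `L` (shape of helper27's `hUnr`).
-/

set_option autoImplicit false
set_option linter.unusedSectionVars false

noncomputable section

namespace Fermat.Agent.CFT

variable {q : ℕ} [Fact q.Prime] (K : Type) [Field K] {L : Type} [Field L] [Algebra K L]
  [Normal K L] [FiniteDimensional K L]

/-- At an unramified prime every integral semi-local unit of `K` is the norm of an integral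
semi-local unit of `L`. -/
theorem semiLocalIntegral_exists_norm_eq [NumberField K] [NumberField L]
    [Fintype (L ≃ₐ[K] L)]
    (hunr : ∀ ω : LocalPlace q K, IsUnramAt K (placeLift K ω : LocalEmb q L)) :
    ∀ f ∈ semiLocalIntegral q K, ∃ g ∈ semiLocalIntegral q L,
      semiLocalMap (algebraMap K L) f = ∏ σ : L ≃ₐ[K] L, σ • g := by
  intro f hf
  obtain ⟨g, hg, h⟩ := semiLocalIntegral_normSurjOn K hunr (semiLocalMap (algebraMap K L) f)
    (semiLocalMap_mem_integral _ hf) (fun σ => smul_semiLocalMap_algebraMap K σ f)
  exact ⟨g, hg, h.symm⟩

end Fermat.Agent.CFT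

end
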