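import Mathlib
import Fermat.Agent.CFT.Global.ClassFormationFields
import Fermat.Agent.CFT.CyclicPairCoh
import Fermat.Agent.CFT.Global.FirstIneqH0
import Fermat.Agent.CFT.Global.IdeleDict.DictUnram

/-!
# CFT, Layer C (C4-inst, part 2): the cyclic layers from the two inequalities

For a Galois extension `L/K` of number fields of prime degree `p` with generator `σ`, and the
Herbrand pair `P = smulPair σ p` on `C_L`:

* the **second inequality** `[J_K : Kˣ N J_L] ≤ p` (`IdeleDict/DictUnram.lean`, unconditional);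
* `Ĥ⁰(P) ≅ J_K / Kˣ N J_L` (`FirstIneqH0.lean`);
* the **first inequality** in Herbrand form `h(C_L) = |Ĥ⁰(P)| / |Ĥ¹(P)| = p`
  (hypothesis `HerbrandIdeleClassEq p`, node C2c; it holds for odd `p`)

give `Ĥ¹(P) = 0` and `|Ĥ⁰(P)| = p`, hence `H¹(Gal(L/K), C_L) = 0` and `|H²(Gal(L/K), C_L)| = p`
(`CyclicPairCoh.lean`): the inputs `CyclicLayerH1 p`, `CyclicLayerH2 p` of
`ClassFormationFields.lean`.
-/

set_option autoImplicit false
set_option maxSynthPendingDepth 2

open CategoryTheory Limits groupCohomology Rep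

namespace Fermat.Agent.CFT

/-- **First inequality, Herbrand form** (node C2c): `h(C_L) = p` for every cyclic extension `L/K`
of number fields of degree `p`. -/
def HerbrandIdeleClassEq (p : ℕ) : Prop :=
  ∀ (K L : Type) [Field K] [Field L] [NumberField K] [NumberField L] [Algebra K L]
    [IsGalois K L] (σ : L ≃ₐ[K] L) (hσ : σ ^ p = 1), Module.finrank K L = p →
    (∀ g : L ≃ₐ[K] L, g ∈ Subgroup.zpowers σ) →
      (smulPair (M := ideleClass L) σ p hσ).IsHFinite ∧
        (smulPair (M := ideleClass L) σ p hσ).herbrand = p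

section Cyclic

variable {p : ℕ} [hp : Fact p.Prime]
variable {K L : Type} [Field K] [Field L] [NumberField K] [NumberField L] [Algebra K L]
  [IsGalois K L]

/-- The two inequalities give `Ĥ¹(C_L) = 0` and `|Ĥ⁰(C_L)| = p`. -/
theorem subsingleton_H1_and_card_H0_smulPair_ideleClass (h : HerbrandIdeleClassEq p)
    (σ : L ≃ₐ[K] L) (hσ : σ ^ p = 1) (hdeg : Module.finrank K L = p)
    (hgen : ∀ g : L ≃ₐ[K] L, g ∈ Subgroup.zpowers σ) (hord : orderOf σ = p) :
    Subsingleton (smulPair (M := ideleClass L) σ p hσ).H1 ∧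
      Finite (smulPair (M := ideleClass L) σ p hσ).H0 ∧
        Nat.card (smulPair (M := ideleClass L) σ p hσ).H0 = p := by
  obtain ⟨hfin, hh⟩ := h K L σ hσ hdeg hgen
  have hidx := FirstIneq.index_principal_sup_norm hσ
    (fun a => IdeleDict.principalIdele_mem_ideleGroup a)
    (fun a => IdeleDict.principalIdele_mem_ideleGroup a) hgen hord
  obtain ⟨-, hle⟩ := IdeleDict.index_principal_sup_ideleNorm_le_prime (K := K) (L := L) hdeg
  rw [hidx] at hle
  have h1pos := hfin.card_H1_pos
  have h1 : (Nat.card (smulPair (M := ideleClass L) σ p hσ).H1 : ℚ) ≠ 0 := by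
    exact_mod_cast h1pos.ne'
  unfold DNPair.herbrand at hh
  rw [div_eq_iff h1] at hh
  have hh' : Nat.card (smulPair (M := ideleClass L) σ p hσ).H0 =
      p * Nat.card (smulPair (M := ideleClass L) σ p hσ).H1 := by exact_mod_cast hh
  have hc1 : Nat.card (smulPair (M := ideleClass L) σ p hσ).H1 = 1 := by
    have h2 : p * Nat.card (smulPair (M := ideleClass L) σ p hσ).H1 ≤ p * 1 := by
      rw [← hh', mul_one]
      exact hle
    have h3 := Nat.le_of_mul_le_mul_left h2 hp.out.pos
    omega
  refine ⟨?_, hfin.1, by rw [hh', hc1, mul_one]⟩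
  have := hfin.2
  exact (Nat.card_eq_one_iff_unique.1 hc1).1

end Cyclic

/-- **The cyclic layers have trivial `H¹`**, from the two inequalities. -/
theorem cyclicLayerH1_of_herbrand {p : ℕ} [hp : Fact p.Prime] (h : HerbrandIdeleClassEq p) :
    CyclicLayerH1 p := by
  intro K L _ _ _ _ _ _ hcard
  have hcyc : IsCyclic (L ≃ₐ[K] L) := isCyclic_of_prime_card hcard
  obtain ⟨σ, hgen⟩ := IsCyclic.exists_generator (α := L ≃ₐ[K] L)
  have hord : orderOf σ = p := by
    rw [orderOf_eq_card_of_forall_mem_zpowers hgen, hcard]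
  have hσ : σ ^ p = 1 := by rw [← hord]; exact pow_orderOf_eq_one σ
  have hdeg : Module.finrank K L = p := by rw [← IsGalois.card_aut_eq_finrank, hcard]
  obtain ⟨hs, -, -⟩ := subsingleton_H1_and_card_H0_smulPair_ideleClass h σ hσ hdeg hgen hord
  exact isZero_H1_of_subsingleton_H1_smulPair hσ hgen hs

/-- **The cyclic layers have `|H²| = p`**, from the two inequalities. -/
theorem card_H2_ideleClass_eq_of_herbrand {p : ℕ} [hp : Fact p.Prime]
    (h : HerbrandIdeleClassEq p) (K L : Type) [Field K] [Field L] [NumberField K] [NumberField L]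
    [Algebra K L] [IsGalois K L] (hcard : Nat.card (L ≃ₐ[K] L) = p) :
    Finite (groupCohomology (ideleClassRep L (L ≃ₐ[K] L)) 2) ∧
      Nat.card (groupCohomology (ideleClassRep L (L ≃ₐ[K] L)) 2) = p := by
  have hcyc : IsCyclic (L ≃ₐ[K] L) := isCyclic_of_prime_card hcard
  obtain ⟨σ, hgen⟩ := IsCyclic.exists_generator (α := L ≃ₐ[K] L)
  have hord : orderOf σ = p := by
    rw [orderOf_eq_card_of_forall_mem_zpowers hgen, hcard]
  have hσ : σ ^ p = 1 := by rw [← hord]; exact pow_orderOf_eq_one σ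
  have hdeg : Module.finrank K L = p := by rw [← IsGalois.card_aut_eq_finrank, hcard]
  obtain ⟨-, hfin, hc0⟩ := subsingleton_H1_and_card_H0_smulPair_ideleClass h σ hσ hdeg hgen hord
  exact ⟨(finite_H2_iff_finite_H0_smulPair (M := ideleClass L) hσ hgen hord).2 hfin,
    (natCard_H2_eq_natCard_H0_smulPair (M := ideleClass L) hσ hgen hord).trans hc0⟩

/-- **The cyclic layers have `|H²| ≤ p`**, from the two inequalities. -/
theorem cyclicLayerH2_of_herbrand {p : ℕ} [hp : Fact p.Prime] (h : HerbrandIdeleClassEq p) :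
    CyclicLayerH2 p := by
  intro K L _ _ _ _ _ _ hcard
  obtain ⟨hfin, hc⟩ := card_H2_ideleClass_eq_of_herbrand h K L hcard
  exact ⟨hfin, hc.le⟩

end Fermat.Agent.CFT
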