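/-
S55 / Layer C (global CFT), node C2b part (H-A): **Herbrand quotient for a cyclic group of prime
order acting on a finitely generated abelian group**, in terms of ranks:
`h(A)^(p-1) * p^(rank A) = p^(p * rank A^G)`  (`herbrand_ofEnd_prime`).

Purely algebraic (no real lattices, no logarithmic embedding): `A ~ A^G × ker N` up to finite
groups; `h(A^G) = p^rank` (FGCount); on `ker N`, which is a module over `ℤ[ζ_p]`,
`[B : (1-σ)B]^(p-1) = [B : pB]` because `p = (1-ζ)^(p-1) * unit`.
-/
import Mathlib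
import Fermat.Agent.CFT.Herbrand
import Fermat.Agent.CFT.Global.FGCount
import Fermat.Agent.S14.UnitIndexAbstract

set_option autoImplicit false

namespace Fermat.Agent.CFT.HerbrandPrime

open Finset Polynomial

/-- `∏_{k=1}^{p-1} (1 - X^k) ≡ p` modulo the `p`-th cyclotomic polynomial. -/
theorem exists_prod_one_sub_pow_eq (p : ℕ) [hp : Fact p.Prime] :
    ∃ g : ℤ[X], ∏ k ∈ range (p - 1), (1 - (X : ℤ[X]) ^ (k + 1)) =
      C (p : ℤ) + (∑ k ∈ range p, X ^ k) * g := by
  obtain ⟨n, hn⟩ : ∃ n, p = n + 1 := ⟨p - 1, (Nat.sub_add_cancel hp.out.one_le).symm⟩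
  have hμ : IsPrimitiveRoot (Complex.exp (2 * Real.pi * Complex.I / p)) p :=
    Complex.isPrimitiveRoot_exp p hp.out.ne_zero
  set μ : ℂ := Complex.exp (2 * Real.pi * Complex.I / p) with hμdef
  set F : ℤ[X] := ∏ k ∈ range (p - 1), (1 - (X : ℤ[X]) ^ (k + 1)) - C (p : ℤ) with hF
  have hFμ : aeval μ F = 0 := by
    have h1 : IsPrimitiveRoot μ (n + 1) := hn ▸ hμ
    have h2 := h1.prod_one_sub_pow_eq_order
    have hn' : p - 1 = n := by omega
    simp only [hF, map_sub, map_prod, map_one, map_pow, aeval_X, aeval_C, hn']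
    rw [h2, hn]
    simp
  have hint : IsIntegral ℤ μ := hμ.isIntegral hp.out.pos
  have hdvd : minpoly ℤ μ ∣ F := minpoly.isIntegrallyClosed_dvd hint hFμ
  rw [← Polynomial.cyclotomic_eq_minpoly hμ hp.out.pos, Polynomial.cyclotomic_prime] at hdvd
  obtain ⟨g, hg⟩ := hdvd
  exact ⟨g, by rw [← hg, hF]; ring⟩


/-- `p = (1 - X)^(p-1) * G - Φ_p * g` in `ℤ[X]`. -/
theorem exists_natCast_eq_one_sub_pow_mul (p : ℕ) [hp : Fact p.Prime] :
    ∃ G g : ℤ[X], C (p : ℤ) = (1 - X) ^ (p - 1) * G + (∑ k ∈ range p, X ^ k) * g := by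
  obtain ⟨g, hg⟩ := exists_prod_one_sub_pow_eq p
  refine ⟨∏ k ∈ range (p - 1), ∑ i ∈ range (k + 1), (X : ℤ[X]) ^ i, -g, ?_⟩
  have h1 : ∏ k ∈ range (p - 1), (1 - (X : ℤ[X]) ^ (k + 1)) =
      (1 - X) ^ (p - 1) * ∏ k ∈ range (p - 1), ∑ i ∈ range (k + 1), (X : ℤ[X]) ^ i := by
    have : ∀ k ∈ range (p - 1), (1 - (X : ℤ[X]) ^ (k + 1)) =
        (1 - X) * ∑ i ∈ range (k + 1), (X : ℤ[X]) ^ i := fun k _ => (mul_neg_geom_sum _ _).symm
    rw [prod_congr rfl this, prod_mul_distrib, prod_const, card_range]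
  rw [← h1, hg]
  ring

variable {C : Type*} [AddCommGroup C]

/-- Endomorphism identity: if `∑_{k<p} τ^k = 0` then `p = (1 - τ)^(p-1) ∘ G` for some `G`. -/
theorem exists_end_natCast_eq (τ : AddMonoid.End C) (p : ℕ) [hp : Fact p.Prime]
    (hN : ∑ k ∈ range p, τ ^ k = 0) :
    ∃ G : AddMonoid.End C, (p : AddMonoid.End C) = (1 - τ) ^ (p - 1) * G := by
  obtain ⟨G, g, h⟩ := exists_natCast_eq_one_sub_pow_mul p
  refine ⟨aeval τ G, ?_⟩
  have := congrArg (aeval τ) h
  simp only [map_add, map_mul, map_pow, map_sub, map_one, aeval_X, map_sum, hN, zero_mul,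
    add_zero] at this
  rw [← this]
  simp

/-- Endomorphism identity: if `∑_{k<p} τ^k = 0` then `(1 - τ)^(p-1) = p ∘ h` for some `h`. -/
theorem exists_end_one_sub_pow_eq (τ : AddMonoid.End C) (p : ℕ) [hp : Fact p.Prime]
    (hN : ∑ k ∈ range p, τ ^ k = 0) :
    ∃ h : AddMonoid.End C, (1 - τ) ^ (p - 1) = (p : AddMonoid.End C) * h := by
  obtain ⟨h, hh⟩ := Fermat.Agent.S14.UnitIndex.exists_poly_identity p
  refine ⟨aeval τ h, ?_⟩
  have := congrArg (aeval τ) hh
  simp only [map_add, map_mul, map_pow, map_sub, map_one, aeval_X, map_sum, hN, zero_add] at this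
  rw [this]
  simp


theorem end_natCast_apply' (n : ℕ) (x : C) : (n : AddMonoid.End C) x = n • x := rfl

/-- the range of an endomorphism, as an additive subgroup -/
abbrev endRange (f : AddMonoid.End C) : AddSubgroup C := AddMonoidHom.range (f : C →+ C)

theorem endRange_mul (f g : AddMonoid.End C) : endRange (f * g) = (endRange g).map (f : C →+ C) := by
  ext x
  simp only [endRange, AddMonoidHom.mem_range, AddSubgroup.mem_map]
  constructor
  · rintro ⟨y, rfl⟩
    exact ⟨g y, ⟨y, rfl⟩, rfl⟩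
  · rintro ⟨_, ⟨y, rfl⟩, rfl⟩
    exact ⟨y, rfl⟩

theorem endRange_mul_le (f g : AddMonoid.End C) : endRange (f * g) ≤ endRange f := by
  rintro x ⟨y, rfl⟩
  exact ⟨g y, rfl⟩

theorem index_endRange_pow (f : AddMonoid.End C) (hf : Function.Injective f) (k : ℕ) :
    (endRange (f ^ k)).index = (endRange f).index ^ k := by
  induction k with
  | zero =>
    have : endRange (f ^ 0) = ⊤ := by
      rw [pow_zero]
      exact AddMonoidHom.range_eq_top.mpr (fun x => ⟨x, rfl⟩)
    rw [this, pow_zero, AddSubgroup.index_top]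
  | succ k ih =>
    rw [pow_succ', endRange_mul, AddSubgroup.index_map_of_injective _ hf, ih, pow_succ]

theorem end_pow_apply_of_fixed (τ : AddMonoid.End C) {x : C} (hτx : τ x = x) (k : ℕ) :
    (τ ^ k) x = x := by
  induction k with
  | zero => rfl
  | succ k ih =>
    rw [pow_succ]
    change (τ ^ k) (τ x) = x
    rw [hτx, ih]

theorem injective_one_sub [Module.IsTorsionFree ℤ C]
    (τ : AddMonoid.End C) (p : ℕ) [hp : Fact p.Prime] (hN : ∑ k ∈ range p, τ ^ k = 0) :
    Function.Injective (1 - τ : AddMonoid.End C) := by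
  rw [injective_iff_map_eq_zero]
  intro x hx
  have hτx : τ x = x := by
    have : x - τ x = 0 := hx
    exact (sub_eq_zero.mp this).symm
  have h0 : (∑ k ∈ range p, τ ^ k) x = 0 := by rw [hN]; rfl
  rw [DNPair.end_sum_apply] at h0
  simp only [end_pow_apply_of_fixed τ hτx, sum_const, card_range] at h0
  have h1 : (p : ℤ) • x = 0 := by rwa [natCast_zsmul]
  exact (smul_eq_zero.mp h1).resolve_left (by exact_mod_cast hp.out.ne_zero)

/-- **Key count**: on a finitely generated torsion-free abelian group with an endomorphism `τ`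
such that `1 + τ + ⋯ + τ^(p-1) = 0`, we have `[C : (1 - τ) C]^(p-1) = p^(rank C)`. -/
theorem index_endRange_one_sub_pow [Module.Finite ℤ C] [Module.IsTorsionFree ℤ C]
    (τ : AddMonoid.End C) (p : ℕ) [hp : Fact p.Prime] (hN : ∑ k ∈ range p, τ ^ k = 0) :
    (endRange (1 - τ)).index ^ (p - 1) = p ^ Module.finrank ℤ C := by
  have hinj := injective_one_sub τ p hN
  rw [← index_endRange_pow _ hinj]
  have hrange : endRange ((1 - τ) ^ (p - 1)) = endRange (p : AddMonoid.End C) := by
    obtain ⟨G, hG⟩ := exists_end_natCast_eq τ p hN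
    obtain ⟨h, hh⟩ := exists_end_one_sub_pow_eq τ p hN
    apply le_antisymm
    · rw [hh]; exact endRange_mul_le _ _
    · rw [hG]; exact endRange_mul_le _ _
  rw [hrange]
  have := FGCount.index_range_nsmul_eq (A := C) p hp.out.ne_zero
  have hker : (nsmulAddMonoidHom p : C →+ C).ker = ⊥ := by
    ext x
    rw [AddMonoidHom.mem_ker, AddSubgroup.mem_bot, nsmulAddMonoidHom_apply]
    constructor
    · intro h
      have h1 : (p : ℤ) • x = 0 := by rwa [natCast_zsmul]
      exact (smul_eq_zero.mp h1).resolve_left (by exact_mod_cast hp.out.ne_zero)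
    · rintro rfl; simp
  rw [hker] at this
  simp only [AddSubgroup.mem_bot, Nat.card_unique, mul_one] at this
  exact this


open DNPair

theorem card_H0_of_ker_eq_top (Q : DNPair C) (h : Q.D.ker = ⊤) :
    Nat.card Q.H0 = Q.N.range.index := by
  change Nat.card (Q.D.ker ⧸ (Q.N.range.addSubgroupOf Q.D.ker)) = _
  rw [← AddSubgroup.index_eq_card, ← AddSubgroup.relIndex, h, AddSubgroup.relIndex_top_right]

theorem card_H0_of_ker_eq_bot (Q : DNPair C) (h : Q.D.ker = ⊥) :
    Nat.card Q.H0 = 1 := by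
  have : Subsingleton Q.D.ker := by rw [h]; infer_instance
  have : Subsingleton Q.H0 :=
    (QuotientAddGroup.mk_surjective (s := Q.N.range.addSubgroupOf Q.D.ker)).subsingleton
  exact Nat.card_unique

/-- Torsion-free case of the computation on the kernel of the norm. -/
theorem herbrand_of_norm_zero_torsionFree [Module.Finite ℤ C] [Module.IsTorsionFree ℤ C]
    (Q : DNPair C) (τ : AddMonoid.End C) (p : ℕ) [hp : Fact p.Prime]
    (hτ : ∑ k ∈ range p, τ ^ k = 0) (hD : ∀ x, Q.D x = τ x - x) (hN : ∀ x, Q.N x = 0) :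
    Q.IsHFinite ∧ Q.herbrand ^ (p - 1) * (p : ℚ) ^ Module.finrank ℤ C = 1 := by
  have hinj := injective_one_sub τ p hτ
  have hcount := index_endRange_one_sub_pow τ p hτ
  have hkerD : Q.D.ker = ⊥ := by
    ext x
    rw [AddMonoidHom.mem_ker, AddSubgroup.mem_bot, hD]
    constructor
    · intro h
      apply hinj
      change x - τ x = (1 - τ : AddMonoid.End C) 0
      rw [map_zero, ← neg_sub, h, neg_zero]
    · rintro rfl; simp
  have hkerN : Q.swap.D.ker = ⊤ := by
    ext x
    simp only [swap_D, AddMonoidHom.mem_ker, hN, AddSubgroup.mem_top]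
  have hrange : Q.swap.N.range = endRange (1 - τ) := by
    ext x
    simp only [swap_N, endRange, AddMonoidHom.mem_range]
    constructor
    · rintro ⟨y, rfl⟩
      refine ⟨-y, ?_⟩
      rw [hD]
      change -y - τ (-y) = _
      rw [map_neg]; abel
    · rintro ⟨y, rfl⟩
      refine ⟨-y, ?_⟩
      rw [hD]
      change _ = y - τ y
      rw [map_neg]; abel
  have h0 : Nat.card Q.H0 = 1 := card_H0_of_ker_eq_bot Q hkerD
  have h1 : Nat.card Q.H1 = (endRange (1 - τ)).index := by
    change Nat.card Q.swap.H0 = _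
    rw [card_H0_of_ker_eq_top Q.swap hkerN, hrange]
  have hidx : (endRange (1 - τ)).index ≠ 0 := by
    intro h
    rw [h, zero_pow (Nat.sub_ne_zero_of_lt hp.out.one_lt)] at hcount
    exact (pow_ne_zero _ hp.out.ne_zero) hcount.symm
  refine ⟨⟨?_, ?_⟩, ?_⟩
  · apply Nat.finite_of_card_ne_zero; rw [h0]; exact one_ne_zero
  · apply Nat.finite_of_card_ne_zero; rw [h1]; exact hidx
  · unfold herbrand
    rw [h0, h1, Nat.cast_one, one_div, inv_pow]
    have : ((endRange (1 - τ)).index : ℚ) ^ (p - 1) = (p : ℚ) ^ Module.finrank ℤ C := by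
      exact_mod_cast hcount
    rw [this, inv_mul_cancel₀]
    exact pow_ne_zero _ (by exact_mod_cast hp.out.ne_zero)


theorem isTorsion_int_of_finite (M : Type*) [AddCommGroup M] [Finite M] : Module.IsTorsion ℤ M := by
  intro x
  have h := isOfFinAddOrder_of_finite x
  refine ⟨⟨(addOrderOf x : ℤ), mem_nonZeroDivisors_of_ne_zero
    (by exact_mod_cast (addOrderOf_pos_iff.mpr h).ne')⟩, ?_⟩
  show ((addOrderOf x : ℤ)) • x = 0
  rw [natCast_zsmul, addOrderOf_nsmul_eq_zero]

theorem finrank_eq_of_finite_quotient {M : Type*} [AddCommGroup M] [Module.Finite ℤ M]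
    (S : Submodule ℤ M) [Finite (M ⧸ S)] : Module.finrank ℤ S = Module.finrank ℤ M := by
  have h1 := Submodule.finrank_quotient_add_finrank S
  have h2 : Module.finrank ℤ (M ⧸ S) = 0 := (isTorsion_int_of_finite (M ⧸ S)).finrank_eq_zero
  omega

/-- For a finitely generated abelian group `C` there is `m > 0` such that `m C` is torsion-free
of finite index and of the same rank. -/
theorem exists_nsmul_range_torsionFree (C : Type*) [AddCommGroup C] [Module.Finite ℤ C] :
    ∃ m : ℕ, m ≠ 0 ∧ Module.IsTorsionFree ℤ (nsmulAddMonoidHom m : C →+ C).range ∧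
      Finite (C ⧸ (nsmulAddMonoidHom m : C →+ C).range) ∧
      Module.finrank ℤ (nsmulAddMonoidHom m : C →+ C).range = Module.finrank ℤ C := by
  have hTfin : Finite (Submodule.torsion ℤ C) :=
    Module.finite_of_fg_torsion _ (Submodule.torsion_isTorsion (R := ℤ) (M := C))
  set m := Nat.card (Submodule.torsion ℤ C) with hm
  have hm0 : m ≠ 0 := Nat.card_pos.ne'
  have hkill : ∀ x : C, x ∈ Submodule.torsion ℤ C → m • x = 0 := by
    intro x hx
    have h1 : m • (⟨x, hx⟩ : Submodule.torsion ℤ C) = 0 := by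
      rw [hm]
      exact card_nsmul_eq_zero'
    exact congrArg Subtype.val h1
  have hfin : Finite (C ⧸ (nsmulAddMonoidHom m : C →+ C).range) := by
    have h := FGCount.index_range_nsmul_eq (A := C) m hm0
    have hker : Finite (nsmulAddMonoidHom m : C →+ C).ker := by
      apply Finite.of_injective
        (fun x : (nsmulAddMonoidHom m : C →+ C).ker =>
          (⟨x.1, by
            rw [Submodule.mem_torsion_iff]
            refine ⟨⟨(m : ℤ), mem_nonZeroDivisors_of_ne_zero (by exact_mod_cast hm0)⟩, ?_⟩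
            show (m : ℤ) • x.1 = 0
            rw [natCast_zsmul]
            exact x.2⟩ : Submodule.torsion ℤ C))
      intro a b hab
      have : (a : C) = (b : C) := congrArg (fun z : Submodule.torsion ℤ C => (z : C)) hab
      exact Subtype.ext this
    have hidx : (nsmulAddMonoidHom m : C →+ C).range.index ≠ 0 := by
      rw [h]
      exact Nat.mul_ne_zero (pow_ne_zero _ hm0) Nat.card_pos.ne'
    have := AddSubgroup.finiteIndex_iff.mpr hidx
    exact AddSubgroup.finite_quotient_of_finiteIndex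
  refine ⟨m, hm0, ?_, hfin, ?_⟩
  · rw [Module.isTorsionFree_iff_smul_eq_zero]
    rintro r ⟨_, ⟨y, rfl⟩⟩ hr
    by_cases hr0 : r = 0
    · exact Or.inl hr0
    · right
      have h1 : r • (m • y) = 0 := congrArg Subtype.val hr
      have hy : y ∈ Submodule.torsion ℤ C := by
        rw [Submodule.mem_torsion_iff]
        refine ⟨⟨r * (m : ℤ), mem_nonZeroDivisors_of_ne_zero
          (mul_ne_zero hr0 (by exact_mod_cast hm0))⟩, ?_⟩
        show (r * (m : ℤ)) • y = 0
        rw [mul_smul, natCast_zsmul]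
        exact h1
      exact Subtype.ext (hkill y hy)
  · have : Finite (C ⧸ (nsmulAddMonoidHom m : C →+ C).range.toIntSubmodule) := hfin
    exact finrank_eq_of_finite_quotient (nsmulAddMonoidHom m : C →+ C).range.toIntSubmodule


/-- The computation on the kernel of the norm, general (finitely generated) case:
if `N = 0` and `D = τ - 1` with `1 + τ + ⋯ + τ^(p-1) = 0`, then `h^(p-1) * p^rank = 1`. -/
theorem herbrand_of_norm_zero [Module.Finite ℤ C]
    (Q : DNPair C) (τ : AddMonoid.End C) (p : ℕ) [hp : Fact p.Prime]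
    (hτ : ∑ k ∈ range p, τ ^ k = 0) (hD : ∀ x, Q.D x = τ x - x) (hN : ∀ x, Q.N x = 0) :
    Q.IsHFinite ∧ Q.herbrand ^ (p - 1) * (p : ℚ) ^ Module.finrank ℤ C = 1 := by
  obtain ⟨m, hm0, htf, hfin, hrank⟩ := exists_nsmul_range_torsionFree C
  set S : AddSubgroup C := (nsmulAddMonoidHom m : C →+ C).range with hS
  have hDS : ∀ a ∈ S, Q.D a ∈ S := by
    rintro _ ⟨y, rfl⟩
    exact ⟨Q.D y, by simp only [nsmulAddMonoidHom_apply, map_nsmul]⟩
  have hNS : ∀ a ∈ S, Q.N a ∈ S := by
    rintro _ ⟨y, rfl⟩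
    exact ⟨Q.N y, by simp only [nsmulAddMonoidHom_apply, map_nsmul]⟩
  set QS := Q.restrict S hDS hNS with hQS
  let τS : AddMonoid.End S := (show AddMonoid.End S from QS.D) + 1
  have hcoe : ∀ x : S, ((τS x : S) : C) = τ (x : C) := by
    intro x
    change ((QS.D x + x : S) : C) = _
    rw [AddSubgroup.coe_add]
    change Q.D (x : C) + (x : C) = _
    rw [hD]; abel
  have hpow : ∀ (k : ℕ) (x : S), (((τS ^ k) x : S) : C) = (τ ^ k) (x : C) := by
    intro k
    induction k with
    | zero => intro x; rfl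
    | succ k ih =>
      intro x
      rw [pow_succ, pow_succ]
      change (((τS ^ k) (τS x) : S) : C) = (τ ^ k) (τ (x : C))
      rw [ih, hcoe]
  have hτS : ∑ k ∈ range p, τS ^ k = 0 := by
    refine DFunLike.ext _ _ (fun x => ?_)
    apply Subtype.ext
    rw [DNPair.end_sum_apply, AddSubgroup.val_finsetSum]
    simp only [hpow]
    rw [← DNPair.end_sum_apply, hτ]
    rfl
  have hDS' : ∀ x, QS.D x = τS x - x := by
    intro x
    change QS.D x = (QS.D x + x) - x
    rw [add_sub_cancel_right]
  have hNS' : ∀ x, QS.N x = 0 := fun x => Subtype.ext (hN x)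
  have hfinS : Module.Finite ℤ S := by
    have : IsNoetherian ℤ C := isNoetherian_of_isNoetherianRing_of_finite ℤ C
    exact Module.IsNoetherian.finite ℤ S.toIntSubmodule
  have key := herbrand_of_norm_zero_torsionFree QS τS p hτS hDS' hNS'
  have hQ := Q.isHFinite_of_restrict_of_finite_quotient S hDS hNS key.1
  refine ⟨hQ, ?_⟩
  have h2 := (Q.herbrand_restrict_of_finite_quotient S hDS hNS hQ).2
  rw [← h2, ← hrank]
  exact key.2


section Main

variable {A : Type*} [AddCommGroup A]

theorem ofEnd_N_apply_of_fixed (σ : AddMonoid.End A) (p : ℕ) (hσ : σ ^ p = 1) {x : A}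
    (hx : (ofEnd σ p hσ).D x = 0) : (ofEnd σ p hσ).N x = p • x := by
  have hσx : σ x = x := by
    rw [ofEnd_D_apply] at hx
    exact sub_eq_zero.mp hx
  rw [ofEnd_N_apply]
  simp only [end_pow_apply_of_fixed σ hσx, sum_const, card_range]

/-- **Herbrand quotient for a cyclic group of prime order `p`** acting on a finitely generated
abelian group `A`: `h(A)^(p-1) * p^(rank A) = p^(p * rank A^G)`. -/
theorem herbrand_ofEnd_prime [Module.Finite ℤ A] (σ : AddMonoid.End A) (p : ℕ)
    [hp : Fact p.Prime] (hσ : σ ^ p = 1) :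
    (ofEnd σ p hσ).IsHFinite ∧
      (ofEnd σ p hσ).herbrand ^ (p - 1) * (p : ℚ) ^ Module.finrank ℤ A =
        (p : ℚ) ^ (p * Module.finrank ℤ (ofEnd σ p hσ).D.ker) := by
  classical
  have hnoeth : IsNoetherian ℤ A := isNoetherian_of_isNoetherianRing_of_finite ℤ A
  set P := ofEnd σ p hσ with hPdef
  set F : AddSubgroup A := P.D.ker with hF
  set B : AddSubgroup A := P.N.ker with hB
  have hDF : ∀ a ∈ F, P.D a ∈ F := fun a ha => by
    rw [AddMonoidHom.mem_ker.mp ha]; exact F.zero_mem
  have hNF : ∀ a ∈ F, P.N a ∈ F := fun a _ => AddMonoidHom.mem_ker.mpr (P.D_N a)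
  have hDB : ∀ a ∈ B, P.D a ∈ B := fun a _ => AddMonoidHom.mem_ker.mpr (P.N_D a)
  have hNB : ∀ a ∈ B, P.N a ∈ B := fun a ha => by
    rw [AddMonoidHom.mem_ker.mp ha]; exact B.zero_mem
  set PF := P.restrict F hDF hNF with hPF
  set PB := P.restrict B hDB hNB with hPB
  have hfinF : Module.Finite ℤ F := Module.IsNoetherian.finite ℤ F.toIntSubmodule
  have hfinB : Module.Finite ℤ B := Module.IsNoetherian.finite ℤ B.toIntSubmodule
  -- Step 2: the fixed part
  let ιF : Hom PF (ofTrivial F p) :=
    { toFun := AddMonoidHom.id F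
      map_D := fun x => by
        apply Subtype.ext
        change P.D (x : A) = 0
        exact AddMonoidHom.mem_ker.mp x.2
      map_N := fun x => by
        apply Subtype.ext
        change P.N (x : A) = ((p • x : F) : A)
        rw [AddSubgroup.coe_nsmul]
        exact ofEnd_N_apply_of_fixed σ p hσ (AddMonoidHom.mem_ker.mp x.2) }
  have hF1 := FGCount.isHFinite_herbrand_ofTrivial_of_finite (A := F) p hp.out.ne_zero
  have hιF := herbrand_eq_of_bijective ιF Function.bijective_id
  have hPFfin : PF.IsHFinite := hιF.1.mpr hF1.1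
  have hPFh : PF.herbrand = (p : ℚ) ^ Module.finrank ℤ F := (hιF.2 hPFfin).trans hF1.2
  -- Step 3: the kernel of the norm
  let τB : AddMonoid.End B := (show AddMonoid.End B from PB.D) + 1
  have hcoe : ∀ x : B, ((τB x : B) : A) = σ (x : A) := by
    intro x
    change ((PB.D x + x : B) : A) = _
    rw [AddSubgroup.coe_add]
    change P.D (x : A) + (x : A) = _
    rw [ofEnd_D_apply]; abel
  have hpow : ∀ (k : ℕ) (x : B), (((τB ^ k) x : B) : A) = (σ ^ k) (x : A) := by
    intro k
    induction k with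
    | zero => intro x; rfl
    | succ k ih =>
      intro x
      rw [pow_succ, pow_succ]
      change (((τB ^ k) (τB x) : B) : A) = (σ ^ k) (σ (x : A))
      rw [ih, hcoe]
  have hτB : ∑ k ∈ range p, τB ^ k = 0 := by
    refine DFunLike.ext _ _ (fun x => ?_)
    apply Subtype.ext
    rw [DNPair.end_sum_apply, AddSubgroup.val_finsetSum]
    simp only [hpow]
    rw [← ofEnd_N_apply σ p hσ]
    exact AddMonoidHom.mem_ker.mp x.2
  have hDB' : ∀ x, PB.D x = τB x - x := by
    intro x
    change PB.D x = (PB.D x + x) - x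
    rw [add_sub_cancel_right]
  have hNB' : ∀ x, PB.N x = 0 := fun x => Subtype.ext (AddMonoidHom.mem_ker.mp x.2)
  have hB1 := herbrand_of_norm_zero PB τB p hτB hDB' hNB'
  -- Step 4: comparison `F × B → A`
  let f : Hom (PF.prod PB) P :=
    { toFun := F.subtype.coprod B.subtype
      map_D := fun x => by
        change ((PF.D x.1 : F) : A) + ((PB.D x.2 : B) : A) = P.D ((x.1 : A) + (x.2 : A))
        rw [map_add]; rfl
      map_N := fun x => by
        change ((PF.N x.1 : F) : A) + ((PB.N x.2 : B) : A) = P.N ((x.1 : A) + (x.2 : A))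
        rw [map_add]; rfl }
  have hTfin : Finite (Submodule.torsion ℤ A) :=
    Module.finite_of_fg_torsion _ (Submodule.torsion_isTorsion (R := ℤ) (M := A))
  have hker : Finite f.toFun.ker := by
    apply Finite.of_injective
      (fun x : f.toFun.ker =>
        (⟨((x : F × B).1 : A), by
          have hx : (((x : F × B).1 : A)) + (((x : F × B).2 : A)) = 0 :=
            AddMonoidHom.mem_ker.mp x.2
          have h1 : P.N ((x : F × B).1 : A) = p • ((x : F × B).1 : A) :=
            ofEnd_N_apply_of_fixed σ p hσ (AddMonoidHom.mem_ker.mp (x : F × B).1.2)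
          have h2 : P.N ((x : F × B).1 : A) = 0 := by
            have : ((x : F × B).1 : A) = -(((x : F × B).2 : A)) := eq_neg_of_add_eq_zero_left hx
            rw [this, map_neg, AddMonoidHom.mem_ker.mp (x : F × B).2.2, neg_zero]
          rw [Submodule.mem_torsion_iff]
          refine ⟨⟨(p : ℤ), mem_nonZeroDivisors_of_ne_zero (by exact_mod_cast hp.out.ne_zero)⟩, ?_⟩
          show (p : ℤ) • ((x : F × B).1 : A) = 0
          rw [natCast_zsmul, ← h1, h2]⟩ : Submodule.torsion ℤ A))
    intro a b hab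
    have h1 : ((a : F × B).1 : A) = ((b : F × B).1 : A) :=
      congrArg (fun z : Submodule.torsion ℤ A => (z : A)) hab
    have ha : (((a : F × B).1 : A)) + (((a : F × B).2 : A)) = 0 := AddMonoidHom.mem_ker.mp a.2
    have hb : (((b : F × B).1 : A)) + (((b : F × B).2 : A)) = 0 := AddMonoidHom.mem_ker.mp b.2
    have h2 : ((a : F × B).2 : A) = ((b : F × B).2 : A) := by
      rw [h1] at ha
      exact (neg_eq_of_add_eq_zero_right ha).symm.trans (neg_eq_of_add_eq_zero_right hb)
    exact Subtype.ext (Prod.ext (Subtype.ext h1) (Subtype.ext h2))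
  have hcoker : Finite (A ⧸ f.toFun.range) := by
    have hle : (nsmulAddMonoidHom p : A →+ A).range ≤ f.toFun.range := by
      rintro _ ⟨a, rfl⟩
      have hNa : P.N a ∈ F := AddMonoidHom.mem_ker.mpr (P.D_N a)
      have hrest : p • a - P.N a ∈ B := by
        rw [hB, AddMonoidHom.mem_ker, map_sub, map_nsmul,
          ofEnd_N_apply_of_fixed σ p hσ (P.D_N a), sub_self]
      refine ⟨(⟨P.N a, hNa⟩, ⟨p • a - P.N a, hrest⟩), ?_⟩
      change P.N a + (p • a - P.N a) = p • a
      abel
    have h := FGCount.index_range_nsmul_eq (A := A) p hp.out.ne_zero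
    have hkerp : Finite (nsmulAddMonoidHom p : A →+ A).ker := by
      apply Finite.of_injective
        (fun x : (nsmulAddMonoidHom p : A →+ A).ker =>
          (⟨x.1, by
            rw [Submodule.mem_torsion_iff]
            refine ⟨⟨(p : ℤ), mem_nonZeroDivisors_of_ne_zero
              (by exact_mod_cast hp.out.ne_zero)⟩, ?_⟩
            show (p : ℤ) • x.1 = 0
            rw [natCast_zsmul]
            exact x.2⟩ : Submodule.torsion ℤ A))
      intro a b hab
      have : (a : A) = (b : A) := congrArg (fun z : Submodule.torsion ℤ A => (z : A)) hab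
      exact Subtype.ext this
    have hidx : (nsmulAddMonoidHom p : A →+ A).range.index ≠ 0 := by
      rw [h]
      exact Nat.mul_ne_zero (pow_ne_zero _ hp.out.ne_zero) Nat.card_pos.ne'
    have hidx' : f.toFun.range.index ≠ 0 := fun h0 =>
      hidx (Nat.eq_zero_of_zero_dvd (h0 ▸ AddSubgroup.index_dvd_of_le hle))
    have := AddSubgroup.finiteIndex_iff.mpr hidx'
    exact AddSubgroup.finite_quotient_of_finiteIndex
  have hprodfin : (PF.prod PB).IsHFinite := isHFinite_prod PF PB hPFfin hB1.1
  have hf := herbrand_eq_of_finite_ker_coker f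
  have hPfin : P.IsHFinite := hf.1.mp hprodfin
  have hPh : P.herbrand = PF.herbrand * PB.herbrand := by
    rw [← hf.2 hprodfin, herbrand_prod PF PB hPFfin hB1.1]
  refine ⟨hPfin, ?_⟩
  -- Step 5: ranks
  have hrank : Module.finrank ℤ A = Module.finrank ℤ F + Module.finrank ℤ B := by
    have hH1 : Finite P.H1 := hPfin.2
    have hH1' : Finite (B ⧸ (P.D.range.addSubgroupOf B)) := hH1
    have hle : P.D.range ≤ B := by
      rintro _ ⟨a, rfl⟩
      exact AddMonoidHom.mem_ker.mpr (P.N_D a)
    have h1 : Module.finrank ℤ (P.D.range.addSubgroupOf B) = Module.finrank ℤ B := by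
      have : Finite (B ⧸ (P.D.range.addSubgroupOf B).toIntSubmodule) := hH1'
      exact finrank_eq_of_finite_quotient (P.D.range.addSubgroupOf B).toIntSubmodule
    have h2 : Module.finrank ℤ (P.D.range.addSubgroupOf B) = Module.finrank ℤ P.D.range :=
      (AddSubgroup.addSubgroupOfEquivOfLe hle).toIntLinearEquiv.finrank_eq
    have h3 := Submodule.finrank_quotient_add_finrank (LinearMap.ker P.D.toIntLinearMap)
    have h4 : Module.finrank ℤ (A ⧸ LinearMap.ker P.D.toIntLinearMap) =
        Module.finrank ℤ P.D.range :=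
      LinearEquiv.finrank_eq (P.D.toIntLinearMap.quotKerEquivRange)
    have h5 : Module.finrank ℤ (LinearMap.ker P.D.toIntLinearMap) = Module.finrank ℤ F := rfl
    omega
  have hpne : (p : ℚ) ≠ 0 := by exact_mod_cast hp.out.ne_zero
  have hB2 := hB1.2
  rw [hPh, hPFh, hrank, mul_pow, ← pow_mul, pow_add]
  have : (p : ℚ) ^ (p * Module.finrank ℤ F) =
      (p : ℚ) ^ (Module.finrank ℤ F * (p - 1)) * (p : ℚ) ^ Module.finrank ℤ F := by
    rw [← pow_add]
    congr 1
    have := Nat.sub_add_cancel hp.out.one_le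
    nlinarith [this]
  rw [this]
  have e : ((p : ℚ) ^ (Module.finrank ℤ F * (p - 1)) * PB.herbrand ^ (p - 1)) *
      ((p : ℚ) ^ Module.finrank ℤ F * (p : ℚ) ^ Module.finrank ℤ B) =
      ((p : ℚ) ^ (Module.finrank ℤ F * (p - 1)) * (p : ℚ) ^ Module.finrank ℤ F) *
        (PB.herbrand ^ (p - 1) * (p : ℚ) ^ Module.finrank ℤ B) := by ring
  rw [e, hB2, mul_one]

end Main

end Fermat.Agent.CFT.HerbrandPrime
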