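/-
S55 / Layer C (global CFT), node C2b: **Herbrand quotient of the `T`-units** in a cyclic extension
`L/K` of number fields of odd prime degree `p`:
`h(U_{L,T}) = (∏_{v ∈ T} n_v) / p`  (`herbrand_sUnits`, `herbrand_sUnits_prod`).

Route (no logarithmic embedding): `HerbrandPrime.herbrand_ofEnd_prime` reduces to the ranks of
`U_{L,T}` and of its Galois invariants `U_{K,T}`, which are given by the `S`-unit theorem
(`SUnits.lean`); infinite places split completely because `p` is odd.
-/
import Mathlib
import Fermat.Agent.CFT.Global.SUnits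
import Fermat.Agent.CFT.Global.HerbrandPrime

set_option autoImplicit false
set_option linter.unusedSectionVars false

open IsDedekindDomain NumberField

namespace Fermat.Agent.CFT.HerbrandSUnits

section Comap

variable {R : Type*} [CommRing R] [IsDedekindDomain R] {K : Type*} [Field K] [Algebra R K]
  [IsFractionRing R K]

theorem comap_asIdeal_pow (e : R ≃+* R) (v : HeightOneSpectrum R) (n : ℕ) :
    (HeightOneSpectrum.comap (e : R →+* R) e.surjective v).asIdeal ^ n =
      (v.asIdeal ^ n).comap (e : R →+* R) := by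
  rw [HeightOneSpectrum.comap_asIdeal, Ideal.comap_coe, Ideal.comap_coe, ← Ideal.map_symm,
    ← Ideal.map_symm, Ideal.map_pow]

/-- Integer valuations under pull-back along a ring automorphism. -/
theorem intValuation_comap (e : R ≃+* R) (v : HeightOneSpectrum R) (r : R) :
    (HeightOneSpectrum.comap (e : R →+* R) e.surjective v).intValuation r =
      v.intValuation (e r) := by
  by_cases hr : r = 0
  · subst hr; simp
  have her : e r ≠ 0 := fun h => hr (e.injective (h.trans (map_zero e).symm))
  set v' := HeightOneSpectrum.comap (e : R →+* R) e.surjective v with hv'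
  have key : ∀ n : ℕ, v'.intValuation r ≤ WithZero.exp (-(n : ℤ)) ↔
      v.intValuation (e r) ≤ WithZero.exp (-(n : ℤ)) := by
    intro n
    rw [v'.intValuation_le_pow_iff_mem, v.intValuation_le_pow_iff_mem, hv',
      comap_asIdeal_pow, Ideal.mem_comap]
    rfl
  rw [v'.intValuation_if_neg hr, v.intValuation_if_neg her] at key ⊢
  set a := (Associates.mk v'.asIdeal).count (Associates.mk (Ideal.span {r})).factors
  set b := (Associates.mk v.asIdeal).count (Associates.mk (Ideal.span {e r})).factors
  have h1 := (key a).mp le_rfl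
  have h2 := (key b).mpr le_rfl
  rw [WithZero.exp_le_exp] at h1 h2
  congr 1
  omega

/-- Valuations under pull-back along a ring automorphism `e` of `R` extending to `ẽ` on `K`. -/
theorem valuation_comap (e : R ≃+* R) (e' : K ≃+* K)
    (he : ∀ r : R, e' (algebraMap R K r) = algebraMap R K (e r))
    (v : HeightOneSpectrum R) (x : K) :
    (HeightOneSpectrum.comap (e : R →+* R) e.surjective v).valuation K x =
      v.valuation K (e' x) := by
  obtain ⟨a, b, hb, rfl⟩ := IsFractionRing.div_surjective (A := R) x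
  rw [map_div₀, map_div₀, map_div₀, he, he, HeightOneSpectrum.valuation_of_algebraMap,
    HeightOneSpectrum.valuation_of_algebraMap, HeightOneSpectrum.valuation_of_algebraMap,
    HeightOneSpectrum.valuation_of_algebraMap, intValuation_comap, intValuation_comap]

end Comap

section NF

variable (K L : Type*) [Field K] [NumberField K] [Field L] [NumberField L] [Algebra K L]
  [IsGalois K L]

/-- The primes of `L` above a set of primes of `K`. -/
def primesAbove (T : Set (HeightOneSpectrum (𝓞 K))) : Set (HeightOneSpectrum (𝓞 L)) :=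
  {w | ∃ v ∈ T, w.asIdeal.LiesOver v.asIdeal}

/-- The prime of `K` below a prime of `L`. -/
noncomputable def primeBelow (w : HeightOneSpectrum (𝓞 L)) : HeightOneSpectrum (𝓞 K) where
  asIdeal := w.asIdeal.under (𝓞 K)
  isPrime := inferInstance
  ne_bot := Ideal.under_ne_bot (𝓞 K) w.ne_bot

instance liesOver_primeBelow (w : HeightOneSpectrum (𝓞 L)) :
    w.asIdeal.LiesOver (primeBelow K L w).asIdeal := ⟨rfl⟩

variable {K L}

theorem eq_primeBelow_of_liesOver {w : HeightOneSpectrum (𝓞 L)} {v : HeightOneSpectrum (𝓞 K)}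
    (h : w.asIdeal.LiesOver v.asIdeal) : v = primeBelow K L w :=
  HeightOneSpectrum.ext h.over

theorem mem_primesAbove_iff {T : Set (HeightOneSpectrum (𝓞 K))} {w : HeightOneSpectrum (𝓞 L)} :
    w ∈ primesAbove K L T ↔ primeBelow K L w ∈ T := by
  constructor
  · rintro ⟨v, hv, h⟩
    rwa [← eq_primeBelow_of_liesOver h]
  · intro h
    exact ⟨_, h, liesOver_primeBelow K L w⟩


/-- The ring automorphism of `𝓞 L` induced by `σ`. -/
noncomputable abbrev galRingEquiv (σ : Gal(L/K)) : 𝓞 L ≃+* 𝓞 L :=
  MulSemiringAction.toRingEquiv Gal(L/K) (𝓞 L) σ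

/-- `σ⁻¹ • w`: the pull-back of the prime `w` along `σ`. -/
noncomputable def galComap (σ : Gal(L/K)) (w : HeightOneSpectrum (𝓞 L)) :
    HeightOneSpectrum (𝓞 L) :=
  HeightOneSpectrum.comap (galRingEquiv σ : 𝓞 L →+* 𝓞 L) (galRingEquiv σ).surjective w

theorem valuation_galComap (σ : Gal(L/K)) (w : HeightOneSpectrum (𝓞 L)) (x : L) :
    (galComap σ w).valuation L x = w.valuation L (σ x) :=
  valuation_comap (galRingEquiv σ) (σ : L ≃+* L) (fun _ => rfl) w x

theorem primeBelow_galComap (σ : Gal(L/K)) (w : HeightOneSpectrum (𝓞 L)) :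
    primeBelow K L (galComap σ w) = primeBelow K L w := by
  apply HeightOneSpectrum.ext
  ext a
  change algebraMap (𝓞 K) (𝓞 L) a ∈ (galComap σ w).asIdeal ↔ algebraMap (𝓞 K) (𝓞 L) a ∈ w.asIdeal
  change σ • (algebraMap (𝓞 K) (𝓞 L) a) ∈ w.asIdeal ↔ _
  rw [smul_algebraMap]

theorem galComap_mem_primesAbove_iff (σ : Gal(L/K)) {T : Set (HeightOneSpectrum (𝓞 K))}
    {w : HeightOneSpectrum (𝓞 L)} : galComap σ w ∈ primesAbove K L T ↔ w ∈ primesAbove K L T := by
  rw [mem_primesAbove_iff, mem_primesAbove_iff, primeBelow_galComap]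

variable (T : Set (HeightOneSpectrum (𝓞 K)))

/-- The action of `σ` on the `T_L`-units of `L`. -/
noncomputable def sUnitGal (σ : Gal(L/K)) :
    (primesAbove K L T).unit L →* (primesAbove K L T).unit L where
  toFun x := ⟨Units.map ((σ : L ≃+* L) : L →* L) (x : Lˣ), fun w hw => by
    have h := x.2 (galComap σ w) (fun h => hw ((galComap_mem_primesAbove_iff σ).mp h))
    rw [valuation_galComap] at h
    exact h⟩
  map_one' := by ext; simp
  map_mul' a b := by ext; simp

theorem coe_sUnitGal (σ : Gal(L/K)) (x : (primesAbove K L T).unit L) :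
    (((sUnitGal T σ x : (primesAbove K L T).unit L) : Lˣ) : L) = σ ((x : Lˣ) : L) := rfl

/-- The endomorphism of the additive group of `T_L`-units induced by `σ`. -/
noncomputable def sEnd (σ : Gal(L/K)) : AddMonoid.End (Additive ((primesAbove K L T).unit L)) :=
  MonoidHom.toAdditive (sUnitGal T σ)

theorem sEnd_apply (σ : Gal(L/K)) (x : (primesAbove K L T).unit L) :
    sEnd T σ (Additive.ofMul x) = Additive.ofMul (sUnitGal T σ x) := rfl

theorem sEnd_mul (σ τ : Gal(L/K)) : sEnd T (σ * τ) = sEnd T σ * sEnd T τ := by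
  refine DFunLike.ext _ _ (fun x => ?_)
  apply Additive.toMul.injective
  apply Subtype.ext
  apply Units.ext
  rfl

theorem sEnd_one : sEnd T (1 : Gal(L/K)) = 1 := by
  refine DFunLike.ext _ _ (fun x => ?_)
  apply Additive.toMul.injective
  apply Subtype.ext
  apply Units.ext
  rfl

theorem sEnd_pow (σ : Gal(L/K)) (k : ℕ) : sEnd T σ ^ k = sEnd T (σ ^ k) := by
  induction k with
  | zero => rw [pow_zero, pow_zero, sEnd_one]
  | succ k ih => rw [pow_succ, pow_succ, sEnd_mul, ih]


theorem ramificationIdx'_ne_zero (w : HeightOneSpectrum (𝓞 L)) :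
    (primeBelow K L w).asIdeal.ramificationIdx' w.asIdeal ≠ 0 :=
  Ideal.IsDedekindDomain.ramificationIdx'_ne_zero_of_liesOver w.asIdeal (primeBelow K L w).ne_bot

/-- The inclusion of the `T`-units of `K` into the `T_L`-units of `L`. -/
noncomputable def sUnitIncl : T.unit K →* (primesAbove K L T).unit L where
  toFun x := ⟨Units.map (algebraMap K L : K →* L) (x : Kˣ), fun w hw => by
    have hv : primeBelow K L w ∉ T := fun h => hw (mem_primesAbove_iff.mpr h)
    have h1 := x.2 (primeBelow K L w) hv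
    have h2 := HeightOneSpectrum.valuation_liesOver L (primeBelow K L w) w ((x : Kˣ) : K)
    rw [h1, one_pow] at h2
    exact h2.symm⟩
  map_one' := by ext; simp
  map_mul' a b := by ext; simp

theorem coe_sUnitIncl (x : T.unit K) :
    (((sUnitIncl (L := L) T x : (primesAbove K L T).unit L) : Lˣ) : L) =
      algebraMap K L ((x : Kˣ) : K) := rfl

theorem sUnitIncl_injective : Function.Injective (sUnitIncl (L := L) T) := by
  intro a b hab
  have h := congrArg (fun x : (primesAbove K L T).unit L => ((x : Lˣ) : L)) hab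
  simp only [coe_sUnitIncl] at h
  exact Subtype.ext (Units.ext ((algebraMap K L).injective h))

/-- Every prime of `K` has a prime of `L` above it. -/
theorem exists_primeBelow_eq (v : HeightOneSpectrum (𝓞 K)) :
    ∃ w : HeightOneSpectrum (𝓞 L), primeBelow K L w = v := by
  obtain ⟨P, hP1, hP2⟩ := Ideal.exists_ideal_over_prime_of_isIntegral v.asIdeal
    (⊥ : Ideal (𝓞 L)) (by simp)
  have hPne : P ≠ ⊥ := by
    rintro rfl
    apply v.ne_bot
    rw [← hP2.2]
    exact Ideal.comap_bot_of_injective _ (FaithfulSMul.algebraMap_injective (𝓞 K) (𝓞 L))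
  exact ⟨⟨P, hP2.1, hPne⟩, HeightOneSpectrum.ext hP2.2⟩

/-- An element of `Kˣ` which becomes a `T_L`-unit in `L` is a `T`-unit. -/
theorem mem_sUnit_of_map_mem (y : Kˣ)
    (hy : Units.map (algebraMap K L : K →* L) y ∈ (primesAbove K L T).unit L) : y ∈ T.unit K := by
  intro v hv
  obtain ⟨w, rfl⟩ := exists_primeBelow_eq (L := L) v
  have hw : w ∉ primesAbove K L T := fun h => hv (mem_primesAbove_iff.mp h)
  have h1 := hy w hw
  have h2 := HeightOneSpectrum.valuation_liesOver L (primeBelow K L w) w (y : K)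
  rw [Units.coe_map, MonoidHom.coe_coe] at h1
  rw [h1] at h2
  exact (pow_eq_one_iff_left (ramificationIdx'_ne_zero w)).mp h2

/-- A `T_L`-unit fixed by a generator of the Galois group comes from a `T`-unit of `K`. -/
theorem exists_sUnitIncl_eq_of_fixed {σ : Gal(L/K)} (hσ : ∀ g : Gal(L/K), g ∈ Subgroup.zpowers σ)
    (x : (primesAbove K L T).unit L) (hx : sUnitGal T σ x = x) :
    ∃ y : T.unit K, sUnitIncl T y = x := by
  have hσx : σ ((x : Lˣ) : L) = ((x : Lˣ) : L) := by
    have := congrArg (fun z : (primesAbove K L T).unit L => ((z : Lˣ) : L)) hx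
    simpa only [coe_sUnitGal] using this
  have hfix : ∀ g : Gal(L/K), g ((x : Lˣ) : L) = ((x : Lˣ) : L) := by
    intro g
    obtain ⟨k, rfl⟩ := Subgroup.mem_zpowers_iff.mp (hσ g)
    have hmem : σ ∈ MulAction.stabilizer Gal(L/K) (((x : Lˣ) : L)) := hσx
    exact (Subgroup.zpow_mem _ hmem k)
  have hbot : ((x : Lˣ) : L) ∈ (⊥ : IntermediateField K L) :=
    (IsGalois.mem_bot_iff_fixed _).mpr hfix
  obtain ⟨y, hy⟩ := IntermediateField.mem_bot.mp hbot
  have hy0 : y ≠ 0 := by
    rintro rfl
    rw [map_zero] at hy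
    exact (x : Lˣ).ne_zero hy.symm
  have hmap : Units.map (algebraMap K L : K →* L) (Units.mk0 y hy0) = (x : Lˣ) :=
    Units.ext hy
  have hmem : Units.mk0 y hy0 ∈ T.unit K := by
    apply mem_sUnit_of_map_mem (L := L) T
    rw [hmap]
    exact x.2
  exact ⟨⟨Units.mk0 y hy0, hmem⟩, Subtype.ext hmap⟩

theorem sUnitGal_sUnitIncl (σ : Gal(L/K)) (y : T.unit K) :
    sUnitGal T σ (sUnitIncl T y) = sUnitIncl T y := by
  apply Subtype.ext
  apply Units.ext
  change σ (algebraMap K L ((y : Kˣ) : K)) = algebraMap K L ((y : Kˣ) : K)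
  exact σ.commutes _


section Count

variable (K L)

/-- The number of primes of `L` above a prime `v` of `K`. -/
noncomputable def numAbove (v : HeightOneSpectrum (𝓞 K)) : ℕ :=
  Nat.card {w : HeightOneSpectrum (𝓞 L) // primeBelow K L w = v}

/-- The primes above `v`, as ideals. -/
noncomputable def fiberEquivPrimesOver (v : HeightOneSpectrum (𝓞 K)) :
    {w : HeightOneSpectrum (𝓞 L) // primeBelow K L w = v} ≃ v.asIdeal.primesOver (𝓞 L) where
  toFun w := ⟨w.1.asIdeal, w.1.isPrime, ⟨congrArg HeightOneSpectrum.asIdeal w.2.symm⟩⟩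
  invFun P := ⟨⟨P.1, P.2.1, by
      have := P.2.2
      exact Ideal.ne_bot_of_liesOver_of_ne_bot v.ne_bot P.1⟩,
    HeightOneSpectrum.ext P.2.2.over.symm⟩
  left_inv w := rfl
  right_inv P := rfl

instance finite_fiber (v : HeightOneSpectrum (𝓞 K)) :
    Finite {w : HeightOneSpectrum (𝓞 L) // primeBelow K L w = v} := by
  have : v.asIdeal.IsMaximal := v.isMaximal
  have : Finite (v.asIdeal.primesOver (𝓞 L)) :=
    (IsDedekindDomain.primesOver_finite v.asIdeal (𝓞 L)).to_subtype
  exact Finite.of_equiv _ (fiberEquivPrimesOver K L v).symm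

theorem numAbove_eq_ncard (v : HeightOneSpectrum (𝓞 K)) :
    numAbove K L v = (v.asIdeal.primesOver (𝓞 L)).ncard := by
  rw [numAbove, Nat.card_congr (fiberEquivPrimesOver K L v), Nat.card_coe_set_eq]

theorem numAbove_dvd (v : HeightOneSpectrum (𝓞 K)) : numAbove K L v ∣ Module.finrank K L := by
  rw [numAbove_eq_ncard, ← IsGalois.card_aut_eq_finrank K L,
    ← Ideal.ncard_primesOver_mul_ramificationIdxIn_mul_inertiaDegIn v.asIdeal (𝓞 L) Gal(L/K)]
  exact dvd_mul_right _ _

theorem numAbove_pos (v : HeightOneSpectrum (𝓞 K)) : 0 < numAbove K L v := by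
  obtain ⟨w, hw⟩ := exists_primeBelow_eq (L := L) v
  have : Nonempty {w : HeightOneSpectrum (𝓞 L) // primeBelow K L w = v} := ⟨⟨w, hw⟩⟩
  exact Nat.card_pos

variable (T : Set (HeightOneSpectrum (𝓞 K))) [Finite T]

/-- `T_L` as a union of fibres. -/
noncomputable def primesAboveEquivSigma :
    (Σ v : T, {w : HeightOneSpectrum (𝓞 L) // primeBelow K L w = v.1}) ≃ primesAbove K L T where
  toFun x := ⟨x.2.1, mem_primesAbove_iff.mpr (by rw [x.2.2]; exact x.1.2)⟩
  invFun w := ⟨⟨primeBelow K L w.1, mem_primesAbove_iff.mp w.2⟩, ⟨w.1, rfl⟩⟩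
  left_inv x := by
    obtain ⟨⟨v, hv⟩, ⟨w, hw⟩⟩ := x
    dsimp only at hw
    subst hw
    rfl
  right_inv w := rfl

instance finite_primesAbove : Finite (primesAbove K L T) :=
  Finite.of_equiv _ (primesAboveEquivSigma K L T)

theorem card_primesAbove [Fintype T] :
    Nat.card (primesAbove K L T) = ∑ v : T, numAbove K L v.1 := by
  rw [← Nat.card_congr (primesAboveEquivSigma K L T), Nat.card_sigma]
  rfl

end Count


section MainNF

open Fermat.Agent.CFT.DNPair

variable (K L)
variable (T : Set (HeightOneSpectrum (𝓞 K))) [Finite T]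

/-- The number of primes in `T` with exactly one prime of `L` above them (the non-split ones,
when `L/K` has prime degree). -/
noncomputable def numNonsplit : ℕ := Nat.card {v : T // numAbove K L v.1 = 1}

variable {K L}

theorem sEnd_pow_eq_one {p : ℕ} (hdeg : Module.finrank K L = p) (σ : Gal(L/K)) :
    sEnd T σ ^ p = 1 := by
  rw [sEnd_pow, ← hdeg, ← IsGalois.card_aut_eq_finrank K L, pow_card_eq_one', sEnd_one]

theorem finrank_sUnits_top :
    Module.finrank ℤ (Additive ((primesAbove K L T).unit L)) =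
      Units.rank L + Nat.card (primesAbove K L T) :=
  SUnits.finrank_sUnit_numberField L (primesAbove K L T)

theorem finrank_fixed {p : ℕ} (hdeg : Module.finrank K L = p) {σ : Gal(L/K)}
    (hσ : ∀ g : Gal(L/K), g ∈ Subgroup.zpowers σ) :
    Module.finrank ℤ (ofEnd (sEnd T σ) p (sEnd_pow_eq_one T hdeg σ)).D.ker =
      Units.rank K + Nat.card T := by
  rw [← SUnits.finrank_sUnit_numberField K T]
  set P := ofEnd (sEnd T σ) p (sEnd_pow_eq_one T hdeg σ) with hP
  have hmem : ∀ y : Additive (T.unit K),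
      (MonoidHom.toAdditive (sUnitIncl (L := L) T)) y ∈ P.D.ker := by
    intro y
    rw [AddMonoidHom.mem_ker, hP, ofEnd_D_apply, sub_eq_zero]
    exact congrArg Additive.ofMul (sUnitGal_sUnitIncl T σ (Additive.toMul y))
  let φ : Additive (T.unit K) →+ P.D.ker :=
    (MonoidHom.toAdditive (sUnitIncl (L := L) T)).codRestrict P.D.ker hmem
  have hφ : Function.Bijective φ := by
    constructor
    · intro a b hab
      have h1 : (MonoidHom.toAdditive (sUnitIncl (L := L) T)) a =
          (MonoidHom.toAdditive (sUnitIncl (L := L) T)) b := congrArg Subtype.val hab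
      exact congrArg Additive.ofMul
        (sUnitIncl_injective T (congrArg Additive.toMul h1))
    · rintro ⟨x, hx⟩
      rw [AddMonoidHom.mem_ker, hP, ofEnd_D_apply, sub_eq_zero] at hx
      obtain ⟨y, hy⟩ := exists_sUnitIncl_eq_of_fixed T hσ (Additive.toMul x)
        (congrArg Additive.toMul hx)
      exact ⟨Additive.ofMul y, Subtype.ext (congrArg Additive.ofMul hy)⟩
  exact ((AddEquiv.ofBijective φ hφ).toIntLinearEquiv.finrank_eq).symm

theorem rank_top_eq {p : ℕ} (hp2 : Odd p) (hdeg : Module.finrank K L = p) :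
    Units.rank L + 1 = p * (Units.rank K + 1) := by
  have hodd : Odd (Module.finrank K L) := hdeg ▸ hp2
  have := IsUnramifiedAtInfinitePlaces_of_odd_finrank (k := K) (K := L) hodd
  have h := IsUnramifiedAtInfinitePlaces.card_infinitePlace K L
  rw [hdeg] at h
  have hK : 0 < Fintype.card (InfinitePlace K) := Fintype.card_pos
  have hL : 0 < Fintype.card (InfinitePlace L) := Fintype.card_pos
  unfold Units.rank
  rw [Nat.sub_add_cancel hL, Nat.sub_add_cancel hK, h, mul_comm]

theorem card_primesAbove_eq {p : ℕ} [hp : Fact p.Prime] (hdeg : Module.finrank K L = p) :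
    Nat.card (primesAbove K L T) + (p - 1) * numNonsplit K L T = p * Nat.card T := by
  classical
  have := Fintype.ofFinite T
  rw [card_primesAbove K L T, numNonsplit, Nat.card_eq_fintype_card, Fintype.card_subtype,
    Nat.card_eq_fintype_card, Finset.card_eq_sum_ones, Finset.sum_filter, Finset.mul_sum,
    ← Finset.sum_add_distrib, ← Finset.card_univ, Finset.card_eq_sum_ones, Finset.mul_sum]
  apply Finset.sum_congr rfl
  intro v _
  have hdvd := numAbove_dvd K L v.1
  rw [hdeg] at hdvd
  rcases (Nat.dvd_prime hp.out).mp hdvd with h1 | h1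
  · rw [h1, if_pos rfl, mul_one, mul_one]
    exact Nat.add_sub_cancel' hp.out.one_le
  · rw [h1, if_neg hp.out.one_lt.ne', mul_zero, add_zero, mul_one]

/-- **Herbrand quotient of the `T`-units** in a cyclic extension `L/K` of odd prime degree `p`:
`h(U_{L,T}) * p = p ^ t`, `t` the number of primes of `T` that do not split in `L`. -/
theorem herbrand_sUnits {p : ℕ} [hp : Fact p.Prime] (hp2 : p ≠ 2) (hdeg : Module.finrank K L = p)
    {σ : Gal(L/K)} (hσ : ∀ g : Gal(L/K), g ∈ Subgroup.zpowers σ) :
    (ofEnd (sEnd T σ) p (sEnd_pow_eq_one T hdeg σ)).IsHFinite ∧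
      (ofEnd (sEnd T σ) p (sEnd_pow_eq_one T hdeg σ)).herbrand * p =
        (p : ℚ) ^ numNonsplit K L T := by
  have key := HerbrandPrime.herbrand_ofEnd_prime (sEnd T σ) p (sEnd_pow_eq_one T hdeg σ)
  refine ⟨key.1, ?_⟩
  have hodd : Odd p := hp.out.odd_of_ne_two hp2
  have h1 := finrank_sUnits_top (K := K) (L := L) T
  have h2 := finrank_fixed T hdeg hσ
  have h3 := rank_top_eq (K := K) (L := L) hodd hdeg
  have h4 := card_primesAbove_eq (K := K) (L := L) T hdeg
  have h5 := key.2
  rw [h1, h2] at h5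
  set h := (ofEnd (sEnd T σ) p (sEnd_pow_eq_one T hdeg σ)).herbrand with hh
  set t := numNonsplit K L T
  set rL := Units.rank L
  set rK := Units.rank K
  set c := Nat.card (primesAbove K L T)
  set n := Nat.card T
  have hpne : (p : ℚ) ≠ 0 := by exact_mod_cast hp.out.ne_zero
  have hp1 : 1 ≤ p := hp.out.one_le
  -- exponent bookkeeping
  have e1 : (rL + c) + (p - 1) * t = (p * rK + p * n) + (p - 1) := by
    have : rL = p * (rK + 1) - 1 := by omega
    have h6 : p * (rK + 1) = p * rK + p := by ring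
    omega
  have e2 : p * (rK + n) = p * rK + p * n := by ring
  have h7 : (h * p) ^ (p - 1) * (p : ℚ) ^ (p * rK + p * n) =
      ((p : ℚ) ^ t) ^ (p - 1) * (p : ℚ) ^ (p * rK + p * n) := by
    have : h ^ (p - 1) * (p : ℚ) ^ (rL + c) * (p : ℚ) ^ ((p - 1) * t) =
        (p : ℚ) ^ (p * (rK + n)) * (p : ℚ) ^ ((p - 1) * t) := by rw [h5]
    rw [mul_assoc, ← pow_add, e1, e2, pow_add] at this
    rw [mul_pow, ← pow_mul, mul_comm t (p - 1)]
    linear_combination this
  have h8 := mul_right_cancel₀ (pow_ne_zero _ hpne) h7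
  have hpos : 0 ≤ h * p := by
    have := key.1.herbrand_pos
    positivity
  have hpos' : (0 : ℚ) ≤ (p : ℚ) ^ t := by positivity
  exact (pow_left_inj₀ hpos hpos' (Nat.sub_ne_zero_of_lt hp.out.one_lt)).mp h8

end MainNF


section LocalDegree

open Fermat.Agent.CFT.DNPair
open scoped Pointwise

variable (K L)

/-- The local degree `n_v = e_v f_v` at a prime `v` of `K` (the order of the decomposition group
of any prime of `L` above `v`), defined as `[L : K] / g_v`. -/
noncomputable def localDeg (v : HeightOneSpectrum (𝓞 K)) : ℕ :=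
  Module.finrank K L / numAbove K L v

theorem numAbove_mul_card_stabilizer (w : HeightOneSpectrum (𝓞 L)) :
    numAbove K L (primeBelow K L w) * Nat.card (MulAction.stabilizer Gal(L/K) w.asIdeal) =
      Module.finrank K L := by
  have h1 := Ideal.card_stabilizer_eq (G := Gal(L/K)) (primeBelow K L w).asIdeal w.asIdeal
  rw [h1, numAbove_eq_ncard, ← IsGalois.card_aut_eq_finrank K L]
  exact Ideal.ncard_primesOver_mul_ramificationIdxIn_mul_inertiaDegIn
    (primeBelow K L w).asIdeal (𝓞 L) Gal(L/K)

/-- `n_v` is the order of the decomposition group of any prime above `v`. -/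
theorem localDeg_eq_card_stabilizer (w : HeightOneSpectrum (𝓞 L)) :
    localDeg K L (primeBelow K L w) =
      Nat.card (MulAction.stabilizer Gal(L/K) w.asIdeal) := by
  rw [localDeg, ← numAbove_mul_card_stabilizer K L w,
    Nat.mul_div_cancel_left _ (numAbove_pos K L _)]

variable {K L}
variable (T : Set (HeightOneSpectrum (𝓞 K))) [Fintype T]

theorem prod_localDeg_eq {p : ℕ} [hp : Fact p.Prime] (hdeg : Module.finrank K L = p) :
    ∏ v : T, localDeg K L v.1 = p ^ numNonsplit K L T := by
  classical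
  have hloc : ∀ v : T, localDeg K L v.1 = if numAbove K L v.1 = 1 then p else 1 := by
    intro v
    have hdvd := numAbove_dvd K L v.1
    rw [hdeg] at hdvd
    rw [localDeg, hdeg]
    rcases (Nat.dvd_prime hp.out).mp hdvd with h1 | h1
    · rw [h1, if_pos rfl, Nat.div_one]
    · rw [h1, if_neg hp.out.one_lt.ne', Nat.div_self hp.out.pos]
  rw [numNonsplit, Nat.card_eq_fintype_card, Fintype.card_subtype,
    Finset.prod_congr rfl (fun v _ => hloc v), Finset.prod_ite, Finset.prod_const,
    Finset.prod_const_one, mul_one]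

/-- **Herbrand quotient of the `T`-units**, product form: `h(U_{L,T}) = (∏_{v ∈ T} n_v) / p`. -/
theorem herbrand_sUnits_prod {p : ℕ} [hp : Fact p.Prime] (hp2 : p ≠ 2)
    (hdeg : Module.finrank K L = p) {σ : Gal(L/K)}
    (hσ : ∀ g : Gal(L/K), g ∈ Subgroup.zpowers σ) :
    (ofEnd (sEnd T σ) p (sEnd_pow_eq_one T hdeg σ)).IsHFinite ∧
      (ofEnd (sEnd T σ) p (sEnd_pow_eq_one T hdeg σ)).herbrand * p =
        ∏ v : T, (localDeg K L v.1 : ℚ) := by
  have h := herbrand_sUnits T hp2 hdeg hσ
  refine ⟨h.1, ?_⟩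
  rw [h.2, ← Nat.cast_prod, prod_localDeg_eq T hdeg, Nat.cast_pow]

end LocalDegree

end NF

end Fermat.Agent.CFT.HerbrandSUnits
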