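import Mathlib
import Fermat.Agent.CFT.Global.FirstIneqH0
import Fermat.Agent.CFT.Global.HerbrandSUnits
import Fermat.Agent.CFT.Global.IdeleDict.DictGen
import Fermat.Agent.CFT.Global.IdeleNorm

/-!
# Layer C, node C2c: the first inequality `h(C_L) = p`, global glue

`L/K` cyclic of odd prime degree `p` with generator `σ`, `T` a finite set of rational primes with
`J_L = Lˣ · J_{L,T}`.  The sequence `0 → U_{L,T} → J_{L,T} → C_L → 0` is a short exact sequence of
`DNPair`s, the kernel pair is isomorphic to helper5's pair on the `T`-units, hence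

`h(C_L) = h(J_{L,T}) / h(U_{L,T}) = h(J_{L,T}) · p / ∏_{v ∈ T_K} n_v`.

* `DNPair.isHFinite_and_herbrand_of_ker`: abstract form;
* `outsidePairHom`: the morphism `J_{L,T} → C_L`, surjective if `J_L = Lˣ J_{L,T}`;
* `sUnitsKerHom`: the isomorphism from the pair of `T`-units onto the kernel pair;
* `herbrand_ideleClass`: `h(C_L) = p` provided `h(J_{L,T}) = ∏_{v ∈ T_K} n_v`;
* `index_principal_sup_norm_eq`, `principal_sup_norm_ne_top`: the first inequality
  `[J_K : Kˣ N J_L] = p · |Ĥ¹(C_L)|`, in particular `Kˣ N J_L ≠ J_K`.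
-/

set_option autoImplicit false
set_option linter.style.haveILetI false
set_option linter.unusedSectionVars false

open scoped NumberField

open IsDedekindDomain

noncomputable section

namespace Fermat.Agent.CFT

namespace DNPair

variable {A B : Type*} [AddCommGroup A] [AddCommGroup B] {P : DNPair A} {Q : DNPair B}

/-- A surjective morphism of pairs gives a short exact sequence with its kernel. -/
theorem shortExact_ker (g : Hom P Q) (hg : Function.Surjective g.toFun) :
    ShortExact (P.restrictHom g.toFun.ker g.D_mem_ker g.N_mem_ker) g where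
  inj := Subtype.val_injective
  surj := hg
  exact a := by
    rw [← AddMonoidHom.mem_ker]
    exact ⟨fun ha => ⟨⟨a, ha⟩, rfl⟩, fun ⟨a', ha'⟩ => ha' ▸ a'.2⟩

/-- Herbrand quotient of the image of a surjective morphism. -/
theorem isHFinite_and_herbrand_of_ker (g : Hom P Q) (hg : Function.Surjective g.toFun)
    (hK : (P.restrict g.toFun.ker g.D_mem_ker g.N_mem_ker).IsHFinite) (hP : P.IsHFinite) :
    Q.IsHFinite ∧
      P.herbrand = (P.restrict g.toFun.ker g.D_mem_ker g.N_mem_ker).herbrand * Q.herbrand := by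
  have hex := shortExact_ker g hg
  have hQ := hex.isHFinite_right hK hP
  exact ⟨hQ, hex.herbrand_mul hK hQ⟩

/-- Morphism between `ofEnd` pairs from an intertwining map. -/
def ofEndHom (f : A →+ B) (σ : AddMonoid.End A) (τ : AddMonoid.End B) (n : ℕ) (hσ : σ ^ n = 1)
    (hτ : τ ^ n = 1) (h : ∀ a, f (σ a) = τ (f a)) : Hom (ofEnd σ n hσ) (ofEnd τ n hτ) where
  toFun := f
  map_D a := by
    rw [ofEnd_D_apply, ofEnd_D_apply, map_sub, h]
  map_N a := by
    have key : ∀ (k : ℕ) (a : A), f ((σ ^ k) a) = (τ ^ k) (f a) := by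
      intro k
      induction k with
      | zero => intro a; simp
      | succ k ih =>
        intro a
        rw [pow_succ, pow_succ]
        show f ((σ ^ k) (σ a)) = (τ ^ k) (τ (f a))
        rw [ih, h]
    rw [ofEnd_N_apply, ofEnd_N_apply, map_sum]
    exact Finset.sum_congr rfl fun k _ => key k a

/-- Restrict the codomain of a morphism to a stable subgroup containing its image. -/
def Hom.codRestrict (f : Hom P Q) (S : AddSubgroup B) (hD : ∀ a ∈ S, Q.D a ∈ S)
    (hN : ∀ a ∈ S, Q.N a ∈ S) (h : ∀ a, f.toFun a ∈ S) : Hom P (Q.restrict S hD hN) where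
  toFun := f.toFun.codRestrict S h
  map_D a := Subtype.ext (f.map_D a)
  map_N a := Subtype.ext (f.map_N a)

end DNPair

namespace FirstIneq

section Outside

variable {L : Type} [Field L] {H : Type} [Group H] [MulSemiringAction H L]

/-- The map `J_{L,T} → C_L`. -/
def outsideToClass (T : Finset Nat.Primes) :
    ideleGroupOutside L (T : Set Nat.Primes) →* ideleClass L :=
  (QuotientGroup.mk' (principalSubgroup L)).comp
    (Subgroup.inclusion (ideleGroupOutside_le_ideleGroup T.finite_toSet))

theorem outsideToClass_apply (T : Finset Nat.Primes)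
    (x : ideleGroupOutside L (T : Set Nat.Primes)) :
    outsideToClass T x = (QuotientGroup.mk
      (⟨x.1, ideleGroupOutside_le_ideleGroup T.finite_toSet x.2⟩ : ideleGroup L) :
        ideleClass L) := rfl

theorem outsideToClass_smul (T : Finset Nat.Primes) (g : H)
    (x : ideleGroupOutside L (T : Set Nat.Primes)) :
    outsideToClass T (g • x) = g • outsideToClass T x := rfl

theorem outsideToClass_eq_one_iff (T : Finset Nat.Primes)
    (x : ideleGroupOutside L (T : Set Nat.Primes)) :
    outsideToClass T x = 1 ↔ (x : IdeleProd L) ∈ (principalIdele L).range := by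
  rw [outsideToClass_apply, QuotientGroup.eq_one_iff]
  exact Iff.rfl

theorem outsideToClass_surjective (T : Finset Nat.Primes)
    (hJ : ideleGroup L ≤ (principalIdele L).range ⊔ ideleGroupOutside L (T : Set Nat.Primes)) :
    Function.Surjective (outsideToClass (L := L) T) := by
  intro c
  obtain ⟨x, rfl⟩ := QuotientGroup.mk_surjective c
  obtain ⟨y, hy, t, ht, hyt⟩ := Subgroup.mem_sup.1 (hJ x.2)
  refine ⟨⟨t, ht⟩, ?_⟩
  rw [outsideToClass_apply]
  refine QuotientGroup.eq.2 ?_
  show ((⟨t, _⟩ : ideleGroup L)⁻¹ * x : ideleGroup L).1 ∈ (principalIdele L).range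
  have : ((⟨t, ideleGroupOutside_le_ideleGroup T.finite_toSet ht⟩ : ideleGroup L)⁻¹ * x :
      ideleGroup L).1 = y := by
    show t⁻¹ * (x : IdeleProd L) = y
    rw [← hyt, mul_comm y t, inv_mul_cancel_left]
  rw [this]
  exact hy

variable (σ : H) (n : ℕ) (hσ : σ ^ n = 1)

/-- The morphism of pairs `J_{L,T} → C_L`. -/
def outsidePairHom (T : Finset Nat.Primes) :
    DNPair.Hom (smulPair (M := ideleGroupOutside L (T : Set Nat.Primes)) σ n hσ)
      (smulPair (M := ideleClass L) σ n hσ) :=
  smulPairHom (outsideToClass (L := L) T) (fun g x => outsideToClass_smul (L := L) T g x) σ n hσ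

theorem outsidePairHom_surjective (T : Finset Nat.Primes)
    (hJ : ideleGroup L ≤ (principalIdele L).range ⊔ ideleGroupOutside L (T : Set Nat.Primes)) :
    Function.Surjective (outsidePairHom (L := L) σ n hσ T).toFun := by
  intro c
  obtain ⟨x, hx⟩ := outsideToClass_surjective T hJ c.toMul
  exact ⟨Additive.ofMul x, congrArg Additive.ofMul hx⟩

theorem mem_ker_outsidePairHom_iff (T : Finset Nat.Primes)
    (x : Additive (ideleGroupOutside L (T : Set Nat.Primes))) :
    x ∈ (outsidePairHom (L := L) σ n hσ T).toFun.ker ↔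
      (x.toMul : IdeleProd L) ∈ (principalIdele L).range := by
  rw [AddMonoidHom.mem_ker, ← outsideToClass_eq_one_iff]
  exact Iff.rfl

end Outside

section SUnits

open IdeleDict HerbrandSUnits

variable {K L : Type} [Field K] [NumberField K] [Field L] [NumberField L] [Algebra K L]
  [IsGalois K L]

/-- The primes of `L` above the primes of `K` above `T` are the primes of `L` above `T`. -/
theorem primesAbove_primesOver (T : Set Nat.Primes) :
    primesAbove K L (primesOver K T) = primesOver L T := by
  ext w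
  rw [mem_primesAbove_iff]
  constructor
  · rintro ⟨q, hq, hmem⟩
    refine ⟨q, hq, ?_⟩
    have h1 : algebraMap (𝓞 K) (𝓞 L) ((q : ℕ) : 𝓞 K) ∈ w.asIdeal := hmem
    rwa [map_natCast] at h1
  · rintro ⟨q, hq, hmem⟩
    refine ⟨q, hq, ?_⟩
    show algebraMap (𝓞 K) (𝓞 L) ((q : ℕ) : 𝓞 K) ∈ w.asIdeal
    rwa [map_natCast]

theorem principalIdele_mem_outside_iff (T : Finset Nat.Primes) (u : Lˣ) :
    principalIdele L u ∈ ideleGroupOutside L (T : Set Nat.Primes) ↔
      u ∈ (primesAbove K L (primesOver K (T : Set Nat.Primes))).unit L := by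
  rw [ideleGroupOutside_eq_ideleOutside, principalIdele_mem_ideleOutside_iff,
    primesAbove_primesOver]

/-- `T`-units to `T`-ideles. -/
def sUnitsToOutside (T : Finset Nat.Primes) :
    (primesAbove K L (primesOver K (T : Set Nat.Primes))).unit L →*
      ideleGroupOutside L (T : Set Nat.Primes) :=
  ((principalIdele L).comp (Subgroup.subtype _)).codRestrict _
    (fun u => (principalIdele_mem_outside_iff (K := K) T (u : Lˣ)).2 u.2)

theorem sUnitsToOutside_coe (T : Finset Nat.Primes)
    (u : (primesAbove K L (primesOver K (T : Set Nat.Primes))).unit L) :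
    ((sUnitsToOutside T u : ideleGroupOutside L (T : Set Nat.Primes)) : IdeleProd L) =
      principalIdele L (u : Lˣ) := rfl

theorem sUnitsToOutside_sUnitGal (T : Finset Nat.Primes) (σ : L ≃ₐ[K] L)
    (u : (primesAbove K L (primesOver K (T : Set Nat.Primes))).unit L) :
    sUnitsToOutside T (sUnitGal (primesOver K (T : Set Nat.Primes)) σ u) =
      σ • sUnitsToOutside T u := by
  apply Subtype.ext
  funext q
  show (semiLocalDiag (Units.map ((σ : L ≃+* L) : L →* L) (u : Lˣ)) : semiLocalUnits (q : ℕ) L) =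
    σ • (semiLocalDiag (u : Lˣ) : semiLocalUnits (q : ℕ) L)
  rw [smul_semiLocalDiag]
  congr 1

instance finite_primesOver_finset (T : Finset Nat.Primes) :
    Finite (primesOver K (T : Set Nat.Primes)) :=
  (IdeleDict.primesOver_finite T.finite_toSet).to_subtype

variable {σ : L ≃ₐ[K] L} {p : ℕ} (hσ : σ ^ p = 1) (hdeg : Module.finrank K L = p)

/-- The morphism from the pair of `T`-units to the pair of `T`-ideles. -/
def sUnitsOutsideHom (T : Finset Nat.Primes) :
    DNPair.Hom (DNPair.ofEnd (sEnd (primesOver K (T : Set Nat.Primes)) σ) p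
        (sEnd_pow_eq_one (primesOver K (T : Set Nat.Primes)) hdeg σ))
      (smulPair (M := ideleGroupOutside L (T : Set Nat.Primes)) σ p hσ) :=
  DNPair.ofEndHom (MonoidHom.toAdditive (sUnitsToOutside (K := K) (L := L) T))
    (sEnd (primesOver K (T : Set Nat.Primes)) σ)
    (smulAddEnd (M := ideleGroupOutside L (T : Set Nat.Primes)) σ) p
    (sEnd_pow_eq_one (primesOver K (T : Set Nat.Primes)) hdeg σ)
    (smulAddEnd_pow_eq_one hσ) (fun a => by
      show Additive.ofMul (sUnitsToOutside T (sUnitGal _ σ a.toMul)) =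
        Additive.ofMul (σ • sUnitsToOutside T a.toMul)
      rw [sUnitsToOutside_sUnitGal])

theorem sUnitsOutsideHom_toFun_apply (T : Finset Nat.Primes)
    (a : Additive ((primesAbove K L (primesOver K (T : Set Nat.Primes))).unit L)) :
    (sUnitsOutsideHom hσ hdeg T).toFun a = Additive.ofMul (sUnitsToOutside T a.toMul) := rfl

/-- The morphism from the pair of `T`-units onto the kernel pair of `J_{L,T} → C_L`. -/
def sUnitsKerHom (T : Finset Nat.Primes) :
    DNPair.Hom (DNPair.ofEnd (sEnd (primesOver K (T : Set Nat.Primes)) σ) p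
        (sEnd_pow_eq_one (primesOver K (T : Set Nat.Primes)) hdeg σ))
      ((smulPair (M := ideleGroupOutside L (T : Set Nat.Primes)) σ p hσ).restrict
        (outsidePairHom (L := L) σ p hσ T).toFun.ker
        (outsidePairHom (L := L) σ p hσ T).D_mem_ker
        (outsidePairHom (L := L) σ p hσ T).N_mem_ker) :=
  (sUnitsOutsideHom hσ hdeg T).codRestrict _ _ _ (fun a =>
    (mem_ker_outsidePairHom_iff σ p hσ T _).2 ⟨(a.toMul : Lˣ), rfl⟩)

theorem sUnitsKerHom_bijective (T : Finset Nat.Primes) :
    Function.Bijective (sUnitsKerHom hσ hdeg T).toFun := by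
  constructor
  · intro a b hab
    have h1 : (sUnitsOutsideHom hσ hdeg T).toFun a = (sUnitsOutsideHom hσ hdeg T).toFun b :=
      congrArg Subtype.val hab
    rw [sUnitsOutsideHom_toFun_apply, sUnitsOutsideHom_toFun_apply] at h1
    have h2 : principalIdele L (a.toMul : Lˣ) = principalIdele L (b.toMul : Lˣ) :=
      congrArg Subtype.val (Additive.ofMul.injective h1)
    have h3 := IdeleDict.principalIdele_injective h2
    exact Additive.toMul.injective (Subtype.ext h3)
  · rintro ⟨x, hx⟩
    obtain ⟨u, hu⟩ := (mem_ker_outsidePairHom_iff σ p hσ T x).1 hx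
    have hmem : u ∈ (primesAbove K L (primesOver K (T : Set Nat.Primes))).unit L := by
      rw [← principalIdele_mem_outside_iff (K := K) T u, hu]
      exact x.toMul.2
    refine ⟨Additive.ofMul ⟨u, hmem⟩, ?_⟩
    apply Subtype.ext
    show Additive.ofMul (sUnitsToOutside T ⟨u, hmem⟩) = x
    apply Additive.toMul.injective
    apply Subtype.ext
    exact hu

include hdeg in
/-- **First inequality, Herbrand form**: `h(C_L) = p`, provided `J_L = Lˣ J_{L,T}` and
`h(J_{L,T}) = ∏_{v ∈ T_K} n_v`. -/
theorem herbrand_ideleClass [hp : Fact p.Prime] (hp2 : p ≠ 2)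
    (hgen : ∀ g : L ≃ₐ[K] L, g ∈ Subgroup.zpowers σ) (T : Finset Nat.Primes)
    [Fintype (primesOver K (T : Set Nat.Primes))]
    (hJ : ideleGroup L ≤ (principalIdele L).range ⊔ ideleGroupOutside L (T : Set Nat.Primes))
    (hJT : (smulPair (M := ideleGroupOutside L (T : Set Nat.Primes)) σ p hσ).IsHFinite)
    (hJTh : (smulPair (M := ideleGroupOutside L (T : Set Nat.Primes)) σ p hσ).herbrand =
      ∏ v : primesOver K (T : Set Nat.Primes), (localDeg K L v.1 : ℚ)) :
    (smulPair (M := ideleClass L) σ p hσ).IsHFinite ∧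
      (smulPair (M := ideleClass L) σ p hσ).herbrand = p := by
  have h5 := herbrand_sUnits_prod (primesOver K (T : Set Nat.Primes)) hp2 hdeg hgen
  have hbij := DNPair.herbrand_eq_of_bijective (sUnitsKerHom hσ hdeg T)
    (sUnitsKerHom_bijective hσ hdeg T)
  have hK := hbij.1.1 h5.1
  have hKh := hbij.2 h5.1
  obtain ⟨hC, hmul⟩ := DNPair.isHFinite_and_herbrand_of_ker (outsidePairHom (L := L) σ p hσ T)
    (outsidePairHom_surjective σ p hσ T hJ) hK hJT
  refine ⟨hC, ?_⟩
  have hpos := h5.1.herbrand_pos
  rw [hJTh, ← hKh, ← h5.2] at hmul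
  exact (mul_left_cancel₀ hpos.ne' hmul).symm

omit [NumberField K] [NumberField L] [IsGalois K L] in
/-- The norm subgroup of this node is the norm subgroup of `Global/IdeleNorm.lean`. -/
theorem ideleNormSubgroup_eq [FiniteDimensional K L] :
    ideleNormSubgroup K L = _root_.Fermat.Agent.CFT.ideleNormSubgroup K L := by
  ext x
  rw [mem_ideleNormSubgroup, _root_.Fermat.Agent.CFT.mem_ideleNormSubgroup]

theorem principalIsIdele_numberField (F : Type) [Field F] [NumberField F] : PrincipalIsIdele F :=
  fun a => IdeleDict.principalIdele_mem_ideleGroup a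

include hdeg in
/-- **First inequality, index form**: `[J_K : Kˣ N J_L] = p · |Ĥ¹(C_L)|`. -/
theorem index_principal_sup_norm_eq [FiniteDimensional K L] [hp : Fact p.Prime] (hp2 : p ≠ 2)
    (hgen : ∀ g : L ≃ₐ[K] L, g ∈ Subgroup.zpowers σ) (T : Finset Nat.Primes)
    [Fintype (primesOver K (T : Set Nat.Primes))]
    (hJ : ideleGroup L ≤ (principalIdele L).range ⊔ ideleGroupOutside L (T : Set Nat.Primes))
    (hJT : (smulPair (M := ideleGroupOutside L (T : Set Nat.Primes)) σ p hσ).IsHFinite)
    (hJTh : (smulPair (M := ideleGroupOutside L (T : Set Nat.Primes)) σ p hσ).herbrand =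
      ∏ v : primesOver K (T : Set Nat.Primes), (localDeg K L v.1 : ℚ)) :
    (principalSubgroup K ⊔ _root_.Fermat.Agent.CFT.ideleNormSubgroup K L).index =
      p * Nat.card (smulPair (M := ideleClass L) σ p hσ).H1 := by
  obtain ⟨hfin, hh⟩ := herbrand_ideleClass hσ hdeg hp2 hgen T hJ hJT hJTh
  have hord : orderOf σ = p := by
    rw [orderOf_eq_card_of_forall_mem_zpowers hgen, IsGalois.card_aut_eq_finrank, hdeg]
  rw [← ideleNormSubgroup_eq, index_principal_sup_norm hσ (principalIsIdele_numberField K)
    (principalIsIdele_numberField L) hgen hord]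
  have h1 : (Nat.card (smulPair (M := ideleClass L) σ p hσ).H1 : ℚ) ≠ 0 := by
    exact_mod_cast hfin.card_H1_pos.ne'
  unfold DNPair.herbrand at hh
  rw [div_eq_iff h1] at hh
  exact_mod_cast hh

include hdeg in
/-- **First inequality**: `Kˣ N J_L ≠ J_K` for a cyclic extension of odd prime degree. -/
theorem principal_sup_norm_ne_top [FiniteDimensional K L] [hp : Fact p.Prime] (hp2 : p ≠ 2)
    (hgen : ∀ g : L ≃ₐ[K] L, g ∈ Subgroup.zpowers σ) (T : Finset Nat.Primes)
    [Fintype (primesOver K (T : Set Nat.Primes))]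
    (hJ : ideleGroup L ≤ (principalIdele L).range ⊔ ideleGroupOutside L (T : Set Nat.Primes))
    (hJT : (smulPair (M := ideleGroupOutside L (T : Set Nat.Primes)) σ p hσ).IsHFinite)
    (hJTh : (smulPair (M := ideleGroupOutside L (T : Set Nat.Primes)) σ p hσ).herbrand =
      ∏ v : primesOver K (T : Set Nat.Primes), (localDeg K L v.1 : ℚ)) :
    principalSubgroup K ⊔ _root_.Fermat.Agent.CFT.ideleNormSubgroup K L ≠ ⊤ := by
  intro htop
  have h := index_principal_sup_norm_eq hσ hdeg hp2 hgen T hJ hJT hJTh
  rw [htop, Subgroup.index_top] at h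
  have h2 : p ∣ 1 := Dvd.intro _ h.symm
  exact hp.out.one_lt.ne' (Nat.dvd_one.1 h2)

end SUnits

end FirstIneq

end Fermat.Agent.CFT
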