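import Mathlib
import Fermat.Agent.CFT.Global.FirstIneqGlue
import Fermat.Agent.CFT.Global.SemiLocalCoh
import Fermat.Agent.CFT.Global.PlaceDict

/-!
# Layer C, node C2c: decomposition groups in the embedding model versus the ideal model

For `L/K` Galois number fields and `τ' : LocalEmb q L`:

* `decompAt_eq_stabilizer`: `decompAt K τ'` is the stabiliser of the prime `primeOf τ'` of `𝓞 L`;
* `localDeg_primeOfH_restrict`: helper5's local degree `localDeg K L v` at `v = primeOfH (τ'|_K)`
  is the order of `decompAt K τ'`;
* `prod_card_decompAt_eq`: `∏_{q ∈ T} ∏_{ω | q} |decompAt (placeLift ω)| = ∏_{v ∈ T_K} n_v`.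
-/

set_option autoImplicit false
set_option linter.style.haveILetI false
set_option linter.unusedSectionVars false

open scoped NumberField Pointwise

open IsDedekindDomain

noncomputable section

namespace Fermat.Agent.CFT

namespace FirstIneq

open IdeleDict HerbrandSUnits

variable {K L : Type} [Field K] [NumberField K] [Field L] [NumberField L] [Algebra K L]
  [IsGalois K L]

section Local

variable {q : ℕ} [Fact q.Prime]

theorem primeOf_comp_algEquiv (τ' : LocalEmb q L) (h : L ≃ₐ[K] L) :
    primeOf (τ'.comp (h : L →+* L)) = h⁻¹ • primeOf τ' := by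
  ext x
  rw [Ideal.mem_pointwise_smul_iff_inv_smul_mem, inv_inv, mem_primeOf, mem_primeOf]
  rfl

theorem decompAt_eq_stabilizer (τ' : LocalEmb q L) :
    decompAt K τ' = MulAction.stabilizer (L ≃ₐ[K] L) (primeOf τ') := by
  ext h
  rw [mem_decompAt_iff, ← primeOf_eq_iff_exists_smul, primeOf_comp_algEquiv,
    MulAction.mem_stabilizer_iff]
  exact eq_inv_smul_iff

theorem primeBelow_primeOfH (τ' : LocalEmb q L) :
    primeBelow K L (primeOfH τ') = primeOfH (localEmbRestrict K τ') := by
  apply HeightOneSpectrum.ext
  ext x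
  rfl

theorem localDeg_primeOfH_restrict (τ' : LocalEmb q L) :
    localDeg K L (primeOfH (localEmbRestrict K τ')) = Nat.card (decompAt K τ') := by
  rw [← primeBelow_primeOfH, localDeg_eq_card_stabilizer, decompAt_eq_stabilizer]
  rfl

theorem localDeg_primeOfH_emb (ω : LocalPlace q K) :
    localDeg K L (primeOfH ω.emb) = Nat.card (decompAt K (placeLift K ω : LocalEmb q L)) := by
  rw [← localDeg_primeOfH_restrict, localEmbRestrict_placeLift]

end Local

section Product

/-- Reindexing a product over the places above `T` as a product over the primes above `T`. -/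
theorem prod_places_eq_prod_primesOver (T : Finset Nat.Primes)
    [Fintype (primesOver K (T : Set Nat.Primes))]
    [∀ q : Nat.Primes, Fintype (LocalPlace (q : ℕ) K)]
    (g : HeightOneSpectrum (𝓞 K) → ℚ) :
    ∏ q ∈ T, ∏ ω : LocalPlace (q : ℕ) K, g (primeOfH ω.emb) =
      ∏ v : primesOver K (T : Set Nat.Primes), g v.1 := by
  classical
  rw [Finset.prod_sigma' T (fun q => (Finset.univ : Finset (LocalPlace (q : ℕ) K)))
    (fun q ω => g (primeOfH ω.emb))]
  have hmem : ∀ x : IdelePlace K, x ∈ T.sigma (fun q => (Finset.univ : Finset (LocalPlace (q : ℕ) K))) →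
      IdelePlace.prime x ∈ primesOver K (T : Set Nat.Primes) := by
    intro x hx
    rw [Finset.mem_sigma] at hx
    exact (primeOfH_mem_primesOver_iff x.2.emb).2 (by exact_mod_cast hx.1)
  refine Finset.prod_bij (fun x hx => (⟨IdelePlace.prime x, hmem x hx⟩ :
    primesOver K (T : Set Nat.Primes))) (fun _ _ => Finset.mem_univ _) ?_ ?_ (fun _ _ => rfl)
  · intro x _ y _ hxy
    exact IdelePlace.prime_injective (congrArg Subtype.val hxy)
  · rintro ⟨v, hv⟩ _
    obtain ⟨x, rfl⟩ := IdelePlace.prime_surjective v
    refine ⟨x, ?_, rfl⟩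
    rw [Finset.mem_sigma]
    refine ⟨?_, Finset.mem_univ _⟩
    have := (primeOfH_mem_primesOver_iff (T := (T : Set Nat.Primes)) x.2.emb).1 hv
    exact_mod_cast this

/-- **(β)** the product of the orders of the decomposition groups over the places above `T` is
the product of helper5's local degrees over the primes of `K` above `T`. -/
theorem prod_card_decompAt_eq (T : Finset Nat.Primes)
    [Fintype (primesOver K (T : Set Nat.Primes))]
    [∀ q : Nat.Primes, Fintype (LocalPlace (q : ℕ) K)] :
    ∏ q ∈ T, ∏ ω : LocalPlace (q : ℕ) K,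
        (Nat.card (decompAt K (placeLift K ω : LocalEmb (q : ℕ) L)) : ℚ) =
      ∏ v : primesOver K (T : Set Nat.Primes), (localDeg K L v.1 : ℚ) := by
  rw [← prod_places_eq_prod_primesOver T (fun v => (localDeg K L v : ℚ))]
  refine Finset.prod_congr rfl fun q _ => Finset.prod_congr rfl fun ω _ => ?_
  rw [localDeg_primeOfH_emb]

end Product

end FirstIneq

end Fermat.Agent.CFT
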