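import Fermat.Agent.CFT.Global.SemiLocalNorm
import Fermat.Agent.CFT.CoindDecompSub
import Fermat.Agent.CFT.Local.CyclicH2Vanish

/-!
# Layer C / C1a: the integral semi-local units (part 6)

`L/K` finite Galois extension of number fields, `H = Gal(L/K)`, `U_q(L) = semiLocalIntegral q L`.

* `localIntegralRep K τ'`: the units of norm one of `L_τ'` as a module over the decomposition
  group;
* `semiLocalIntegralTheta_bijective`: `U_q(L) = ∏_{v ∣ q} Coind_{H_w}^H U_w`;
* `bijective_semiLocalIntegralLoc₁/₂`: `Hⁿ(H, U_q L) ≅ ∏_v Hⁿ(H_w, U_w)`, `n = 1, 2`;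
* `IsUnramAt K τ'`: the local hypotheses (cyclic decomposition group, units are norms of units,
  value groups agree) which hold when `L_τ'/K_τ` is unramified;
* `semiLocalIntegral_h1TrivialOn`, `semiLocalIntegral_h2TrivialOn`,
  `semiLocalIntegral_normSurjOn`: the inputs `hU1`, `hU2`, `hU0` of `IdeleCoh.lean`.
-/

set_option autoImplicit false
set_option linter.unusedSectionVars false
set_option linter.style.haveILetI false

open scoped Pointwise

noncomputable section

namespace Fermat.Agent.CFT

open Fermat.Agent.CFT.GaloisTower CategoryTheory groupCohomology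

variable {q : ℕ} [Fact q.Prime] (K : Type) [Field K] {L : Type} [Field L] [Algebra K L]
  [Normal K L]

local notation "Ω" => PadicAlgCl q

/-! ### Units of norm one -/

variable (q) in
/-- The units of `ℚ̄_q` of norm one. -/
def normOneUnits : Subgroup Ωˣ where
  carrier := {w | ‖(w : Ω)‖ = 1}
  mul_mem' := by
    intro a b ha hb
    show ‖((a * b : Ωˣ) : Ω)‖ = 1
    rw [Units.val_mul, norm_mul, ha, hb, one_mul]
  one_mem' := by
    show ‖((1 : Ωˣ) : Ω)‖ = 1
    rw [Units.val_one, norm_one]
  inv_mem' := by
    intro a ha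
    show ‖((a⁻¹ : Ωˣ) : Ω)‖ = 1
    rw [Units.val_inv_eq_inv_val, norm_inv, ha, inv_one]

theorem mem_normOneUnits {w : Ωˣ} : w ∈ normOneUnits q ↔ ‖(w : Ω)‖ = 1 := Iff.rfl

/-- The units of norm one of the local layer `L_τ'`. -/
def localIntegralUnits (τ' : LocalEmb q L) : Subgroup (localLayer K τ')ˣ :=
  (normOneUnits q).comap (Units.map (algebraMap (localLayer K τ') Ω : localLayer K τ' →* Ω))

/-- The units of norm one, as a submodule of `localUnitsRep`. -/
def localIntegralSubmodule (τ' : LocalEmb q L) : Submodule ℤ (localUnitsRep K τ') :=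
  (AddSubgroup.toIntSubmodule (Subgroup.toAddSubgroup (localIntegralUnits K τ')) :
    Submodule ℤ (Additive (localLayer K τ')ˣ))

theorem mem_localIntegralSubmodule {τ' : LocalEmb q L} {u : localUnitsRep K τ'} :
    u ∈ localIntegralSubmodule K τ' ↔ ‖((localUnitsRep.val K τ' u : Ωˣ) : Ω)‖ = 1 := Iff.rfl

theorem localIntegralSubmodule_le_comap (τ' : LocalEmb q L) (s : decompAt K τ') :
    localIntegralSubmodule K τ' ≤
      (localIntegralSubmodule K τ').comap ((localUnitsRep K τ').ρ s) := by
  intro u hu
  obtain ⟨γ, hγ⟩ := s.2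
  show ‖((localUnitsRep.val K τ' ((localUnitsRep K τ').ρ s u) : Ωˣ) : Ω)‖ = 1
  rw [localUnitsRep.val_ρ K τ' γ s hγ.symm, gqUnitsHom_coe, norm_gq_apply]
  exact hu

/-- The units of norm one of `L_τ'` as a representation of the decomposition group. -/
abbrev localIntegralRep (τ' : LocalEmb q L) : Rep ℤ (decompAt K τ') :=
  (localUnitsRep K τ').subrepresentation (localIntegralSubmodule K τ')
    (localIntegralSubmodule_le_comap K τ')

/-! ### The integral semi-local units -/

theorem smulStable_semiLocalIntegral' :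
    SmulStable (L ≃ₐ[K] L) (semiLocalIntegral q L) :=
  fun σ _ hf => smul_mem_semiLocalIntegral σ hf

/-- The integral semi-local units as a submodule of `semiLocalRep`. -/
def semiLocalIntegralSubmodule : Submodule ℤ (semiLocalRep L (L ≃ₐ[K] L) q) :=
  subgroupIntSubmodule (G := L ≃ₐ[K] L) (semiLocalIntegral q L)

theorem mem_semiLocalIntegralSubmodule {a : semiLocalRep L (L ≃ₐ[K] L) q} :
    a ∈ semiLocalIntegralSubmodule (q := q) K (L := L) ↔
      Additive.toMul (a : Additive (semiLocalUnits q L)) ∈ semiLocalIntegral q L := Iff.rfl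

theorem semiLocalIntegralSubmodule_le_comap (σ : L ≃ₐ[K] L) :
    semiLocalIntegralSubmodule (q := q) K (L := L) ≤
      (semiLocalIntegralSubmodule (q := q) K (L := L)).comap
        ((semiLocalRep L (L ≃ₐ[K] L) q).ρ σ) :=
  subgroupIntSubmodule_le_comap (smulStable_semiLocalIntegral' K) σ

/-- The integral semi-local units as a representation of `Gal(L/K)`. -/
abbrev semiLocalIntegralRep : Rep ℤ (L ≃ₐ[K] L) :=
  (semiLocalRep L (L ≃ₐ[K] L) q).subrepresentation (semiLocalIntegralSubmodule K)
    (semiLocalIntegralSubmodule_le_comap K)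

theorem semiLocalTheta_mem_of_mem (a : semiLocalRep L (L ≃ₐ[K] L) q)
    (ha : a ∈ semiLocalIntegralSubmodule (q := q) K (L := L)) (ω : LocalPlace q K)
    (h : L ≃ₐ[K] L) :
    ((semiLocalTheta K (placeLift K ω)).hom a).1 h ∈
      localIntegralSubmodule K (placeLift K ω : LocalEmb q L) := by
  rw [mem_localIntegralSubmodule]
  show ‖((localUnitsRep.val K (placeLift K ω)
    ((semiLocalThetaFun K (placeLift K ω) (Additive.toMul a)).1 h) : Ωˣ) : Ω)‖ = 1
  rw [semiLocalThetaFun_val]
  exact ha _

theorem mem_of_semiLocalTheta_mem (a : semiLocalRep L (L ≃ₐ[K] L) q)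
    (ha : ∀ (ω : LocalPlace q K) (h : L ≃ₐ[K] L),
      ((semiLocalTheta K (placeLift K ω)).hom a).1 h ∈
        localIntegralSubmodule K (placeLift K ω : LocalEmb q L)) :
    a ∈ semiLocalIntegralSubmodule (q := q) K (L := L) := by
  intro τ''
  rw [LocalEmb.eq_smul_placeLift_comp K τ'', (Additive.toMul a : semiLocalUnits q L).2,
    gqUnitsHom_coe, norm_gq_apply]
  have := ha (localEmbRestrict K τ'').place (LocalEmb.toAut K τ'')
  rw [mem_localIntegralSubmodule] at this
  have h2 : ‖((localUnitsRep.val K (placeLift K (localEmbRestrict K τ'').place)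
    ((semiLocalThetaFun K (placeLift K (localEmbRestrict K τ'').place)
      (Additive.toMul a)).1 (LocalEmb.toAut K τ'')) : Ωˣ) : Ω)‖ = 1 := this
  rw [semiLocalThetaFun_val] at h2
  exact h2

/-- `U_q(L) ⟶ Coind_{H_w}^H U_w`. -/
def semiLocalIntegralTheta (ω : LocalPlace q K) :
    semiLocalIntegralRep (q := q) K (L := L) ⟶
      Rep.coind (decompAt K (placeLift K ω : LocalEmb q L)).subtype
        (localIntegralRep K (placeLift K ω)) :=
  CoindDecomp.subTheta (fun ω : LocalPlace q K => decompAt K (placeLift K ω : LocalEmb q L))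
    (fun ω => localUnitsRep K (placeLift K ω)) (fun ω => semiLocalTheta K (placeLift K ω))
    (semiLocalIntegralSubmodule K) (semiLocalIntegralSubmodule_le_comap K)
    (fun ω => localIntegralSubmodule K (placeLift K ω))
    (fun ω => localIntegralSubmodule_le_comap K (placeLift K ω))
    (semiLocalTheta_mem_of_mem K) ω

/-- **The integral semi-local units of `L` are the product over the places `v ∣ q` of `K` of the
modules coinduced from the local units `U_w`.** -/
theorem semiLocalIntegralTheta_bijective :
    Function.Bijective fun (a : semiLocalIntegralRep (q := q) K (L := L))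
        (ω : LocalPlace q K) => (semiLocalIntegralTheta K ω).hom a :=
  CoindDecomp.subTheta_bijective _ _ _ _ _ _ _ (semiLocalTheta_mem_of_mem K)
    (semiLocalTheta_bijective K) (mem_of_semiLocalTheta_mem K)

/-- The localisation `res_{H_w} U_q(L) ⟶ U_w`. -/
abbrev semiLocalIntegralLoc (ω : LocalPlace q K) :
    Rep.res (decompAt K (placeLift K ω : LocalEmb q L)).subtype
      (semiLocalIntegralRep (q := q) K (L := L)) ⟶ localIntegralRep K (placeLift K ω) :=
  (Rep.resFunctor (decompAt K (placeLift K ω : LocalEmb q L)).subtype).map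
      (semiLocalIntegralTheta K ω) ≫
    Cup.ev₁ (decompAt K (placeLift K ω : LocalEmb q L)) (localIntegralRep K (placeLift K ω))

/-- `H¹(H, U_q L) ≅ ∏_{v ∣ q} H¹(H_w, U_w)`. -/
theorem bijective_semiLocalIntegralLoc₁ [Finite (LocalPlace q K)] :
    Function.Bijective fun (x : groupCohomology (semiLocalIntegralRep (q := q) K (L := L)) 1)
        (ω : LocalPlace q K) =>
      groupCohomology.map (decompAt K (placeLift K ω : LocalEmb q L)).subtype
        (semiLocalIntegralLoc K ω) 1 x := by
  classical
  letI : Fintype (LocalPlace q K) := Fintype.ofFinite _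
  exact CoindDecomp.bijective_pi_map_locHom₁
    (fun ω : LocalPlace q K => decompAt K (placeLift K ω : LocalEmb q L))
    (fun ω => localIntegralRep K (placeLift K ω)) (fun ω => semiLocalIntegralTheta K ω)
    (semiLocalIntegralTheta_bijective K)

/-- `H²(H, U_q L) ≅ ∏_{v ∣ q} H²(H_w, U_w)`. -/
theorem bijective_semiLocalIntegralLoc₂ [Finite (LocalPlace q K)] :
    Function.Bijective fun (x : groupCohomology (semiLocalIntegralRep (q := q) K (L := L)) 2)
        (ω : LocalPlace q K) =>
      groupCohomology.map (decompAt K (placeLift K ω : LocalEmb q L)).subtype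
        (semiLocalIntegralLoc K ω) 2 x := by
  classical
  letI : Fintype (LocalPlace q K) := Fintype.ofFinite _
  exact CoindDecomp.bijective_pi_map_locHom₂
    (fun ω : LocalPlace q K => decompAt K (placeLift K ω : LocalEmb q L))
    (fun ω => localIntegralRep K (placeLift K ω)) (fun ω => semiLocalIntegralTheta K ω)
    (semiLocalIntegralTheta_bijective K)


/-! ### The local hypotheses -/

/-- The local hypotheses at `τ'` used for the cohomology of the integral semi-local units; they
hold when `L_τ'/K_τ` is unramified: the decomposition group is cyclic, units of `K_τ` are norms of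
units of `L_τ'`, and the value groups agree. -/
structure IsUnramAt (τ' : LocalEmb q L) : Prop where
  isCyclic : IsCyclic (decompAt K τ')
  exists_norm_eq : ∀ u : localFieldAt (localEmbRestrict K τ'), ‖(u : Ω)‖ = 1 →
    ∃ y : localLayer K τ', ‖(y : Ω)‖ = 1 ∧
      Algebra.norm (localFieldAt (localEmbRestrict K τ')) y = u
  exists_norm_eq_norm : ∀ y : localLayer K τ',
    ∃ z : localFieldAt (localEmbRestrict K τ'), ‖(z : Ω)‖ = ‖(y : Ω)‖

theorem localUnitsRep.val_neg (τ' : LocalEmb q L) (u : localUnitsRep K τ') :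
    localUnitsRep.val K τ' (-u) = (localUnitsRep.val K τ' u)⁻¹ := by
  rw [eq_inv_iff_mul_eq_one, ← localUnitsRep.val_add, neg_add_cancel, localUnitsRep.val_zero]

/-- The element of `localUnitsRep` attached to a nonzero element of `K_τ`. -/
def localUnitsRep.ofBase (τ' : LocalEmb q L) (z : localFieldAt (localEmbRestrict K τ'))
    (hz : z ≠ 0) : localUnitsRep K τ' :=
  Additive.ofMul (Units.mk0 (algebraMap (localFieldAt (localEmbRestrict K τ')) (localLayer K τ') z)
    (fun h0 => hz ((algebraMap (localFieldAt (localEmbRestrict K τ'))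
      (localLayer K τ')).injective (h0.trans (map_zero _).symm))))

theorem localUnitsRep.val_ofBase (τ' : LocalEmb q L) (z : localFieldAt (localEmbRestrict K τ'))
    (hz : z ≠ 0) : ((localUnitsRep.val K τ' (localUnitsRep.ofBase K τ' z hz) : Ωˣ) : Ω) = (z : Ω) :=
  rfl

theorem localUnitsRep.ρ_ofBase (τ' : LocalEmb q L) (z : localFieldAt (localEmbRestrict K τ'))
    (hz : z ≠ 0) (s : decompAt K τ') :
    (localUnitsRep K τ').ρ s (localUnitsRep.ofBase K τ' z hz) =
      localUnitsRep.ofBase K τ' z hz := by
  obtain ⟨γ, hγ⟩ := s.2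
  apply localUnitsRep.val_injective
  rw [localUnitsRep.val_ρ K τ' γ s hγ.symm]
  apply Units.ext
  rw [gqUnitsHom_coe, localUnitsRep.val_ofBase]
  exact γ.2 ⟨(z : Ω), z.2⟩

/-- `H¹(H_w, U_w) = 0` when the value groups agree (Hilbert 90). -/
theorem subsingleton_H1_localIntegralRep [NumberField L] (τ' : LocalEmb q L)
    (hv : ∀ y : localLayer K τ',
      ∃ z : localFieldAt (localEmbRestrict K τ'), ‖(z : Ω)‖ = ‖(y : Ω)‖) :
    Subsingleton (groupCohomology.H1 (localIntegralRep K τ')) := by
  haveI := finiteDimensional_localLayer K τ'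
  haveI := subsingleton_H1_localUnitsRep K τ'
  refine ⟨fun a b => ?_⟩
  have key : ∀ c : groupCohomology.H1 (localIntegralRep K τ'), c = 0 := by
    intro c
    induction c using groupCohomology.H1_induction_on with
    | h x =>
      rw [H1π_eq_zero_iff]
      -- the cocycle with values in `L_τ'ˣ`
      have hx' : (fun s => ((x s : localIntegralRep K τ') : localUnitsRep K τ')) ∈
          cocycles₁ (localUnitsRep K τ') := by
        rw [mem_cocycles₁_iff]
        intro s t
        exact congrArg Subtype.val ((mem_cocycles₁_iff (⇑x)).1 x.2 s t)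
      have h0 : (H1π (localUnitsRep K τ')).hom ⟨_, hx'⟩ = 0 := Subsingleton.elim _ _
      rw [H1π_eq_zero_iff] at h0
      obtain ⟨y, hy⟩ := h0
      obtain ⟨z, hz⟩ := hv ((Additive.toMul (y : Additive (localLayer K τ')ˣ) :
        (localLayer K τ')ˣ) : localLayer K τ')
      have hy0 : ((localUnitsRep.val K τ' y : Ωˣ) : Ω) ≠ 0 := Units.ne_zero _
      have hz0 : z ≠ 0 := by
        rintro rfl
        have h1 : ‖((0 : localFieldAt (localEmbRestrict K τ')) : Ω)‖ = 0 := by
          rw [ZeroMemClass.coe_zero, norm_zero]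
        rw [h1] at hz
        exact hy0 (norm_eq_zero.1 hz.symm)
      set Z := localUnitsRep.ofBase K τ' z hz0 with hZ
      have hmem : y - Z ∈ localIntegralSubmodule K τ' := by
        rw [mem_localIntegralSubmodule, sub_eq_add_neg, localUnitsRep.val_add,
          localUnitsRep.val_neg, Units.val_mul, Units.val_inv_eq_inv_val, norm_mul, norm_inv,
          localUnitsRep.val_ofBase, hz]
        exact mul_inv_cancel₀ (norm_ne_zero_iff.2 hy0)
      refine ⟨⟨y - Z, hmem⟩, ?_⟩
      funext s
      have h1 := congrFun hy s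
      rw [d₀₁_hom_apply] at h1 ⊢
      apply Subtype.ext
      show (localUnitsRep K τ').ρ s (y - Z) - (y - Z) = ((x s : localIntegralRep K τ') :
        localUnitsRep K τ')
      rw [map_sub, localUnitsRep.ρ_ofBase, sub_sub_sub_cancel_right]
      exact h1
  rw [key a, key b]

/-- Cyclic group in which all invariants are norms: `H²` vanishes. -/
theorem subsingleton_H2_of_isCyclic_of_norm {G : Type} [Group G] [Fintype G] [IsCyclic G]
    (B : Rep ℤ G)
    (hN : ∀ b : B, (∀ h : G, B.ρ h b = b) → ∃ y : B, B.norm.hom y = b) :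
    Subsingleton (groupCohomology.H2 B) := by
  obtain ⟨g, hg⟩ := IsCyclic.exists_generator (α := G)
  let _ : CommGroup G := IsCyclic.commGroup
  exact subsingleton_H2_of_forall_mem_range_norm B g hg hN

variable [FiniteDimensional K L]

open scoped Classical in
/-- `H²(H_w, U_w) = 0` when the decomposition group is cyclic and units are norms of units. -/
theorem subsingleton_H2_localIntegralRep [NumberField L] (τ' : LocalEmb q L)
    (hc : IsCyclic (decompAt K τ'))
    (hn : ∀ u : localFieldAt (localEmbRestrict K τ'), ‖(u : Ω)‖ = 1 →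
      ∃ y : localLayer K τ', ‖(y : Ω)‖ = 1 ∧
        Algebra.norm (localFieldAt (localEmbRestrict K τ')) y = u) :
    Subsingleton (groupCohomology.H2 (localIntegralRep K τ')) := by
  haveI := finiteDimensional_localLayer K τ'
  haveI := isGalois_localLayer K τ'
  haveI := hc
  apply subsingleton_H2_of_isCyclic_of_norm
  intro b hb
  -- the underlying element of `L_τ'` is fixed by the Galois group, hence lies in `K_τ`
  set β : localLayer K τ' := ((Additive.toMul ((b : localUnitsRep K τ') :
    Additive (localLayer K τ')ˣ) : (localLayer K τ')ˣ) : localLayer K τ') with hβ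
  have hfix : ∀ g : (localLayer K τ') ≃ₐ[localFieldAt (localEmbRestrict K τ')] (localLayer K τ'),
      g β = β := by
    intro g
    have h1 := congrArg Subtype.val (hb (decompEquiv K τ' g))
    have h2 : (localUnitsRep K τ').ρ (decompEquiv K τ' g) (b : localUnitsRep K τ') =
        (b : localUnitsRep K τ') := h1
    have h3 := congrArg (fun w : localUnitsRep K τ' =>
      ((Additive.toMul (w : Additive (localLayer K τ')ˣ) : (localLayer K τ')ˣ) :
        localLayer K τ')) h2
    have h4 : (decompEquiv K τ').symm (decompEquiv K τ' g) = g := MulEquiv.symm_apply_apply _ g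
    have h5 : ((decompEquiv K τ').symm (decompEquiv K τ' g)) β = β := h3
    rwa [h4] at h5
  obtain ⟨u, hu⟩ := (IsGalois.mem_range_algebraMap_iff_fixed (F := localFieldAt
    (localEmbRestrict K τ')) (E := localLayer K τ') β).2 hfix
  have hu1 : ‖(u : Ω)‖ = 1 := by
    have h1 : (u : Ω) = ((β : localLayer K τ') : Ω) := congrArg Subtype.val hu
    rw [h1]
    exact b.2
  obtain ⟨y, hy1, hyN⟩ := hn u hu1
  have hy0 : y ≠ 0 := by
    rintro rfl
    rw [ZeroMemClass.coe_zero, norm_zero] at hy1
    exact zero_ne_one hy1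
  set Y : localUnitsRep K τ' := Additive.ofMul (Units.mk0 y hy0) with hY
  have hYmem : Y ∈ localIntegralSubmodule K τ' := hy1
  refine ⟨⟨Y, hYmem⟩, ?_⟩
  apply Subtype.ext
  rw [norm_subrepresentation_coe]
  apply localUnitsRep.val_injective
  apply Units.ext
  have h1 : (localUnitsRep K τ').norm.hom Y = ∑ s : decompAt K τ', (localUnitsRep K τ').ρ s Y := by
    simp only [Rep.norm, Representation.norm]
    exact LinearMap.sum_apply _ _ _
  rw [h1, val_sum_ρ_eq_norm K τ' Y]
  show ((Algebra.norm (localFieldAt (localEmbRestrict K τ')) y :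
    localFieldAt (localEmbRestrict K τ')) : Ω) = _
  rw [hyN]
  exact congrArg Subtype.val hu

/-! ### The inputs of `IdeleCoh.lean` -/

/-- `H¹(Gal(L/K), U_q L) = 0` at an unramified prime (input `hU1`). -/
theorem semiLocalIntegral_h1TrivialOn [NumberField K] [NumberField L]
    (hunr : ∀ ω : LocalPlace q K, IsUnramAt K (placeLift K ω : LocalEmb q L)) :
    H1TrivialOn (L ≃ₐ[K] L) (semiLocalIntegral q L) := by
  apply h1TrivialOn_of_subsingleton_H1_subRep _ (smulStable_semiLocalIntegral' K)
  have hbij := bijective_semiLocalIntegralLoc₁ (q := q) K (L := L)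
  haveI : ∀ ω : LocalPlace q K, Subsingleton (groupCohomology
      (localIntegralRep K (placeLift K ω : LocalEmb q L)) 1) := fun ω =>
    subsingleton_H1_localIntegralRep K _ (hunr ω).exists_norm_eq_norm
  exact hbij.1.subsingleton

/-- `H²(Gal(L/K), U_q L) = 0` at an unramified prime (input `hU2`). -/
theorem semiLocalIntegral_h2TrivialOn [NumberField K] [NumberField L]
    (hunr : ∀ ω : LocalPlace q K, IsUnramAt K (placeLift K ω : LocalEmb q L)) :
    H2TrivialOn (L ≃ₐ[K] L) (semiLocalIntegral q L) := by
  apply h2TrivialOn_of_subsingleton_H2_subRep _ (smulStable_semiLocalIntegral' K)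
  have hbij := bijective_semiLocalIntegralLoc₂ (q := q) K (L := L)
  haveI : ∀ ω : LocalPlace q K, Subsingleton (groupCohomology
      (localIntegralRep K (placeLift K ω : LocalEmb q L)) 2) := fun ω =>
    subsingleton_H2_localIntegralRep K _ (hunr ω).isCyclic (hunr ω).exists_norm_eq
  exact hbij.1.subsingleton


/-! ### Norms -/

open scoped Classical in
theorem coindOfLocal_mem (τ' : LocalEmb q L) (Y : localUnitsRep K τ')
    (hY : Y ∈ localIntegralSubmodule K τ') (h : L ≃ₐ[K] L) :
    (coindOfLocal K τ' Y).1 h ∈ localIntegralSubmodule K τ' := by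
  by_cases hh : h ∈ decompAt K τ'
  · have h1 : (coindOfLocal K τ' Y).1 h = (localUnitsRep K τ').ρ ⟨h, hh⟩ Y := dif_pos hh
    rw [h1]
    exact localIntegralSubmodule_le_comap K τ' ⟨h, hh⟩ hY
  · have h1 : (coindOfLocal K τ' Y).1 h = 0 := dif_neg hh
    rw [h1]
    exact zero_mem _

/-- The semi-local unit with local components `coindOfLocal (y ω)` has norm `x`, when
`N (y ω) = x (placeLift ω)` for all places `ω` and `x` is invariant. -/
theorem prod_smul_eq_of_semiLocalTheta_eq [NumberField K] [NumberField L]
    {x : semiLocalUnits q L} (hx : ∀ σ : L ≃ₐ[K] L, σ • x = x)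
    (y : ∀ ω : LocalPlace q K, (localLayer K (placeLift K ω : LocalEmb q L))ˣ)
    (hy : ∀ ω : LocalPlace q K,
      ((Algebra.norm (localFieldAt (localEmbRestrict K (placeLift K ω : LocalEmb q L)))
        (y ω : localLayer K (placeLift K ω : LocalEmb q L)) :
          localFieldAt (localEmbRestrict K (placeLift K ω : LocalEmb q L))) : Ω) =
        ((x : LocalEmb q L → Ωˣ) (placeLift K ω) : Ω))
    (a : semiLocalRep L (L ≃ₐ[K] L) q)
    (ha : ∀ ω : LocalPlace q K, (semiLocalTheta K (placeLift K ω)).hom a =
      coindOfLocal K (placeLift K ω) (Additive.ofMul (y ω))) :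
    ∏ σ : L ≃ₐ[K] L, σ • (Additive.toMul a : semiLocalUnits q L) = x := by
  classical
  apply semiLocalUnits_ext_placeLift (K := K)
  intro ω h
  have hinv : ∀ (g : semiLocalUnits q L), (∀ σ : L ≃ₐ[K] L, σ • g = g) →
      (g : LocalEmb q L → Ωˣ) ((placeLift K ω : LocalEmb q L).comp (h : L →+* L)) =
        (g : LocalEmb q L → Ωˣ) (placeLift K ω) := by
    intro g hg
    have := congrArg (fun G : semiLocalUnits q L =>
      (G : LocalEmb q L → Ωˣ) (placeLift K ω)) (hg h)
    exact this
  rw [hinv _ (fun σ => smul_prod_smul K σ _), hinv x hx]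
  apply Units.ext
  rw [← hy ω, ← val_sum_semiLocalThetaFun]
  have h1 : semiLocalThetaFun K (placeLift K ω) (Additive.toMul a) =
      coindOfLocal K (placeLift K ω) (Additive.ofMul (y ω)) := ha ω
  rw [h1, sum_coindOfLocal, val_sum_ρ_eq_norm]
  rfl

/-- **Tate-0 for the semi-local units, place-indexed form**: an invariant semi-local unit is a norm
iff its value at (the chosen embedding above) every place `ω` of `K` is a local norm. The `Fintype`
instance on `Gal(L/K)` is arbitrary. -/
theorem semiLocal_exists_norm_eq_iff_place [NumberField K] [NumberField L]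
    [inst : Fintype (L ≃ₐ[K] L)] {x : semiLocalUnits q L} (hx : ∀ σ : L ≃ₐ[K] L, σ • x = x) :
    (∃ b : semiLocalUnits q L, ∏ σ : L ≃ₐ[K] L, σ • b = x) ↔
      ∀ ω : LocalPlace q K, ∃ y : (localLayer K (placeLift K ω : LocalEmb q L))ˣ,
        ((Algebra.norm (localFieldAt (localEmbRestrict K (placeLift K ω : LocalEmb q L)))
          (y : localLayer K (placeLift K ω : LocalEmb q L)) :
            localFieldAt (localEmbRestrict K (placeLift K ω : LocalEmb q L))) : Ω) =
          ((x : LocalEmb q L → Ωˣ) (placeLift K ω) : Ω) := by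
  have hinst : inst = AlgEquiv.fintype K L := Subsingleton.elim _ _
  subst hinst
  constructor
  · intro h ω
    exact ((semiLocal_exists_norm_eq_iff K x hx).1 h) (placeLift K ω)
  · intro hloc
    choose y hy using hloc
    obtain ⟨a, ha⟩ := (semiLocalTheta_bijective (q := q) K (L := L)).2
      fun ω => coindOfLocal K (placeLift K ω) (Additive.ofMul (y ω))
    exact ⟨Additive.toMul a, prod_smul_eq_of_semiLocalTheta_eq K hx y hy a (congrFun ha)⟩

/-- At an unramified prime, invariant integral semi-local units are norms of integral semi-local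
units (input `hU0`). -/
theorem semiLocalIntegral_normSurjOn [NumberField K] [NumberField L]
    [inst : Fintype (L ≃ₐ[K] L)]
    (hunr : ∀ ω : LocalPlace q K, IsUnramAt K (placeLift K ω : LocalEmb q L)) :
    NormSurjOn (L ≃ₐ[K] L) (semiLocalIntegral q L) := by
  have hinst : inst = AlgEquiv.fintype K L := Subsingleton.elim _ _
  subst hinst
  intro x hxU hx
  classical
  obtain ⟨g, hg⟩ := (mem_range_semiLocalMap_iff K x).2 hx
  have hloc : ∀ ω : LocalPlace q K, ∃ y : (localLayer K (placeLift K ω : LocalEmb q L))ˣ,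
      ‖((y : localLayer K (placeLift K ω : LocalEmb q L)) : Ω)‖ = 1 ∧
      ((Algebra.norm (localFieldAt (localEmbRestrict K (placeLift K ω : LocalEmb q L)))
        (y : localLayer K (placeLift K ω : LocalEmb q L)) :
          localFieldAt (localEmbRestrict K (placeLift K ω : LocalEmb q L))) : Ω) =
        ((x : LocalEmb q L → Ωˣ) (placeLift K ω) : Ω) := by
    intro ω
    have hval : ((x : LocalEmb q L → Ωˣ) (placeLift K ω) : Ω) =
        ((g : LocalEmb q K → Ωˣ) (localEmbRestrict K (placeLift K ω : LocalEmb q L)) : Ω) := by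
      rw [← hg]
      rfl
    have hmem : ((x : LocalEmb q L → Ωˣ) (placeLift K ω) : Ω) ∈
        localFieldAt (localEmbRestrict K (placeLift K ω : LocalEmb q L)) := by
      rw [hval]
      exact semiLocalUnits_apply_mem g _
    obtain ⟨y, hy1, hyN⟩ := (hunr ω).exists_norm_eq ⟨_, hmem⟩ (hxU (placeLift K ω))
    have hy0 : y ≠ 0 := by
      rintro rfl
      rw [ZeroMemClass.coe_zero, norm_zero] at hy1
      exact zero_ne_one hy1
    refine ⟨Units.mk0 y hy0, hy1, ?_⟩
    rw [Units.val_mk0, hyN]
  choose y hy1 hyN using hloc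
  obtain ⟨a, ha⟩ := (semiLocalTheta_bijective (q := q) K (L := L)).2
    fun ω => coindOfLocal K (placeLift K ω) (Additive.ofMul (y ω))
  refine ⟨Additive.toMul a, ?_, prod_smul_eq_of_semiLocalTheta_eq K hx y hyN a (congrFun ha)⟩
  apply mem_of_semiLocalTheta_mem K a
  intro ω h
  have h1 : (semiLocalTheta K (placeLift K ω)).hom a =
      coindOfLocal K (placeLift K ω) (Additive.ofMul (y ω)) := congrFun ha ω
  rw [h1]
  exact coindOfLocal_mem K _ _ (hy1 ω) h

/-! ### The `H²` criterion in cochain form -/

omit [FiniteDimensional K L] in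
/-- A 2-cocycle of the semi-local units is a coboundary iff all its localisations vanish
(class form). -/
theorem semiLocal_isMulCoboundary₂_iff_class [Finite (LocalPlace q K)]
    {f : (L ≃ₐ[K] L) × (L ≃ₐ[K] L) → semiLocalUnits q L} (hf : IsMulCocycle₂ f) :
    IsMulCoboundary₂ f ↔ ∀ ω : LocalPlace q K,
      groupCohomology.map (decompAt K (placeLift K ω : LocalEmb q L)).subtype
        (semiLocalLoc K (placeLift K ω)) 2
        (h2ClassOfIsMulCocycle₂ hf : groupCohomology (semiLocalRep L (L ≃ₐ[K] L) q) 2) = 0 := by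
  rw [← h2ClassOfIsMulCocycle₂_eq_zero_iff hf]
  exact semiLocal_h2_eq_zero_iff K _

omit [FiniteDimensional K L] in
/-- A 2-cocycle of the semi-local units is a coboundary iff for every place `ω` of `K` the local
cocycle `(s, t) ↦ f (s, t) (placeLift ω)` of the decomposition group with values in
`L_{placeLift ω}ˣ` is a coboundary. -/
theorem semiLocal_isMulCoboundary₂_iff [Finite (LocalPlace q K)]
    {f : (L ≃ₐ[K] L) × (L ≃ₐ[K] L) → semiLocalUnits q L} (hf : IsMulCocycle₂ f) :
    IsMulCoboundary₂ f ↔ ∀ ω : LocalPlace q K,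
      (fun p : decompAt K (placeLift K ω : LocalEmb q L) ×
          decompAt K (placeLift K ω : LocalEmb q L) =>
        (semiLocalLoc K (placeLift K ω : LocalEmb q L)).hom
          (Additive.ofMul (f ((p.1 : L ≃ₐ[K] L), (p.2 : L ≃ₐ[K] L))))) ∈
        coboundaries₂ (localUnitsRep K (placeLift K ω : LocalEmb q L)) := by
  rw [semiLocal_isMulCoboundary₂_iff_class K hf]
  refine forall_congr' fun ω => ?_
  have h1 : groupCohomology.map (decompAt K (placeLift K ω : LocalEmb q L)).subtype
      (semiLocalLoc K (placeLift K ω)) 2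
      (h2ClassOfIsMulCocycle₂ hf : groupCohomology (semiLocalRep L (L ≃ₐ[K] L) q) 2) =
      H2π (localUnitsRep K (placeLift K ω : LocalEmb q L))
        (mapCocycles₂ (decompAt K (placeLift K ω : LocalEmb q L)).subtype
          (semiLocalLoc K (placeLift K ω)) (cocyclesOfIsMulCocycle₂ hf)) :=
    H2π_comp_map_apply (decompAt K (placeLift K ω : LocalEmb q L)).subtype
      (semiLocalLoc K (placeLift K ω)) (cocyclesOfIsMulCocycle₂ hf)
  rw [h1, H2π_eq_zero_iff]
  rfl

end Fermat.Agent.CFT

end
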