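import Mathlib
import Fermat.Agent.CFT.Global.FirstIneqLocalDeg
import Fermat.Agent.CFT.Global.SemiLocalIntegral

/-!
# Layer C, node C2c: the first inequality from local inputs

`L/K` cyclic of odd prime degree `p` with generator `σ`.  Local inputs:

* `LocalHerbrand K L σ p hσ` **(α)**: for every rational prime `q`, the pair `smulPair σ p` on the
  semi-local units `A_q(L)` is `IsHFinite` with Herbrand quotient
  `∏_{ω | q} |decompAt K (placeLift K ω)|`;
* `hunr`: for almost all `q`, `IsUnramAt K (placeLift K ω)` for all places `ω | q` of `K`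
  (helper11's predicate).

Outputs: `herbrand_ideleClass_of_local` (`h(C_L) = p`), `index_principal_sup_norm_of_local`
(`[J_K : Kˣ N J_L] = p · |Ĥ¹(C_L)|`) and `principal_sup_norm_ne_top_of_local`.
-/

set_option autoImplicit false
set_option linter.style.haveILetI false
set_option linter.unusedSectionVars false

open scoped NumberField

open IsDedekindDomain

noncomputable section

namespace Fermat.Agent.CFT

namespace FirstIneq

open IdeleDict HerbrandSUnits

/-- **(γ)** a finite set of rational primes `T ⊇ T₀` with `J_L = Lˣ · J_{L,T}`. -/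
theorem exists_finset_primes_generating (L : Type) [Field L] [NumberField L]
    (T₀ : Finset Nat.Primes) :
    ∃ T : Finset Nat.Primes, T₀ ⊆ T ∧
      ideleGroup L ≤ (principalIdele L).range ⊔ ideleGroupOutside L (T : Set Nat.Primes) := by
  classical
  obtain ⟨S, hSfin, hS⟩ := exists_finite_generatesClassGroup (K := L)
  choose r hr using fun P : HeightOneSpectrum (𝓞 L) => exists_prime_mem P
  refine ⟨T₀ ∪ hSfin.toFinset.image r, Finset.subset_union_left, ?_⟩
  have hsub : S ⊆ primesOver L ((T₀ ∪ hSfin.toFinset.image r : Finset Nat.Primes) :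
      Set Nat.Primes) := by
    intro P hP
    refine ⟨r P, ?_, hr P⟩
    rw [Finset.mem_coe, Finset.mem_union]
    exact Or.inr (Finset.mem_image.2 ⟨P, hSfin.mem_toFinset.2 hP, rfl⟩)
  rw [ideleGroupOutside_eq_ideleOutside]
  exact ideleGroup_le_sup (hS.mono hsub)

variable {K L : Type} [Field K] [NumberField K] [Field L] [NumberField L] [Algebra K L]
  [IsGalois K L] [FiniteDimensional K L]

/-- **(α)** the local Herbrand quotients: `h(A_q(L)) = ∏_{ω | q} |decompAt ω|`. -/
def LocalHerbrand (K L : Type) [Field K] [NumberField K] [Field L] [NumberField L] [Algebra K L]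
    [IsGalois K L] (σ : L ≃ₐ[K] L) (p : ℕ) (hσ : σ ^ p = 1) : Prop :=
  ∀ (q : Nat.Primes) [Fintype (LocalPlace (q : ℕ) K)],
    (smulPair (M := semiLocalUnits (q : ℕ) L) σ p hσ).IsHFinite ∧
      (smulPair (M := semiLocalUnits (q : ℕ) L) σ p hσ).herbrand =
        ∏ ω : LocalPlace (q : ℕ) K,
          (Nat.card (decompAt K (placeLift K ω : LocalEmb (q : ℕ) L)) : ℚ)

variable {σ : L ≃ₐ[K] L} {p : ℕ} (hσ : σ ^ p = 1)

/-- The data needed by `FirstIneqGlue.lean`, from the local inputs. -/
theorem exists_finset_herbrand_outside (hord : orderOf σ = p)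
    (hgen : ∀ g : L ≃ₐ[K] L, g ∈ Subgroup.zpowers σ)
    (hα : LocalHerbrand K L σ p hσ)
    (hunr : ∀ᶠ q : Nat.Primes in Filter.cofinite,
      ∀ ω : LocalPlace (q : ℕ) K, IsUnramAt K (placeLift K ω : LocalEmb (q : ℕ) L)) :
    ∃ T : Finset Nat.Primes,
      ideleGroup L ≤ (principalIdele L).range ⊔ ideleGroupOutside L (T : Set Nat.Primes) ∧
      (smulPair (M := ideleGroupOutside L (T : Set Nat.Primes)) σ p hσ).IsHFinite ∧
      ∀ [Fintype (primesOver K (T : Set Nat.Primes))],
        (smulPair (M := ideleGroupOutside L (T : Set Nat.Primes)) σ p hσ).herbrand =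
          ∏ v : primesOver K (T : Set Nat.Primes), (localDeg K L v.1 : ℚ) := by
  classical
  have hfin : {q : Nat.Primes | ¬ ∀ ω : LocalPlace (q : ℕ) K,
      IsUnramAt K (placeLift K ω : LocalEmb (q : ℕ) L)}.Finite :=
    Filter.eventually_cofinite.1 hunr
  obtain ⟨T, hT₀, hJ⟩ := exists_finset_primes_generating L hfin.toFinset
  have hunrT : ∀ q : Nat.Primes, q ∉ T → ∀ ω : LocalPlace (q : ℕ) K,
      IsUnramAt K (placeLift K ω : LocalEmb (q : ℕ) L) := by
    intro q hq
    by_contra hcon
    exact hq (hT₀ (hfin.mem_toFinset.2 hcon))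
  letI : ∀ q : Nat.Primes, Fintype (LocalPlace (q : ℕ) K) := fun q => Fintype.ofFinite _
  obtain ⟨h1, h2⟩ := herbrand_ideleGroupOutside_of_cyclic (L := L) T hgen hord hσ
    (fun q hq => semiLocalIntegral_normSurjOn K (hunrT q hq))
    (fun q hq => semiLocalIntegral_h1TrivialOn K (hunrT q hq))
  refine ⟨T, hJ, h1 fun q _ => (hα q).1, ?_⟩
  intro _
  rw [h2, ← prod_card_decompAt_eq T]
  exact Finset.prod_congr rfl fun q _ => (hα q).2

theorem orderOf_eq_of_generator (hdeg : Module.finrank K L = p)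
    (hgen : ∀ g : L ≃ₐ[K] L, g ∈ Subgroup.zpowers σ) : orderOf σ = p := by
  rw [orderOf_eq_card_of_forall_mem_zpowers hgen, IsGalois.card_aut_eq_finrank, hdeg]

/-- **First inequality, Herbrand form, from the local inputs**: `h(C_L) = p`. -/
theorem herbrand_ideleClass_of_local [hp : Fact p.Prime] (hp2 : p ≠ 2)
    (hdeg : Module.finrank K L = p) (hgen : ∀ g : L ≃ₐ[K] L, g ∈ Subgroup.zpowers σ)
    (hα : LocalHerbrand K L σ p hσ)
    (hunr : ∀ᶠ q : Nat.Primes in Filter.cofinite,
      ∀ ω : LocalPlace (q : ℕ) K, IsUnramAt K (placeLift K ω : LocalEmb (q : ℕ) L)) :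
    (smulPair (M := ideleClass L) σ p hσ).IsHFinite ∧
      (smulPair (M := ideleClass L) σ p hσ).herbrand = p := by
  obtain ⟨T, hJ, hJT, hJTh⟩ := exists_finset_herbrand_outside hσ
    (orderOf_eq_of_generator hdeg hgen) hgen hα hunr
  letI : Fintype (primesOver K (T : Set Nat.Primes)) := Fintype.ofFinite _
  exact herbrand_ideleClass hσ hdeg hp2 hgen T hJ hJT hJTh

/-- **First inequality, index form, from the local inputs**:
`[J_K : Kˣ N J_L] = p · |Ĥ¹(C_L)|`. -/
theorem index_principal_sup_norm_of_local [hp : Fact p.Prime] (hp2 : p ≠ 2)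
    (hdeg : Module.finrank K L = p) (hgen : ∀ g : L ≃ₐ[K] L, g ∈ Subgroup.zpowers σ)
    (hα : LocalHerbrand K L σ p hσ)
    (hunr : ∀ᶠ q : Nat.Primes in Filter.cofinite,
      ∀ ω : LocalPlace (q : ℕ) K, IsUnramAt K (placeLift K ω : LocalEmb (q : ℕ) L)) :
    (principalSubgroup K ⊔ _root_.Fermat.Agent.CFT.ideleNormSubgroup K L).index =
      p * Nat.card (smulPair (M := ideleClass L) σ p hσ).H1 := by
  obtain ⟨T, hJ, hJT, hJTh⟩ := exists_finset_herbrand_outside hσ
    (orderOf_eq_of_generator hdeg hgen) hgen hα hunr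
  letI : Fintype (primesOver K (T : Set Nat.Primes)) := Fintype.ofFinite _
  exact index_principal_sup_norm_eq hσ hdeg hp2 hgen T hJ hJT hJTh

/-- **First inequality from the local inputs**: `Kˣ N J_L ≠ J_K`. -/
theorem principal_sup_norm_ne_top_of_local [hp : Fact p.Prime] (hp2 : p ≠ 2)
    (hdeg : Module.finrank K L = p) (hgen : ∀ g : L ≃ₐ[K] L, g ∈ Subgroup.zpowers σ)
    (hα : LocalHerbrand K L σ p hσ)
    (hunr : ∀ᶠ q : Nat.Primes in Filter.cofinite,
      ∀ ω : LocalPlace (q : ℕ) K, IsUnramAt K (placeLift K ω : LocalEmb (q : ℕ) L)) :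
    principalSubgroup K ⊔ _root_.Fermat.Agent.CFT.ideleNormSubgroup K L ≠ ⊤ := by
  obtain ⟨T, hJ, hJT, hJTh⟩ := exists_finset_herbrand_outside hσ
    (orderOf_eq_of_generator hdeg hgen) hgen hα hunr
  letI : Fintype (primesOver K (T : Set Nat.Primes)) := Fintype.ofFinite _
  exact principal_sup_norm_ne_top hσ hdeg hp2 hgen T hJ hJT hJTh

end FirstIneq

end Fermat.Agent.CFT
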