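import Mathlib
import Fermat.Agent.CFT.Global.FirstIneqFinal
import Fermat.Agent.CFT.Global.IdeleDict.DictUnram

/-!
# Layer C, node C2c: the first inequality from the local Herbrand quotients only

The unramifiedness hypothesis of `FirstIneqFinal.lean` is discharged by helper14's
`IdeleDict.exists_finset_isUnramAt`.  The only remaining input is `LocalHerbrand` **(α)**.

* `first_inequality_of_localHerbrand`: in the shape consumed by C3A / C7:
  `[IsCyclic (L ≃ₐ[K] L)]`, `finrank K L = p`, `p` an odd prime ⟹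
  `principalSubgroup K ⊔ ideleNormSubgroup K L ≠ ⊤`.
-/

set_option autoImplicit false
set_option linter.style.haveILetI false
set_option linter.unusedSectionVars false

noncomputable section

namespace Fermat.Agent.CFT

namespace FirstIneq

variable {K L : Type} [Field K] [NumberField K] [Field L] [NumberField L] [Algebra K L]
  [IsGalois K L] [FiniteDimensional K L]

/-- Almost all primes satisfy helper11's `IsUnramAt` at every place. -/
theorem eventually_isUnramAt :
    ∀ᶠ q : Nat.Primes in Filter.cofinite,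
      ∀ ω : LocalPlace (q : ℕ) K, IsUnramAt K (placeLift K ω : LocalEmb (q : ℕ) L) := by
  obtain ⟨T, hT⟩ := IdeleDict.exists_finset_isUnramAt K L
  rw [Filter.eventually_cofinite]
  refine T.finite_toSet.subset fun q hq => ?_
  by_contra hqT
  exact hq fun ω => hT q hqT _

variable {σ : L ≃ₐ[K] L} {p : ℕ} (hσ : σ ^ p = 1)

/-- `h(C_L) = p` from the local Herbrand quotients. -/
theorem herbrand_ideleClass_of_localHerbrand [hp : Fact p.Prime] (hp2 : p ≠ 2)
    (hdeg : Module.finrank K L = p) (hgen : ∀ g : L ≃ₐ[K] L, g ∈ Subgroup.zpowers σ)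
    (hα : LocalHerbrand K L σ p hσ) :
    (smulPair (M := ideleClass L) σ p hσ).IsHFinite ∧
      (smulPair (M := ideleClass L) σ p hσ).herbrand = p :=
  herbrand_ideleClass_of_local hσ hp2 hdeg hgen hα eventually_isUnramAt

/-- `[J_K : Kˣ N J_L] = p · |Ĥ¹(C_L)|` from the local Herbrand quotients. -/
theorem index_principal_sup_norm_of_localHerbrand [hp : Fact p.Prime] (hp2 : p ≠ 2)
    (hdeg : Module.finrank K L = p) (hgen : ∀ g : L ≃ₐ[K] L, g ∈ Subgroup.zpowers σ)
    (hα : LocalHerbrand K L σ p hσ) :
    (principalSubgroup K ⊔ _root_.Fermat.Agent.CFT.ideleNormSubgroup K L).index =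
      p * Nat.card (smulPair (M := ideleClass L) σ p hσ).H1 :=
  index_principal_sup_norm_of_local hσ hp2 hdeg hgen hα eventually_isUnramAt

/-- **First inequality** in the shape of C3A / C7, from the local Herbrand quotients. -/
theorem first_inequality_of_localHerbrand [IsCyclic (L ≃ₐ[K] L)] {p : ℕ} [hp : Fact p.Prime]
    (hp2 : p ≠ 2) (hdeg : Module.finrank K L = p)
    (hα : ∀ (σ : L ≃ₐ[K] L) (hσ : σ ^ p = 1), (∀ g : L ≃ₐ[K] L, g ∈ Subgroup.zpowers σ) →
      LocalHerbrand K L σ p hσ) :
    principalSubgroup K ⊔ _root_.Fermat.Agent.CFT.ideleNormSubgroup K L ≠ ⊤ := by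
  obtain ⟨σ, hgen⟩ := IsCyclic.exists_generator (α := L ≃ₐ[K] L)
  have hord : orderOf σ = p := orderOf_eq_of_generator hdeg hgen
  have hσ : σ ^ p = 1 := by rw [← hord]; exact pow_orderOf_eq_one σ
  exact principal_sup_norm_ne_top_of_local hσ hp2 hdeg hgen (hα σ hσ hgen) eventually_isUnramAt

end FirstIneq

end Fermat.Agent.CFT
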