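import Mathlib
import Fermat.Agent.CFT.Global.CyclicBridge
import Fermat.Agent.CFT.Global.SemiLocalIntegral
import Fermat.Agent.CFT.Global.BoxIndex
import Fermat.Agent.CFT.Global.KummerLocal
import Fermat.Agent.CFT.Local.NormIndexCyclic

/-!
# Layer C / C2c (α): the local Herbrand quotient of the semi-local units

`L/K` a cyclic extension of number fields with generator `σ` of order `n`, `q` a prime,
`A_q(L) = semiLocalUnits q L` with its `Gal(L/K)`-action, `P = smulPair σ n` the `DNPair`
`(σ - 1, 1 + σ + ⋯ + σ^(n-1))` on `Additive A_q(L)`.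

* abstract part: `subsingleton_H1_of_h1TrivialOn`; `normSubgroup ι` (elements of `M₀` whose image
  under `ι : M₀ → M` is a norm), `toH0`, `card_H0_eq_index_normSubgroup`:
  `|Ĥ⁰(M)| = [M₀ : N M]` when `ι` identifies `M₀` with `M^H`;
* `localNormGroup K τ' τ₁`, `normSubgroup_semiLocalMap_eq` (the norm subgroup of `A_q(K)` is the box
  of the local norm groups, from the Tate-0 criterion), `index_box`,
  `index_normSubgroup_semiLocalMap`;
* `index_localNormGroup`: `[K_ωˣ : N L_wˣ] = |decompAt|` (local norm index theorem);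
* **`herbrand_semiLocalUnits`**: `P.IsHFinite ∧ P.herbrand = ∏_ω |decompAt K (placeLift K ω)|`.
-/

set_option autoImplicit false
set_option linter.unusedSectionVars false
set_option linter.style.haveILetI false

noncomputable section

namespace Fermat.Agent.CFT

namespace SemiLocalHerbrand

open Fermat.Agent.CFT.Tower Fermat.Agent.CFT.PadicTower Fermat.Agent.CFT.GaloisTower

section Abstract

variable {H M M₀ : Type} [Group H] [Fintype H] [CommGroup M] [MulDistribMulAction H M]
  [CommGroup M₀]

/-- `Ĥ¹ = 0` in `DNPair` form from `H1TrivialOn H ⊤`. -/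
theorem subsingleton_H1_of_h1TrivialOn {σ : H} (hσ : ∀ g : H, g ∈ Subgroup.zpowers σ) {n : ℕ}
    (hn : orderOf σ = n) (hσn : σ ^ n = 1) (hU : H1TrivialOn H (⊤ : Subgroup M)) :
    Subsingleton (smulPair (M := M) σ n hσn).H1 := by
  refine subsingleton_of_forall_eq 0 fun c => ?_
  obtain ⟨a, ha, rfl⟩ := (smulPair (M := M) σ n hσn).mk1_surjective c
  rw [DNPair.mk1_eq_zero_iff]
  obtain ⟨c', -, hc'⟩ := exists_D_eq_of_h1TrivialOn hσ hn hσn smulStable_top hU a
    (Subgroup.mem_top _) ha
  exact ⟨c', hc'⟩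

variable (ι : M₀ →* M) {σ : H} {n : ℕ} (hσn : σ ^ n = 1)

/-- The subgroup of `M₀` of elements whose image in `M` is a norm. -/
def normSubgroup : Subgroup M₀ where
  carrier := {x | ∃ z : M, ∏ g : H, g • z = ι x}
  mul_mem' := by
    rintro x y ⟨z, hz⟩ ⟨w, hw⟩
    refine ⟨z * w, ?_⟩
    simp only [smul_mul', Finset.prod_mul_distrib, hz, hw, map_mul]
  one_mem' := ⟨1, by simp⟩
  inv_mem' := by
    rintro x ⟨z, hz⟩
    refine ⟨z⁻¹, ?_⟩
    simp only [smul_inv', Finset.prod_inv_distrib, hz, map_inv]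

theorem mem_normSubgroup {x : M₀} :
    x ∈ normSubgroup (H := H) ι ↔ ∃ z : M, ∏ g : H, g • z = ι x := Iff.rfl

theorem D_apply_eq_zero_of_invariant (hinv : ∀ (x : M₀) (g : H), g • ι x = ι x) (x : M₀) :
    (smulPair (M := M) σ n hσn).D (Additive.ofMul (ι x)) = 0 := by
  rw [smulPair_D_apply]
  show Additive.ofMul (σ • ι x / ι x) = 0
  rw [hinv, div_self']
  rfl

/-- The map `M₀ → Ĥ⁰(M)`. -/
def toH0 (hinv : ∀ (x : M₀) (g : H), g • ι x = ι x) :
    Additive M₀ →+ (smulPair (M := M) σ n hσn).H0 :=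
  (QuotientAddGroup.mk' _).comp
    ((MonoidHom.toAdditive ι).codRestrict (smulPair (M := M) σ n hσn).D.ker
      (fun y => AddMonoidHom.mem_ker.mpr (D_apply_eq_zero_of_invariant ι hσn hinv y.toMul)))

theorem toH0_apply (hinv : ∀ (x : M₀) (g : H), g • ι x = ι x) (y : M₀) :
    toH0 ι hσn hinv (Additive.ofMul y) = (smulPair (M := M) σ n hσn).mk0
      (Additive.ofMul (ι y)) (D_apply_eq_zero_of_invariant ι hσn hinv y) := rfl

theorem toH0_surjective (hinv : ∀ (x : M₀) (g : H), g • ι x = ι x)
    (hrange : ∀ f : M, (∀ g : H, g • f = f) → ∃ x, ι x = f)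
    (hσ : ∀ g : H, g ∈ Subgroup.zpowers σ) :
    Function.Surjective (toH0 ι hσn hinv) := by
  intro c
  obtain ⟨a, ha, hc⟩ := (smulPair (M := M) σ n hσn).mk0_surjective c
  have hfix : σ • a.toMul = a.toMul := by
    rw [smulPair_D_apply] at ha
    have : σ • a.toMul / a.toMul = 1 := ha
    exact div_eq_one.1 this
  have hfix' : ∀ g : H, g • a.toMul = a.toMul := by
    intro g
    obtain ⟨k, rfl⟩ := Subgroup.mem_zpowers_iff.1 (hσ g)
    have hstab : σ ∈ MulAction.stabilizer H a.toMul := hfix
    exact (MulAction.stabilizer H a.toMul).zpow_mem hstab k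
  obtain ⟨x, hx⟩ := hrange a.toMul hfix'
  refine ⟨Additive.ofMul x, ?_⟩
  rw [toH0_apply, ← hc]
  exact DNPair.mk0_congr _ (congrArg Additive.ofMul hx) _

theorem toH0_eq_zero_iff (hinv : ∀ (x : M₀) (g : H), g • ι x = ι x)
    (hσ : ∀ g : H, g ∈ Subgroup.zpowers σ) (hn : orderOf σ = n) (y : M₀) :
    toH0 ι hσn hinv (Additive.ofMul y) = 0 ↔ y ∈ normSubgroup (H := H) ι := by
  rw [toH0_apply, DNPair.mk0_eq_zero_iff, mem_normSubgroup]
  have hN : ∀ z : M, (smulPair (M := M) σ n hσn).N (Additive.ofMul z) =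
      Additive.ofMul (∏ g : H, g • z) := by
    intro z
    rw [smulPair_N_apply, prod_univ_smul_eq_prod_range hσ, hn]
    rfl
  constructor
  · rintro ⟨b, hb⟩
    refine ⟨b.toMul, ?_⟩
    have := hN b.toMul
    rw [ofMul_toMul, hb] at this
    exact (Additive.ofMul.injective this).symm
  · rintro ⟨z, hz⟩
    exact ⟨Additive.ofMul z, by rw [hN, hz]⟩

/-- `|Ĥ⁰(M)| = [M₀ : N M]` when `M₀ ≅ M^H`. -/
theorem card_H0_eq_index_normSubgroup (hinv : ∀ (x : M₀) (g : H), g • ι x = ι x)
    (hrange : ∀ f : M, (∀ g : H, g • f = f) → ∃ x, ι x = f)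
    (hσ : ∀ g : H, g ∈ Subgroup.zpowers σ) (hn : orderOf σ = n) :
    Nat.card (smulPair (M := M) σ n hσn).H0 = (normSubgroup (H := H) ι).index := by
  have hker : (toH0 ι hσn hinv).ker = Subgroup.toAddSubgroup (normSubgroup (H := H) ι) := by
    ext y
    rw [AddMonoidHom.mem_ker]
    exact toH0_eq_zero_iff ι hσn hinv hσ hn y.toMul
  rw [← Subgroup.index_toAddSubgroup, ← hker, AddSubgroup.index_ker,
    AddMonoidHom.range_eq_top.2 (toH0_surjective ι hσn hinv hrange hσ), AddSubgroup.card_top]

end Abstract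

section SemiLocal

variable {q : ℕ} [Fact q.Prime] (K : Type) [Field K] {L : Type} [Field L] [Algebra K L]

local notation "Ω" => PadicAlgCl q

/-- The inclusion `Eˣ → ℚ̄_qˣ`. -/
def unitsToOmega (E : IntermediateField ℚ_[q] (PadicAlgCl q)) : Eˣ →* (PadicAlgCl q)ˣ :=
  Units.map ((algebraMap E (PadicAlgCl q) : E →+* PadicAlgCl q) : E →* PadicAlgCl q)

theorem unitsToOmega_coe (E : IntermediateField ℚ_[q] (PadicAlgCl q)) (u : Eˣ) :
    ((unitsToOmega E u : Ωˣ) : Ω) = ((u : E) : Ω) := rfl

theorem unitsToOmega_injective (E : IntermediateField ℚ_[q] (PadicAlgCl q)) :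
    Function.Injective (unitsToOmega E) := by
  intro u v h
  apply Units.ext
  apply Subtype.ext
  have := congrArg (fun w : Ωˣ => (w : Ω)) h
  exact this

/-- The elements of `(K_{τ₁})ˣ` which are (as elements of `ℚ̄_q`) norms from `L_{τ'}` to
`K_{τ'|K}`. -/
def localNormGroup (τ' : LocalEmb q L) (τ₁ : LocalEmb q K) : Subgroup (localFieldAt τ₁)ˣ :=
  ((MonoidHom.range (Units.map (Algebra.norm (localFieldAt (localEmbRestrict K τ')) :
      layer (localFieldAt_restrict_le K τ') →* localFieldAt (localEmbRestrict K τ')))).map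
    (unitsToOmega (localFieldAt (localEmbRestrict K τ')))).comap (unitsToOmega (localFieldAt τ₁))

theorem mem_localNormGroup {τ' : LocalEmb q L} {τ₁ : LocalEmb q K} {u : (localFieldAt τ₁)ˣ} :
    u ∈ localNormGroup K τ' τ₁ ↔ ∃ y : (layer (localFieldAt_restrict_le K τ'))ˣ,
      ((Algebra.norm (localFieldAt (localEmbRestrict K τ'))
        (y : layer (localFieldAt_restrict_le K τ')) : localFieldAt (localEmbRestrict K τ')) : Ω) =
        ((u : localFieldAt τ₁) : Ω) := by
  rw [localNormGroup, Subgroup.mem_comap, Subgroup.mem_map]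
  constructor
  · rintro ⟨v, ⟨y, rfl⟩, hv⟩
    refine ⟨y, ?_⟩
    have := congrArg (fun w : Ωˣ => (w : Ω)) hv
    exact this
  · rintro ⟨y, hy⟩
    refine ⟨_, ⟨y, rfl⟩, ?_⟩
    apply Units.ext
    exact hy

variable [Normal K L] [FiniteDimensional K L] [NumberField K] [NumberField L]

/-- The norm subgroup of `A_q(K)` is the box of the local norm groups. -/
theorem normSubgroup_semiLocalMap_eq :
    normSubgroup (H := L ≃ₐ[K] L) (M := semiLocalUnits q L) (M₀ := semiLocalUnits q K)
        (semiLocalMap (q := q) (algebraMap K L)) =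
      (box fun ω : LocalPlace q K =>
        localNormGroup K (placeLift K ω : LocalEmb q L) ω.emb).comap
        (semiLocalEvalEquiv (q := q) (K := K)).toMonoidHom := by
  ext x
  rw [mem_normSubgroup, Subgroup.mem_comap, mem_box,
    semiLocal_exists_norm_eq_iff_place K (fun σ => smul_semiLocalMap_algebraMap K σ x)]
  refine forall_congr' fun ω => ?_
  rw [mem_localNormGroup]
  refine exists_congr fun y => ?_
  have h1 : ((semiLocalMap (algebraMap K L) x : semiLocalUnits q L) : LocalEmb q L → Ωˣ)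
      (placeLift K ω) = (x : LocalEmb q K → Ωˣ) ω.emb := by
    rw [semiLocalMap_apply]
    exact congrArg _ (localEmbRestrict_placeLift K ω)
  have h2 : ((((semiLocalEvalEquiv (q := q) (K := K)).toMonoidHom x ω :
      (localFieldAt ω.emb)ˣ) : localFieldAt ω.emb) : Ω) =
      ((x : LocalEmb q K → Ωˣ) ω.emb : Ω) := rfl
  rw [h1, h2]

/-- The index of a box of subgroups over a finite index set. -/
theorem index_box {V : Type} [Fintype V] {A : V → Type} [∀ v, CommGroup (A v)]
    (B : ∀ v, Subgroup (A v)) : (box B).index = ∏ v, (B v).index := by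
  have h := relIndex_box B (fun _ => ⊤) Finset.univ (fun v hv => absurd (Finset.mem_univ v) hv)
  have htop : box (fun v => (⊤ : Subgroup (A v))) = ⊤ := by
    ext x
    simp [mem_box]
  rw [htop, Subgroup.relIndex_top_right] at h
  rw [h]
  exact Finset.prod_congr rfl fun v _ => Subgroup.relIndex_top_right _

/-- `[A_q(K) : N A_q(L)] = ∏_ω [K_ωˣ : N L_wˣ]`. -/
theorem index_normSubgroup_semiLocalMap [Fintype (LocalPlace q K)] :
    (normSubgroup (H := L ≃ₐ[K] L) (M := semiLocalUnits q L) (M₀ := semiLocalUnits q K)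
        (semiLocalMap (q := q) (algebraMap K L))).index =
      ∏ ω : LocalPlace q K, (localNormGroup K (placeLift K ω : LocalEmb q L) ω.emb).index := by
  rw [normSubgroup_semiLocalMap_eq,
    Subgroup.index_comap_of_surjective _ (semiLocalEvalEquiv (q := q) (K := K)).surjective,
    index_box]

/-- The local norm index is the order of the decomposition group (cyclic case). -/
theorem index_localNormGroup [IsCyclic (L ≃ₐ[K] L)] (τ' : LocalEmb q L)
    (τ₁ : LocalEmb q K) (h : localEmbRestrict K τ' = τ₁) :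
    (localNormGroup K τ' τ₁).index = Nat.card (decompAt K τ') := by
  haveI : IsGalois K L := ⟨⟩
  subst h
  rw [localNormGroup, Subgroup.comap_map_eq_self_of_injective (unitsToOmega_injective _),
    ← KummerLocal.finrank_localLayer_eq_card]
  haveI := finiteDimensional_localFieldAt (localEmbRestrict K τ')
  haveI := finiteDimensional_localFieldAt τ'
  haveI := PadicTower.intRing_isDiscreteValuationRing q (localFieldAt (localEmbRestrict K τ'))
  haveI := PadicTower.intRing_isAdicComplete q (localFieldAt (localEmbRestrict K τ'))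
  haveI := PadicTower.intRing_finite_residueField q (localFieldAt (localEmbRestrict K τ'))
  haveI := PadicTower.intRing_isFractionRing q (localFieldAt (localEmbRestrict K τ'))
  haveI := finiteDimensional_localLayer K τ'
  haveI := isGalois_localLayer K τ'
  haveI : IsCyclic ((localLayer K τ') ≃ₐ[localFieldAt (localEmbRestrict K τ')]
      (localLayer K τ')) :=
    isCyclic_of_surjective (decompEquiv K τ').symm (decompEquiv K τ').symm.surjective
  exact normIndex_eq_finrank (intRing q (localFieldAt (localEmbRestrict K τ')))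
    (localFieldAt (localEmbRestrict K τ')) (localLayer K τ')

/-- **(α) The local Herbrand quotient**: for a cyclic extension `L/K` of number fields with
generator `σ` of order `n` and a prime `q`: `Ĥ¹(A_q(L)) = 0`, `Ĥ⁰(A_q(L))` is finite and
`h(A_q(L)) = ∏_{ω ∣ q} |decompAt ω|` (product over the places of `K` above `q`). -/
theorem herbrand_semiLocalUnits [Fintype (LocalPlace q K)] {σ : L ≃ₐ[K] L}
    (hσ : ∀ g : L ≃ₐ[K] L, g ∈ Subgroup.zpowers σ) {n : ℕ} (hn : orderOf σ = n)
    (hσn : σ ^ n = 1) :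
    (smulPair (M := semiLocalUnits q L) σ n hσn).IsHFinite ∧
      (smulPair (M := semiLocalUnits q L) σ n hσn).herbrand =
        ∏ ω : LocalPlace q K, (Nat.card (decompAt K (placeLift K ω : LocalEmb q L)) : ℚ) := by
  haveI : IsCyclic (L ≃ₐ[K] L) := ⟨⟨σ, hσ⟩⟩
  haveI hH1 : Subsingleton (smulPair (M := semiLocalUnits q L) σ n hσn).H1 :=
    subsingleton_H1_of_h1TrivialOn hσ hn hσn (semiLocal_h1TrivialOn K)
  have hcard : Nat.card (smulPair (M := semiLocalUnits q L) σ n hσn).H0 =
      ∏ ω : LocalPlace q K, Nat.card (decompAt K (placeLift K ω : LocalEmb q L)) := by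
    rw [card_H0_eq_index_normSubgroup (M := semiLocalUnits q L) (M₀ := semiLocalUnits q K)
      (semiLocalMap (q := q) (algebraMap K L)) hσn
      (fun x g => smul_semiLocalMap_algebraMap K g x)
      (fun f hf => (mem_range_semiLocalMap_iff K f).2 hf) hσ hn,
      index_normSubgroup_semiLocalMap]
    exact Finset.prod_congr rfl fun ω _ =>
      index_localNormGroup K _ _ (localEmbRestrict_placeLift K ω)
  have hpos : ∏ ω : LocalPlace q K, Nat.card (decompAt K (placeLift K ω : LocalEmb q L)) ≠ 0 := by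
    rw [Finset.prod_ne_zero_iff]
    intro ω _
    exact Nat.card_pos.ne'
  have hfin : Finite (smulPair (M := semiLocalUnits q L) σ n hσn).H0 := by
    apply Nat.finite_of_card_ne_zero
    rw [hcard]
    exact hpos
  refine ⟨⟨hfin, inferInstance⟩, ?_⟩
  unfold DNPair.herbrand
  rw [hcard, Nat.card_unique, Nat.cast_one, div_one, Nat.cast_prod]

end SemiLocal

end SemiLocalHerbrand

end Fermat.Agent.CFT

end
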