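import Mathlib
import Fermat.Agent.CFT.Global.ClassFormationCyclic
import Fermat.Agent.CFT.Global.FirstIneqUnram
import Fermat.Agent.CFT.Global.SemiLocalHerbrand

/-!
# CFT, Layer C (C4-inst, part 3): the class formation inequalities for odd `p`, unconditionally

The first inequality `h(C_L) = p` for cyclic extensions of odd prime degree `p`
(`FirstIneqUnram.lean` + the local Herbrand quotients of `SemiLocalHerbrand.lean`) and the second
inequality (`IdeleDict/DictUnram.lean`) give `CyclicLayerH1 p`, `CyclicLayerH2 p`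
(`ClassFormationCyclic.lean`), hence the class formation inequalities (CF1), (CF2) of
`ClassFormationFields.lean` for every finite Galois extension `L/K` of number fields, without any
hypothesis left:

* `pPowerTorsion_H1_ideleClass_eq_bot_of_ne_two`: `H¹(Gal(L/K), C_L)[p^∞] = 0`;
* `isZero_H1_ideleClass_of_ne_two`: `H¹(Gal(L/K), C_L) = 0` if `[L : K]` is a power of `p`;
* `card_pPowerTorsion_H2_ideleClass_le_of_ne_two`: `|H²(Gal(L/K), C_L)[p^∞]| ≤ |Gal(L/K)|_p`;
* `card_H2_ideleClass_le_of_ne_two`: `|H²(Gal(L/K), C_L)| ≤ [L : K]` if `[L : K]` is a power of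
  `p`;
* `card_H2_ideleClass_eq_of_ne_two`: `|H²(Gal(L/K), C_L)| = p` if `[L : K] = p`.

(`C_L` is the *finite* idele class group, so `p = 2` is excluded.)
-/

set_option autoImplicit false
set_option maxSynthPendingDepth 2

open CategoryTheory Limits groupCohomology Rep

namespace Fermat.Agent.CFT

/-- **The first inequality** `h(C_L) = p` for every cyclic extension of number fields of odd prime
degree `p`. -/
theorem herbrandIdeleClassEq_of_ne_two {p : ℕ} [hp : Fact p.Prime] (hp2 : p ≠ 2) :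
    HerbrandIdeleClassEq p := by
  intro K L _ _ _ _ _ _ σ hσ hdeg hgen
  refine FirstIneq.herbrand_ideleClass_of_localHerbrand hσ hp2 hdeg hgen ?_
  intro q _
  exact SemiLocalHerbrand.herbrand_semiLocalUnits K hgen
    (FirstIneq.orderOf_eq_of_generator hdeg hgen) hσ

section Final

variable (p : ℕ) [hp : Fact p.Prime] (hp2 : p ≠ 2)

include hp2

/-- `H¹(Gal(L/K), C_L) = 0` for every cyclic extension of odd prime degree `p`. -/
theorem cyclicLayerH1_of_ne_two : CyclicLayerH1 p :=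
  cyclicLayerH1_of_herbrand (herbrandIdeleClassEq_of_ne_two hp2)

/-- `|H²(Gal(L/K), C_L)| ≤ p` for every cyclic extension of odd prime degree `p`. -/
theorem cyclicLayerH2_of_ne_two : CyclicLayerH2 p :=
  cyclicLayerH2_of_herbrand (herbrandIdeleClassEq_of_ne_two hp2)

variable (K L : Type) [Field K] [Field L] [NumberField K] [NumberField L] [Algebra K L]
  [IsGalois K L]

/-- `|H²(Gal(L/K), C_L)| = p` for a cyclic extension of odd prime degree `p`. -/
theorem card_H2_ideleClass_eq_of_ne_two (hcard : Nat.card (L ≃ₐ[K] L) = p) :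
    Finite (groupCohomology (ideleClassRep L (L ≃ₐ[K] L)) 2) ∧
      Nat.card (groupCohomology (ideleClassRep L (L ≃ₐ[K] L)) 2) = p :=
  card_H2_ideleClass_eq_of_herbrand (herbrandIdeleClassEq_of_ne_two hp2) K L hcard

/-- **(CF1)**, odd `p`: `H¹(Gal(L/K), C_L)` has no `p`-power torsion. -/
theorem pPowerTorsion_H1_ideleClass_eq_bot_of_ne_two :
    pPowerTorsion (groupCohomology (ideleClassRep L (L ≃ₐ[K] L)) 1) p = ⊥ :=
  pPowerTorsion_H1_ideleClass_eq_bot p K L (cyclicLayerH1_of_ne_two p hp2)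

/-- **(CF1)**, odd `p`, subgroups: `H¹(H, C_L)` has no `p`-power torsion. -/
theorem pPowerTorsion_H1_res_ideleClass_eq_bot_of_ne_two (H : Subgroup (L ≃ₐ[K] L)) :
    pPowerTorsion (groupCohomology (ideleClassRep L H) 1) p = ⊥ :=
  pPowerTorsion_H1_res_ideleClass_eq_bot p K L (cyclicLayerH1_of_ne_two p hp2) H

/-- **(CF1)**, odd `p`, `p`-groups: `H¹(Gal(L/K), C_L) = 0`. -/
theorem isZero_H1_ideleClass_of_ne_two (n : ℕ) (hG : Nat.card (L ≃ₐ[K] L) = p ^ n) :
    IsZero (groupCohomology (ideleClassRep L (L ≃ₐ[K] L)) 1) :=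
  isZero_H1_ideleClass_of_card_eq_pow p K L (cyclicLayerH1_of_ne_two p hp2) n hG

/-- **(CF2)**, odd `p`: `|H²(Gal(L/K), C_L)[p^∞]| ≤ |Gal(L/K)|_p`. -/
theorem card_pPowerTorsion_H2_ideleClass_le_of_ne_two :
    Finite (pPowerTorsion (groupCohomology (ideleClassRep L (L ≃ₐ[K] L)) 2) p) ∧
      Nat.card (pPowerTorsion (groupCohomology (ideleClassRep L (L ≃ₐ[K] L)) 2) p) ≤
        p ^ (Nat.card (L ≃ₐ[K] L)).factorization p :=
  card_pPowerTorsion_H2_ideleClass_le p K L (cyclicLayerH1_of_ne_two p hp2)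
    (cyclicLayerH2_of_ne_two p hp2)

/-- **(CF2)**, odd `p`, subgroups: `|H²(H, C_L)[p^∞]| ≤ |H|_p`. -/
theorem card_pPowerTorsion_H2_res_ideleClass_le_of_ne_two (H : Subgroup (L ≃ₐ[K] L)) :
    Finite (pPowerTorsion (groupCohomology (ideleClassRep L H) 2) p) ∧
      Nat.card (pPowerTorsion (groupCohomology (ideleClassRep L H) 2) p) ≤
        p ^ (Nat.card H).factorization p :=
  card_pPowerTorsion_H2_res_ideleClass_le p K L (cyclicLayerH1_of_ne_two p hp2)
    (cyclicLayerH2_of_ne_two p hp2) H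

/-- **(CF2)**, odd `p`, `p`-groups: `|H²(Gal(L/K), C_L)| ≤ [L : K]`. -/
theorem card_H2_ideleClass_le_of_ne_two (n : ℕ) (hG : Nat.card (L ≃ₐ[K] L) = p ^ n) :
    Finite (groupCohomology (ideleClassRep L (L ≃ₐ[K] L)) 2) ∧
      Nat.card (groupCohomology (ideleClassRep L (L ≃ₐ[K] L)) 2) ≤ Nat.card (L ≃ₐ[K] L) :=
  card_H2_ideleClass_le_of_card_eq_pow p K L (cyclicLayerH1_of_ne_two p hp2)
    (cyclicLayerH2_of_ne_two p hp2) n hG

/-- **Cyclicity of the `p`-part of `H²(Gal(L/K), C_L)`**, odd `p`: a class of order `|G|_p`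
generates it. -/
theorem pPowerTorsion_H2_ideleClass_eq_zmultiples_of_ne_two
    (u : groupCohomology (ideleClassRep L (L ≃ₐ[K] L)) 2)
    (hu : addOrderOf u = p ^ (Nat.card (L ≃ₐ[K] L)).factorization p) :
    pPowerTorsion (groupCohomology (ideleClassRep L (L ≃ₐ[K] L)) 2) p =
        AddSubgroup.zmultiples u ∧
      Nat.card (pPowerTorsion (groupCohomology (ideleClassRep L (L ≃ₐ[K] L)) 2) p) =
        p ^ (Nat.card (L ≃ₐ[K] L)).factorization p :=
  (globalPr_ideleClass K L).pPowerTorsion_H2_eq_zmultiples p (cyclicLayerH1_of_ne_two p hp2)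
    (cyclicLayerH2_of_ne_two p hp2) u hu

end Final

end Fermat.Agent.CFT
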