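import Mathlib
import Fermat.Agent.CFT.Global.FirstIneqFinal
import Fermat.Agent.CFT.Global.SemiLocalHerbrand
import Fermat.Agent.CFT.Global.IdeleDict.DictUnramAdapters

/-!
# Layer C / C2c: the first inequality, unconditionally

`L/K` a cyclic extension of number fields of odd prime degree `p`.

* `FirstIneq.localHerbrand` : the local input (α) `LocalHerbrand K L σ p hσ` of `FirstIneqFinal.lean`,
  from `SemiLocalHerbrand.herbrand_semiLocalUnits`;
* `FirstIneq.herbrand_ideleClass_uncond` : `h(C_L) = p`;
* `FirstIneq.index_principal_sup_norm_uncond` : `[J_K : Kˣ N J_L] = p · |Ĥ¹(C_L)|`;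
* `FirstIneq.principal_sup_norm_ne_top_uncond`, `FirstIneq.principal_sup_norm_ne_top_of_finrank`,
  `FirstIneq.firstIneq_hFI` : **the first inequality** `Kˣ · N J_L ≠ J_K` (the hypothesis `hFI` of
  the existence theorem).
-/

set_option autoImplicit false
set_option linter.style.haveILetI false
set_option linter.unusedSectionVars false

noncomputable section

namespace Fermat.Agent.CFT

namespace FirstIneq

variable {K L : Type} [Field K] [NumberField K] [Field L] [NumberField L] [Algebra K L]
  [IsGalois K L] [FiniteDimensional K L]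

variable {σ : L ≃ₐ[K] L} {p : ℕ} (hσ : σ ^ p = 1)

/-- **(α)** the local Herbrand quotients of a cyclic extension. -/
theorem localHerbrand (hord : orderOf σ = p)
    (hgen : ∀ g : L ≃ₐ[K] L, g ∈ Subgroup.zpowers σ) : LocalHerbrand K L σ p hσ := by
  intro q _
  exact SemiLocalHerbrand.herbrand_semiLocalUnits (q := (q : ℕ)) K hgen hord hσ

/-- **First inequality, Herbrand form**: `h(C_L) = p`. -/
theorem herbrand_ideleClass_uncond [hp : Fact p.Prime] (hp2 : p ≠ 2)
    (hdeg : Module.finrank K L = p) (hgen : ∀ g : L ≃ₐ[K] L, g ∈ Subgroup.zpowers σ) :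
    (smulPair (M := ideleClass L) σ p hσ).IsHFinite ∧
      (smulPair (M := ideleClass L) σ p hσ).herbrand = p :=
  herbrand_ideleClass_of_local hσ hp2 hdeg hgen
    (localHerbrand hσ (orderOf_eq_of_generator hdeg hgen) hgen)
    (IdeleDict.eventually_isUnramAt K L)

/-- **First inequality, index form**: `[J_K : Kˣ N J_L] = p · |Ĥ¹(C_L)|`. -/
theorem index_principal_sup_norm_uncond [hp : Fact p.Prime] (hp2 : p ≠ 2)
    (hdeg : Module.finrank K L = p) (hgen : ∀ g : L ≃ₐ[K] L, g ∈ Subgroup.zpowers σ) :
    (principalSubgroup K ⊔ _root_.Fermat.Agent.CFT.ideleNormSubgroup K L).index =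
      p * Nat.card (smulPair (M := ideleClass L) σ p hσ).H1 :=
  index_principal_sup_norm_of_local hσ hp2 hdeg hgen
    (localHerbrand hσ (orderOf_eq_of_generator hdeg hgen) hgen)
    (IdeleDict.eventually_isUnramAt K L)

/-- **First inequality**: `Kˣ N J_L ≠ J_K` for a cyclic extension of odd prime degree. -/
theorem principal_sup_norm_ne_top_uncond [hp : Fact p.Prime] (hp2 : p ≠ 2)
    (hdeg : Module.finrank K L = p) (hgen : ∀ g : L ≃ₐ[K] L, g ∈ Subgroup.zpowers σ) :
    principalSubgroup K ⊔ _root_.Fermat.Agent.CFT.ideleNormSubgroup K L ≠ ⊤ := by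
  have hσ : σ ^ p = 1 := by
    rw [← orderOf_eq_of_generator hdeg hgen]
    exact pow_orderOf_eq_one σ
  exact principal_sup_norm_ne_top_of_local hσ hp2 hdeg hgen
    (localHerbrand hσ (orderOf_eq_of_generator hdeg hgen) hgen)
    (IdeleDict.eventually_isUnramAt K L)

/-- **First inequality** (the hypothesis `hFI` of the existence theorem): for a Galois extension
`L/K` of number fields of odd prime degree `p`, `Kˣ · N_{L/K} J_L ≠ J_K`. -/
theorem principal_sup_norm_ne_top_of_finrank (K L : Type) [Field K] [NumberField K] [Field L]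
    [NumberField L] [Algebra K L] [IsGalois K L] [FiniteDimensional K L] {p : ℕ}
    (hp : p.Prime) (hp2 : p ≠ 2) (hdeg : Module.finrank K L = p) :
    principalSubgroup K ⊔ _root_.Fermat.Agent.CFT.ideleNormSubgroup K L ≠ ⊤ := by
  haveI : Fact p.Prime := ⟨hp⟩
  have hcard : Nat.card (L ≃ₐ[K] L) = p := by
    rw [IsGalois.card_aut_eq_finrank, hdeg]
  haveI : IsCyclic (L ≃ₐ[K] L) := isCyclic_of_prime_card hcard
  obtain ⟨σ, hgen⟩ := IsCyclic.exists_generator (α := L ≃ₐ[K] L)
  exact principal_sup_norm_ne_top_uncond hp2 hdeg hgen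

/-- The first inequality in the exact shape `hFI` consumed by the index count of C7 (i) and by
the existence theorem. -/
theorem firstIneq_hFI (K : Type) [Field K] [NumberField K] (pp : Nat.Primes)
    (hp2 : 2 < (pp : ℕ)) :
    ∀ (L : Type) [Field L] [NumberField L] [Algebra K L] [IsGalois K L]
      [IsCyclic (L ≃ₐ[K] L)] [FiniteDimensional K L], Module.finrank K L = (pp : ℕ) →
      principalSubgroup K ⊔ _root_.Fermat.Agent.CFT.ideleNormSubgroup K L ≠ ⊤ :=
  fun L _ _ _ _ _ _ hdeg =>
    principal_sup_norm_ne_top_of_finrank K L pp.2 (by omega) hdeg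

end FirstIneq

end Fermat.Agent.CFT

end
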