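import Mathlib
import Fermat.Agent.CFT.Global.ExistenceModPSym
import Fermat.Agent.CFT.Global.IdeleClassInfRes
import Fermat.Agent.CFT.Global.FirstIneqUncond
import Fermat.Agent.CFT.Global.ClassFormationFinal
import Fermat.Agent.CFT.Global.IdeleDict.DictAdapters

/-!
# Layer C / C7: non-degeneracy of the reciprocity pairing on the character side (`hnd`)

`M/K` a finite Galois extension of number fields whose degree is a power of an odd prime `p`,
`χ ≠ 1` a character of `Gal(M/K)` with values in `ZMod p`. Then there is an idele `x` of `K` with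
`[x] ∪ δχ ≠ 0` in `H²(Gal(M/K), C_M)`:

* the fixed field `L` of `ker χ` is cyclic of degree `p` over `K`, and `χ = χ' ∘ res` for a
  faithful character `χ'` of `Gal(L/K)`;
* `[x] ∪ δχ` is the inflation of `[x] ∪ δχ'` (`ideleClassGalMap_symClass`), and inflation is
  injective (`H¹(Gal(M/L), C_M) = 0`);
* `[x] ∪ δχ' = 0` iff `x ∈ Kˣ · N_{L/K} J_L` (`symClass_ideleClassOfBase_eq_zero_iff`);
* the first inequality: `Kˣ · N_{L/K} J_L ≠ J_K`.

`exists_inv_symClass_ne_zero` is the hypothesis `hnd` of the existence theorem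
(`ExistenceModP.exists_pow_eq_mk_of_forall_inv_eq_zero`) for every invariant map which is injective on
`p`-torsion classes.
-/

set_option autoImplicit false
set_option linter.unusedSectionVars false
set_option linter.style.haveILetI false

open CategoryTheory groupCohomology Rep

noncomputable section

namespace Fermat.Agent.CFT

namespace ExistenceNondeg

open ExistenceModP

section SymPow

variable {G : Type} [Group G] (A : Rep.{0} ℤ G) {n : ℕ} [NeZero n]

theorem symClass_pow_char (χ : G →* Multiplicative (ZMod n)) {a : A} (ha : IsInv A a) (m : ℕ) :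
    symClass A (χ ^ m) a ha = m • symClass A χ a ha := by
  induction m with
  | zero => rw [pow_zero, zero_nsmul, symClass_one_char]
  | succ m ih => rw [pow_succ, symClass_mul_char, ih, succ_nsmul]

theorem char_pow_eq_one (χ : G →* Multiplicative (ZMod n)) : χ ^ n = 1 := by
  ext g
  rw [MonoidHom.pow_apply, MonoidHom.one_apply]
  apply Multiplicative.toAdd.injective
  rw [toAdd_pow, toAdd_one, nsmul_eq_mul, ZMod.natCast_self, zero_mul]

/-- Symbol classes with values in `ZMod n` are killed by `n`. -/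
theorem nsmul_symClass_eq_zero (χ : G →* Multiplicative (ZMod n)) {a : A} (ha : IsInv A a) :
    n • symClass A χ a ha = 0 := by
  rw [← symClass_pow_char, char_pow_eq_one, symClass_one_char]

end SymPow

section Infl

variable (K L M : Type) [Field K] [Field L] [Field M] [Algebra K L] [Algebra K M] [Algebra L M]
  [IsScalarTower K L M] [Normal K L]

theorem ideleClassGalHom_ideleClassOfBase (x : ideleGroup K) :
    (ideleClassGalHom K L K M).hom (ideleClassOfBase K L x) = ideleClassOfBase K M x := by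
  show Additive.ofMul (ideleClassMap L M (QuotientGroup.mk (ideleMap (algebraMap K L) x))) = _
  rw [ideleClassMap_mk, ideleMap_algebraMap_comp]
  rfl

/-- The symbol class `[x] ∪ δ(χ' ∘ res)` over `M/K` is the inflation of `[x] ∪ δχ'` over `L/K`. -/
theorem ideleClassGalMap_symClass {n : ℕ} [NeZero n]
    (χ' : (L ≃ₐ[K] L) →* Multiplicative (ZMod n)) (x : ideleGroup K) :
    (ideleClassGalMap K L K M 2).hom
        (symClass _ χ' (ideleClassOfBase K L x) (isInv_ideleClassOfBase K L x)) =
      symClass _ (χ'.comp (galRes K L K M)) (ideleClassOfBase K M x)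
        (isInv_ideleClassOfBase K M x) := by
  unfold ideleClassGalMap
  rw [map_symClass]
  exact symClass_congr _ _ _ (ideleClassGalHom_ideleClassOfBase K L M x)

end Infl

section Cyclic

variable (K L : Type) [Field K] [NumberField K] [Field L] [NumberField L] [Algebra K L]
  [IsGalois K L] [FiniteDimensional K L]

/-- **Norm criterion for idele symbols.** `L/K` cyclic of degree `n` with a faithful character
`χ'`: `[x] ∪ δχ' = 0` in `H²(Gal(L/K), C_L)` iff `x ∈ Kˣ · N_{L/K} J_L`. -/
theorem symClass_ideleClassOfBase_eq_zero_iff {n : ℕ} [NeZero n]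
    (χ' : (L ≃ₐ[K] L) →* Multiplicative (ZMod n)) (hχ' : Function.Injective χ')
    (hcard : Nat.card (L ≃ₐ[K] L) = n) (x : ideleGroup K) :
    symClass _ χ' (ideleClassOfBase K L x) (isInv_ideleClassOfBase K L x) = 0 ↔
      x ∈ principalSubgroup K ⊔ ideleNormSubgroup K L := by
  have hcard' : Fintype.card (L ≃ₐ[K] L) = n := by
    rw [← Nat.card_eq_fintype_card]
    exact hcard
  obtain ⟨σ, hσ1⟩ := exists_gen_of_card χ' hχ' hcard'
  have hord : orderOf σ = n := orderOf_of_char χ' hχ' hσ1
  have hσ : σ ^ n = 1 := by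
    rw [← hord]
    exact pow_orderOf_eq_one σ
  have hgen : ∀ g, g ∈ Subgroup.zpowers σ := fun g =>
    ⟨(chNat χ' g : ℤ), by
      show σ ^ (chNat χ' g : ℤ) = g
      rw [zpow_natCast]
      exact pow_chNat χ' hχ' hσ1 g⟩
  rw [← FirstIneq.ideleNormSubgroup_eq,
    ← FirstIneq.toH0_eq_zero_iff hσ (IdeleDict.principalIsIdele K) (IdeleDict.principalIsIdele L)
      hgen hord,
    FirstIneq.toH0_apply, DNPair.mk0_eq_zero_iff, symClass_eq_zero_iff _ χ' hχ' hcard']
  have hN : ∀ b : Additive (ideleClass L), (smulPair (M := ideleClass L) σ n hσ).N b =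
      ∑ g : L ≃ₐ[K] L, (ideleClassRep L (L ≃ₐ[K] L)).ρ g b := by
    intro b
    have h5 : ∏ g : L ≃ₐ[K] L, g • (Additive.toMul b : ideleClass L) =
        ∏ k ∈ Finset.range (orderOf σ), σ ^ k • (Additive.toMul b : ideleClass L) :=
      prod_univ_smul_eq_prod_range hgen _
    rw [smulPair_N_apply, ← hord, ← h5, ofMul_prod]
    rfl
  constructor
  · rintro ⟨b, hb⟩
    exact ⟨b, (hN b).trans hb.symm⟩
  · rintro ⟨b, hb⟩
    exact ⟨b, ((hN b).symm.trans hb).symm⟩

end Cyclic

section Main

variable (K M : Type) [Field K] [NumberField K] [Field M] [NumberField M] [Algebra K M]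
  [IsGalois K M] [FiniteDimensional K M]

/-- **Non-degeneracy on the character side, cohomological form.** `M/K` Galois of degree a power of
the odd prime `p`, `χ ≠ 1`: some idele `x` of `K` has `[x] ∪ δχ ≠ 0` in `H²(Gal(M/K), C_M)`. -/
theorem exists_symClass_ne_zero {p : ℕ} [hp : Fact p.Prime] (hp2 : p ≠ 2) (k : ℕ)
    (hG : Nat.card (M ≃ₐ[K] M) = p ^ k) (χ : (M ≃ₐ[K] M) →* Multiplicative (ZMod p))
    (hχ : χ ≠ 1) :
    ∃ x : ideleGroup K,
      symClass _ χ (ideleClassOfBase K M x) (isInv_ideleClassOfBase K M x) ≠ 0 := by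
  haveI : NeZero p := ⟨hp.out.ne_zero⟩
  let L : IntermediateField K M := IntermediateField.fixedField χ.ker
  haveI : IsGalois K L := IsGalois.of_fixedField_normal_subgroup χ.ker
  have hr : Function.Surjective (galRes K L K M) := galRes_infl_surjective K L M
  have hker : (galRes K L K M).ker = χ.ker := by
    ext σ
    rw [MonoidHom.mem_ker, galRes_infl_apply, ← MonoidHom.mem_ker,
      IntermediateField.restrictNormalHom_ker, IntermediateField.fixingSubgroup_fixedField]
  -- the induced faithful character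
  let χ' : (L ≃ₐ[K] L) →* Multiplicative (ZMod p) :=
    (galRes K L K M).liftOfRightInverse (Function.surjInv hr) (Function.rightInverse_surjInv hr)
      ⟨χ, hker.le⟩
  have hχ'r : χ'.comp (galRes K L K M) = χ :=
    MonoidHom.liftOfRightInverse_comp _ _ _ _
  have hχ' : Function.Injective χ' := by
    rw [injective_iff_map_eq_one]
    intro τ hτ
    obtain ⟨σ, rfl⟩ := hr τ
    have h1 : χ σ = 1 := by
      rw [← hχ'r]
      exact hτ
    have h2 : σ ∈ (galRes K L K M).ker := by
      rw [hker]
      exact h1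
    exact h2
  have hcard : Nat.card (L ≃ₐ[K] L) = p := by
    have h1 : Nat.card (L ≃ₐ[K] L) = Nat.card χ'.range :=
      Nat.card_congr (MonoidHom.ofInjective hχ').toEquiv
    have h2 : Nat.card χ'.range ∣ Nat.card (Multiplicative (ZMod p)) :=
      Subgroup.card_subgroup_dvd_card _
    have h4 : Nat.card (Multiplicative (ZMod p)) = p := by
      rw [Nat.card_congr (Multiplicative.toAdd (α := ZMod p)), Nat.card_zmod]
    rw [h4] at h2
    rcases (Nat.dvd_prime hp.out).1 h2 with h3 | h3
    · exfalso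
      apply hχ
      rw [← hχ'r]
      haveI : Subsingleton (L ≃ₐ[K] L) := (Nat.card_eq_one_iff_unique.1 (h1.trans h3)).1
      ext σ
      rw [MonoidHom.comp_apply, Subsingleton.elim (galRes K L K M σ) 1, map_one]
      rfl
    · exact h1.trans h3
  have hdeg : Module.finrank K L = p := by
    rw [← IsGalois.card_aut_eq_finrank, hcard]
  have hFI := FirstIneq.principal_sup_norm_ne_top_of_finrank K L hp.out hp2 hdeg
  obtain ⟨x, hx⟩ : ∃ x : ideleGroup K, x ∉ principalSubgroup K ⊔ ideleNormSubgroup K L := by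
    by_contra h
    exact hFI (eq_top_iff.2 fun x _ => by_contra fun hx => h ⟨x, hx⟩)
  refine ⟨x, fun h0 => hx ?_⟩
  rw [← symClass_ideleClassOfBase_eq_zero_iff K L χ' hχ' hcard]
  -- inflation is injective
  obtain ⟨m, hm⟩ : ∃ m, Nat.card (M ≃ₐ[L] M) = p ^ m := by
    have h1 : Nat.card (M ≃ₐ[L] M) = Nat.card L.fixingSubgroup :=
      Nat.card_congr (IntermediateField.fixingSubgroupEquiv L).symm.toEquiv
    have h2 : Nat.card L.fixingSubgroup ∣ p ^ k := hG ▸ Subgroup.card_subgroup_dvd_card _
    obtain ⟨m, -, hm⟩ := (Nat.dvd_prime_pow hp.out).1 h2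
    exact ⟨m, h1.trans hm⟩
  have h1 : Limits.IsZero (groupCohomology (ideleClassRep M (M ≃ₐ[L] M)) 1) :=
    isZero_H1_ideleClass_of_ne_two p hp2 L M m hm
  have hinj := ideleClassInfl_two_injective K L M (IdeleDict.principalIsIdele M)
    (IdeleDict.principalIdele_injective' M) h1
  apply hinj
  rw [ideleClassGalMap_symClass, map_zero, hχ'r]
  exact h0

/-- **`hnd`**: for every invariant map on `H²(Gal(M/K), C_M)` which is injective on `p`-torsion
classes, every character `χ ≠ 1` pairs non-trivially with some idele. -/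
theorem exists_inv_symClass_ne_zero {p : ℕ} [hp : Fact p.Prime] (hp2 : p ≠ 2) (k : ℕ)
    (hG : Nat.card (M ≃ₐ[K] M) = p ^ k) {T : Type*} [AddCommGroup T]
    (invM : H2 (ideleClassRep M (M ≃ₐ[K] M)) →+ T)
    (hinj : ∀ c : H2 (ideleClassRep M (M ≃ₐ[K] M)), p • c = 0 → invM c = 0 → c = 0)
    (χ : (M ≃ₐ[K] M) →* Multiplicative (ZMod p)) (hχ : χ ≠ 1) :
    ∃ x : ideleGroup K,
      invM (symClass _ χ (ideleClassOfBase K M x) (isInv_ideleClassOfBase K M x)) ≠ 0 := by
  haveI : NeZero p := ⟨hp.out.ne_zero⟩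
  obtain ⟨x, hx⟩ := exists_symClass_ne_zero K M hp2 k hG χ hχ
  exact ⟨x, fun h => hx (hinj _ (nsmul_symClass_eq_zero _ χ _) h)⟩

/-- **`hnd`** verbatim in the shape of
`ExistenceCore.exists_pow_eq_mk_of_forall_inv_eq_zero_of_firstIneq`. -/
theorem hnd_of_injective (pp : Nat.Primes) (hp2 : 2 < (pp : ℕ)) (k : ℕ)
    (hG : Nat.card (M ≃ₐ[K] M) = (pp : ℕ) ^ k)
    (invM : H2 (ideleClassRep M (M ≃ₐ[K] M)) →+ AddCircle (1 : ℚ))
    (hinj : ∀ c : H2 (ideleClassRep M (M ≃ₐ[K] M)), (pp : ℕ) • c = 0 → invM c = 0 → c = 0) :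
    ∀ χ : (M ≃ₐ[K] M) →* Multiplicative (ZMod (pp : ℕ)), χ ≠ 1 → ∃ x : ideleGroup K,
      invM (symClass _ χ (ExistenceModP.ideleClassOfBase K M x)
        (ExistenceModP.isInv_ideleClassOfBase K M x)) ≠ 0 := by
  haveI : Fact (pp : ℕ).Prime := ⟨pp.2⟩
  intro χ hχ
  exact exists_inv_symClass_ne_zero K M (by omega) k hG invM hinj χ hχ

end Main

end ExistenceNondeg

end Fermat.Agent.CFT
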