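import Fermat.Agent.CFT.Global.SemiLocalIntegral
import Fermat.Agent.CFT.GalMapTransport

/-!
# Layer C / C1a: the unramified inputs for subgroups of the Galois group

* `H1TrivialOn.of_mulEquiv`, `H2TrivialOn.of_mulEquiv`, `NormSurjOn.of_mulEquiv`: transport of the
  cocycle predicates of `RestrictedCoh.lean` along an isomorphism of groups acting compatibly;
* `semiLocalIntegral_h1TrivialOn_subgroup`, `semiLocalIntegral_h2TrivialOn_subgroup`,
  `semiLocalIntegral_normSurjOn_subgroup`: the inputs `hunr1`, `hunr2` of `SClassIdele.lean` for a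
  subgroup `H ≤ Gal(L/K)`, from `IsUnramAt` over the fixed field of `H`.
-/

set_option autoImplicit false
set_option linter.unusedSectionVars false

open groupCohomology IntermediateField

noncomputable section

namespace Fermat.Agent.CFT

section Transport

variable {G G' M : Type} [Group G] [Group G'] [CommGroup M] [MulDistribMulAction G M]
  [MulDistribMulAction G' M]

theorem H1TrivialOn.of_mulEquiv (e : G ≃* G') (he : ∀ (g : G) (m : M), e g • m = g • m)
    {S : Subgroup M} (h : H1TrivialOn G' S) : H1TrivialOn G S := by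
  intro f hfS hf
  obtain ⟨x, hxS, hx⟩ := h (fun g' => f (e.symm g')) (fun g' => hfS _) (by
    intro g₁ g₂
    show f (e.symm (g₁ * g₂)) = g₁ • f (e.symm g₂) * f (e.symm g₁)
    rw [map_mul, hf, ← he (e.symm g₁), e.apply_symm_apply])
  refine ⟨x, hxS, fun g => ?_⟩
  have := hx (e g)
  rw [he, e.symm_apply_apply] at this
  exact this

theorem H2TrivialOn.of_mulEquiv (e : G ≃* G') (he : ∀ (g : G) (m : M), e g • m = g • m)
    {S : Subgroup M} (h : H2TrivialOn G' S) : H2TrivialOn G S := by
  intro f hfS hf
  obtain ⟨x, hxS, hx⟩ := h (fun p => f (e.symm p.1, e.symm p.2)) (fun p => hfS _) (by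
    intro g₁ g₂ g₃
    show f (e.symm (g₁ * g₂), e.symm g₃) * f (e.symm g₁, e.symm g₂) =
      g₁ • f (e.symm g₂, e.symm g₃) * f (e.symm g₁, e.symm (g₂ * g₃))
    rw [map_mul, map_mul, hf, ← he (e.symm g₁), e.apply_symm_apply])
  refine ⟨fun g => x (e g), fun g => hxS _, fun g₁ g₂ => ?_⟩
  have := hx (e g₁) (e g₂)
  rw [he, ← map_mul] at this
  simpa only [e.symm_apply_apply] using this

theorem NormSurjOn.of_mulEquiv [Fintype G] [Fintype G'] (e : G ≃* G')
    (he : ∀ (g : G) (m : M), e g • m = g • m)
    {S : Subgroup M} (h : NormSurjOn G' S) : NormSurjOn G S := by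
  intro a haS ha
  obtain ⟨b, hbS, hb⟩ := h a haS (fun g' => by
    rw [← e.apply_symm_apply g', he]
    exact ha _)
  refine ⟨b, hbS, ?_⟩
  rw [← hb]
  exact Fintype.prod_equiv e.toEquiv _ _ fun g => (he g b).symm

end Transport

section Subgroup

variable {q : ℕ} [Fact q.Prime] (K : Type) [Field K] {L : Type} [Field L] [Algebra K L]
  [IsGalois K L] [FiniteDimensional K L]

/-- The action of `g ∈ H` on the semi-local units is the action of its image in
`Gal(L/L^H)`. -/
theorem galFixedEquiv_smul_semiLocal (H : Subgroup (L ≃ₐ[K] L)) (g : H)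
    (f : semiLocalUnits q L) : galFixedEquiv K L H g • f = g • f := by
  apply Subtype.ext
  funext τ
  show (f : LocalEmb q L → (PadicAlgCl q)ˣ)
      (τ.comp (MulSemiringAction.toRingHom (L ≃ₐ[fixedField H] L) L (galFixedEquiv K L H g))) =
    (f : LocalEmb q L → (PadicAlgCl q)ˣ) (τ.comp (MulSemiringAction.toRingHom H L g))
  have h : τ.comp (MulSemiringAction.toRingHom (L ≃ₐ[fixedField H] L) L
      (galFixedEquiv K L H g)) = τ.comp (MulSemiringAction.toRingHom H L g) := by
    refine RingHom.ext fun x => ?_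
    simp only [RingHom.comp_apply, MulSemiringAction.toRingHom_apply]
    exact congrArg τ (galFixedEquiv_apply K L H g x)
  rw [h]

variable [NumberField K] [NumberField L]

/-- `H¹(H, U_q L) = 0` for a subgroup `H ≤ Gal(L/K)` when `q` is unramified in `L/L^H`. -/
theorem semiLocalIntegral_h1TrivialOn_subgroup (H : Subgroup (L ≃ₐ[K] L))
    (hunr : ∀ ω : LocalPlace q (fixedField H),
      IsUnramAt (fixedField H) (placeLift (fixedField H) ω : LocalEmb q L)) :
    H1TrivialOn H (semiLocalIntegral q L) :=
  H1TrivialOn.of_mulEquiv (galFixedEquiv K L H) (galFixedEquiv_smul_semiLocal K H)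
    (semiLocalIntegral_h1TrivialOn (fixedField H) hunr)

/-- `H²(H, U_q L) = 0` for a subgroup `H ≤ Gal(L/K)` when `q` is unramified in `L/L^H`. -/
theorem semiLocalIntegral_h2TrivialOn_subgroup (H : Subgroup (L ≃ₐ[K] L))
    (hunr : ∀ ω : LocalPlace q (fixedField H),
      IsUnramAt (fixedField H) (placeLift (fixedField H) ω : LocalEmb q L)) :
    H2TrivialOn H (semiLocalIntegral q L) :=
  H2TrivialOn.of_mulEquiv (galFixedEquiv K L H) (galFixedEquiv_smul_semiLocal K H)
    (semiLocalIntegral_h2TrivialOn (fixedField H) hunr)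

/-- Norm surjectivity on `U_q L` for a subgroup `H ≤ Gal(L/K)` when `q` is unramified in
`L/L^H`. -/
theorem semiLocalIntegral_normSurjOn_subgroup (H : Subgroup (L ≃ₐ[K] L)) [Fintype H]
    (hunr : ∀ ω : LocalPlace q (fixedField H),
      IsUnramAt (fixedField H) (placeLift (fixedField H) ω : LocalEmb q L)) :
    NormSurjOn H (semiLocalIntegral q L) :=
  NormSurjOn.of_mulEquiv (galFixedEquiv K L H) (galFixedEquiv_smul_semiLocal K H)
    (semiLocalIntegral_normSurjOn (fixedField H) hunr)

end Subgroup

end Fermat.Agent.CFT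

end
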