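import Mathlib
import Fermat.Agent.CFT.Global.SemiLocalSubgroup
import Fermat.Agent.CFT.Global.IdeleDict.DictContent
import Fermat.Agent.CFT.Global.KummerLocalField
import Fermat.Agent.CFT.Local.UnramBaseChange

/-!
# Layer C / C1e: almost all primes are unramified

`K ⊆ L` number fields, `L/K` normal (hence Galois).

* `eventually_norm_localEmb_le_one`, `eventually_norm_localEmb_coeff_le_one`: an element (a
  polynomial) over a number field is integral at all places above almost all primes;
* `isUnramExt_localLayer_of_norm_le_one` (local criterion): `L = K(θ)`, `g = minpoly K θ`,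
  `a g + b g' = 1`; if all coefficients of `g`, `a`, `b` are integral at the place below `τ'`, then
  the local layer `L_τ'/K_τ` is unramified (`IsUnramExt` over `PadicTower.intRing q K_τ`);
* `eventually_isUnramExt_localLayer`: for all but finitely many `q`, every local layer above `q`
  is unramified;
* metric consequences of unramifiedness for a layer `E ≤ E'` of `ℚ̄_q/ℚ_q`
  (`isCyclic_gal_of_isUnramExt_layer`, `exists_norm_eq_of_isUnramExt_layer`,
  `exists_norm_eq_norm_of_isUnramExt_layer`) and `isUnramAt_of_isUnramExt`:
  `IsUnramExt ⇒ IsUnramAt` (the hypothesis of `SemiLocalIntegral.lean`);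
* `eventually_forall_isUnramAt`, `eventually_semiLocalIntegral_h1TrivialOn`,
  `eventually_semiLocalIntegral_h2TrivialOn`, `eventually_semiLocalIntegral_normSurjOn`: the inputs
  `hU1`, `hU2`, `hU0` of `IdeleCoh.lean`;
* `eventually_forall_subgroup_semiLocalIntegral`, `exists_finite_forall_subgroup_semiLocalIntegral`:
  the same for every subgroup of `Gal(L/K)` (via `SemiLocalSubgroup.lean`).
-/

set_option autoImplicit false
set_option linter.unusedSectionVars false
set_option linter.style.haveILetI false

open Polynomial IsLocalRing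
open Fermat.Agent.CFT.Tower Fermat.Agent.CFT.PadicTower Fermat.Agent.CFT.GaloisTower

noncomputable section

namespace Fermat.Agent.CFT

section Integral

variable {K : Type} [Field K] [NumberField K]

/-- An element of a number field is integral at all places above almost all primes. -/
theorem eventually_norm_localEmb_le_one (x : K) :
    ∀ᶠ q : Nat.Primes in Filter.cofinite, ∀ τ : LocalEmb (q : ℕ) K, ‖τ x‖ ≤ 1 := by
  by_cases hx : x = 0
  · subst hx
    exact Filter.Eventually.of_forall fun q τ => by rw [map_zero, norm_zero]; exact zero_le_one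
  · have h := IdeleDict.principalIdele_mem_ideleGroup (Units.mk0 x hx)
    rw [mem_ideleGroup] at h
    filter_upwards [h] with q hq τ
    have := hq τ
    rw [principalIdele_apply, semiLocalDiag_apply] at this
    exact this.le

/-- The coefficients of a polynomial over a number field are integral at all places above almost
all primes. -/
theorem eventually_norm_localEmb_coeff_le_one (p : K[X]) :
    ∀ᶠ q : Nat.Primes in Filter.cofinite, ∀ (τ : LocalEmb (q : ℕ) K) (n : ℕ),
      ‖τ (p.coeff n)‖ ≤ 1 := by
  have h : ∀ᶠ q : Nat.Primes in Filter.cofinite, ∀ n ∈ p.support,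
      ∀ τ : LocalEmb (q : ℕ) K, ‖τ (p.coeff n)‖ ≤ 1 := by
    rw [Filter.eventually_all_finset]
    exact fun n _ => eventually_norm_localEmb_le_one (p.coeff n)
  filter_upwards [h] with q hq τ n
  by_cases hn : n ∈ p.support
  · exact hq n hn τ
  · rw [Polynomial.notMem_support_iff.mp hn, map_zero, norm_zero]
    exact zero_le_one

end Integral

section Local

variable {q : ℕ} [Fact q.Prime] {K : Type} [Field K]

local notation "Ω" => PadicAlgCl q

/-- The embedding `τ` as a ring homomorphism into the local field `K_τ`. -/
def LocalEmb.toLocalField (τ : LocalEmb q K) : K →+* localFieldAt τ where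
  toFun x := ⟨τ x, apply_mem_localFieldAt τ x⟩
  map_one' := Subtype.ext (map_one τ)
  map_mul' x y := Subtype.ext (map_mul τ x y)
  map_zero' := Subtype.ext (map_zero τ)
  map_add' x y := Subtype.ext (map_add τ x y)

@[simp]
theorem LocalEmb.toLocalField_coe (τ : LocalEmb q K) (x : K) :
    ((τ.toLocalField x : localFieldAt τ) : Ω) = τ x := rfl

/-- A polynomial over `K` with `τ`-integral coefficients comes from a polynomial over the ring of
integers of `K_τ`. -/
theorem exists_map_intRing_eq (τ : LocalEmb q K) (p : K[X]) (hp : ∀ n, ‖τ (p.coeff n)‖ ≤ 1) :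
    ∃ P : (intRing q (localFieldAt τ))[X],
      P.map (algebraMap (intRing q (localFieldAt τ)) (localFieldAt τ)) = p.map τ.toLocalField := by
  have hlift : p.map τ.toLocalField ∈
      Polynomial.lifts (algebraMap (intRing q (localFieldAt τ)) (localFieldAt τ)) := by
    rw [Polynomial.lifts_iff_coeff_lifts]
    intro n
    rw [Polynomial.coeff_map]
    have hmem : τ.toLocalField (p.coeff n) ∈ intRing q (localFieldAt τ) :=
      (KummerLocal.mem_intRing_iff (localFieldAt τ) _).mpr (hp n)
    exact ⟨⟨_, hmem⟩, rfl⟩
  exact hlift

end Local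

section Layer

variable {q : ℕ} [Fact q.Prime] (K : Type) [Field K] {L : Type} [Field L] [Algebra K L]
  [Normal K L]

local notation "Ω" => PadicAlgCl q

/-- If `L = K(θ)` then `L_τ' = K_τ(τ' θ)`. -/
theorem adjoin_localLayer_simple_eq_top (τ' : LocalEmb q L) {θ : L}
    (hθ : IntermediateField.adjoin K {θ} = ⊤) :
    IntermediateField.adjoin (localFieldAt (localEmbRestrict K τ'))
      {(⟨τ' θ, apply_mem_localFieldAt τ' θ⟩ : localLayer K τ')} = ⊤ := by
  set η : localLayer K τ' := ⟨τ' θ, apply_mem_localFieldAt τ' θ⟩ with hη
  set F := IntermediateField.adjoin (localFieldAt (localEmbRestrict K τ')) {η} with hF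
  -- images of elements of `L`
  have h1 : ∀ x : L, (⟨τ' x, apply_mem_localFieldAt τ' x⟩ : localLayer K τ') ∈ F := by
    intro x
    have hx : x ∈ IntermediateField.adjoin K {θ} := by rw [hθ]; trivial
    induction hx using IntermediateField.adjoin_induction with
    | mem y hy =>
      have hy' : y = θ := hy
      subst hy'
      exact IntermediateField.mem_adjoin_simple_self _ _
    | algebraMap r =>
      exact F.algebraMap_mem
        (⟨localEmbRestrict K τ' r, apply_mem_localFieldAt _ r⟩ :
          localFieldAt (localEmbRestrict K τ'))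
    | add y z _ _ hy hz =>
      have e : (⟨τ' (y + z), apply_mem_localFieldAt τ' (y + z)⟩ : localLayer K τ') =
          ⟨τ' y, apply_mem_localFieldAt τ' y⟩ + ⟨τ' z, apply_mem_localFieldAt τ' z⟩ :=
        Subtype.ext (map_add τ' y z)
      rw [e]
      exact add_mem hy hz
    | inv y _ hy =>
      have e : (⟨τ' y⁻¹, apply_mem_localFieldAt τ' y⁻¹⟩ : localLayer K τ') =
          (⟨τ' y, apply_mem_localFieldAt τ' y⟩ : localLayer K τ')⁻¹ :=
        Subtype.ext (map_inv₀ τ' y)
      rw [e]
      exact inv_mem hy
    | mul y z _ _ hy hz =>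
      have e : (⟨τ' (y * z), apply_mem_localFieldAt τ' (y * z)⟩ : localLayer K τ') =
          ⟨τ' y, apply_mem_localFieldAt τ' y⟩ * ⟨τ' z, apply_mem_localFieldAt τ' z⟩ :=
        Subtype.ext (map_mul τ' y z)
      rw [e]
      exact mul_mem hy hz
  rw [eq_top_iff]
  rintro ⟨z, hz⟩ -
  have hz' : z ∈ IntermediateField.adjoin ℚ_[q] (Set.range τ') := hz
  have key : ∀ (w : Ω) (hw : w ∈ IntermediateField.adjoin ℚ_[q] (Set.range τ')),
      (⟨w, hw⟩ : localLayer K τ') ∈ F := by
    intro w hw
    induction hw using IntermediateField.adjoin_induction with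
    | mem y hy =>
      obtain ⟨x, rfl⟩ := hy
      exact h1 x
    | algebraMap r =>
      exact F.algebraMap_mem (algebraMap ℚ_[q] (localFieldAt (localEmbRestrict K τ')) r)
    | add y z hy' hz' hy hz =>
      have e : (⟨y + z, add_mem hy' hz'⟩ : localLayer K τ') = ⟨y, hy'⟩ + ⟨z, hz'⟩ := rfl
      exact e ▸ add_mem hy hz
    | inv y hy' hy =>
      have e : (⟨y⁻¹, inv_mem hy'⟩ : localLayer K τ') = (⟨y, hy'⟩ : localLayer K τ')⁻¹ := rfl
      exact e ▸ inv_mem hy
    | mul y z hy' hz' hy hz =>
      have e : (⟨y * z, mul_mem hy' hz'⟩ : localLayer K τ') = ⟨y, hy'⟩ * ⟨z, hz'⟩ := rfl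
      exact e ▸ mul_mem hy hz
  exact key z hz'

variable [NumberField K] [NumberField L]

/-- **Local criterion.**  `L = K(θ)`, `g` the minimal polynomial of `θ` over `K`, `a g + b g' = 1`.
If all coefficients of `g`, `a`, `b` are integral at the place of `K` below `τ'`, then the local
layer `L_τ'/K_τ` is unramified. -/
theorem isUnramExt_localLayer_of_norm_le_one (τ' : LocalEmb q L) {θ : L}
    (hθ : IntermediateField.adjoin K {θ} = ⊤) {a b : K[X]}
    (hab : a * minpoly K θ + b * derivative (minpoly K θ) = 1)
    (hg : ∀ n, ‖localEmbRestrict K τ' ((minpoly K θ).coeff n)‖ ≤ 1)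
    (ha : ∀ n, ‖localEmbRestrict K τ' (a.coeff n)‖ ≤ 1)
    (hb : ∀ n, ‖localEmbRestrict K τ' (b.coeff n)‖ ≤ 1) :
    haveI := finiteDimensional_localFieldAt (localEmbRestrict K τ')
    haveI := PadicTower.intRing_isLocalRing q (localFieldAt (localEmbRestrict K τ'))
    IsUnramExt (intRing q (localFieldAt (localEmbRestrict K τ'))) (localLayer K τ') := by
  set τ := localEmbRestrict K τ' with hτ
  set E := localFieldAt τ with hE
  haveI : FiniteDimensional ℚ_[q] E := finiteDimensional_localFieldAt τ
  haveI := PadicTower.intRing_isLocalRing q E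
  haveI := PadicTower.intRing_isDiscreteValuationRing q E
  haveI := PadicTower.intRing_isAdicComplete q E
  haveI := PadicTower.intRing_finite_residueField q E
  haveI := PadicTower.intRing_isFractionRing q E
  haveI : FiniteDimensional E (localLayer K τ') := finiteDimensional_localLayer K τ'
  have hint : IsIntegral K θ := Algebra.IsIntegral.isIntegral θ
  obtain ⟨G, hG⟩ := exists_map_intRing_eq τ (minpoly K θ) hg
  obtain ⟨A, hA⟩ := exists_map_intRing_eq τ a ha
  obtain ⟨B, hB⟩ := exists_map_intRing_eq τ b hb
  have hinj : Function.Injective (algebraMap (intRing q E) E) := Subtype.val_injective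
  have hGm : G.Monic := by
    apply Polynomial.monic_of_injective hinj
    rw [hG]
    exact (minpoly.monic hint).map _
  have hrel : A * G + B * derivative G = 1 := by
    apply Polynomial.map_injective _ hinj
    rw [Polynomial.map_add, Polynomial.map_mul, Polynomial.map_mul, ← Polynomial.derivative_map,
      hG, hA, hB, Polynomial.map_one, Polynomial.derivative_map, ← Polynomial.map_mul,
      ← Polynomial.map_mul, ← Polynomial.map_add, hab, Polynomial.map_one]
  have hsep : (G.map (residue (intRing q E))).Separable :=
    Polynomial.Separable.map (p := G) ⟨A, B, hrel⟩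
  set η : localLayer K τ' := ⟨τ' θ, apply_mem_localFieldAt τ' θ⟩ with hη
  have hroot : aeval η G = 0 := by
    apply Subtype.val_injective
    show ((aeval η G : localLayer K τ') : Ω) = 0
    have h1 : ((aeval η G : localLayer K τ') : Ω) =
        Polynomial.eval₂ ((algebraMap E Ω).comp (algebraMap (intRing q E) E)) (τ' θ) G := by
      rw [Polynomial.aeval_def]
      exact Polynomial.hom_eval₂ G (algebraMap (intRing q E) (localLayer K τ'))
        (algebraMap (localLayer K τ') Ω) η
    rw [h1, ← Polynomial.eval₂_map, hG, Polynomial.eval₂_map]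
    have h2 : (algebraMap E Ω).comp τ.toLocalField = τ'.comp (algebraMap K L) := rfl
    rw [h2, ← Polynomial.hom_eval₂, ← Polynomial.aeval_def, minpoly.aeval, map_zero]
  exact isUnramExt_of_separable_root' (K := E) hGm hsep η hroot (adjoin_localLayer_simple_eq_top K τ' hθ)

end Layer

section GlobalUnram

variable (K : Type) [Field K] (L : Type) [Field L] [Algebra K L] [Normal K L]
  [FiniteDimensional K L] [NumberField K] [NumberField L]

/-- **Almost all primes are unramified**: for all but finitely many `q`, every local layer
`L_τ'/K_τ` above `q` is unramified. -/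
theorem eventually_isUnramExt_localLayer :
    ∀ᶠ q : Nat.Primes in Filter.cofinite, ∀ τ' : LocalEmb (q : ℕ) L,
      haveI := finiteDimensional_localFieldAt (localEmbRestrict K τ')
      haveI := PadicTower.intRing_isLocalRing (q : ℕ) (localFieldAt (localEmbRestrict K τ'))
      IsUnramExt (intRing (q : ℕ) (localFieldAt (localEmbRestrict K τ'))) (localLayer K τ') := by
  obtain ⟨θ, hθ⟩ := Field.exists_primitive_element K L
  obtain ⟨a, b, hab⟩ := Algebra.IsSeparable.isSeparable K θ
  filter_upwards [eventually_norm_localEmb_coeff_le_one (minpoly K θ),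
    eventually_norm_localEmb_coeff_le_one a, eventually_norm_localEmb_coeff_le_one b]
    with q hg ha hb τ'
  exact isUnramExt_localLayer_of_norm_le_one K τ' hθ hab (hg _) (ha _) (hb _)

end GlobalUnram

section LayerMetric

variable {q : ℕ} [Fact q.Prime]

local notation "Ω" => PadicAlgCl q

variable {E E' : IntermediateField ℚ_[q] (PadicAlgCl q)} (h : E ≤ E')

/-- Elements of the ring of integers of a layer have norm at most one. -/
theorem norm_intRing_layer_le_one (t : integralClosure (intRing q E) (layer h)) :
    ‖((t : layer h) : Ω)‖ ≤ 1 := by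
  rw [← KummerLocal.isIntegral_iff_norm_le_one]
  exact (mem_integralClosure_layer_iff ℤ_[q] h (t : layer h)).mp t.2

/-- Units of the ring of integers of a layer have norm one. -/
theorem norm_unit_intRing_layer (s : (integralClosure (intRing q E) (layer h))ˣ) :
    ‖(((s : integralClosure (intRing q E) (layer h)) : layer h) : Ω)‖ = 1 := by
  have h1 := norm_intRing_layer_le_one h (s : integralClosure (intRing q E) (layer h))
  have h2 := norm_intRing_layer_le_one h
    ((s⁻¹ : (integralClosure (intRing q E) (layer h))ˣ) : integralClosure (intRing q E) (layer h))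
  have h3 : (((s : integralClosure (intRing q E) (layer h)) : layer h) : Ω) *
      ((((s⁻¹ : (integralClosure (intRing q E) (layer h))ˣ) :
        integralClosure (intRing q E) (layer h)) : layer h) : Ω) = 1 := by
    have e : (s : integralClosure (intRing q E) (layer h)) *
        ((s⁻¹ : (integralClosure (intRing q E) (layer h))ˣ) :
          integralClosure (intRing q E) (layer h)) = 1 := s.mul_inv
    have := congrArg (fun z : integralClosure (intRing q E) (layer h) => ((z : layer h) : Ω)) e
    exact this
  have h4 : ‖(((s : integralClosure (intRing q E) (layer h)) : layer h) : Ω)‖ *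
      ‖((((s⁻¹ : (integralClosure (intRing q E) (layer h))ˣ) :
        integralClosure (intRing q E) (layer h)) : layer h) : Ω)‖ = 1 := by
    rw [← norm_mul, h3, norm_one]
  nlinarith [norm_nonneg (((s : integralClosure (intRing q E) (layer h)) : layer h) : Ω),
    norm_nonneg ((((s⁻¹ : (integralClosure (intRing q E) (layer h))ˣ) :
        integralClosure (intRing q E) (layer h)) : layer h) : Ω)]

variable [FiniteDimensional ℚ_[q] E']

/-- In an unramified layer, every element of `E` of norm one is the norm of an element of `E'` of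
norm one. -/
theorem exists_norm_eq_of_isUnramExt_layer
    (hunr : haveI : FiniteDimensional ℚ_[q] E := finiteDimensional_of_le' h
      haveI := PadicTower.intRing_isLocalRing q E
      IsUnramExt (intRing q E) (layer h)) {u : E} (hu : ‖(u : Ω)‖ = 1) :
    ∃ s : layer h, ‖(s : Ω)‖ = 1 ∧ Algebra.norm E s = u := by
  haveI : FiniteDimensional ℚ_[q] E := finiteDimensional_of_le' h
  haveI := PadicTower.intRing_isLocalRing q E
  haveI := PadicTower.intRing_isDiscreteValuationRing q E
  haveI := PadicTower.intRing_isAdicComplete q E
  haveI := PadicTower.intRing_finite_residueField q E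
  haveI := PadicTower.intRing_isFractionRing q E
  haveI := Tower.finiteDimensional_layer' h
  have hunr' : IsUnramifiedExt (intRing q E) E (layer h) :=
    (isUnramifiedExt_iff_isUnramExt (intRing q E) E (layer h)).mpr hunr
  obtain ⟨s, hs⟩ := exists_unit_norm_eq_of_isUnramifiedExt (intRing q E) E (layer h) hunr'
    (KummerLocal.isUnit_intOfNormOne E hu).unit
  exact ⟨((s : integralClosure (intRing q E) (layer h)) : layer h), norm_unit_intRing_layer h s, hs⟩

/-- In an unramified layer the value groups agree. -/
theorem exists_norm_eq_norm_of_isUnramExt_layer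
    (hunr : haveI : FiniteDimensional ℚ_[q] E := finiteDimensional_of_le' h
      haveI := PadicTower.intRing_isLocalRing q E
      IsUnramExt (intRing q E) (layer h)) (y : layer h) :
    ∃ z : E, ‖(z : Ω)‖ = ‖(y : Ω)‖ := by
  haveI : FiniteDimensional ℚ_[q] E := finiteDimensional_of_le' h
  haveI := PadicTower.intRing_isLocalRing q E
  haveI := PadicTower.intRing_isDiscreteValuationRing q E
  haveI := PadicTower.intRing_isAdicComplete q E
  haveI := PadicTower.intRing_finite_residueField q E
  haveI := PadicTower.intRing_isFractionRing q E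
  haveI := Tower.finiteDimensional_layer' h
  haveI := Fermat.Agent.CFT.intRing_isLocalRing (intRing q E) E (layer h)
  haveI := Fermat.Agent.CFT.intRing_isDiscreteValuationRing (intRing q E) E (layer h)
  haveI := Fermat.Agent.CFT.intRing_isFractionRing (intRing q E) E (layer h)
  by_cases hy : y = 0
  · exact ⟨0, by rw [hy]; rfl⟩
  obtain ⟨ϖ, hϖ⟩ := IsDiscreteValuationRing.exists_irreducible (intRing q E)
  have hram : ramIdx (intRing q E) (layer h) = 1 :=
    (isUnramExt_iff_ramIdx (intRing q E) E (layer h)).mp hunr
  have hord : dvrOrd (integralClosure (intRing q E) (layer h)) (layer h)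
      (algebraMap (intRing q E) (layer h) ϖ) = 1 := by
    rw [dvrOrd_algebraMap_irreducible (intRing q E) E (layer h) hϖ, hram]
    rfl
  set n : ℤ := dvrOrd (integralClosure (intRing q E) (layer h)) (layer h) y with hn
  have hϖ0 : algebraMap (intRing q E) (layer h) ϖ ≠ 0 := by
    intro h0
    rw [h0] at hord
    simp [dvrOrd_def] at hord
  set w : layer h := y * ((algebraMap (intRing q E) (layer h) ϖ) ^ n)⁻¹ with hw
  have hw0 : w ≠ 0 := mul_ne_zero hy (inv_ne_zero (zpow_ne_zero _ hϖ0))
  have hwo : dvrOrd (integralClosure (intRing q E) (layer h)) (layer h) w = 0 := by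
    rw [hw, dvrOrd_mul _ _ hy (inv_ne_zero (zpow_ne_zero _ hϖ0)), dvrOrd_inv, dvrOrd_zpow, hord]
    ring
  obtain ⟨s, hs⟩ := (dvrOrd_eq_zero_iff (integralClosure (intRing q E) (layer h)) (layer h)
    hw0).mp hwo
  have hwn : ‖(w : Ω)‖ = 1 := by
    rw [← hs]
    exact norm_unit_intRing_layer h s
  refine ⟨(algebraMap (intRing q E) E ϖ) ^ n, ?_⟩
  have hyw : y = w * (algebraMap (intRing q E) (layer h) ϖ) ^ n := by
    rw [hw, mul_assoc, inv_mul_cancel₀ (zpow_ne_zero _ hϖ0), mul_one]
  have e1 : ((y : layer h) : Ω) = (w : Ω) * ((ϖ : E) : Ω) ^ n := by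
    conv_lhs => rw [hyw]
    push_cast
    rfl
  rw [e1, norm_mul, hwn, one_mul]
  rfl

/-- The Galois group of an unramified Galois layer is cyclic. -/
theorem isCyclic_gal_of_isUnramExt_layer [IsGalois E (layer h)]
    (hunr : haveI : FiniteDimensional ℚ_[q] E := finiteDimensional_of_le' h
      haveI := PadicTower.intRing_isLocalRing q E
      IsUnramExt (intRing q E) (layer h)) :
    IsCyclic ((layer h) ≃ₐ[E] (layer h)) := by
  haveI : FiniteDimensional ℚ_[q] E := finiteDimensional_of_le' h
  haveI := PadicTower.intRing_isLocalRing q E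
  haveI := PadicTower.intRing_isDiscreteValuationRing q E
  haveI := PadicTower.intRing_isAdicComplete q E
  haveI := PadicTower.intRing_finite_residueField q E
  haveI := PadicTower.intRing_isFractionRing q E
  haveI := Tower.finiteDimensional_layer' h
  haveI := Fermat.Agent.CFT.intRing_isLocalRing (intRing q E) E (layer h)
  haveI := Fermat.Agent.CFT.intRing_isLocalHom (intRing q E) E (layer h)
  exact isCyclic_gal_of_isUnramExt (intRing q E) E (layer h) hunr

end LayerMetric

section AtPlace

variable {q : ℕ} [Fact q.Prime] (K : Type) [Field K] {L : Type} [Field L] [Algebra K L]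
  [Normal K L] [FiniteDimensional K L] [NumberField K] [NumberField L]

local notation "Ω" => PadicAlgCl q

/-- An unramified local layer satisfies the hypotheses `IsUnramAt` of `SemiLocalIntegral.lean`. -/
theorem isUnramAt_of_isUnramExt (τ' : LocalEmb q L)
    (hunr : haveI := finiteDimensional_localFieldAt (localEmbRestrict K τ')
      haveI := PadicTower.intRing_isLocalRing q (localFieldAt (localEmbRestrict K τ'))
      IsUnramExt (intRing q (localFieldAt (localEmbRestrict K τ'))) (localLayer K τ')) :
    IsUnramAt K τ' := by
  haveI : FiniteDimensional ℚ_[q] (localFieldAt τ') := finiteDimensional_localFieldAt τ'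
  haveI := isGalois_localLayer K τ'
  refine ⟨?_, ?_, ?_⟩
  · haveI := isCyclic_gal_of_isUnramExt_layer (localFieldAt_restrict_le K τ') hunr
    exact isCyclic_of_surjective (decompEquiv K τ') (decompEquiv K τ').surjective
  · intro u hu
    exact exists_norm_eq_of_isUnramExt_layer (localFieldAt_restrict_le K τ') hunr hu
  · intro y
    exact exists_norm_eq_norm_of_isUnramExt_layer (localFieldAt_restrict_le K τ') hunr y

end AtPlace

section Global

variable (K : Type) [Field K] (L : Type) [Field L] [Algebra K L] [Normal K L]
  [FiniteDimensional K L] [NumberField K] [NumberField L]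

/-- For all but finitely many `q`, every place of `L` above `q` satisfies `IsUnramAt`. -/
theorem eventually_forall_isUnramAt :
    ∀ᶠ q : Nat.Primes in Filter.cofinite, ∀ τ' : LocalEmb (q : ℕ) L, IsUnramAt K τ' := by
  filter_upwards [eventually_isUnramExt_localLayer K L] with q hq τ'
  exact isUnramAt_of_isUnramExt K τ' (hq τ')

/-- **`hU1`**: `H¹(Gal(L/K), U_q L) = 0` for almost all `q`. -/
theorem eventually_semiLocalIntegral_h1TrivialOn :
    ∀ᶠ q : Nat.Primes in Filter.cofinite,
      H1TrivialOn (L ≃ₐ[K] L) (semiLocalIntegral (q : ℕ) L) := by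
  filter_upwards [eventually_forall_isUnramAt K L] with q hq
  exact semiLocalIntegral_h1TrivialOn K fun ω => hq _

/-- **`hU2`**: `H²(Gal(L/K), U_q L) = 0` for almost all `q`. -/
theorem eventually_semiLocalIntegral_h2TrivialOn :
    ∀ᶠ q : Nat.Primes in Filter.cofinite,
      H2TrivialOn (L ≃ₐ[K] L) (semiLocalIntegral (q : ℕ) L) := by
  filter_upwards [eventually_forall_isUnramAt K L] with q hq
  exact semiLocalIntegral_h2TrivialOn K fun ω => hq _

/-- **`hU0`**: invariant integral semi-local units are norms of integral semi-local units for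
almost all `q`. -/
theorem eventually_semiLocalIntegral_normSurjOn [Fintype (L ≃ₐ[K] L)] :
    ∀ᶠ q : Nat.Primes in Filter.cofinite,
      NormSurjOn (L ≃ₐ[K] L) (semiLocalIntegral (q : ℕ) L) := by
  filter_upwards [eventually_forall_isUnramAt K L] with q hq
  exact semiLocalIntegral_normSurjOn K fun ω => hq _

end Global

section Subgroups

variable (K : Type) [Field K] (L : Type) [Field L] [Algebra K L] [Normal K L]
  [FiniteDimensional K L] [NumberField K] [NumberField L]

/-- **Unramified inputs for all subgroups**: for all but finitely many `q`, the integral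
semi-local units at `q` have trivial `H¹`, `H²` and surjective norm for every subgroup of
`Gal(L/K)`. -/
theorem eventually_forall_subgroup_semiLocalIntegral :
    ∀ᶠ q : Nat.Primes in Filter.cofinite, ∀ H : Subgroup (L ≃ₐ[K] L),
      H1TrivialOn H (semiLocalIntegral (q : ℕ) L) ∧
      H2TrivialOn H (semiLocalIntegral (q : ℕ) L) ∧
      ∀ [Fintype H], NormSurjOn H (semiLocalIntegral (q : ℕ) L) := by
  haveI : IsGalois K L := { to_isSeparable := inferInstance, to_normal := inferInstance }
  haveI : Finite (Subgroup (L ≃ₐ[K] L)) := inferInstance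
  rw [Filter.eventually_all]
  intro H
  filter_upwards [eventually_forall_isUnramAt (IntermediateField.fixedField H) L] with q hq
  exact ⟨semiLocalIntegral_h1TrivialOn_subgroup K H fun ω => hq _,
    semiLocalIntegral_h2TrivialOn_subgroup K H fun ω => hq _,
    fun {_} => semiLocalIntegral_normSurjOn_subgroup K H fun ω => hq _⟩

/-- Finite-exceptional-set form of `eventually_forall_subgroup_semiLocalIntegral` (the shape of the
hypotheses `hunr1`, `hunr2` of `SClassIdele.lean`). -/
theorem exists_finite_forall_subgroup_semiLocalIntegral :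
    ∃ S₀ : Set Nat.Primes, S₀.Finite ∧ ∀ q : Nat.Primes, q ∉ S₀ →
      ∀ H : Subgroup (L ≃ₐ[K] L),
        H1TrivialOn H (semiLocalIntegral (q : ℕ) L) ∧
        H2TrivialOn H (semiLocalIntegral (q : ℕ) L) ∧
        ∀ [Fintype H], NormSurjOn H (semiLocalIntegral (q : ℕ) L) := by
  have h := eventually_forall_subgroup_semiLocalIntegral K L
  rw [Filter.eventually_cofinite] at h
  exact ⟨_, h, fun q hq => by
    by_contra hcon
    exact hq hcon⟩

end Subgroups

end Fermat.Agent.CFT
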