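import Mathlib
import Fermat.Agent.CFT.Local.LayerUnramAdjoin
import Fermat.Agent.CFT.Global.KummerLocalField
import Fermat.Agent.CFT.Global.UnramAlmostAll

/-!
# Layer C / C7 (H-unr): Kummer extensions are unramified where the radicands are units

* `isUnrLayer_sup_adjoin_of_pow_eq` (local, `ℚ̄_q/ℚ_q`): `E` finite over `ℚ_q`, `p ≠ q` primes,
  `s` a finite set of elements `x` with `x ^ p = u ∈ E`, `‖u‖ = 1`.  Then `E(s)/E` is unramified
  (`IsUnrLayer ℤ_[q]`);
* `localFieldAt_eq_sup_adjoin_image`: if `M = K(T)` then `M_τ' = K_τ(τ' T)`;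
* `isUnrLayer_localLayer_of_kummer`, `isUnramExt_localLayer_of_kummer`, `isUnramAt_of_kummer`
  (global, local-layer model of `SemiLocalGalois.lean`): `K`, `M` number fields, `M/K` normal,
  `M = K(G)` with `α ^ p = u_α ∈ K` and `‖τ u_α‖ = 1` for all `α ∈ G`, `q ≠ p`.  Then the local layer
  `M_τ'/K_τ` is unramified, in the three usual forms.
-/

set_option autoImplicit false
set_option linter.style.haveILetI false
set_option linter.unusedSectionVars false

open IsLocalRing IntermediateField Polynomial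

namespace Fermat.Agent.CFT

open GaloisTower Tower PadicTower

section PadicKummer

variable {q : ℕ} [Fact q.Prime]

local notation "Ω" => PadicAlgCl q

/-- **Kummer generators at a prime `q ≠ p`.**  If every `x ∈ s` satisfies `x ^ p = u` with `u ∈ E`
of norm one, then `E(s)/E` is unramified. -/
theorem isUnrLayer_sup_adjoin_of_pow_eq (E : IntermediateField ℚ_[q] (PadicAlgCl q))
    [FiniteDimensional ℚ_[q] E] {p : ℕ} (hp : p.Prime) (hpq : p ≠ q) (s : Finset (PadicAlgCl q))
    (hs : ∀ x ∈ s, ∃ u : E, x ^ p = (u : Ω) ∧ ‖(u : Ω)‖ = 1) :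
    IsUnrLayer ℤ_[q] (le_sup_left : E ≤ E ⊔ IntermediateField.adjoin ℚ_[q] (s : Set Ω)) := by
  haveI := PadicTower.intRing_isLocalRing q E
  apply isUnrLayer_sup_adjoin_finset ℤ_[q] E s
  intro x hx
  obtain ⟨u, hxu, hu⟩ := hs x hx
  set u₀ : intRing q E := KummerLocal.intOfNormOne E hu with hu₀
  have hu₀u : IsUnit u₀ := KummerLocal.isUnit_intOfNormOne E hu
  have hpu : IsUnit ((p : ℕ) : intRing q E) := by
    rw [KummerLocal.isUnit_intRing_iff]
    have : (((p : ℕ) : intRing q E) : E) = ((p : ℕ) : E) := by push_cast; rfl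
    rw [this]
    push_cast
    exact KummerLocal.norm_natCast_eq_one hp hpq
  refine ⟨X ^ p - C u₀, monic_X_pow_sub_C u₀ hp.ne_zero, ?_, ?_⟩
  · rw [Polynomial.map_sub, Polynomial.map_pow, Polynomial.map_X, Polynomial.map_C]
    apply separable_X_pow_sub_C
    · have h1 : ((p : ℕ) : ResidueField (intRing q E)) = residue (intRing q E) ((p : ℕ) : intRing q E) :=
        (map_natCast _ p).symm
      rw [h1]
      intro h0
      exact ((residue_eq_zero_iff _).mp h0) hpu
    · intro h0
      exact ((residue_eq_zero_iff _).mp h0) hu₀u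
  · rw [eval₂_sub, eval₂_pow, eval₂_X, eval₂_C, hxu]
    exact sub_self _

end PadicKummer

section Global

variable {q : ℕ} [Fact q.Prime] (K : Type) [Field K] {M : Type} [Field M] [Algebra K M]
  [Normal K M]

local notation "Ω" => PadicAlgCl q

/-- If `M = K(T)` then `M_τ' = K_τ(τ' T)`. -/
theorem localFieldAt_eq_sup_adjoin_image (τ' : LocalEmb q M) {T : Set M}
    (hT : IntermediateField.adjoin K T = ⊤) :
    localFieldAt τ' = localFieldAt (localEmbRestrict K τ') ⊔
      IntermediateField.adjoin ℚ_[q] (τ' '' T) := by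
  apply le_antisymm
  · rw [localFieldAt, IntermediateField.adjoin_le_iff]
    rintro _ ⟨x, rfl⟩
    have hx : x ∈ IntermediateField.adjoin K T := by rw [hT]; trivial
    rw [SetLike.mem_coe]
    induction hx using IntermediateField.adjoin_induction with
    | mem y hy =>
      exact (le_sup_right : _ ≤ localFieldAt (localEmbRestrict K τ') ⊔ _)
        (IntermediateField.subset_adjoin _ _ ⟨y, hy, rfl⟩)
    | algebraMap r =>
      exact (le_sup_left : localFieldAt (localEmbRestrict K τ') ≤ _)
        (apply_mem_localFieldAt (localEmbRestrict K τ') r)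
    | add y z _ _ hy hz => rw [map_add]; exact add_mem hy hz
    | inv y _ hy => rw [map_inv₀]; exact inv_mem hy
    | mul y z _ _ hy hz => rw [map_mul]; exact mul_mem hy hz
  · refine sup_le (localFieldAt_restrict_le K τ') ?_
    rw [IntermediateField.adjoin_le_iff]
    rintro _ ⟨x, -, rfl⟩
    exact apply_mem_localFieldAt τ' x

variable [FiniteDimensional K M] [NumberField K] [NumberField M]

/-- **A Kummer extension is unramified at the primes `q ≠ p` where the radicands are units**:
`M = K(G)`, every `α ∈ G` has `α ^ p = u ∈ K` with `‖τ u‖ = 1`.  Then the local layer `M_τ'/K_τ`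
is unramified. -/
theorem isUnrLayer_localLayer_of_kummer {p : ℕ} (hp : p.Prime) (hpq : p ≠ q)
    (τ' : LocalEmb q M) {G : Set M} (hG : IntermediateField.adjoin K G = ⊤)
    (hGu : ∀ α ∈ G, ∃ u : K, α ^ p = algebraMap K M u ∧ ‖localEmbRestrict K τ' u‖ = 1) :
    IsUnrLayer ℤ_[q] (localFieldAt_restrict_le K τ') := by
  classical
  -- a finite generating subset
  obtain ⟨θ, hθ⟩ := Field.exists_primitive_element K M
  have hθG : θ ∈ IntermediateField.adjoin K G := by rw [hG]; trivial
  obtain ⟨T, hTG, hθT⟩ := IntermediateField.exists_finset_of_mem_adjoin hθG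
  have hT : IntermediateField.adjoin K (T : Set M) = ⊤ := by
    rw [eq_top_iff, ← hθ, IntermediateField.adjoin_simple_le_iff]
    exact hθT
  haveI : FiniteDimensional ℚ_[q] (localFieldAt (localEmbRestrict K τ')) :=
    finiteDimensional_localFieldAt _
  have h1 := isUnrLayer_sup_adjoin_of_pow_eq (localFieldAt (localEmbRestrict K τ')) hp hpq
    (T.image τ') (by
      intro x hx
      obtain ⟨α, hα, rfl⟩ := Finset.mem_image.mp hx
      obtain ⟨u, hαu, hu⟩ := hGu α (hTG hα)
      refine ⟨⟨localEmbRestrict K τ' u, apply_mem_localFieldAt _ u⟩, ?_, hu⟩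
      rw [← map_pow, hαu]
      rfl)
  have e : localFieldAt (localEmbRestrict K τ') ⊔
      IntermediateField.adjoin ℚ_[q] ((T.image τ' : Finset Ω) : Set Ω) = localFieldAt τ' := by
    rw [Finset.coe_image]
    exact (localFieldAt_eq_sup_adjoin_image K τ' hT).symm
  exact IsUnrLayer.congr_top ℤ_[q] e _ h1

/-- `IsUnramExt` form of `isUnrLayer_localLayer_of_kummer`. -/
theorem isUnramExt_localLayer_of_kummer {p : ℕ} (hp : p.Prime) (hpq : p ≠ q)
    (τ' : LocalEmb q M) {G : Set M} (hG : IntermediateField.adjoin K G = ⊤)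
    (hGu : ∀ α ∈ G, ∃ u : K, α ^ p = algebraMap K M u ∧ ‖localEmbRestrict K τ' u‖ = 1) :
    haveI := finiteDimensional_localFieldAt (localEmbRestrict K τ')
    haveI := PadicTower.intRing_isLocalRing q (localFieldAt (localEmbRestrict K τ'))
    IsUnramExt (intRing q (localFieldAt (localEmbRestrict K τ'))) (localLayer K τ') := by
  obtain ⟨_, _, h⟩ := isUnrLayer_localLayer_of_kummer K hp hpq τ' hG hGu
  exact h

/-- `IsUnramAt` form of `isUnrLayer_localLayer_of_kummer`. -/
theorem isUnramAt_of_kummer {p : ℕ} (hp : p.Prime) (hpq : p ≠ q)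
    (τ' : LocalEmb q M) {G : Set M} (hG : IntermediateField.adjoin K G = ⊤)
    (hGu : ∀ α ∈ G, ∃ u : K, α ^ p = algebraMap K M u ∧ ‖localEmbRestrict K τ' u‖ = 1) :
    IsUnramAt K τ' :=
  isUnramAt_of_isUnramExt K τ' (isUnramExt_localLayer_of_kummer K hp hpq τ' hG hGu)

end Global

end Fermat.Agent.CFT
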