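import Fermat.Agent.CFT.Global.PlaceDict
import Fermat.Agent.CFT.Global.ChevalleyIndex

/-!
# Layer C: the index of `p`-th powers in the semi-local units `(K ⊗ ℚ_q)ˣ`

* `index_range_pow_pi` : the index of `n`-th powers in a finite product is the product of the
  indices;
* `index_powSubgroup_top_semiLocalUnits` : `[(K ⊗ ℚ_q)ˣ : (K ⊗ ℚ_q)^{×p}] = p^(2 g_q)` for `q ≠ p`
  and `p^(2 g_p + [K : ℚ])` for `q = p` (`g_q` the number of places over `q`), `K ∋ ζ_p`;
* `prod_index_powSubgroup_top_semiLocalUnits` : the product over a finite set `T ∋ p` of rational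
  primes is `p ^ (2 (r + |T_K| + 1))` (the hypothesis `hloc` of helper5's
  `ExistenceCount.index_principalSubgroup_sup_box`).
-/

set_option autoImplicit false
set_option linter.unusedSectionVars false

open scoped NumberField

noncomputable section

namespace Fermat.Agent.CFT

open Subgroup IsDedekindDomain IdeleDict

section Pi

variable {ι : Type*} [Fintype ι] {A : ι → Type*} [∀ i, CommGroup (A i)]

/-- The index of the `n`-th powers in a finite product is the product of the indices. -/
theorem index_range_pow_pi (n : ℕ) :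
    (powMonoidHom n : (∀ i, A i) →* (∀ i, A i)).range.index =
      ∏ i, (powMonoidHom n : A i →* A i).range.index := by
  have hbox : (powMonoidHom n : (∀ i, A i) →* (∀ i, A i)).range =
      box fun i => (powMonoidHom n : A i →* A i).range := by
    ext x
    rw [MonoidHom.mem_range, mem_box]
    constructor
    · rintro ⟨y, rfl⟩ i
      exact ⟨y i, rfl⟩
    · intro h
      choose y hy using h
      exact ⟨y, funext hy⟩
  have h := relIndex_box (fun i => (powMonoidHom n : A i →* A i).range)
    (fun i => (⊤ : Subgroup (A i))) Finset.univ (fun v hv => absurd (Finset.mem_univ v) hv)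
  have htop : (box fun i => (⊤ : Subgroup (A i))) = ⊤ := Subgroup.pi_top Set.univ
  rw [htop, relIndex_top_right] at h
  rw [hbox, h]
  exact Finset.prod_congr rfl fun i _ => relIndex_top_right _

end Pi

variable {K : Type} [Field K] [NumberField K]

/-- `[(K ⊗ ℚ_q)ˣ : (K ⊗ ℚ_q)^{×p}] = (p²)^{g_q} · p^{[K:ℚ]·[q = p]}` for `K ∋ ζ_p`. -/
theorem index_powSubgroup_top_semiLocalUnits (pp : Nat.Primes) {ζ : K}
    (hζ : IsPrimitiveRoot ζ (pp : ℕ)) (q : Nat.Primes) [Fintype (LocalPlace (q : ℕ) K)] :
    (powSubgroup (⊤ : Subgroup (semiLocalUnits (q : ℕ) K)) (pp : ℕ)).index =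
      ((pp : ℕ) * (pp : ℕ)) ^ Fintype.card (LocalPlace (q : ℕ) K) *
        (if q = pp then (pp : ℕ) ^ Module.finrank ℚ K else 1) := by
  classical
  have h1 : powSubgroup (⊤ : Subgroup (semiLocalUnits (q : ℕ) K)) (pp : ℕ) =
      (powMonoidHom (pp : ℕ) : semiLocalUnits (q : ℕ) K →* _).range := by
    rw [powSubgroup, ← MonoidHom.range_eq_map]
  rw [h1, LocalPow.index_range_pow_of_mulEquiv (semiLocalEvalEquiv (q := (q : ℕ)) (K := K)) (pp : ℕ),
    index_range_pow_pi]
  have hterm : ∀ ω : LocalPlace (q : ℕ) K,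
      (powMonoidHom (pp : ℕ) : (localFieldAt ω.emb)ˣ →* (localFieldAt ω.emb)ˣ).range.index =
        (pp : ℕ) * (pp : ℕ) * (if q = pp then
          (pp : ℕ) ^ Module.finrank ℚ_[(q : ℕ)] (localFieldAt ω.emb) else 1) :=
    fun ω => index_range_pow_place pp hζ (⟨q, ω⟩ : IdelePlace K)
  rw [Finset.prod_congr rfl fun ω _ => hterm ω, Finset.prod_mul_distrib, Finset.prod_const,
    Finset.card_univ]
  congr 1
  by_cases hq : q = pp
  · subst hq
    simp only [if_true]
    rw [Finset.prod_pow_eq_pow_sum, LocalPow.sum_finrank_localFieldAt]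
  · simp only [if_neg hq]
    exact Finset.prod_const_one

/-- The number of primes of `K` over a finite set `T` of rational primes is the number of places
of the model over `T`. -/
theorem natCard_primesOver (T : Finset Nat.Primes) [∀ q : Nat.Primes, Fintype (LocalPlace (q : ℕ) K)] :
    Nat.card (primesOver K (T : Set Nat.Primes)) =
      ∑ q ∈ T, Fintype.card (LocalPlace (q : ℕ) K) := by
  classical
  have hset : primesOver K (T : Set Nat.Primes) =
      IdelePlace.prime '' ((T.sigma fun q => (Finset.univ : Finset (LocalPlace (q : ℕ) K)) :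
        Finset (IdelePlace K)) : Set (IdelePlace K)) := by
    ext P
    constructor
    · intro hP
      obtain ⟨v, rfl⟩ := IdelePlace.prime_surjective P
      refine ⟨v, ?_, rfl⟩
      rw [Finset.mem_coe, Finset.mem_sigma]
      exact ⟨Finset.mem_coe.1 ((primeOfH_mem_primesOver_iff v.2.emb).1 hP), Finset.mem_univ _⟩
    · rintro ⟨v, hv, rfl⟩
      rw [Finset.mem_coe, Finset.mem_sigma] at hv
      exact (primeOfH_mem_primesOver_iff v.2.emb).2 (Finset.mem_coe.2 hv.1)
  rw [hset, Nat.card_coe_set_eq, Set.ncard_image_of_injective _ IdelePlace.prime_injective,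
    Set.ncard_coe_finset, Finset.card_sigma]
  exact Finset.sum_congr rfl fun q _ => Finset.card_univ

/-- **Product of the semi-local power indices** over a finite set `T ∋ p` of rational primes:
`∏_{q ∈ T} [(K ⊗ ℚ_q)ˣ : (K ⊗ ℚ_q)^{×p}] = p ^ (2 (r + |T_K| + 1))` for `K ∋ ζ_p`, `p` odd. -/
theorem prod_index_powSubgroup_top_semiLocalUnits (pp : Nat.Primes) (hp2 : 2 < (pp : ℕ)) {ζ : K}
    (hζ : IsPrimitiveRoot ζ (pp : ℕ)) (T : Finset Nat.Primes) (hpT : pp ∈ T) :
    ∏ q ∈ T, (powSubgroup (⊤ : Subgroup (semiLocalUnits (q : ℕ) K)) (pp : ℕ)).index =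
      (pp : ℕ) ^ (2 * (NumberField.Units.rank K +
        Nat.card (primesOver K (T : Set Nat.Primes)) + 1)) := by
  classical
  have : ∀ q : Nat.Primes, Fintype (LocalPlace (q : ℕ) K) := fun q => Fintype.ofFinite _
  rw [Finset.prod_congr rfl fun q _ => index_powSubgroup_top_semiLocalUnits pp hζ q,
    Finset.prod_mul_distrib, Finset.prod_pow_eq_pow_sum, ← natCard_primesOver T,
    Finset.prod_ite_eq' T pp, if_pos hpT, ← two_mul_rank_add_one hp2 hζ, ← sq, ← pow_mul, ← pow_add]
  congr 1
  ring

end Fermat.Agent.CFT
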