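/-
S55 / C7 [G4-LAYER]: **the hard half of the global existence theorem mod `p` for the Kummer layer
of the `T`-units inside `Ω = ℚ̄`.**

`E : IntermediateField ℚ Ω` a number field containing `ζ_p`, `D ≤ Eˣ`:

* `KummerLayer.kummerTop E p D : IntermediateField ℚ Ω` — the field `E(D^{1/p})` (all `p`-th roots in
  `Ω`), `le_kummerTop : E ≤ kummerTop E p D`, and `layer (le_kummerTop E p D)` IS (by `rfl`)
  helper19's `Kummer.adjoinUnits E (Kummer.radicalsOf Ω p D)`;
* the layer is Galois, abelian of exponent `p`, generated by the `p`-th roots; for `D` the `T`-units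
  its degree, the order of its Galois group and the number of its characters are
  `p ^ (rank + |T| + 1)` (`hX`); it is a number field, finite over `ℚ`;
* `inertiaAt_layer_kummerTop_eq_bot` (`hunr`): for `T` the primes over a set `T₀ ∋ p` of rational
  primes the layer is unramified at all places over `q ∉ T₀`;
* `exists_pow_eq_mk_of_forall_unramChars_sUnitTop`: helper5's
  `ExistenceLocal.exists_pow_eq_mk_of_forall_unramChars` for `K := ↥E`,
  `L := ↥(layer (le_sUnitTop pp E T₀))`, with `hFI`, `hunr`, `hnd`, `hX` discharged: the only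
  hypotheses left are the invariant `invM` on `H²(Gal(M_T/E), C_{M_T})`, its local-global
  compatibility `hlg` and its injectivity on `p`-torsion `hinj`;
* `exists_finset_generates`: the finite set `T₀ ⊇ S ∪ {p}` generating the class group.
-/
import Fermat.Agent.CFT.Global.ExistenceModPLocal
import Fermat.Agent.CFT.Kummer.SUnitField
import Fermat.Agent.CFT.Global.KummerUnramLayer
import Fermat.Agent.CFT.Global.ExistenceModPChar
import Fermat.Agent.CFT.Global.ExistenceNondeg
import Fermat.Agent.CFT.Global.ClassLayerInvQ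
import Fermat.Agent.CFT.Global.SemiLocalPowIndex
import Fermat.Agent.CFT.Global.FirstIneqUncond
import Fermat.Agent.CFT.Global.ExistenceModPGen

set_option autoImplicit false
set_option linter.style.haveILetI false
set_option linter.unusedSectionVars false

open CategoryTheory groupCohomology IntermediateField

noncomputable section

namespace Fermat.Agent.CFT

open GaloisTower LayerMaps

namespace KummerLayer

/-- An extension of number fields is finite. -/
theorem finiteDimensional_of_numberField' (K L : Type) [Field K] [Field L] [NumberField K]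
    [NumberField L] [Algebra K L] : FiniteDimensional K L :=
  Module.Finite.of_restrictScalars_finite ℚ K L

variable {Ω : Type} [Field Ω] [Algebra ℚ Ω]

/-- The top of the Kummer layer `E(D^{1/p})/E` inside `Ω`, as an intermediate field of `Ω/ℚ`. -/
def kummerTop (E : IntermediateField ℚ Ω) (p : ℕ) (D : Subgroup (↥E)ˣ) : IntermediateField ℚ Ω :=
  (Kummer.adjoinUnits (↥E) (Kummer.radicalsOf Ω p D : Set Ωˣ)).restrictScalars ℚ

variable (E : IntermediateField ℚ Ω) (p : ℕ) (D : Subgroup (↥E)ˣ)

theorem le_kummerTop : E ≤ kummerTop E p D := by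
  intro x hx
  exact (Kummer.adjoinUnits (↥E) (Kummer.radicalsOf Ω p D : Set Ωˣ)).algebraMap_mem ⟨x, hx⟩

theorem layer_kummerTop :
    layer (le_kummerTop E p D) = Kummer.adjoinUnits (↥E) (Kummer.radicalsOf Ω p D : Set Ωˣ) := rfl

section AlgClosed

variable [IsAlgClosed Ω] [Algebra.IsAlgebraic ℚ Ω]

/-- `Ω/E` is Galois for every subfield `E` of an algebraic closure `Ω` of `ℚ`. -/
theorem isGalois_top : IsGalois (↥E) Ω := by
  haveI : Algebra.IsAlgebraic (↥E) Ω := Algebra.IsAlgebraic.tower_top (K := ℚ) (↥E)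
  haveI : IsAlgClosure (↥E) Ω := ⟨inferInstance, inferInstance⟩
  haveI : CharZero (↥E) := charZero_of_injective_algebraMap (algebraMap ℚ (↥E)).injective
  exact IsAlgClosure.isGalois (↥E) Ω

variable {E p}
variable [hp : Fact p.Prime] {ζ : ↥E} (hζ : IsPrimitiveRoot ζ p)

include hζ

theorem isGalois_layer_kummerTop : IsGalois (↥E) (layer (le_kummerTop E p D)) := by
  haveI : NeZero p := ⟨hp.out.ne_zero⟩
  haveI := isGalois_top E
  exact Kummer.isGalois_adjoinUnits (K := ↥E) (L := Ω) hζ (Kummer.radicalsOf_le_radicals D)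

theorem layerGal_kummerTop_pow_eq_one (σ : LayerGal (le_kummerTop E p D)) : σ ^ p = 1 := by
  haveI : NeZero p := ⟨hp.out.ne_zero⟩
  haveI := isGalois_top E
  exact Kummer.gal_adjoinUnits_pow_eq_one (K := ↥E) (L := Ω) hζ (Kummer.radicalsOf_le_radicals D) σ

theorem layerGal_kummerTop_mul_comm (σ τ : LayerGal (le_kummerTop E p D)) : σ * τ = τ * σ := by
  haveI : NeZero p := ⟨hp.out.ne_zero⟩
  haveI := isGalois_top E
  exact Kummer.gal_adjoinUnits_mul_comm (K := ↥E) (L := Ω) hζ (Kummer.radicalsOf_le_radicals D) σ τ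


section SUnit

open NumberField IsDedekindDomain

variable [NumberField (↥E)] (T : Set (HeightOneSpectrum (𝓞 (↥E)))) [Finite T]

/-- **Degree of the Kummer layer of the `T`-units**: `[E(U_T^{1/p}) : E] = p ^ (r + |T| + 1)`. -/
theorem finrank_layer_kummerTop_sUnit :
    Module.finrank (↥E) (layer (le_kummerTop E p (T.unit (↥E)))) =
      p ^ (NumberField.Units.rank (↥E) + Nat.card T + 1) := by
  haveI := isGalois_top E
  exact Kummer.finrank_adjoinUnits_radicalsOf_sUnit_numberField (↥E) T (L := Ω) hζ
    (fun d _ => IsAlgClosed.exists_pow_nat_eq _ hp.out.pos)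

theorem finiteDimensional_layer_kummerTop_sUnit :
    FiniteDimensional (↥E) (layer (le_kummerTop E p (T.unit (↥E)))) := by
  apply Module.finite_of_finrank_pos
  rw [finrank_layer_kummerTop_sUnit hζ T]
  exact pow_pos hp.out.pos _

theorem numberField_layer_kummerTop_sUnit :
    NumberField (layer (le_kummerTop E p (T.unit (↥E)))) := by
  haveI := finiteDimensional_layer_kummerTop_sUnit hζ T
  exact NumberField.of_module_finite (↥E) (layer (le_kummerTop E p (T.unit (↥E))))

theorem finiteDimensional_kummerTop_sUnit :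
    FiniteDimensional ℚ (kummerTop E p (T.unit (↥E))) := by
  haveI := numberField_layer_kummerTop_sUnit hζ T
  have h : FiniteDimensional ℚ (layer (le_kummerTop E p (T.unit (↥E)))) := by
    convert (NumberField.to_finiteDimensional (K := ↥(layer (le_kummerTop E p (T.unit (↥E))))))
    exact Subsingleton.elim _ _
  exact h


/-- **(hX)** The Kummer layer of the `T`-units has exactly `p ^ (r + |T| + 1)` characters of
order dividing `p`. -/
theorem natCard_monoidHom_layerGal_kummerTop_sUnit :
    Nat.card (LayerGal (le_kummerTop E p (T.unit (↥E))) →* Multiplicative (ZMod p)) =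
      p ^ (NumberField.Units.rank (↥E) + Nat.card T + 1) := by
  haveI := isGalois_layer_kummerTop (T.unit (↥E)) hζ
  haveI := finiteDimensional_layer_kummerTop_sUnit hζ T
  letI : CommGroup (LayerGal (le_kummerTop E p (T.unit (↥E)))) :=
    { (inferInstance : Group (LayerGal (le_kummerTop E p (T.unit (↥E))))) with
      mul_comm := layerGal_kummerTop_mul_comm (T.unit (↥E)) hζ }
  have h1 := ExistenceModP.natCard_monoidHom_zmod
    (G := LayerGal (le_kummerTop E p (T.unit (↥E)))) p
    (layerGal_kummerTop_pow_eq_one (T.unit (↥E)) hζ)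
  rw [← finrank_layer_kummerTop_sUnit hζ T,
    ← IsGalois.card_aut_eq_finrank (↥E) (layer (le_kummerTop E p (T.unit (↥E))))]
  exact h1

/-- The order of the Galois group of the Kummer layer of the `T`-units. -/
theorem natCard_layerGal_kummerTop_sUnit :
    Nat.card (LayerGal (le_kummerTop E p (T.unit (↥E)))) =
      p ^ (NumberField.Units.rank (↥E) + Nat.card T + 1) := by
  haveI := isGalois_layer_kummerTop (T.unit (↥E)) hζ
  haveI := finiteDimensional_layer_kummerTop_sUnit hζ T
  rw [← finrank_layer_kummerTop_sUnit hζ T]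
  exact IsGalois.card_aut_eq_finrank (↥E) (layer (le_kummerTop E p (T.unit (↥E))))

end SUnit


section Generation

variable [NeZero p]

omit hp hζ in
/-- The Kummer layer is generated over `E` by the `p`-th roots of the elements of `D`. -/
theorem adjoin_roots_layer_kummerTop :
    IntermediateField.adjoin (↥E)
      {α : ↥(layer (le_kummerTop E p D)) | ∃ u ∈ D, α ^ p =
        algebraMap (↥E) (↥(layer (le_kummerTop E p D))) (u : ↥E)} = ⊤ := by
  have hM0' : layer (le_kummerTop E p D) =
      adjoin (↥E) {x : Ω | ∃ d ∈ D, x ^ p = algebraMap (↥E) Ω (d : ↥E)} :=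
    Kummer.adjoinUnits_radicalsOf_eq_adjoin D
  apply IntermediateField.map_injective (layer (le_kummerTop E p D)).val
  rw [IntermediateField.adjoin_map, ← AlgHom.fieldRange_eq_map, fieldRange_val]
  conv_rhs => rw [hM0']
  congr 1
  ext x
  constructor
  · rintro ⟨α, ⟨u, hu, hα⟩, rfl⟩
    exact ⟨u, hu, congrArg Subtype.val hα⟩
  · rintro ⟨u, hu, hx⟩
    have hmem : x ∈ layer (le_kummerTop E p D) := by
      rw [hM0']
      exact subset_adjoin (↥E) _ ⟨u, hu, hx⟩
    exact ⟨⟨x, hmem⟩, ⟨u, hu, Subtype.ext hx⟩, rfl⟩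

end Generation

section Unram

open NumberField IsDedekindDomain IdeleDict

variable [NumberField (↥E)] (T₀ : Set Nat.Primes)
  [NumberField (layer (le_kummerTop E p ((primesOver (↥E) T₀).unit (↥E))))]
  [IsGalois (↥E) (layer (le_kummerTop E p ((primesOver (↥E) T₀).unit (↥E))))]

omit hζ in
/-- **(hunr)** The Kummer layer of the units outside the primes over `T₀ ∋ p` is unramified at all
places over the primes `q ∉ T₀`. -/
theorem inertiaAt_layer_kummerTop_eq_bot (hpT : ∀ q : Nat.Primes, (q : ℕ) = p → q ∈ T₀)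
    (q : Nat.Primes) (hq : q ∉ T₀)
    (τ' : LocalEmb ((q : Nat.Primes) : ℕ)
      (layer (le_kummerTop E p ((primesOver (↥E) T₀).unit (↥E))))) :
    inertiaAt (↥E) τ' = ⊥ := by
  haveI : NeZero p := ⟨hp.out.ne_zero⟩
  haveI : FiniteDimensional (↥E) (layer (le_kummerTop E p ((primesOver (↥E) T₀).unit (↥E)))) :=
    finiteDimensional_of_numberField' _ _
  rw [inertiaAt_eq_bot_iff]
  have hpq : p ≠ (q : ℕ) := fun h => hq (hpT q h.symm)
  refine isUnrLayer_localLayer_of_kummer (↥E) hp.out hpq τ'
    (adjoin_roots_layer_kummerTop ((primesOver (↥E) T₀).unit (↥E))) ?_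
  rintro α ⟨u, hu, hα⟩
  refine ⟨(u : ↥E), hα, ?_⟩
  rw [norm_emb_eq_one_iff_ordAt, ordAt_eq_zero_iff]
  apply hu
  rw [primeOfH_mem_primesOver_iff]
  exact hq

end Unram

end AlgClosed


section Final

open NumberField IsDedekindDomain IdeleDict

variable {Ω : Type} [Field Ω] [Algebra ℚ Ω]

/-- The places of `K` over a finite set `T₀` of rational primes, as a finset of `IdelePlace K`. -/
def placesOverFinset (K : Type) [Field K] [NumberField K] (T₀ : Finset Nat.Primes) :
    Finset (IdelePlace K) :=
  T₀.sigma fun q => @Finset.univ (LocalPlace (q : ℕ) K) (Fintype.ofFinite _)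

theorem mem_placesOverFinset {K : Type} [Field K] [NumberField K] {T₀ : Finset Nat.Primes}
    {v : IdelePlace K} : v ∈ placesOverFinset K T₀ ↔ v.1 ∈ T₀ := by
  unfold placesOverFinset
  rw [Finset.mem_sigma]
  exact ⟨fun h => h.1, fun h => ⟨h, @Finset.mem_univ _ (Fintype.ofFinite _) _⟩⟩

theorem image_prime_placesOverFinset (K : Type) [Field K] [NumberField K]
    (T₀ : Finset Nat.Primes) :
    IdelePlace.prime '' (placesOverFinset K T₀ : Set (IdelePlace K)) =
      primesOver K (T₀ : Set Nat.Primes) := by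
  ext P
  constructor
  · rintro ⟨v, hv, rfl⟩
    rw [Finset.mem_coe, mem_placesOverFinset] at hv
    exact (primeOfH_mem_primesOver_iff v.2.emb).2 (Finset.mem_coe.2 hv)
  · intro hP
    obtain ⟨v, rfl⟩ := IdelePlace.prime_surjective P
    refine ⟨v, ?_, rfl⟩
    rw [Finset.mem_coe, mem_placesOverFinset]
    exact Finset.mem_coe.1 ((primeOfH_mem_primesOver_iff v.2.emb).1 hP)

theorem card_placesOverFinset (K : Type) [Field K] [NumberField K] (T₀ : Finset Nat.Primes) :
    (placesOverFinset K T₀).card = Nat.card (primesOver K (T₀ : Set Nat.Primes)) := by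
  rw [← image_prime_placesOverFinset, Nat.card_coe_set_eq,
    Set.ncard_image_of_injective _ IdelePlace.prime_injective, Set.ncard_coe_finset]


variable (pp : Nat.Primes) (hp2 : 2 < (pp : ℕ)) (E : IntermediateField ℚ Ω) [NumberField (↥E)]
  {ζ : ↥E} (hζ : IsPrimitiveRoot ζ (pp : ℕ)) (S : Set Nat.Primes) (T₀ : Finset Nat.Primes)
  (hST : S ⊆ (T₀ : Set Nat.Primes)) (hpT : pp ∈ T₀)
  (hgen : GeneratesClassGroup (↥E) (primesOver (↥E) (T₀ : Set Nat.Primes)))

/-- The Kummer layer `E(U_T^{1/p})/E` of the `T`-units of `E`, `T` the set of primes of `E` over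
the finite set `T₀` of rational primes: its top field. -/
abbrev sUnitTop : IntermediateField ℚ Ω :=
  kummerTop E (pp : ℕ) ((primesOver (↥E) (T₀ : Set Nat.Primes)).unit (↥E))

/-- `E ≤ E(U_T^{1/p})`. -/
theorem le_sUnitTop : E ≤ sUnitTop pp E T₀ :=
  le_kummerTop E (pp : ℕ) _

variable [IsAlgClosed Ω] [Algebra.IsAlgebraic ℚ Ω]

include hp2 hζ hST hpT hgen in
/-- **(E)-hard for the Kummer layer** (`[G4-LAYER]`): `E ∋ ζ_p` a number field inside `Ω = ℚ̄`,
`T₀ ⊇ S ∪ {p}` a finite set of rational primes whose primes in `E` generate the class group,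
`M_T = E(U_T^{1/p})` the Kummer layer of the `T`-units (`le_sUnitTop`).  For every invariant
`invM` on `H²(Gal(M_T/E), C_{M_T})` which is compatible with the local invariants on `p`-torsion
classes (`hlg`) and injective on `p`-torsion (`hinj`): an idele of `E` orthogonal to all characters
of `Gal(M_T/E)` unramified outside `S` is a `p`-th power in `C_S(E)`. -/
theorem exists_pow_eq_mk_of_forall_unramChars_sUnitTop
    [NumberField (layer (le_sUnitTop pp E T₀))] [IsGalois (↥E) (layer (le_sUnitTop pp E T₀))]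
    (I : LocalInvFamily) (hI : ∀ q, (I q).IsConjInvariant)
    (invM : H2 (ideleClassRep (layer (le_sUnitTop pp E T₀)) (LayerGal (le_sUnitTop pp E T₀))) →+
      AddCircle (1 : ℚ))
    (hlg : ∀ z : H2 (ideleRep (layer (le_sUnitTop pp E T₀)) (LayerGal (le_sUnitTop pp E T₀))),
      (pp : ℕ) • z = 0 → invM ((ideleH2g (↥E)).hom z) = invJFun I (↥E) z)
    (hinj : ∀ c : H2 (ideleClassRep (layer (le_sUnitTop pp E T₀)) (LayerGal (le_sUnitTop pp E T₀))),
      (pp : ℕ) • c = 0 → invM c = 0 → c = 0)
    (x : ideleGroup (↥E))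
    (hx : ∀ χ ∈ ExistenceLocal.unramCharsOutside (↥E) (layer (le_sUnitTop pp E T₀)) (pp : ℕ) S,
      invM (symClass _ χ (ExistenceModP.ideleClassOfBase (↥E) (layer (le_sUnitTop pp E T₀)) x)
        (ExistenceModP.isInv_ideleClassOfBase (↥E) (layer (le_sUnitTop pp E T₀)) x)) = 0) :
    ∃ y : ideleClassS (↥E) S, y ^ (pp : ℕ) = (QuotientGroup.mk x : ideleClassS (↥E) S) := by
  haveI : Fact (pp : ℕ).Prime := ⟨pp.2⟩
  haveI : Finite (primesOver (↥E) (T₀ : Set Nat.Primes)) :=
    (IdeleDict.primesOver_finite T₀.finite_toSet).to_subtype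
  refine ExistenceLocal.exists_pow_eq_mk_of_forall_unramChars (↥E) (layer (le_sUnitTop pp E T₀))
    pp hp2 hζ S (placesOverFinset (↥E) T₀) ?_ ?_ ?_ (FirstIneq.firstIneq_hFI (↥E) pp hp2) I hI
    invM hlg ?_ ?_ ?_ x hx
  · intro v hv
    exact mem_placesOverFinset.2 (Finset.mem_coe.1 (hST hv))
  · intro v hv
    exact mem_placesOverFinset.2 (hv ▸ hpT)
  · rw [image_prime_placesOverFinset]
    exact hgen
  · intro q τ' hv
    refine inertiaAt_layer_kummerTop_eq_bot (T₀ : Set Nat.Primes) ?_ q ?_ τ'
    · intro q' hq'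
      have : q' = pp := Subtype.ext hq'
      exact this ▸ Finset.mem_coe.2 hpT
    · intro hq
      exact hv (mem_placesOverFinset.2 (Finset.mem_coe.1 hq))
  · haveI : FiniteDimensional (↥E) (layer (le_sUnitTop pp E T₀)) :=
      finiteDimensional_of_numberField' _ _
    exact ExistenceNondeg.hnd_of_injective (↥E) (layer (le_sUnitTop pp E T₀)) pp hp2 _
      (natCard_layerGal_kummerTop_sUnit hζ (primesOver (↥E) (T₀ : Set Nat.Primes))) invM hinj
  · rw [card_placesOverFinset]
    exact (natCard_monoidHom_layerGal_kummerTop_sUnit hζ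
      (primesOver (↥E) (T₀ : Set Nat.Primes))).ge


omit [IsAlgClosed Ω] [Algebra.IsAlgebraic ℚ Ω] in
/-- Every finite set `S` of rational primes and every prime `pp` lie in a finite set `T₀` of
rational primes whose primes in `E` generate the class group of `E`. -/
theorem exists_finset_generates (hS : S.Finite) :
    ∃ T₀ : Finset Nat.Primes, S ⊆ (T₀ : Set Nat.Primes) ∧ pp ∈ T₀ ∧
      GeneratesClassGroup (↥E) (primesOver (↥E) (T₀ : Set Nat.Primes)) := by
  obtain ⟨T, hST, hTfin, hgen, -⟩ :=
    ExistenceModP.exists_finite_superset_generates (↥E) (S := S ∪ {pp})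
      (hS.union (Set.finite_singleton pp))
  refine ⟨hTfin.toFinset, ?_, ?_, ?_⟩
  · rw [Set.Finite.coe_toFinset]
    exact Set.subset_union_left.trans hST
  · rw [Set.Finite.mem_toFinset]
    exact hST (Or.inr rfl)
  · rw [Set.Finite.coe_toFinset]
    exact hgen

include hζ in
/-- The Kummer layer of the `T`-units is Galois. -/
theorem isGalois_layer_sUnitTop : IsGalois (↥E) (layer (le_sUnitTop pp E T₀)) := by
  haveI : Fact (pp : ℕ).Prime := ⟨pp.2⟩
  exact isGalois_layer_kummerTop _ hζ

include hζ in
/-- The Kummer layer of the `T`-units is normal. -/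
theorem normal_layer_sUnitTop : Normal (↥E) (layer (le_sUnitTop pp E T₀)) := by
  haveI := isGalois_layer_sUnitTop pp E hζ T₀
  infer_instance

include hζ in
/-- The top of the Kummer layer of the `T`-units is a number field. -/
theorem numberField_layer_sUnitTop : NumberField (layer (le_sUnitTop pp E T₀)) := by
  haveI : Fact (pp : ℕ).Prime := ⟨pp.2⟩
  haveI : Finite (primesOver (↥E) (T₀ : Set Nat.Primes)) :=
    (IdeleDict.primesOver_finite T₀.finite_toSet).to_subtype
  exact numberField_layer_kummerTop_sUnit hζ _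

include hζ in
/-- The top of the Kummer layer of the `T`-units is finite over `ℚ`. -/
theorem finiteDimensional_sUnitTop : FiniteDimensional ℚ (sUnitTop pp E T₀) := by
  haveI : Fact (pp : ℕ).Prime := ⟨pp.2⟩
  haveI : Finite (primesOver (↥E) (T₀ : Set Nat.Primes)) :=
    (IdeleDict.primesOver_finite T₀.finite_toSet).to_subtype
  exact finiteDimensional_kummerTop_sUnit hζ _

include hζ in
/-- The Galois group of the Kummer layer of the `T`-units is a `p`-group. -/
theorem natCard_layerGal_sUnitTop :
    Nat.card (LayerGal (le_sUnitTop pp E T₀)) = (pp : ℕ) ^ (NumberField.Units.rank (↥E) +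
      Nat.card (primesOver (↥E) (T₀ : Set Nat.Primes)) + 1) := by
  haveI : Fact (pp : ℕ).Prime := ⟨pp.2⟩
  haveI : Finite (primesOver (↥E) (T₀ : Set Nat.Primes)) :=
    (IdeleDict.primesOver_finite T₀.finite_toSet).to_subtype
  exact natCard_layerGal_kummerTop_sUnit hζ _

end Final

end KummerLayer

end Fermat.Agent.CFT
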