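import Fermat.Agent.CFT.Global.IdeleGalMap
import Fermat.Agent.CFT.Global.SClassIdele
import Fermat.Agent.CFT.Global.ArtinTate

/-!
# Galois functoriality of the cohomology of `S`-idele classes

The analogue of `ideleClassGalMap` (`IdeleGalMap.lean`) for the `S`-idele class groups
`C_S(L) = J_L / (Lˣ U_{L,S})`: for a commutative square of fields `K₁ ⊆ L₁`, `K₂ ⊆ L₂`,
`K₁ ⊆ K₂`, `L₁ ⊆ L₂` with `L₁/K₁` normal,
`ideleClassSGalMap : Hⁿ(Gal(L₁/K₁), C_S(L₁)) ⟶ Hⁿ(Gal(L₂/K₂), C_S(L₂))`,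
functorial (`ideleClassSGalMap_comp`) and compatible with the projections `C_L → C_S(L)`
(`ideleClassGalMap_comp_classS`).
-/

set_option autoImplicit false
set_option linter.unusedSectionVars false

open CategoryTheory groupCohomology Rep

noncomputable section

namespace Fermat.Agent.CFT

section Map

variable (L₁ L₂ : Type) [Field L₁] [Field L₂] [Algebra L₁ L₂] (S : Set Nat.Primes)

theorem ideleProdMap_mem_unitIdelesOutside {x : IdeleProd L₁} (hx : x ∈ unitIdelesOutside L₁ S) :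
    ideleProdMap (algebraMap L₁ L₂) x ∈ unitIdelesOutside L₂ S := by
  refine ⟨fun q hq => ?_, fun q hq => ?_⟩
  · exact semiLocalMap_mem_integral (algebraMap L₁ L₂) (hx.1 q hq)
  · rw [ideleProdMap_apply, hx.2 q hq, map_one]

theorem ideleMap_mem_principalUnitSubgroup {x : ideleGroup L₁}
    (hx : x ∈ principalUnitSubgroup L₁ S) :
    ideleMap (algebraMap L₁ L₂) x ∈ principalUnitSubgroup L₂ S := by
  have hx' : (x : IdeleProd L₁) ∈ (principalIdele L₁).range ⊔ unitIdelesOutside L₁ S :=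
    Subgroup.mem_subgroupOf.1 hx
  obtain ⟨y, ⟨a, rfl⟩, u, hu, hyu⟩ := Subgroup.mem_sup.1 hx'
  refine Subgroup.mem_subgroupOf.2 ?_
  show ideleProdMap (algebraMap L₁ L₂) (x : IdeleProd L₁) ∈ _
  rw [← hyu, map_mul, ideleProdMap_principal]
  exact Subgroup.mul_mem_sup ⟨_, rfl⟩ (ideleProdMap_mem_unitIdelesOutside L₁ L₂ S hu)

/-- The induced map on `S`-idele class groups `C_S(L₁) → C_S(L₂)`. -/
def ideleClassSMap : ideleClassS L₁ S →* ideleClassS L₂ S :=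
  QuotientGroup.map _ _ (ideleMap (algebraMap L₁ L₂))
    (fun _ hx => Subgroup.mem_comap.2 (ideleMap_mem_principalUnitSubgroup L₁ L₂ S hx))

@[simp]
theorem ideleClassSMap_mk (x : ideleGroup L₁) :
    ideleClassSMap L₁ L₂ S (QuotientGroup.mk x) =
      QuotientGroup.mk (ideleMap (algebraMap L₁ L₂) x) :=
  rfl

theorem ideleClassSMap_classToClassS (c : ideleClass L₁) :
    ideleClassSMap L₁ L₂ S (classToClassS S c) = classToClassS S (ideleClassMap L₁ L₂ c) := by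
  induction c using QuotientGroup.induction_on with
  | H x => rfl

end Map

section Gal

variable (K₁ L₁ K₂ L₂ : Type) [Field K₁] [Field L₁] [Field K₂] [Field L₂]
  [Algebra K₁ L₁] [Algebra K₂ L₂] [Algebra K₁ K₂] [Algebra L₁ L₂] [Algebra K₁ L₂]
  [IsScalarTower K₁ K₂ L₂] [IsScalarTower K₁ L₁ L₂] [Normal K₁ L₁] (S : Set Nat.Primes)

theorem ideleClassSMap_galRes_smul (σ : L₂ ≃ₐ[K₂] L₂) (c : ideleClassS L₁ S) :
    ideleClassSMap L₁ L₂ S (galRes K₁ L₁ K₂ L₂ σ • c) = σ • ideleClassSMap L₁ L₂ S c := by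
  induction c using QuotientGroup.induction_on with
  | H x =>
    rw [ideleClassS_smul_mk, ideleClassSMap_mk, ideleClassSMap_mk, ideleClassS_smul_mk,
      ideleMap_galRes_smul]

/-- `C_S(L₁) → C_S(L₂)` as a morphism of representations along `galRes`. -/
def ideleClassSGalHom :
    res (galRes K₁ L₁ K₂ L₂) (ideleClassSRep L₁ (L₁ ≃ₐ[K₁] L₁) S) ⟶
      ideleClassSRep L₂ (L₂ ≃ₐ[K₂] L₂) S :=
  mulRepHomRes (galRes K₁ L₁ K₂ L₂) (ideleClassSMap L₁ L₂ S)
    (ideleClassSMap_galRes_smul K₁ L₁ K₂ L₂ S)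

@[simp]
theorem ideleClassSGalHom_apply (c : Additive (ideleClassS L₁ S)) :
    ((ideleClassSGalHom K₁ L₁ K₂ L₂ S).hom c : Additive (ideleClassS L₂ S)) =
      Additive.ofMul (ideleClassSMap L₁ L₂ S (Additive.toMul c)) := rfl

/-- **Galois functoriality** of `Hⁿ(Gal(L/K), C_S(L))`. -/
def ideleClassSGalMap (n : ℕ) :
    groupCohomology (ideleClassSRep L₁ (L₁ ≃ₐ[K₁] L₁) S) n ⟶
      groupCohomology (ideleClassSRep L₂ (L₂ ≃ₐ[K₂] L₂) S) n :=
  groupCohomology.map (galRes K₁ L₁ K₂ L₂) (ideleClassSGalHom K₁ L₁ K₂ L₂ S) n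

/-- Compatibility with the projection `C_L → C_S(L)`. -/
theorem ideleClassGalMap_comp_classS (n : ℕ) :
    ideleClassGalMap K₁ L₁ K₂ L₂ n ≫
        groupCohomology.map (MonoidHom.id _) (classToClassSRepHom L₂ (L₂ ≃ₐ[K₂] L₂) S) n =
      groupCohomology.map (MonoidHom.id _) (classToClassSRepHom L₁ (L₁ ≃ₐ[K₁] L₁) S) n ≫
        ideleClassSGalMap K₁ L₁ K₂ L₂ S n := by
  rw [ideleClassGalMap, ideleClassSGalMap, ← groupCohomology.map_comp,
    ← groupCohomology.map_comp]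
  refine groupCohomology.map_congr rfl ?_ n
  refine LinearMap.ext fun c => ?_
  exact congrArg Additive.ofMul (ideleClassSMap_classToClassS L₁ L₂ S (Additive.toMul c)).symm

theorem ideleClassGalMap_comp_classS_apply (n : ℕ)
    (x : groupCohomology (ideleClassRep L₁ (L₁ ≃ₐ[K₁] L₁)) n) :
    (groupCohomology.map (MonoidHom.id _) (classToClassSRepHom L₂ (L₂ ≃ₐ[K₂] L₂) S) n).hom
        ((ideleClassGalMap K₁ L₁ K₂ L₂ n).hom x) =
      (ideleClassSGalMap K₁ L₁ K₂ L₂ S n).hom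
        ((groupCohomology.map (MonoidHom.id _)
          (classToClassSRepHom L₁ (L₁ ≃ₐ[K₁] L₁) S) n).hom x) :=
  ConcreteCategory.congr_hom (ideleClassGalMap_comp_classS K₁ L₁ K₂ L₂ S n) x

end Gal

section Comp

variable (K₁ L₁ K₂ L₂ K₃ L₃ : Type) [Field K₁] [Field L₁] [Field K₂] [Field L₂] [Field K₃]
  [Field L₃] [Algebra K₁ L₁] [Algebra K₂ L₂] [Algebra K₃ L₃]
  [Algebra K₁ K₂] [Algebra L₁ L₂] [Algebra K₁ L₂] [IsScalarTower K₁ K₂ L₂]
  [IsScalarTower K₁ L₁ L₂] [Normal K₁ L₁]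
  [Algebra K₂ K₃] [Algebra L₂ L₃] [Algebra K₂ L₃] [IsScalarTower K₂ K₃ L₃]
  [IsScalarTower K₂ L₂ L₃] [Normal K₂ L₂]
  [Algebra K₁ K₃] [Algebra L₁ L₃] [Algebra K₁ L₃] [IsScalarTower K₁ K₃ L₃]
  [IsScalarTower K₁ L₁ L₃] [IsScalarTower L₁ L₂ L₃] (S : Set Nat.Primes)

/-- Functoriality of `ideleClassSGalMap` for a composable pair of squares. -/
theorem ideleClassSGalMap_comp (n : ℕ) :
    ideleClassSGalMap K₁ L₁ K₂ L₂ S n ≫ ideleClassSGalMap K₂ L₂ K₃ L₃ S n =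
      ideleClassSGalMap K₁ L₁ K₃ L₃ S n := by
  rw [ideleClassSGalMap, ideleClassSGalMap, ideleClassSGalMap, ← groupCohomology.map_comp]
  refine groupCohomology.map_congr (galRes_comp K₁ L₁ K₂ L₂ K₃ L₃) ?_ n
  refine LinearMap.ext fun c => ?_
  obtain ⟨x, hx⟩ := QuotientGroup.mk_surjective (Additive.toMul c)
  have hc : c = Additive.ofMul (QuotientGroup.mk x : ideleClassS L₁ S) :=
    (congrArg Additive.ofMul hx).symm
  rw [hc]
  exact congrArg (fun y => Additive.ofMul (QuotientGroup.mk y : ideleClassS L₃ S))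
    (ideleMap_algebraMap_comp (L₂ := L₂) (L₃ := L₃) x)

theorem ideleClassSGalMap_comp_apply (n : ℕ)
    (x : groupCohomology (ideleClassSRep L₁ (L₁ ≃ₐ[K₁] L₁) S) n) :
    (ideleClassSGalMap K₂ L₂ K₃ L₃ S n).hom ((ideleClassSGalMap K₁ L₁ K₂ L₂ S n).hom x) =
      (ideleClassSGalMap K₁ L₁ K₃ L₃ S n).hom x :=
  ConcreteCategory.congr_hom (ideleClassSGalMap_comp K₁ L₁ K₂ L₂ K₃ L₃ S n) x

end Comp

end Fermat.Agent.CFT

end
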