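import Fermat.Agent.CFT.Global.IdeleClassTower
import Fermat.Agent.CFT.Global.IdeleGalMapS
import Fermat.Agent.CFT.LayerMaps

/-!
# Layer C, node C1d (part S, 1): `S`-idele classes in a Galois tower

`Ω/k` Galois, `E ≤ E'` intermediate fields with `E'/E` normal, `S` a set of primes.  The inclusion
of idele groups `ideleIncl h : J_{E'} → J_Ω` induces `sClassIncl h S : C_S(E') → C_S(Ω)`
(`= ideleClassSMap (layer h) Ω S`), which is equivariant (`smul_sClassIncl`), lands in the
`Gal(Ω/E')`-invariants (`smul_sClassIncl_of_mem`) and is injective as soon as some `LocalEmb q Ω`,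
`q ∈ S`, is nonempty (`sClassIncl_injective`): if an idele of `E'` is `a · u` with `a ∈ Ωˣ` and `u` a
unit idele of `Ω` outside `S`, then `a ∈ E'` and `u` comes from `E'`.
-/

set_option autoImplicit false
set_option linter.unusedSectionVars false
set_option linter.style.haveILetI false

noncomputable section

namespace Fermat.Agent.CFT

open Fermat.Agent.CFT.GaloisTower Fermat.Agent.CFT.PT IntermediateField

/-- Shortcut instance (the generic search through quotient/`Pi` instances is very slow). -/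
instance (priority := high) ideleClassSSMulShortcut (H K : Type) [Group H] [Field K]
    [MulSemiringAction H K] (S : Set Nat.Primes) : SMul H (ideleClassS K S) :=
  (ideleClassSAction (G := H) (K := K) S).toSMul

variable {k Ω : Type} [Field k] [Field Ω] [Algebra k Ω] [IsGalois k Ω]
variable {E E' : IntermediateField k Ω} (h : E ≤ E') (S : Set Nat.Primes)

/-- The map on `S`-idele classes `C_S(E') → C_S(Ω)`. -/
abbrev sClassIncl : ideleClassS (layer h) S →* ideleClassS Ω S :=
  ideleClassSMap (layer h) Ω S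

theorem sClassIncl_mk (y : ideleGroup (layer h)) :
    sClassIncl h S (QuotientGroup.mk y : ideleClassS (layer h) S) =
      (QuotientGroup.mk (ideleIncl h y) : ideleClassS Ω S) := rfl

theorem smul_sClassIncl [Normal E (layer h)] (σ : E.fixingSubgroup)
    (c : ideleClassS (layer h) S) :
    (σ : Ω ≃ₐ[k] Ω) • sClassIncl h S c = sClassIncl h S (layerRes h σ • c) := by
  induction c using QuotientGroup.induction_on with
  | H y =>
    rw [sClassIncl_mk, ideleClassS_smul_mk, smul_ideleIncl, ideleClassS_smul_mk,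
      sClassIncl_mk]

/-- Elements of `C_S(E')` are fixed by `Gal(Ω/E')` inside `C_S(Ω)`. -/
theorem smul_sClassIncl_of_mem (c : ideleClassS (layer h) S) {σ : Ω ≃ₐ[k] Ω}
    (hσ : σ ∈ E'.fixingSubgroup) : σ • sClassIncl h S c = sClassIncl h S c := by
  induction c using QuotientGroup.induction_on with
  | H y =>
    rw [sClassIncl_mk, ideleClassS_smul_mk]
    exact congrArg _ ((mem_range_ideleIncl_iff h _).1 ⟨y, rfl⟩ σ hσ)

/-- If the image in `J_Ω` of an idele `y` of `E'` lies in `Ωˣ · U_{Ω,S}`, then `y ∈ E'ˣ · U_{E',S}`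
(`S` contains a prime with a local embedding of `Ω`). -/
theorem mem_principalUnitSubgroup_of_ideleIncl_mem
    (hne : ∃ q ∈ S, Nonempty (LocalEmb ((q : Nat.Primes) : ℕ) Ω)) {y : ideleGroup (layer h)}
    (hy : ideleIncl h y ∈ principalUnitSubgroup Ω S) : y ∈ principalUnitSubgroup (layer h) S := by
  have hy' : ((ideleIncl h y : ideleGroup Ω) : IdeleProd Ω) ∈
      (principalIdele Ω).range ⊔ unitIdelesOutside Ω S := Subgroup.mem_subgroupOf.1 hy
  obtain ⟨_, ⟨a, rfl⟩, u, hu, hau⟩ := Subgroup.mem_sup.1 hy'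
  obtain ⟨q₀, hq₀S, ⟨τ₀⟩⟩ := hne
  -- `a` is fixed by `Gal(Ω/E')`
  have hfix : ∀ σ ∈ E'.fixingSubgroup, (σ : Ω ≃ₐ[k] Ω) (a : Ω) = a := by
    intro σ hσ
    have h1 : (σ : Ω ≃ₐ[k] Ω) • ideleIncl h y = ideleIncl h y :=
      (mem_range_ideleIncl_iff h _).1 ⟨y, rfl⟩ σ hσ
    have h3 : σ • ((ideleIncl h y : ideleGroup Ω) : IdeleProd Ω) q₀ =
        ((ideleIncl h y : ideleGroup Ω) : IdeleProd Ω) q₀ :=
      congrFun (congrArg (fun z : ideleGroup Ω => (z : IdeleProd Ω)) h1) q₀
    have h4 : (semiLocalDiag a : semiLocalUnits (q₀ : ℕ) Ω) =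
        ((ideleIncl h y : ideleGroup Ω) : IdeleProd Ω) q₀ := by
      have := congrFun hau q₀
      rw [Pi.mul_apply, hu.2 q₀ hq₀S, mul_one] at this
      exact this
    have h5 : (semiLocalDiag (unitsSmul σ a) : semiLocalUnits (q₀ : ℕ) Ω) = semiLocalDiag a := by
      rw [← smul_semiLocalDiag, h4]
      exact h3
    have h6 := congrArg (fun f : semiLocalUnits (q₀ : ℕ) Ω =>
      (((f : LocalEmb (q₀ : ℕ) Ω → (PadicAlgCl (q₀ : ℕ))ˣ) τ₀ : (PadicAlgCl (q₀ : ℕ))ˣ) :
        PadicAlgCl (q₀ : ℕ))) h5
    simp only [semiLocalDiag_apply] at h6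
    exact τ₀.injective h6
  have haE : (a : Ω) ∈ E' := (forall_fixingSubgroup_apply_eq_iff E' _).1 hfix
  let a' : (layer h)ˣ := Units.mk0 (⟨(a : Ω), haE⟩ : layer h)
    (fun h0 => a.ne_zero (congrArg Subtype.val h0))
  have ha' : Units.map (algebraMap (layer h) Ω : layer h →* Ω) a' = a := Units.ext rfl
  -- the unit part
  let u' : IdeleProd (layer h) := (principalIdele (layer h) a')⁻¹ * (y : IdeleProd (layer h))
  have hu' : ideleProdMap (algebraMap (layer h) Ω) u' = u := by
    show ideleProdMap (algebraMap (layer h) Ω)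
      ((principalIdele (layer h) a')⁻¹ * (y : IdeleProd (layer h))) = u
    rw [map_mul, map_inv, ideleProdMap_principal, ha']
    have : ideleProdMap (algebraMap (layer h) Ω) (y : IdeleProd (layer h)) =
        principalIdele Ω a * u := hau.symm
    rw [this, inv_mul_cancel_left]
  have hu'mem : u' ∈ unitIdelesOutside (layer h) S := by
    refine ⟨fun q hq => ?_, fun q hq => ?_⟩
    · rw [← slIncl_mem_semiLocalIntegral_iff h]
      have := hu.1 q hq
      rw [← hu'] at this
      exact this
    · apply slIncl_injective h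
      rw [map_one]
      have := hu.2 q hq
      rw [← hu'] at this
      exact this
  refine Subgroup.mem_subgroupOf.2 (Subgroup.mem_sup.2
    ⟨principalIdele (layer h) a', ⟨a', rfl⟩, u', hu'mem, ?_⟩)
  show principalIdele (layer h) a' * ((principalIdele (layer h) a')⁻¹ * (y : IdeleProd (layer h))) =
    (y : IdeleProd (layer h))
  rw [mul_inv_cancel_left]

/-- `C_S(E') → C_S(Ω)` is injective. -/
theorem sClassIncl_injective (hne : ∃ q ∈ S, Nonempty (LocalEmb ((q : Nat.Primes) : ℕ) Ω)) :
    Function.Injective (sClassIncl (Ω := Ω) h S) := by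
  rw [injective_iff_map_eq_one]
  intro c hc
  induction c using QuotientGroup.induction_on with
  | H y =>
    rw [sClassIncl_mk, QuotientGroup.eq_one_iff] at hc
    exact (QuotientGroup.eq_one_iff _).2 (mem_principalUnitSubgroup_of_ideleIncl_mem h S hne hc)

/-! ### Maps between layers -/

section LayerMaps

open Fermat.Agent.CFT.LayerMaps

variable {F F' : IntermediateField k Ω}

/-- The map `C_S(E') → C_S(F')` for `E' ≤ F'` (any bases `E ≤ E'`, `F ≤ F'`). -/
def sClassLayerIncl (hEE' : E ≤ E') (hFF' : F ≤ F') (hE'F' : E' ≤ F') :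
    ideleClassS (layer hEE') S →* ideleClassS (layer hFF') S :=
  letI := algTop hEE' hFF' hE'F'
  ideleClassSMap (layer hEE') (layer hFF') S

theorem sClassLayerIncl_eq (hEE' : E ≤ E') (hFF' : F ≤ F') (hE'F' : E' ≤ F') :
    sClassLayerIncl S hEE' hFF' hE'F' =
      (letI := algTop hEE' hFF' hE'F'; ideleClassSMap (layer hEE') (layer hFF') S) := rfl

/-- `C_S(E') → C_S(F') → C_S(Ω)` is `C_S(E') → C_S(Ω)`. -/
theorem sClassIncl_sClassLayerIncl (hEE' : E ≤ E') (hFF' : F ≤ F') (hE'F' : E' ≤ F')
    (c : ideleClassS (layer hEE') S) :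
    sClassIncl hFF' S (sClassLayerIncl S hEE' hFF' hE'F' c) = sClassIncl hEE' S c := by
  letI := algTop hEE' hFF' hE'F'
  haveI : IsScalarTower (layer hEE') (layer hFF') Ω :=
    IsScalarTower.of_algebraMap_eq fun _ => rfl
  induction c using QuotientGroup.induction_on with
  | H y =>
    show (QuotientGroup.mk (ideleMap (algebraMap (layer hFF') Ω)
      (ideleMap (algebraMap (layer hEE') (layer hFF')) y)) : ideleClassS Ω S) =
      QuotientGroup.mk (ideleMap (algebraMap (layer hEE') Ω) y)
    rw [ideleMap_algebraMap_comp]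

end LayerMaps

/-! ### Descent -/

/-- **Finite-level descent** for `S`-idele classes in the tower `E ≤ E' ≤ E''`:
every class of `C_S(E'')` fixed by `Gal(E''/E')` comes from `C_S(E')`. -/
def HasSClassDescent {E'' : IntermediateField k Ω} (h' : E' ≤ E'')
    [Normal E (layer (h.trans h'))] : Prop :=
  ∀ c : ideleClassS (layer (h.trans h')) S,
    (∀ σ : E.fixingSubgroup, (σ : Ω ≃ₐ[k] Ω) ∈ E'.fixingSubgroup →
      layerRes (h.trans h') σ • c = c) →
    ∃ c' : ideleClassS (layer h) S, sClassLayerIncl S h (h.trans h') h' c' = c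

/-- **Descent to `C_S(E')`** of a class of `C_S(Ω)` which is fixed by `Gal(Ω/E')` and represented by
an idele of a bigger layer `E''` (normal over `E`). -/
theorem exists_sClassIncl_eq_of_smul_eq
    (hne : ∃ q ∈ S, Nonempty (LocalEmb ((q : Nat.Primes) : ℕ) Ω))
    {E'' : IntermediateField k Ω} (h' : E' ≤ E'') [Normal E (layer (h.trans h'))]
    (hdesc : HasSClassDescent h S h') (c'' : ideleClassS (layer (h.trans h')) S)
    (hfix : ∀ σ ∈ E'.fixingSubgroup, (σ : Ω ≃ₐ[k] Ω) • sClassIncl (h.trans h') S c'' =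
      sClassIncl (h.trans h') S c'') :
    ∃ c' : ideleClassS (layer h) S, sClassIncl h S c' = sClassIncl (h.trans h') S c'' := by
  obtain ⟨c', hc'⟩ := hdesc c'' (fun σ hσ => by
    apply sClassIncl_injective (h.trans h') S hne
    rw [← smul_sClassIncl]
    exact hfix σ hσ)
  refine ⟨c', ?_⟩
  rw [← hc', sClassIncl_sClassLayerIncl]

end Fermat.Agent.CFT

end
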