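import Fermat.Agent.CFT.Global.ClassSDescent
import Fermat.Agent.CFT.Global.SClassTower

/-!
# Layer C, node C1d (part S, 4): the finite-level descent hypothesis `HasSClassDescent`

In the tower `B ≤ B' ≤ B''` of a Galois extension `Ω/k` with `B''/B` finite normal: if the integral
semi-local units of `B''` at all `q ∉ S` have trivial `H¹` for the group `Gal(B''/B')` and
principal ideles of `B''` are ideles, then `C_S(B'')^{Gal(B''/B')} = C_S(B')`
(`hasSClassDescent_of_h1Trivial`), i.e. the hypothesis of `PT/CSFullTower.lean` / `PT/CSFullDict.lean`.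
-/

set_option autoImplicit false
set_option linter.unusedSectionVars false
set_option linter.style.haveILetI false
set_option maxSynthPendingDepth 2

noncomputable section

namespace Fermat.Agent.CFT

open Fermat.Agent.CFT.GaloisTower Fermat.Agent.CFT.LayerMaps Fermat.Agent.CFT.PT IntermediateField

variable {k Ω : Type} [Field k] [Field Ω] [Algebra k Ω] [IsGalois k Ω]
variable {B B' B'' : IntermediateField k Ω} (h : B ≤ B') (h' : B' ≤ B'') (S : Set Nat.Primes)

/-- A layer of a Galois extension which is normal is Galois. -/
theorem isGalois_layer_of_isGalois {E E' : IntermediateField k Ω} (hEE' : E ≤ E')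
    [Normal E (layer hEE')] : IsGalois E (layer hEE') := by
  haveI : Algebra.IsSeparable k Ω := IsGalois.to_isSeparable
  haveI : Algebra.IsSeparable E Ω := Algebra.isSeparable_tower_top_of_isSeparable k E Ω
  haveI : Algebra.IsSeparable E (layer hEE') :=
    Algebra.isSeparable_tower_bot_of_isSeparable E (layer hEE') Ω
  exact ⟨⟩

/-- The top layer `B''/B'` of a tower `B ≤ B' ≤ B''` with `B''/B` normal is Galois (for the
inclusion algebra structure `algTop`). -/
theorem isGalois_algTop_of_normal [Normal B (layer (h.trans h'))] :
    letI := algTop h (h.trans h') h'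
    IsGalois (layer h) (layer (h.trans h')) := by
  letI := algTop h (h.trans h') h'
  haveI : IsScalarTower B (layer h) (layer (h.trans h')) :=
    IsScalarTower.of_algebraMap_eq fun _ => rfl
  haveI : IsGalois B (layer (h.trans h')) := isGalois_layer_of_isGalois (h.trans h')
  exact IsGalois.tower_top_of_isGalois B (layer h) (layer (h.trans h'))

/-- **Descent in the tower** from the vanishing of `H¹` of the integral semi-local units outside
`S` for the group `Gal(B''/B')`. -/
theorem hasSClassDescent_of_h1Trivial [Normal B (layer (h.trans h'))]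
    [FiniteDimensional B (layer (h.trans h'))]
    (hne : ∃ q ∈ S, Nonempty (LocalEmb ((q : Nat.Primes) : ℕ) (layer (h.trans h'))))
    (hunr1 : letI := algTop h (h.trans h') h'
      ∀ q : Nat.Primes, q ∉ S →
        H1TrivialOn (layer (h.trans h') ≃ₐ[layer h] layer (h.trans h'))
          (semiLocalIntegral (q : ℕ) (layer (h.trans h'))))
    (hP : PrincipalIsIdele (layer (h.trans h'))) : HasSClassDescent h S h' := by
  letI := algTop h (h.trans h') h'
  haveI : IsScalarTower B (layer h) (layer (h.trans h')) :=
    IsScalarTower.of_algebraMap_eq fun _ => rfl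
  haveI : IsGalois B (layer (h.trans h')) := isGalois_layer_of_isGalois (h.trans h')
  haveI : IsGalois (layer h) (layer (h.trans h')) := isGalois_algTop_of_normal h h'
  haveI : FiniteDimensional (layer h) (layer (h.trans h')) :=
    FiniteDimensional.right B (layer h) (layer (h.trans h'))
  intro c hc
  refine exists_ideleClassSMap_eq_of_smul_eq (layer h) (layer (h.trans h')) S hP hne hunr1 c ?_
  intro τ
  rw [← galRes_rest_smul_ideleClassS B (layer h) (layer (h.trans h')) S τ]
  obtain ⟨σ, hσ⟩ := layerRes_surjective (h.trans h')
    (galRes B (layer (h.trans h')) (layer h) (layer (h.trans h')) τ)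
  rw [← hσ]
  refine hc σ ?_
  rw [IntermediateField.mem_fixingSubgroup_iff]
  intro x hx
  have h1 : ((layerRes (h.trans h') σ (⟨x, h' hx⟩ : layer (h.trans h')) :
      layer (h.trans h')) : Ω) = (σ : Ω ≃ₐ[k] Ω) x := layerRes_apply (h.trans h') σ _
  rw [← h1, hσ, galRes_rest_apply]
  have h2 : τ (algebraMap (layer h) (layer (h.trans h')) (⟨x, hx⟩ : layer h)) =
      algebraMap (layer h) (layer (h.trans h')) (⟨x, hx⟩ : layer h) := τ.commutes _
  exact congrArg Subtype.val h2

end Fermat.Agent.CFT

end
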