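import Fermat.Prelude.Def_GroupCohomology_ContinuousUnramified
import Fermat.Agent.S55.TrivField

/-!
# The maximal extension `ℚ_S` of `ℚ` unramified outside `S`

In the Prelude language (`Qb = AlgebraicClosure ℚ`, inertia groups `A.inertiaSubgroupIn ℚ` of
valuation subrings `A` of `Qb`):

* `QS S : IntermediateField ℚ Qb`, the elements fixed by all inertia groups at primes `q ∉ S`;
* `mem_QS_iff_exists` : `x ∈ QS S ↔ ∃ F, F.IsUnramifiedOutside S ∧ x ∈ F` (union of the levels);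
* `mem_QS_iff_adjoin` : `x ∈ QS S ↔ ℚ⟮x⟯.IsUnramifiedOutside S`;
* `isUnramifiedOutside_iff_le_QS` : `F.IsUnramifiedOutside S ↔ FiniteDimensional ℚ F ∧ F ≤ QS S`;
* `QS` is stable under `Gal(Qb/ℚ)` (`map_mem_QS`, `QS_map`) and normal over `ℚ`.
-/

set_option autoImplicit false

open scoped Pointwise IntermediateField

namespace Fermat.Agent.CFT

local notation "Qb" => AlgebraicClosure ℚ
local notation "GQ" => (AlgebraicClosure ℚ ≃ₐ[ℚ] AlgebraicClosure ℚ)

/-- `σ` lies in the inertia group of some valuation subring of `Qb` over a prime outside `S`. -/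
def IsInertiaOutside (S : Finset Nat.Primes) (σ : GQ) : Prop :=
  ∃ q : Nat.Primes, q ∉ S ∧ ∃ A : ValuationSubring Qb, A.LiesOverPrime (q : ℕ) ∧
    σ ∈ A.inertiaSubgroupIn ℚ

/-- The maximal extension of `ℚ` inside `Qb` unramified outside `S`: the elements fixed by all
inertia groups at the primes not in `S`. -/
def QS (S : Finset Nat.Primes) : IntermediateField ℚ Qb where
  carrier := {x | ∀ σ : GQ, IsInertiaOutside S σ → σ x = x}
  mul_mem' {x y} hx hy σ hσ := by rw [map_mul, hx σ hσ, hy σ hσ]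
  one_mem' σ _ := map_one σ
  add_mem' {x y} hx hy σ hσ := by rw [map_add, hx σ hσ, hy σ hσ]
  zero_mem' σ _ := map_zero σ
  algebraMap_mem' r σ _ := σ.commutes r
  inv_mem' x hx σ hσ := by rw [map_inv₀, hx σ hσ]

variable {S : Finset Nat.Primes}

lemma mem_QS_iff {x : Qb} : x ∈ QS S ↔ ∀ σ : GQ, IsInertiaOutside S σ → σ x = x := Iff.rfl

lemma mem_QS_iff' {x : Qb} : x ∈ QS S ↔ ∀ q : Nat.Primes, q ∉ S → ∀ A : ValuationSubring Qb,
    A.LiesOverPrime (q : ℕ) → ∀ σ ∈ A.inertiaSubgroupIn ℚ, σ x = x :=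
  ⟨fun h q hq A hA σ hσ => h σ ⟨q, hq, A, hA, hσ⟩,
    fun h σ ⟨q, hq, A, hA, hσ⟩ => h q hq A hA σ hσ⟩

/-- A finite-dimensional subfield is unramified outside `S` iff it is contained in `QS S`. -/
lemma isUnramifiedOutside_iff_le_QS {F : IntermediateField ℚ Qb} :
    F.IsUnramifiedOutside S ↔ FiniteDimensional ℚ F ∧ F ≤ QS S := by
  constructor
  · intro hF
    refine ⟨hF.1, fun x hx => mem_QS_iff'.2 fun q hq A hA σ hσ => ?_⟩
    have := hF.2 q hq A hA hσ
    rw [IntermediateField.mem_fixingSubgroup_iff] at this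
    exact this x hx
  · rintro ⟨hfd, hle⟩
    refine ⟨hfd, fun q hq A hA σ hσ => ?_⟩
    rw [IntermediateField.mem_fixingSubgroup_iff]
    intro x hx
    exact mem_QS_iff'.1 (hle hx) q hq A hA σ hσ

lemma le_QS_of_isUnramifiedOutside {F : IntermediateField ℚ Qb} (hF : F.IsUnramifiedOutside S) :
    F ≤ QS S := (isUnramifiedOutside_iff_le_QS.1 hF).2

lemma finiteDimensional_adjoin_simple (x : Qb) : FiniteDimensional ℚ ℚ⟮x⟯ :=
  IntermediateField.adjoin.finiteDimensional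
    ((AlgebraicClosure.instIsAlgClosure ℚ).isAlgebraic.isAlgebraic x).isIntegral

/-- `x ∈ ℚ_S` iff `ℚ(x)` is unramified outside `S`. -/
lemma mem_QS_iff_adjoin {x : Qb} : x ∈ QS S ↔ (ℚ⟮x⟯ : IntermediateField ℚ Qb).IsUnramifiedOutside S := by
  rw [isUnramifiedOutside_iff_le_QS, IntermediateField.adjoin_simple_le_iff]
  exact ⟨fun h => ⟨finiteDimensional_adjoin_simple x, h⟩, fun h => h.2⟩

/-- `ℚ_S` is the union of the fields unramified outside `S`. -/
lemma mem_QS_iff_exists {x : Qb} :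
    x ∈ QS S ↔ ∃ F : IntermediateField ℚ Qb, F.IsUnramifiedOutside S ∧ x ∈ F :=
  ⟨fun h => ⟨ℚ⟮x⟯, mem_QS_iff_adjoin.1 h, IntermediateField.mem_adjoin_simple_self ℚ x⟩,
    fun ⟨_, hF, hx⟩ => le_QS_of_isUnramifiedOutside hF hx⟩

/-- Finitely many elements of `ℚ_S` lie in a common finite Galois level. -/
lemma exists_isGalois_level_of_finset (s : Finset Qb) (hs : ∀ x ∈ s, x ∈ QS S) :
    ∃ E : IntermediateField ℚ Qb, E.IsUnramifiedOutside S ∧ IsGalois ℚ E ∧ ∀ x ∈ s, x ∈ E := by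
  classical
  induction s using Finset.induction_on with
  | empty =>
    obtain ⟨E, -, -, hE, hG⟩ := Fermat.Agent.S55.exists_isGalois_isUnramifiedOutside_ge
      (IntermediateField.isUnramifiedOutside_bot S) (IntermediateField.isUnramifiedOutside_bot S)
    exact ⟨E, hE, hG, fun x hx => absurd hx (Finset.notMem_empty x)⟩
  | insert a s _ ih =>
    obtain ⟨E, hE, -, hEs⟩ := ih fun x hx => hs x (Finset.mem_insert_of_mem hx)
    obtain ⟨E', hle, hle', hE', hG'⟩ := Fermat.Agent.S55.exists_isGalois_isUnramifiedOutside_ge hE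
      (mem_QS_iff_adjoin.1 (hs a (Finset.mem_insert_self a s)))
    refine ⟨E', hE', hG', fun x hx => ?_⟩
    rcases Finset.mem_insert.1 hx with rfl | hx
    · exact hle' (IntermediateField.mem_adjoin_simple_self ℚ x)
    · exact hle (hEs x hx)

/-- Conjugates of inertia elements outside `S` are inertia elements outside `S`. -/
lemma IsInertiaOutside.conj {σ : GQ} (hσ : IsInertiaOutside S σ) (τ : GQ) :
    IsInertiaOutside S (τ⁻¹ * σ * τ) := by
  obtain ⟨q, hq, A, hA, hσA⟩ := hσ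
  refine ⟨q, hq, τ⁻¹ • A, (Fermat.Agent.S55.liesOverPrime_smul_iff _ _ _).2 hA, ?_⟩
  rw [Fermat.Agent.S55.mem_inertiaSubgroupIn_smul_iff]
  simpa [mul_assoc] using hσA

/-- `ℚ_S` is stable under the absolute Galois group. -/
lemma map_mem_QS {x : Qb} (hx : x ∈ QS S) (τ : GQ) : τ x ∈ QS S := by
  intro σ hσ
  have h := hx _ (hσ.conj τ)
  have h2 : τ ((τ⁻¹ * σ * τ) x) = τ x := congrArg τ h
  simpa [AlgEquiv.mul_apply] using h2

lemma map_mem_QS_iff {x : Qb} (τ : GQ) : τ x ∈ QS S ↔ x ∈ QS S :=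
  ⟨fun h => by simpa using map_mem_QS h τ⁻¹, fun h => map_mem_QS h τ⟩

lemma QS_map (τ : GQ) : (QS S).map (τ : Qb →ₐ[ℚ] Qb) = QS S := by
  apply le_antisymm
  · rintro _ ⟨x, hx, rfl⟩
    exact map_mem_QS hx τ
  · intro x hx
    exact ⟨τ⁻¹ x, map_mem_QS hx τ⁻¹, by simp⟩

/-- `ℚ_S` is a normal (hence Galois) extension of `ℚ`. -/
lemma normal_QS : @Normal ℚ (QS S) _ _ (QS S).algebra' := by
  have : IsAlgClosure ℚ Qb := AlgebraicClosure.instIsAlgClosure ℚ
  have : Normal ℚ Qb := IsAlgClosure.normal ℚ Qb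
  exact IntermediateField.normal_iff_forall_map_le'.2 fun τ => (QS_map τ).le

lemma QS_mono {S' : Finset Nat.Primes} (h : S ⊆ S') : QS S ≤ QS S' := by
  intro x hx σ ⟨q, hq, A, hA, hσ⟩
  exact hx σ ⟨q, fun hqS => hq (h hqS), A, hA, hσ⟩

end Fermat.Agent.CFT
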