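import Fermat.Agent.S14.Trans
import Fermat.Agent.CFT.Global.IdeleDict.DictUnramSet
import Fermat.Agent.CFT.Global.QS
import Fermat.Agent.CFT.Global.SemiLocalSubgroup

/-!
# From the frozen predicate `IsUnramifiedOutside S` to the arithmetic hypotheses `IsUnramAt`

The Prelude predicate `E'.IsUnramifiedOutside S` says that the inertia groups
`A.inertiaSubgroupIn ℚ` of the valuation subrings `A` of `ℚ̄` above the primes `q ∉ S` fix `E'`.
The idelic class field theory of Layer C needs the arithmetic form: for `q ∉ S` the completions of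
`E'` above `q` have value group `q^ℤ`, so that (`IsUnramAt`) the integral semi-local units at `q`
have trivial cohomology for every layer inside `E'`.  This file proves the implication:

* `inertia_eq_bot_of_inertiaSubgroupIn_le`: for a Galois number field `L ⊆ ℚ̄` fixed by the inertia
  groups of `ℚ̄` above `ℓ`, the inertia groups `Q.inertia Gal(L/ℚ)`, `Q ∣ ℓ`, are trivial (lifting
  of inertia, `S14/TransCore.lean`);
* `ramIdx_eq_one_of_inertia_eq_bot`: then `IdeleDict.ramIdx τ' = 1`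
  (`Ideal.card_inertia_eq_ramificationIdxIn`);
* `exists_norm_eq_zpow_of_isUnramifiedOutside`: the value group of `F_τ` is `q^ℤ` for every field
  `F` embedded in a field `E'` unramified outside `S`, `q ∉ S`;
* `isUnramAt_of_isUnramifiedOutside`: `IsUnramAt K τ'` for every base `K`;
* `h1TrivialOn_of_isUnramifiedOutside`, `h2TrivialOn_of_isUnramifiedOutside`,
  `normSurjOn_of_isUnramifiedOutside` (all subgroups), `h1TrivialOn_gal_of_isUnramifiedOutside`,
  `h2TrivialOn_gal_of_isUnramifiedOutside` (full group);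
* layer forms `h1TrivialOn_layer_of_isUnramifiedOutside`, `h2TrivialOn_layer_of_isUnramifiedOutside`
  (= `hunr1`, `hunr2` of `SClassIdele.lean` for `L = layer h`, `G = Gal(E'/E)`),
  `h1TrivialOn_layerGal_of_isUnramifiedOutside`, `h2TrivialOn_layerGal_of_isUnramifiedOutside`.
-/

set_option autoImplicit false
set_option linter.unusedSectionVars false
set_option linter.style.haveILetI false

open scoped NumberField Pointwise

noncomputable section

namespace Fermat.Agent.CFT

open NumberField IsDedekindDomain IdeleDict Fermat.Agent.S14 Fermat.Agent.S54.FrobExists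

local notation "Qb" => AlgebraicClosure ℚ
local notation "GQ" => (AlgebraicClosure ℚ ≃ₐ[ℚ] AlgebraicClosure ℚ)

section FiniteLevel

variable {L : Type} [Field L] [NumberField L] [IsGalois ℚ L] [Algebra L Qb]
  [IsScalarTower ℚ L Qb]

/-- If all inertia groups of `ℚ̄` above `ℓ` fix the Galois number field `L ⊆ ℚ̄`, the inertia
groups of `Gal(L/ℚ)` at the primes above `ℓ` are trivial. -/
theorem inertia_eq_bot_of_inertiaSubgroupIn_le {ℓ : ℕ} (hℓ : ℓ.Prime)
    (hI : ∀ A : ValuationSubring Qb, A.LiesOverPrime ℓ → ∀ σ ∈ A.inertiaSubgroupIn ℚ,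
      ∀ x : L, σ (algebraMap L Qb x) = algebraMap L Qb x)
    (Q : Ideal (integralClosure ℤ L)) (hQ : Q.IsMaximal) (hℓQ : (ℓ : integralClosure ℤ L) ∈ Q) :
    Q.inertia (L ≃ₐ[ℚ] L) = ⊥ := by
  haveI := Trans.isGalois_Qb
  haveI := hQ
  rw [eq_bot_iff]
  intro τ hτ
  rw [Subgroup.mem_bot]
  obtain ⟨A, rfl⟩ := exists_valuationSubring_centerIdeal_comap_eq (Ω := Qb) L Q
  obtain ⟨hA1, hA2⟩ := Trans.liesOverPrime_of_natCast_mem hℓQ
  rw [inertia_centerIdeal_eq Trans.isAlgebraic_int_L _ hℓ hA2] at hτ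
  obtain ⟨σ, hσI, rfl⟩ := exists_mem_inertiaSubgroupIn_restrictNormalHom_eq L A hℓ hA1 τ hτ
  ext x
  apply (algebraMap L Qb).injective
  rw [restrictNormalHom_apply_coe]
  exact hI A hA1 σ hσI x

/-- Trivial inertia group at the prime of `τ'` ⟹ the prime of `τ'` is unramified over `q`. -/
theorem ramIdx_eq_one_of_inertia_eq_bot {q : ℕ} [hq : Fact q.Prime] (τ' : LocalEmb q L)
    (h : (primeOf τ').inertia (L ≃ₐ[ℚ] L) = ⊥) : IdeleDict.ramIdx τ' = 1 := by
  have hP : (primeOf τ') = (primeOfH τ').asIdeal := rfl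
  haveI : (primeOf τ').IsPrime := hP ▸ (primeOfH τ').isPrime
  have hcard := Ideal.card_inertia_eq_ramificationIdxIn (G := L ≃ₐ[ℚ] L)
    ((primeOf τ').under ℤ) (primeOf τ')
  rw [h, Subgroup.card_bot,
    Ideal.ramificationIdxIn_eq_ramificationIdx ((primeOf τ').under ℤ) (primeOf τ')
      (L ≃ₐ[ℚ] L)] at hcard
  by_contra hne
  have hpos := IdeleDict.ramIdx_pos τ'
  have h2 : (2 : ℤ) ≤ IdeleDict.ramIdx τ' := by omega
  have ha : (((q : ℕ) : 𝓞 L) : L) ≠ 0 := by
    rw [coe_natCast_ringOfIntegers]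
    exact_mod_cast hq.out.ne_zero
  have heq : Units.mk0 (((q : ℕ) : 𝓞 L) : L) ha = primeUnit q L := Units.ext rfl
  have h3 : ((2 : ℕ) : ℤ) ≤ ordAt (primeOfH τ') (Units.mk0 (((q : ℕ) : 𝓞 L) : L) ha) := by
    rw [heq]
    exact h2
  rw [natCast_le_ordAt_iff] at h3
  have hmax : (Ideal.span {(q : ℤ)}).IsMaximal :=
    PrincipalIdealRing.isMaximal_of_irreducible (Nat.prime_iff_prime_int.mp hq.out).irreducible
  have hunder : (primeOf τ').under ℤ = Ideal.span {(q : ℤ)} := by
    symm
    apply hmax.eq_of_le (Ideal.IsPrime.under ℤ (primeOf τ')).ne_top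
    rw [Ideal.span_singleton_le_iff_mem, Ideal.under_def, Ideal.mem_comap]
    have := natCast_mem_primeOf τ'
    simpa using this
  have hmap : (Ideal.span {(q : ℤ)}).map (algebraMap ℤ (𝓞 L)) = Ideal.span {((q : ℕ) : 𝓞 L)} := by
    rw [Ideal.map_span, Set.image_singleton]
    simp
  have hne0 : ((primeOf τ').under ℤ).map (algebraMap ℤ (𝓞 L)) ≠ ⊥ := by
    rw [hunder, hmap, Ne, Ideal.span_singleton_eq_bot]
    intro h0
    exact ha (by rw [h0]; rfl)
  rw [Ideal.IsDedekindDomain.ramificationIdx_eq_multiplicity ((primeOf τ').under ℤ) (primeOf τ')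
    hne0, hunder, hmap] at hcard
  have hfin : FiniteMultiplicity (primeOf τ') (Ideal.span {((q : ℕ) : 𝓞 L)}) := by
    apply FiniteMultiplicity.of_not_isUnit
    · rw [Ideal.isUnit_iff]
      exact (Ideal.IsPrime.ne_top inferInstance)
    · rw [← hmap, ← hunder]
      exact hne0
  have := hfin.le_multiplicity_of_pow_dvd h3
  omega

/-- If all inertia groups of `ℚ̄` above `q` fix the Galois number field `L ⊆ ℚ̄`, the value group
of every completion of `L` above `q` is `q^ℤ`. -/
theorem exists_norm_eq_zpow_of_inertiaSubgroupIn_le {q : ℕ} [hq : Fact q.Prime]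
    (hI : ∀ A : ValuationSubring Qb, A.LiesOverPrime q → ∀ σ ∈ A.inertiaSubgroupIn ℚ,
      ∀ x : L, σ (algebraMap L Qb x) = algebraMap L Qb x)
    (τ' : LocalEmb q L) (y : PadicAlgCl q) (hy : y ∈ localFieldAt τ') (hy0 : y ≠ 0) :
    ∃ n : ℤ, ‖y‖ = ((q : ℝ)⁻¹) ^ n := by
  have hP : (primeOf τ') = (primeOfH τ').asIdeal := rfl
  have hmax : (primeOf τ').IsMaximal := hP ▸ (primeOfH τ').isMaximal
  exact exists_norm_eq_zpow_of_ramIdx_eq_one τ'
    (ramIdx_eq_one_of_inertia_eq_bot τ'
      (inertia_eq_bot_of_inertiaSubgroupIn_le hq.out hI (primeOf τ') hmax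
        (natCast_mem_primeOf τ'))) y hy hy0

end FiniteLevel

section Transfer

variable {q : ℕ} [Fact q.Prime]

/-- The value-group condition only depends on the image of the embedding, monotonically. -/
theorem exists_norm_eq_zpow_of_range_subset {K₁ K₂ : Type} [Field K₁] [Field K₂]
    (τ₁ : LocalEmb q K₁) (τ₂ : LocalEmb q K₂) (h : Set.range τ₁ ⊆ Set.range τ₂)
    (hV : ∀ y : PadicAlgCl q, y ∈ localFieldAt τ₂ → y ≠ 0 → ∃ n : ℤ, ‖y‖ = ((q : ℝ)⁻¹) ^ n)
    (y : PadicAlgCl q) (hy : y ∈ localFieldAt τ₁) (hy0 : y ≠ 0) :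
    ∃ n : ℤ, ‖y‖ = ((q : ℝ)⁻¹) ^ n :=
  hV y (IntermediateField.adjoin.mono _ _ _ h hy) hy0

end Transfer

section Outside

variable {S : Finset Nat.Primes}

/-- **Frozen-unramified ⟹ arithmetically unramified.** If `E'` is unramified outside `S` (Prelude
predicate: the inertia groups of `ℚ̄` above the primes `q ∉ S` fix `E'`), then for every field `F`
embedded in `E'`, every `q ∉ S` and every embedding `τ : F → ℚ̄_q`, the value group of the
completion `F_τ` is `q^ℤ`. -/
theorem exists_norm_eq_zpow_of_isUnramifiedOutside {E' : IntermediateField ℚ Qb}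
    (hE' : E'.IsUnramifiedOutside S) {q : Nat.Primes} (hq : q ∉ S) {F : Type} [Field F]
    (ι : F →+* Qb) (hι : ∀ x, ι x ∈ E') (τ : LocalEmb (q : ℕ) F) (y : PadicAlgCl (q : ℕ))
    (hy : y ∈ localFieldAt τ) (hy0 : y ≠ 0) : ∃ n : ℤ, ‖y‖ = (((q : ℕ) : ℝ)⁻¹) ^ n := by
  obtain ⟨N, hle, -, hN, hgal⟩ := Fermat.Agent.S55.exists_isGalois_isUnramifiedOutside_ge hE' hE'
  haveI := hN.1
  haveI : NumberField N := @NumberField.mk N _ inferInstance hN.1
  -- the embedding `F → N`
  let j : F →+* N := ι.codRestrict N.toSubfield.toSubring fun x => hle (hι x)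
  letI : Algebra F N := j.toAlgebra
  haveI : CharZero F := ι.charZero
  haveI : Algebra.IsAlgebraic F N := by
    refine ⟨fun x => ?_⟩
    have hx : IsAlgebraic ℤ x :=
      (IsFractionRing.isAlgebraic_iff ℤ ℚ N).mpr (Algebra.IsAlgebraic.isAlgebraic x)
    exact hx.extendScalars (R := ℤ) (S := F) (RingHom.injective_int (algebraMap ℤ F))
  obtain ⟨τ'', hτ''⟩ := localEmbRestrict_surjective (q := (q : ℕ)) F (L := N) τ
  refine exists_norm_eq_zpow_of_range_subset τ τ'' ?_
    (exists_norm_eq_zpow_of_inertiaSubgroupIn_le (L := N) ?_ τ'') y hy hy0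
  · rintro _ ⟨x, rfl⟩
    exact ⟨algebraMap F N x, by rw [← hτ'']; rfl⟩
  · intro A hA σ hσ x
    have h1 := hN.2 q hq A hA hσ
    rw [IntermediateField.mem_fixingSubgroup_iff] at h1
    exact h1 _ x.2

/-- `IsUnramAt K τ'` for every base field `K`, every `q ∉ S` and every embedding `τ'` of a
number field `L` embedded in a field `E'` unramified outside `S`. -/
theorem isUnramAt_of_isUnramifiedOutside {E' : IntermediateField ℚ Qb}
    (hE' : E'.IsUnramifiedOutside S) {q : Nat.Primes} (hq : q ∉ S) (K : Type) [Field K]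
    {L : Type} [Field L] [NumberField L] [Algebra K L] [Normal K L] (ι : L →+* Qb)
    (hι : ∀ x, ι x ∈ E') (τ' : LocalEmb (q : ℕ) L) : IsUnramAt K τ' :=
  isUnramAt_of_valueGroup K τ' (exists_norm_eq_zpow_of_isUnramifiedOutside hE' hq ι hι τ')

section Coh

variable {E' : IntermediateField ℚ Qb} (hE' : E'.IsUnramifiedOutside S) {q : Nat.Primes}
  (hq : q ∉ S) (K : Type) [Field K] {L : Type} [Field L] [Algebra K L] [IsGalois K L]
  [FiniteDimensional K L] [NumberField K] [NumberField L] (ι : L →+* Qb) (hι : ∀ x, ι x ∈ E')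

include hE' hq hι

/-- `H¹(H, ∏_{v ∣ q} 𝒪_vˣ) = 0` for every subgroup `H ≤ Gal(L/K)`, `L ⊆ E'` unramified outside
`S`, `q ∉ S`. -/
theorem h1TrivialOn_of_isUnramifiedOutside (H : Subgroup (L ≃ₐ[K] L)) :
    H1TrivialOn H (semiLocalIntegral (q : ℕ) L) :=
  semiLocalIntegral_h1TrivialOn_subgroup K H fun _ =>
    isUnramAt_of_isUnramifiedOutside hE' hq _ ι hι _

/-- `H²(H, ∏_{v ∣ q} 𝒪_vˣ) = 0` for every subgroup `H ≤ Gal(L/K)`, `L ⊆ E'` unramified outside
`S`, `q ∉ S`. -/
theorem h2TrivialOn_of_isUnramifiedOutside (H : Subgroup (L ≃ₐ[K] L)) :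
    H2TrivialOn H (semiLocalIntegral (q : ℕ) L) :=
  semiLocalIntegral_h2TrivialOn_subgroup K H fun _ =>
    isUnramAt_of_isUnramifiedOutside hE' hq _ ι hι _

/-- Invariant integral semi-local units at `q ∉ S` are norms, for every subgroup. -/
theorem normSurjOn_of_isUnramifiedOutside (H : Subgroup (L ≃ₐ[K] L)) [Fintype H] :
    NormSurjOn H (semiLocalIntegral (q : ℕ) L) :=
  semiLocalIntegral_normSurjOn_subgroup K H fun _ =>
    isUnramAt_of_isUnramifiedOutside hE' hq _ ι hι _

/-- `H¹(Gal(L/K), ∏_{v ∣ q} 𝒪_vˣ) = 0` (full group), `L ⊆ E'` unramified outside `S`, `q ∉ S`. -/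
theorem h1TrivialOn_gal_of_isUnramifiedOutside :
    H1TrivialOn (L ≃ₐ[K] L) (semiLocalIntegral (q : ℕ) L) :=
  semiLocalIntegral_h1TrivialOn K fun _ => isUnramAt_of_isUnramifiedOutside hE' hq K ι hι _

/-- `H²(Gal(L/K), ∏_{v ∣ q} 𝒪_vˣ) = 0` (full group), `L ⊆ E'` unramified outside `S`, `q ∉ S`. -/
theorem h2TrivialOn_gal_of_isUnramifiedOutside :
    H2TrivialOn (L ≃ₐ[K] L) (semiLocalIntegral (q : ℕ) L) :=
  semiLocalIntegral_h2TrivialOn K fun _ => isUnramAt_of_isUnramifiedOutside hE' hq K ι hι _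

end Coh

end Outside

section Layers

open GaloisTower

local instance instNormalQbUnramOutsideS : Normal ℚ Qb :=
  haveI : IsAlgClosure ℚ Qb := AlgebraicClosure.instIsAlgClosure ℚ
  IsAlgClosure.normal ℚ Qb

variable {S : Finset Nat.Primes} {E E' : IntermediateField ℚ Qb} (h : E ≤ E')
  [Normal E (layer h)]

/-- **`hunr1` for the layers of `ℚ_S`**, in the shape used by `SClassIdele.lean`,
`ClassSDescent.lean`: for `E ≤ E'` with `E'` unramified outside `S` and `E'/E` normal, every
subgroup `H` of `Gal(E'/E)` and every `q ∉ S`, `H¹(H, ∏_{v ∣ q} 𝒪_vˣ) = 0`. -/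
theorem h1TrivialOn_layer_of_isUnramifiedOutside (hE' : E'.IsUnramifiedOutside S)
    (H : Subgroup ((layer h) ≃ₐ[E] (layer h))) (q : Nat.Primes)
    (hq : q ∉ (↑S : Set Nat.Primes)) :
    H1TrivialOn H (semiLocalIntegral (q : ℕ) (layer h)) := by
  haveI := hE'.1
  haveI : FiniteDimensional ℚ E := (hE'.of_le h).1
  haveI : NumberField E := @NumberField.mk E _ inferInstance ‹_›
  haveI : FiniteDimensional E (layer h) := finiteDimensional_layer h
  haveI : NumberField (layer h) := NumberField.of_module_finite E (layer h)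
  haveI : IsGalois E (layer h) := ⟨⟩
  exact h1TrivialOn_of_isUnramifiedOutside hE' (fun hqS => hq (Finset.mem_coe.2 hqS)) E
    (algebraMap (layer h) Qb) (fun x => x.2) H

/-- **`hunr2` for the layers of `ℚ_S`**. -/
theorem h2TrivialOn_layer_of_isUnramifiedOutside (hE' : E'.IsUnramifiedOutside S)
    (H : Subgroup ((layer h) ≃ₐ[E] (layer h))) (q : Nat.Primes)
    (hq : q ∉ (↑S : Set Nat.Primes)) :
    H2TrivialOn H (semiLocalIntegral (q : ℕ) (layer h)) := by
  haveI := hE'.1
  haveI : FiniteDimensional ℚ E := (hE'.of_le h).1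
  haveI : NumberField E := @NumberField.mk E _ inferInstance ‹_›
  haveI : FiniteDimensional E (layer h) := finiteDimensional_layer h
  haveI : NumberField (layer h) := NumberField.of_module_finite E (layer h)
  haveI : IsGalois E (layer h) := ⟨⟩
  exact h2TrivialOn_of_isUnramifiedOutside hE' (fun hqS => hq (Finset.mem_coe.2 hqS)) E
    (algebraMap (layer h) Qb) (fun x => x.2) H

/-- `hunr1` for the full group `Gal(E'/E)` of a layer of `ℚ_S` (the shape of
`ClassSDescent.lean`). -/
theorem h1TrivialOn_layerGal_of_isUnramifiedOutside (hE' : E'.IsUnramifiedOutside S)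
    (q : Nat.Primes) (hq : q ∉ (↑S : Set Nat.Primes)) :
    H1TrivialOn ((layer h) ≃ₐ[E] (layer h)) (semiLocalIntegral (q : ℕ) (layer h)) := by
  haveI := hE'.1
  haveI : FiniteDimensional ℚ E := (hE'.of_le h).1
  haveI : NumberField E := @NumberField.mk E _ inferInstance ‹_›
  haveI : FiniteDimensional E (layer h) := finiteDimensional_layer h
  haveI : NumberField (layer h) := NumberField.of_module_finite E (layer h)
  haveI : IsGalois E (layer h) := ⟨⟩
  exact h1TrivialOn_gal_of_isUnramifiedOutside hE' (fun hqS => hq (Finset.mem_coe.2 hqS)) E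
    (algebraMap (layer h) Qb) (fun x => x.2)

/-- `hunr2` for the full group `Gal(E'/E)` of a layer of `ℚ_S`. -/
theorem h2TrivialOn_layerGal_of_isUnramifiedOutside (hE' : E'.IsUnramifiedOutside S)
    (q : Nat.Primes) (hq : q ∉ (↑S : Set Nat.Primes)) :
    H2TrivialOn ((layer h) ≃ₐ[E] (layer h)) (semiLocalIntegral (q : ℕ) (layer h)) := by
  haveI := hE'.1
  haveI : FiniteDimensional ℚ E := (hE'.of_le h).1
  haveI : NumberField E := @NumberField.mk E _ inferInstance ‹_›
  haveI : FiniteDimensional E (layer h) := finiteDimensional_layer h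
  haveI : NumberField (layer h) := NumberField.of_module_finite E (layer h)
  haveI : IsGalois E (layer h) := ⟨⟩
  exact h2TrivialOn_gal_of_isUnramifiedOutside hE' (fun hqS => hq (Finset.mem_coe.2 hqS)) E
    (algebraMap (layer h) Qb) (fun x => x.2)

end Layers

end Fermat.Agent.CFT
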