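import Fermat.Agent.CFT.Global.CSFullFinite
import Fermat.Agent.CFT.PT.CSFullGlobal
import Fermat.Agent.CFT.Global.ExistenceLayer
import Fermat.Agent.CFT.Global.ExistenceModPPlace

/-!
# [G4-FIN] for `G_ℚ`: `(C_S')^{Gal(ℚ̄/F)} / p` is finite

* `index_range_pow_ideleClassS_ne_zero_of_finset`: for a number field `K ∋ ζ_p` (`p` odd), a finite set
  `S₀` of rational primes, the `p`-th powers have finite index in `C_{S₀}(K)` (helper5's
  `ExistenceCore.index_range_pow_ideleClassS_dvd` with `T`, the first inequality discharged);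
* `finite_vQuot_csFullTowerRep_admS`: for `F` unramified outside `S` containing a primitive `p`-th
  root of unity, `LCSym.VQuot (csFullTowerRep (globalLevel S) ↑S F) p` is finite — the hypothesis
  `hfin` of `GlobalBase.csFull_perfect` / `csFull_isPerfect` (`Global/LCGlobalBase.lean`) for
  `P F := ∃ ζ ∈ F, IsPrimitiveRoot ζ p`.
-/

set_option autoImplicit false
set_option linter.unusedSectionVars false
set_option linter.style.haveILetI false

noncomputable section

namespace Fermat.Agent.CFT

open NumberField IsDedekindDomain IdeleDict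

/-- **Finiteness of `C_{S₀}(K)/p`** for a number field `K ∋ ζ_p`, `p` odd, `S₀` finite. -/
theorem index_range_pow_ideleClassS_ne_zero_of_finset (K : Type) [Field K] [NumberField K]
    (pp : Nat.Primes) (hp2 : 2 < (pp : ℕ)) {ζ : K} (hζ : IsPrimitiveRoot ζ (pp : ℕ))
    (S₀ : Finset Nat.Primes) :
    (powMonoidHom (α := ideleClassS K (↑S₀ : Set Nat.Primes)) (pp : ℕ)).range.index ≠ 0 := by
  obtain ⟨T, hST, hTfin, hgen, -⟩ :=
    ExistenceModP.exists_finite_superset_generates K (S := (↑S₀ : Set Nat.Primes) ∪ {pp})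
      (S₀.finite_toSet.union (Set.finite_singleton pp))
  have hdvd := ExistenceCore.index_range_pow_ideleClassS_dvd (K := K) pp hp2 hζ
    (↑S₀ : Set Nat.Primes) (KummerLayer.placesOverFinset K hTfin.toFinset)
    (fun v hv => KummerLayer.mem_placesOverFinset.2
      ((Set.Finite.mem_toFinset hTfin).2 (hST (Or.inl hv))))
    (fun v hv => KummerLayer.mem_placesOverFinset.2
      ((Set.Finite.mem_toFinset hTfin).2 (hST (Or.inr hv))))
    (by
      rw [KummerLayer.image_prime_placesOverFinset, Set.Finite.coe_toFinset]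
      exact hgen)
    (FirstIneq.firstIneq_hFI K pp hp2)
  intro h0
  rw [h0] at hdvd
  exact pow_ne_zero _ pp.2.ne_zero (Nat.eq_zero_of_zero_dvd hdvd)

namespace PT

open Fermat.Agent.CFT.GaloisTower IntermediateField LCSym Fermat.Agent.S55
open Fermat.Agent.S54.FrobExists

local notation "Qb" => AlgebraicClosure ℚ

local instance instIsGaloisQbCSFin : IsGalois ℚ Qb := isGalois_rat_algebraicClosure

variable (S : Finset Nat.Primes) (hS : S.Nonempty)

include hS in
/-- **[G4-FIN] for `G_ℚ`**: for `F` unramified outside `S` containing a primitive `p`-th root of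
unity (`p` odd), `(C_S')^{Gal(ℚ̄/F)} / p` is finite. -/
theorem finite_vQuot_csFullTowerRep_admS (p : ℕ) [hp : Fact p.Prime] (hp2 : p ≠ 2)
    (F : IntermediateField ℚ Qb) (hF : AdmS S F) (hζF : ∃ ζ ∈ F, IsPrimitiveRoot ζ p) :
    Finite (VQuot (csFullTowerRep (globalLevel S) (↑S : Set Nat.Primes) F) p) := by
  obtain ⟨ζ, hζmem, hζ⟩ := hζF
  haveI := admS_fd hF
  haveI : NumberField F := numberField_intermediateField F
  haveI : FiniteDimensional F (layer (le_refl F)) := finiteDimensional_layer (le_refl F)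
  haveI : NumberField (layer (le_refl F)) := NumberField.of_module_finite F (layer (le_refl F))
  have hp3 : 2 < p := lt_of_le_of_ne hp.out.two_le (Ne.symm hp2)
  let ζ' : layer (le_refl F) := ⟨ζ, hζmem⟩
  have hζ' : IsPrimitiveRoot ζ' p :=
    IsPrimitiveRoot.of_map_of_injective (f := algebraMap (layer (le_refl F)) Qb) (ζ := ζ')
      (show IsPrimitiveRoot (algebraMap (layer (le_refl F)) Qb ζ') p from hζ)
      (algebraMap (layer (le_refl F)) Qb).injective
  refine finite_vQuot_csFullTowerRep_of_admissible (globalLevel S) (↑S : Set Nat.Primes) F (AdmS S)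
    (globalLevel_galType S) (globalLevel_cofinal S) (fun hB hB' => admS_sup hB hB')
    (exists_mem_localEmb_Qb S hS) (fun h h' hB'' _ => hasSClassDescent_of_admS S hS h h' hB'')
    hF p ?_
  exact index_range_pow_ideleClassS_ne_zero_of_finset (layer (le_refl F)) ⟨p, hp.out⟩ hp3 hζ' S

include hS in
/-- The hypothesis `hfin` of `GlobalBase.csFull_perfect` / `csFull_isPerfect`
(`Global/LCGlobalBase.lean`) for `k = ℚ`, `Ω = ℚ̄`, `L = globalLevel S`, `Adm = AdmS S` and
`P F := ∃ ζ ∈ F, IsPrimitiveRoot ζ p`. -/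
theorem hfin_csFullTowerRep_admS (p : ℕ) [Fact p.Prime] (hp2 : p ≠ 2) :
    ∀ F : IntermediateField ℚ Qb, AdmS S F → (∃ ζ ∈ F, IsPrimitiveRoot ζ p) →
      Finite (VQuot (csFullTowerRep (globalLevel S) (↑S : Set Nat.Primes) F) p) :=
  fun F hF hP => finite_vQuot_csFullTowerRep_admS S hS p hp2 F hF hP

end PT

end Fermat.Agent.CFT

end
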