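import Mathlib

/-!
# Layer C, node C3A: duality and the choice of the auxiliary primes (abstract group theory)

* `exists_zpow_mul_of_pairing` : Kummer duality step relative to a subgroup `Q` of finite index
  containing the `p`-th powers (the right kernel of the pairing): if `x` is killed by every `σ`
  killing `a` then `x ∈ ⟨a⟩ · Q`.
* `apply_eq_one_of_mem_iSup_sup_ker` : an element killed by subgroups `Γ i` is killed by everything in
  `(⨆ i, Γ i) ⊔ ker`.
* `exists_finset_sSup_eq_top` : an abelian group of order `p ^ t` generated by a family of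
  subgroups of order dividing `p` is generated by exactly `t` distinct members of the family
  (choice of the auxiliary primes `w_1, …, w_t` from their decomposition groups).
-/

set_option autoImplicit false

namespace Fermat.Agent.CFT

open Subgroup

section Duality

variable {Γ X M : Type*} [Group Γ] [CommGroup X] [CommMonoid M]

/-- **Kummer duality step**, relative version. -/
theorem exists_zpow_mul_of_pairing (p : ℕ) [NeZero p] [hM : HasEnoughRootsOfUnity M p]
    (ψ : Γ →* X →* Mˣ) (Q : Subgroup X) (hQfin : Q.index ≠ 0) (hQp : ∀ x : X, x ^ p ∈ Q)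
    (hQker : ∀ x ∈ Q, ∀ σ, ψ σ x = 1) (hnd : ∀ x : X, (∀ σ, ψ σ x = 1) → x ∈ Q)
    (a x : X) (hx : ∀ σ, ψ σ a = 1 → ψ σ x = 1) :
    ∃ (k : ℤ) (y : X), y ∈ Q ∧ x = a ^ k * y := by
  classical
  have hfinV : Finite (X ⧸ Q) := Subgroup.index_ne_zero_iff_finite.1 hQfin
  have hexp : Monoid.exponent (X ⧸ Q) ∣ p := by
    apply Monoid.exponent_dvd_of_forall_pow_eq_one
    intro v
    induction v using QuotientGroup.induction_on with
    | H y =>
      rw [← QuotientGroup.mk_pow, QuotientGroup.eq_one_iff]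
      exact hQp y
  have : HasEnoughRootsOfUnity M (Monoid.exponent (X ⧸ Q)) :=
    HasEnoughRootsOfUnity.of_dvd M hexp
  have hkill : ∀ σ, Q ≤ (ψ σ).ker := fun σ y hy => (MonoidHom.mem_ker).2 (hQker y hy σ)
  let Ψ : Γ →* (X ⧸ Q →* Mˣ) :=
    { toFun := fun σ => QuotientGroup.lift Q (ψ σ) (hkill σ)
      map_one' := by
        ext v
        simp
      map_mul' := fun σ τ => by
        ext v
        simp }
  have hΨ : ∀ σ y, Ψ σ (QuotientGroup.mk y) = ψ σ y := fun σ y => rfl
  have hW : Ψ.range = ⊤ := by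
    have hann : (CommGroup.subgroupOrderIsoSubgroupMonoidHom (X ⧸ Q) M).symm
        (OrderDual.toDual Ψ.range) = ⊥ := by
      rw [eq_bot_iff]
      intro v hv
      rw [CommGroup.mem_subgroupOrderIsoSubgroupMonoidHom_symm_iff] at hv
      induction v using QuotientGroup.induction_on with
      | H y =>
        rw [Subgroup.mem_bot, QuotientGroup.eq_one_iff]
        exact hnd y fun σ => by
          have := hv (Ψ σ) ⟨σ, rfl⟩
          rwa [hΨ] at this
    have h2 : OrderDual.toDual Ψ.range =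
        (CommGroup.subgroupOrderIsoSubgroupMonoidHom (X ⧸ Q) M) ⊥ := by
      rw [← hann, OrderIso.apply_symm_apply]
    have h3 : Ψ.range = OrderDual.ofDual
        ((CommGroup.subgroupOrderIsoSubgroupMonoidHom (X ⧸ Q) M) ⊥) := by
      rw [← h2]; rfl
    rw [h3, eq_top_iff]
    intro φ _
    rw [CommGroup.mem_subgroupOrderIsoSubgroupMonoidHom_iff]
    intro g hg
    rw [Subgroup.mem_bot.1 hg, map_one]
  have hmem : (QuotientGroup.mk x : X ⧸ Q) ∈ zpowers (QuotientGroup.mk a : X ⧸ Q) := by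
    rw [← CommGroup.forall_monoidHom_apply_eq_one_iff M]
    intro φ hφ
    obtain ⟨σ, rfl⟩ : φ ∈ Ψ.range := hW ▸ Subgroup.mem_top φ
    rw [hΨ]
    apply hx
    rw [← hΨ]
    exact hφ _ (mem_zpowers _)
  obtain ⟨k, hk⟩ := mem_zpowers_iff.1 hmem
  rw [← QuotientGroup.mk_zpow, QuotientGroup.eq] at hk
  refine ⟨k, (a ^ k)⁻¹ * x, hk, ?_⟩
  rw [mul_inv_cancel_left]

/-- If `x` is killed by the subgroups `Γ' i` then it is killed by `(⨆ i, Γ' i) ⊔ ker ψ`. -/
theorem apply_eq_one_of_mem_iSup_sup_ker {ι : Type*} (ψ : Γ →* X →* Mˣ) (Γ' : ι → Subgroup Γ)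
    (x : X) (hx : ∀ i, ∀ σ ∈ Γ' i, ψ σ x = 1) {σ : Γ} (hσ : σ ∈ (⨆ i, Γ' i) ⊔ ψ.ker) :
    ψ σ x = 1 := by
  let H : Subgroup Γ := ((MonoidHom.eval x).comp ψ).ker
  have hle : (⨆ i, Γ' i) ⊔ ψ.ker ≤ H := by
    refine sup_le (iSup_le fun i τ hτ => ?_) fun τ hτ => ?_
    · exact (MonoidHom.mem_ker).2 (hx i τ hτ)
    · rw [MonoidHom.mem_ker] at hτ
      exact (MonoidHom.mem_ker).2 (by simp [hτ])
  exact (MonoidHom.mem_ker).1 (hle hσ)

/-- `sSup` form of `apply_eq_one_of_mem_iSup_sup_ker`. -/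
theorem apply_eq_one_of_mem_sSup_sup_ker (ψ : Γ →* X →* Mˣ) (𝒮 : Set (Subgroup Γ))
    (x : X) (hx : ∀ Γ' ∈ 𝒮, ∀ σ ∈ Γ', ψ σ x = 1) {σ : Γ} (hσ : σ ∈ sSup 𝒮 ⊔ ψ.ker) :
    ψ σ x = 1 := by
  rw [sSup_eq_iSup'] at hσ
  exact apply_eq_one_of_mem_iSup_sup_ker ψ (fun C : 𝒮 => (C : Subgroup Γ)) x
    (fun C => hx C.1 C.2) hσ

end Duality

section Choice

variable {H : Type*} [CommGroup H]

/-- Greedy step: a subgroup `C` of order dividing the prime `p` which is not contained in `U`
multiplies the order by `p`. -/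
theorem card_sup_of_not_le (p : ℕ) [hp : Fact p.Prime] (U C : Subgroup H)
    (hC : Nat.card C ∣ p) (hCU : ¬ C ≤ U) : Nat.card (U ⊔ C : Subgroup H) = Nat.card U * p := by
  have h1 : U.relIndex C = p := by
    have hdvd : U.relIndex C ∣ p := dvd_trans (relIndex_dvd_card U C) hC
    rcases (Nat.dvd_prime hp.out).1 hdvd with h | h
    · exact absurd (relIndex_eq_one.1 h) hCU
    · exact h
  have h2 := relIndex_mul_relIndex (⊥ : Subgroup H) U (U ⊔ C) bot_le le_sup_left
  rw [relIndex_bot_left, relIndex_bot_left, relIndex_sup_left, h1] at h2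
  exact h2.symm

/-- **Choice of the auxiliary primes** (abstract form): an abelian group of order `p ^ t`
generated by a family `𝒞` of subgroups of order dividing `p` is generated by `t` members of the
family. -/
theorem exists_finset_sSup_eq_top [Finite H] (p t : ℕ) [hp : Fact p.Prime]
    (hcard : Nat.card H = p ^ t) (𝒞 : Set (Subgroup H)) (hC : ∀ C ∈ 𝒞, Nat.card C ∣ p)
    (hgen : sSup 𝒞 = ⊤) :
    ∃ s : Finset (Subgroup H), (∀ C ∈ s, C ∈ 𝒞) ∧ s.card = t ∧
      sSup (s : Set (Subgroup H)) = ⊤ := by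
  classical
  have key : ∀ k : ℕ, k ≤ t → ∃ s : Finset (Subgroup H), (∀ C ∈ s, C ∈ 𝒞) ∧ s.card = k ∧
      Nat.card (sSup (s : Set (Subgroup H)) : Subgroup H) = p ^ k := by
    intro k
    induction k with
    | zero =>
      intro _
      refine ⟨∅, by simp, rfl, ?_⟩
      simp
    | succ k ih =>
      intro hk
      obtain ⟨s, hs𝒞, hsk, hscard⟩ := ih (Nat.le_of_succ_le hk)
      set U : Subgroup H := sSup (s : Set (Subgroup H)) with hU
      have hUne : U ≠ ⊤ := by
        intro htop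
        have : Nat.card U = Nat.card H := by rw [htop]; exact Subgroup.card_top
        rw [hscard, hcard] at this
        have := Nat.pow_right_injective hp.out.two_le this
        omega
      obtain ⟨C, hC𝒞, hCU⟩ : ∃ C ∈ 𝒞, ¬ C ≤ U := by
        by_contra hcon
        push Not at hcon
        exact hUne (top_le_iff.1 (hgen ▸ sSup_le hcon))
      have hCs : C ∉ s := fun hCs => hCU (le_sSup (by exact_mod_cast hCs))
      refine ⟨insert C s, ?_, ?_, ?_⟩
      · intro C' hC'
        rcases Finset.mem_insert.1 hC' with rfl | h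
        · exact hC𝒞
        · exact hs𝒞 C' h
      · rw [Finset.card_insert_of_notMem hCs, hsk]
      · rw [Finset.coe_insert, sSup_insert, sup_comm, card_sup_of_not_le p U C (hC C hC𝒞) hCU,
          hscard, pow_succ]
  obtain ⟨s, hs𝒞, hst, hscard⟩ := key t le_rfl
  refine ⟨s, hs𝒞, hst, ?_⟩
  apply Subgroup.eq_top_of_card_eq
  rw [hscard, hcard]

end Choice

end Fermat.Agent.CFT
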