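import Fermat.Agent.CFT.Local.LayerInfRes
import Fermat.Agent.CFT.Global.IdeleClassInfRes

/-!
# Galois functoriality of idele (class) cohomology for the layers of a tower (C6d, part 1)

`k ⊆ Ω` fields, `E ≤ E'` intermediate fields, `GaloisTower.layer h` the layer `E'/E`.  For a square
of layers we define `ideleLayerMap`, `classLayerMap` (`ideleGalMap`, `ideleClassGalMap` for the
inclusion algebra structures of `LayerMaps`), prove functoriality, commutation with
`H²(E'ˣ) → H²(J_{E'}) → H²(C_{E'})`, and transport the inflation–restriction sequence of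
`IdeleClassInfRes.lean` to layers.
-/

set_option autoImplicit false
set_option linter.style.haveILetI false
set_option linter.unusedSectionVars false
set_option maxSynthPendingDepth 2

open CategoryTheory groupCohomology IntermediateField

namespace Fermat.Agent.CFT

open GaloisTower LayerMaps

section Congr

variable (K₁ L₁ K₂ L₂ : Type) [Field K₁] [Field L₁] [Field K₂] [Field L₂]
  [Algebra K₁ L₁] [Algebra K₂ L₂] [Normal K₁ L₁]

/-- `ideleGalMap` only depends on the ring homomorphism `L₁ → L₂`. -/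
theorem ideleGalMap_congr_inst'
    (a : Algebra K₁ K₂) (b : Algebra L₁ L₂) (d : Algebra K₁ L₂)
    (t₁ : @IsScalarTower K₁ K₂ L₂ a.toSMul _ d.toSMul)
    (t₂ : @IsScalarTower K₁ L₁ L₂ _ b.toSMul d.toSMul)
    (a' : Algebra K₁ K₂) (b' : Algebra L₁ L₂) (d' : Algebra K₁ L₂)
    (t₁' : @IsScalarTower K₁ K₂ L₂ a'.toSMul _ d'.toSMul)
    (t₂' : @IsScalarTower K₁ L₁ L₂ _ b'.toSMul d'.toSMul)
    (hb : ∀ x : L₁, @algebraMap L₁ L₂ _ _ b x = @algebraMap L₁ L₂ _ _ b' x) (n : ℕ) :
    @ideleGalMap K₁ L₁ K₂ L₂ _ _ _ _ _ _ a b d t₁ t₂ _ n =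
      @ideleGalMap K₁ L₁ K₂ L₂ _ _ _ _ _ _ a' b' d' t₁' t₂' _ n := by
  have hbb : b = b' := Algebra.algebra_ext b b' hb
  subst hbb
  unfold ideleGalMap
  exact groupCohomology.map_congr
    (galRes_congr_inst K₁ L₁ K₂ L₂ a d t₁ t₂ a' d' t₁' t₂') rfl n

/-- `ideleClassGalMap` only depends on the ring homomorphism `L₁ → L₂`. -/
theorem ideleClassGalMap_congr_inst'
    (a : Algebra K₁ K₂) (b : Algebra L₁ L₂) (d : Algebra K₁ L₂)
    (t₁ : @IsScalarTower K₁ K₂ L₂ a.toSMul _ d.toSMul)
    (t₂ : @IsScalarTower K₁ L₁ L₂ _ b.toSMul d.toSMul)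
    (a' : Algebra K₁ K₂) (b' : Algebra L₁ L₂) (d' : Algebra K₁ L₂)
    (t₁' : @IsScalarTower K₁ K₂ L₂ a'.toSMul _ d'.toSMul)
    (t₂' : @IsScalarTower K₁ L₁ L₂ _ b'.toSMul d'.toSMul)
    (hb : ∀ x : L₁, @algebraMap L₁ L₂ _ _ b x = @algebraMap L₁ L₂ _ _ b' x) (n : ℕ) :
    @ideleClassGalMap K₁ L₁ K₂ L₂ _ _ _ _ _ _ a b d t₁ t₂ _ n =
      @ideleClassGalMap K₁ L₁ K₂ L₂ _ _ _ _ _ _ a' b' d' t₁' t₂' _ n := by
  have hbb : b = b' := Algebra.algebra_ext b b' hb
  subst hbb
  unfold ideleClassGalMap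
  exact groupCohomology.map_congr
    (galRes_congr_inst K₁ L₁ K₂ L₂ a d t₁ t₂ a' d' t₁' t₂') rfl n

end Congr

section Map

variable {k Ω : Type} [Field k] [Field Ω] [Algebra k Ω]

variable {E E' F F' J J' : IntermediateField k Ω}

/-- Notation: the Galois group of the layer `E'/E`. -/
abbrev LayerGal (h : E ≤ E') : Type := (layer h) ≃ₐ[E] (layer h)

/-- `H²(Gal(E'/E), E'ˣ) → H²(Gal(E'/E), J_{E'})`. -/
noncomputable abbrev layerH2f (h : E ≤ E') (hP : PrincipalIsIdele (layer h)) :
    groupCohomology (Rep.ofAlgebraAutOnUnits E (layer h)) 2 ⟶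
      groupCohomology (ideleRep (layer h) (LayerGal h)) 2 :=
  ideleH2f E hP

/-- `H²(Gal(E'/E), J_{E'}) → H²(Gal(E'/E), C_{E'})`. -/
noncomputable abbrev layerH2g (h : E ≤ E') :
    groupCohomology (ideleRep (layer h) (LayerGal h)) 2 ⟶
      groupCohomology (ideleClassRep (layer h) (LayerGal h)) 2 :=
  ideleH2g E (L := layer h)

/-- **Functoriality of idele cohomology for a square of layers.** -/
noncomputable def ideleLayerMap (hEE' : E ≤ E') (hFF' : F ≤ F') (hEF : E ≤ F) (hE'F' : E' ≤ F')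
    [Normal E (layer hEE')] (n : ℕ) :
    groupCohomology (ideleRep (layer hEE') (LayerGal hEE')) n ⟶
      groupCohomology (ideleRep (layer hFF') (LayerGal hFF')) n :=
  letI := algBase hEF
  letI := algTop hEE' hFF' hE'F'
  letI := algDiag hEF hFF'
  haveI := tower_base hEF hFF'
  haveI := tower_top hEE' hFF' hEF hE'F'
  ideleGalMap E (layer hEE') F (layer hFF') n

/-- **Functoriality of idele class cohomology for a square of layers.** -/
noncomputable def classLayerMap (hEE' : E ≤ E') (hFF' : F ≤ F') (hEF : E ≤ F) (hE'F' : E' ≤ F')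
    [Normal E (layer hEE')] (n : ℕ) :
    groupCohomology (ideleClassRep (layer hEE') (LayerGal hEE')) n ⟶
      groupCohomology (ideleClassRep (layer hFF') (LayerGal hFF')) n :=
  letI := algBase hEF
  letI := algTop hEE' hFF' hE'F'
  letI := algDiag hEF hFF'
  haveI := tower_base hEF hFF'
  haveI := tower_top hEE' hFF' hEF hE'F'
  ideleClassGalMap E (layer hEE') F (layer hFF') n

/-- Functoriality of `ideleLayerMap`. -/
theorem ideleLayerMap_comp (hEE' : E ≤ E') (hFF' : F ≤ F') (hJJ' : J ≤ J') (hEF : E ≤ F)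
    (hE'F' : E' ≤ F') (hFJ : F ≤ J) (hF'J' : F' ≤ J')
    [Normal E (layer hEE')] [Normal F (layer hFF')] (n : ℕ) :
    ideleLayerMap hEE' hFF' hEF hE'F' n ≫ ideleLayerMap hFF' hJJ' hFJ hF'J' n =
      ideleLayerMap hEE' hJJ' (hEF.trans hFJ) (hE'F'.trans hF'J') n := by
  letI := algBase hEF
  letI := algTop hEE' hFF' hE'F'
  letI := algDiag hEF hFF'
  haveI := tower_base hEF hFF'
  haveI := tower_top hEE' hFF' hEF hE'F'
  letI := algBase hFJ
  letI := algTop hFF' hJJ' hF'J'
  letI := algDiag hFJ hJJ'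
  haveI := tower_base hFJ hJJ'
  haveI := tower_top hFF' hJJ' hFJ hF'J'
  letI := algBase (hEF.trans hFJ)
  letI := algTop hEE' hJJ' (hE'F'.trans hF'J')
  letI := algDiag (hEF.trans hFJ) hJJ'
  haveI := tower_base (hEF.trans hFJ) hJJ'
  haveI := tower_top hEE' hJJ' (hEF.trans hFJ) (hE'F'.trans hF'J')
  haveI := tower_top_top hEE' hFF' hJJ' hE'F' hF'J'
  exact ideleGalMap_comp E (layer hEE') F (layer hFF') J (layer hJJ') n

/-- Functoriality of `classLayerMap`. -/
theorem classLayerMap_comp (hEE' : E ≤ E') (hFF' : F ≤ F') (hJJ' : J ≤ J') (hEF : E ≤ F)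
    (hE'F' : E' ≤ F') (hFJ : F ≤ J) (hF'J' : F' ≤ J')
    [Normal E (layer hEE')] [Normal F (layer hFF')] (n : ℕ) :
    classLayerMap hEE' hFF' hEF hE'F' n ≫ classLayerMap hFF' hJJ' hFJ hF'J' n =
      classLayerMap hEE' hJJ' (hEF.trans hFJ) (hE'F'.trans hF'J') n := by
  letI := algBase hEF
  letI := algTop hEE' hFF' hE'F'
  letI := algDiag hEF hFF'
  haveI := tower_base hEF hFF'
  haveI := tower_top hEE' hFF' hEF hE'F'
  letI := algBase hFJ
  letI := algTop hFF' hJJ' hF'J'
  letI := algDiag hFJ hJJ'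
  haveI := tower_base hFJ hJJ'
  haveI := tower_top hFF' hJJ' hFJ hF'J'
  letI := algBase (hEF.trans hFJ)
  letI := algTop hEE' hJJ' (hE'F'.trans hF'J')
  letI := algDiag (hEF.trans hFJ) hJJ'
  haveI := tower_base (hEF.trans hFJ) hJJ'
  haveI := tower_top hEE' hJJ' (hEF.trans hFJ) (hE'F'.trans hF'J')
  haveI := tower_top_top hEE' hFF' hJJ' hE'F' hF'J'
  exact ideleClassGalMap_comp E (layer hEE') F (layer hFF') J (layer hJJ') n

theorem classLayerMap_comp_apply (hEE' : E ≤ E') (hFF' : F ≤ F') (hJJ' : J ≤ J') (hEF : E ≤ F)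
    (hE'F' : E' ≤ F') (hFJ : F ≤ J) (hF'J' : F' ≤ J')
    [Normal E (layer hEE')] [Normal F (layer hFF')] (n : ℕ)
    (x : groupCohomology (ideleClassRep (layer hEE') (LayerGal hEE')) n) :
    (classLayerMap hFF' hJJ' hFJ hF'J' n).hom ((classLayerMap hEE' hFF' hEF hE'F' n).hom x) =
      (classLayerMap hEE' hJJ' (hEF.trans hFJ) (hE'F'.trans hF'J') n).hom x :=
  ConcreteCategory.congr_hom
    (classLayerMap_comp hEE' hFF' hJJ' hEF hE'F' hFJ hF'J' n) x

theorem ideleLayerMap_comp_apply (hEE' : E ≤ E') (hFF' : F ≤ F') (hJJ' : J ≤ J') (hEF : E ≤ F)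
    (hE'F' : E' ≤ F') (hFJ : F ≤ J) (hF'J' : F' ≤ J')
    [Normal E (layer hEE')] [Normal F (layer hFF')] (n : ℕ)
    (x : groupCohomology (ideleRep (layer hEE') (LayerGal hEE')) n) :
    (ideleLayerMap hFF' hJJ' hFJ hF'J' n).hom ((ideleLayerMap hEE' hFF' hEF hE'F' n).hom x) =
      (ideleLayerMap hEE' hJJ' (hEF.trans hFJ) (hE'F'.trans hF'J') n).hom x :=
  ConcreteCategory.congr_hom
    (ideleLayerMap_comp hEE' hFF' hJJ' hEF hE'F' hFJ hF'J' n) x

/-- `classLayerMap (H²g y) = H²g (ideleLayerMap y)`. -/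
theorem classLayerMap_layerH2g (hEE' : E ≤ E') (hFF' : F ≤ F') (hEF : E ≤ F) (hE'F' : E' ≤ F')
    [Normal E (layer hEE')]
    (y : groupCohomology (ideleRep (layer hEE') (LayerGal hEE')) 2) :
    (classLayerMap hEE' hFF' hEF hE'F' 2).hom ((layerH2g hEE').hom y) =
      (layerH2g hFF').hom ((ideleLayerMap hEE' hFF' hEF hE'F' 2).hom y) := by
  letI := algBase hEF
  letI := algTop hEE' hFF' hE'F'
  letI := algDiag hEF hFF'
  haveI := tower_base hEF hFF'
  haveI := tower_top hEE' hFF' hEF hE'F'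
  exact ideleClassGalMap_ideleH2g E (layer hEE') F (layer hFF') y

/-- `ideleLayerMap (H²f x) = H²f (layerMap x)`. -/
theorem ideleLayerMap_layerH2f (hEE' : E ≤ E') (hFF' : F ≤ F') (hEF : E ≤ F) (hE'F' : E' ≤ F')
    [Normal E (layer hEE')] (hP : PrincipalIsIdele (layer hEE'))
    (hP' : PrincipalIsIdele (layer hFF'))
    (x : groupCohomology (Rep.ofAlgebraAutOnUnits E (layer hEE')) 2) :
    (ideleLayerMap hEE' hFF' hEF hE'F' 2).hom ((layerH2f hEE' hP).hom x) =
      (layerH2f hFF' hP').hom ((layerMap hEE' hFF' hEF hE'F' 2).hom x) := by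
  letI := algBase hEF
  letI := algTop hEE' hFF' hE'F'
  letI := algDiag hEF hFF'
  haveI := tower_base hEF hFF'
  haveI := tower_top hEE' hFF' hEF hE'F'
  exact ideleGalMap_ideleH2f E (layer hEE') F (layer hFF') hP hP' x

end Map

section InfRes

variable {k Ω : Type} [Field k] [Field Ω] [Algebra k Ω]

variable {E E' F F' : IntermediateField k Ω}

/-- Inflation of idele classes between layers over the same base. -/
noncomputable abbrev classLayerInfl (hEE' : E ≤ E') (hE'F' : E' ≤ F') [Normal E (layer hEE')]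
    (n : ℕ) :
    groupCohomology (ideleClassRep (layer hEE') (LayerGal hEE')) n ⟶
      groupCohomology (ideleClassRep (layer (hEE'.trans hE'F')) (LayerGal (hEE'.trans hE'F'))) n :=
  classLayerMap hEE' (hEE'.trans hE'F') le_rfl hE'F' n

/-- Restriction of idele classes: same top field, bigger base. -/
noncomputable abbrev classLayerRest (hEF : E ≤ F) (hFF' : F ≤ F')
    [Normal E (layer (hEF.trans hFF'))] (n : ℕ) :
    groupCohomology (ideleClassRep (layer (hEF.trans hFF')) (LayerGal (hEF.trans hFF'))) n ⟶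
      groupCohomology (ideleClassRep (layer hFF') (LayerGal hFF')) n :=
  classLayerMap (hEF.trans hFF') hFF' hEF le_rfl n

/-- Inflation of ideles between layers over the same base. -/
noncomputable abbrev ideleLayerInfl (hEE' : E ≤ E') (hE'F' : E' ≤ F') [Normal E (layer hEE')]
    (n : ℕ) :
    groupCohomology (ideleRep (layer hEE') (LayerGal hEE')) n ⟶
      groupCohomology (ideleRep (layer (hEE'.trans hE'F')) (LayerGal (hEE'.trans hE'F'))) n :=
  ideleLayerMap hEE' (hEE'.trans hE'F') le_rfl hE'F' n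

/-- Restriction of ideles: same top field, bigger base. -/
noncomputable abbrev ideleLayerRest (hEF : E ≤ F) (hFF' : F ≤ F')
    [Normal E (layer (hEF.trans hFF'))] (n : ℕ) :
    groupCohomology (ideleRep (layer (hEF.trans hFF')) (LayerGal (hEF.trans hFF'))) n ⟶
      groupCohomology (ideleRep (layer hFF') (LayerGal hFF')) n :=
  ideleLayerMap (hEF.trans hFF') hFF' hEF le_rfl n

variable [CharZero k]

/-- **Inflation of idele classes is injective on `H²`** for layers `E ≤ E' ≤ F'`, given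
`H¹(Gal(F'/E'), C_{F'}) = 0`. -/
theorem classLayerInfl_injective (hEE' : E ≤ E') (hE'F' : E' ≤ F')
    [FiniteDimensional k F'] [Normal E (layer hEE')] [Normal E (layer (hEE'.trans hE'F'))]
    (hP : PrincipalIsIdele (layer hE'F'))
    (hPinj : Function.Injective (principalIdele (layer hE'F')))
    (h1 : Limits.IsZero (groupCohomology (ideleClassRep (layer hE'F') (LayerGal hE'F')) 1)) :
    Function.Injective (classLayerInfl hEE' hE'F' 2).hom := by
  letI a : Algebra (layer hEE') (layer (hEE'.trans hE'F')) :=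
    (inferInstance : Algebra E' (layer hE'F'))
  haveI hst : IsScalarTower E (layer hEE') (layer (hEE'.trans hE'F')) :=
    IsScalarTower.of_algebraMap_eq fun _ => rfl
  haveI := finiteDimensional_layer_of_fd' (hEE'.trans hE'F')
  haveI := isGalois_layer_of_normal_of_fd (hEE'.trans hE'F')
  have e : classLayerInfl hEE' hE'F' 2 =
      ideleClassGalMap E (layer hEE') E (layer (hEE'.trans hE'F')) 2 :=
    ideleClassGalMap_congr_inst' E (layer hEE') E (layer (hEE'.trans hE'F'))
      (algBase (le_refl E)) (algTop hEE' (hEE'.trans hE'F') hE'F')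
      (algDiag (le_refl E) (hEE'.trans hE'F'))
      (tower_base (le_refl E) (hEE'.trans hE'F'))
      (tower_top hEE' (hEE'.trans hE'F') (le_refl E) hE'F')
      (Algebra.id E) a (inferInstance : Algebra E (layer (hEE'.trans hE'F')))
      (IsScalarTower.left E) hst (fun _ => rfl) 2
  rw [e]
  have hP' : PrincipalIsIdele (layer (hEE'.trans hE'F')) := hP
  have hPinj' : Function.Injective (principalIdele (layer (hEE'.trans hE'F'))) := hPinj
  have h1' : Limits.IsZero (groupCohomology (ideleClassRep (layer (hEE'.trans hE'F'))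
      ((layer (hEE'.trans hE'F')) ≃ₐ[layer hEE'] (layer (hEE'.trans hE'F')))) 1) := h1
  exact ideleClassInfl_two_injective E (layer hEE') (layer (hEE'.trans hE'F')) hP' hPinj' h1'

/-- **Inflation–restriction exactness for idele classes of layers** `E ≤ F ≤ F'`, given
`H¹(Gal(F'/F), C_{F'}) = 0`. -/
theorem exists_classLayerInfl_eq_of_classLayerRest_eq_zero (hEF : E ≤ F) (hFF' : F ≤ F')
    [FiniteDimensional k F'] [Normal E (layer (hEF.trans hFF'))] [Normal E (layer hEF)]
    (hP : PrincipalIsIdele (layer hFF'))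
    (hPinj : Function.Injective (principalIdele (layer hFF')))
    (h1 : Limits.IsZero (groupCohomology (ideleClassRep (layer hFF') (LayerGal hFF')) 1))
    (x : groupCohomology (ideleClassRep (layer (hEF.trans hFF')) (LayerGal (hEF.trans hFF'))) 2)
    (hx : (classLayerRest hEF hFF' 2).hom x = 0) :
    ∃ y, (classLayerInfl hEF hFF' 2).hom y = x := by
  letI a : Algebra (layer hEF) (layer (hEF.trans hFF')) :=
    (inferInstance : Algebra F (layer hFF'))
  haveI hst : IsScalarTower E (layer hEF) (layer (hEF.trans hFF')) :=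
    IsScalarTower.of_algebraMap_eq fun _ => rfl
  haveI := finiteDimensional_layer_of_fd' (hEF.trans hFF')
  haveI := isGalois_layer_of_normal_of_fd (hEF.trans hFF')
  have eR : classLayerRest hEF hFF' 2 =
      ideleClassGalMap E (layer (hEF.trans hFF')) (layer hEF) (layer (hEF.trans hFF')) 2 :=
    ideleClassGalMap_congr_inst' E (layer (hEF.trans hFF')) F (layer hFF')
      (algBase hEF) (algTop (hEF.trans hFF') hFF' le_rfl) (algDiag hEF hFF')
      (tower_base hEF hFF')
      (tower_top (hEF.trans hFF') hFF' hEF le_rfl)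
      (inferInstance : Algebra E (layer hEF))
      (Algebra.id (layer (hEF.trans hFF')))
      (inferInstance : Algebra E (layer (hEF.trans hFF'))) hst
      (IsScalarTower.right (R := E) (A := layer (hEF.trans hFF')))
      (fun _ => rfl) 2
  have eI : classLayerInfl hEF hFF' 2 =
      ideleClassGalMap E (layer hEF) E (layer (hEF.trans hFF')) 2 :=
    ideleClassGalMap_congr_inst' E (layer hEF) E (layer (hEF.trans hFF'))
      (algBase (le_refl E)) (algTop hEF (hEF.trans hFF') hFF')
      (algDiag (le_refl E) (hEF.trans hFF'))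
      (tower_base (le_refl E) (hEF.trans hFF'))
      (tower_top hEF (hEF.trans hFF') (le_refl E) hFF')
      (Algebra.id E) a (inferInstance : Algebra E (layer (hEF.trans hFF')))
      (IsScalarTower.left E) hst (fun _ => rfl) 2
  rw [eR] at hx
  have hP' : PrincipalIsIdele (layer (hEF.trans hFF')) := hP
  have hPinj' : Function.Injective (principalIdele (layer (hEF.trans hFF'))) := hPinj
  have h1' : Limits.IsZero (groupCohomology (ideleClassRep (layer (hEF.trans hFF'))
      ((layer (hEF.trans hFF')) ≃ₐ[layer hEF] (layer (hEF.trans hFF')))) 1) := h1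
  obtain ⟨y, hy⟩ := exists_ideleClassInfl_eq_of_rest_eq_zero E (layer hEF)
    (layer (hEF.trans hFF')) hP' hPinj' h1' x hx
  refine ⟨y, ?_⟩
  rw [eI]
  exact hy

end InfRes

end Fermat.Agent.CFT
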