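import Fermat.Agent.CFT.Local.LayerInvRange
import Fermat.Agent.CFT.Global.ClassLayerMaps

/-!
# The global invariant on the layers of a tower (C6d, part 2): formal theory

`k ⊆ Ω` fields of characteristic zero (`ℚ ⊆ ℚ̄`), `p` a prime.  An `IdeleInvSystem p k Ω` is a family
of additive maps `invJ h : H²(Gal(E'/E), J_{E'}) →+ ℚ/ℤ` on the layers of `Ω/k` which is multiplied
by `[F : E]` under the layer maps and satisfies the `p`-primary reciprocity law (vanishing on the
`p`-power torsion classes coming from `H²(Gal(E'/E), E'ˣ)`).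

For such a system we define the relation `IsClassInv I h x t` ("the class `x ∈ H²(Gal(E'/E), C_{E'})`
has invariant `t`"): after inflation to a bigger finite normal layer `M/E`, `x` is the image of a
`p`-power torsion class `w ∈ H²(Gal(M/E), J_M)` with `invJ w = t`.  Formal consequences of the
axioms: the invariant is unique, additive, invariant under inflation, multiplied by `[F : E]` under
restriction, and the invariant of the image of `z ∈ H²(Gal(E'/E), J_{E'})` is `invJ z`.
-/

set_option autoImplicit false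
set_option linter.style.haveILetI false
set_option linter.unusedSectionVars false
set_option maxSynthPendingDepth 2

open CategoryTheory groupCohomology IntermediateField

namespace Fermat.Agent.CFT

open GaloisTower LayerMaps

lemma pow_add_nsmul_eq_zero_left {W : Type*} [AddCommMonoid W] {p n : ℕ} (n' : ℕ) {w : W}
    (h : p ^ n • w = 0) : p ^ (n + n') • w = 0 := by
  rw [pow_add, mul_nsmul, h, smul_zero]

lemma pow_add_nsmul_eq_zero_right {W : Type*} [AddCommMonoid W] {p n' : ℕ} (n : ℕ) {w : W}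
    (h : p ^ n' • w = 0) : p ^ (n + n') • w = 0 := by
  rw [pow_add, mul_comm, mul_nsmul, h, smul_zero]

section Compositum

variable {k Ω : Type} [Field k] [Field Ω] [Algebra k Ω] {E E' C M : IntermediateField k Ω}

/-- An automorphism of the layer `M/E'`, `M = E'·C`, which fixes `C` pointwise is trivial. -/
theorem layerGal_eq_one_of_forall_mem (hE'M : E' ≤ M) (hCM : C ≤ M) (hgen : M ≤ E' ⊔ C)
    (σ : LayerGal hE'M)
    (hσ : ∀ (x : Ω) (hx : x ∈ C), σ (⟨x, hCM hx⟩ : layer hE'M) = ⟨x, hCM hx⟩) : σ = 1 := by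
  let T : IntermediateField k Ω :=
    { carrier := {x | ∃ hx : x ∈ M, σ (⟨x, hx⟩ : layer hE'M) = ⟨x, hx⟩}
      mul_mem' := by
        rintro x y ⟨hx, hx'⟩ ⟨hy, hy'⟩
        refine ⟨M.mul_mem hx hy, ?_⟩
        have : (⟨x * y, M.mul_mem hx hy⟩ : layer hE'M) = ⟨x, hx⟩ * ⟨y, hy⟩ := rfl
        rw [this, map_mul, hx', hy']
      one_mem' := ⟨M.one_mem, map_one σ⟩
      add_mem' := by
        rintro x y ⟨hx, hx'⟩ ⟨hy, hy'⟩
        refine ⟨M.add_mem hx hy, ?_⟩
        have : (⟨x + y, M.add_mem hx hy⟩ : layer hE'M) = ⟨x, hx⟩ + ⟨y, hy⟩ := rfl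
        rw [this, map_add, hx', hy']
      zero_mem' := ⟨M.zero_mem, map_zero σ⟩
      algebraMap_mem' := by
        intro c
        refine ⟨M.algebraMap_mem c, ?_⟩
        have : (⟨algebraMap k Ω c, M.algebraMap_mem c⟩ : layer hE'M) =
            algebraMap E' (layer hE'M) (algebraMap k E' c) := rfl
        rw [this, σ.commutes]
      inv_mem' := by
        rintro x ⟨hx, hx'⟩
        refine ⟨M.inv_mem hx, ?_⟩
        have : (⟨x⁻¹, M.inv_mem hx⟩ : layer hE'M) = (⟨x, hx⟩ : layer hE'M)⁻¹ := rfl
        rw [this, map_inv₀, hx'] }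
  have hE'T : E' ≤ T := by
    intro e he
    refine ⟨hE'M he, ?_⟩
    have : (⟨e, hE'M he⟩ : layer hE'M) = algebraMap E' (layer hE'M) ⟨e, he⟩ := rfl
    rw [this, σ.commutes]
  have hCT : C ≤ T := fun x hx => ⟨hCM hx, hσ x hx⟩
  have hMT : M ≤ T := hgen.trans (sup_le hE'T hCT)
  ext y
  obtain ⟨hy, hy'⟩ := hMT y.2
  exact congrArg Subtype.val hy'

/-- For `M = E'·C` with `C/E` normal, restriction `Gal(M/E') → Gal(C/E)` is injective. -/
theorem layerGalRes_injective (h : E ≤ E') (hEC : E ≤ C) (hE'M : E' ≤ M) (hCM : C ≤ M)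
    (hgen : M ≤ E' ⊔ C) [Normal E (layer hEC)] :
    letI := algBase h
    letI := algTop hEC hE'M hCM
    letI := algDiag h hE'M
    haveI := tower_base h hE'M
    haveI := tower_top hEC hE'M h hCM
    Function.Injective (galRes E (layer hEC) E' (layer hE'M)) := by
  letI := algBase h
  letI := algTop hEC hE'M hCM
  letI := algDiag h hE'M
  haveI := tower_base h hE'M
  haveI := tower_top hEC hE'M h hCM
  rw [injective_iff_map_eq_one]
  intro σ hσ
  apply layerGal_eq_one_of_forall_mem hE'M hCM hgen σ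
  intro x hx
  have h1 := galRes_commutes (K₁ := E) (L₁ := layer hEC) (K₂ := E') (L₂ := layer hE'M) σ
    (⟨x, hx⟩ : layer hEC)
  rw [hσ] at h1
  exact h1.symm

/-- For `M = E'·C` with `C/E` cyclic of order `p^a`, `M/E'` is cyclic of `p`-power order. -/
theorem isCyclic_layerGal_of_sup {p : ℕ} (hp : p.Prime) (h : E ≤ E') (hEC : E ≤ C) (hE'M : E' ≤ M)
    (hCM : C ≤ M) (hgen : M ≤ E' ⊔ C) [Normal E (layer hEC)] [IsCyclic (LayerGal hEC)]
    [Finite (LayerGal hEC)] {a : ℕ} (hcard : Nat.card (LayerGal hEC) = p ^ a) :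
    IsCyclic (LayerGal hE'M) ∧ ∃ b : ℕ, Nat.card (LayerGal hE'M) = p ^ b := by
  letI := algBase h
  letI := algTop hEC hE'M hCM
  letI := algDiag h hE'M
  haveI := tower_base h hE'M
  haveI := tower_top hEC hE'M h hCM
  have hinj := layerGalRes_injective h hEC hE'M hCM hgen
  refine ⟨isCyclic_of_injective (galRes E (layer hEC) E' (layer hE'M)) hinj, ?_⟩
  have hdvd := Subgroup.card_dvd_of_injective (galRes E (layer hEC) E' (layer hE'M)) hinj
  rw [hcard] at hdvd
  obtain ⟨b, -, hb⟩ := (Nat.dvd_prime_pow hp).1 hdvd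
  exact ⟨b, hb⟩

end Compositum

/-- A system of idelic invariant maps on the layers of `Ω/k`, with the `p`-primary reciprocity
law. -/
structure IdeleInvSystem (p : ℕ) (k Ω : Type) [Field k] [Field Ω] [Algebra k Ω] where
  /-- the idelic invariant of the layer `E'/E` -/
  invJ : ∀ {E E' : IntermediateField k Ω} (h : E ≤ E'),
    groupCohomology (ideleRep (layer h) (LayerGal h)) 2 →+ AddCircle (1 : ℚ)
  principal : ∀ {E E' : IntermediateField k Ω} (h : E ≤ E') [FiniteDimensional k E'],
    PrincipalIsIdele (layer h)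
  principal_injective : ∀ {E E' : IntermediateField k Ω} (h : E ≤ E') [FiniteDimensional k E'],
    Function.Injective (principalIdele (layer h))
  invJ_layerMap : ∀ {E E' F F' : IntermediateField k Ω} (hEE' : E ≤ E') (hFF' : F ≤ F')
    (hEF : E ≤ F) (hE'F' : E' ≤ F') [FiniteDimensional k F'] [Normal E (layer hEE')]
    [Normal F (layer hFF')] (x : groupCohomology (ideleRep (layer hEE') (LayerGal hEE')) 2),
    (∃ n : ℕ, p ^ n • x = 0) →
    invJ hFF' ((ideleLayerMap hEE' hFF' hEF hE'F' 2).hom x) =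
      Module.finrank E (layer hEF) • invJ hEE' x
  invJ_principal : ∀ {E E' : IntermediateField k Ω} (h : E ≤ E') [FiniteDimensional k E']
    [Normal E (layer h)] (u : groupCohomology (Rep.ofAlgebraAutOnUnits E (layer h)) 2),
    (∃ n : ℕ, p ^ n • u = 0) → invJ h ((layerH2f h (principal h)).hom u) = 0

namespace IdeleInvSystem

variable {p : ℕ} [hp : Fact p.Prime] {k Ω : Type} [Field k] [Field Ω] [Algebra k Ω]
  (I : IdeleInvSystem p k Ω)

variable {E E' F F' M M' : IntermediateField k Ω}

/-- Inflation does not change the idelic invariant. -/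
theorem invJ_ideleLayerInfl (hEE' : E ≤ E') (hE'F' : E' ≤ F') [FiniteDimensional k F']
    [Normal E (layer hEE')] [Normal E (layer (hEE'.trans hE'F'))]
    (x : groupCohomology (ideleRep (layer hEE') (LayerGal hEE')) 2)
    (hx : ∃ n : ℕ, p ^ n • x = 0) :
    I.invJ (hEE'.trans hE'F') ((ideleLayerInfl hEE' hE'F' 2).hom x) = I.invJ hEE' x := by
  have := I.invJ_layerMap hEE' (hEE'.trans hE'F') le_rfl hE'F' x hx
  rw [LayerInvSystem.finrank_layer_self, one_smul] at this
  exact this

/-- Restriction multiplies the idelic invariant by the degree. -/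
theorem invJ_ideleLayerRest (hEF : E ≤ F) (hFF' : F ≤ F') [FiniteDimensional k F']
    [Normal E (layer (hEF.trans hFF'))] [Normal F (layer hFF')]
    (x : groupCohomology (ideleRep (layer (hEF.trans hFF')) (LayerGal (hEF.trans hFF'))) 2)
    (hx : ∃ n : ℕ, p ^ n • x = 0) :
    I.invJ hFF' ((ideleLayerRest hEF hFF' 2).hom x) =
      Module.finrank E (layer hEF) • I.invJ (hEF.trans hFF') x :=
  I.invJ_layerMap (hEF.trans hFF') hFF' hEF le_rfl x hx

/-! ### The invariant relation -/

/-- The class `x ∈ H²(Gal(E'/E), C_{E'})` has invariant `t`, witnessed on the layer `M/E`. -/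
def IsClassInvAt (h : E ≤ E') [Normal E (layer h)] (hM : E' ≤ M)
    (x : groupCohomology (ideleClassRep (layer h) (LayerGal h)) 2) (t : AddCircle (1 : ℚ)) :
    Prop :=
  ∃ w : groupCohomology (ideleRep (layer (h.trans hM)) (LayerGal (h.trans hM))) 2,
    (∃ n : ℕ, p ^ n • w = 0) ∧
    (layerH2g (h.trans hM)).hom w = (classLayerInfl h hM 2).hom x ∧ I.invJ (h.trans hM) w = t

/-- The class `x ∈ H²(Gal(E'/E), C_{E'})` has invariant `t`. -/
def IsClassInv (h : E ≤ E') [Normal E (layer h)]
    (x : groupCohomology (ideleClassRep (layer h) (LayerGal h)) 2) (t : AddCircle (1 : ℚ)) :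
    Prop :=
  ∃ (M : IntermediateField k Ω) (hM : E' ≤ M) (_ : FiniteDimensional k M)
    (_ : Normal E (layer (h.trans hM))), I.IsClassInvAt h hM x t

variable {I}

/-- A witness can be moved to a bigger layer. -/
theorem IsClassInvAt.mono {h : E ≤ E'} [Normal E (layer h)] {hM : E' ≤ M}
    [Normal E (layer (h.trans hM))] (hMM' : M ≤ M') [FiniteDimensional k M']
    [Normal E (layer (h.trans (hM.trans hMM')))]
    {x : groupCohomology (ideleClassRep (layer h) (LayerGal h)) 2} {t : AddCircle (1 : ℚ)}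
    (hx : I.IsClassInvAt h hM x t) : I.IsClassInvAt h (hM.trans hMM') x t := by
  obtain ⟨w, ⟨n, hn⟩, hw, hwt⟩ := hx
  refine ⟨(ideleLayerInfl (h.trans hM) hMM' 2).hom w, ⟨n, ?_⟩, ?_, ?_⟩
  · rw [← map_nsmul, hn, map_zero]
  · rw [← classLayerMap_layerH2g, hw]
    exact classLayerMap_comp_apply h (h.trans hM) (h.trans (hM.trans hMM')) le_rfl hM le_rfl
      hMM' 2 x
  · rw [← hwt]
    exact I.invJ_ideleLayerInfl (h.trans hM) hMM' w ⟨n, hn⟩

theorem IsClassInvAt.add {h : E ≤ E'} [Normal E (layer h)] {hM : E' ≤ M}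
    {x x' : groupCohomology (ideleClassRep (layer h) (LayerGal h)) 2} {t t' : AddCircle (1 : ℚ)}
    (hx : I.IsClassInvAt h hM x t) (hx' : I.IsClassInvAt h hM x' t') :
    I.IsClassInvAt h hM (x + x') (t + t') := by
  obtain ⟨w, ⟨n, hn⟩, hw, hwt⟩ := hx
  obtain ⟨w', ⟨n', hn'⟩, hw', hwt'⟩ := hx'
  refine ⟨w + w', ⟨n + n', ?_⟩, ?_, ?_⟩
  · have h1 : p ^ (n + n') • w = 0 := pow_add_nsmul_eq_zero_left n' hn
    have h2 : p ^ (n + n') • w' = 0 := pow_add_nsmul_eq_zero_right n hn'
    rw [smul_add, h1, h2, add_zero]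
  · rw [map_add, map_add, hw, hw']
  · rw [map_add, hwt, hwt']

theorem IsClassInvAt.neg {h : E ≤ E'} [Normal E (layer h)] {hM : E' ≤ M}
    {x : groupCohomology (ideleClassRep (layer h) (LayerGal h)) 2} {t : AddCircle (1 : ℚ)}
    (hx : I.IsClassInvAt h hM x t) : I.IsClassInvAt h hM (-x) (-t) := by
  obtain ⟨w, ⟨n, hn⟩, hw, hwt⟩ := hx
  refine ⟨-w, ⟨n, ?_⟩, ?_, ?_⟩
  · rw [smul_neg, hn, neg_zero]
  · rw [map_neg, map_neg, hw]
  · rw [map_neg, hwt]

/-- **Uniqueness on a fixed layer** (from the reciprocity law). -/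
theorem IsClassInvAt.unique [CharZero k] {h : E ≤ E'} [Normal E (layer h)] {hM : E' ≤ M}
    [FiniteDimensional k M] [Normal E (layer (h.trans hM))]
    {x : groupCohomology (ideleClassRep (layer h) (LayerGal h)) 2} {t t' : AddCircle (1 : ℚ)}
    (hx : I.IsClassInvAt h hM x t) (hx' : I.IsClassInvAt h hM x t') : t = t' := by
  obtain ⟨w, ⟨n, hn⟩, hw, hwt⟩ := hx
  obtain ⟨w', ⟨n', hn'⟩, hw', hwt'⟩ := hx'
  haveI := finiteDimensional_layer_of_fd' (h.trans hM)
  have h0 : (layerH2g (h.trans hM)).hom (w - w') = 0 := by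
    rw [map_sub, hw, hw', sub_self]
  obtain ⟨u, hu⟩ := ideleH2_exact (I.principal (h.trans hM))
    (I.principal_injective (h.trans hM)) (w - w') h0
  have htp : ∃ m : ℕ, p ^ m • (layerH2f (h.trans hM) (I.principal (h.trans hM))).hom u = 0 := by
    refine ⟨n + n', ?_⟩
    have h1 : p ^ (n + n') • w = 0 := pow_add_nsmul_eq_zero_left n' hn
    have h2 : p ^ (n + n') • w' = 0 := pow_add_nsmul_eq_zero_right n hn'
    rw [hu, smul_sub, h1, h2, sub_zero]
  have h3 : I.invJ (h.trans hM)
      ((layerH2f (h.trans hM) (I.principal (h.trans hM))).hom u) = 0 :=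
    map_eq_zero_of_pPrimary hp.out
      (layerH2f (h.trans hM) (I.principal (h.trans hM))).hom.toAddMonoidHom
      (I.invJ (h.trans hM)) (N := Nat.card (LayerGal (h.trans hM))) Nat.card_pos.ne'
      (fun u => card_nsmul_groupCohomology_eq_zero
        (Rep.ofAlgebraAutOnUnits E (layer (h.trans hM))) 1 u)
      (fun u hu => I.invJ_principal (h.trans hM) u hu) u htp
  rw [hu, map_sub, hwt, hwt', sub_eq_zero] at h3
  exact h3

/-! ### Formal properties of `IsClassInv` -/

/-- Two witnesses can be moved to a common layer. -/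
theorem IsClassInv.exists_common {h : E ≤ E'} [Normal E (layer h)]
    {x x' : groupCohomology (ideleClassRep (layer h) (LayerGal h)) 2} {t t' : AddCircle (1 : ℚ)}
    (hx : I.IsClassInv h x t) (hx' : I.IsClassInv h x' t') :
    ∃ (M : IntermediateField k Ω) (hM : E' ≤ M) (_ : FiniteDimensional k M)
      (_ : Normal E (layer (h.trans hM))), I.IsClassInvAt h hM x t ∧ I.IsClassInvAt h hM x' t' := by
  obtain ⟨M₁, hM₁, fd₁, nm₁, a₁⟩ := hx
  obtain ⟨M₂, hM₂, fd₂, nm₂, a₂⟩ := hx'
  haveI hn : Normal E (layer ((h.trans hM₁).trans le_sup_left : E ≤ M₁ ⊔ M₂)) :=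
    LayerUnramData.normal_layer_sup (h.trans hM₁) (h.trans hM₂)
  haveI hn1 : Normal E (layer (h.trans (hM₁.trans (le_sup_left : M₁ ≤ M₁ ⊔ M₂)))) := hn
  haveI hn2 : Normal E (layer (h.trans (hM₂.trans (le_sup_right : M₂ ≤ M₁ ⊔ M₂)))) := hn
  exact ⟨M₁ ⊔ M₂, hM₁.trans le_sup_left, inferInstance, hn1,
    a₁.mono (le_sup_left : M₁ ≤ M₁ ⊔ M₂), a₂.mono (le_sup_right : M₂ ≤ M₁ ⊔ M₂)⟩

/-- **The invariant of a class is unique.** -/
theorem IsClassInv.unique [CharZero k] {h : E ≤ E'} [Normal E (layer h)]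
    {x : groupCohomology (ideleClassRep (layer h) (LayerGal h)) 2} {t t' : AddCircle (1 : ℚ)}
    (hx : I.IsClassInv h x t) (hx' : I.IsClassInv h x t') : t = t' := by
  obtain ⟨M, hM, fd, nm, a, a'⟩ := hx.exists_common hx'
  exact a.unique a'

theorem IsClassInv.add {h : E ≤ E'} [Normal E (layer h)]
    {x x' : groupCohomology (ideleClassRep (layer h) (LayerGal h)) 2} {t t' : AddCircle (1 : ℚ)}
    (hx : I.IsClassInv h x t) (hx' : I.IsClassInv h x' t') :
    I.IsClassInv h (x + x') (t + t') := by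
  obtain ⟨M, hM, fd, nm, a, a'⟩ := hx.exists_common hx'
  exact ⟨M, hM, fd, nm, a.add a'⟩

theorem IsClassInv.neg {h : E ≤ E'} [Normal E (layer h)]
    {x : groupCohomology (ideleClassRep (layer h) (LayerGal h)) 2} {t : AddCircle (1 : ℚ)}
    (hx : I.IsClassInv h x t) : I.IsClassInv h (-x) (-t) := by
  obtain ⟨M, hM, fd, nm, a⟩ := hx
  exact ⟨M, hM, fd, nm, a.neg⟩

/-- **Local–global formula**: the image of `z ∈ H²(Gal(E'/E), J_{E'})` has invariant `invJ z`. -/
theorem isClassInv_layerH2g (h : E ≤ E') [FiniteDimensional k E'] [Normal E (layer h)]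
    (z : groupCohomology (ideleRep (layer h) (LayerGal h)) 2) (hz : ∃ n : ℕ, p ^ n • z = 0) :
    I.IsClassInv h ((layerH2g h).hom z) (I.invJ h z) := by
  haveI hn : Normal E (layer (h.trans (le_refl E'))) := ‹Normal E (layer h)›
  obtain ⟨n, hn'⟩ := hz
  refine ⟨E', le_rfl, inferInstance, hn, (ideleLayerInfl h (le_refl E') 2).hom z, ⟨n, ?_⟩, ?_, ?_⟩
  · rw [← map_nsmul, hn', map_zero]
  · rw [← classLayerMap_layerH2g]
  · exact I.invJ_ideleLayerInfl h (le_refl E') z ⟨n, hn'⟩

theorem isClassInv_zero (h : E ≤ E') [FiniteDimensional k E'] [Normal E (layer h)] :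
    I.IsClassInv h 0 0 := by
  have := isClassInv_layerH2g (I := I) h 0 ⟨0, smul_zero _⟩
  rwa [map_zero, map_zero] at this

/-- **Inflation does not change the invariant.** -/
theorem IsClassInv.infl {h : E ≤ E'} (hE'F' : E' ≤ F') [FiniteDimensional k F']
    [Normal E (layer h)] [Normal E (layer (h.trans hE'F'))]
    {x : groupCohomology (ideleClassRep (layer h) (LayerGal h)) 2} {t : AddCircle (1 : ℚ)}
    (hx : I.IsClassInv h x t) :
    I.IsClassInv (h.trans hE'F') ((classLayerInfl h hE'F' 2).hom x) t := by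
  obtain ⟨M, hM, fd, nm, a⟩ := hx
  haveI hn : Normal E (layer ((h.trans hM).trans le_sup_left : E ≤ M ⊔ F')) :=
    LayerUnramData.normal_layer_sup (h.trans hM) (h.trans hE'F')
  haveI hn1 : Normal E (layer (h.trans (hM.trans (le_sup_left : M ≤ M ⊔ F')))) := hn
  haveI hn2 : Normal E (layer ((h.trans hE'F').trans (le_sup_right : F' ≤ M ⊔ F'))) := hn
  obtain ⟨w, hwp, hw, hwt⟩ := a.mono (le_sup_left : M ≤ M ⊔ F')
  refine ⟨M ⊔ F', le_sup_right, inferInstance, hn2, w, hwp, ?_, hwt⟩
  rw [hw]
  exact (classLayerMap_comp_apply h (h.trans hE'F') ((h.trans hE'F').trans le_sup_right)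
    le_rfl hE'F' le_rfl le_sup_right 2 x).symm

/-- **Restriction multiplies the invariant by the degree.** -/
theorem IsClassInv.rest (hEF : E ≤ F) (hFF' : F ≤ F') [FiniteDimensional k F']
    [Normal E (layer (hEF.trans hFF'))] [Normal F (layer hFF')]
    {x : groupCohomology (ideleClassRep (layer (hEF.trans hFF')) (LayerGal (hEF.trans hFF'))) 2}
    {t : AddCircle (1 : ℚ)} (hx : I.IsClassInv (hEF.trans hFF') x t) :
    I.IsClassInv hFF' ((classLayerRest hEF hFF' 2).hom x) (Module.finrank E (layer hEF) • t) := by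
  obtain ⟨M, hM, fd, nm, w, ⟨n, hn⟩, hw, hwt⟩ := hx
  haveI hn1 : Normal E (layer (hEF.trans (hFF'.trans hM))) := nm
  haveI hn2 : Normal F (layer (hFF'.trans hM)) :=
    LayerInvSystem.normal_layer_of_normal_trans hEF (hFF'.trans hM)
  refine ⟨M, hM, fd, hn2, (ideleLayerRest hEF (hFF'.trans hM) 2).hom w, ⟨n, ?_⟩, ?_, ?_⟩
  · rw [← map_nsmul, hn, map_zero]
  · rw [← classLayerMap_layerH2g]
    have h1 : (classLayerRest hEF (hFF'.trans hM) 2).hom
        ((layerH2g (hEF.trans (hFF'.trans hM))).hom w) =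
        (classLayerRest hEF (hFF'.trans hM) 2).hom
          ((classLayerInfl (hEF.trans hFF') hM 2).hom x) := congrArg _ hw
    refine h1.trans ?_
    refine (classLayerMap_comp_apply (hEF.trans hFF') (hEF.trans (hFF'.trans hM))
      (hFF'.trans hM) le_rfl hM hEF le_rfl 2 x).trans ?_
    exact (classLayerMap_comp_apply (hEF.trans hFF') hFF' (hFF'.trans hM) hEF le_rfl le_rfl hM
      2 x).symm
  · rw [← hwt]
    exact I.invJ_ideleLayerRest hEF (hFF'.trans hM) w ⟨n, hn⟩

/-! ### Existence of invariants: cyclic layers and the Artin–Tate comparison -/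

variable (I)

/-- The class-formation inputs over an `IdeleInvSystem`: vanishing of `H¹` for cyclic layers of
`p`-power order, the bound on the `p`-power torsion of `H²` (second inequality), and the value
`1/p^a` on cyclic layers of order `p^a` (first inequality + local theory). -/
structure ClassFormation : Prop where
  isZero_H1 : ∀ {E E' : IntermediateField k Ω} (h : E ≤ E') [FiniteDimensional k E']
    [Normal E (layer h)] [IsCyclic (LayerGal h)] (a : ℕ), Nat.card (LayerGal h) = p ^ a →
    Limits.IsZero (groupCohomology (ideleClassRep (layer h) (LayerGal h)) 1)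
  card_H2_le : ∀ {E E' : IntermediateField k Ω} (h : E ≤ E') [FiniteDimensional k E']
    [Normal E (layer h)],
    Finite (pPowerTorsion (groupCohomology (ideleClassRep (layer h) (LayerGal h)) 2) p) ∧
      Nat.card (pPowerTorsion (groupCohomology (ideleClassRep (layer h) (LayerGal h)) 2) p) ≤
        p ^ (Nat.card (LayerGal h)).factorization p
  exists_invJ_eq : ∀ {E E' : IntermediateField k Ω} (h : E ≤ E') [FiniteDimensional k E']
    [Normal E (layer h)] [IsCyclic (LayerGal h)] (a : ℕ), Nat.card (LayerGal h) = p ^ a →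
    ∃ z, I.invJ h z = ((((1 : ℚ) / ((p ^ a : ℕ) : ℚ) : ℚ)) : AddCircle (1 : ℚ))

variable {I}

/-- **The invariant of a cyclic layer of `p`-power order.** -/
theorem exists_layerCyclicInv [CharZero k] (hCF : I.ClassFormation) (h : E ≤ E')
    [FiniteDimensional k E'] [Normal E (layer h)] [IsCyclic (LayerGal h)] (a : ℕ)
    (hcard : Nat.card (LayerGal h) = p ^ a) :
    ∃ ψ : groupCohomology (ideleClassRep (layer h) (LayerGal h)) 2 →+ AddCircle (1 : ℚ),
      Function.Injective ψ ∧ (∀ y, ψ ((layerH2g h).hom y) = I.invJ h y) ∧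
      ψ.range = AddSubgroup.zmultiples
        ((((1 : ℚ) / ((p ^ a : ℕ) : ℚ) : ℚ)) : AddCircle (1 : ℚ)) ∧
      Function.Surjective (layerH2g h).hom := by
  haveI := finiteDimensional_layer_of_fd' h
  have hfinG : Finite (LayerGal h) := inferInstance
  -- every class is `p`-power torsion
  have htors : ∀ x : groupCohomology (ideleClassRep (layer h) (LayerGal h)) 2,
      x ∈ pPowerTorsion (groupCohomology (ideleClassRep (layer h) (LayerGal h)) 2) p := by
    intro x
    refine ⟨a, ?_⟩
    rw [← hcard]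
    exact card_nsmul_groupCohomology_eq_zero (ideleClassRep (layer h) (LayerGal h)) 1 x
  obtain ⟨hfinT, hcardT⟩ := hCF.card_H2_le h
  have hfact : (Nat.card (LayerGal h)).factorization p = a := by
    rw [hcard, Nat.Prime.factorization_pow hp.out, Finsupp.single_eq_same]
  let e : groupCohomology (ideleClassRep (layer h) (LayerGal h)) 2 ≃
      pPowerTorsion (groupCohomology (ideleClassRep (layer h) (LayerGal h)) 2) p :=
    { toFun := fun x => ⟨x, htors x⟩
      invFun := fun x => x.1
      left_inv := fun _ => rfl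
      right_inv := fun _ => rfl }
  haveI hfinH : Finite (groupCohomology (ideleClassRep (layer h) (LayerGal h)) 2) :=
    Finite.of_equiv _ e.symm
  have hsecond : Nat.card (groupCohomology (ideleClassRep (layer h) (LayerGal h)) 2) ≤
      Nat.card (LayerGal h) := by
    rw [Nat.card_congr e, hcard]
    rw [hfact] at hcardT
    exact hcardT
  have hrec : ∀ x, I.invJ h ((ideleH2f E (I.principal h)).hom x) = 0 := by
    intro x
    refine I.invJ_principal h x ⟨a, ?_⟩
    rw [← hcard]
    exact card_nsmul_groupCohomology_eq_zero (Rep.ofAlgebraAutOnUnits E (layer h)) 1 x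
  have hval : ∃ z, I.invJ h z = ((((1 : ℚ) / (Nat.card (LayerGal h) : ℚ) : ℚ)) :
      AddCircle (1 : ℚ)) := by
    rw [hcard]
    exact hCF.exists_invJ_eq h a hcard
  obtain ⟨ψ, hψinj, hψg, hψrange, -⟩ := exists_cyclicLayerInv (K := E) (L := layer h)
    (I.principal h) (I.principal_injective h) (I.invJ h) hrec hsecond hval
  refine ⟨ψ, hψinj, hψg, ?_, ?_⟩
  · rw [hψrange, hcard]
  · exact (ideleCyclicLayer_exact (K := E) (L := layer h) (I.principal h)
      (I.principal_injective h) (hCF.isZero_H1 h a hcard)).2.2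

/-- **Artin–Tate for layers.**  `E'/E` a finite normal layer, `a = v_p [E' : E]`, `C/E` a cyclic
layer of order `p^a`, `M ⊇ E', C` finite normal over `E` with `M/E'` cyclic of `p`-power order.
Then the `p`-power torsion of `H²(Gal(E'/E), C_{E'})` carries an injective additive invariant with
image `(1/p^a)ℤ/ℤ` which satisfies `IsClassInv`. -/
theorem exists_classInv_of_cyclic [CharZero k] (hCF : I.ClassFormation) (h : E ≤ E')
    {C : IntermediateField k Ω} (hEC : E ≤ C) (hE'M : E' ≤ M) (hCM : C ≤ M)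
    [FiniteDimensional k E'] [FiniteDimensional k C] [FiniteDimensional k M]
    [Normal E (layer h)] [Normal E (layer hEC)] [Normal E (layer (h.trans hE'M))]
    [IsCyclic (LayerGal hEC)] [IsCyclic (LayerGal hE'M)] (a b : ℕ)
    (ha : (Nat.card (LayerGal h)).factorization p = a)
    (hcardC : Nat.card (LayerGal hEC) = p ^ a) (hcardM : Nat.card (LayerGal hE'M) = p ^ b) :
    ∃ inv : pPowerTorsion (groupCohomology (ideleClassRep (layer h) (LayerGal h)) 2) p →+
        AddCircle (1 : ℚ),
      Function.Injective inv ∧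
      inv.range = AddSubgroup.zmultiples
        ((((1 : ℚ) / ((p ^ a : ℕ) : ℚ) : ℚ)) : AddCircle (1 : ℚ)) ∧
      ∀ x, I.IsClassInv h x.1 (inv x) := by
  haveI hnM : Normal E (layer (hEC.trans hCM)) := ‹Normal E (layer (h.trans hE'M))›
  haveI hnCM : Normal C (layer hCM) := LayerInvSystem.normal_layer_of_normal_trans hEC hCM
  haveI hnE'M : Normal E' (layer hE'M) := LayerInvSystem.normal_layer_of_normal_trans h hE'M
  haveI := finiteDimensional_layer_of_fd' h
  haveI := isGalois_layer_of_normal_of_fd h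
  obtain ⟨ψC, hψCinj, hψCg, hψCrange, hsurjC⟩ := exists_layerCyclicInv hCF hEC a hcardC
  obtain ⟨ψM, hψMinj, hψMg, -, -⟩ := exists_layerCyclicInv hCF hE'M b hcardM
  -- all idele classes of the layer `C/E` are `p`-power torsion
  have htorsC : ∀ w : groupCohomology (ideleRep (layer hEC) (LayerGal hEC)) 2,
      ∃ n : ℕ, p ^ n • w = 0 := by
    intro w
    haveI := finiteDimensional_layer_of_fd' hEC
    refine ⟨a, ?_⟩
    rw [← hcardC]
    exact card_nsmul_groupCohomology_eq_zero (ideleRep (layer hEC) (LayerGal hEC)) 1 w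
  -- the three maps
  let i₁ := (classLayerInfl hEC hCM 2).hom.toAddMonoidHom
  let i₂ := (classLayerInfl h hE'M 2).hom.toAddMonoidHom
  let r := (classLayerRest h hE'M 2).hom.toAddMonoidHom
  -- inflation from the cyclic layer is injective: reciprocity + uniqueness of the invariant
  have hi₁ : Function.Injective i₁ := by
    rw [injective_iff_map_eq_zero]
    intro y hy
    obtain ⟨w, rfl⟩ := hsurjC y
    have h1 : I.IsClassInv (hEC.trans hCM)
        ((classLayerInfl hEC hCM 2).hom ((layerH2g hEC).hom w)) (I.invJ hEC w) :=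
      (isClassInv_layerH2g hEC w (htorsC w)).infl hCM
    have h2 : (classLayerInfl hEC hCM 2).hom ((layerH2g hEC).hom w) = 0 := hy
    rw [h2] at h1
    have h3 : I.invJ hEC w = 0 := h1.unique (isClassInv_zero (hEC.trans hCM))
    apply hψCinj
    rw [hψCg, h3, map_zero]
  have hi₂ : Function.Injective i₂ :=
    classLayerInfl_injective h hE'M (I.principal hE'M) (I.principal_injective hE'M)
      (hCF.isZero_H1 hE'M b hcardM)
  have hexact : ∀ z, r z = 0 → ∃ x, i₂ x = z := fun z hz =>
    exists_classLayerInfl_eq_of_classLayerRest_eq_zero h hE'M (I.principal hE'M)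
      (I.principal_injective hE'M) (hCF.isZero_H1 hE'M b hcardM) z hz
  have hd : p ^ a ∣ Module.finrank E (layer h) := by
    rw [← IsGalois.card_aut_eq_finrank E (layer h), ← ha]
    exact Nat.ordProj_dvd _ _
  have hcompat : ∀ y, ψM (r (i₁ y)) = Module.finrank E (layer h) • ψC y := by
    intro y
    obtain ⟨w, rfl⟩ := hsurjC y
    have h1 : r (i₁ ((layerH2g hEC).hom w)) =
        (classLayerMap hEC hE'M h hCM 2).hom ((layerH2g hEC).hom w) :=
      classLayerMap_comp_apply hEC (hEC.trans hCM) hE'M le_rfl hCM h le_rfl 2 _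
    rw [h1, classLayerMap_layerH2g, hψMg, hψCg]
    exact I.invJ_layerMap hEC hE'M h hCM w (htorsC w)
  obtain ⟨hfin₂, hcard₂⟩ := hCF.card_H2_le h
  rw [ha] at hcard₂
  obtain ⟨inv, hinvinj, hinvrange, hinvchar, hinvex, -, -⟩ :=
    exists_pPrimaryInv_of_card i₁ i₂ r hi₁ hi₂ hexact p a (Module.finrank E (layer h)) hd
      ψC hψCinj hψCrange ψM hψMinj hcompat hfin₂ hcard₂
  refine ⟨inv, hinvinj, hinvrange, fun x => ?_⟩
  obtain ⟨y, hy⟩ := hinvex x
  obtain ⟨w, rfl⟩ := hsurjC y
  obtain ⟨n, hn⟩ := htorsC w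
  refine ⟨M, hE'M, inferInstance, inferInstance, (ideleLayerInfl hEC hCM 2).hom w, ⟨n, ?_⟩, ?_, ?_⟩
  · rw [← map_nsmul, hn, map_zero]
  · rw [← classLayerMap_layerH2g]
    exact hy
  · rw [hinvchar x _ hy, hψCg]
    exact I.invJ_ideleLayerInfl hEC hCM w ⟨n, hn⟩

/-! ### The global invariant -/

variable (p k Ω) in
/-- Over every finite `E` there are cyclic layers of every `p`-power order (the cyclotomic
`ℤ_p`-tower). -/
def HasCyclicLayers : Prop :=
  ∀ (E : IntermediateField k Ω) [FiniteDimensional k E] (a : ℕ),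
    ∃ (C : IntermediateField k Ω) (hEC : E ≤ C), FiniteDimensional k C ∧ Normal E (layer hEC) ∧
      IsCyclic (LayerGal hEC) ∧ Nat.card (LayerGal hEC) = p ^ a

lemma finiteDimensional_of_le_of_fd (h : E ≤ E') [FiniteDimensional k E'] :
    FiniteDimensional k E :=
  FiniteDimensional.of_injective (IntermediateField.inclusion h).toLinearMap
    (IntermediateField.inclusion h).injective

/-- **Existence of the global invariant** on the `p`-power torsion of `H²(Gal(E'/E), C_{E'})`. -/
theorem exists_classInv [CharZero k] (hCF : I.ClassFormation) (hcyc : HasCyclicLayers p k Ω)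
    (h : E ≤ E') [FiniteDimensional k E'] [Normal E (layer h)] :
    ∃ inv : pPowerTorsion (groupCohomology (ideleClassRep (layer h) (LayerGal h)) 2) p →+
        AddCircle (1 : ℚ),
      Function.Injective inv ∧
      inv.range = AddSubgroup.zmultiples
        ((((1 : ℚ) / ((p ^ (Nat.card (LayerGal h)).factorization p : ℕ) : ℚ) : ℚ)) :
          AddCircle (1 : ℚ)) ∧
      ∀ x, I.IsClassInv h x.1 (inv x) := by
  haveI := finiteDimensional_of_le_of_fd h
  obtain ⟨C, hEC, hfdC, hnC, hcycC, hcardC⟩ := hcyc E ((Nat.card (LayerGal h)).factorization p)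
  haveI hnM : Normal E (layer (h.trans le_sup_left : E ≤ E' ⊔ C)) :=
    LayerUnramData.normal_layer_sup h hEC
  haveI := finiteDimensional_layer_of_fd' hEC
  haveI : Finite (LayerGal hEC) := inferInstance
  obtain ⟨hcycM, b, hcardM⟩ := isCyclic_layerGal_of_sup hp.out h hEC
    (le_sup_left : E' ≤ E' ⊔ C) (le_sup_right : C ≤ E' ⊔ C) le_rfl hcardC
  exact exists_classInv_of_cyclic hCF h hEC (le_sup_left : E' ≤ E' ⊔ C)
    (le_sup_right : C ≤ E' ⊔ C) _ b rfl hcardC hcardM

/-- **The global invariant** of a finite normal layer, on the `p`-power torsion of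
`H²(Gal(E'/E), C_{E'})`. -/
noncomputable def classInv [CharZero k] (hCF : I.ClassFormation) (hcyc : HasCyclicLayers p k Ω)
    (h : E ≤ E') [FiniteDimensional k E'] [Normal E (layer h)] :
    pPowerTorsion (groupCohomology (ideleClassRep (layer h) (LayerGal h)) 2) p →+
      AddCircle (1 : ℚ) :=
  Classical.choose (exists_classInv hCF hcyc h)

section ClassInv

variable [CharZero k] (hCF : I.ClassFormation) (hcyc : HasCyclicLayers p k Ω)

theorem classInv_injective (h : E ≤ E') [FiniteDimensional k E'] [Normal E (layer h)] :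
    Function.Injective (classInv hCF hcyc h) :=
  (Classical.choose_spec (exists_classInv hCF hcyc h)).1

theorem range_classInv (h : E ≤ E') [FiniteDimensional k E'] [Normal E (layer h)] :
    (classInv hCF hcyc h).range = AddSubgroup.zmultiples
      ((((1 : ℚ) / ((p ^ (Nat.card (LayerGal h)).factorization p : ℕ) : ℚ) : ℚ)) :
        AddCircle (1 : ℚ)) :=
  (Classical.choose_spec (exists_classInv hCF hcyc h)).2.1

theorem isClassInv_classInv (h : E ≤ E') [FiniteDimensional k E'] [Normal E (layer h)]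
    (x : pPowerTorsion (groupCohomology (ideleClassRep (layer h) (LayerGal h)) 2) p) :
    I.IsClassInv h x.1 (classInv hCF hcyc h x) :=
  (Classical.choose_spec (exists_classInv hCF hcyc h)).2.2 x

/-- The invariant is characterised by the relation `IsClassInv`. -/
theorem classInv_eq_of_isClassInv (h : E ≤ E') [FiniteDimensional k E'] [Normal E (layer h)]
    (x : pPowerTorsion (groupCohomology (ideleClassRep (layer h) (LayerGal h)) 2) p)
    {t : AddCircle (1 : ℚ)} (ht : I.IsClassInv h x.1 t) : classInv hCF hcyc h x = t :=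
  (isClassInv_classInv hCF hcyc h x).unique ht

/-- **Inflation does not change the global invariant.** -/
theorem classInv_infl (h : E ≤ E') (hE'F' : E' ≤ F') [FiniteDimensional k E']
    [FiniteDimensional k F'] [Normal E (layer h)] [Normal E (layer (h.trans hE'F'))]
    (x : pPowerTorsion (groupCohomology (ideleClassRep (layer h) (LayerGal h)) 2) p)
    (hx : (classLayerInfl h hE'F' 2).hom x.1 ∈ pPowerTorsion _ p) :
    classInv hCF hcyc (h.trans hE'F') ⟨(classLayerInfl h hE'F' 2).hom x.1, hx⟩ =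
      classInv hCF hcyc h x :=
  classInv_eq_of_isClassInv hCF hcyc (h.trans hE'F') ⟨_, hx⟩
    ((isClassInv_classInv hCF hcyc h x).infl hE'F')

/-- **Restriction multiplies the global invariant by the degree.** -/
theorem classInv_rest (hEF : E ≤ F) (hFF' : F ≤ F') [FiniteDimensional k F']
    [Normal E (layer (hEF.trans hFF'))] [Normal F (layer hFF')]
    (x : pPowerTorsion (groupCohomology
      (ideleClassRep (layer (hEF.trans hFF')) (LayerGal (hEF.trans hFF'))) 2) p)
    (hx : (classLayerRest hEF hFF' 2).hom x.1 ∈ pPowerTorsion _ p) :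
    classInv hCF hcyc hFF' ⟨(classLayerRest hEF hFF' 2).hom x.1, hx⟩ =
      Module.finrank E (layer hEF) • classInv hCF hcyc (hEF.trans hFF') x :=
  classInv_eq_of_isClassInv hCF hcyc hFF' ⟨_, hx⟩
    ((isClassInv_classInv hCF hcyc (hEF.trans hFF') x).rest hEF hFF')

/-- **Local–global formula**: the global invariant of the image of a `p`-power torsion class
`z ∈ H²(Gal(E'/E), J_{E'})` is the idelic invariant `invJ z` (the sum of the local invariants). -/
theorem classInv_layerH2g (h : E ≤ E') [FiniteDimensional k E'] [Normal E (layer h)]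
    (z : groupCohomology (ideleRep (layer h) (LayerGal h)) 2) (hz : ∃ n : ℕ, p ^ n • z = 0)
    (hx : (layerH2g h).hom z ∈ pPowerTorsion _ p) :
    classInv hCF hcyc h ⟨(layerH2g h).hom z, hx⟩ = I.invJ h z :=
  classInv_eq_of_isClassInv hCF hcyc h ⟨_, hx⟩ (isClassInv_layerH2g h z hz)

end ClassInv

end IdeleInvSystem

end Fermat.Agent.CFT
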