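import Fermat.Agent.CFT.Global.SemiLocalH
import Fermat.Agent.CFT.Global.IdeleSeq
import Fermat.Agent.CFT.Global.SModules
import Fermat.Agent.CFT.Local.LayerInv

/-!
# Layer C6: the idele invariant `invJ = Σ_v inv_v ∘ loc_v` (definitions)

Input: a family `I` of local invariant systems (`LayerInvSystem ℚ_q ℚ̄_q`, one for each prime `q`;
produced by Layer B).  For a finite Galois extension `L/K` of number fields with group
`H = Gal(L/K)`:

* `ideleProjHom K q : J_L ⟶ A_q(L)`, the projection of the idele module to the semi-local units;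
* `semiLocalInvAt I K τ' : H²(H, A_q L) →+ ℚ/ℤ`, the local invariant at an embedding
  `τ' : L → ℚ̄_q`: localise (`semiLocalLoc`), transport to `Gal(L_τ'/K_τ)` (`localUnitsCohIso`),
  apply `(I q).inv`;
* `semiLocalInv I K q`, the sum over the places `ω` of `K` above `q` (at the chosen lifts
  `placeLift K ω`);
* `invJFun I K x = Σᶠ_q semiLocalInv (pr_q x)`, additive on classes with finite support
  (`invJFun_add`), in particular `invJ I K hfin : H²(H, J_L) →+ ℚ/ℤ` when all classes have finite
  support (`hfin`; true for number fields because almost all components of a cocycle are unramified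
  units).
-/

set_option autoImplicit false
set_option linter.unusedSectionVars false
set_option linter.style.haveILetI false

open CategoryTheory groupCohomology

noncomputable section

namespace Fermat.Agent.CFT

open GaloisTower

/-- A family of local invariant systems, one for every prime. -/
abbrev LocalInvFamily : Type :=
  ∀ q : Nat.Primes, LayerInvSystem ℚ_[((q : Nat.Primes) : ℕ)] (PadicAlgCl ((q : Nat.Primes) : ℕ))

variable (I : LocalInvFamily) (K : Type) [Field K] {L : Type} [Field L] [Algebra K L]
  [Normal K L]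

/-- The projection `J_L ⟶ A_q(L)` as a morphism of representations. -/
def ideleProjHom (q : Nat.Primes) :
    ideleRep L (L ≃ₐ[K] L) ⟶ semiLocalRep L (L ≃ₐ[K] L) ((q : Nat.Primes) : ℕ) :=
  mulRepHom
    { toFun := fun x : ideleGroup L => (x : IdeleProd L) q
      map_one' := rfl
      map_mul' := fun _ _ => rfl }
    (fun _ _ => rfl)

@[simp]
theorem ideleProjHom_apply (q : Nat.Primes) (x : Additive (ideleGroup L)) :
    ((ideleProjHom K q).hom x : Additive (semiLocalUnits ((q : Nat.Primes) : ℕ) L)) =
      Additive.ofMul (((Additive.toMul x : ideleGroup L) : IdeleProd L) q) := rfl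

/-- The localisation `H²(H, A_q L) → H²(Gal(L_τ'/K_τ), L_τ'ˣ)` at an embedding `τ'`. -/
def semiLocalLocAt (q : Nat.Primes) (τ' : LocalEmb ((q : Nat.Primes) : ℕ) L) :
    groupCohomology (semiLocalRep L (L ≃ₐ[K] L) ((q : Nat.Primes) : ℕ)) 2 →+
      groupCohomology (Rep.ofAlgebraAutOnUnits (localFieldAt (localEmbRestrict K τ'))
        (localLayer K τ')) 2 :=
  (localUnitsCohIso K τ' 2).hom.hom.toAddMonoidHom.comp
    (groupCohomology.map (decompAt K τ').subtype (semiLocalLoc K τ') 2).hom.toAddMonoidHom

/-- The local invariant of a class in `H²(H, A_q L)` at the embedding `τ'`. -/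
def semiLocalInvAt (q : Nat.Primes) (τ' : LocalEmb ((q : Nat.Primes) : ℕ) L) :
    groupCohomology (semiLocalRep L (L ≃ₐ[K] L) ((q : Nat.Primes) : ℕ)) 2 →+ AddCircle (1 : ℚ) :=
  ((I q).inv (localFieldAt_restrict_le K τ')).comp (semiLocalLocAt K q τ')

/-- The sum of the local invariants over the places of `K` above `q`. -/
def semiLocalInv (q : Nat.Primes) [Finite (LocalPlace ((q : Nat.Primes) : ℕ) K)] :
    groupCohomology (semiLocalRep L (L ≃ₐ[K] L) ((q : Nat.Primes) : ℕ)) 2 →+ AddCircle (1 : ℚ) where
  toFun x := ∑ᶠ ω : LocalPlace ((q : Nat.Primes) : ℕ) K, semiLocalInvAt I K q (placeLift K ω) x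
  map_zero' := by simp
  map_add' x y := by
    simp only [map_add]
    exact finsum_add_distrib (Set.toFinite _) (Set.toFinite _)

theorem semiLocalInv_apply (q : Nat.Primes) [Finite (LocalPlace ((q : Nat.Primes) : ℕ) K)]
    (x : groupCohomology (semiLocalRep L (L ≃ₐ[K] L) ((q : Nat.Primes) : ℕ)) 2) :
    semiLocalInv I K q x =
      ∑ᶠ ω : LocalPlace ((q : Nat.Primes) : ℕ) K, semiLocalInvAt I K q (placeLift K ω) x := rfl

variable [NumberField K]

/-- The `q`-component of the idele invariant. -/
def invJAt (q : Nat.Primes) :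
    groupCohomology (ideleRep L (L ≃ₐ[K] L)) 2 →+ AddCircle (1 : ℚ) :=
  (semiLocalInv I K q).comp
    (groupCohomology.map (MonoidHom.id (L ≃ₐ[K] L)) (ideleProjHom K q) 2).hom.toAddMonoidHom

/-- The idele invariant `Σ_q Σ_{v ∣ q} inv_v (loc_v x)` as a function (a finite sum for number
fields). -/
def invJFun (x : groupCohomology (ideleRep L (L ≃ₐ[K] L)) 2) : AddCircle (1 : ℚ) :=
  ∑ᶠ q : Nat.Primes, invJAt I K q x

/-- A class has finite support if almost all of its local components have invariant zero. -/
def HasFiniteInvSupport (x : groupCohomology (ideleRep L (L ≃ₐ[K] L)) 2) : Prop :=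
  (Function.support fun q : Nat.Primes => invJAt I K q x).Finite

theorem invJFun_zero : invJFun I K (0 : groupCohomology (ideleRep L (L ≃ₐ[K] L)) 2) = 0 := by
  simp [invJFun]

theorem invJFun_add {x y : groupCohomology (ideleRep L (L ≃ₐ[K] L)) 2}
    (hx : HasFiniteInvSupport I K x) (hy : HasFiniteInvSupport I K y) :
    invJFun I K (x + y) = invJFun I K x + invJFun I K y := by
  simp only [invJFun, map_add]
  exact finsum_add_distrib hx hy

/-- The idele invariant as an additive map, when all classes have finite support. -/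
def invJ (hfin : ∀ x : groupCohomology (ideleRep L (L ≃ₐ[K] L)) 2, HasFiniteInvSupport I K x) :
    groupCohomology (ideleRep L (L ≃ₐ[K] L)) 2 →+ AddCircle (1 : ℚ) where
  toFun := invJFun I K
  map_zero' := invJFun_zero I K
  map_add' x y := invJFun_add I K (hfin x) (hfin y)

@[simp]
theorem invJ_apply
    (hfin : ∀ x : groupCohomology (ideleRep L (L ≃ₐ[K] L)) 2, HasFiniteInvSupport I K x)
    (x : groupCohomology (ideleRep L (L ≃ₐ[K] L)) 2) : invJ I K hfin x = invJFun I K x := rfl

theorem invJFun_eq_sum (x : groupCohomology (ideleRep L (L ≃ₐ[K] L)) 2)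
    (T : Finset Nat.Primes) (hT : ∀ q, q ∉ T → invJAt I K q x = 0) :
    invJFun I K x = ∑ q ∈ T, invJAt I K q x :=
  finsum_eq_sum_of_support_subset _ fun q hq => by
    by_contra hqT
    exact hq (hT q hqT)

end Fermat.Agent.CFT

end
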