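import Mathlib
import Fermat.Agent.CFT.Global.ClassFormationFinal
import Fermat.Agent.CFT.Global.ClassLayerInv
import Fermat.Agent.CFT.Global.GlobalInvDef

/-!
# CFT, Layer C ([CF-INST]): the class-formation inputs of the layer invariant system

For an `IdeleInvSystem p k Ω` (`Global/ClassLayerInv.lean`) whose idelic invariant is the sum of
the local invariants `invJFun J` of a family `J` of local invariant systems, the structure
`IdeleInvSystem.ClassFormation` holds for odd `p`:

* `isZero_H1` and `card_H2_le` are the class formation inequalities of `ClassFormationFinal.lean`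
  applied to the layers `E'/E` (number fields);
* `exists_invJ_eq` is the hypothesis `hfull` (a cyclic layer of order `p^a` has an idele class of
  invariant `1/p^a`; node [HFULL]).

Also the `p`-primary vanishing of `H¹` of all finite normal layers, in the shape of the input `hH1`
of `classPLayerInvSystem` (`h1_layer_eq_zero_of_ne_two`).
-/

set_option autoImplicit false
set_option maxSynthPendingDepth 2
set_option linter.style.haveILetI false

open CategoryTheory Limits groupCohomology Rep IntermediateField

namespace Fermat.Agent.CFT

open GaloisTower

section Layers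

variable {k Ω : Type} [Field k] [NumberField k] [Field Ω] [Algebra k Ω]

/-- A finite subextension of `Ω/k` (`k` a number field) is a number field. -/
theorem numberField_of_finiteDimensional_base (E : IntermediateField k Ω)
    [FiniteDimensional k E] : NumberField E :=
  NumberField.of_module_finite k E

omit [NumberField k] in
/-- A subfield of a finite subextension of `Ω/k` is finite over `k`. -/
theorem finiteDimensional_base_of_le {E E' : IntermediateField k Ω} (h : E ≤ E')
    [FiniteDimensional k E'] : FiniteDimensional k E :=
  Module.Finite.of_injective (IntermediateField.inclusion h).toLinearMap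
    (IntermediateField.inclusion_injective h)

/-- The bottom of a finite layer is a number field. -/
theorem numberField_base_of_le {E E' : IntermediateField k Ω} (h : E ≤ E')
    [FiniteDimensional k E'] : NumberField E :=
  haveI := finiteDimensional_base_of_le h
  numberField_of_finiteDimensional_base E

/-- The top of a finite layer is a number field. -/
theorem numberField_layer_of_le {E E' : IntermediateField k Ω} (h : E ≤ E')
    [FiniteDimensional k E'] : NumberField (layer h) :=
  haveI := numberField_base_of_le h
  haveI := finiteDimensional_layer_of_fd' h
  NumberField.of_module_finite E (layer h)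

variable {p : ℕ} [hp : Fact p.Prime] (hp2 : p ≠ 2)

include hp2

/-- **`p`-primary `H¹ = 0` for all finite normal layers**, odd `p` (the input `hH1` of
`classPLayerInvSystem`). -/
theorem h1_layer_eq_zero_of_ne_two {E E' : IntermediateField k Ω} (h : E ≤ E')
    [FiniteDimensional k E'] [Normal E (layer h)]
    (x : groupCohomology (ideleClassRep (layer h) (LayerGal h)) 1)
    (hx : ∃ n : ℕ, p ^ n • x = 0) : x = 0 := by
  haveI := numberField_base_of_le h
  haveI := numberField_layer_of_le h
  haveI := isGalois_layer_of_normal_of_fd h
  have hx' : x ∈ pPowerTorsion (groupCohomology (ideleClassRep (layer h) (LayerGal h)) 1) p := hx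
  rw [pPowerTorsion_H1_ideleClass_eq_bot_of_ne_two p hp2 E (layer h)] at hx'
  exact (AddSubgroup.mem_bot).1 hx'

/-- `H¹ = 0` for finite normal layers of `p`-power degree, odd `p`. -/
theorem isZero_H1_layer_of_ne_two {E E' : IntermediateField k Ω} (h : E ≤ E')
    [FiniteDimensional k E'] [Normal E (layer h)] (a : ℕ)
    (hcard : Nat.card (LayerGal h) = p ^ a) :
    IsZero (groupCohomology (ideleClassRep (layer h) (LayerGal h)) 1) := by
  haveI := numberField_base_of_le h
  haveI := numberField_layer_of_le h
  haveI := isGalois_layer_of_normal_of_fd h
  exact isZero_H1_ideleClass_of_ne_two p hp2 E (layer h) a hcard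

/-- The `p`-part of `H²` of a finite normal layer has at most `|G|_p` elements, odd `p`. -/
theorem card_pPowerTorsion_H2_layer_le_of_ne_two {E E' : IntermediateField k Ω} (h : E ≤ E')
    [FiniteDimensional k E'] [Normal E (layer h)] :
    Finite (pPowerTorsion (groupCohomology (ideleClassRep (layer h) (LayerGal h)) 2) p) ∧
      Nat.card (pPowerTorsion (groupCohomology (ideleClassRep (layer h) (LayerGal h)) 2) p) ≤
        p ^ (Nat.card (LayerGal h)).factorization p := by
  haveI := numberField_base_of_le h
  haveI := numberField_layer_of_le h
  haveI := isGalois_layer_of_normal_of_fd h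
  exact card_pPowerTorsion_H2_ideleClass_le_of_ne_two p hp2 E (layer h)

/-- **[CF-INST]** The class-formation inputs of an idelic invariant system given by the sum of the
local invariants, for odd `p`. -/
theorem IdeleInvSystem.classFormation_of_invJFun (I : IdeleInvSystem p k Ω) (J : LocalInvFamily)
    (hI : ∀ {E E' : IntermediateField k Ω} (h : E ≤ E') [NumberField E] [Normal E (layer h)]
      (z : groupCohomology (ideleRep (layer h) (LayerGal h)) 2), I.invJ h z = invJFun J E z)
    (hfull : ∀ (K L : Type) [Field K] [Field L] [NumberField K] [NumberField L] [Algebra K L]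
      [IsGalois K L] [IsCyclic (L ≃ₐ[K] L)] (a : ℕ), Nat.card (L ≃ₐ[K] L) = p ^ a →
      ∃ x : groupCohomology (ideleRep L (L ≃ₐ[K] L)) 2,
        invJFun J K x = ((((1 : ℚ) / ((p ^ a : ℕ) : ℚ) : ℚ)) : AddCircle (1 : ℚ))) :
    I.ClassFormation where
  isZero_H1 h _ _ _ a hcard := isZero_H1_layer_of_ne_two hp2 h a hcard
  card_H2_le h _ _ := card_pPowerTorsion_H2_layer_le_of_ne_two hp2 h
  exists_invJ_eq := by
    intro E E' h _ _ _ a hcard
    haveI := numberField_base_of_le h
    haveI := numberField_layer_of_le h
    haveI := isGalois_layer_of_normal_of_fd h
    obtain ⟨x, hx⟩ := hfull E (layer h) a hcard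
    exact ⟨x, (hI h x).trans hx⟩

end Layers

end Fermat.Agent.CFT
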