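import Fermat.Agent.CFT.Global.ClassLayerInvQ

/-!
# The `p`-primary invariant system of the idele class groups over `ℚ` (C6d, final assembly)

For `p` odd, an `IdeleInvSystem p ℚ ℚ̄` (idelic invariants with `p`-primary reciprocity) whose
invariant takes the value `1/p^a` on cyclic layers of order `p^a`, and a class `Adm` of number
fields stable under passing to subfields of `E(μ_{p^m})`, we obtain
`classPLayerInvSystemQ : PLayerInvSystem (classCoeff ℚ ℚ̄) Adm p` together with the local–global
formula.  All class-formation inputs are discharged (`ClassLayerInvQ.lean`).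
-/

set_option autoImplicit false
set_option linter.style.haveILetI false
set_option linter.unusedSectionVars false
set_option maxSynthPendingDepth 2

open CategoryTheory groupCohomology IntermediateField

namespace Fermat.Agent.CFT

open GaloisTower LayerMaps

namespace IdeleInvSystem

variable {p : ℕ} [hp : Fact p.Prime] (hp2 : p ≠ 2)
  (I : IdeleInvSystem p ℚ (AlgebraicClosure ℚ))
  (hval : ∀ {E E' : IntermediateField ℚ (AlgebraicClosure ℚ)} (h : E ≤ E')
    [FiniteDimensional ℚ E'] [Normal E (layer h)] [IsCyclic (LayerGal h)] (a : ℕ),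
    Nat.card (LayerGal h) = p ^ a →
    ∃ z, I.invJ h z = ((((1 : ℚ) / ((p ^ a : ℕ) : ℚ) : ℚ)) : AddCircle (1 : ℚ)))
  (Adm : IntermediateField ℚ (AlgebraicClosure ℚ) → Prop)
  (hfd : ∀ {E : IntermediateField ℚ (AlgebraicClosure ℚ)}, Adm E → FiniteDimensional ℚ E)
  (hAdm : ∀ (E C : IntermediateField ℚ (AlgebraicClosure ℚ)) (m : ℕ), Adm E → E ≤ C →
    C ≤ E ⊔ adjoin ℚ {x : AlgebraicClosure ℚ | x ^ (p ^ m) = 1} → Adm C)

/-- **The `p`-primary invariant system of the idele class groups of the number fields in `ℚ̄`**,
`p` odd. -/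
noncomputable def classPLayerInvSystemQ :
    PLayerInvSystem (classCoeff ℚ (AlgebraicClosure ℚ)) Adm p :=
  classPLayerInvSystem (I.classFormation_of_ne_two hp2 hval) (hasCyclicLayers_rat hp2) Adm hfd
    (exists_adm_cyclic_layer hp2 Adm hfd hAdm)
    (fun h hadm _ x hx => by
      haveI := hfd hadm
      exact eq_zero_of_pow_nsmul_H1_classLayer p hp2 h x hx)

variable {E E' : IntermediateField ℚ (AlgebraicClosure ℚ)}

/-- **Local–global formula**: on the image of a `p`-power torsion class `z ∈ H²(Gal(E'/E), J_{E'})`
the invariant is the idelic invariant `invJ z` (the sum of the local invariants). -/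
theorem classPLayerInvSystemQ_inv_ideleToClassLayer (h : E ≤ E') [FiniteDimensional ℚ E']
    [Normal E (layer h)] (z : groupCohomology ((ideleCoeff ℚ (AlgebraicClosure ℚ)).M h) 2)
    (hz : ∃ n : ℕ, p ^ n • z = 0) :
    (classPLayerInvSystemQ hp2 I hval Adm hfd hAdm).inv h ((ideleToClassLayer h 2).hom z) =
      I.invJ h z :=
  classInvTotal_ideleToClassLayer (I.classFormation_of_ne_two hp2 hval) (hasCyclicLayers_rat hp2)
    h z hz

/-- On `p`-power torsion classes the invariant is the injective map `classInv`. -/
theorem classPLayerInvSystemQ_inv_of_mem (h : E ≤ E') [FiniteDimensional ℚ E']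
    [Normal E (layer h)] {x : groupCohomology (ideleClassRep (layer h) (LayerGal h)) 2}
    (hx : x ∈ pPowerTorsion _ p) :
    (classPLayerInvSystemQ hp2 I hval Adm hfd hAdm).inv h x =
      classInv (I.classFormation_of_ne_two hp2 hval) (hasCyclicLayers_rat hp2) h ⟨x, hx⟩ :=
  classInvTotal_of_mem _ _ h hx

/-- The image of the invariant on the `p`-power torsion of a finite normal layer is
`(1/p^{v_p [E':E]})ℤ/ℤ`. -/
theorem range_classInv_Q (h : E ≤ E') [FiniteDimensional ℚ E'] [Normal E (layer h)] :
    (classInv (I.classFormation_of_ne_two hp2 hval) (hasCyclicLayers_rat hp2) h).range =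
      AddSubgroup.zmultiples
        ((((1 : ℚ) / ((p ^ (Nat.card (LayerGal h)).factorization p : ℕ) : ℚ) : ℚ)) :
          AddCircle (1 : ℚ)) :=
  range_classInv _ _ h

end IdeleInvSystem

end Fermat.Agent.CFT
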