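import Mathlib
import Fermat.Agent.CFT.GaloisTower

/-!
# C6t: the cyclotomic `ℤ_p`-tower over a number field (helper16)

For an odd prime `p` and a number field `K ⊆ ℚ̄` there is a monotone chain
`K = E 0 ≤ E 1 ≤ E 2 ≤ ...` of subfields of `ℚ̄`, finite over `ℚ`, with `E a / K` cyclic Galois of
degree `p ^ a` and `E a ≤ K(μ_{p^m})` for some `m`.

* `exists_subgroup_index_eq`: a finite cyclic group has, for `d ∣ |G|`, a normal subgroup of
  index `d` consisting of `d`-th powers.
* `exists_sub_of_dvd`: inside a finite cyclic Galois `M/F`, for `d ∣ [M:F]` a cyclic Galois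
  sub-extension of degree `d` containing every Galois sub-extension of degree dividing `d`.
* `cycloField F Ω p m = F(μ_{p^m})` inside `Ω`; `cycloField_mono`, `cycloField_eq_adjoin`,
  `cycloField_props` (finite, Galois, cyclic for `p` odd).
* `exists_tower`: the tower over `F`, given `p ^ a ∣ [F(μ_{p^(a+c)}) : F]`.
* `finrank_adjoin_dvd`, `exists_pow_dvd_finrank_cycloField`: the degree growth for `F/k` finite
  when the `p`-power cyclotomic polynomials are irreducible over `k`.
* `exists_tower_intermediateField`, `exists_cyclotomic_tower` (the `GaloisTower.layer` form over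
  `ℚ̄`), `exists_cyclic_cyclotomic` (Type-level corollary).
-/

set_option autoImplicit false
set_option linter.style.haveILetI false

namespace Fermat.Agent.CFT.CycloTower

open IntermediateField

section Group

/-- In a finite cyclic group, for `d ∣ |G|` there is a normal subgroup of index `d` all of whose
elements are `d`-th powers. -/
theorem exists_subgroup_index_eq {G : Type*} [Group G] [Finite G] [IsCyclic G] {d : ℕ}
    (hd : d ∣ Nat.card G) :
    ∃ H : Subgroup G, H.Normal ∧ H.index = d ∧ (∀ h ∈ H, ∃ τ : G, τ ^ d = h) := by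
  obtain ⟨g, hg⟩ := IsCyclic.exists_generator (α := G)
  have hcomm : ∀ a b : G, a * b = b * a := fun a b =>
    (IsCyclic.commGroup (α := G)).mul_comm a b
  refine ⟨Subgroup.zpowers (g ^ d), ⟨fun n hn x => ?_⟩, ?_, ?_⟩
  · rwa [hcomm x n, mul_inv_cancel_right]
  · have hpos : 0 < Nat.card G := Nat.card_pos
    have hdpos : 0 < d := Nat.pos_of_dvd_of_pos hd hpos
    have hcard : Nat.card (Subgroup.zpowers (g ^ d)) = Nat.card G / d := by
      rw [Nat.card_zpowers, orderOf_pow, orderOf_eq_card_of_forall_mem_zpowers hg,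
        Nat.gcd_eq_right hd]
    have h1 := Subgroup.card_mul_index (Subgroup.zpowers (g ^ d))
    rw [hcard] at h1
    obtain ⟨e, he⟩ := hd
    rw [he, Nat.mul_div_cancel_left _ hdpos] at h1
    have hepos : 0 < e := by
      rcases Nat.eq_zero_or_pos e with h | h
      · rw [h, mul_zero] at he; omega
      · exact h
    rw [mul_comm d e] at h1
    exact Nat.eq_of_mul_eq_mul_left hepos h1
  · rintro h ⟨k, rfl⟩
    refine ⟨g ^ k, ?_⟩
    simp only
    rw [← zpow_natCast, ← zpow_natCast, ← zpow_mul, ← zpow_mul, mul_comm]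

end Group

section Field

variable {F Ω : Type*} [Field F] [Field Ω] [Algebra F Ω]

/-- Inside a finite cyclic Galois extension `M/F` (an intermediate field of `Ω/F`), for every
`d ∣ [M:F]` there is a sub-extension `E/F`, cyclic Galois of degree `d`, which contains every
Galois sub-extension of `M/F` of degree dividing `d`. -/
theorem exists_sub_of_dvd (M : IntermediateField F Ω) [FiniteDimensional F M] [IsGalois F M]
    [IsCyclic (M ≃ₐ[F] M)] {d : ℕ} (hd : d ∣ Module.finrank F M) :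
    ∃ E : IntermediateField F Ω, E ≤ M ∧ IsGalois F E ∧ FiniteDimensional F E ∧
      IsCyclic (E ≃ₐ[F] E) ∧ Module.finrank F E = d ∧
      ∀ E' : IntermediateField F Ω, E' ≤ M → IsGalois F E' → Module.finrank F E' ∣ d →
        E' ≤ E := by
  classical
  have hcard : Nat.card (M ≃ₐ[F] M) = Module.finrank F M := IsGalois.card_aut_eq_finrank F M
  obtain ⟨H, hHn, hHi, hHpow⟩ := exists_subgroup_index_eq (G := M ≃ₐ[F] M) (hcard ▸ hd)
  haveI := hHn
  let E₀ : IntermediateField F M := fixedField H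
  let e : E₀ ≃ₐ[F] (lift E₀) := liftAlgEquiv E₀
  haveI hgal₀ : IsGalois F E₀ := inferInstance
  haveI hgal : IsGalois F (lift E₀) := IsGalois.of_algEquiv e
  haveI hfin : FiniteDimensional F (lift E₀) := Module.Finite.equiv e.toLinearEquiv
  let q : (M ≃ₐ[F] M) ⧸ H ≃* (E₀ ≃ₐ[F] E₀) := IsGalois.normalAutEquivQuotient H
  haveI hcycq : IsCyclic ((M ≃ₐ[F] M) ⧸ H) :=
    isCyclic_of_surjective (QuotientGroup.mk' H) (QuotientGroup.mk'_surjective H)
  haveI hcyc₀ : IsCyclic (E₀ ≃ₐ[F] E₀) := isCyclic_of_surjective q q.surjective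
  have hcyc : IsCyclic (lift E₀ ≃ₐ[F] lift E₀) :=
    isCyclic_of_surjective (AlgEquiv.autCongr e) (AlgEquiv.autCongr e).surjective
  have hfr : Module.finrank F (lift E₀) = d := by
    rw [← e.toLinearEquiv.finrank_eq, ← IsGalois.card_aut_eq_finrank F E₀,
      ← Nat.card_congr q.toEquiv, ← Subgroup.index_eq_card, hHi]
  refine ⟨lift E₀, lift_le E₀, hgal, hfin, hcyc, hfr, ?_⟩
  intro E' hE' hE'gal hE'd x hx
  let y : M := ⟨x, hE' hx⟩
  change (y : Ω) ∈ lift E₀
  rw [mem_lift, mem_fixedField_iff]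
  intro f hf
  obtain ⟨τ, rfl⟩ := hHpow f hf
  let E'' : IntermediateField F M := restrict hE'
  let r : E' ≃ₐ[F] E'' := restrictAlgEquiv hE'
  haveI : IsGalois F E'' := IsGalois.of_algEquiv r
  have hy : y ∈ E'' := (mem_restrict hE' y).2 hx
  have hpow : (AlgEquiv.restrictNormalHom E'' τ) ^ d = 1 := by
    obtain ⟨c, rfl⟩ := hE'd
    rw [r.toLinearEquiv.finrank_eq, ← IsGalois.card_aut_eq_finrank F E'', pow_mul,
      pow_card_eq_one', one_pow]
  have h1 := AlgEquiv.restrictNormal_commutes (τ ^ d) E'' ⟨y, hy⟩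
  have h2 : (τ ^ d).restrictNormal E'' = 1 := by
    change AlgEquiv.restrictNormalHom E'' (τ ^ d) = 1
    rw [map_pow, hpow]
  rw [h2] at h1
  exact h1.symm

end Field

section Cyclo

variable (F Ω : Type*) [Field F] [Field Ω] [Algebra F Ω]

/-- `F` with all `p^m`-th roots of unity of `Ω` adjoined. -/
def cycloField (p m : ℕ) : IntermediateField F Ω := adjoin F {x : Ω | x ^ (p ^ m) = 1}

theorem cycloField_mono (p : ℕ) : Monotone (cycloField F Ω p) := by
  intro m m' hmm'
  refine adjoin.mono F _ _ ?_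
  intro x hx
  obtain ⟨k, rfl⟩ := Nat.exists_eq_add_of_le hmm'
  change x ^ (p ^ (m + k)) = 1
  rw [pow_add, pow_mul, show x ^ p ^ m = 1 from hx, one_pow]

variable {F Ω}

theorem cycloField_eq_adjoin {p m : ℕ} {ζ : Ω} (hζ : IsPrimitiveRoot ζ (p ^ m)) (hp : p ≠ 0) :
    cycloField F Ω p m = F⟮ζ⟯ := by
  haveI : NeZero (p ^ m) := ⟨pow_ne_zero _ hp⟩
  apply le_antisymm
  · rw [cycloField, adjoin_le_iff]
    intro x hx
    obtain ⟨i, -, rfl⟩ := hζ.eq_pow_of_pow_eq_one hx
    exact pow_mem (mem_adjoin_simple_self F ζ) i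
  · rw [adjoin_le_iff]
    intro x hx
    rw [Set.mem_singleton_iff] at hx
    subst hx
    exact subset_adjoin F _ hζ.pow_eq_one

theorem cycloField_props [Algebra.IsIntegral F Ω] {p m : ℕ} (hp : p.Prime) (hp2 : p ≠ 2) {ζ : Ω}
    (hζ : IsPrimitiveRoot ζ (p ^ m)) :
    FiniteDimensional F (cycloField F Ω p m) ∧ IsGalois F (cycloField F Ω p m) ∧
      IsCyclic (cycloField F Ω p m ≃ₐ[F] cycloField F Ω p m) := by
  haveI : NeZero (p ^ m) := ⟨pow_ne_zero _ hp.ne_zero⟩
  rw [cycloField_eq_adjoin hζ hp.ne_zero]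
  haveI := hζ.intermediateField_adjoin_isCyclotomicExtension F
  refine ⟨IsCyclotomicExtension.finiteDimensional {p ^ m} F _,
    IsCyclotomicExtension.isGalois {p ^ m} F _, ?_⟩
  have hζ' : IsPrimitiveRoot (⟨ζ, mem_adjoin_simple_self F ζ⟩ : F⟮ζ⟯) (p ^ m) :=
    IsPrimitiveRoot.coe_submonoidClass_iff.mp hζ
  haveI := ZMod.isCyclic_units_of_prime_pow p hp hp2 m
  exact isCyclic_of_injective _ (hζ'.autToPow_injective F)

end Cyclo

section Tower

variable {F Ω : Type*} [Field F] [Field Ω] [Algebra F Ω]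

/-- The cyclotomic `ℤ_p`-tower over `F`, given that the degrees `[F(μ_{p^m}) : F]` grow. -/
theorem exists_tower [Algebra.IsIntegral F Ω] {p : ℕ} (hp : p.Prime) (hp2 : p ≠ 2)
    (hroots : ∀ m : ℕ, ∃ ζ : Ω, IsPrimitiveRoot ζ (p ^ m)) (c : ℕ)
    (hgrow : ∀ a : ℕ, p ^ a ∣ Module.finrank F (cycloField F Ω p (a + c))) :
    ∃ E : ℕ → IntermediateField F Ω, E 0 = ⊥ ∧ Monotone E ∧
      ∀ a, IsGalois F (E a) ∧ FiniteDimensional F (E a) ∧ IsCyclic (E a ≃ₐ[F] E a) ∧
        Module.finrank F (E a) = p ^ a ∧ E a ≤ cycloField F Ω p (a + c) := by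
  have key : ∀ a : ℕ, ∃ E : IntermediateField F Ω, E ≤ cycloField F Ω p (a + c) ∧
      IsGalois F E ∧ FiniteDimensional F E ∧
      IsCyclic (E ≃ₐ[F] E) ∧ Module.finrank F E = p ^ a ∧
      ∀ E' : IntermediateField F Ω, E' ≤ cycloField F Ω p (a + c) → IsGalois F E' →
        Module.finrank F E' ∣ p ^ a → E' ≤ E := by
    intro a
    obtain ⟨ζ, hζ⟩ := hroots (a + c)
    obtain ⟨h1, h2, h3⟩ := cycloField_props (F := F) hp hp2 hζ
    haveI := h1
    haveI := h2
    haveI := h3
    exact exists_sub_of_dvd (cycloField F Ω p (a + c)) (hgrow a)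
  choose E hEle hEgal hEfin hEcyc hEfr hEmax using key
  refine ⟨E, ?_, ?_, fun a => ⟨hEgal a, hEfin a, hEcyc a, hEfr a, hEle a⟩⟩
  · have := hEfr 0
    rw [pow_zero] at this
    exact finrank_eq_one_iff.mp this
  · refine monotone_nat_of_le_succ fun a => ?_
    refine hEmax (a + 1) (E a) ((hEle a).trans ?_) (hEgal a) ?_
    · exact cycloField_mono F Ω p (by omega)
    · rw [hEfr a]
      exact pow_dvd_pow p (Nat.le_succ a)

end Tower

section Growth

variable (k : Type*) {F Ω : Type*} [Field k] [Field F] [Field Ω] [Algebra k F] [Algebra F Ω]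
  [Algebra k Ω] [IsScalarTower k F Ω]

/-- `[k(x) : k]` divides `[F : k] * [F(x) : F]`. -/
theorem finrank_adjoin_dvd [FiniteDimensional k F] (x : Ω) (hx : IsIntegral F x) :
    Module.finrank k k⟮x⟯ ∣ Module.finrank k F * Module.finrank F F⟮x⟯ := by
  haveI : FiniteDimensional F F⟮x⟯ := adjoin.finiteDimensional hx
  rw [Module.finrank_mul_finrank k F F⟮x⟯]
  have hle : k⟮x⟯ ≤ restrictScalars k F⟮x⟯ := by
    rw [adjoin_le_iff]
    intro y hy
    rw [Set.mem_singleton_iff] at hy
    subst hy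
    exact mem_adjoin_simple_self F y
  have hfin : FiniteDimensional k F⟮x⟯ := Module.Finite.trans F F⟮x⟯
  haveI : FiniteDimensional k (restrictScalars k F⟮x⟯) := hfin
  exact finrank_dvd_of_le_right hle

/-- If the `p`-power cyclotomic polynomials are irreducible over `k` (e.g. `k = ℚ`) and `F/k` is
finite, then `[F(μ_{p^m}) : F]` is divisible by arbitrarily large powers of `p`; precisely
`p ^ a ∣ [F(μ_{p^(a+c)}) : F]` for a constant `c`. -/
theorem exists_pow_dvd_finrank_cycloField [FiniteDimensional k F] [Algebra.IsIntegral F Ω]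
    {p : ℕ} (hp : p.Prime)
    (hirr : ∀ m : ℕ, Irreducible (Polynomial.cyclotomic (p ^ m) k))
    (hroots : ∀ m : ℕ, ∃ ζ : Ω, IsPrimitiveRoot ζ (p ^ m)) :
    ∃ c : ℕ, ∀ a : ℕ, p ^ a ∣ Module.finrank F (cycloField F Ω p (a + c)) := by
  haveI : Algebra.IsIntegral k Ω := Algebra.IsIntegral.trans F
  have hnpos : Module.finrank k F ≠ 0 := (Module.finrank_pos (R := k) (M := F)).ne'
  obtain ⟨c₀, n', hn'p, hn⟩ := Nat.exists_eq_pow_mul_and_not_dvd hnpos p hp.ne_one
  refine ⟨c₀ + 1, fun a => ?_⟩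
  obtain ⟨ζ, hζ⟩ := hroots (a + (c₀ + 1))
  haveI : NeZero (p ^ (a + (c₀ + 1))) := ⟨pow_ne_zero _ hp.ne_zero⟩
  rw [cycloField_eq_adjoin hζ hp.ne_zero]
  have hdvd := finrank_adjoin_dvd k ζ (Algebra.IsIntegral.isIntegral (R := F) ζ)
  haveI := hζ.intermediateField_adjoin_isCyclotomicExtension k
  rw [IsCyclotomicExtension.finrank k⟮ζ⟯ (hirr (a + (c₀ + 1))), ← add_assoc, Nat.totient_prime_pow_succ hp,
    hn, pow_add] at hdvd
  have h1 : p ^ c₀ * p ^ a ∣ p ^ c₀ * (n' * Module.finrank F F⟮ζ⟯) := by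
    rw [← mul_assoc]
    refine dvd_trans (Dvd.intro (p - 1) ?_) hdvd
    ring
  have h2 : p ^ a ∣ n' * Module.finrank F F⟮ζ⟯ :=
    (Nat.mul_dvd_mul_iff_left (pow_pos hp.pos c₀)).mp h1
  exact (Nat.Coprime.pow_left a ((Nat.Prime.coprime_iff_not_dvd hp).2 hn'p)).dvd_of_dvd_mul_left h2

end Growth

section Main

variable {k Ω : Type*} [Field k] [Field Ω] [Algebra k Ω]

/-- General form of the cyclotomic `ℤ_p`-tower over a finite extension `K` of `k` inside `Ω`
(`k = ℚ`, `Ω = AlgebraicClosure ℚ` in the application), in the `GaloisTower.layer` language. -/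
theorem exists_tower_intermediateField [Algebra.IsIntegral k Ω] {p : ℕ} (hp : p.Prime)
    (hp2 : p ≠ 2) (hirr : ∀ m : ℕ, Irreducible (Polynomial.cyclotomic (p ^ m) k))
    (hroots : ∀ m : ℕ, ∃ ζ : Ω, IsPrimitiveRoot ζ (p ^ m))
    (K : IntermediateField k Ω) [FiniteDimensional k K] :
    ∃ E : ℕ → IntermediateField k Ω,
      E 0 = K ∧ Monotone E ∧ (∀ a, FiniteDimensional k (E a)) ∧
      ∀ a, ∃ h : K ≤ E a,
        IsGalois K (GaloisTower.layer h) ∧
        IsCyclic ((GaloisTower.layer h) ≃ₐ[K] (GaloisTower.layer h)) ∧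
        Module.finrank K (GaloisTower.layer h) = p ^ a ∧
        ∃ m : ℕ, E a ≤ K ⊔ adjoin k {x : Ω | x ^ (p ^ m) = 1} := by
  haveI : Algebra.IsIntegral K Ω := Algebra.IsIntegral.tower_top (R := k)
  obtain ⟨c, hgrow⟩ := exists_pow_dvd_finrank_cycloField k (F := K) (Ω := Ω) hp hirr hroots
  obtain ⟨E', hE0, hEmono, hE⟩ := exists_tower hp hp2 hroots c hgrow
  refine ⟨fun a => restrictScalars k (E' a), ?_, ?_, ?_, ?_⟩
  · change restrictScalars k (E' 0) = K
    rw [hE0, restrictScalars_bot_eq_self]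
  · intro a b hab x hx
    exact hEmono hab hx
  · intro a
    obtain ⟨-, hfin, -⟩ := hE a
    haveI := hfin
    have : FiniteDimensional k (E' a) := Module.Finite.trans K (E' a)
    exact this
  · intro a
    obtain ⟨hgal, hfin, hcyc, hfr, hle⟩ := hE a
    have h : K ≤ restrictScalars k (E' a) := fun x hx =>
      (E' a).algebraMap_mem (⟨x, hx⟩ : K)
    have hl : GaloisTower.layer h = E' a := IntermediateField.ext fun x => Iff.rfl
    refine ⟨h, ?_, ?_, ?_, a + c, ?_⟩
    · rw [hl]; exact hgal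
    · rw [hl]; exact hcyc
    · rw [hl]; exact hfr
    · intro x hx
      have hx' : x ∈ restrictScalars k (adjoin K {x : Ω | x ^ (p ^ (a + c)) = 1}) := hle hx
      rwa [restrictScalars_adjoin_eq_sup] at hx'

end Main

section Rat

/-- **C6t**: the cyclotomic `ℤ_p`-tower over a number field `K ⊆ ℚ̄`, `p` odd: a monotone chain
`E 0 = K ≤ E 1 ≤ ...` of finite extensions of `ℚ` with `E a / K` cyclic Galois of degree `p ^ a`
and contained in `K(μ_{p^m})` for some `m`. -/
theorem exists_cyclotomic_tower {p : ℕ} (hp : p.Prime) (hp2 : p ≠ 2)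
    (K : IntermediateField ℚ (AlgebraicClosure ℚ)) [FiniteDimensional ℚ K] :
    ∃ E : ℕ → IntermediateField ℚ (AlgebraicClosure ℚ),
      E 0 = K ∧ Monotone E ∧ (∀ a, FiniteDimensional ℚ (E a)) ∧
      ∀ a, ∃ h : K ≤ E a,
        IsGalois K (GaloisTower.layer h) ∧
        IsCyclic ((GaloisTower.layer h) ≃ₐ[K] (GaloisTower.layer h)) ∧
        Module.finrank K (GaloisTower.layer h) = p ^ a ∧
        ∃ m : ℕ, E a ≤ K ⊔ adjoin ℚ {x : AlgebraicClosure ℚ | x ^ (p ^ m) = 1} := by
  haveI : NeZero p := ⟨hp.ne_zero⟩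
  haveI : IsAlgClosure ℚ (AlgebraicClosure ℚ) := AlgebraicClosure.instIsAlgClosure ℚ
  haveI : Algebra.IsAlgebraic ℚ (AlgebraicClosure ℚ) := IsAlgClosure.isAlgebraic
  refine exists_tower_intermediateField hp hp2
    (fun m => Polynomial.cyclotomic.irreducible_rat (pow_pos hp.pos m))
    (fun m => HasEnoughRootsOfUnity.exists_primitiveRoot (AlgebraicClosure ℚ) (p ^ m)) K

end Rat

universe u

/-- Type-level corollary of the cyclotomic tower: over a number field `K`, for `p` odd and every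
`a` there is a cyclic Galois extension `L/K` of degree `p ^ a` which embeds over `K` into a
`p ^ m`-th cyclotomic extension of `K`. -/
theorem exists_cyclic_cyclotomic (K : Type u) [Field K] [NumberField K] {p : ℕ} (hp : p.Prime)
    (hp2 : p ≠ 2) (a : ℕ) :
    ∃ (L : Type u) (_ : Field L) (_ : Algebra K L), FiniteDimensional K L ∧ IsGalois K L ∧
      IsCyclic (L ≃ₐ[K] L) ∧ Module.finrank K L = p ^ a ∧
      ∃ (m : ℕ) (M : Type u) (_ : Field M) (_ : Algebra K M),
        IsCyclotomicExtension {p ^ m} K M ∧ Nonempty (L →ₐ[K] M) := by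
  haveI : NeZero p := ⟨hp.ne_zero⟩
  have hroots : ∀ m : ℕ, ∃ ζ : AlgebraicClosure K, IsPrimitiveRoot ζ (p ^ m) := fun m =>
    HasEnoughRootsOfUnity.exists_primitiveRoot (AlgebraicClosure K) (p ^ m)
  obtain ⟨c, hgrow⟩ := exists_pow_dvd_finrank_cycloField ℚ (F := K) (Ω := AlgebraicClosure K) hp
    (fun m => Polynomial.cyclotomic.irreducible_rat (pow_pos hp.pos m)) hroots
  obtain ⟨E, -, -, hE⟩ := exists_tower hp hp2 hroots c hgrow
  obtain ⟨hgal, hfin, hcyc, hfr, hle⟩ := hE a
  refine ⟨E a, inferInstance, inferInstance, hfin, hgal, hcyc, hfr, a + c,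
    cycloField K (AlgebraicClosure K) p (a + c), inferInstance, inferInstance, ?_,
    ⟨IntermediateField.inclusion hle⟩⟩
  obtain ⟨ζ, hζ⟩ := hroots (a + c)
  haveI : NeZero (p ^ (a + c)) := ⟨pow_ne_zero _ hp.ne_zero⟩
  rw [cycloField_eq_adjoin hζ hp.ne_zero]
  exact hζ.intermediateField_adjoin_isCyclotomicExtension K

end Fermat.Agent.CFT.CycloTower
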