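import Fermat.Agent.CFT.Global.ClassLayerInvSystem
import Fermat.Agent.CFT.Global.ClassFormationFinal
import Fermat.Agent.CFT.Global.CycloTower

/-!
# The class-formation inputs of C6d over `ℚ` (C6d, part 4)

For `k = ℚ` and `p` odd the inputs of `Global/ClassLayerInvSystem.lean` which do not depend on the
idelic invariant are discharged:

* `classFormation_of_ne_two`: `I.ClassFormation` from the unconditional inequalities of
  `ClassFormationFinal.lean` (helper3) and the values `1/p^a` of `invJ` on cyclic layers;
* `pPowerTorsion_H1_classLayer_eq_bot`, `eq_zero_of_pow_nsmul_H1_classLayer`: the `p`-primary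
  vanishing of `H¹(Gal(E'/E), C_{E'})` for all finite normal layers;
* `subsingleton_H1_classLayer_of_card_eq_pow`: `H¹ = 0` on the nose for `p`-group layers;
* `hasCyclicLayers_rat`: `HasCyclicLayers p ℚ ℚ̄` from the cyclotomic `ℤ_p`-tower (helper16), and
  `exists_cyclic_layer_le_cyclo`: the same with the bound `C ≤ E(μ_{p^m})` (for admissibility).
-/

set_option autoImplicit false
set_option linter.style.haveILetI false
set_option linter.unusedSectionVars false
set_option maxSynthPendingDepth 2

open CategoryTheory groupCohomology IntermediateField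

namespace Fermat.Agent.CFT

open GaloisTower LayerMaps

section NumberFields

variable {Ω : Type} [Field Ω] [Algebra ℚ Ω]

/-- A finite subextension of `Ω/ℚ` is a number field. -/
theorem numberField_of_finiteDimensional_rat (E : IntermediateField ℚ Ω) [FiniteDimensional ℚ E] :
    NumberField E := by
  have : CharZero Ω := algebraRat.charZero Ω
  refine @NumberField.mk E _ inferInstance ?_
  convert ‹FiniteDimensional ℚ E›
  exact Subsingleton.elim _ _

variable {E E' : IntermediateField ℚ Ω}

/-- The top of a finite layer is a number field. -/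
theorem numberField_layer (h : E ≤ E') [FiniteDimensional ℚ E'] : NumberField (layer h) := by
  haveI : FiniteDimensional ℚ E := IdeleInvSystem.finiteDimensional_of_le_of_fd h
  haveI : NumberField E := numberField_of_finiteDimensional_rat E
  haveI : FiniteDimensional E (layer h) := finiteDimensional_layer_of_fd' h
  exact NumberField.of_module_finite E (layer h)

variable (p : ℕ) [hp : Fact p.Prime] (hp2 : p ≠ 2)

include hp2

/-- **(CF1), `p`-primary, layers**: `H¹(Gal(E'/E), C_{E'})` has no `p`-power torsion, for every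
finite normal layer of `Ω/ℚ` (`p` odd). -/
theorem pPowerTorsion_H1_classLayer_eq_bot (h : E ≤ E') [FiniteDimensional ℚ E']
    [Normal E (layer h)] :
    pPowerTorsion (groupCohomology (ideleClassRep (layer h) (LayerGal h)) 1) p = ⊥ := by
  haveI : FiniteDimensional ℚ E := IdeleInvSystem.finiteDimensional_of_le_of_fd h
  haveI : NumberField E := numberField_of_finiteDimensional_rat E
  haveI : NumberField (layer h) := numberField_layer h
  haveI := isGalois_layer_of_normal_of_fd h
  exact pPowerTorsion_H1_ideleClass_eq_bot_of_ne_two p hp2 E (layer h)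

/-- **(CF1), `p`-primary, layers, element form.** -/
theorem eq_zero_of_pow_nsmul_H1_classLayer (h : E ≤ E') [FiniteDimensional ℚ E']
    [Normal E (layer h)] (x : groupCohomology (ideleClassRep (layer h) (LayerGal h)) 1)
    (hx : ∃ n : ℕ, p ^ n • x = 0) : x = 0 := by
  have hmem : x ∈ pPowerTorsion (groupCohomology (ideleClassRep (layer h) (LayerGal h)) 1) p := hx
  rw [pPowerTorsion_H1_classLayer_eq_bot p hp2 h] at hmem
  exact (AddSubgroup.mem_bot).1 hmem

/-- **(CF1) on the nose for `p`-group layers.** -/
theorem isZero_H1_classLayer_of_card_eq_pow (h : E ≤ E') [FiniteDimensional ℚ E']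
    [Normal E (layer h)] (n : ℕ) (hG : Nat.card (LayerGal h) = p ^ n) :
    Limits.IsZero (groupCohomology (ideleClassRep (layer h) (LayerGal h)) 1) := by
  haveI : FiniteDimensional ℚ E := IdeleInvSystem.finiteDimensional_of_le_of_fd h
  haveI : NumberField E := numberField_of_finiteDimensional_rat E
  haveI : NumberField (layer h) := numberField_layer h
  haveI := isGalois_layer_of_normal_of_fd h
  exact isZero_H1_ideleClass_of_ne_two p hp2 E (layer h) n hG

theorem subsingleton_H1_classLayer_of_card_eq_pow (h : E ≤ E') [FiniteDimensional ℚ E']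
    [Normal E (layer h)] (n : ℕ) (hG : Nat.card (LayerGal h) = p ^ n) :
    Subsingleton (groupCohomology (ideleClassRep (layer h) (LayerGal h)) 1) :=
  ModuleCat.subsingleton_of_isZero (isZero_H1_classLayer_of_card_eq_pow p hp2 h n hG)

/-- **(CF2), layers**: `|H²(Gal(E'/E), C_{E'})[p^∞]| ≤ |Gal(E'/E)|_p`. -/
theorem card_pPowerTorsion_H2_classLayer_le (h : E ≤ E') [FiniteDimensional ℚ E']
    [Normal E (layer h)] :
    Finite (pPowerTorsion (groupCohomology (ideleClassRep (layer h) (LayerGal h)) 2) p) ∧
      Nat.card (pPowerTorsion (groupCohomology (ideleClassRep (layer h) (LayerGal h)) 2) p) ≤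
        p ^ (Nat.card (LayerGal h)).factorization p := by
  haveI : FiniteDimensional ℚ E := IdeleInvSystem.finiteDimensional_of_le_of_fd h
  haveI : NumberField E := numberField_of_finiteDimensional_rat E
  haveI : NumberField (layer h) := numberField_layer h
  haveI := isGalois_layer_of_normal_of_fd h
  exact card_pPowerTorsion_H2_ideleClass_le_of_ne_two p hp2 E (layer h)

variable {p}

/-- **The class-formation inputs over `ℚ`**, `p` odd: only the values of `invJ` on cyclic layers
remain as a hypothesis. -/
theorem IdeleInvSystem.classFormation_of_ne_two (I : IdeleInvSystem p ℚ Ω)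
    (hval : ∀ {E E' : IntermediateField ℚ Ω} (h : E ≤ E') [FiniteDimensional ℚ E']
      [Normal E (layer h)] [IsCyclic (LayerGal h)] (a : ℕ), Nat.card (LayerGal h) = p ^ a →
      ∃ z, I.invJ h z = ((((1 : ℚ) / ((p ^ a : ℕ) : ℚ) : ℚ)) : AddCircle (1 : ℚ))) :
    I.ClassFormation where
  isZero_H1 h _ _ _ a ha := isZero_H1_classLayer_of_card_eq_pow p hp2 h a ha
  card_H2_le h _ _ := card_pPowerTorsion_H2_classLayer_le p hp2 h
  exists_invJ_eq h _ _ _ a ha := hval h a ha

end NumberFields

section Cyclo

variable {p : ℕ} [hp : Fact p.Prime] (hp2 : p ≠ 2)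

include hp2

/-- Over every number field `E ⊆ ℚ̄` and for every `a` there is a cyclic layer `C/E` of degree
`p^a` inside `E(μ_{p^m})` for some `m` (`p` odd). -/
theorem exists_cyclic_layer_le_cyclo (E : IntermediateField ℚ (AlgebraicClosure ℚ))
    [FiniteDimensional ℚ E] (a : ℕ) :
    ∃ (C : IntermediateField ℚ (AlgebraicClosure ℚ)) (hEC : E ≤ C),
      FiniteDimensional ℚ C ∧ Normal E (layer hEC) ∧ IsCyclic (LayerGal hEC) ∧
      Nat.card (LayerGal hEC) = p ^ a ∧
      ∃ m : ℕ, C ≤ E ⊔ adjoin ℚ {x : AlgebraicClosure ℚ | x ^ (p ^ m) = 1} := by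
  obtain ⟨T, -, -, hfd, hT⟩ := CycloTower.exists_cyclotomic_tower hp.out hp2 E
  obtain ⟨h, hgal, hcyc, hrank, m, hm⟩ := hT a
  haveI := hfd a
  haveI := hgal
  haveI : FiniteDimensional E (layer h) := finiteDimensional_layer_of_fd' h
  refine ⟨T a, h, hfd a, inferInstance, hcyc, ?_, m, hm⟩
  rw [← hrank]
  exact IsGalois.card_aut_eq_finrank E (layer h)

/-- **Cyclic layers of every `p`-power order exist over every number field in `ℚ̄`** (`p` odd). -/
theorem hasCyclicLayers_rat : IdeleInvSystem.HasCyclicLayers p ℚ (AlgebraicClosure ℚ) := by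
  intro E _ a
  obtain ⟨C, hEC, hfd, hn, hcyc, hcard, -⟩ := exists_cyclic_layer_le_cyclo hp2 E a
  exact ⟨C, hEC, hfd, hn, hcyc, hcard⟩

/-- The admissible form of the existence of cyclic layers: if `Adm` is stable under passing to
subfields of `E(μ_{p^m})` containing `E`, then admissible cyclic layers of every `p`-power order
exist over every admissible field. -/
theorem exists_adm_cyclic_layer (Adm : IntermediateField ℚ (AlgebraicClosure ℚ) → Prop)
    (hfd : ∀ {E : IntermediateField ℚ (AlgebraicClosure ℚ)}, Adm E → FiniteDimensional ℚ E)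
    (hAdm : ∀ (E C : IntermediateField ℚ (AlgebraicClosure ℚ)) (m : ℕ), Adm E → E ≤ C →
      C ≤ E ⊔ adjoin ℚ {x : AlgebraicClosure ℚ | x ^ (p ^ m) = 1} → Adm C)
    (E : IntermediateField ℚ (AlgebraicClosure ℚ)) (hE : Adm E) (a : ℕ) :
    ∃ (C : IntermediateField ℚ (AlgebraicClosure ℚ)) (hEC : E ≤ C), Adm C ∧
      Normal E (layer hEC) ∧ p ^ a ∣ Nat.card (LayerGal hEC) := by
  haveI := hfd hE
  obtain ⟨C, hEC, -, hn, -, hcard, m, hm⟩ := exists_cyclic_layer_le_cyclo hp2 E a
  exact ⟨C, hEC, hAdm E C m hE hEC hm, hn, by rw [hcard]⟩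

end Cyclo

end Fermat.Agent.CFT
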