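import Fermat.Agent.CFT.LayerMaps
import Fermat.Agent.CFT.Global.IdeleGalMapS
import Fermat.Agent.CFT.LC.Lift
import Fermat.Agent.CFT.GalMapTransport

/-!
# Coefficient systems on the layers of a tower, and `p`-primary invariant systems

`k ⊆ Ω` fields.  A *coefficient system* `𝔠 : LayerCoeff k Ω` attaches to every layer `E ≤ E'`
a module `𝔠.M h` over `Gal(E'/E)` (= `layer h ≃ₐ[E] layer h`) and to every square of layers
`E ≤ E'`, `F ≤ F'`, `E ≤ F`, `E' ≤ F'` functorial maps on cohomology (the analogue of
`LayerMaps.layerMap` for the units).  Instances: ideles `ideleCoeff`, idele classes `classCoeff`,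
`S`-idele classes `sClassCoeff S`.

INTERFACES (consumed by the LC lift and produced by the arithmetic):

* `PLayerInvSystem 𝔠 Adm p`: invariant maps `inv h : H²(𝔠.M h) →+ ℚ/ℤ` on all layers, which on
  admissible (`Adm`) normal layers are injective on `p`-primary classes, multiplied by `[F : E]`
  under base change, take the values `1/p^a`, and `H¹ = 0` (global class formation, `p`-part);
* `PTowerData 𝔠 Adm p`: the input of the assembly (tower layers with invariants + inflation,
  restriction, cardinality facts) — the `p`-primary analogue of `LayerUnramData`;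
* `CoeffDict 𝔠 Adm E L A`: a dictionary between the finite levels of a level group `(G, L)` with
  smooth module `A` and the admissible normal layers over `E` (analogue of `LayerDict`).
-/

set_option autoImplicit false
set_option linter.style.haveILetI false
set_option linter.unusedSectionVars false

open CategoryTheory groupCohomology IntermediateField

noncomputable section

namespace Fermat.Agent.CFT

open GaloisTower LayerMaps

/-- A coefficient system on the layers of the tower `Ω/k`. -/
structure LayerCoeff (k Ω : Type) [Field k] [Field Ω] [Algebra k Ω] where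
  /-- the module of the layer `E'/E` -/
  M : ∀ {E E' : IntermediateField k Ω} (h : E ≤ E'), Rep.{0} ℤ (layer h ≃ₐ[E] layer h)
  /-- functoriality for a square of layers -/
  map : ∀ {E E' F F' : IntermediateField k Ω} (hEE' : E ≤ E') (hFF' : F ≤ F') (_ : E ≤ F)
    (_ : E' ≤ F') [Normal E (layer hEE')] (n : ℕ),
    groupCohomology (M hEE') n ⟶ groupCohomology (M hFF') n
  map_comp : ∀ {E E' F F' J J' : IntermediateField k Ω} (hEE' : E ≤ E') (hFF' : F ≤ F')
    (hJJ' : J ≤ J') (hEF : E ≤ F) (hE'F' : E' ≤ F') (hFJ : F ≤ J) (hF'J' : F' ≤ J')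
    [Normal E (layer hEE')] [Normal F (layer hFF')] (n : ℕ),
    map hEE' hFF' hEF hE'F' n ≫ map hFF' hJJ' hFJ hF'J' n =
      map hEE' hJJ' (hEF.trans hFJ) (hE'F'.trans hF'J') n

namespace LayerCoeff

variable {k Ω : Type} [Field k] [Field Ω] [Algebra k Ω] (𝔠 : LayerCoeff k Ω)

/-- Inflation between layers over the same base. -/
abbrev infl {E E' F' : IntermediateField k Ω} (hEE' : E ≤ E') (hE'F' : E' ≤ F')
    [Normal E (layer hEE')] (n : ℕ) :
    groupCohomology (𝔠.M hEE') n ⟶ groupCohomology (𝔠.M (hEE'.trans hE'F')) n :=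
  𝔠.map hEE' (hEE'.trans hE'F') le_rfl hE'F' n

/-- Restriction: same top field, bigger base. -/
abbrev rest {E F F' : IntermediateField k Ω} (hEF : E ≤ F) (hFF' : F ≤ F')
    [Normal E (layer (hEF.trans hFF'))] (n : ℕ) :
    groupCohomology (𝔠.M (hEF.trans hFF')) n ⟶ groupCohomology (𝔠.M hFF') n :=
  𝔠.map (hEF.trans hFF') hFF' hEF le_rfl n

theorem map_comp_apply {E E' F F' J J' : IntermediateField k Ω} (hEE' : E ≤ E') (hFF' : F ≤ F')
    (hJJ' : J ≤ J') (hEF : E ≤ F) (hE'F' : E' ≤ F') (hFJ : F ≤ J) (hF'J' : F' ≤ J')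
    [Normal E (layer hEE')] [Normal F (layer hFF')] (n : ℕ) (x : groupCohomology (𝔠.M hEE') n) :
    (𝔠.map hFF' hJJ' hFJ hF'J' n).hom ((𝔠.map hEE' hFF' hEF hE'F' n).hom x) =
      (𝔠.map hEE' hJJ' (hEF.trans hFJ) (hE'F'.trans hF'J') n).hom x :=
  ConcreteCategory.congr_hom (𝔠.map_comp hEE' hFF' hJJ' hEF hE'F' hFJ hF'J' n) x

end LayerCoeff

section Instances

variable (k Ω : Type) [Field k] [Field Ω] [Algebra k Ω]

/-- The idele groups of the layers. -/
def ideleCoeff : LayerCoeff k Ω where
  M {E _} h := ideleRep (layer h) (layer h ≃ₐ[E] layer h)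
  map {E _ F _} hEE' hFF' hEF hE'F' _ n :=
    letI := algBase hEF
    letI := algTop hEE' hFF' hE'F'
    letI := algDiag hEF hFF'
    haveI := tower_base hEF hFF'
    haveI := tower_top hEE' hFF' hEF hE'F'
    ideleGalMap E (layer hEE') F (layer hFF') n
  map_comp {E _ F _ J _} hEE' hFF' hJJ' hEF hE'F' hFJ hF'J' _ _ n := by
    letI := algBase hEF
    letI := algTop hEE' hFF' hE'F'
    letI := algDiag hEF hFF'
    haveI := tower_base hEF hFF'
    haveI := tower_top hEE' hFF' hEF hE'F'
    letI := algBase hFJ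
    letI := algTop hFF' hJJ' hF'J'
    letI := algDiag hFJ hJJ'
    haveI := tower_base hFJ hJJ'
    haveI := tower_top hFF' hJJ' hFJ hF'J'
    letI := algBase (hEF.trans hFJ)
    letI := algTop hEE' hJJ' (hE'F'.trans hF'J')
    letI := algDiag (hEF.trans hFJ) hJJ'
    haveI := tower_base (hEF.trans hFJ) hJJ'
    haveI := tower_top hEE' hJJ' (hEF.trans hFJ) (hE'F'.trans hF'J')
    haveI := tower_top_top hEE' hFF' hJJ' hE'F' hF'J'
    exact ideleGalMap_comp E (layer hEE') F (layer hFF') J (layer hJJ') n

/-- The idele class groups of the layers. -/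
def classCoeff : LayerCoeff k Ω where
  M {E _} h := ideleClassRep (layer h) (layer h ≃ₐ[E] layer h)
  map {E _ F _} hEE' hFF' hEF hE'F' _ n :=
    letI := algBase hEF
    letI := algTop hEE' hFF' hE'F'
    letI := algDiag hEF hFF'
    haveI := tower_base hEF hFF'
    haveI := tower_top hEE' hFF' hEF hE'F'
    ideleClassGalMap E (layer hEE') F (layer hFF') n
  map_comp {E _ F _ J _} hEE' hFF' hJJ' hEF hE'F' hFJ hF'J' _ _ n := by
    letI := algBase hEF
    letI := algTop hEE' hFF' hE'F'
    letI := algDiag hEF hFF'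
    haveI := tower_base hEF hFF'
    haveI := tower_top hEE' hFF' hEF hE'F'
    letI := algBase hFJ
    letI := algTop hFF' hJJ' hF'J'
    letI := algDiag hFJ hJJ'
    haveI := tower_base hFJ hJJ'
    haveI := tower_top hFF' hJJ' hFJ hF'J'
    letI := algBase (hEF.trans hFJ)
    letI := algTop hEE' hJJ' (hE'F'.trans hF'J')
    letI := algDiag (hEF.trans hFJ) hJJ'
    haveI := tower_base (hEF.trans hFJ) hJJ'
    haveI := tower_top hEE' hJJ' (hEF.trans hFJ) (hE'F'.trans hF'J')
    haveI := tower_top_top hEE' hFF' hJJ' hE'F' hF'J'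
    exact ideleClassGalMap_comp E (layer hEE') F (layer hFF') J (layer hJJ') n

/-- The `S`-idele class groups of the layers. -/
def sClassCoeff (S : Set Nat.Primes) : LayerCoeff k Ω where
  M {E _} h := ideleClassSRep (layer h) (layer h ≃ₐ[E] layer h) S
  map {E _ F _} hEE' hFF' hEF hE'F' _ n :=
    letI := algBase hEF
    letI := algTop hEE' hFF' hE'F'
    letI := algDiag hEF hFF'
    haveI := tower_base hEF hFF'
    haveI := tower_top hEE' hFF' hEF hE'F'
    ideleClassSGalMap E (layer hEE') F (layer hFF') S n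
  map_comp {E _ F _ J _} hEE' hFF' hJJ' hEF hE'F' hFJ hF'J' _ _ n := by
    letI := algBase hEF
    letI := algTop hEE' hFF' hE'F'
    letI := algDiag hEF hFF'
    haveI := tower_base hEF hFF'
    haveI := tower_top hEE' hFF' hEF hE'F'
    letI := algBase hFJ
    letI := algTop hFF' hJJ' hF'J'
    letI := algDiag hFJ hJJ'
    haveI := tower_base hFJ hJJ'
    haveI := tower_top hFF' hJJ' hFJ hF'J'
    letI := algBase (hEF.trans hFJ)
    letI := algTop hEE' hJJ' (hE'F'.trans hF'J')
    letI := algDiag (hEF.trans hFJ) hJJ'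
    haveI := tower_base (hEF.trans hFJ) hJJ'
    haveI := tower_top hEE' hJJ' (hEF.trans hFJ) (hE'F'.trans hF'J')
    haveI := tower_top_top hEE' hFF' hJJ' hE'F' hF'J'
    exact ideleClassSGalMap_comp E (layer hEE') F (layer hFF') J (layer hJJ') S n

variable {k Ω}

/-- The projection `J → C` on the cohomology of a layer. -/
def ideleToClassLayer {E E' : IntermediateField k Ω} (h : E ≤ E') (n : ℕ) :
    groupCohomology ((ideleCoeff k Ω).M h) n ⟶ groupCohomology ((classCoeff k Ω).M h) n :=
  groupCohomology.map (MonoidHom.id _) (ideleToClass E (L := layer h)) n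

/-- The projection `C → C_S` on the cohomology of a layer. -/
def classToClassSLayer (S : Set Nat.Primes) {E E' : IntermediateField k Ω} (h : E ≤ E') (n : ℕ) :
    groupCohomology ((classCoeff k Ω).M h) n ⟶ groupCohomology ((sClassCoeff k Ω S).M h) n :=
  groupCohomology.map (MonoidHom.id _)
    (classToClassSRepHom (layer h) (layer h ≃ₐ[E] layer h) S) n

/-- Naturality of `J → C` for squares of layers. -/
theorem ideleCoeff_map_comp_class {E E' F F' : IntermediateField k Ω} (hEE' : E ≤ E')
    (hFF' : F ≤ F') (hEF : E ≤ F) (hE'F' : E' ≤ F') [Normal E (layer hEE')] (n : ℕ) :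
    (ideleCoeff k Ω).map hEE' hFF' hEF hE'F' n ≫ ideleToClassLayer hFF' n =
      ideleToClassLayer hEE' n ≫ (classCoeff k Ω).map hEE' hFF' hEF hE'F' n := by
  letI := algBase hEF
  letI := algTop hEE' hFF' hE'F'
  letI := algDiag hEF hFF'
  haveI := tower_base hEF hFF'
  haveI := tower_top hEE' hFF' hEF hE'F'
  exact ideleGalMap_comp_class E (layer hEE') F (layer hFF') n

/-- Naturality of `C → C_S` for squares of layers. -/
theorem classCoeff_map_comp_classS (S : Set Nat.Primes) {E E' F F' : IntermediateField k Ω}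
    (hEE' : E ≤ E') (hFF' : F ≤ F') (hEF : E ≤ F) (hE'F' : E' ≤ F') [Normal E (layer hEE')]
    (n : ℕ) :
    (classCoeff k Ω).map hEE' hFF' hEF hE'F' n ≫ classToClassSLayer S hFF' n =
      classToClassSLayer S hEE' n ≫ (sClassCoeff k Ω S).map hEE' hFF' hEF hE'F' n := by
  letI := algBase hEF
  letI := algTop hEE' hFF' hE'F'
  letI := algDiag hEF hFF'
  haveI := tower_base hEF hFF'
  haveI := tower_top hEE' hFF' hEF hE'F'
  exact ideleClassGalMap_comp_classS E (layer hEE') F (layer hFF') S n

end Instances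

section Interfaces

variable {k Ω : Type} [Field k] [Field Ω] [Algebra k Ω]

/-- **`p`-primary invariant system** on a coefficient system: the finite-level form of the
`p`-part of a class formation.  `Adm` = admissible fields (finite over `k`, e.g. unramified outside
`S`); all axioms concern admissible normal layers only. -/
structure PLayerInvSystem (𝔠 : LayerCoeff k Ω) (Adm : IntermediateField k Ω → Prop) (p : ℕ) where
  /-- the invariant map of the layer `E'/E` -/
  inv : ∀ {E E' : IntermediateField k Ω} (h : E ≤ E'),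
    groupCohomology (𝔠.M h) 2 →+ AddCircle (1 : ℚ)
  /-- admissible fields are finite over `k` -/
  fd : ∀ {E : IntermediateField k Ω}, Adm E → FiniteDimensional k E
  /-- `inv` is injective on classes of `p`-power order -/
  eq_zero_of_inv_eq_zero : ∀ {E E' : IntermediateField k Ω} (h : E ≤ E'), Adm E' →
    ∀ [Normal E (layer h)] (x : groupCohomology (𝔠.M h) 2), (∃ n : ℕ, p ^ n • x = 0) →
      inv h x = 0 → x = 0
  /-- base change multiplies the invariant by the degree -/
  inv_map : ∀ {E E' F F' : IntermediateField k Ω} (hEE' : E ≤ E') (hFF' : F ≤ F')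
    (hEF : E ≤ F) (hE'F' : E' ≤ F'), Adm F' → ∀ [Normal E (layer hEE')] [Normal F (layer hFF')]
    (x : groupCohomology (𝔠.M hEE') 2),
    inv hFF' ((𝔠.map hEE' hFF' hEF hE'F' 2).hom x) = Module.finrank E (layer hEF) • inv hEE' x
  /-- the values `1/p^a` are attained over every admissible base -/
  exists_inv_eq : ∀ (E : IntermediateField k Ω), Adm E → ∀ a : ℕ,
    ∃ (E' : IntermediateField k Ω) (h : E ≤ E'), Adm E' ∧ Normal E (layer h) ∧
      ∃ x : groupCohomology (𝔠.M h) 2,
        inv h x = (((1 : ℚ) / ((p ^ a : ℕ) : ℚ) : ℚ) : AddCircle (1 : ℚ))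
  /-- `H¹` of every admissible normal layer has no `p`-primary part (with finite ideles only,
  `H¹` of the idele class group may have `2`-torsion coming from the real places, so the
  vanishing on the nose is false in general) -/
  h1 : ∀ {E E' : IntermediateField k Ω} (h : E ≤ E'), Adm E' → ∀ [Normal E (layer h)]
    (x : groupCohomology (𝔠.M h) 1), (∃ n : ℕ, p ^ n • x = 0) → x = 0

/-- **Tower data**: the input of the assembly of a `PLayerInvSystem` (the `p`-primary analogue of
`LayerUnramData`): a class of cyclic "tower" layers of `p`-power degree with invariant maps, and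
the general finite-level facts (inflation injective, `ker res = im inf`, `H¹ = 0`, cardinality of
the `p`-primary part of `H²`). -/
structure PTowerData (𝔠 : LayerCoeff k Ω) (Adm : IntermediateField k Ω → Prop) (p : ℕ) where
  fd : ∀ {E : IntermediateField k Ω}, Adm E → FiniteDimensional k E
  adm_mono : ∀ {E E' : IntermediateField k Ω}, E ≤ E' → Adm E' → Adm E
  adm_sup : ∀ {E₁ E₂ : IntermediateField k Ω}, Adm E₁ → Adm E₂ → Adm (E₁ ⊔ E₂)
  /-- the layer `E'/E` belongs to the tower -/
  IsTow : ∀ {E E' : IntermediateField k Ω}, E ≤ E' → Prop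
  /-- the invariant of a tower layer -/
  tinv : ∀ {E E' : IntermediateField k Ω} (h : E ≤ E'),
    groupCohomology (𝔠.M h) 2 →+ AddCircle (1 : ℚ)
  tow_adm : ∀ {E E' : IntermediateField k Ω} {h : E ≤ E'}, IsTow h → Adm E → Adm E'
  tow_normal : ∀ {E E' : IntermediateField k Ω} {h : E ≤ E'}, IsTow h → Normal E (layer h)
  tow_sup : ∀ {E E₁ E₂ : IntermediateField k Ω} {h₁ : E ≤ E₁} {h₂ : E ≤ E₂}, IsTow h₁ → IsTow h₂ →
    IsTow (h₁.trans le_sup_left : E ≤ E₁ ⊔ E₂)
  tow_baseChange : ∀ {E E' F : IntermediateField k Ω} {h : E ≤ E'} (_ : E ≤ F), Adm F →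
    IsTow h → IsTow (le_sup_left : F ≤ F ⊔ E')
  /-- tower layers of every `p`-power degree exist -/
  exists_tow : ∀ (E : IntermediateField k Ω), Adm E → ∀ a : ℕ,
    ∃ (E' : IntermediateField k Ω) (h : E ≤ E'), IsTow h ∧ Module.finrank E (layer h) = p ^ a
  /-- the degree of a tower layer is a power of `p` -/
  tow_finrank : ∀ {E E' : IntermediateField k Ω} {h : E ≤ E'}, IsTow h → Adm E →
    ∃ a : ℕ, Module.finrank E (layer h) = p ^ a
  tinv_injective : ∀ {E E' : IntermediateField k Ω} {h : E ≤ E'}, IsTow h → Adm E →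
    Function.Injective (tinv h)
  exists_tinv_eq : ∀ {E E' : IntermediateField k Ω} {h : E ≤ E'}, IsTow h → Adm E →
    ∃ x, tinv h x = (((1 : ℚ) / (Module.finrank E (layer h) : ℚ) : ℚ) : AddCircle (1 : ℚ))
  tinv_map : ∀ {E E' F F' : IntermediateField k Ω} {hEE' : E ≤ E'} {hFF' : F ≤ F'}
    (hEF : E ≤ F) (hE'F' : E' ≤ F'), IsTow hEE' → IsTow hFF' → Adm F → ∀ [Normal E (layer hEE')]
    (x : groupCohomology (𝔠.M hEE') 2),
    tinv hFF' ((𝔠.map hEE' hFF' hEF hE'F' 2).hom x) = Module.finrank E (layer hEF) • tinv hEE' x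
  /-- inflation is injective on `H²` -/
  infl_injective : ∀ {E E' F' : IntermediateField k Ω} (hEE' : E ≤ E') (hE'F' : E' ≤ F'),
    Adm F' → ∀ [Normal E (layer hEE')] [Normal E (layer (hEE'.trans hE'F'))],
    Function.Injective (𝔠.infl hEE' hE'F' 2).hom
  /-- `ker res = im inf` on `H²` -/
  exists_infl_of_rest_eq_zero : ∀ {E F F' : IntermediateField k Ω} (hEF : E ≤ F) (hFF' : F ≤ F'),
    Adm F' → ∀ [Normal E (layer (hEF.trans hFF'))] [Normal E (layer hEF)]
    (x : groupCohomology (𝔠.M (hEF.trans hFF')) 2),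
    (𝔠.rest hEF hFF' 2).hom x = 0 → ∃ y, (𝔠.infl hEF hFF' 2).hom y = x
  /-- the `p`-primary part of `H²` of a layer of degree `n` has at most `p^{v_p(n)}` elements -/
  card_le : ∀ {E E' : IntermediateField k Ω} (h : E ≤ E'), Adm E' → ∀ [Normal E (layer h)],
    Finite (pPowerTorsion (groupCohomology (𝔠.M h) 2) p) ∧
      Nat.card (pPowerTorsion (groupCohomology (𝔠.M h) 2) p) ≤
        p ^ (Module.finrank E (layer h)).factorization p
  h1 : ∀ {E E' : IntermediateField k Ω} (h : E ≤ E'), Adm E' → ∀ [Normal E (layer h)]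
    (x : groupCohomology (𝔠.M h) 1), (∃ n : ℕ, p ^ n • x = 0) → x = 0

/-- A dictionary between the finite levels of `(G, L, A)` and the admissible normal layers over
`E` of the tower `Ω/k`, for the coefficient system `𝔠` (analogue of `LayerDict`). -/
structure CoeffDict (𝔠 : LayerCoeff k Ω) (Adm : IntermediateField k Ω → Prop)
    (E : IntermediateField k Ω) {G : Type} [Group G] (L : LevelStructure G)
    (A : Rep.{0} ℤ G) where
  /-- the top field of the layer attached to a level -/
  top : L.Level → IntermediateField k Ω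
  le_top : ∀ l, E ≤ top l
  adm : ∀ l, Adm (top l)
  normal : ∀ l, Normal E (layer (le_top l))
  mono : ∀ {l l' : L.Level}, l'.N ≤ l.N → top l ≤ top l'
  /-- `G ⧸ N ≃* Gal(E'/E)` -/
  quotEquiv : ∀ l, (G ⧸ l.N) ≃* (layer (le_top l) ≃ₐ[E] layer (le_top l))
  /-- `A^N ≅ 𝔠.M (E'/E)` -/
  repIso : ∀ l, A.quotientToInvariants l.N ≅
    Rep.res (quotEquiv l).toMonoidHom (𝔠.M (le_top l))
  /-- inflation between levels corresponds to inflation between layers (degree `2`) -/
  coh_infl : ∀ (l l' : L.Level) (h : l'.N ≤ l.N)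
    (y : groupCohomology (A.quotientToInvariants l.N) 2),
    haveI := normal l
    cohLinearEquivOfRepIso _ _ (quotEquiv l') (repIso l') 2 ((LC.inflFin A h 2).hom y) =
      (𝔠.infl (le_top l) (mono h) 2).hom
        (cohLinearEquivOfRepIso _ _ (quotEquiv l) (repIso l) 2 y)
  /-- every admissible layer over `E` is contained in the layer of a level -/
  cofinal : ∀ (E' : IntermediateField k Ω), E ≤ E' → Adm E' → ∃ l, E' ≤ top l

end Interfaces

end Fermat.Agent.CFT

end
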