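import Fermat.Agent.CFT.Global.LayersAbstract

/-!
# The `p`-primary projection of a torsion abelian group

For an abelian group `H` and a prime `p` we define the prime-to-`p` torsion `pPrimeTorsion H p`,
prove `pPowerTorsion H p ⊓ pPrimeTorsion H p = ⊥`, and, for a torsion group `H`, the unique
decomposition `x = y + z` with `y` of `p`-power order and `z` of order prime to `p`.  This gives the
projection `pProj p htors : H →+ pPowerTorsion H p`, natural in `H`, and the extension
`extendByProj p φ htors : H →+ T` of a homomorphism `φ : pPowerTorsion H p →+ T` to all of `H`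
(`extendByProj_of_mem`, `extendByProj_map`, `eq_zero_of_extendByProj_eq_zero`).

Finally the higher cohomology groups of a finite group are torsion
(`groupCohomology_succ_isTorsion`).
-/

set_option autoImplicit false

namespace Fermat.Agent.CFT

section PPrimary

variable {H H' T : Type*} [AddCommGroup H] [AddCommGroup H'] [AddCommGroup T]
variable (p : ℕ) [hp : Fact p.Prime]

/-- The prime-to-`p` torsion of an abelian group. -/
def pPrimeTorsion (H : Type*) [AddCommGroup H] (p : ℕ) [hp : Fact p.Prime] : AddSubgroup H where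
  carrier := {x | ∃ m : ℕ, ¬ p ∣ m ∧ m • x = 0}
  zero_mem' := ⟨1, (Nat.Prime.one_lt hp.out).ne' ∘ Nat.dvd_one.1, smul_zero _⟩
  add_mem' := by
    rintro x y ⟨a, ha, hxa⟩ ⟨b, hb, hyb⟩
    refine ⟨a * b, fun h => ?_, ?_⟩
    · rcases (Nat.Prime.dvd_mul hp.out).1 h with h | h
      · exact ha h
      · exact hb h
    · have h1 : (a * b) • x = 0 := by rw [mul_comm, mul_smul, hxa, smul_zero]
      have h2 : (a * b) • y = 0 := by rw [mul_smul, hyb, smul_zero]
      rw [smul_add, h1, h2, add_zero]
  neg_mem' := by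
    rintro x ⟨a, ha, hxa⟩
    exact ⟨a, ha, by rw [smul_neg, hxa, neg_zero]⟩

variable {p}

lemma mem_pPrimeTorsion {x : H} :
    x ∈ pPrimeTorsion H p ↔ ∃ m : ℕ, ¬ p ∣ m ∧ m • x = 0 := Iff.rfl

/-- An element killed by a power of `p` and by an integer prime to `p` vanishes. -/
lemma eq_zero_of_mem_pPowerTorsion_of_mem_pPrimeTorsion {x : H} (h1 : x ∈ pPowerTorsion H p)
    (h2 : x ∈ pPrimeTorsion H p) : x = 0 := by
  obtain ⟨a, ha⟩ := h1
  obtain ⟨m, hm, hmx⟩ := h2
  have hcop : Nat.Coprime (p ^ a) m :=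
    Nat.Coprime.pow_left a ((Nat.Prime.coprime_iff_not_dvd hp.out).2 hm)
  have hd : addOrderOf x ∣ Nat.gcd (p ^ a) m :=
    Nat.dvd_gcd (addOrderOf_dvd_of_nsmul_eq_zero ha) (addOrderOf_dvd_of_nsmul_eq_zero hmx)
  rw [hcop.gcd_eq_one, Nat.dvd_one] at hd
  exact AddMonoid.addOrderOf_eq_one_iff.1 hd

variable (H p) in
/-- The `p`-power torsion and the prime-to-`p` torsion intersect trivially. -/
theorem pPowerTorsion_inf_pPrimeTorsion : pPowerTorsion H p ⊓ pPrimeTorsion H p = ⊥ := by
  refine le_antisymm (fun x hx => ?_) bot_le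
  rw [AddSubgroup.mem_bot]
  exact eq_zero_of_mem_pPowerTorsion_of_mem_pPrimeTorsion hx.1 hx.2

omit hp in
lemma map_mem_pPowerTorsion (f : H →+ H') {x : H} (hx : x ∈ pPowerTorsion H p) :
    f x ∈ pPowerTorsion H' p := by
  obtain ⟨a, ha⟩ := hx
  exact ⟨a, by rw [← map_nsmul, ha, map_zero]⟩

lemma map_mem_pPrimeTorsion (f : H →+ H') {x : H} (hx : x ∈ pPrimeTorsion H p) :
    f x ∈ pPrimeTorsion H' p := by
  obtain ⟨m, hm, hmx⟩ := hx
  exact ⟨m, hm, by rw [← map_nsmul, hmx, map_zero]⟩

/-- In a torsion abelian group every element is the sum of an element of `p`-power order and an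
element of order prime to `p`. -/
theorem exists_mem_pPowerTorsion_sub_mem_pPrimeTorsion
    (htors : ∀ x : H, ∃ n : ℕ, 0 < n ∧ n • x = 0) (x : H) :
    ∃ y ∈ pPowerTorsion H p, x - y ∈ pPrimeTorsion H p := by
  obtain ⟨n, hn0, hnx⟩ := htors x
  obtain ⟨a, m, hm, hnam⟩ := Nat.exists_eq_pow_mul_and_not_dvd hn0.ne' p
    (Nat.Prime.one_lt hp.out).ne'
  have hcop : Nat.Coprime (p ^ a) m :=
    Nat.Coprime.pow_left a ((Nat.Prime.coprime_iff_not_dvd hp.out).2 hm)
  -- Bezout: `u p^a + v m = 1`
  have hbez : (p ^ a : ℤ) * Nat.gcdA (p ^ a) m + (m : ℤ) * Nat.gcdB (p ^ a) m = 1 := by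
    have h := Nat.gcd_eq_gcd_ab (p ^ a) m
    rw [hcop.gcd_eq_one] at h
    push_cast at h
    exact h.symm
  set u : ℤ := Nat.gcdA (p ^ a) m
  set v : ℤ := Nat.gcdB (p ^ a) m
  have hnx' : ((p ^ a : ℕ) : ℤ) • ((m : ℤ) • x) = 0 := by
    rw [← mul_smul, ← Nat.cast_mul, ← hnam, natCast_zsmul, hnx]
  refine ⟨((m : ℤ) * v) • x, ⟨a, ?_⟩, ⟨m, hm, ?_⟩⟩
  · rw [← natCast_zsmul, ← mul_smul, show ((p ^ a : ℕ) : ℤ) * ((m : ℤ) * v) =
      v * (((p ^ a : ℕ) : ℤ) * (m : ℤ)) by ring, mul_smul, mul_smul, hnx', smul_zero]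
  · have hx : x - ((m : ℤ) * v) • x = ((p ^ a : ℤ) * u) • x := by
      rw [sub_eq_iff_eq_add, ← add_smul, hbez, one_smul]
    rw [hx, ← natCast_zsmul, ← mul_smul, show (m : ℤ) * ((p ^ a : ℤ) * u) =
      u * (((p ^ a : ℕ) : ℤ) * (m : ℤ)) by push_cast; ring, mul_smul, mul_smul, hnx', smul_zero]

/-- Uniqueness of the `p`-primary component. -/
lemma pPower_component_unique {x y y' : H} (hy : y ∈ pPowerTorsion H p)
    (hy' : y' ∈ pPowerTorsion H p) (h : x - y ∈ pPrimeTorsion H p)
    (h' : x - y' ∈ pPrimeTorsion H p) : y = y' := by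
  have h1 : y - y' ∈ pPowerTorsion H p := sub_mem hy hy'
  have h2 : y - y' ∈ pPrimeTorsion H p := by
    have : y - y' = (x - y') - (x - y) := by abel
    rw [this]
    exact sub_mem h' h
  exact sub_eq_zero.1 (eq_zero_of_mem_pPowerTorsion_of_mem_pPrimeTorsion h1 h2)

variable (p)

/-- The `p`-primary component of an element of a torsion abelian group, as an element of `H`. -/
noncomputable def pProjFun (htors : ∀ x : H, ∃ n : ℕ, 0 < n ∧ n • x = 0) (x : H) : H :=
  Classical.choose (exists_mem_pPowerTorsion_sub_mem_pPrimeTorsion (p := p) htors x)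

lemma pProjFun_mem (htors : ∀ x : H, ∃ n : ℕ, 0 < n ∧ n • x = 0) (x : H) :
    pProjFun p htors x ∈ pPowerTorsion H p :=
  (Classical.choose_spec (exists_mem_pPowerTorsion_sub_mem_pPrimeTorsion (p := p) htors x)).1

lemma sub_pProjFun_mem (htors : ∀ x : H, ∃ n : ℕ, 0 < n ∧ n • x = 0) (x : H) :
    x - pProjFun p htors x ∈ pPrimeTorsion H p :=
  (Classical.choose_spec (exists_mem_pPowerTorsion_sub_mem_pPrimeTorsion (p := p) htors x)).2

lemma pProjFun_eq (htors : ∀ x : H, ∃ n : ℕ, 0 < n ∧ n • x = 0) {x y : H}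
    (hy : y ∈ pPowerTorsion H p) (h : x - y ∈ pPrimeTorsion H p) : pProjFun p htors x = y :=
  pPower_component_unique (pProjFun_mem p htors x) hy (sub_pProjFun_mem p htors x) h

/-- The projection of a torsion abelian group onto its `p`-power torsion. -/
noncomputable def pProj (htors : ∀ x : H, ∃ n : ℕ, 0 < n ∧ n • x = 0) :
    H →+ pPowerTorsion H p :=
  AddMonoidHom.mk' (fun x => ⟨pProjFun p htors x, pProjFun_mem p htors x⟩) (by
    intro x y
    apply Subtype.ext
    show pProjFun p htors (x + y) = pProjFun p htors x + pProjFun p htors y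
    refine pProjFun_eq p htors (add_mem (pProjFun_mem p htors x) (pProjFun_mem p htors y)) ?_
    have : x + y - (pProjFun p htors x + pProjFun p htors y) =
        (x - pProjFun p htors x) + (y - pProjFun p htors y) := by abel
    rw [this]
    exact add_mem (sub_pProjFun_mem p htors x) (sub_pProjFun_mem p htors y))

variable (htors : ∀ x : H, ∃ n : ℕ, 0 < n ∧ n • x = 0)
  (htors' : ∀ x : H', ∃ n : ℕ, 0 < n ∧ n • x = 0)

@[simp]
lemma coe_pProj (x : H) : (pProj p htors x : H) = pProjFun p htors x := rfl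

/-- `pProj` is the identity on the `p`-power torsion. -/
theorem pProj_of_mem {x : H} (hx : x ∈ pPowerTorsion H p) : pProj p htors x = ⟨x, hx⟩ := by
  apply Subtype.ext
  refine pProjFun_eq p htors hx ?_
  rw [sub_self]
  exact zero_mem _

/-- `pProj` kills the prime-to-`p` torsion. -/
theorem pProj_eq_zero_of_mem_pPrimeTorsion {x : H} (hx : x ∈ pPrimeTorsion H p) :
    pProj p htors x = 0 := by
  apply Subtype.ext
  refine pProjFun_eq p htors (zero_mem _) ?_
  rw [AddSubgroup.coe_zero, sub_zero]
  exact hx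

theorem sub_pProj_mem (x : H) : x - (pProj p htors x : H) ∈ pPrimeTorsion H p :=
  sub_pProjFun_mem p htors x

theorem pProj_mem (x : H) : (pProj p htors x : H) ∈ pPowerTorsion H p :=
  (pProj p htors x).2

/-- The characterisation of the `p`-primary component. -/
theorem pProj_eq_of_sub_mem {x y : H} (hy : y ∈ pPowerTorsion H p)
    (h : x - y ∈ pPrimeTorsion H p) : (pProj p htors x : H) = y :=
  pProjFun_eq p htors hy h

/-- **Naturality of the `p`-primary projection.** -/
theorem pProj_map (f : H →+ H') (x : H) :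
    (pProj p htors' (f x) : H') = f (pProj p htors x : H) := by
  refine pProj_eq_of_sub_mem p htors' (map_mem_pPowerTorsion f (pProj_mem p htors x)) ?_
  rw [← map_sub]
  exact map_mem_pPrimeTorsion f (sub_pProj_mem p htors x)

/-- `pProj` is surjective. -/
theorem pProj_surjective : Function.Surjective (pProj p htors) :=
  fun y => ⟨y, by rw [pProj_of_mem p htors y.2]⟩

/-! ### Extending a homomorphism from the `p`-power torsion -/

/-- The extension of `φ : pPowerTorsion H p →+ T` to the torsion group `H` which kills the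
prime-to-`p` torsion. -/
noncomputable def extendByProj (φ : pPowerTorsion H p →+ T) : H →+ T :=
  φ.comp (pProj p htors)

theorem extendByProj_apply (φ : pPowerTorsion H p →+ T) (x : H) :
    extendByProj p htors φ x = φ (pProj p htors x) := rfl

theorem extendByProj_of_mem (φ : pPowerTorsion H p →+ T) {x : H}
    (hx : x ∈ pPowerTorsion H p) : extendByProj p htors φ x = φ ⟨x, hx⟩ := by
  rw [extendByProj_apply, pProj_of_mem p htors hx]

theorem extendByProj_of_mem_pPrimeTorsion (φ : pPowerTorsion H p →+ T) {x : H}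
    (hx : x ∈ pPrimeTorsion H p) : extendByProj p htors φ x = 0 := by
  rw [extendByProj_apply, pProj_eq_zero_of_mem_pPrimeTorsion p htors hx, map_zero]

/-- **Naturality of the extension.** If `φ' (f x) = d • φ x` on the `p`-power torsion then
`extendByProj φ' (f x) = d • extendByProj φ x` for all `x`. -/
theorem extendByProj_map (f : H →+ H') (φ : pPowerTorsion H p →+ T)
    (φ' : pPowerTorsion H' p →+ T) (d : ℕ)
    (hcomp : ∀ (x : H) (hx : x ∈ pPowerTorsion H p),
      φ' ⟨f x, map_mem_pPowerTorsion f hx⟩ = d • φ ⟨x, hx⟩) (x : H) :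
    extendByProj p htors' φ' (f x) = d • extendByProj p htors φ x := by
  rw [extendByProj_apply, extendByProj_apply]
  have h := hcomp (pProj p htors x : H) (pProj_mem p htors x)
  have h1 : pProj p htors' (f x) =
      ⟨f (pProj p htors x : H), map_mem_pPowerTorsion f (pProj_mem p htors x)⟩ :=
    Subtype.ext (pProj_map p htors htors' f x)
  rw [h1, h]

/-- The same with an integer multiplier. -/
theorem extendByProj_map_zsmul (f : H →+ H') (φ : pPowerTorsion H p →+ T)
    (φ' : pPowerTorsion H' p →+ T) (d : ℤ)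
    (hcomp : ∀ (x : H) (hx : x ∈ pPowerTorsion H p),
      φ' ⟨f x, map_mem_pPowerTorsion f hx⟩ = d • φ ⟨x, hx⟩) (x : H) :
    extendByProj p htors' φ' (f x) = d • extendByProj p htors φ x := by
  rw [extendByProj_apply, extendByProj_apply]
  have h := hcomp (pProj p htors x : H) (pProj_mem p htors x)
  have h1 : pProj p htors' (f x) =
      ⟨f (pProj p htors x : H), map_mem_pPowerTorsion f (pProj_mem p htors x)⟩ :=
    Subtype.ext (pProj_map p htors htors' f x)
  rw [h1, h]

/-- **Injectivity on the `p`-power torsion is inherited by the extension.** -/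
theorem eq_zero_of_extendByProj_eq_zero (φ : pPowerTorsion H p →+ T)
    (hφ : ∀ (x : H) (hx : x ∈ pPowerTorsion H p), φ ⟨x, hx⟩ = 0 → x = 0) (x : H)
    (hx : ∃ n : ℕ, p ^ n • x = 0) (h : extendByProj p htors φ x = 0) : x = 0 := by
  have hx' : x ∈ pPowerTorsion H p := hx
  rw [extendByProj_of_mem p htors φ hx'] at h
  exact hφ x hx' h

end PPrimary

/-! ### Higher cohomology of a finite group is torsion -/

section Cohomology

universe u

variable {k G : Type u} [CommRing k] [Group G]

open CategoryTheory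

/-- The higher cohomology groups of a finite group are torsion (killed by the group order). -/
theorem groupCohomology_succ_isTorsion [Finite G] (A : Rep k G) (n : ℕ)
    (x : groupCohomology A (n + 1)) : ∃ m : ℕ, 0 < m ∧ m • x = 0 :=
  ⟨Nat.card G, Nat.card_pos, card_nsmul_groupCohomology_eq_zero A n x⟩

end Cohomology

end Fermat.Agent.CFT
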