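import Fermat.Agent.CFT.Global.ClassLayerInv
import Fermat.Agent.CFT.Global.LayerCoeff
import Fermat.Agent.CFT.Global.PPrimaryProj

/-!
# The `p`-primary invariant system of the idele class groups (C6d, part 3)

Output of C6d in the interface of `Global/LayerCoeff.lean`: from an `IdeleInvSystem p k Ω`
(idelic invariants + `p`-primary reciprocity), the class-formation inputs `ClassFormation` and the
existence of cyclic layers of every `p`-power order we build

* `IsClassInv.map`: the invariant relation is multiplied by `[F : E]` under the map of an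
  arbitrary square of layers (needs base change of normality, `normal_layer_sup_of_normal_base`);
* `classInv_map`: the same for the maps `classInv`;
* `classInvTotal h : H²(Gal(E'/E), C_{E'}) →+ ℚ/ℤ`: the total invariant maps (the invariant of the
  `p`-primary component; zero on layers which are not finite normal);
* `classPLayerInvSystem : PLayerInvSystem (classCoeff k Ω) Adm p`;
* `classInvTotal_ideleToClassLayer`: the local–global formula `inv (π z) = invJ z`.
-/

set_option autoImplicit false
set_option linter.style.haveILetI false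
set_option linter.unusedSectionVars false
set_option maxSynthPendingDepth 2

open CategoryTheory groupCohomology IntermediateField Polynomial

namespace Fermat.Agent.CFT

open GaloisTower LayerMaps

/-! ### Base change of normality -/

/-- **Base change of normality**: if `M/E` is normal inside `Ω` and `E ⊆ F ⊆ Ω`, then the
compositum `F(M)/F` is normal. -/
theorem normal_adjoin_of_normal_base {E F Ω : Type*} [Field E] [Field F] [Field Ω] [Algebra E F]
    [Algebra F Ω] [Algebra E Ω] [IsScalarTower E F Ω] (M : IntermediateField E Ω) [Normal E M] :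
    Normal F (IntermediateField.adjoin F (M : Set Ω)) := by
  classical
  -- the minimal polynomials over `E` of the elements of `M`, pushed to `F`
  let q : M → F[X] := fun x => (minpoly E (x : Ω)).map (algebraMap E F)
  have hint : ∀ x : M, IsIntegral E (x : Ω) := fun x =>
    (isIntegral_algebraMap_iff (algebraMap M Ω).injective).2 (Normal.isIntegral inferInstance x)
  have hsplM : ∀ x : M, ((minpoly E (x : Ω)).map (algebraMap E M)).Splits := by
    intro x
    have h1 := Normal.splits (inferInstance : Normal E M) x
    have h2 : minpoly E (x : Ω) = minpoly E x :=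
      (minpoly.algebraMap_eq (algebraMap M Ω).injective x)
    rw [h2]
    exact h1
  have hsplΩ : ∀ x : M, ((minpoly E (x : Ω)).map (algebraMap E Ω)).Splits := by
    intro x
    have := (hsplM x).map (algebraMap M Ω)
    rwa [Polynomial.map_map, ← IsScalarTower.algebraMap_eq] at this
  have hq : ∀ x : M, ((q x).map (algebraMap F Ω)).Splits := by
    intro x
    simp only [q]
    rw [Polynomial.map_map, ← IsScalarTower.algebraMap_eq]
    exact hsplΩ x
  have hq0 : ∀ x : M, q x ≠ 0 := fun x =>
    (Polynomial.map_ne_zero_iff (algebraMap E F).injective).2 (minpoly.ne_zero (hint x))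
  let t : M → IntermediateField F Ω := fun x => IntermediateField.adjoin F ((q x).rootSet Ω)
  haveI : ∀ x, Normal F (t x) := fun x => by
    haveI := IntermediateField.adjoin_rootSet_isSplittingField (hq x)
    exact Normal.of_isSplittingField (q x)
  have hrootq : ∀ (x : M) (y : Ω), y ∈ (q x).rootSet Ω ↔ y ∈ (minpoly E (x : Ω)).rootSet Ω := by
    intro x y
    rw [Polynomial.mem_rootSet, Polynomial.mem_rootSet]
    simp only [q]
    rw [Polynomial.aeval_map_algebraMap]
    constructor
    · rintro ⟨-, h⟩
      exact ⟨minpoly.ne_zero (hint x), h⟩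
    · rintro ⟨-, h⟩
      exact ⟨hq0 x, h⟩
  have key : IntermediateField.adjoin F (M : Set Ω) = ⨆ x, t x := by
    apply le_antisymm
    · rw [IntermediateField.adjoin_le_iff]
      intro y hy
      have h1 : y ∈ t ⟨y, hy⟩ := by
        refine IntermediateField.subset_adjoin F _ ?_
        rw [hrootq]
        rw [Polynomial.mem_rootSet]
        exact ⟨minpoly.ne_zero (hint ⟨y, hy⟩), minpoly.aeval E y⟩
      exact (le_iSup t ⟨y, hy⟩) h1
    · rw [iSup_le_iff]
      intro x
      rw [IntermediateField.adjoin_le_iff]
      intro y hy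
      refine IntermediateField.subset_adjoin F _ ?_
      rw [hrootq] at hy
      exact (IntermediateField.splits_iff_mem (hsplΩ x)).1 (hsplM x) y hy
  rw [key]
  infer_instance

section NormalLayer

variable {k Ω : Type} [Field k] [Field Ω] [Algebra k Ω] {E F M : IntermediateField k Ω}

/-- **Base change of a normal layer**: if `M/E` is a normal layer and `E ≤ F`, then `FM/F` is a
normal layer. -/
theorem normal_layer_sup_of_normal_base (hEM : E ≤ M) (hEF : E ≤ F) [Normal E (layer hEM)] :
    Normal F (layer (le_sup_left : F ≤ F ⊔ M)) := by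
  letI := algBase hEF
  haveI : IsScalarTower E F Ω := IsScalarTower.of_algebraMap_eq fun _ => rfl
  have h := normal_adjoin_of_normal_base (F := F) (layer hEM)
  have heq : IntermediateField.adjoin F ((layer hEM : IntermediateField E Ω) : Set Ω) =
      layer (le_sup_left : F ≤ F ⊔ M) := by
    apply le_antisymm
    · rw [IntermediateField.adjoin_le_iff]
      intro y hy
      exact (le_sup_right : M ≤ F ⊔ M) hy
    · have h1 : F ⊔ M ≤
          (IntermediateField.adjoin F ((layer hEM : IntermediateField E Ω) : Set Ω)).restrictScalars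
            k := by
        refine sup_le (fun z hz => ?_) (fun z hz => ?_)
        · exact (IntermediateField.adjoin F
            ((layer hEM : IntermediateField E Ω) : Set Ω)).algebraMap_mem ⟨z, hz⟩
        · exact IntermediateField.subset_adjoin F _ hz
      intro y hy
      exact h1 hy
  rw [← heq]
  exact h

end NormalLayer

namespace IdeleInvSystem

variable {p : ℕ} [hp : Fact p.Prime] {k Ω : Type} [Field k] [Field Ω] [Algebra k Ω]
  {I : IdeleInvSystem p k Ω}

variable {E E' F F' : IntermediateField k Ω}

/-! ### The invariant relation under the map of a general square of layers -/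

/-- **Base change multiplies the invariant by the degree**, for an arbitrary square of layers
`E ≤ E'`, `F ≤ F'`, `E ≤ F`, `E' ≤ F'`. -/
theorem IsClassInv.map {hEE' : E ≤ E'} (hFF' : F ≤ F') (hEF : E ≤ F) (hE'F' : E' ≤ F')
    [FiniteDimensional k F'] [Normal E (layer hEE')] [Normal F (layer hFF')]
    {x : groupCohomology (ideleClassRep (layer hEE') (LayerGal hEE')) 2} {t : AddCircle (1 : ℚ)}
    (hx : I.IsClassInv hEE' x t) :
    I.IsClassInv hFF' ((classLayerMap hEE' hFF' hEF hE'F' 2).hom x)
      (Module.finrank E (layer hEF) • t) := by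
  obtain ⟨M, hM, fd, nm, w, ⟨n, hn⟩, hw, hwt⟩ := hx
  haveI : FiniteDimensional k F := finiteDimensional_of_le_of_fd hFF'
  -- the witness layer over `F`
  haveI hn1 : Normal F (layer (le_sup_left : F ≤ F ⊔ M)) :=
    normal_layer_sup_of_normal_base (hEE'.trans hM) hEF
  haveI hn2 : Normal F (layer (hFF'.trans (le_sup_left : F' ≤ F' ⊔ (F ⊔ M)))) :=
    LayerUnramData.normal_layer_sup hFF' (le_sup_left : F ≤ F ⊔ M)
  have hMM' : M ≤ F' ⊔ (F ⊔ M) := (le_sup_right : M ≤ F ⊔ M).trans le_sup_right
  have hF'M' : F' ≤ F' ⊔ (F ⊔ M) := le_sup_left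
  refine ⟨F' ⊔ (F ⊔ M), hF'M', inferInstance, hn2,
    (ideleLayerMap (hEE'.trans hM) (hFF'.trans hF'M') hEF hMM' 2).hom w, ⟨n, ?_⟩, ?_, ?_⟩
  · rw [← map_nsmul, hn, map_zero]
  · rw [← classLayerMap_layerH2g, hw]
    refine (classLayerMap_comp_apply hEE' (hEE'.trans hM) (hFF'.trans hF'M') le_rfl hM hEF hMM'
      2 x).trans ?_
    exact (classLayerMap_comp_apply hEE' hFF' (hFF'.trans hF'M') hEF hE'F' le_rfl hF'M'
      2 x).symm
  · rw [← hwt]
    exact I.invJ_layerMap (hEE'.trans hM) (hFF'.trans hF'M') hEF hMM' w ⟨n, hn⟩

/-! ### The maps `classInv` under general squares -/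

section ClassInvMap

variable [CharZero k] (hCF : I.ClassFormation) (hcyc : HasCyclicLayers p k Ω)

/-- **Base change multiplies the global invariant by the degree** (general squares). -/
theorem classInv_map (hEE' : E ≤ E') (hFF' : F ≤ F') (hEF : E ≤ F) (hE'F' : E' ≤ F')
    [FiniteDimensional k E'] [FiniteDimensional k F'] [Normal E (layer hEE')]
    [Normal F (layer hFF')]
    (x : pPowerTorsion (groupCohomology (ideleClassRep (layer hEE') (LayerGal hEE')) 2) p)
    (hx : (classLayerMap hEE' hFF' hEF hE'F' 2).hom x.1 ∈ pPowerTorsion _ p) :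
    classInv hCF hcyc hFF' ⟨(classLayerMap hEE' hFF' hEF hE'F' 2).hom x.1, hx⟩ =
      Module.finrank E (layer hEF) • classInv hCF hcyc hEE' x :=
  classInv_eq_of_isClassInv hCF hcyc hFF' ⟨_, hx⟩
    ((isClassInv_classInv hCF hcyc hEE' x).map hFF' hEF hE'F')

/-! ### The total invariant maps -/

/-- The cohomology of a finite normal layer is torsion. -/
lemma classLayer_H2_isTorsion (h : E ≤ E') [FiniteDimensional k E']
    (x : groupCohomology (ideleClassRep (layer h) (LayerGal h)) 2) :
    ∃ m : ℕ, 0 < m ∧ m • x = 0 := by
  haveI := finiteDimensional_layer_of_fd' h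
  haveI : Finite (LayerGal h) := inferInstance
  exact groupCohomology_succ_isTorsion (ideleClassRep (layer h) (LayerGal h)) 1 x

open Classical in
/-- **The total global invariant** of a layer: the invariant of the `p`-primary component of a
class (and `0` on layers which are not finite normal). -/
noncomputable def classInvTotal (h : E ≤ E') :
    groupCohomology (ideleClassRep (layer h) (LayerGal h)) 2 →+ AddCircle (1 : ℚ) :=
  if hfn : FiniteDimensional k E' ∧ Normal E (layer h) then
    haveI := hfn.1
    haveI := hfn.2
    extendByProj p (classLayer_H2_isTorsion h) (classInv hCF hcyc h)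
  else 0

theorem classInvTotal_eq (h : E ≤ E') [hfd : FiniteDimensional k E'] [hn : Normal E (layer h)] :
    classInvTotal hCF hcyc h =
      extendByProj p (classLayer_H2_isTorsion h) (classInv hCF hcyc h) := by
  unfold classInvTotal
  rw [dif_pos ⟨hfd, hn⟩]

/-- On `p`-power torsion classes the total invariant is `classInv`. -/
theorem classInvTotal_of_mem (h : E ≤ E') [FiniteDimensional k E'] [Normal E (layer h)]
    {x : groupCohomology (ideleClassRep (layer h) (LayerGal h)) 2}
    (hx : x ∈ pPowerTorsion _ p) :
    classInvTotal hCF hcyc h x = classInv hCF hcyc h ⟨x, hx⟩ := by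
  rw [classInvTotal_eq, extendByProj_of_mem p _ _ hx]

/-- **(INJ-p)**: the total invariant is injective on `p`-power torsion classes. -/
theorem eq_zero_of_classInvTotal_eq_zero (h : E ≤ E') [FiniteDimensional k E']
    [Normal E (layer h)] (x : groupCohomology (ideleClassRep (layer h) (LayerGal h)) 2)
    (hx : ∃ n : ℕ, p ^ n • x = 0) (h0 : classInvTotal hCF hcyc h x = 0) : x = 0 := by
  rw [classInvTotal_eq] at h0
  refine eq_zero_of_extendByProj_eq_zero p _ _ (fun y hy hy0 => ?_) x hx h0
  have := classInv_injective hCF hcyc h (a₁ := ⟨y, hy⟩) (a₂ := 0) (by rw [hy0, map_zero])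
  exact congrArg Subtype.val this

/-- **(MAP)**: base change multiplies the total invariant by the degree, for all squares of
finite normal layers and all classes. -/
theorem classInvTotal_map (hEE' : E ≤ E') (hFF' : F ≤ F') (hEF : E ≤ F) (hE'F' : E' ≤ F')
    [FiniteDimensional k F'] [Normal E (layer hEE')] [Normal F (layer hFF')]
    (x : groupCohomology (ideleClassRep (layer hEE') (LayerGal hEE')) 2) :
    classInvTotal hCF hcyc hFF' ((classLayerMap hEE' hFF' hEF hE'F' 2).hom x) =
      Module.finrank E (layer hEF) • classInvTotal hCF hcyc hEE' x := by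
  haveI : FiniteDimensional k E' := finiteDimensional_of_le_of_fd hE'F'
  rw [classInvTotal_eq, classInvTotal_eq]
  exact extendByProj_map p (classLayer_H2_isTorsion hEE') (classLayer_H2_isTorsion hFF')
    (classLayerMap hEE' hFF' hEF hE'F' 2).hom.toAddMonoidHom (classInv hCF hcyc hEE')
    (classInv hCF hcyc hFF') (Module.finrank E (layer hEF))
    (fun y hy => classInv_map hCF hcyc hEE' hFF' hEF hE'F' ⟨y, hy⟩ _) x

/-- **(VAL)**: on a layer whose degree is divisible by `p^a`, the value `1/p^a` is attained (on a
`p^a`-torsion class). -/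
theorem exists_classInvTotal_eq (h : E ≤ E') [FiniteDimensional k E'] [Normal E (layer h)]
    (a : ℕ) (ha : a ≤ (Nat.card (LayerGal h)).factorization p) :
    ∃ x : groupCohomology (ideleClassRep (layer h) (LayerGal h)) 2, p ^ a • x = 0 ∧
      classInvTotal hCF hcyc h x = (((1 : ℚ) / ((p ^ a : ℕ) : ℚ) : ℚ) : AddCircle (1 : ℚ)) := by
  set b := (Nat.card (LayerGal h)).factorization p with hb
  have hmem : (((1 : ℚ) / ((p ^ b : ℕ) : ℚ) : ℚ) : AddCircle (1 : ℚ)) ∈
      (classInv hCF hcyc h).range := by
    rw [range_classInv]
    exact AddSubgroup.mem_zmultiples _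
  obtain ⟨y, hy⟩ := hmem
  -- `p^(b-a) • y` has invariant `1/p^a`
  have hval : classInv hCF hcyc h (p ^ (b - a) • y) =
      (((1 : ℚ) / ((p ^ a : ℕ) : ℚ) : ℚ) : AddCircle (1 : ℚ)) := by
    rw [map_nsmul, hy, ← AddCircle.coe_nsmul]
    congr 1
    have hp0 : (p : ℚ) ≠ 0 := Nat.cast_ne_zero.2 hp.out.ne_zero
    have hpow : (p : ℚ) ^ b = (p : ℚ) ^ (b - a) * (p : ℚ) ^ a := by
      rw [← pow_add, Nat.sub_add_cancel ha]
    rw [nsmul_eq_mul]
    push_cast
    rw [hpow]
    field_simp
  refine ⟨(p ^ (b - a) • y : pPowerTorsion _ p).1, ?_, ?_⟩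
  · have h0 : p ^ a • (p ^ (b - a) • y) = 0 := by
      apply classInv_injective hCF hcyc h
      rw [map_nsmul, hval, map_zero]
      exact LC.addCircle_nsmul_one_div (p ^ a) (pow_pos hp.out.pos a)
    have := congrArg Subtype.val h0
    simpa using this
  · rw [classInvTotal_of_mem hCF hcyc h (p ^ (b - a) • y).2]
    exact hval

/-- **Local–global formula** for the total invariant: the invariant of the image of a `p`-power
torsion class `z ∈ H²(Gal(E'/E), J_{E'})` is the idelic invariant `invJ z`. -/
theorem classInvTotal_layerH2g (h : E ≤ E') [FiniteDimensional k E'] [Normal E (layer h)]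
    (z : groupCohomology (ideleRep (layer h) (LayerGal h)) 2) (hz : ∃ n : ℕ, p ^ n • z = 0) :
    classInvTotal hCF hcyc h ((layerH2g h).hom z) = I.invJ h z := by
  have hmem : (layerH2g h).hom z ∈ pPowerTorsion _ p := by
    obtain ⟨n, hn⟩ := hz
    exact ⟨n, by rw [← map_nsmul, hn, map_zero]⟩
  rw [classInvTotal_of_mem hCF hcyc h hmem]
  exact classInv_layerH2g hCF hcyc h z hz hmem

/-! ### The invariant system in the interface of `LayerCoeff` -/

/-- **The `p`-primary invariant system of the idele class groups** (output of C6d).  `Adm` is any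
class of finite fields over which cyclic admissible layers of every `p`-power order exist; the
vanishing of the `p`-primary part of `H¹` on admissible normal layers is an input. -/
noncomputable def classPLayerInvSystem (Adm : IntermediateField k Ω → Prop)
    (hfd : ∀ {E : IntermediateField k Ω}, Adm E → FiniteDimensional k E)
    (hcycAdm : ∀ (E : IntermediateField k Ω), Adm E → ∀ a : ℕ,
      ∃ (C : IntermediateField k Ω) (hEC : E ≤ C), Adm C ∧ Normal E (layer hEC) ∧
        p ^ a ∣ Nat.card (LayerGal hEC))
    (hH1 : ∀ {E E' : IntermediateField k Ω} (h : E ≤ E'), Adm E' → ∀ [Normal E (layer h)]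
      (x : groupCohomology (ideleClassRep (layer h) (LayerGal h)) 1),
      (∃ n : ℕ, p ^ n • x = 0) → x = 0) :
    PLayerInvSystem (classCoeff k Ω) Adm p where
  inv h := classInvTotal hCF hcyc h
  fd := hfd
  eq_zero_of_inv_eq_zero h hadm _ x hx h0 := by
    haveI := hfd hadm
    exact eq_zero_of_classInvTotal_eq_zero hCF hcyc h x hx h0
  inv_map hEE' hFF' hEF hE'F' hadm _ _ x := by
    haveI := hfd hadm
    exact classInvTotal_map hCF hcyc hEE' hFF' hEF hE'F' x
  exists_inv_eq E hE a := by
    obtain ⟨C, hEC, hC, hn, hdvd⟩ := hcycAdm E hE a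
    haveI := hfd hC
    haveI := hn
    haveI := finiteDimensional_layer_of_fd' hEC
    haveI : Finite (LayerGal hEC) := inferInstance
    have ha : a ≤ (Nat.card (LayerGal hEC)).factorization p :=
      (hp.out.pow_dvd_iff_le_factorization Nat.card_pos.ne').1 hdvd
    obtain ⟨x, -, hx⟩ := exists_classInvTotal_eq hCF hcyc hEC a ha
    exact ⟨C, hEC, hC, hn, x, hx⟩
  h1 := hH1

theorem classPLayerInvSystem_inv (Adm : IntermediateField k Ω → Prop)
    (hfd : ∀ {E : IntermediateField k Ω}, Adm E → FiniteDimensional k E)
    (hcycAdm : ∀ (E : IntermediateField k Ω), Adm E → ∀ a : ℕ,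
      ∃ (C : IntermediateField k Ω) (hEC : E ≤ C), Adm C ∧ Normal E (layer hEC) ∧
        p ^ a ∣ Nat.card (LayerGal hEC))
    (hH1 : ∀ {E E' : IntermediateField k Ω} (h : E ≤ E'), Adm E' → ∀ [Normal E (layer h)]
      (x : groupCohomology (ideleClassRep (layer h) (LayerGal h)) 1),
      (∃ n : ℕ, p ^ n • x = 0) → x = 0)
    (h : E ≤ E') :
    (classPLayerInvSystem hCF hcyc Adm hfd hcycAdm hH1).inv h = classInvTotal hCF hcyc h := rfl

/-- **Local–global formula** in the interface of `LayerCoeff`: the invariant of the image of a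
`p`-power torsion idele class `z` is `invJ z` (the sum of the local invariants). -/
theorem classInvTotal_ideleToClassLayer (h : E ≤ E') [FiniteDimensional k E']
    [Normal E (layer h)] (z : groupCohomology ((ideleCoeff k Ω).M h) 2)
    (hz : ∃ n : ℕ, p ^ n • z = 0) :
    classInvTotal hCF hcyc h ((ideleToClassLayer h 2).hom z) = I.invJ h z :=
  classInvTotal_layerH2g hCF hcyc h z hz

end ClassInvMap

end IdeleInvSystem

end Fermat.Agent.CFT
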