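import Fermat.Agent.CFT.Global.ClassSInfRes

/-!
# Galois descent for `S`-idele classes (discharging `hinj`/`hdesc` of `ClassSInfRes.lean`)

`L/L'` a finite Galois extension of fields, `S` a set of rational primes such that some prime of
`S` admits an embedding `L → ℚ̄_q` (`hne`).

* `exists_unitIdeles_eq_of_smul_eq`: `U_{L,S}^{Gal(L/L')} = U_{L',S}`;
* `ideleClassSMap_injective_of_isGalois`: `C_S(L') → C_S(L)` is injective (`hinj`);
* `exists_ideleClassSMap_eq_of_smul_eq`: `C_S(L)^{Gal(L/L')} = C_S(L')` as soon as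
  `H¹(Gal(L/L'), ∏_{v ∣ q} 𝒪_vˣ) = 0` for all `q ∉ S` (e.g. `L/L'` unramified outside `S`)
  (`hdesc`);
* the tower versions `ideleClassSInfl_two_injective_of_unram`,
  `exists_ideleClassSInfl_eq_of_rest_eq_zero_of_unram`,
  `ideleClassSQuotIsoOfUnram` of the statements of `ClassSInfRes.lean`, with `hinj`, `hdesc`
  discharged.
-/

set_option autoImplicit false
set_option linter.unusedSectionVars false
set_option maxSynthPendingDepth 2

open CategoryTheory groupCohomology Rep

namespace Fermat.Agent.CFT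

noncomputable section

section Core

variable (L' L : Type) [Field L'] [Field L] [Algebra L' L] [IsGalois L' L]
  [FiniteDimensional L' L] (S : Set Nat.Primes)

/-- The image of `C_{L'} → C_L` consists of `Gal(L/L')`-invariant classes. -/
theorem smul_ideleClassMap_algebraMap (τ : L ≃ₐ[L'] L) (c : ideleClass L') :
    τ • ideleClassMap L' L c = ideleClassMap L' L c := by
  induction c using QuotientGroup.induction_on with
  | H x =>
    rw [ideleClassMap_mk, ideleClass_smul_mk]
    exact congrArg _ (smul_ideleMap (algebraMap L' L) (fun σ b => σ.commutes b) τ x)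

/-- `U_{L,S}^{Gal(L/L')} = U_{L',S}`: an invariant unit idele outside `S` descends. -/
theorem exists_unitIdeles_eq_of_smul_eq (u : unitIdelesOutside L S)
    (hu : ∀ τ : L ≃ₐ[L'] L, τ • u = u) :
    ∃ u' : unitIdelesOutside L' S,
      ideleProdMap (algebraMap L' L) (u' : IdeleProd L') = (u : IdeleProd L) := by
  have hq : ∀ q : Nat.Primes, ∃ g : semiLocalUnits (q : ℕ) L',
      semiLocalMap (algebraMap L' L) g = (u : IdeleProd L) q := by
    intro q
    refine (mem_range_semiLocalMap_iff (q := (q : ℕ)) L' ((u : IdeleProd L) q)).2 fun σ => ?_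
    exact congrArg (fun v : unitIdelesOutside L S => (v : IdeleProd L) q) (hu σ)
  choose g hg using hq
  refine ⟨⟨g, fun q hq τ => ?_, fun q hq => ?_⟩, funext hg⟩
  · obtain ⟨τ', rfl⟩ := localEmbRestrict_surjective (q := (q : ℕ)) L' (L := L) τ
    have := u.2.1 q hq τ'
    rw [← hg q] at this
    exact this
  · apply semiLocalMap_algebraMap_injective (q := (q : ℕ)) L' (L := L)
    rw [hg q, u.2.2 q hq, map_one]

theorem ideleClassMap_unitClassHom (u' : unitIdelesOutside L' S) (u : unitIdelesOutside L S)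
    (h : ideleProdMap (algebraMap L' L) (u' : IdeleProd L') = (u : IdeleProd L)) :
    ideleClassMap L' L (unitClassHom S u') = unitClassHom S u := by
  rw [unitClassHom_apply, unitClassHom_apply, ideleClassMap_mk]
  exact congrArg _ (Subtype.ext h)

theorem principalIdele_injective_of_mem_localEmb
    (hne : ∃ q ∈ S, Nonempty (LocalEmb ((q : Nat.Primes) : ℕ) L)) :
    Function.Injective (principalIdele L) := by
  obtain ⟨q, -, ⟨τ⟩⟩ := hne
  intro x y hxy
  apply Units.ext
  have h1 : (semiLocalDiag x : semiLocalUnits (q : ℕ) L) = semiLocalDiag y := congrFun hxy q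
  have h2 := congrArg (fun f : semiLocalUnits (q : ℕ) L =>
    (((f : LocalEmb (q : ℕ) L → (PadicAlgCl (q : ℕ))ˣ) τ : (PadicAlgCl (q : ℕ))ˣ) :
      PadicAlgCl (q : ℕ))) h1
  simp only [semiLocalDiag_apply] at h2
  exact τ.injective h2

/-- **`C_S(L') → C_S(L)` is injective** for a finite Galois extension `L/L'`, as soon as some
prime of `S` admits an embedding of `L` into `ℚ̄_q`. -/
theorem ideleClassSMap_injective_of_isGalois
    (hne : ∃ q ∈ S, Nonempty (LocalEmb ((q : Nat.Primes) : ℕ) L)) :
    Function.Injective (ideleClassSMap L' L S) := by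
  have hinjL := principalIdele_injective_of_mem_localEmb L S hne
  rw [injective_iff_map_eq_one]
  intro c hc
  obtain ⟨c0, rfl⟩ := classToClassS_surjective S c
  rw [ideleClassSMap_classToClassS] at hc
  obtain ⟨u, hu⟩ := exists_unitClassHom_eq_of_classToClassS_eq_one S _ hc
  have hfix : ∀ τ : L ≃ₐ[L'] L, τ • u = u := by
    intro τ
    apply unitClassHom_injective S hne
    rw [unitClassHom_smul, hu]
    exact smul_ideleClassMap_algebraMap L' L τ c0
  obtain ⟨u', hu'⟩ := exists_unitIdeles_eq_of_smul_eq L' L S u hfix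
  have h1 : ideleClassMap L' L (unitClassHom S u') = ideleClassMap L' L c0 := by
    rw [ideleClassMap_unitClassHom L' L S u' u hu', hu]
  have h2 := ideleClassMap_injective_of_isGalois L' L' L hinjL h1
  rw [← h2]
  exact classToClassS_unitClassHom S u'

/-- **`C_S(L)^{Gal(L/L')} = C_S(L')`** for a finite Galois extension `L/L'` such that
`H¹(Gal(L/L'), ∏_{v ∣ q} 𝒪_vˣ) = 0` for all `q ∉ S`. -/
theorem exists_ideleClassSMap_eq_of_smul_eq (hL : PrincipalIsIdele L)
    (hne : ∃ q ∈ S, Nonempty (LocalEmb ((q : Nat.Primes) : ℕ) L))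
    (hunr1 : ∀ q : Nat.Primes, q ∉ S →
      H1TrivialOn (L ≃ₐ[L'] L) (semiLocalIntegral (q : ℕ) L))
    (c : ideleClassS L S) (hc : ∀ τ : L ≃ₐ[L'] L, τ • c = c) :
    ∃ c' : ideleClassS L' S, ideleClassSMap L' L S c' = c := by
  have hinjL := principalIdele_injective_of_mem_localEmb L S hne
  obtain ⟨c0, hc0, hc0c⟩ := exists_invariant_lift_of_isZero_H1
    (X := sClassSES L (L ≃ₐ[L'] L) S) (sClassSES_shortExact L _ S hne)
    (isZero_H1_unitRep S hunr1) (Additive.ofMul c) (fun τ => congrArg Additive.ofMul (hc τ))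
  obtain ⟨c0', hc0'⟩ := exists_ideleClassMap_eq_of_smul_eq L' L' L hL hinjL (Additive.toMul c0)
    (fun τ => congrArg Additive.toMul (hc0 τ))
  refine ⟨classToClassS S c0', ?_⟩
  rw [ideleClassSMap_classToClassS, hc0']
  exact congrArg Additive.toMul hc0c

/-- `H¹(Gal(L/L'), C_S(L)) = 0` follows from `H¹(Gal(L/L'), C_L) = 0` and
`H²(Gal(L/L'), ∏_{v ∣ q} 𝒪_vˣ) = 0` for all `q ∉ S`. -/
theorem isZero_H1_ideleClassS_of_isZero_H1_ideleClass
    (hne : ∃ q ∈ S, Nonempty (LocalEmb ((q : Nat.Primes) : ℕ) L))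
    (hunr2 : ∀ q : Nat.Primes, q ∉ S →
      H2TrivialOn (L ≃ₐ[L'] L) (semiLocalIntegral (q : ℕ) L))
    (h1 : Limits.IsZero (groupCohomology (ideleClassRep L (L ≃ₐ[L'] L)) 1)) :
    Limits.IsZero (groupCohomology (ideleClassSRep L (L ≃ₐ[L'] L) S) 1) := by
  have hsurj := map_g_surjective_of_isZero (X := sClassSES L (L ≃ₐ[L'] L) S)
    (sClassSES_shortExact L _ S hne) 1 (isZero_H2_unitRep S hunr2)
  have hs : Subsingleton (groupCohomology (ideleClassRep L (L ≃ₐ[L'] L)) 1) :=
    ModuleCat.subsingleton_of_isZero h1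
  have : Subsingleton (groupCohomology (ideleClassSRep L (L ≃ₐ[L'] L) S) 1) := by
    refine ⟨fun a b => ?_⟩
    obtain ⟨a', rfl⟩ := hsurj a
    obtain ⟨b', rfl⟩ := hsurj b
    rw [hs.elim a' b']
  exact ModuleCat.isZero_of_subsingleton _

end Core

section Tower

variable (K L' L : Type) [Field K] [Field L'] [Field L] [Algebra K L'] [Algebra K L] [Algebra L' L]
  [IsScalarTower K L' L] [Normal K L'] [IsGalois K L] [FiniteDimensional K L]
  (S : Set Nat.Primes)

include K in
/-- `hinj` of `ClassSInfRes.lean` in a tower `K ⊆ L' ⊆ L`. -/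
theorem ideleClassSMap_injective_of_tower
    (hne : ∃ q ∈ S, Nonempty (LocalEmb ((q : Nat.Primes) : ℕ) L)) :
    Function.Injective (ideleClassSMap L' L S) := by
  have : IsGalois L' L := IsGalois.tower_top_of_isGalois K L' L
  have : FiniteDimensional L' L := FiniteDimensional.right K L' L
  exact ideleClassSMap_injective_of_isGalois L' L S hne

include K in
/-- `hdesc` of `ClassSInfRes.lean` in a tower `K ⊆ L' ⊆ L` with `L/L'` unramified outside `S`
(in the form `H¹(Gal(L/L'), ∏_{v ∣ q} 𝒪_vˣ) = 0` for `q ∉ S`). -/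
theorem exists_ideleClassSMap_eq_of_tower (hL : PrincipalIsIdele L)
    (hne : ∃ q ∈ S, Nonempty (LocalEmb ((q : Nat.Primes) : ℕ) L))
    (hunr1 : ∀ q : Nat.Primes, q ∉ S →
      H1TrivialOn (L ≃ₐ[L'] L) (semiLocalIntegral (q : ℕ) L))
    (c : ideleClassS L S) (hc : ∀ σ : L ≃ₐ[L'] L, σ • c = c) :
    ∃ c' : ideleClassS L' S, ideleClassSMap L' L S c' = c := by
  have : IsGalois L' L := IsGalois.tower_top_of_isGalois K L' L
  have : FiniteDimensional L' L := FiniteDimensional.right K L' L
  exact exists_ideleClassSMap_eq_of_smul_eq L' L S hL hne hunr1 c hc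

variable (hL : PrincipalIsIdele L)
  (hne : ∃ q ∈ S, Nonempty (LocalEmb ((q : Nat.Primes) : ℕ) L))
  (hunr1 : ∀ q : Nat.Primes, q ∉ S →
    H1TrivialOn (L ≃ₐ[L'] L) (semiLocalIntegral (q : ℕ) L))

/-- **Quotient transport** for `S`-idele classes, `L/L'` unramified outside `S`:
`H^n(Gal(L/K)/galKer, C_S(L)^galKer) ≅ H^n(Gal(L'/K), C_S(L'))`. -/
def ideleClassSQuotIsoOfUnram (n : ℕ) :
    groupCohomology ((ideleClassSRep L (L ≃ₐ[K] L) S).quotientToInvariants (galKer K L' L)) n ≅
      groupCohomology (ideleClassSRep L' (L' ≃ₐ[K] L') S) n :=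
  ideleClassSQuotIso K L' L S (ideleClassSMap_injective_of_tower K L' L S hne)
    (exists_ideleClassSMap_eq_of_tower K L' L S hL hne hunr1) n

theorem ideleClassSQuotIsoOfUnram_inv_comp_inf (n : ℕ) :
    (ideleClassSQuotIsoOfUnram K L' L S hL hne hunr1 n).inv ≫
      groupCohomology.map (QuotientGroup.mk' (galKer K L' L))
        (ofHom <| (ideleClassSRep L (L ≃ₐ[K] L) S).ρ.quotientToInvariants_lift
          (galKer K L' L)) n =
      ideleClassSGalMap K L' K L S n :=
  ideleClassSQuotIso_inv_comp_inf K L' L S (ideleClassSMap_injective_of_tower K L' L S hne)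
    (exists_ideleClassSMap_eq_of_tower K L' L S hL hne hunr1) n

variable (h1 : Limits.IsZero (groupCohomology (ideleClassSRep L (L ≃ₐ[L'] L) S) 1))

include hL hne hunr1 h1

/-- **Inflation is injective** on `H²` of `S`-idele classes, `L/L'` unramified outside `S`. -/
theorem ideleClassSInfl_two_injective_of_unram :
    Function.Injective (ideleClassSGalMap K L' K L S 2).hom :=
  ideleClassSInfl_two_injective K L' L S (ideleClassSMap_injective_of_tower K L' L S hne)
    (exists_ideleClassSMap_eq_of_tower K L' L S hL hne hunr1) h1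

/-- **Inflation–restriction exactness** on `H²` of `S`-idele classes, `L/L'` unramified outside
`S`. -/
theorem exists_ideleClassSInfl_eq_of_rest_eq_zero_of_unram
    (x : groupCohomology (ideleClassSRep L (L ≃ₐ[K] L) S) 2)
    (hx : (ideleClassSGalMap K L L' L S 2).hom x = 0) :
    ∃ y : groupCohomology (ideleClassSRep L' (L' ≃ₐ[K] L') S) 2,
      (ideleClassSGalMap K L' K L S 2).hom y = x :=
  exists_ideleClassSInfl_eq_of_rest_eq_zero K L' L S
    (ideleClassSMap_injective_of_tower K L' L S hne)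
    (exists_ideleClassSMap_eq_of_tower K L' L S hL hne hunr1) h1 x hx

end Tower

end

end Fermat.Agent.CFT
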