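import Fermat.Agent.CFT.Global.IdeleGalMapS
import Fermat.Agent.CFT.Global.IdeleClassInfRes
import Fermat.Agent.CFT.Tate.InfResTransport

/-!
# Inflation–restriction for `S`-idele classes in field language (IR-C, `S`-version)

For `K ⊆ L' ⊆ L` with `L/K` finite Galois and `L'/K` normal, `S` a set of rational primes, under
the hypotheses

* `(hinj)`  `C_S(L') → C_S(L)` is injective,
* `(hdesc)` `C_S(L)^{Gal(L/L')} = C_S(L')`,
* `(h1)`    `H¹(Gal(L/L'), C_S(L)) = 0`,

we get the quotient transport `ideleClassSQuotIso` (identifying Mathlib's inflation with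
`ideleClassSGalMap K L' K L S n`), the subgroup transport `ideleClassSSubIso`, and the exactness of
`0 → H²(L'/K, C_S(L')) → H²(L/K, C_S(L)) → H²(L/L', C_S(L))`
(`ideleClassSInfl_two_injective`, `exists_ideleClassSInfl_eq_of_rest_eq_zero`).
All proofs are instances of the abstract `Tate/InfResTransport.lean`.
-/

set_option autoImplicit false
set_option linter.unusedSectionVars false
set_option maxSynthPendingDepth 2

open CategoryTheory groupCohomology Rep

namespace Fermat.Agent.CFT

noncomputable section

section Basic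

variable {L : Type} [Field L] (S : Set Nat.Primes)

theorem ideleClassSMap_self (c : ideleClassS L S) : ideleClassSMap L L S c = c := by
  induction c using QuotientGroup.induction_on with
  | H x =>
    rw [ideleClassSMap_mk]
    exact congrArg _ (ideleMap_id x)

end Basic

section SubAction

variable (K E L : Type) [Field K] [Field E] [Field L] [Algebra K E] [Algebra K L] [Algebra E L]
  [IsScalarTower K E L] [Normal K L] (S : Set Nat.Primes)

/-- The two actions of `Gal(L/E)` on `C_S(L)` (directly, and through `Gal(L/K)`) agree. -/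
theorem galRes_rest_smul_ideleClassS (τ : L ≃ₐ[E] L) (c : ideleClassS L S) :
    galRes K L E L τ • c = τ • c := by
  induction c using QuotientGroup.induction_on with
  | H x =>
    rw [ideleClassS_smul_mk, ideleClassS_smul_mk, galRes_rest_smul_idele]

theorem ideleClassSGalHom_rest_bijective :
    Function.Bijective (ideleClassSGalHom K L E L S).hom := by
  have h : ∀ c : Additive (ideleClassS L S), (ideleClassSGalHom K L E L S).hom c = c := fun c =>
    congrArg Additive.ofMul (ideleClassSMap_self S (Additive.toMul c))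
  constructor
  · intro a b hab
    rw [h a, h b] at hab
    exact hab
  · intro b
    exact ⟨b, h b⟩

end SubAction

section InfRes

variable (K L' L : Type) [Field K] [Field L'] [Field L] [Algebra K L'] [Algebra K L] [Algebra L' L]
  [IsScalarTower K L' L] [Normal K L'] [IsGalois K L] [FiniteDimensional K L]
  (S : Set Nat.Primes)

omit [FiniteDimensional K L] in
theorem ideleClassSGalHom_infl_injective (hinj : Function.Injective (ideleClassSMap L' L S)) :
    Function.Injective (ideleClassSGalHom K L' K L S).hom := by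
  intro a b hab
  have : ideleClassSMap L' L S (Additive.toMul a) = ideleClassSMap L' L S (Additive.toMul b) :=
    congrArg Additive.toMul hab
  exact Additive.toMul.injective (hinj this)

theorem ideleClassSGalHom_infl_desc
    (hdesc : ∀ c : ideleClassS L S, (∀ σ : L ≃ₐ[L'] L, σ • c = c) →
      ∃ c' : ideleClassS L' S, ideleClassSMap L' L S c' = c)
    (a : (ideleClassSRep L (L ≃ₐ[K] L) S).V)
    (ha : ∀ s : (galRes K L' K L).ker, (ideleClassSRep L (L ≃ₐ[K] L) S).ρ (s : L ≃ₐ[K] L) a = a) :
    ∃ a' : (ideleClassSRep L' (L' ≃ₐ[K] L') S).V, (ideleClassSGalHom K L' K L S).hom a' = a := by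
  have hfix : ∀ τ : L ≃ₐ[L'] L, τ • (Additive.toMul a : ideleClassS L S) = Additive.toMul a := by
    intro τ
    rw [← galRes_rest_smul_ideleClassS K L' L S τ]
    exact congrArg Additive.toMul (ha ⟨galRes K L L' L τ, galRes_mem_galKer K L' L τ⟩)
  obtain ⟨c', hc'⟩ := hdesc _ hfix
  exact ⟨Additive.ofMul c', congrArg Additive.ofMul hc'⟩

variable (hinj : Function.Injective (ideleClassSMap L' L S))
  (hdesc : ∀ c : ideleClassS L S, (∀ σ : L ≃ₐ[L'] L, σ • c = c) →
    ∃ c' : ideleClassS L' S, ideleClassSMap L' L S c' = c)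

/-- **Quotient transport** for `S`-idele classes:
`H^n(Gal(L/K)/galKer, C_S(L)^galKer) ≅ H^n(Gal(L'/K), C_S(L'))`. -/
def ideleClassSQuotIso (n : ℕ) :
    groupCohomology ((ideleClassSRep L (L ≃ₐ[K] L) S).quotientToInvariants (galKer K L' L)) n ≅
      groupCohomology (ideleClassSRep L' (L' ≃ₐ[K] L') S) n :=
  coeffQuotIso (galRes K L' K L) (ideleClassSRep L (L ≃ₐ[K] L) S)
    (ideleClassSRep L' (L' ≃ₐ[K] L') S) (ideleClassSGalHom K L' K L S)
    (ideleClassSGalHom_infl_injective K L' L S hinj)
    (ideleClassSGalHom_infl_desc K L' L S hdesc) (galRes_infl_surjective K L' L) n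

/-- The quotient transport identifies inflation from `Gal(L/K) ⧸ galKer` with
`ideleClassSGalMap K L' K L S`. -/
theorem ideleClassSQuotIso_inv_comp_inf (n : ℕ) :
    (ideleClassSQuotIso K L' L S hinj hdesc n).inv ≫
      groupCohomology.map (QuotientGroup.mk' (galKer K L' L))
        (ofHom <| (ideleClassSRep L (L ≃ₐ[K] L) S).ρ.quotientToInvariants_lift
          (galKer K L' L)) n =
      ideleClassSGalMap K L' K L S n :=
  coeffQuotIso_inv_comp_inf (galRes K L' K L) (ideleClassSRep L (L ≃ₐ[K] L) S)
    (ideleClassSRep L' (L' ≃ₐ[K] L') S) (ideleClassSGalHom K L' K L S)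
    (ideleClassSGalHom_infl_injective K L' L S hinj)
    (ideleClassSGalHom_infl_desc K L' L S hdesc) (galRes_infl_surjective K L' L) n

omit [Normal K L'] [FiniteDimensional K L] in
/-- **Subgroup transport** for `S`-idele classes: `H^n(galSub, C_S(L)) ≅ H^n(Gal(L/L'), C_S(L))`. -/
def ideleClassSSubIso (n : ℕ) :
    groupCohomology (res (galSub K L' L).subtype (ideleClassSRep L (L ≃ₐ[K] L) S)) n ≅
      groupCohomology (ideleClassSRep L (L ≃ₐ[L'] L) S) n :=
  coeffSubIso (galRes K L L' L) (galRes_rest_injective K L' L) (galSub K L' L) rfl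
    (ideleClassSRep L (L ≃ₐ[K] L) S) (ideleClassSRep L (L ≃ₐ[L'] L) S)
    (ideleClassSGalHom K L L' L S) (ideleClassSGalHom_rest_bijective K L' L S) n

omit [Normal K L'] [FiniteDimensional K L] in
/-- The subgroup transport identifies restriction to `galSub` with
`ideleClassSGalMap K L L' L S`. -/
theorem res_comp_ideleClassSSubIso_hom (n : ℕ) :
    groupCohomology.map (galSub K L' L).subtype (𝟙 _) n ≫ (ideleClassSSubIso K L' L S n).hom =
      ideleClassSGalMap K L L' L S n :=
  res_comp_coeffSubIso_hom (galRes K L L' L) (galRes_rest_injective K L' L) (galSub K L' L) rfl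
    (ideleClassSRep L (L ≃ₐ[K] L) S) (ideleClassSRep L (L ≃ₐ[L'] L) S)
    (ideleClassSGalHom K L L' L S) (ideleClassSGalHom_rest_bijective K L' L S) n

variable (h1 : Limits.IsZero (groupCohomology (ideleClassSRep L (L ≃ₐ[L'] L) S) 1))

include hinj hdesc h1

/-- **Inflation is injective** on `H²` of `S`-idele classes:
`H²(L'/K, C_S(L')) ↪ H²(L/K, C_S(L))`, given `H¹(L/L', C_S(L)) = 0`. -/
theorem ideleClassSInfl_two_injective :
    Function.Injective (ideleClassSGalMap K L' K L S 2).hom :=
  coeffInfl_two_injective (galRes K L' K L) (galRes_infl_surjective K L' L) (galRes K L L' L)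
    (galRes_rest_injective K L' L) (galKer_eq_galSub K L' L).symm
    (ideleClassSRep L (L ≃ₐ[K] L) S) (ideleClassSRep L' (L' ≃ₐ[K] L') S)
    (ideleClassSRep L (L ≃ₐ[L'] L) S) (ideleClassSGalHom K L' K L S)
    (ideleClassSGalHom K L L' L S) (ideleClassSGalHom_infl_injective K L' L S hinj)
    (ideleClassSGalHom_infl_desc K L' L S hdesc) (ideleClassSGalHom_rest_bijective K L' L S) h1

/-- **Inflation–restriction exactness** on `H²` of `S`-idele classes: a class of
`H²(L/K, C_S(L))` which restricts to zero in `H²(L/L', C_S(L))` is inflated from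
`H²(L'/K, C_S(L'))`. -/
theorem exists_ideleClassSInfl_eq_of_rest_eq_zero
    (x : groupCohomology (ideleClassSRep L (L ≃ₐ[K] L) S) 2)
    (hx : (ideleClassSGalMap K L L' L S 2).hom x = 0) :
    ∃ y : groupCohomology (ideleClassSRep L' (L' ≃ₐ[K] L') S) 2,
      (ideleClassSGalMap K L' K L S 2).hom y = x :=
  exists_coeffInfl_eq_of_rest_eq_zero (galRes K L' K L) (galRes_infl_surjective K L' L)
    (galRes K L L' L) (galRes_rest_injective K L' L) (galKer_eq_galSub K L' L).symm
    (ideleClassSRep L (L ≃ₐ[K] L) S) (ideleClassSRep L' (L' ≃ₐ[K] L') S)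
    (ideleClassSRep L (L ≃ₐ[L'] L) S) (ideleClassSGalHom K L' K L S)
    (ideleClassSGalHom K L L' L S) (ideleClassSGalHom_infl_injective K L' L S hinj)
    (ideleClassSGalHom_infl_desc K L' L S hdesc) (ideleClassSGalHom_rest_bijective K L' L S) h1
    x hx

end InfRes

end

end Fermat.Agent.CFT
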