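import Fermat.Agent.CFT.Global.IdeleGalMapH2
import Fermat.Agent.CFT.Tate.ResCores

/-!
# The invariant map and the fundamental class of a cyclic layer (C6a, part b)

`L/K` a finite extension with cyclic automorphism group `G` of order `n`, in the idele model.
Given `invJ : H²(G, J_L) →+ ℚ/ℤ` (`= AddCircle (1 : ℚ)`) which vanishes on the image of
`H²(G, Lˣ)` (reciprocity law), takes the value `1/n`, and the second inequality
`|H²(G, C_L)| ≤ n`, we construct the invariant `ψ : H²(G, C_L) →+ ℚ/ℤ`: injective,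
`ψ ∘ (H²(J_L) → H²(C_L)) = invJ`, with image `(1/n)ℤ/ℤ`; hence `H²(G, C_L)` is cyclic of order `n`
generated by the fundamental class `u` with `ψ u = 1/n`.

We also prove the compatibility of such invariants with Galois functoriality
(`ideleClassGalMap`), given the corresponding compatibility of the `invJ`'s.
-/

open CategoryTheory groupCohomology Rep

namespace Fermat.Agent.CFT

noncomputable section

section Circle

/-- `n`-torsion elements of `ℚ/ℤ` are multiples of `1/n`. -/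
lemma mem_zmultiples_one_div_of_nsmul_eq_zero {n : ℕ} (hn : 0 < n) (t : AddCircle (1 : ℚ))
    (ht : n • t = 0) :
    t ∈ AddSubgroup.zmultiples ((((1 : ℚ) / (n : ℚ) : ℚ)) : AddCircle (1 : ℚ)) := by
  obtain ⟨q, rfl⟩ := QuotientAddGroup.mk_surjective t
  have h1 : ((n • q : ℚ) : AddCircle (1 : ℚ)) = 0 := ht
  rw [AddCircle.coe_eq_zero_iff] at h1
  obtain ⟨m, hm⟩ := h1
  rw [AddSubgroup.mem_zmultiples_iff]
  refine ⟨m, ?_⟩
  have hn' : (n : ℚ) ≠ 0 := by exact_mod_cast hn.ne'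
  have hq : q = m • ((1 : ℚ) / (n : ℚ)) := by
    rw [zsmul_eq_mul, nsmul_eq_mul] at *
    field_simp
    linarith
  rw [hq]
  rfl

lemma addOrderOf_one_div {n : ℕ} (hn : 0 < n) :
    addOrderOf ((((1 : ℚ) / (n : ℚ) : ℚ)) : AddCircle (1 : ℚ)) = n :=
  AddCircle.addOrderOf_period_div hn

lemma card_zmultiples_one_div {n : ℕ} (hn : 0 < n) :
    Nat.card (AddSubgroup.zmultiples ((((1 : ℚ) / (n : ℚ) : ℚ)) : AddCircle (1 : ℚ))) = n := by
  rw [Nat.card_zmultiples, addOrderOf_one_div hn]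

end Circle

section Fund

variable {K L : Type} [Field K] [Field L] [Algebra K L]

/-- **The invariant of a cyclic layer.**  `n = |Gal(L/K)|`. -/
theorem exists_cyclicLayerInv [FiniteDimensional K L] [IsCyclic (L ≃ₐ[K] L)]
    (h : PrincipalIsIdele L) (hinj : Function.Injective (principalIdele L))
    (invJ : groupCohomology (ideleRep L (L ≃ₐ[K] L)) 2 →+ AddCircle (1 : ℚ))
    (hrec : ∀ x, invJ ((ideleH2f K h).hom x) = 0)
    [Finite (groupCohomology (ideleClassRep L (L ≃ₐ[K] L)) 2)]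
    (hsecond : Nat.card (groupCohomology (ideleClassRep L (L ≃ₐ[K] L)) 2) ≤
      Nat.card (L ≃ₐ[K] L))
    (hval : ∃ z, invJ z = ((((1 : ℚ) / (Nat.card (L ≃ₐ[K] L) : ℚ) : ℚ)) : AddCircle (1 : ℚ))) :
    ∃ ψ : groupCohomology (ideleClassRep L (L ≃ₐ[K] L)) 2 →+ AddCircle (1 : ℚ),
      Function.Injective ψ ∧ (∀ y, ψ ((ideleH2g K (L := L)).hom y) = invJ y) ∧
      ψ.range = AddSubgroup.zmultiples
        ((((1 : ℚ) / (Nat.card (L ≃ₐ[K] L) : ℚ) : ℚ)) : AddCircle (1 : ℚ)) ∧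
      Nat.card (groupCohomology (ideleClassRep L (L ≃ₐ[K] L)) 2) = Nat.card (L ≃ₐ[K] L) := by
  have hfin : Finite (L ≃ₐ[K] L) := inferInstance
  have hn : 0 < Nat.card (L ≃ₐ[K] L) := Nat.card_pos
  -- the range of `invJ` is `(1/n)ℤ/ℤ`
  have hrange : invJ.range = AddSubgroup.zmultiples
      ((((1 : ℚ) / (Nat.card (L ≃ₐ[K] L) : ℚ) : ℚ)) : AddCircle (1 : ℚ)) := by
    apply le_antisymm
    · rintro _ ⟨z, rfl⟩
      apply mem_zmultiples_one_div_of_nsmul_eq_zero hn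
      rw [← map_nsmul]
      have := card_nsmul_groupCohomology_eq_zero (ideleRep L (L ≃ₐ[K] L)) 1 z
      rw [this, map_zero]
    · rw [AddSubgroup.zmultiples_le]
      obtain ⟨z, hz⟩ := hval
      exact ⟨z, hz⟩
  have hcard : Nat.card (groupCohomology (ideleClassRep L (L ≃ₐ[K] L)) 2) ≤
      Nat.card invJ.range := by
    rw [hrange, card_zmultiples_one_div hn]
    exact hsecond
  obtain ⟨_, ψ, hψinj, hψg, hψrange⟩ := ideleCyclicLayer_ker_inv h hinj invJ hrec hcard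
  refine ⟨ψ, hψinj, hψg, hψrange.trans hrange, ?_⟩
  have e : groupCohomology (ideleClassRep L (L ≃ₐ[K] L)) 2 ≃ ψ.range :=
    Equiv.ofInjective ψ hψinj
  rw [Nat.card_congr e, hψrange, hrange, card_zmultiples_one_div hn]

/-- **The fundamental class of a cyclic layer**: given an invariant `ψ` as in
`exists_cyclicLayerInv`, there is a unique class `u` with `ψ u = 1/n`, and it generates. -/
theorem exists_fundamentalClass {M : Type*} [AddCommGroup M] (n : ℕ)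
    (ψ : M →+ AddCircle (1 : ℚ)) (hψinj : Function.Injective ψ)
    (hψrange : ψ.range = AddSubgroup.zmultiples
      ((((1 : ℚ) / (n : ℚ) : ℚ)) : AddCircle (1 : ℚ))) :
    ∃ u : M, ψ u = ((((1 : ℚ) / (n : ℚ) : ℚ)) : AddCircle (1 : ℚ)) ∧
      (∀ x : M, x ∈ AddSubgroup.zmultiples u) ∧
      ∀ u' : M, ψ u' = ((((1 : ℚ) / (n : ℚ) : ℚ)) : AddCircle (1 : ℚ)) → u' = u := by
  have h1 : ((((1 : ℚ) / (n : ℚ) : ℚ)) : AddCircle (1 : ℚ)) ∈ ψ.range := by
    rw [hψrange]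
    exact AddSubgroup.mem_zmultiples _
  obtain ⟨u, hu⟩ := h1
  refine ⟨u, hu, fun x => ?_, fun u' hu' => hψinj (hu'.trans hu.symm)⟩
  have h2 : ψ x ∈ ψ.range := ⟨x, rfl⟩
  rw [hψrange, AddSubgroup.mem_zmultiples_iff] at h2
  obtain ⟨m, hm⟩ := h2
  rw [AddSubgroup.mem_zmultiples_iff]
  refine ⟨m, hψinj ?_⟩
  rw [map_zsmul, hu, hm]

end Fund

section Compat

variable (K₁ L₁ K₂ L₂ : Type) [Field K₁] [Field L₁] [Field K₂] [Field L₂]
  [Algebra K₁ L₁] [Algebra K₂ L₂] [Algebra K₁ K₂] [Algebra L₁ L₂] [Algebra K₁ L₂]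
  [IsScalarTower K₁ K₂ L₂] [IsScalarTower K₁ L₁ L₂] [Normal K₁ L₁]

/-- **Compatibility of class invariants with Galois functoriality.**  If the idelic invariants
satisfy `invJ₂ ∘ ideleGalMap = d • invJ₁`, the class invariants `ψᵢ` (with `ψᵢ ∘ H²g = invJᵢ`)
satisfy `ψ₂ ∘ ideleClassGalMap = d • ψ₁`, provided `H²(J_{L₁}) → H²(C_{L₁})` is onto (e.g. the
layer `L₁/K₁` is cyclic).  `d = 1` for inflation, `d = [K₂ : K₁]` for restriction. -/
theorem classInv_galMap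
    (invJ₁ : groupCohomology (ideleRep L₁ (L₁ ≃ₐ[K₁] L₁)) 2 →+ AddCircle (1 : ℚ))
    (invJ₂ : groupCohomology (ideleRep L₂ (L₂ ≃ₐ[K₂] L₂)) 2 →+ AddCircle (1 : ℚ))
    (ψ₁ : groupCohomology (ideleClassRep L₁ (L₁ ≃ₐ[K₁] L₁)) 2 →+ AddCircle (1 : ℚ))
    (ψ₂ : groupCohomology (ideleClassRep L₂ (L₂ ≃ₐ[K₂] L₂)) 2 →+ AddCircle (1 : ℚ))
    (hψ₁ : ∀ y, ψ₁ ((ideleH2g K₁ (L := L₁)).hom y) = invJ₁ y)
    (hψ₂ : ∀ y, ψ₂ ((ideleH2g K₂ (L := L₂)).hom y) = invJ₂ y)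
    (hsurj : Function.Surjective (ideleH2g K₁ (L := L₁)).hom) (d : ℕ)
    (hcompat : ∀ y, invJ₂ ((ideleGalMap K₁ L₁ K₂ L₂ 2).hom y) = d • invJ₁ y)
    (x : groupCohomology (ideleClassRep L₁ (L₁ ≃ₐ[K₁] L₁)) 2) :
    ψ₂ ((ideleClassGalMap K₁ L₁ K₂ L₂ 2).hom x) = d • ψ₁ x := by
  obtain ⟨y, rfl⟩ := hsurj x
  rw [ideleClassGalMap_ideleH2g, hψ₂, hcompat, hψ₁]

end Compat

end

end Fermat.Agent.CFT
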