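import Mathlib
import Fermat.Agent.CFT.Global.IdeleDefs

/-!
# Layer C, node C5q (part 1): the product formula for tame cyclotomic symbols over `ℚ`

Fix a prime `ℓ` and an additive character `χ` of `(ℤ/ℓ)ˣ` with `χ (-1) = 0` (e.g. of odd order).
Suppose that for every prime `q` we are given a "local symbol" `s q : ℚ_qˣ → T`, additive, such that

* (unramified formula) for `q ≠ ℓ`: `s q b = v_q(b) • χ (q mod ℓ)`;
* (tame formula) for `q = ℓ`: `s ℓ u = - χ (u mod ℓ)` for `u ∈ ℤ_ℓˣ`, and `s ℓ ℓ = 0`.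

Then `∑_q s q b = 0` for every `b ∈ ℚˣ` (finite support).  This is the reciprocity law for the
characters of `Gal(ℚ(ζ_ℓ)/ℚ)`, in hypothesis form over the local theory.
-/

set_option autoImplicit false

open scoped Padic

namespace Fermat.Agent.CFT.CycloRecip

/-- The embedding `ℚˣ → ℚ_qˣ`. -/
noncomputable def ratUnit (q : ℕ) [Fact q.Prime] : ℚˣ →* ℚ_[q]ˣ :=
  Units.map ((algebraMap ℚ ℚ_[q] : ℚ →+* ℚ_[q]) : ℚ →* ℚ_[q])

@[simp] theorem ratUnit_coe (q : ℕ) [Fact q.Prime] (b : ℚˣ) :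
    ((ratUnit q b : ℚ_[q]ˣ) : ℚ_[q]) = ((b : ℚ) : ℚ_[q]) := rfl

/-- The embedding `ℤ_ℓˣ → ℚ_ℓˣ`. -/
noncomputable def intUnit (ℓ : ℕ) [Fact ℓ.Prime] : ℤ_[ℓ]ˣ →* ℚ_[ℓ]ˣ :=
  Units.map ((PadicInt.Coe.ringHom : ℤ_[ℓ] →+* ℚ_[ℓ]) : ℤ_[ℓ] →* ℚ_[ℓ])

@[simp] theorem intUnit_coe (ℓ : ℕ) [Fact ℓ.Prime] (u : ℤ_[ℓ]ˣ) :
    ((intUnit ℓ u : ℚ_[ℓ]ˣ) : ℚ_[ℓ]) = ((u : ℤ_[ℓ]) : ℚ_[ℓ]) := rfl

/-- Reduction `ℤ_ℓˣ → (ℤ/ℓ)ˣ`. -/
noncomputable def resUnit (ℓ : ℕ) [Fact ℓ.Prime] : ℤ_[ℓ]ˣ →* (ZMod ℓ)ˣ :=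
  Units.map ((PadicInt.toZMod : ℤ_[ℓ] →+* ZMod ℓ) : ℤ_[ℓ] →* ZMod ℓ)

@[simp] theorem resUnit_coe (ℓ : ℕ) [Fact ℓ.Prime] (u : ℤ_[ℓ]ˣ) :
    ((resUnit ℓ u : (ZMod ℓ)ˣ) : ZMod ℓ) = PadicInt.toZMod (u : ℤ_[ℓ]) := rfl

theorem coprime_of_prime_ne {q ℓ : ℕ} (hq : q.Prime) (hℓ : ℓ.Prime) (h : q ≠ ℓ) :
    Nat.Coprime q ℓ := (Nat.coprime_primes hq hℓ).mpr h

/-- The natural number `n` prime to `ℓ` as a unit of `ℚ`. -/
def natUnit (n : ℕ) (hn : n ≠ 0) : ℚˣ := Units.mk0 (n : ℚ) (Nat.cast_ne_zero.mpr hn)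

@[simp] theorem natUnit_coe (n : ℕ) (hn : n ≠ 0) : ((natUnit n hn : ℚˣ) : ℚ) = n := rfl

section Main

variable {ℓ : ℕ} [hℓ : Fact ℓ.Prime] {T : Type*} [AddCommGroup T]

/-- A natural number prime to `ℓ` as a unit of `ℤ_ℓ`. -/
noncomputable def natPadicUnit (n : ℕ) (hn : Nat.Coprime n ℓ) : ℤ_[ℓ]ˣ :=
  (PadicInt.isUnit_iff.mpr (by
    rw [PadicInt.norm_natCast_eq_one_iff]
    exact hn.symm) : IsUnit (n : ℤ_[ℓ])).unit

@[simp] theorem natPadicUnit_coe (n : ℕ) (hn : Nat.Coprime n ℓ) :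
    ((natPadicUnit n hn : ℤ_[ℓ]ˣ) : ℤ_[ℓ]) = n := rfl

theorem resUnit_natPadicUnit (n : ℕ) (hn : Nat.Coprime n ℓ) :
    resUnit ℓ (natPadicUnit n hn) = ZMod.unitOfCoprime n hn := by
  apply Units.ext
  simp

theorem intUnit_natPadicUnit (n : ℕ) (hn : Nat.Coprime n ℓ) (hn0 : n ≠ 0) :
    intUnit ℓ (natPadicUnit n hn) = ratUnit ℓ (natUnit n hn0) := by
  apply Units.ext
  simp

variable (χ : (ZMod ℓ)ˣ → T) (s : ∀ q : Nat.Primes, ℚ_[q]ˣ → T)

/-- The statement for a single `b`. -/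
def Good (b : ℚˣ) : Prop :=
  (Function.support fun q : Nat.Primes => s q (ratUnit q b)).Finite ∧
    ∑ᶠ q : Nat.Primes, s q (ratUnit q b) = 0

variable {χ s}

section

variable (hs : ∀ (q : Nat.Primes) (a b : ℚ_[q]ˣ), s q (a * b) = s q a + s q b)
include hs

theorem s_one (q : Nat.Primes) : s q 1 = 0 := by
  have := hs q 1 1
  rw [mul_one] at this
  exact left_eq_add.mp this

theorem s_inv (q : Nat.Primes) (a : ℚ_[q]ˣ) : s q a⁻¹ = - s q a := by
  have := hs q a a⁻¹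
  rw [mul_inv_cancel, s_one hs] at this
  exact (neg_eq_of_add_eq_zero_right this.symm).symm

theorem good_one : Good s 1 := by
  have h : (fun q : Nat.Primes => s q (ratUnit q 1)) = fun _ => 0 := by
    funext q
    rw [map_one, s_one hs]
  refine ⟨?_, ?_⟩
  · rw [h]; simp
  · rw [h]; simp

theorem good_mul {a b : ℚˣ} (ha : Good s a) (hb : Good s b) : Good s (a * b) := by
  have h : (fun q : Nat.Primes => s q (ratUnit q (a * b))) =
      (fun q : Nat.Primes => s q (ratUnit q a)) + fun q : Nat.Primes => s q (ratUnit q b) := by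
    funext q
    rw [map_mul, hs, Pi.add_apply]
  refine ⟨?_, ?_⟩
  · rw [h]
    exact (ha.1.union hb.1).subset (Function.support_add _ _)
  · rw [h]
    show ∑ᶠ q : Nat.Primes, (s q (ratUnit q a) + s q (ratUnit q b)) = 0
    rw [finsum_add_distrib ha.1 hb.1, ha.2, hb.2, add_zero]

theorem good_inv {a : ℚˣ} (ha : Good s a) : Good s a⁻¹ := by
  have h : (fun q : Nat.Primes => s q (ratUnit q a⁻¹)) =
      -(fun q : Nat.Primes => s q (ratUnit q a)) := by
    funext q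
    rw [map_inv, s_inv hs, Pi.neg_apply]
  refine ⟨?_, ?_⟩
  · rw [h, Function.support_neg]
    exact ha.1
  · rw [h]
    show ∑ᶠ q : Nat.Primes, -(s q (ratUnit q a)) = 0
    rw [finsum_neg_distrib, ha.2, neg_zero]

end

section Gens

variable (hs : ∀ (q : Nat.Primes) (a b : ℚ_[q]ˣ), s q (a * b) = s q a + s q b)
  (hneg : χ (-1) = 0)
  (hunr : ∀ (q : Nat.Primes) (hq : (q : ℕ) ≠ ℓ) (b : ℚ_[q]ˣ),
      s q b = (b : ℚ_[q]).valuation • χ (ZMod.unitOfCoprime q (coprime_of_prime_ne q.2 hℓ.out hq)))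
  (htame : ∀ u : ℤ_[ℓ]ˣ, s ⟨ℓ, hℓ.out⟩ (intUnit ℓ u) = - χ (resUnit ℓ u))
  (htameℓ : s ⟨ℓ, hℓ.out⟩ (ratUnit ℓ (natUnit ℓ hℓ.out.ne_zero)) = 0)

include hunr in
/-- Outside `ℓ` and the primes dividing `b`, the symbol vanishes. -/
theorem s_eq_zero_of_valuation_eq_zero (q : Nat.Primes) (hq : (q : ℕ) ≠ ℓ) (b : ℚˣ)
    (hv : padicValRat q (b : ℚ) = 0) : s q (ratUnit q b) = 0 := by
  rw [hunr q hq, ratUnit_coe, Padic.valuation_ratCast, hv, zero_smul]

include hunr htame in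
theorem good_prime_ne (r : ℕ) (hr : r.Prime) (hrℓ : r ≠ ℓ) : Good s (natUnit r hr.ne_zero) := by
  classical
  have hrF : Fact r.Prime := ⟨hr⟩
  have hsub : (Function.support fun q : Nat.Primes => s q (ratUnit q (natUnit r hr.ne_zero))) ⊆
      (({⟨r, hr⟩, ⟨ℓ, hℓ.out⟩} : Finset Nat.Primes) : Set Nat.Primes) := by
    intro q hq
    by_contra hnot
    simp only [Finset.coe_insert, Finset.coe_singleton, Set.mem_insert_iff,
      Set.mem_singleton_iff, not_or] at hnot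
    apply hq
    have hqℓ : (q : ℕ) ≠ ℓ := fun h => hnot.2 (Subtype.ext h)
    have hqr : (q : ℕ) ≠ r := fun h => hnot.1 (Subtype.ext h)
    apply s_eq_zero_of_valuation_eq_zero hunr q hqℓ
    rw [natUnit_coe, padicValRat.of_nat]
    exact_mod_cast padicValNat_primes hqr
  refine ⟨(Finset.finite_toSet _).subset hsub, ?_⟩
  rw [finsum_eq_sum_of_support_subset _ hsub]
  have hne : (⟨r, hr⟩ : Nat.Primes) ≠ ⟨ℓ, hℓ.out⟩ := fun h => hrℓ (congrArg Subtype.val h)
  rw [Finset.sum_pair (f := fun q : Nat.Primes => s q (ratUnit q (natUnit r hr.ne_zero))) hne]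
  have h1 : s ⟨r, hr⟩ (ratUnit r (natUnit r hr.ne_zero)) =
      χ (ZMod.unitOfCoprime r (coprime_of_prime_ne hr hℓ.out hrℓ)) := by
    rw [hunr ⟨r, hr⟩ hrℓ, ratUnit_coe, natUnit_coe]
    have : ((r : ℚ) : ℚ_[r]).valuation = 1 := by
      have := Padic.valuation_p (p := r)
      simpa using this
    rw [this, one_smul]
  have h2 : s ⟨ℓ, hℓ.out⟩ (ratUnit ℓ (natUnit r hr.ne_zero)) =
      - χ (ZMod.unitOfCoprime r (coprime_of_prime_ne hr hℓ.out hrℓ)) := by
    rw [← intUnit_natPadicUnit r (coprime_of_prime_ne hr hℓ.out hrℓ) hr.ne_zero, htame,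
      resUnit_natPadicUnit]
  rw [h1, h2, add_neg_cancel]

include hunr htameℓ in
theorem good_prime_self : Good s (natUnit ℓ hℓ.out.ne_zero) := by
  classical
  have hsub : (Function.support fun q : Nat.Primes =>
      s q (ratUnit q (natUnit ℓ hℓ.out.ne_zero))) ⊆
      (({⟨ℓ, hℓ.out⟩} : Finset Nat.Primes) : Set Nat.Primes) := by
    intro q hq
    by_contra hnot
    simp only [Finset.coe_singleton, Set.mem_singleton_iff] at hnot
    apply hq
    have hqℓ : (q : ℕ) ≠ ℓ := fun h => hnot (Subtype.ext h)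
    apply s_eq_zero_of_valuation_eq_zero hunr q hqℓ
    rw [natUnit_coe, padicValRat.of_nat]
    exact_mod_cast padicValNat_primes hqℓ
  refine ⟨(Finset.finite_toSet _).subset hsub, ?_⟩
  rw [finsum_eq_sum_of_support_subset _ hsub, Finset.sum_singleton]
  exact htameℓ

include hs hunr htame htameℓ in
theorem good_nat (n : ℕ) (hn : n ≠ 0) : Good s (natUnit n hn) := by
  induction n using induction_on_primes with
  | zero => exact absurd rfl hn
  | one =>
    have : natUnit 1 hn = 1 := Units.ext (by simp)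
    rw [this]
    exact good_one hs
  | prime_mul r a hr ih =>
    have ha : a ≠ 0 := fun h => hn (by rw [h, mul_zero])
    have : natUnit (r * a) hn = natUnit r hr.ne_zero * natUnit a ha := Units.ext (by simp)
    rw [this]
    refine good_mul hs ?_ (ih ha)
    by_cases hrℓ : r = ℓ
    · subst hrℓ
      exact good_prime_self hunr htameℓ
    · exact good_prime_ne hunr htame r hr hrℓ

include hneg hunr htame in
theorem good_neg_one : Good s (-1) := by
  classical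
  have hsub : (Function.support fun q : Nat.Primes => s q (ratUnit q (-1))) ⊆
      (({⟨ℓ, hℓ.out⟩} : Finset Nat.Primes) : Set Nat.Primes) := by
    intro q hq
    by_contra hnot
    simp only [Finset.coe_singleton, Set.mem_singleton_iff] at hnot
    apply hq
    have hqℓ : (q : ℕ) ≠ ℓ := fun h => hnot (Subtype.ext h)
    apply s_eq_zero_of_valuation_eq_zero hunr q hqℓ
    simp
  refine ⟨(Finset.finite_toSet _).subset hsub, ?_⟩
  rw [finsum_eq_sum_of_support_subset _ hsub, Finset.sum_singleton]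
  have h1 : ratUnit ℓ (-1) = intUnit ℓ (-1) := Units.ext (by simp)
  rw [h1, htame]
  have h2 : resUnit ℓ (-1) = -1 := Units.ext (by simp)
  rw [h2, hneg, neg_zero]

include hs hneg hunr htame htameℓ in
/-- **Product formula** for the tame cyclotomic symbols over `ℚ`. -/
theorem good_all (b : ℚˣ) : Good s b := by
  have hnat := good_nat hs hunr htame htameℓ
  -- `b = ± num.natAbs / den`
  have hnum : (b : ℚ).num.natAbs ≠ 0 := by
    rw [Int.natAbs_ne_zero, Rat.num_ne_zero]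
    exact b.ne_zero
  have hden : (b : ℚ).den ≠ 0 := (b : ℚ).den_ne_zero
  rcases le_or_gt 0 (b : ℚ).num with hpos | hnegv
  · have : b = natUnit _ hnum * (natUnit _ hden)⁻¹ := by
      apply Units.ext
      simp only [Units.val_mul, natUnit_coe, Units.val_inv_eq_inv_val]
      rw [← div_eq_mul_inv]
      conv_lhs => rw [← Rat.num_div_den (b : ℚ)]
      congr 1
      rw [← Int.cast_natCast, Int.natAbs_of_nonneg hpos]
    rw [this]
    exact good_mul hs (hnat _ hnum) (good_inv hs (hnat _ hden))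
  · have : b = -1 * (natUnit _ hnum * (natUnit _ hden)⁻¹) := by
      apply Units.ext
      simp only [Units.val_mul, natUnit_coe, Units.val_inv_eq_inv_val, Units.val_neg,
        Units.val_one]
      rw [← div_eq_mul_inv]
      conv_lhs => rw [← Rat.num_div_den (b : ℚ)]
      rw [neg_one_mul, ← neg_div]
      congr 1
      rw [← Int.cast_natCast, Int.ofNat_natAbs_of_nonpos hnegv.le]
      simp
    rw [this]
    exact good_mul hs (good_neg_one hneg hunr htame)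
      (good_mul hs (hnat _ hnum) (good_inv hs (hnat _ hden)))

end Gens

end Main

end Fermat.Agent.CFT.CycloRecip
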