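import Mathlib
import Fermat.Agent.CFT.Global.IdeleDefs

/-!
# Layer C, node C5q (part 2): local fields of the idele model and the local–global norm formula

For a number field `K`, a prime `q` and an embedding `τ : K →+* ℚ̄_q` (`LocalEmb q K`):

* `locField τ = ℚ_q(τ K) ⊆ ℚ̄_q`, finite over `ℚ_q`; `locGen τ : K →+* locField τ`;
* `orbitEquiv τ`: the `ℚ_q`-embeddings of `locField τ` into `ℚ̄_q` are the elements of the
  `Gq`-orbit of `τ`;
* `prod_orbit_eq_norm`: `∏_{τ' ∈ Gq τ} τ' a = N_{K_τ/ℚ_q}(τ a)`;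
* `prod_locNorm_eq_norm`: `∏_{v ∣ q} N_{K_v/ℚ_q}(a) = N_{K/ℚ}(a)` in `ℚ_q`
  (product over the `Gq`-orbits on `LocalEmb q K`).
-/

set_option autoImplicit false

open scoped Padic
open IntermediateField

noncomputable section

namespace Fermat.Agent.CFT.CycloRecip

open Fermat.Agent.CFT

variable {q : ℕ} [Fact q.Prime] {K : Type} [Field K]

/-- The local field `K_τ = ℚ_q(τ K)`. -/
def locField (τ : LocalEmb q K) : IntermediateField ℚ_[q] (PadicAlgCl q) :=
  IntermediateField.adjoin ℚ_[q] (Set.range τ)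

theorem apply_mem_locField (τ : LocalEmb q K) (a : K) : τ a ∈ locField τ :=
  IntermediateField.subset_adjoin _ _ ⟨a, rfl⟩

/-- `τ` with codomain `K_τ`. -/
def locGen (τ : LocalEmb q K) : K →+* locField τ where
  toFun a := ⟨τ a, apply_mem_locField τ a⟩
  map_one' := Subtype.ext (map_one τ)
  map_mul' a b := Subtype.ext (map_mul τ a b)
  map_zero' := Subtype.ext (map_zero τ)
  map_add' a b := Subtype.ext (map_add τ a b)

@[simp] theorem locGen_coe (τ : LocalEmb q K) (a : K) :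
    ((locGen τ a : locField τ) : PadicAlgCl q) = τ a := rfl

/-- An embedding of `K_τ` into `ℚ̄_q` over `ℚ_q` gives an embedding of `K`. -/
def embOfAlgHom (τ : LocalEmb q K) (σ : locField τ →ₐ[ℚ_[q]] PadicAlgCl q) : LocalEmb q K :=
  (σ : locField τ →+* PadicAlgCl q).comp (locGen τ)

@[simp] theorem embOfAlgHom_apply (τ : LocalEmb q K) (σ : locField τ →ₐ[ℚ_[q]] PadicAlgCl q)
    (a : K) : embOfAlgHom τ σ a = σ (locGen τ a) := rfl

theorem embOfAlgHom_injective (τ : LocalEmb q K) : Function.Injective (embOfAlgHom τ) := by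
  intro σ₁ σ₂ h
  apply IntermediateField.algHom_ext_of_eq_adjoin ℚ_[q] (S := locField τ) (s := Set.range τ) rfl
  rintro x ⟨a, rfl⟩
  exact RingHom.congr_fun h a

/-- Every `ℚ_q`-embedding of `K_τ` is the restriction of an element of `Gq`. -/
theorem exists_gq_extends (τ : LocalEmb q K) (σ : locField τ →ₐ[ℚ_[q]] PadicAlgCl q) :
    ∃ γ : Gq q, ∀ x : locField τ, γ (x : PadicAlgCl q) = σ x := by
  obtain ⟨φ, hφ⟩ := IsAlgClosed.surjective_domRestrict_of_isAlgebraic
    (K := ℚ_[q]) (L := locField τ) (M := PadicAlgCl q) (E := PadicAlgCl q) σ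
  have hbij : Function.Bijective φ := Algebra.IsAlgebraic.algHom_bijective φ
  refine ⟨AlgEquiv.ofBijective φ hbij, fun x => ?_⟩
  have := AlgHom.congr_fun hφ x
  exact this

theorem embOfAlgHom_mem_orbit (τ : LocalEmb q K) (σ : locField τ →ₐ[ℚ_[q]] PadicAlgCl q) :
    embOfAlgHom τ σ ∈ MulAction.orbit (Gq q) τ := by
  obtain ⟨γ, hγ⟩ := exists_gq_extends τ σ
  refine ⟨γ, ?_⟩
  ext a
  rw [localEmb_smul_apply, embOfAlgHom_apply, ← hγ, locGen_coe]

/-- The restriction of `γ ∈ Gq` to `K_τ`. -/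
def algHomOfGq (τ : LocalEmb q K) (γ : Gq q) : locField τ →ₐ[ℚ_[q]] PadicAlgCl q :=
  (γ : PadicAlgCl q →ₐ[ℚ_[q]] PadicAlgCl q).comp (locField τ).val

theorem embOfAlgHom_algHomOfGq (τ : LocalEmb q K) (γ : Gq q) :
    embOfAlgHom τ (algHomOfGq τ γ) = γ • τ := by
  ext a
  rfl

/-- The `ℚ_q`-embeddings of `K_τ` are the elements of the `Gq`-orbit of `τ`. -/
def orbitEquiv (τ : LocalEmb q K) :
    (locField τ →ₐ[ℚ_[q]] PadicAlgCl q) ≃ MulAction.orbit (Gq q) τ :=
  Equiv.ofBijective (fun σ => ⟨embOfAlgHom τ σ, embOfAlgHom_mem_orbit τ σ⟩) (by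
    constructor
    · intro σ₁ σ₂ h
      exact embOfAlgHom_injective τ (congrArg Subtype.val h)
    · rintro ⟨τ', γ, rfl⟩
      exact ⟨algHomOfGq τ γ, Subtype.ext (embOfAlgHom_algHomOfGq τ γ)⟩)

@[simp] theorem orbitEquiv_apply_coe (τ : LocalEmb q K)
    (σ : locField τ →ₐ[ℚ_[q]] PadicAlgCl q) :
    ((orbitEquiv τ σ : MulAction.orbit (Gq q) τ) : LocalEmb q K) = embOfAlgHom τ σ := rfl

/-! ### Finiteness of `K_τ / ℚ_q` -/

section Finite

variable [NumberField K]

/-- `τ` as a `ℚ`-algebra homomorphism. -/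
def embAlgHom (τ : LocalEmb q K) : K →ₐ[ℚ] PadicAlgCl q := RingHom.equivRatAlgHom K (PadicAlgCl q) τ

@[simp] theorem embAlgHom_apply (τ : LocalEmb q K) (a : K) : embAlgHom τ a = τ a := rfl

theorem isIntegral_apply (τ : LocalEmb q K) (a : K) : IsIntegral ℚ_[q] (τ a) := by
  have h1 : IsIntegral ℚ a := Algebra.IsIntegral.isIntegral a
  have h2 : IsIntegral ℚ (embAlgHom τ a) := h1.map (embAlgHom τ)
  exact h2.tower_top

theorem locField_eq_adjoin_simple (τ : LocalEmb q K) {θ : K} (hθ : ℚ⟮θ⟯ = ⊤) :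
    locField τ = ℚ_[q]⟮τ θ⟯ := by
  apply le_antisymm
  · rw [locField, IntermediateField.adjoin_le_iff]
    rintro x ⟨a, rfl⟩
    -- the preimage of `ℚ_q(τ θ)` is a subfield of `K` containing `θ`
    have hmem : a ∈ (IntermediateField.comap (embAlgHom τ)
        ((ℚ_[q]⟮τ θ⟯).restrictScalars ℚ) : IntermediateField ℚ K) := by
      have htop : (⊤ : IntermediateField ℚ K) ≤ IntermediateField.comap (embAlgHom τ)
          ((ℚ_[q]⟮τ θ⟯).restrictScalars ℚ) := by
        rw [← hθ, IntermediateField.adjoin_simple_le_iff]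
        show embAlgHom τ θ ∈ (ℚ_[q]⟮τ θ⟯).restrictScalars ℚ
        exact IntermediateField.mem_adjoin_simple_self ℚ_[q] (τ θ)
      exact htop IntermediateField.mem_top
    exact hmem
  · rw [IntermediateField.adjoin_simple_le_iff]
    exact apply_mem_locField τ θ

theorem finiteDimensional_locField (τ : LocalEmb q K) : FiniteDimensional ℚ_[q] (locField τ) := by
  obtain ⟨θ, hθ⟩ := Field.exists_primitive_element ℚ K
  rw [locField_eq_adjoin_simple τ hθ]
  exact IntermediateField.adjoin.finiteDimensional (isIntegral_apply τ θ)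

end Finite

/-! ### Norms -/

section Norm

variable [NumberField K]

/-- The local norm `N_{K_τ/ℚ_q}(τ a)`. -/
def locNorm (τ : LocalEmb q K) (a : K) : ℚ_[q] := Algebra.norm ℚ_[q] (locGen τ a)

omit [NumberField K] in
theorem locNorm_mul (τ : LocalEmb q K) (a b : K) : locNorm τ (a * b) = locNorm τ a * locNorm τ b := by
  rw [locNorm, map_mul, map_mul, locNorm, locNorm]

omit [NumberField K] in
theorem locNorm_one (τ : LocalEmb q K) : locNorm τ (1 : K) = 1 := by
  rw [locNorm, map_one, map_one]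

/-- `∏_{τ' ∈ Gq τ} τ' a = N_{K_τ/ℚ_q}(τ a)`. -/
theorem prod_orbit_eq_norm (τ : LocalEmb q K) (a : K) [Fintype (MulAction.orbit (Gq q) τ)] :
    ∏ τ' : MulAction.orbit (Gq q) τ, (τ' : LocalEmb q K) a =
      algebraMap ℚ_[q] (PadicAlgCl q) (locNorm τ a) := by
  have := finiteDimensional_locField τ
  rw [locNorm, Algebra.norm_eq_prod_embeddings ℚ_[q] (PadicAlgCl q) (locGen τ a)]
  symm
  exact Fintype.prod_equiv (orbitEquiv τ) _ _ (fun σ => rfl)

theorem locNorm_smul (γ : Gq q) (τ : LocalEmb q K) (a : K) : locNorm (γ • τ) a = locNorm τ a := by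
  classical
  apply (algebraMap ℚ_[q] (PadicAlgCl q)).injective
  have : Fintype (MulAction.orbit (Gq q) τ) := Fintype.ofFinite _
  have : Fintype (MulAction.orbit (Gq q) (γ • τ)) := Fintype.ofFinite _
  rw [← prod_orbit_eq_norm, ← prod_orbit_eq_norm]
  have h : MulAction.orbit (Gq q) (γ • τ) = MulAction.orbit (Gq q) τ := MulAction.orbit_smul γ τ
  exact Fintype.prod_equiv (Equiv.setCongr h) _ _ (fun _ => rfl)

/-- `∏_τ τ a = N_{K/ℚ}(a)`. -/
theorem prod_localEmb_eq_norm (a : K) :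
    ∏ τ : LocalEmb q K, τ a = algebraMap ℚ (PadicAlgCl q) (Algebra.norm ℚ a) := by
  rw [Algebra.norm_eq_prod_embeddings ℚ (PadicAlgCl q) a]
  exact Fintype.prod_equiv (RingHom.equivRatAlgHom K (PadicAlgCl q)) _ _ (fun τ => rfl)

/-- **Local–global norm formula**: `∏_{v ∣ q} N_{K_v/ℚ_q}(a) = N_{K/ℚ}(a)`. -/
theorem prod_locNorm_eq_norm (a : K)
    [Fintype (MulAction.orbitRel.Quotient (Gq q) (LocalEmb q K))] :
    ∏ v : MulAction.orbitRel.Quotient (Gq q) (LocalEmb q K), locNorm (Quotient.out v) a =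
      algebraMap ℚ ℚ_[q] (Algebra.norm ℚ a) := by
  classical
  apply (algebraMap ℚ_[q] (PadicAlgCl q)).injective
  rw [map_prod, ← IsScalarTower.algebraMap_apply, ← prod_localEmb_eq_norm (q := q) a]
  rw [← Fintype.prod_fiberwise (M := PadicAlgCl q)
    (fun τ : LocalEmb q K => (Quotient.mk'' τ : MulAction.orbitRel.Quotient (Gq q) (LocalEmb q K)))
    (fun τ : LocalEmb q K => τ a)]
  refine Finset.prod_congr rfl fun v _ => ?_
  have : Fintype (MulAction.orbit (Gq q) (Quotient.out v)) := Fintype.ofFinite _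
  rw [← prod_orbit_eq_norm]
  have h : ∀ τ : LocalEmb q K, τ ∈ MulAction.orbit (Gq q) (Quotient.out v) ↔
      (Quotient.mk'' τ : MulAction.orbitRel.Quotient (Gq q) (LocalEmb q K)) = v := by
    intro τ
    rw [← MulAction.orbitRel_apply, ← Quotient.eq'', Quotient.out_eq']
  exact Fintype.prod_equiv (Equiv.subtypeEquivRight h)
    (fun τ' : MulAction.orbit (Gq q) (Quotient.out v) => (τ' : LocalEmb q K) a) _ (fun _ => rfl)

end Norm

end Fermat.Agent.CFT.CycloRecip

end
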