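import Mathlib
import Fermat.Agent.CFT.Global.CycloRecip
import Fermat.Agent.CFT.Global.LocalGlobalNorm

/-!
# Layer C, node C5q (part 3): the product formula for tame cyclotomic symbols over a number field

With the hypotheses of `CycloRecip.good_all` on the `ℚ_q`-symbols `s q` (unramified formula for
`q ≠ ℓ`, tame formula at `ℓ`), for every number field `K` and `a ∈ Kˣ`:
`∑_q ∑_{v ∣ q} s q (N_{K_v/ℚ_q} a) = 0`, the inner sum over the `Gq`-orbits on `LocalEmb q K`
(= places of `K` above `q`, idele model).  By the norm-compatibility (S4) of local symbols,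
`s q (N_{K_v/ℚ_q} a)` is the local symbol at `v` of `a` and the restricted character.
-/

set_option autoImplicit false

open scoped Padic

noncomputable section

namespace Fermat.Agent.CFT.CycloRecip

open Fermat.Agent.CFT

section LocNormUnit

variable {q : ℕ} [Fact q.Prime] {K : Type} [Field K] [NumberField K]

theorem locNorm_ne_zero (τ : LocalEmb q K) {a : K} (ha : a ≠ 0) : locNorm τ a ≠ 0 := by
  have := finiteDimensional_locField τ
  rw [locNorm, Ne, Algebra.norm_eq_zero_iff]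
  intro h
  apply ha
  have h2 : τ a = 0 := congrArg Subtype.val h
  exact (map_eq_zero τ).mp h2

/-- The local norm `Kˣ → ℚ_qˣ`, `a ↦ N_{K_τ/ℚ_q}(τ a)`. -/
def locNormUnit (τ : LocalEmb q K) : Kˣ →* ℚ_[q]ˣ where
  toFun a := Units.mk0 (locNorm τ (a : K)) (locNorm_ne_zero τ a.ne_zero)
  map_one' := Units.ext (by simp [locNorm_one])
  map_mul' a b := Units.ext (by simp [locNorm_mul])

@[simp] theorem locNormUnit_coe (τ : LocalEmb q K) (a : Kˣ) :
    ((locNormUnit τ a : ℚ_[q]ˣ) : ℚ_[q]) = locNorm τ (a : K) := rfl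

theorem locNormUnit_smul (γ : Gq q) (τ : LocalEmb q K) (a : Kˣ) :
    locNormUnit (γ • τ) a = locNormUnit τ a :=
  Units.ext (locNorm_smul γ τ a)

/-- The norm `Kˣ → ℚˣ`. -/
def normUnit (K : Type) [Field K] [NumberField K] : Kˣ →* ℚˣ :=
  Units.map ((Algebra.norm ℚ : K →* ℚ))

@[simp] theorem normUnit_coe (a : Kˣ) : ((normUnit K a : ℚˣ) : ℚ) = Algebra.norm ℚ (a : K) := rfl

/-- Local–global norm formula, in units. -/
theorem prod_locNormUnit_eq (a : Kˣ)
    [Fintype (MulAction.orbitRel.Quotient (Gq q) (LocalEmb q K))] :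
    ∏ v : MulAction.orbitRel.Quotient (Gq q) (LocalEmb q K), locNormUnit (Quotient.out v) a =
      ratUnit q (normUnit K a) := by
  apply Units.ext
  rw [Units.coe_prod]
  simp only [locNormUnit_coe, ratUnit_coe, normUnit_coe]
  exact prod_locNorm_eq_norm (a : K)

end LocNormUnit

section Main

variable {ℓ : ℕ} [hℓ : Fact ℓ.Prime] {T : Type*} [AddCommGroup T]
  {χ : (ZMod ℓ)ˣ → T} {s : ∀ q : Nat.Primes, ℚ_[q]ˣ → T}

theorem s_prod (hs : ∀ (q : Nat.Primes) (a b : ℚ_[q]ˣ), s q (a * b) = s q a + s q b)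
    (q : Nat.Primes) {ι : Type*} (t : Finset ι) (f : ι → ℚ_[q]ˣ) :
    s q (∏ i ∈ t, f i) = ∑ i ∈ t, s q (f i) := by
  classical
  induction t using Finset.induction_on with
  | empty => simp [s_one hs]
  | insert i t hi ih => rw [Finset.prod_insert hi, Finset.sum_insert hi, hs, ih]

/-- **Reciprocity for tame cyclotomic characters over a number field** (hypothesis form over the
local theory): `∑_q ∑_{v ∣ q} s q (N_{K_v/ℚ_q} a) = 0`. -/
theorem sum_places_eq_zero
    (hs : ∀ (q : Nat.Primes) (a b : ℚ_[q]ˣ), s q (a * b) = s q a + s q b)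
    (hneg : χ (-1) = 0)
    (hunr : ∀ (q : Nat.Primes) (hq : (q : ℕ) ≠ ℓ) (b : ℚ_[q]ˣ),
      s q b = (b : ℚ_[q]).valuation • χ (ZMod.unitOfCoprime q (coprime_of_prime_ne q.2 hℓ.out hq)))
    (htame : ∀ u : ℤ_[ℓ]ˣ, s ⟨ℓ, hℓ.out⟩ (intUnit ℓ u) = - χ (resUnit ℓ u))
    (htameℓ : s ⟨ℓ, hℓ.out⟩ (ratUnit ℓ (natUnit ℓ hℓ.out.ne_zero)) = 0)
    (K : Type) [Field K] [NumberField K]
    [∀ q : Nat.Primes, Fintype (MulAction.orbitRel.Quotient (Gq q) (LocalEmb q K))] (a : Kˣ) :
    (Function.support fun q : Nat.Primes =>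
        ∑ v : MulAction.orbitRel.Quotient (Gq q) (LocalEmb q K),
          s q (locNormUnit (Quotient.out v) a)).Finite ∧
      ∑ᶠ q : Nat.Primes, ∑ v : MulAction.orbitRel.Quotient (Gq q) (LocalEmb q K),
        s q (locNormUnit (Quotient.out v) a) = 0 := by
  have key : ∀ q : Nat.Primes, ∑ v : MulAction.orbitRel.Quotient (Gq q) (LocalEmb q K),
      s q (locNormUnit (Quotient.out v) a) = s q (ratUnit q (normUnit K a)) := by
    intro q
    rw [← s_prod hs, prod_locNormUnit_eq]
  simp_rw [key]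
  exact good_all hs hneg hunr htame htameℓ (normUnit K a)

end Main

end Fermat.Agent.CFT.CycloRecip

end
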