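import Fermat.Agent.CFT.Global.LocSquareRat
import Fermat.Agent.CFT.Local.InvFamilyUnram
import Fermat.Agent.CFT.Local.TameGlueUnram
import Fermat.Agent.CFT.Local.TameModulus

/-!
# Layer C / C5q: reciprocity for the cyclotomic field `ℚ(ζ_ℓ)/ℚ`

`I : LocalInvFamily` a family of local invariant systems, normalised on unramified layers
(`hI : ∀ q, (I q).IsUnramNormalized ℤ_q`; true for Layer B's `padicLocalInvFamily`).

* `ratLocalSymbol I χ q b`: the local symbol `(b, χ)_q` of a character `χ` of `Gal(E/ℚ)` at the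
  chosen place of `E` above `q`; `invJAt_rat_galSymClass`: it is the `q`-component of the idele
  invariant of the principal class `a ∪ δχ`.
* For `E = ℚ(ζ_ℓ)`: the completion is `ℚ_q(ζ_ℓ)` (`adjoin_absTopHom_eq_top`), the unramified
  formula `ratLocalSymbol_of_ne` (`q ≠ ℓ`), the tame formulas `ratLocalSymbol_self_aux` (`q = ℓ`).
* `good_ratLocalSymbol`: the product formula for the local symbols (from `CycloRecip.good_all`).
* **`invJFun_cyclo_galSymClass`**: `invJ (a ∪ δχ) = 0` (and finite support) for `a ∈ ℚˣ` and a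
  character `χ` of `Gal(ℚ(ζ_ℓ)/ℚ)` with values in `ℤ/n`, `n` odd.
-/

set_option autoImplicit false
set_option linter.unusedSectionVars false
set_option linter.style.haveILetI false

open CategoryTheory groupCohomology

open scoped Padic

noncomputable section

namespace Fermat.Agent.CFT

open GaloisTower

section General

variable {q : ℕ} [Fact q.Prime] {E : Type} [Field E] [NumberField E]

local notation "Ω" => PadicAlgCl q

/-- The completions of a normal number field are normal over `ℚ_q`. -/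
theorem normal_localFieldAt_rat [Normal ℚ E] (τ' : LocalEmb q E) :
    Normal ℚ_[q] (localFieldAt τ') := by
  rw [IntermediateField.normal_iff_forall_map_le']
  intro γ
  have h1 : localEmbRestrict ℚ τ' = localEmbRestrict ℚ (γ • τ') := RingHom.ext_rat _ _
  obtain ⟨s, hs, -⟩ := exists_unique_algEquiv_comp ℚ h1
  have h2 := localFieldAt_smul γ τ'
  rw [hs, localFieldAt_comp_algEquiv] at h2
  exact h2.symm.le

theorem isGalois_localFieldAt_rat [Normal ℚ E] (τ' : LocalEmb q E) :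
    IsGalois ℚ_[q] (localFieldAt τ') :=
  { to_isSeparable := inferInstance
    to_normal := normal_localFieldAt_rat τ' }

/-- `ℚ` has a unique place above `q`. -/
instance uniqueLocalPlaceRat : Unique (LocalPlace q ℚ) where
  default := LocalEmb.place (algebraMap ℚ Ω : ℚ →+* Ω)
  uniq ω := by
    induction ω using Quotient.inductionOn with
    | h τ => exact congrArg _ (RingHom.ext_rat _ _)

end General

section RatSymbol

variable {E : Type} [Field E] [NumberField E] [Normal ℚ E] (I : LocalInvFamily) {n : ℕ} [NeZero n]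

/-- The chosen embedding `E → ℚ̄_q`. -/
def ratEmb (E : Type) [Field E] [NumberField E] [Normal ℚ E] (q : Nat.Primes) :
    LocalEmb ((q : Nat.Primes) : ℕ) E :=
  placeLift ℚ (default : LocalPlace ((q : Nat.Primes) : ℕ) ℚ)

/-- The local symbol `(b, χ)_q` of a character of `Gal(E/ℚ)` at the chosen place above `q`. -/
def ratLocalSymbol (χ : (E ≃ₐ[ℚ] E) →* Multiplicative (ZMod n)) (q : Nat.Primes)
    (b : ℚ_[((q : Nat.Primes) : ℕ)]ˣ) : AddCircle (1 : ℚ) :=
  haveI := finiteDimensional_localFieldAt (ratEmb E q)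
  haveI := isGalois_localFieldAt_rat (ratEmb E q)
  (I q).toInvFamily.symbol n (localFieldAt (ratEmb E q)) (χ.comp (absSquare (ratEmb E q)).res) b

theorem ratLocalSymbol_mul (χ : (E ≃ₐ[ℚ] E) →* Multiplicative (ZMod n)) (q : Nat.Primes)
    (a b : ℚ_[((q : Nat.Primes) : ℕ)]ˣ) :
    ratLocalSymbol I χ q (a * b) = ratLocalSymbol I χ q a + ratLocalSymbol I χ q b := by
  unfold ratLocalSymbol InvFamily.symbol
  rw [galSymClass_mul, map_add]

/-- The `q`-component of the idele invariant of a symbol class over `ℚ` is the local symbol. -/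
theorem invJAt_rat_galSymClass (hE : PrincipalIsIdele E)
    (χ : (E ≃ₐ[ℚ] E) →* Multiplicative (ZMod n)) (a : ℚˣ) (q : Nat.Primes) :
    invJAt I ℚ q ((ideleH2f ℚ hE).hom (galSymClass ℚ E χ a)) =
      ratLocalSymbol I χ q (CycloRecip.ratUnit q a) := by
  haveI := finiteDimensional_localFieldAt (ratEmb E q)
  haveI := isGalois_localFieldAt_rat (ratEmb E q)
  show semiLocalInv I ℚ q _ = _
  rw [semiLocalInv_apply, finsum_unique]
  exact semiLocalInvAt_rat_galSymClass I hE q (ratEmb E q) χ a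

end RatSymbol

section Cyclo

variable {ℓ : ℕ} [Fact ℓ.Prime] {E : Type} [Field E] [NumberField E]
  [IsCyclotomicExtension {ℓ} ℚ E]

/-- The completion of `ℚ(ζ_ℓ)` at `τ'` is generated by the image of `ζ_ℓ`. -/
theorem adjoin_absTopHom_eq_top {q : ℕ} [Fact q.Prime] (τ' : LocalEmb q E) {ζ : E}
    (hζ : IsPrimitiveRoot ζ ℓ) :
    IntermediateField.adjoin ℚ_[q] {absTopHom τ' ζ} = ⊤ := by
  have h1 : IntermediateField.adjoin ℚ {ζ} = ⊤ :=
    IntermediateField.adjoin_eq_top_of_algebra _ _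
      (IsCyclotomicExtension.adjoin_primitive_root_eq_top hζ)
  have h2 := localFieldAt_eq_adjoin_simple τ' h1
  apply IntermediateField.map_injective (localFieldAt τ').val
  rw [IntermediateField.adjoin_map, Set.image_singleton, ← AlgHom.fieldRange_eq_map,
    IntermediateField.fieldRange_val]
  exact h2.symm

theorem isPrimitiveRoot_absTopHom {q : ℕ} [Fact q.Prime] (τ' : LocalEmb q E) {ζ : E}
    (hζ : IsPrimitiveRoot ζ ℓ) : IsPrimitiveRoot (absTopHom τ' ζ) ℓ :=
  hζ.map_of_injective (absTopHom τ').injective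

/-- An automorphism of `ℚ(ζ_ℓ)` with `ρ ζ = ζ ^ m` corresponds to `m mod ℓ`. -/
theorem eq_galEquivZMod_symm {ζ : E} (hζ : IsPrimitiveRoot ζ ℓ) (ρ : E ≃ₐ[ℚ] E) (m : ℕ)
    (c : (ZMod ℓ)ˣ) (h : ρ ζ = ζ ^ m) (hc : (c : ZMod ℓ) = (m : ZMod ℓ)) :
    ρ = (IsCyclotomicExtension.Rat.galEquivZMod ℓ E).symm c := by
  rw [MulEquiv.eq_symm_apply]
  apply Units.ext
  rw [hc]
  have h1 := IsCyclotomicExtension.Rat.galEquivZMod_apply_of_pow_eq ℓ E ρ hζ.pow_eq_one
  rw [h, (hζ.isOfFinOrder (NeZero.ne _)).pow_inj_mod, ← hζ.eq_orderOf,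
    ← ZMod.natCast_eq_natCast_iff', ZMod.natCast_val, ZMod.cast_id] at h1
  exact h1.symm

variable [Normal ℚ E]

/-- The global automorphism induced by a local one with `σ z = z ^ m`. -/
theorem absSquare_res_apply_of_pow {q : ℕ} [Fact q.Prime] (τ' : LocalEmb q E) {ζ : E}
    (σ : (localFieldAt τ') ≃ₐ[ℚ_[q]] (localFieldAt τ')) (m : ℕ)
    (h : σ (absTopHom τ' ζ) = absTopHom τ' ζ ^ m) : (absSquare τ').res σ ζ = ζ ^ m := by
  apply (absTopHom τ').injective
  rw [map_pow, ← h]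
  exact (absSquare τ').res_commutes σ ζ

end Cyclo

section Recip

variable {ℓ : ℕ} [hℓ : Fact ℓ.Prime] {E : Type} [Field E] [NumberField E]
  [IsCyclotomicExtension {ℓ} ℚ E] [Normal ℚ E] (I : LocalInvFamily) {n : ℕ} [NeZero n]
  (χ : (E ≃ₐ[ℚ] E) →* Multiplicative (ZMod n))

/-- The character of `(ℤ/ℓ)ˣ` with values in `ℚ/ℤ` attached to `χ`. -/
def cycloCharT (c : (ZMod ℓ)ˣ) : AddCircle (1 : ℚ) :=
  TameSym.zmodCircle n (χ ((IsCyclotomicExtension.Rat.galEquivZMod ℓ E).symm c)).toAdd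

variable (hI : ∀ q : Nat.Primes, (I q).IsUnramNormalized ℤ_[((q : Nat.Primes) : ℕ)])

include hI in
/-- The unramified formula: for `q ≠ ℓ`, `(b, χ)_q = v_q(b) • χ(q mod ℓ)`. -/
theorem ratLocalSymbol_of_ne (q : Nat.Primes) (hq : (q : ℕ) ≠ ℓ)
    (b : ℚ_[((q : Nat.Primes) : ℕ)]ˣ) :
    ratLocalSymbol I χ q b = (b : ℚ_[((q : Nat.Primes) : ℕ)]).valuation •
      cycloCharT χ (ZMod.unitOfCoprime q (CycloRecip.coprime_of_prime_ne q.2 hℓ.out hq)) := by
  haveI := finiteDimensional_localFieldAt (ratEmb E q)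
  haveI := isGalois_localFieldAt_rat (ratEmb E q)
  have hζ := IsCyclotomicExtension.zeta_spec ℓ ℚ E
  have hz := isPrimitiveRoot_absTopHom (ratEmb E q) hζ
  have htop := adjoin_absTopHom_eq_top (ratEmb E q) hζ
  obtain ⟨σ, hσ⟩ := TameSym.exists_aut_pow_prime hq (localFieldAt (ratEmb E q)) hz htop
  have h1 := TameSym.symbol_cyclo_unram hq (I q).toInvFamily
    (isUnramCompat_toInvFamily ℤ_[((q : Nat.Primes) : ℕ)] (I q) (hI q))
    (localFieldAt (ratEmb E q)) hz htop (χ.comp (absSquare (ratEmb E q)).res) σ hσ b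
  have h2 : (absSquare (ratEmb E q)).res σ = (IsCyclotomicExtension.Rat.galEquivZMod ℓ E).symm
      (ZMod.unitOfCoprime q (CycloRecip.coprime_of_prime_ne q.2 hℓ.out hq)) :=
    eq_galEquivZMod_symm hζ _ q _ (absSquare_res_apply_of_pow _ σ q hσ)
      (ZMod.coe_unitOfCoprime _ _)
  unfold ratLocalSymbol
  rw [h1, map_zsmul, MonoidHom.comp_apply, h2]
  rfl

include hI in
/-- The tame formula at `ℓ`: `(u, χ)_ℓ = - χ(u mod ℓ)` for `u ∈ ℤ_ℓˣ`, and `(ℓ, χ)_ℓ = 0`. -/
theorem ratLocalSymbol_self_aux :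
    (∀ u : ℤ_[ℓ]ˣ, ratLocalSymbol I χ ⟨ℓ, hℓ.out⟩ (CycloRecip.intUnit ℓ u) =
      - cycloCharT χ (CycloRecip.resUnit ℓ u)) ∧
    ratLocalSymbol I χ ⟨ℓ, hℓ.out⟩
      (CycloRecip.ratUnit ℓ (CycloRecip.natUnit ℓ hℓ.out.ne_zero)) = 0 := by
  set q : Nat.Primes := ⟨ℓ, hℓ.out⟩ with hq
  haveI := finiteDimensional_localFieldAt (ratEmb E q)
  haveI := isGalois_localFieldAt_rat (ratEmb E q)
  have hζ := IsCyclotomicExtension.zeta_spec ℓ ℚ E
  have hz := isPrimitiveRoot_absTopHom (ratEmb E q) hζ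
  have htop := adjoin_absTopHom_eq_top (ratEmb E q) hζ
  obtain ⟨h1, h2⟩ := TameSym.symbol_cyclo_char_all (I q).toInvFamily
    (isUnramCompat_toInvFamily ℤ_[((q : Nat.Primes) : ℕ)] (I q) (hI q))
    (localFieldAt (ratEmb E q)) hz htop (χ.comp (absSquare (ratEmb E q)).res)
  constructor
  · intro u
    obtain ⟨σ, hσ⟩ := TameSym.exists_aut_pow_padic (localFieldAt (ratEmb E q)) hz htop
      (CycloRecip.resUnit ℓ u)
    have h3 : (absSquare (ratEmb E q)).res σ = (IsCyclotomicExtension.Rat.galEquivZMod ℓ E).symm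
        (CycloRecip.resUnit ℓ u) :=
      eq_galEquivZMod_symm hζ _ _ _ (absSquare_res_apply_of_pow _ σ _ hσ)
        (ZMod.natCast_zmod_val _).symm
    have h4 := h1 u σ hσ
    unfold ratLocalSymbol
    refine h4.trans ?_
    rw [MonoidHom.comp_apply, h3]
    rfl
  · refine h2 _ ?_
    show (((ℓ : ℕ) : ℚ) : ℚ_[ℓ]) = ((ℓ : ℕ) : ℚ_[ℓ])
    exact Rat.cast_natCast ℓ

omit [Normal ℚ E] in
/-- An odd character is trivial on `-1`. -/
theorem cycloCharT_neg_one (hodd : Odd n) : cycloCharT χ (-1 : (ZMod ℓ)ˣ) = 0 := by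
  unfold cycloCharT
  set t := χ ((IsCyclotomicExtension.Rat.galEquivZMod ℓ E).symm (-1)) with ht
  have h1 : t * t = 1 := by
    rw [ht, ← map_mul, ← map_mul, neg_one_mul, neg_neg, map_one, map_one]
  have h2 : Multiplicative.toAdd t + Multiplicative.toAdd t = 0 :=
    congrArg Multiplicative.toAdd h1
  have h3 : Multiplicative.toAdd t = 0 := by
    have hu : IsUnit ((2 : ℕ) : ZMod n) :=
      (ZMod.unitOfCoprime 2 (Nat.coprime_two_left.mpr hodd)).isUnit
    rw [← two_mul] at h2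
    exact (hu.mul_right_eq_zero).mp (by exact_mod_cast h2)
  rw [h3, map_zero]

end Recip

/-- **Reciprocity for the local symbols of `ℚ(ζ_ℓ)/ℚ`** (`n` odd): for `a ∈ ℚˣ` almost all local
symbols `(a, χ)_q` vanish and their sum is zero. -/
theorem good_ratLocalSymbol (ℓ : ℕ) [hℓ : Fact ℓ.Prime] {E : Type} [Field E] [NumberField E]
    [IsCyclotomicExtension {ℓ} ℚ E] [Normal ℚ E] (I : LocalInvFamily)
    (hI : ∀ q : Nat.Primes, (I q).IsUnramNormalized ℤ_[((q : Nat.Primes) : ℕ)])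
    {n : ℕ} [NeZero n] (χ : (E ≃ₐ[ℚ] E) →* Multiplicative (ZMod n)) (hodd : Odd n) (a : ℚˣ) :
    CycloRecip.Good (ratLocalSymbol I χ) a :=
  CycloRecip.good_all (ℓ := ℓ) (χ := cycloCharT χ) (s := ratLocalSymbol I χ)
    (ratLocalSymbol_mul I χ) (cycloCharT_neg_one χ hodd) (ratLocalSymbol_of_ne I χ hI)
    (ratLocalSymbol_self_aux I χ hI).1 (ratLocalSymbol_self_aux I χ hI).2 a

/-- **Reciprocity for `ℚ(ζ_ℓ)/ℚ`**: the idele invariant vanishes on the principal symbol classes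
`a ∪ δχ`, `a ∈ ℚˣ`, `χ` a character of `Gal(ℚ(ζ_ℓ)/ℚ)` with values in `ℤ/n`, `n` odd. -/
theorem invJFun_cyclo_galSymClass (ℓ : ℕ) [hℓ : Fact ℓ.Prime] {E : Type} [Field E] [NumberField E]
    [IsCyclotomicExtension {ℓ} ℚ E] [Normal ℚ E] (I : LocalInvFamily)
    (hI : ∀ q : Nat.Primes, (I q).IsUnramNormalized ℤ_[((q : Nat.Primes) : ℕ)])
    {n : ℕ} [NeZero n] (χ : (E ≃ₐ[ℚ] E) →* Multiplicative (ZMod n))
    (hE : PrincipalIsIdele E) (hodd : Odd n) (a : ℚˣ) :
    HasFiniteInvSupport I ℚ ((ideleH2f ℚ hE).hom (galSymClass ℚ E χ a)) ∧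
      invJFun I ℚ ((ideleH2f ℚ hE).hom (galSymClass ℚ E χ a)) = 0 := by
  have h := good_ratLocalSymbol ℓ I hI χ hodd a
  have hfun : (fun q : Nat.Primes => invJAt I ℚ q ((ideleH2f ℚ hE).hom (galSymClass ℚ E χ a))) =
      fun q : Nat.Primes => ratLocalSymbol I χ q (CycloRecip.ratUnit q a) :=
    funext fun q => invJAt_rat_galSymClass I hE χ a q
  constructor
  · unfold HasFiniteInvSupport
    rw [hfun]
    exact h.1
  · unfold invJFun
    rw [hfun]
    exact h.2

end Fermat.Agent.CFT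

end
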