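import Fermat.Agent.CFT.Global.CycloReciprocity

/-!
# Layer C / C5q: reciprocity over `ℚ` for characters of `Gal(ℚ(ζ_N)/ℚ)`, `N` squarefree

* `InvFamily.symbol_ofAlgHom`: the symbols of a family of invariant maps are compatible with every
  `F`-embedding `M → M'` of finite Galois extensions.
* `symbol_absSquare_infl`, `ratLocalSymbol_infl`: the local symbols `ratLocalSymbol I χ q b` of a
  character `χ` of `Gal(E/ℚ)` are independent of the chosen embedding `E → ℚ̄_q` and invariant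
  under inflation to a bigger normal number field `E' ⊇ E`.
* `RatRecip I χ`: the reciprocity law for the local symbols of `χ`; it is stable under products of
  characters (`RatRecip.mul`, `RatRecip.prod`), insensitive to inflation (`ratRecip_infl_iff`,
  `RatRecip.of_infl`), gives `invJ (a ∪ δχ) = 0` (`RatRecip.invJFun`), holds for `ℚ(ζ_ℓ)`
  (`ratRecip_cyclo`) and for products of characters of prime conductor on `ℚ(ζ_N)`
  (`ratRecip_cycloN_single`, `ratRecip_cycloN`; shape of `CycloSplit.exists_character`).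
-/

set_option autoImplicit false
set_option linter.unusedSectionVars false
set_option linter.style.haveILetI false

open CategoryTheory groupCohomology

open scoped Padic

noncomputable section

namespace Fermat.Agent.CFT

section Emb

variable {F : Type} [Field F] {M M' : Type} [Field M] [Algebra F M] [Field M'] [Algebra F M']

/-- The square attached to an `F`-embedding `M → M'`. -/
def FieldSquare.ofAlgHom (j : M →ₐ[F] M') : FieldSquare F M F M' where
  base := RingHom.id F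
  top := j
  comm x := j.commutes x

variable [FiniteDimensional F M] [IsGalois F M] [FiniteDimensional F M'] [IsGalois F M']

/-- A family of invariant maps is compatible with all `F`-embeddings. -/
theorem InvFamily.inv_map_ofAlgHom (J : InvFamily F) (j : M →ₐ[F] M')
    (x : H2 (Rep.ofAlgebraAutOnUnits F M : Rep.{0} ℤ (M ≃ₐ[F] M))) :
    J.inv M' (((FieldSquare.ofAlgHom j).map 2).hom x) = J.inv M x := by
  letI : Algebra M M' := j.toRingHom.toAlgebra
  haveI : IsScalarTower F M M' := IsScalarTower.of_algebraMap_eq fun x => (j.commutes x).symm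
  rw [FieldSquare.map_eq_galMap (FieldSquare.ofAlgHom j) rfl]
  exact J.inv_infl M M' x

/-- The symbols of a family of invariant maps are compatible with all `F`-embeddings. -/
theorem InvFamily.symbol_ofAlgHom (J : InvFamily F) {n : ℕ} [NeZero n] (j : M →ₐ[F] M')
    (χ : (M ≃ₐ[F] M) →* Multiplicative (ZMod n)) (b : Fˣ) :
    J.symbol n M' (χ.comp (FieldSquare.ofAlgHom j).res) b = J.symbol n M χ b := by
  unfold InvFamily.symbol
  rw [← J.inv_map_ofAlgHom j, FieldSquare.map_galSymClass]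
  congr 2

end Emb

section Infl

variable {q : ℕ} [Fact q.Prime] {E E' : Type} [Field E] [NumberField E] [Field E']
  [NumberField E'] [Algebra E E'] [Normal ℚ E] [Normal ℚ E']

local notation "Ω" => PadicAlgCl q

/-- Two embeddings of a normal number field differ by an automorphism. -/
theorem exists_algEquiv_comp_rat (τ₁ τ₂ : LocalEmb q E) :
    ∃ s : E ≃ₐ[ℚ] E, τ₁ = τ₂.comp (s : E →+* E) := by
  have h1 : localEmbRestrict ℚ τ₂ = localEmbRestrict ℚ τ₁ := RingHom.ext_rat _ _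
  obtain ⟨s, hs, -⟩ := exists_unique_algEquiv_comp ℚ h1
  exact ⟨s, hs⟩

theorem localFieldAt_le_of_algebra (τ₁ : LocalEmb q E) (τ' : LocalEmb q E') :
    localFieldAt τ₁ ≤ localFieldAt τ' := by
  obtain ⟨s, hs⟩ := exists_algEquiv_comp_rat τ₁ (τ'.comp (algebraMap E E'))
  rw [localFieldAt, IntermediateField.adjoin_le_iff]
  rintro _ ⟨y, rfl⟩
  rw [hs]
  exact apply_mem_localFieldAt τ' _

/-- **Independence of the embedding and inflation invariance of the local symbols over `ℚ`**: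
for normal number fields `E ⊆ E'`, embeddings `τ₁` of `E` and `τ'` of `E'` into `ℚ̄_q` (not
necessarily compatible) and a character `χ` of `Gal(E/ℚ)`, the local symbols of `χ` at `τ₁` and of
its inflation to `Gal(E'/ℚ)` at `τ'` coincide. -/
theorem symbol_absSquare_infl (J : InvFamily ℚ_[q]) (τ₁ : LocalEmb q E) (τ' : LocalEmb q E')
    [FiniteDimensional ℚ_[q] (localFieldAt τ₁)] [IsGalois ℚ_[q] (localFieldAt τ₁)]
    [FiniteDimensional ℚ_[q] (localFieldAt τ')] [IsGalois ℚ_[q] (localFieldAt τ')]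
    {n : ℕ} [NeZero n] (χ : (E ≃ₐ[ℚ] E) →* Multiplicative (ZMod n)) (b : ℚ_[q]ˣ) :
    J.symbol n (localFieldAt τ')
        ((χ.comp (AlgEquiv.restrictNormalHom E)).comp (absSquare τ').res) b =
      J.symbol n (localFieldAt τ₁) (χ.comp (absSquare τ₁).res) b := by
  have hle := localFieldAt_le_of_algebra τ₁ τ'
  set j : localFieldAt τ₁ →ₐ[ℚ_[q]] localFieldAt τ' := IntermediateField.inclusion hle with hj
  rw [← J.symbol_ofAlgHom j]
  congr 1
  ext σ : 1
  obtain ⟨s, hs⟩ := exists_algEquiv_comp_rat τ₁ (τ'.comp (algebraMap E E'))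
  simp only [MonoidHom.comp_apply]
  set ρ' := (absSquare τ').res σ with hρ'
  set ρ₁ := AlgEquiv.restrictNormalHom E ρ' with hρ₁
  set σ₁ := (FieldSquare.ofAlgHom j).res σ with hσ₁
  set ρ₂ := (absSquare τ₁).res σ₁ with hρ₂
  have key : ∀ y : E, s (ρ₂ y) = ρ₁ (s y) := by
    intro y
    apply (algebraMap E E').injective
    apply τ'.injective
    have e1 : τ' (algebraMap E E' (s (ρ₂ y))) = τ₁ (ρ₂ y) := by
      rw [hs]; rfl
    have e2 : ((absTopHom τ₁ (ρ₂ y) : localFieldAt τ₁) : Ω) = τ₁ (ρ₂ y) := rfl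
    have e3 : absTopHom τ₁ (ρ₂ y) = σ₁ (absTopHom τ₁ y) := (absSquare τ₁).res_commutes σ₁ y
    have e4 : j (σ₁ (absTopHom τ₁ y)) = σ (j (absTopHom τ₁ y)) :=
      (FieldSquare.ofAlgHom j).res_commutes σ (absTopHom τ₁ y)
    have e5 : j (absTopHom τ₁ y) = absTopHom τ' (algebraMap E E' (s y)) := by
      apply Subtype.ext
      show τ₁ y = τ' (algebraMap E E' (s y))
      rw [hs]; rfl
    have e6 : σ (absTopHom τ' (algebraMap E E' (s y))) =
        absTopHom τ' (ρ' (algebraMap E E' (s y))) :=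
      ((absSquare τ').res_commutes σ _).symm
    have e7 : ρ' (algebraMap E E' (s y)) = algebraMap E E' (ρ₁ (s y)) :=
      (AlgEquiv.restrictNormal_commutes ρ' E (s y)).symm
    rw [e1, ← e2, e3]
    have e8 : ((σ₁ (absTopHom τ₁ y) : localFieldAt τ₁) : Ω) =
        ((j (σ₁ (absTopHom τ₁ y)) : localFieldAt τ') : Ω) := rfl
    rw [e8, e4, e5, e6, e7]
    rfl
  have hconj : ρ₂ = s⁻¹ * ρ₁ * s := by
    ext y
    show ρ₂ y = s.symm (ρ₁ (s y))
    rw [← key y]
    exact (s.symm_apply_apply _).symm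
  rw [hconj, map_mul, map_mul, map_inv, mul_comm, ← mul_assoc, mul_inv_cancel, one_mul]

end Infl

section RatRecip

variable (I : LocalInvFamily) {n : ℕ} [NeZero n]

/-- Inflation invariance of the local symbols `ratLocalSymbol`. -/
theorem ratLocalSymbol_infl {E E' : Type} [Field E] [NumberField E] [Field E'] [NumberField E']
    [Algebra E E'] [Normal ℚ E] [Normal ℚ E'] (χ : (E ≃ₐ[ℚ] E) →* Multiplicative (ZMod n))
    (q : Nat.Primes) (b : ℚ_[((q : Nat.Primes) : ℕ)]ˣ) :
    ratLocalSymbol I (χ.comp (AlgEquiv.restrictNormalHom E) :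
        (E' ≃ₐ[ℚ] E') →* Multiplicative (ZMod n)) q b = ratLocalSymbol I χ q b := by
  haveI := finiteDimensional_localFieldAt (ratEmb E q)
  haveI := isGalois_localFieldAt_rat (ratEmb E q)
  haveI := finiteDimensional_localFieldAt (ratEmb E' q)
  haveI := isGalois_localFieldAt_rat (ratEmb E' q)
  exact symbol_absSquare_infl (I q).toInvFamily (ratEmb E q) (ratEmb E' q) χ b

variable {E : Type} [Field E] [NumberField E] [Normal ℚ E]

/-- The reciprocity law for the local symbols of the character `χ` of `Gal(E/ℚ)`: for all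
`a ∈ ℚˣ` almost all `(a, χ)_q` vanish and their sum is zero. -/
def RatRecip (χ : (E ≃ₐ[ℚ] E) →* Multiplicative (ZMod n)) : Prop :=
  ∀ a : ℚˣ, CycloRecip.Good (ratLocalSymbol I χ) a

theorem ratLocalSymbol_mul_char (χ χ' : (E ≃ₐ[ℚ] E) →* Multiplicative (ZMod n)) (q : Nat.Primes)
    (b : ℚ_[((q : Nat.Primes) : ℕ)]ˣ) :
    ratLocalSymbol I (χ * χ') q b = ratLocalSymbol I χ q b + ratLocalSymbol I χ' q b := by
  unfold ratLocalSymbol InvFamily.symbol
  have h : (χ * χ').comp (absSquare (ratEmb E q)).res =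
      χ.comp (absSquare (ratEmb E q)).res * χ'.comp (absSquare (ratEmb E q)).res := by
    ext σ : 1
    rfl
  rw [h, galSymClass_mul_char, map_add]

theorem ratLocalSymbol_one_char (q : Nat.Primes) (b : ℚ_[((q : Nat.Primes) : ℕ)]ˣ) :
    ratLocalSymbol I (1 : (E ≃ₐ[ℚ] E) →* Multiplicative (ZMod n)) q b = 0 := by
  have := ratLocalSymbol_mul_char I (1 : (E ≃ₐ[ℚ] E) →* Multiplicative (ZMod n)) 1 q b
  rw [one_mul] at this
  exact (add_eq_left.mp this.symm)

theorem ratRecip_one : RatRecip I (1 : (E ≃ₐ[ℚ] E) →* Multiplicative (ZMod n)) := by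
  intro a
  have h : (fun q : Nat.Primes => ratLocalSymbol I
      (1 : (E ≃ₐ[ℚ] E) →* Multiplicative (ZMod n)) q (CycloRecip.ratUnit q a)) = fun _ => 0 :=
    funext fun q => ratLocalSymbol_one_char I q _
  refine ⟨?_, ?_⟩
  · rw [h]; simp
  · show ∑ᶠ q : Nat.Primes, ratLocalSymbol I
      (1 : (E ≃ₐ[ℚ] E) →* Multiplicative (ZMod n)) q (CycloRecip.ratUnit q a) = 0
    rw [h]; simp

theorem RatRecip.mul {χ χ' : (E ≃ₐ[ℚ] E) →* Multiplicative (ZMod n)} (h : RatRecip I χ)
    (h' : RatRecip I χ') : RatRecip I (χ * χ') := by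
  intro a
  have hfun : (fun q : Nat.Primes => ratLocalSymbol I (χ * χ') q (CycloRecip.ratUnit q a)) =
      fun q : Nat.Primes => ratLocalSymbol I χ q (CycloRecip.ratUnit q a) +
        ratLocalSymbol I χ' q (CycloRecip.ratUnit q a) :=
    funext fun q => ratLocalSymbol_mul_char I χ χ' q _
  refine ⟨?_, ?_⟩
  · rw [hfun]
    exact ((h a).1.union (h' a).1).subset (Function.support_add _ _)
  · show ∑ᶠ q : Nat.Primes, ratLocalSymbol I (χ * χ') q (CycloRecip.ratUnit q a) = 0
    rw [hfun, finsum_add_distrib (h a).1 (h' a).1, (h a).2, (h' a).2, add_zero]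

theorem RatRecip.prod {ι : Type*} (t : Finset ι)
    (χ : ι → ((E ≃ₐ[ℚ] E) →* Multiplicative (ZMod n))) (h : ∀ i ∈ t, RatRecip I (χ i)) :
    RatRecip I (∏ i ∈ t, χ i) := by
  classical
  induction t using Finset.induction_on with
  | empty => rw [Finset.prod_empty]; exact ratRecip_one I
  | insert i t hi ih =>
    rw [Finset.prod_insert hi]
    exact (h i (Finset.mem_insert_self i t)).mul I
      (ih fun j hj => h j (Finset.mem_insert_of_mem hj))

/-- Reciprocity is insensitive to inflation. -/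
theorem ratRecip_infl_iff {E' : Type} [Field E'] [NumberField E'] [Algebra E E'] [Normal ℚ E']
    (χ : (E ≃ₐ[ℚ] E) →* Multiplicative (ZMod n)) :
    RatRecip I (χ.comp (AlgEquiv.restrictNormalHom E) :
        (E' ≃ₐ[ℚ] E') →* Multiplicative (ZMod n)) ↔ RatRecip I χ := by
  have h : ratLocalSymbol I (χ.comp (AlgEquiv.restrictNormalHom E) :
      (E' ≃ₐ[ℚ] E') →* Multiplicative (ZMod n)) = ratLocalSymbol I χ :=
    funext fun q => funext fun b => ratLocalSymbol_infl I χ q b
  unfold RatRecip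
  rw [h]

/-- Reciprocity for the symbols is reciprocity for the idele invariant. -/
theorem RatRecip.invJFun {χ : (E ≃ₐ[ℚ] E) →* Multiplicative (ZMod n)} (h : RatRecip I χ)
    (hE : PrincipalIsIdele E) (a : ℚˣ) :
    HasFiniteInvSupport I ℚ ((ideleH2f ℚ hE).hom (galSymClass ℚ E χ a)) ∧
      invJFun I ℚ ((ideleH2f ℚ hE).hom (galSymClass ℚ E χ a)) = 0 := by
  have hfun : (fun q : Nat.Primes => invJAt I ℚ q ((ideleH2f ℚ hE).hom (galSymClass ℚ E χ a))) =
      fun q : Nat.Primes => ratLocalSymbol I χ q (CycloRecip.ratUnit q a) :=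
    funext fun q => invJAt_rat_galSymClass I hE χ a q
  constructor
  · unfold HasFiniteInvSupport
    rw [hfun]
    exact (h a).1
  · unfold Fermat.Agent.CFT.invJFun
    rw [hfun]
    exact (h a).2

/-- Descent to subfields: reciprocity for a character `ψ` of `Gal(E/ℚ)`, `E ⊆ E'`, whose
inflation to `Gal(E'/ℚ)` satisfies reciprocity. -/
theorem RatRecip.of_infl {E' : Type} [Field E'] [NumberField E']
    [Algebra E E'] [Normal ℚ E'] {ψ : (E ≃ₐ[ℚ] E) →* Multiplicative (ZMod n)}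
    {Ψ : (E' ≃ₐ[ℚ] E') →* Multiplicative (ZMod n)}
    (hψ : ψ.comp (AlgEquiv.restrictNormalHom E) = Ψ) (h : RatRecip I Ψ) : RatRecip I ψ := by
  rw [← hψ] at h
  exact (ratRecip_infl_iff I ψ).mp h

end RatRecip

section CycloN

variable (I : LocalInvFamily)
  (hI : ∀ q : Nat.Primes, (I q).IsUnramNormalized ℤ_[((q : Nat.Primes) : ℕ)]) {n : ℕ} [NeZero n]

include hI

/-- Reciprocity for all characters of odd order of `Gal(ℚ(ζ_ℓ)/ℚ)`. -/
theorem ratRecip_cyclo (ℓ : ℕ) [Fact ℓ.Prime] {E : Type} [Field E] [NumberField E]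
    [IsCyclotomicExtension {ℓ} ℚ E] [Normal ℚ E] (χ : (E ≃ₐ[ℚ] E) →* Multiplicative (ZMod n))
    (hodd : Odd n) : RatRecip I χ :=
  fun a => good_ratLocalSymbol ℓ I hI χ hodd a

/-- Reciprocity for the characters of `Gal(ℚ(ζ_N)/ℚ) = (ℤ/N)ˣ` which factor through `(ℤ/ℓ)ˣ` for a
prime `ℓ ∣ N`. -/
theorem ratRecip_cycloN_single (N : ℕ) [NeZero N] {E' : Type} [Field E'] [NumberField E']
    [IsCyclotomicExtension {N} ℚ E'] [Normal ℚ E'] (ℓ : ℕ) [Fact ℓ.Prime] (h : ℓ ∣ N)
    (χ : (ZMod ℓ)ˣ →* Multiplicative (ZMod n)) (hodd : Odd n) :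
    RatRecip I ((χ.comp (ZMod.unitsMap h)).comp
      (IsCyclotomicExtension.Rat.galEquivZMod N E').toMonoidHom) := by
  have hζ := IsCyclotomicExtension.zeta_spec N ℚ E'
  have hζ' : IsPrimitiveRoot (IsCyclotomicExtension.zeta N ℚ E' ^ (N / ℓ)) ℓ :=
    hζ.pow (NeZero.pos N) (Nat.div_mul_cancel h).symm
  set Eℓ : IntermediateField ℚ E' :=
    IntermediateField.adjoin ℚ {IsCyclotomicExtension.zeta N ℚ E' ^ (N / ℓ)} with hEℓ
  haveI : IsCyclotomicExtension {ℓ} ℚ Eℓ :=
    IsPrimitiveRoot.intermediateField_adjoin_isCyclotomicExtension ℚ hζ'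
  haveI : IsGalois ℚ Eℓ := IsCyclotomicExtension.isGalois {ℓ} ℚ Eℓ
  have h1 : RatRecip I (χ.comp (IsCyclotomicExtension.Rat.galEquivZMod ℓ Eℓ).toMonoidHom) :=
    ratRecip_cyclo I hI ℓ _ hodd
  have h2 : (χ.comp (IsCyclotomicExtension.Rat.galEquivZMod ℓ Eℓ).toMonoidHom).comp
      (AlgEquiv.restrictNormalHom Eℓ) = (χ.comp (ZMod.unitsMap h)).comp
        (IsCyclotomicExtension.Rat.galEquivZMod N E').toMonoidHom := by
    ext σ : 1
    show χ (IsCyclotomicExtension.Rat.galEquivZMod ℓ Eℓ (σ.restrictNormal Eℓ)) = _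
    rw [IsCyclotomicExtension.Rat.galEquivZMod_restrictNormal_apply N E' Eℓ h σ]
    rfl
  rw [← h2]
  exact (ratRecip_infl_iff I _).mpr h1

/-- **Reciprocity for `ℚ(ζ_N)/ℚ`, `N` a product of distinct primes**, for the characters which are
products of characters of prime conductor (shape of `CycloSplit.exists_character`). -/
theorem ratRecip_cycloN (L : Finset ℕ) (hL : ∀ ℓ ∈ L, ℓ.Prime) [NeZero (∏ ℓ ∈ L, ℓ)]
    {E' : Type} [Field E'] [NumberField E'] [IsCyclotomicExtension {∏ ℓ ∈ L, ℓ} ℚ E']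
    [Normal ℚ E'] (χ : ∀ ℓ : L, (ZMod (ℓ : ℕ))ˣ →* Multiplicative (ZMod n)) (hodd : Odd n)
    (Ψ : (E' ≃ₐ[ℚ] E') →* Multiplicative (ZMod n))
    (hΨ : ∀ σ, Ψ σ = ∏ ℓ : L, χ ℓ (ZMod.unitsMap (Finset.dvd_prod_of_mem (fun ℓ => ℓ) ℓ.2)
      (IsCyclotomicExtension.Rat.galEquivZMod (∏ ℓ ∈ L, ℓ) E' σ))) :
    RatRecip I Ψ := by
  have h : Ψ = ∏ ℓ ∈ (Finset.univ : Finset L),
      ((χ ℓ).comp (ZMod.unitsMap (Finset.dvd_prod_of_mem (fun ℓ => ℓ) ℓ.2))).comp
        (IsCyclotomicExtension.Rat.galEquivZMod (∏ ℓ ∈ L, ℓ) E').toMonoidHom := by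
    ext σ : 1
    rw [hΨ, MonoidHom.finsetProd_apply]
    rfl
  rw [h]
  apply RatRecip.prod
  intro ℓ _
  haveI : Fact (ℓ : ℕ).Prime := ⟨hL ℓ ℓ.2⟩
  exact ratRecip_cycloN_single I hI _ (ℓ : ℕ) _ (χ ℓ) hodd

end CycloN

end Fermat.Agent.CFT

end

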