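import Fermat.Agent.CFT.Global.CycloReciprocity
import Fermat.Agent.CFT.Local.PadicLayerInv

/-!
# Layer C / C5q: reciprocity for `ℚ(ζ_ℓ)/ℚ` for the invariant maps of Layer B

`padicLocalInvFamily` (Layer B) is normalised on unramified layers, hence the reciprocity law
`invJFun_cyclo_galSymClass` holds for it.
-/

set_option autoImplicit false
set_option linter.unusedSectionVars false
set_option linter.style.haveILetI false

open scoped Padic

namespace Fermat.Agent.CFT

/-- The local invariant systems of Layer B are normalised on unramified layers. -/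
theorem padicLocalInvFamily_isUnramNormalized (q : Nat.Primes) :
    (padicLocalInvFamily q).IsUnramNormalized ℤ_[((q : Nat.Primes) : ℕ)] := by
  intro E E' h _ hunr x
  exact localLayerInvSystem_inv_eq_uinvLayer ℤ_[((q : Nat.Primes) : ℕ)] hunr x

/-- **Reciprocity for `ℚ(ζ_ℓ)/ℚ`** for the idele invariant built from the local invariants of
Layer B: `invJ (a ∪ δχ) = 0` for `a ∈ ℚˣ` and a character `χ` of `Gal(ℚ(ζ_ℓ)/ℚ)` with values in
`ℤ/n`, `n` odd. -/
theorem invJFun_padic_cyclo_galSymClass (ℓ : ℕ) [Fact ℓ.Prime] {E : Type} [Field E]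
    [NumberField E] [IsCyclotomicExtension {ℓ} ℚ E] [Normal ℚ E] {n : ℕ} [NeZero n]
    (χ : (E ≃ₐ[ℚ] E) →* Multiplicative (ZMod n)) (hE : PrincipalIsIdele E) (hodd : Odd n)
    (a : ℚˣ) :
    HasFiniteInvSupport padicLocalInvFamily ℚ ((ideleH2f ℚ hE).hom (galSymClass ℚ E χ a)) ∧
      invJFun padicLocalInvFamily ℚ ((ideleH2f ℚ hE).hom (galSymClass ℚ E χ a)) = 0 :=
  invJFun_cyclo_galSymClass ℓ padicLocalInvFamily padicLocalInvFamily_isUnramNormalized χ hE
    hodd a

end Fermat.Agent.CFT
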