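import Mathlib

/-!
# CFT, Layer C, node C5c: cyclotomic splitting (elementary)

For an odd prime `p`, finitely many primes `q ∈ Q` and `r : ℕ`, there are finitely many auxiliary
primes `ℓ ∈ L`, none dividing `p ∏ Q`, and a character `ψ = ∏ χ_ℓ` of `∏_{ℓ ∈ L} (ℤ/ℓ)ˣ`
(equivalently of `(ℤ/N)ˣ`, `N = ∏ ℓ`) with values in `ℤ/p^k`, such that `ψ(q)` has order divisible
by `p ^ r` for every `q ∈ Q`.  In field language: a cyclic subextension of `ℚ(ζ_N)/ℚ` of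
`p`-power degree, tamely ramified and only at the `ℓ ∈ L`, in which every `q ∈ Q` has local degree
divisible by `p ^ r`.

Proof: choose `ℓ_q ∣ 1 + x + ⋯ + x^(p-1)`, `x = q^(p^m)`, `ℓ_q ≠ p`; then `q` has exact order
`p^(m+1)` modulo `ℓ_q`.  A character of the cyclic group `(ℤ/ℓ_q)ˣ` injective on its `p`-part
detects this order.  Finally the characters `ψ` with `ψ(q)` of order `< p^r` form a subgroup of
large index, and a finite group is not a union of few subgroups of large index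
(`Subgroup.exists_index_le_card_of_leftCoset_cover`).

Main statements: `CycloSplit.exists_characters` (family of prime-conductor characters indexed by
`ℕ`), `CycloSplit.exists_character` (single modulus `N = ∏ ℓ`), `CycloSplit.exists_characters_aux`
(family indexed by the subtype `L`, with `evalAt`).
-/

set_option autoImplicit false
set_option linter.style.haveILetI false

open Finset
open scoped Pointwise

namespace Fermat.Agent.CFT

namespace CycloSplit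

/-- For an odd prime `p` and `x ≥ 2`, the number `1 + x + ⋯ + x^(p-1)` has a prime factor `≠ p`. -/
theorem exists_prime_ne_dvd_geom_sum (p : ℕ) (hp : p.Prime) (hp2 : p ≠ 2) (x : ℕ) (hx : 2 ≤ x) :
    ∃ ℓ : ℕ, ℓ.Prime ∧ ℓ ≠ p ∧ ℓ ∣ ∑ i ∈ range p, x ^ i := by
  set S := ∑ i ∈ range p, x ^ i with hS
  have hp2' : 2 ≤ p := hp.two_le
  -- `S > p`
  have hSgt : p < S := by
    have h1 : ∀ i ∈ range p, 1 ≤ x ^ i := fun i _ => Nat.one_le_pow _ _ (by omega)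
    have h2 : ∑ i ∈ range p, 1 ≤ S := Finset.sum_le_sum h1
    have h3 : (∑ i ∈ range p, 1) + 1 ≤ S := by
      have hmem : 1 ∈ range p := Finset.mem_range.mpr (by omega)
      have : ∑ i ∈ range p, 1 < S := by
        apply Finset.sum_lt_sum h1
        exact ⟨1, hmem, by rw [pow_one]; omega⟩
      omega
    simp at h3
    omega
  by_cases hpS : p ∣ S
  · -- `p ∣ S`: then `x ≡ 1 mod p` and `p² ∤ S`
    haveI := Fact.mk hp
    have hx1 : (x : ZMod p) = 1 := by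
      have h0 : (S : ZMod p) = 0 := (ZMod.natCast_eq_zero_iff _ _).mpr hpS
      have h1 : (S : ZMod p) * ((x : ZMod p) - 1) = (x : ZMod p) ^ p - 1 := by
        rw [hS]
        push_cast
        exact geom_sum_mul _ _
      rw [h0, zero_mul, ZMod.pow_card] at h1
      exact (sub_eq_zero.mp h1.symm)
    have hdvd : (p : ℤ) ∣ (x : ℤ) - 1 := by
      have : ((x - 1 : ℤ) : ZMod p) = 0 := by
        push_cast
        rw [hx1, sub_self]
      exact (ZMod.intCast_zmod_eq_zero_iff_dvd _ _).mp this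
    have hndvd : ¬ (p : ℤ) ∣ (x : ℤ) := by
      intro h
      have h1 : (p : ℤ) ∣ 1 := by
        have := dvd_sub h hdvd
        simpa using this
      have : p ∣ 1 := by exact_mod_cast h1
      exact hp.one_lt.ne' (Nat.dvd_one.mp this)
    have hmult := emultiplicity_geom_sum₂_eq_one (Nat.prime_iff_prime_int.mp hp)
      (hp.odd_of_ne_two hp2) (x := (x : ℤ)) (y := 1) hdvd hndvd
    simp only [one_pow, mul_one] at hmult
    have hsq : ¬ p ^ 2 ∣ S := by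
      intro h
      have h' : (p : ℤ) ^ 2 ∣ ∑ i ∈ range p, (x : ℤ) ^ i := by
        have : ((p ^ 2 : ℕ) : ℤ) ∣ ((S : ℕ) : ℤ) := Int.natCast_dvd_natCast.mpr h
        rw [hS] at this
        push_cast at this
        exact this
      have := (le_emultiplicity_of_pow_dvd h')
      rw [hmult] at this
      norm_num at this
    obtain ⟨s, hs⟩ := hpS
    have hps : ¬ p ∣ s := by
      intro h
      apply hsq
      obtain ⟨s', rfl⟩ := h
      exact ⟨s', by rw [hs]; ring⟩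
    have hs1 : s ≠ 1 := by
      rintro rfl
      omega
    refine ⟨s.minFac, Nat.minFac_prime hs1, ?_, ?_⟩
    · rintro h
      exact hps (h ▸ Nat.minFac_dvd s)
    · rw [hs]
      exact Dvd.dvd.mul_left (Nat.minFac_dvd s) p
  · have hS1 : S ≠ 1 := by omega
    refine ⟨S.minFac, Nat.minFac_prime hS1, ?_, Nat.minFac_dvd S⟩
    rintro h
    exact hpS (h ▸ Nat.minFac_dvd S)

/-- For an odd prime `p`, `q ≥ 2` and `m`, there is a prime `ℓ ≠ p` such that `q` has exact order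
`p ^ (m + 1)` modulo `ℓ`. -/
theorem exists_prime_orderOf_eq (p : ℕ) (hp : p.Prime) (hp2 : p ≠ 2) (q : ℕ) (hq : 2 ≤ q)
    (m : ℕ) : ∃ ℓ : ℕ, ℓ.Prime ∧ ℓ ≠ p ∧ orderOf (q : ZMod ℓ) = p ^ (m + 1) := by
  have hx : 2 ≤ q ^ p ^ m := by
    calc 2 ≤ q := hq
      _ = q ^ 1 := (pow_one q).symm
      _ ≤ q ^ p ^ m := Nat.pow_le_pow_right (by omega) (Nat.one_le_pow _ _ hp.pos)
  obtain ⟨ℓ, hℓ, hℓp, hdvd⟩ := exists_prime_ne_dvd_geom_sum p hp hp2 (q ^ p ^ m) hx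
  refine ⟨ℓ, hℓ, hℓp, ?_⟩
  haveI := Fact.mk hℓ
  haveI := Fact.mk hp
  have h0 : ∑ i ∈ range p, ((q : ZMod ℓ) ^ p ^ m) ^ i = 0 := by
    have := (ZMod.natCast_eq_zero_iff _ _).mpr hdvd
    push_cast at this
    exact this
  apply orderOf_eq_prime_pow
  · intro h1
    rw [h1] at h0
    simp only [one_pow, sum_const, card_range, nsmul_eq_mul, mul_one] at h0
    have : ℓ ∣ p := (ZMod.natCast_eq_zero_iff _ _).mp h0
    exact hℓp ((Nat.prime_dvd_prime_iff_eq hℓ hp).mp this)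
  · have h1 := geom_sum_mul ((q : ZMod ℓ) ^ p ^ m) p
    rw [h0, zero_mul] at h1
    rw [pow_succ, pow_mul]
    exact (sub_eq_zero.mp h1.symm)

/-- On a finite cyclic group `C`, an element `u` of `p`-power order `p ^ M` is detected with its
full order by a character with values in `ℤ/p^k`, as soon as `v_p(|C|) ≤ k`. -/
theorem exists_character_orderOf_eq {C : Type*} [CommGroup C] [Finite C] [IsCyclic C]
    (p : ℕ) (hp : p.Prime) (k : ℕ) (hk : (Nat.card C).factorization p ≤ k) (u : C) (M : ℕ)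
    (hu : orderOf u = p ^ M) :
    ∃ χ : C →* Multiplicative (ZMod (p ^ k)), orderOf (χ u) = p ^ M := by
  classical
  obtain ⟨g, hg⟩ := IsCyclic.exists_generator (α := C)
  set n := Nat.card C with hn
  have hn0 : n ≠ 0 := Nat.card_pos.ne'
  have hgn : orderOf g = n := orderOf_eq_card_of_forall_mem_zpowers hg
  set a := n.factorization p with ha
  set n' := n / p ^ a with hn'
  have hnn' : p ^ a * n' = n := Nat.ordProj_mul_ordCompl_eq_self n p
  have hpn' : ¬ p ∣ n' := Nat.not_dvd_ordCompl hp hn0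
  have hpk : p ^ k ≠ 0 := pow_ne_zero _ hp.pos.ne'
  haveI : NeZero (p ^ k) := ⟨hpk⟩
  -- the target element of order `p ^ a`
  set τ : Multiplicative (ZMod (p ^ k)) := Multiplicative.ofAdd ((p ^ (k - a) : ℕ) : ZMod (p ^ k))
    with hτ
  have hτord : orderOf τ = p ^ a := by
    rw [hτ, orderOf_ofAdd_eq_addOrderOf, ZMod.addOrderOf_coe _ hpk,
      Nat.gcd_eq_right (pow_dvd_pow p (Nat.sub_le k a))]
    exact Nat.div_eq_of_eq_mul_left (pow_pos hp.pos _)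
      (by rw [← pow_add, Nat.add_sub_cancel' hk])
  have hdvd : orderOf τ ∣ orderOf g := by
    rw [hτord, hgn, ← hnn']
    exact dvd_mul_right _ _
  let χ : C →* Multiplicative (ZMod (p ^ k)) := monoidHomOfForallMemZpowers hg hdvd
  have hχg : χ g = τ := monoidHomOfForallMemZpowers_apply_gen hg hdvd
  refine ⟨χ, ?_⟩
  -- the order of `χ u` is `p ^ i` with `i ≤ M`
  have h1 : orderOf (χ u) ∣ p ^ M := hu ▸ orderOf_map_dvd χ u
  obtain ⟨i, hiM, hi⟩ := (Nat.dvd_prime_pow hp).mp h1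
  rw [hi]
  congr 1
  apply le_antisymm hiM
  -- `x = u ^ (p ^ i)` lies in the kernel
  set x := u ^ p ^ i with hx
  have hχx : χ x = 1 := by
    rw [hx, map_pow, ← hi, pow_orderOf_eq_one]
  obtain ⟨j, hj⟩ := Subgroup.mem_zpowers_iff.mp (hg x)
  have hτj : τ ^ j = 1 := by
    rw [← hχg, ← map_zpow, hj, hχx]
  have hpaj : (p ^ a : ℤ) ∣ j := by
    have := orderOf_dvd_iff_zpow_eq_one.mpr hτj
    rw [hτord] at this
    exact_mod_cast this
  have hxn' : x ^ n' = 1 := by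
    rw [← hj, ← zpow_natCast, ← zpow_mul]
    apply orderOf_dvd_iff_zpow_eq_one.mp
    rw [hgn, ← hnn']
    push_cast
    exact mul_dvd_mul_right hpaj _
  have hxpM : x ^ p ^ M = 1 := by
    rw [hx, ← pow_mul, mul_comm, pow_mul, ← hu, pow_orderOf_eq_one, one_pow]
  have hcop : Nat.gcd n' (p ^ M) = 1 :=
    Nat.Coprime.pow_right M ((Nat.Prime.coprime_iff_not_dvd hp).mpr hpn').symm
  have hx1 : x = 1 := by
    have := pow_gcd_eq_one.mpr ⟨hxn', hxpM⟩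
    rwa [hcop, pow_one] at this
  have : orderOf u ∣ p ^ i := orderOf_dvd_of_pow_eq_one hx1
  rw [hu] at this
  exact (Nat.pow_dvd_pow_iff_le_right hp.one_lt).mp this

/-- The unit `q mod ℓ` (junk value `1` if `q` is not prime to `ℓ`). -/
noncomputable def unitMod (q ℓ : ℕ) : (ZMod ℓ)ˣ :=
  if h : Nat.Coprime q ℓ then ZMod.unitOfCoprime q h else 1

theorem coe_unitMod {q ℓ : ℕ} (h : Nat.Coprime q ℓ) : ((unitMod q ℓ : (ZMod ℓ)ˣ) : ZMod ℓ) = q := by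
  rw [unitMod, dif_pos h, ZMod.coe_unitOfCoprime]

theorem eq_unitMod {q ℓ : ℕ} (h : Nat.Coprime q ℓ) (u : (ZMod ℓ)ˣ) (hu : (u : ZMod ℓ) = q) :
    u = unitMod q ℓ :=
  Units.ext (by rw [hu, coe_unitMod h])

/-- Evaluation of a family of characters at the "Frobenius" `q`. -/
noncomputable def evalAt {T : Type*} [CommGroup T] (L : Finset ℕ) (q : ℕ) :
    (∀ ℓ : L, ((ZMod (ℓ : ℕ))ˣ →* T)) →* T where
  toFun χ := ∏ ℓ : L, χ ℓ (unitMod q ℓ)
  map_one' := by simp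
  map_mul' χ χ' := by simp [Finset.prod_mul_distrib]

theorem evalAt_apply {T : Type*} [CommGroup T] (L : Finset ℕ) (q : ℕ)
    (χ : ∀ ℓ : L, ((ZMod (ℓ : ℕ))ˣ →* T)) :
    evalAt L q χ = ∏ ℓ : L, χ ℓ (unitMod q ℓ) := rfl

theorem evalAt_mulSingle {T : Type*} [CommGroup T] (L : Finset ℕ) (q : ℕ) (ℓ₀ : L)
    (χ₀ : (ZMod (ℓ₀ : ℕ))ˣ →* T) :
    evalAt L q (Pi.mulSingle ℓ₀ χ₀) = χ₀ (unitMod q ℓ₀) := by
  classical
  rw [evalAt_apply, Finset.prod_eq_single ℓ₀]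
  · rw [Pi.mulSingle_eq_same]
  · intro ℓ _ hne
    rw [Pi.mulSingle_eq_of_ne hne]
    rfl
  · intro h
    exact absurd (Finset.mem_univ _) h

/-- If `ℓ` is prime and `q mod ℓ` has order `p ^ M`, then `p ^ M < ℓ`. -/
theorem pow_lt_of_orderOf_eq {p q ℓ M : ℕ} (hp : p.Prime) (hℓ : ℓ.Prime)
    (h : orderOf (q : ZMod ℓ) = p ^ M) : p ^ M < ℓ ∧ Nat.Coprime q ℓ := by
  haveI := Fact.mk hℓ
  have hq0 : (q : ZMod ℓ) ≠ 0 := by
    intro h0
    rw [h0, orderOf_eq_zero_iff.mpr] at h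
    · exact (pow_ne_zero M hp.pos.ne') h.symm
    · rw [isOfFinOrder_iff_pow_eq_one]
      rintro ⟨n, hn, hn'⟩
      rw [zero_pow hn.ne'] at hn'
      exact zero_ne_one hn'
  have h1 : orderOf (q : ZMod ℓ) ∣ ℓ - 1 :=
    orderOf_dvd_of_pow_eq_one (ZMod.pow_card_sub_one_eq_one hq0)
  rw [h] at h1
  have h2 : p ^ M ≤ ℓ - 1 := Nat.le_of_dvd (by have := hℓ.two_le; omega) h1
  refine ⟨by have := hℓ.two_le; omega, ?_⟩
  rw [Nat.coprime_comm, Nat.Prime.coprime_iff_not_dvd hℓ]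
  intro hd
  exact hq0 ((ZMod.natCast_eq_zero_iff _ _).mpr hd)

/-- Core existence statement, indexed by the subtype `L`. -/
theorem exists_characters_aux (p : ℕ) (hp : p.Prime) (hp2 : p ≠ 2) (Q : Finset ℕ)
    (hQ : ∀ q ∈ Q, q.Prime) (r : ℕ) :
    ∃ (L : Finset ℕ) (k : ℕ) (χ : ∀ ℓ : L, ((ZMod (ℓ : ℕ))ˣ →* Multiplicative (ZMod (p ^ k)))),
      (∀ ℓ ∈ L, ℓ.Prime ∧ 2 < ℓ ∧ ℓ ≠ p ∧ ∀ q ∈ Q, Nat.Coprime q ℓ) ∧
      ∀ q ∈ Q, p ^ r ∣ orderOf (evalAt L q χ) := by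
  classical
  set t := Q.card with ht
  set B := Q.sup id with hB
  set m := r + t + B with hm
  set M := m + 1 with hM
  -- the auxiliary primes
  have hex : ∀ q, q ∈ Q → ∃ ℓ : ℕ, ℓ.Prime ∧ ℓ ≠ p ∧ orderOf (q : ZMod ℓ) = p ^ M := fun q hq =>
    exists_prime_orderOf_eq p hp hp2 q (hQ q hq).two_le m
  choose! ℓf hℓf using hex
  set L := Q.image ℓf with hL
  have hMB : B < p ^ M := by
    calc B < M := by omega
      _ < p ^ M := Nat.lt_pow_self hp.one_lt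
  have hqB : ∀ q ∈ Q, q ≤ B := fun q hq => Finset.le_sup (f := id) hq
  -- properties of the elements of `L`
  have hLprop : ∀ ℓ ∈ L, ℓ.Prime ∧ 2 < ℓ ∧ ℓ ≠ p ∧ ∀ q ∈ Q, Nat.Coprime q ℓ := by
    intro ℓ hℓ
    obtain ⟨q₀, hq₀, rfl⟩ := Finset.mem_image.mp hℓ
    obtain ⟨h1, h2, h3⟩ := hℓf q₀ hq₀
    have hlt := (pow_lt_of_orderOf_eq hp h1 h3).1
    have hpM : p ≤ p ^ M := Nat.le_self_pow (by omega) p
    have hp3 : 2 ≤ p := hp.two_le
    refine ⟨h1, by omega, h2, fun q hq => ?_⟩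
    rw [Nat.coprime_comm, Nat.Prime.coprime_iff_not_dvd h1]
    intro hd
    have : ℓf q₀ ≤ q := Nat.le_of_dvd (hQ q hq).pos hd
    have := hqB q hq
    omega
  set k := L.sup id with hk
  have hkL : ∀ ℓ ∈ L, ℓ ≤ k := fun ℓ hℓ => Finset.le_sup (f := id) hℓ
  haveI : NeZero (p ^ k) := ⟨pow_ne_zero _ hp.pos.ne'⟩
  -- the basic characters
  have hχ₀ : ∀ q, q ∈ Q → ∃ χ₀ : (ZMod (ℓf q))ˣ →* Multiplicative (ZMod (p ^ k)),
      orderOf (χ₀ (unitMod q (ℓf q))) = p ^ M := by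
    intro q hq
    obtain ⟨h1, h2, h3⟩ := hℓf q hq
    haveI := Fact.mk h1
    have hcop := (pow_lt_of_orderOf_eq hp h1 h3).2
    have hord : orderOf (unitMod q (ℓf q)) = p ^ M := by
      rw [← orderOf_units, coe_unitMod hcop, h3]
    apply exists_character_orderOf_eq p hp k _ _ M hord
    have hcard : Nat.card (ZMod (ℓf q))ˣ = ℓf q - 1 := by
      rw [Nat.card_eq_fintype_card, ZMod.card_units_eq_totient, Nat.totient_prime h1]
    rw [hcard]
    have h4 : (ℓf q - 1).factorization p < ℓf q - 1 :=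
      Nat.factorization_lt p (by have := h1.two_le; omega)
    have h5 := hkL (ℓf q) (Finset.mem_image_of_mem ℓf hq)
    omega
  choose! χ₀ hχ₀ using hχ₀
  -- the groups
  let T := Multiplicative (ZMod (p ^ k))
  let X := ∀ ℓ : L, ((ZMod (ℓ : ℕ))ˣ →* T)
  let φ : ℕ → (X →* T) := fun q => (powMonoidHom (p ^ (r - 1))).comp (evalAt L q)
  -- Neumann's lemma
  have hmain : ∃ χ : X, ∀ q ∈ Q, χ ∉ (φ q).ker := by
    by_contra hcon
    push Not at hcon
    have hcov : ⋃ q ∈ Q, (1 : X) • (((φ q).ker : Subgroup X) : Set X) = Set.univ := by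
      rw [Set.eq_univ_iff_forall]
      intro χ
      obtain ⟨q, hq, hmem⟩ := hcon χ
      simp only [Set.mem_iUnion]
      exact ⟨q, hq, by rw [one_smul]; exact hmem⟩
    obtain ⟨q, hq, -, hidx⟩ := Subgroup.exists_index_le_card_of_leftCoset_cover hcov
    rw [Subgroup.index_ker] at hidx
    -- a large element in the range
    have hℓmem : ℓf q ∈ L := Finset.mem_image_of_mem ℓf hq
    set z := φ q (Pi.mulSingle (⟨ℓf q, hℓmem⟩ : L) (χ₀ q)) with hz
    have hzval : z = (χ₀ q (unitMod q (ℓf q))) ^ p ^ (r - 1) := by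
      rw [hz]
      change (evalAt L q (Pi.mulSingle (⟨ℓf q, hℓmem⟩ : L) (χ₀ q))) ^ p ^ (r - 1) = _
      rw [evalAt_mulSingle]
    have hzord : orderOf z = p ^ (M - (r - 1)) := by
      rw [hzval, orderOf_pow_of_dvd (pow_ne_zero _ hp.pos.ne'), hχ₀ q hq,
        Nat.pow_div (by omega) hp.pos]
      rw [hχ₀ q hq]
      exact pow_dvd_pow p (by omega)
    have hzle : orderOf z ≤ Nat.card (φ q).range := by
      have hfinT : Finite T := inferInstanceAs (Finite (Multiplicative (ZMod (p ^ k))))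
      have hfin : Finite (φ q).range := inferInstance
      exact Nat.le_of_dvd Nat.card_pos
        (Subgroup.orderOf_dvd_natCard _ (MonoidHom.mem_range.mpr ⟨_, rfl⟩))
    have hbig : t < p ^ (M - (r - 1)) := by
      calc t < M - (r - 1) := by omega
        _ < p ^ (M - (r - 1)) := Nat.lt_pow_self hp.one_lt
    rw [hzord] at hzle
    omega
  obtain ⟨χ, hχ⟩ := hmain
  refine ⟨L, k, χ, hLprop, ?_⟩
  intro q hq
  have hne : (evalAt L q χ) ^ p ^ (r - 1) ≠ 1 := fun h => hχ q hq (MonoidHom.mem_ker.mpr h)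
  have hdvd : orderOf (evalAt L q χ) ∣ p ^ k := by
    have h1 := orderOf_dvd_natCard (evalAt L q χ)
    have h2 : Nat.card T = p ^ k := by
      change Nat.card (Multiplicative (ZMod (p ^ k))) = p ^ k
      rw [Nat.card_congr Multiplicative.toAdd, Nat.card_zmod]
    rwa [h2] at h1
  obtain ⟨i, -, hi⟩ := (Nat.dvd_prime_pow hp).mp hdvd
  rw [hi]
  apply pow_dvd_pow
  by_contra hlt
  push Not at hlt
  apply hne
  apply orderOf_dvd_iff_pow_eq_one.mp
  rw [hi]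
  exact pow_dvd_pow p (by omega)

theorem not_dvd_mul_prod {p ℓ : ℕ} {Q : Finset ℕ} (hℓ : ℓ.Prime) (hp : p.Prime) (hℓp : ℓ ≠ p)
    (hcop : ∀ q ∈ Q, Nat.Coprime q ℓ) : ¬ ℓ ∣ p * ∏ q ∈ Q, q := by
  intro h
  rcases (Nat.Prime.dvd_mul hℓ).mp h with h | h
  · exact hℓp ((Nat.prime_dvd_prime_iff_eq hℓ hp).mp h)
  · obtain ⟨q, hq, hd⟩ := (Prime.dvd_finsetProd_iff (Nat.prime_iff.mp hℓ) _).mp h
    have := hcop q hq
    rw [Nat.coprime_comm, Nat.Prime.coprime_iff_not_dvd hℓ] at this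
    exact this hd

/-- A character of `(ℤ/ℓ)ˣ` (`ℓ` prime) with values in `ℤ/p^k` has image of order dividing both
`ℓ - 1` and `p ^ k`. -/
theorem card_range_dvd {p k ℓ : ℕ} (hℓ : ℓ.Prime)
    (χ : (ZMod ℓ)ˣ →* Multiplicative (ZMod (p ^ k))) :
    Nat.card χ.range ∣ ℓ - 1 ∧ Nat.card χ.range ∣ p ^ k := by
  haveI := Fact.mk hℓ
  constructor
  · have h1 : Nat.card χ.range ∣ Nat.card (ZMod ℓ)ˣ := by
      rw [← Subgroup.index_ker]
      exact Subgroup.index_dvd_card _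
    have h2 : Nat.card (ZMod ℓ)ˣ = ℓ - 1 := by
      rw [Nat.card_eq_fintype_card, ZMod.card_units_eq_totient, Nat.totient_prime hℓ]
    rwa [h2] at h1
  · have h1 : Nat.card χ.range ∣ Nat.card (Multiplicative (ZMod (p ^ k))) :=
      Subgroup.card_subgroup_dvd_card _
    rwa [Nat.card_congr Multiplicative.toAdd, Nat.card_zmod] at h1

/-- A nontrivial character of `(ℤ/ℓ)ˣ` with values in `ℤ/p^k` forces `ℓ ≡ 1 mod p`. -/
theorem dvd_sub_one_of_ne_one {p k ℓ : ℕ} (hp : p.Prime) (hℓ : ℓ.Prime)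
    (χ : (ZMod ℓ)ˣ →* Multiplicative (ZMod (p ^ k))) (hχ : χ ≠ 1) : p ∣ ℓ - 1 := by
  obtain ⟨h1, h2⟩ := card_range_dvd hℓ χ
  obtain ⟨i, -, hi⟩ := (Nat.dvd_prime_pow hp).mp h2
  rcases Nat.eq_zero_or_pos i with rfl | hipos
  · exfalso
    apply hχ
    rw [pow_zero] at hi
    have hsub : Subsingleton χ.range := (Nat.card_eq_one_iff_unique.mp hi).1
    ext u
    have := Subsingleton.elim (⟨χ u, MonoidHom.mem_range.mpr ⟨u, rfl⟩⟩ : χ.range) 1
    exact congrArg Subtype.val this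
  · rw [hi] at h1
    exact (dvd_pow_self p hipos.ne').trans h1

/-- **Cyclotomic splitting, family form.** For an odd prime `p`, finitely many primes `Q` and
`r`, there are finitely many primes `ℓ ∈ L`, all prime to `p ∏ Q`, and characters `χ_ℓ` of
`(ℤ/ℓ)ˣ` with values in `ℤ/p^k` such that the character `∏ χ_ℓ` of `∏ (ℤ/ℓ)ˣ` takes a value of
order divisible by `p ^ r` at (the Frobenius of) every `q ∈ Q`. -/
theorem exists_characters (p : ℕ) (hp : p.Prime) (hp2 : p ≠ 2) (Q : Finset ℕ)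
    (hQ : ∀ q ∈ Q, q.Prime) (r : ℕ) :
    ∃ (L : Finset ℕ) (k : ℕ) (χ : ∀ ℓ : ℕ, (ZMod ℓ)ˣ →* Multiplicative (ZMod (p ^ k))),
      (∀ ℓ ∈ L, ℓ.Prime ∧ 2 < ℓ ∧ ¬ ℓ ∣ p * ∏ q ∈ Q, q) ∧
      ∀ q ∈ Q, ∀ u : ∀ ℓ : ℕ, (ZMod ℓ)ˣ,
        (∀ ℓ ∈ L, ((u ℓ : (ZMod ℓ)ˣ) : ZMod ℓ) = (q : ZMod ℓ)) →
        p ^ r ∣ orderOf (∏ ℓ ∈ L, χ ℓ (u ℓ)) := by
  classical
  obtain ⟨L, k, χ, hL, hχ⟩ := exists_characters_aux p hp hp2 Q hQ r
  let χ' : ∀ ℓ : ℕ, (ZMod ℓ)ˣ →* Multiplicative (ZMod (p ^ k)) :=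
    fun ℓ => if h : ℓ ∈ L then χ ⟨ℓ, h⟩ else 1
  have hχ' : ∀ ℓ : L, χ' ℓ = χ ℓ := fun ℓ => dif_pos ℓ.2
  refine ⟨L, k, χ', ?_, ?_⟩
  · intro ℓ hℓ
    obtain ⟨h1, h1', h2, h3⟩ := hL ℓ hℓ
    exact ⟨h1, h1', not_dvd_mul_prod h1 hp h2 h3⟩
  · intro q hq u hu
    have : ∏ ℓ ∈ L, χ' ℓ (u ℓ) = evalAt L q χ := by
      rw [evalAt_apply, ← Finset.prod_coe_sort L]
      apply Finset.prod_congr rfl
      intro ℓ _
      rw [hχ' ℓ]
      congr 1
      exact eq_unitMod ((hL ℓ ℓ.2).2.2.2 q hq) _ (hu ℓ ℓ.2)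
    rw [this]
    exact hχ q hq

/-- **Cyclotomic splitting, single modulus.** For an odd prime `p`, finitely many primes `Q` and
`r`, there are a squarefree `N` prime to `p ∏ Q` and a character `ψ` of `(ℤ/N)ˣ` with values in
`ℤ/p^k` such that `ψ(q mod N)` has order divisible by `p ^ r` for all `q ∈ Q`.  Moreover `ψ` is a
product of characters of prime conductor. -/
theorem exists_character (p : ℕ) (hp : p.Prime) (hp2 : p ≠ 2) (Q : Finset ℕ)
    (hQ : ∀ q ∈ Q, q.Prime) (r : ℕ) :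
    ∃ (L : Finset ℕ) (k : ℕ) (χ : ∀ ℓ : L, (ZMod (ℓ : ℕ))ˣ →* Multiplicative (ZMod (p ^ k)))
      (ψ : (ZMod (∏ ℓ ∈ L, ℓ))ˣ →* Multiplicative (ZMod (p ^ k))),
      (∀ ℓ ∈ L, ℓ.Prime ∧ 2 < ℓ ∧ ¬ ℓ ∣ p * ∏ q ∈ Q, q) ∧
      (∀ u : (ZMod (∏ ℓ ∈ L, ℓ))ˣ,
        ψ u = ∏ ℓ : L, χ ℓ (ZMod.unitsMap (Finset.dvd_prod_of_mem (fun ℓ => ℓ) ℓ.2) u)) ∧
      ∀ q ∈ Q, ∀ u : (ZMod (∏ ℓ ∈ L, ℓ))ˣ, (u : ZMod (∏ ℓ ∈ L, ℓ)) = (q : ZMod (∏ ℓ ∈ L, ℓ)) →
        p ^ r ∣ orderOf (ψ u) := by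
  classical
  obtain ⟨L, k, χ, hL, hχ⟩ := exists_characters_aux p hp hp2 Q hQ r
  let ψ : (ZMod (∏ ℓ ∈ L, ℓ))ˣ →* Multiplicative (ZMod (p ^ k)) :=
    ∏ ℓ : L, (χ ℓ).comp (ZMod.unitsMap (Finset.dvd_prod_of_mem (fun ℓ => ℓ) ℓ.2))
  have hψ : ∀ u : (ZMod (∏ ℓ ∈ L, ℓ))ˣ,
      ψ u = ∏ ℓ : L, χ ℓ (ZMod.unitsMap (Finset.dvd_prod_of_mem (fun ℓ => ℓ) ℓ.2) u) := by
    intro u
    rw [MonoidHom.finsetProd_apply]
    rfl
  refine ⟨L, k, χ, ψ, ?_, hψ, ?_⟩
  · intro ℓ hℓ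
    obtain ⟨h1, h1', h2, h3⟩ := hL ℓ hℓ
    exact ⟨h1, h1', not_dvd_mul_prod h1 hp h2 h3⟩
  · intro q hq u hu
    have : ψ u = evalAt L q χ := by
      rw [hψ, evalAt_apply]
      apply Finset.prod_congr rfl
      intro ℓ _
      congr 1
      apply eq_unitMod ((hL ℓ ℓ.2).2.2.2 q hq)
      rw [ZMod.unitsMap_def, Units.coe_map, MonoidHom.coe_coe, hu, map_natCast]
    rw [this]
    exact hχ q hq

end CycloSplit

end Fermat.Agent.CFT
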