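import Fermat.Agent.CFT.Global.ChevalleyIndex

/-!
# Layer C, node C7 (abstract core): the Kummer existence theorem mod `p`, group-theoretic skeleton

`J` an abelian group (ideles of `K ∋ μ_p`), `P` the principal ideles, `JT = J_{K,T}`,
`E = ∏_{v ∈ T} K_v^{×p} × ∏_{v ∉ T} U_v`, `N` the norm group of `M = K(U_T^{1/p})`,
`US = ∏_{v ∉ S} U_v`.

* `index_sup_eq_of_kummer` : `[J : P·E] = p ^ n` from `[J_T : E] = p ^ (2n)`, `[U_T : U_T^p] = p ^ n`
  and `P ∩ E = U_T^p` (the last from the first inequality).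
* `sup_eq_sup_of_index_eq` : `P·E ≤ P·N` with equal finite index implies `P·N = P·E`.
* `exists_character_of_not_mem` : every `c ∉ P·US·J^p` is detected by a character of `J` of order
  `p` which kills `P`, `US` and `N` (hence, by reciprocity for `M/K`, comes from a character `χ` of
  `Gal(M/K)` which is unramified outside `S`).
-/

set_option autoImplicit false

namespace Fermat.Agent.CFT

open Subgroup

section Existence

variable {J : Type*} [CommGroup J]

/-- `[J : P·E] = p ^ n` in the Kummer situation. -/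
theorem index_sup_eq_of_kummer (p n : ℕ) (hp : 0 < p) (P JT E : Subgroup J)
    (hJ : P ⊔ JT = ⊤) (hE : E ≤ JT)
    (hJTE : E.relIndex JT = p ^ (2 * n))
    (hKT : (powSubgroup (P ⊓ JT) p).relIndex (P ⊓ JT) = p ^ n)
    (hpow : ∀ y ∈ JT, y ^ p ∈ E) (htf : ∀ y ∈ P, y ^ p ∈ JT → y ∈ JT)
    (hFI : ∀ x ∈ P ⊓ E, ∃ y ∈ P, y ^ p = x) : (P ⊔ E).index = p ^ n := by
  have hmul := relIndex_sup_mul_relIndex_inf JT E P hE
  -- `E ⊓ P = (P ⊓ JT)^p`
  have hinf : E ⊓ P = powSubgroup (P ⊓ JT) p := by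
    apply le_antisymm
    · intro x hx
      obtain ⟨y, hyP, hyx⟩ := hFI x ⟨hx.2, hx.1⟩
      have hyJT : y ∈ JT := htf y hyP (by rw [hyx]; exact hE hx.1)
      exact mem_powSubgroup.2 ⟨y, ⟨hyP, hyJT⟩, hyx⟩
    · intro x hx
      obtain ⟨y, hy, rfl⟩ := mem_powSubgroup.1 hx
      exact ⟨hpow y hy.2, P.pow_mem hy.1 p⟩
  rw [hinf, inf_comm JT P, hKT, hJTE, sup_comm JT P, hJ, relIndex_top_right, sup_comm E P] at hmul
  have hpn : 0 < p ^ n := pow_pos hp n
  have : (P ⊔ E).index * p ^ n = p ^ n * p ^ n := by rw [hmul]; ring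
  exact Nat.eq_of_mul_eq_mul_right hpn this

/-- Two nested subgroups of the same finite index are equal. -/
theorem eq_of_le_of_index_eq {H H' : Subgroup J} (hle : H ≤ H') (hidx : H.index = H'.index)
    (h0 : H.index ≠ 0) : H = H' := by
  have h := relIndex_mul_index hle
  have hH' : H'.index ≠ 0 := fun h' => h0 (by rw [← h, h', mul_zero])
  have h1 : H.relIndex H' = 1 := by
    have : H.relIndex H' * H'.index = 1 * H'.index := by rw [h, hidx, one_mul]
    exact Nat.eq_of_mul_eq_mul_right (Nat.pos_of_ne_zero hH') this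
  exact le_antisymm hle (relIndex_eq_one.1 h1)

/-- `P·N = P·E` when `E ≤ N` and the two indices agree. -/
theorem sup_eq_sup_of_index_eq (P E N : Subgroup J) (hEN : E ≤ N) {m : ℕ} (hm : m ≠ 0)
    (hE : (P ⊔ E).index = m) (hN : (P ⊔ N).index = m) : P ⊔ N = P ⊔ E :=
  (eq_of_le_of_index_eq (sup_le_sup_left hEN P) (by rw [hE, hN]) (by rw [hE]; exact hm)).symm

/-- A nonzero vector of an `F_p`-vector space is detected by a homomorphism to `ℤ/p`. -/
theorem exists_addMonoidHom_zmod_ne_zero_aux {A : Type*} [AddCommGroup A] (p : ℕ)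
    [hp : Fact p.Prime] [Module (ZMod p) A] {a : A} (ha : a ≠ 0) :
    ∃ f : A →+ ZMod p, f a ≠ 0 := by
  by_contra hcon
  push Not at hcon
  apply ha
  refine (Module.forall_dual_apply_eq_zero_iff (ZMod p) a).1 fun φ => ?_
  exact hcon φ.toAddMonoidHom

/-- A nonzero element of an abelian group killed by a prime `p` is detected by a homomorphism to
`ℤ/p`. -/
theorem exists_addMonoidHom_zmod_ne_zero {A : Type*} [AddCommGroup A] (p : ℕ) [hp : Fact p.Prime]
    (h : ∀ x : A, p • x = 0) {a : A} (ha : a ≠ 0) : ∃ f : A →+ ZMod p, f a ≠ 0 :=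
  @exists_addMonoidHom_zmod_ne_zero_aux A _ p hp (AddCommGroup.zmodModule h) a ha

/-- **Abstract existence theorem mod `p`.** If `W ⊇ J^p` is a subgroup and `c ∉ W`, there is a
character `ψ : J → ℤ/p` killing `W` with `ψ c ≠ 0`. -/
theorem exists_character_of_not_mem (p : ℕ) [hp : Fact p.Prime] (W : Subgroup J)
    (hW : ∀ y : J, y ^ p ∈ W) {c : J} (hc : c ∉ W) :
    ∃ ψ : J →* Multiplicative (ZMod p), W ≤ ψ.ker ∧ ψ c ≠ 1 := by
  have hkill : ∀ x : Additive (J ⧸ W), p • x = 0 := by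
    intro x
    induction x using Additive.rec with
    | ofMul x =>
      induction x using QuotientGroup.induction_on with
      | H y =>
        rw [← ofMul_pow, ← QuotientGroup.mk_pow, (QuotientGroup.eq_one_iff _).2 (hW y)]
        rfl
  have hc' : (Additive.ofMul (QuotientGroup.mk c : J ⧸ W)) ≠ 0 := by
    intro h
    exact hc ((QuotientGroup.eq_one_iff c).1 (Additive.ofMul.injective h))
  obtain ⟨f, hf⟩ := exists_addMonoidHom_zmod_ne_zero p hkill hc'
  refine ⟨(AddMonoidHom.toMultiplicativeRight f).comp (QuotientGroup.mk' W), ?_, ?_⟩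
  · intro w hw
    rw [MonoidHom.mem_ker, MonoidHom.comp_apply, QuotientGroup.mk'_apply,
      (QuotientGroup.eq_one_iff w).2 hw, map_one]
  · intro h
    apply hf
    exact Multiplicative.ofAdd.injective h

/-- **Right non-degeneracy, abstract form.** Assume `P ⊔ N ≤ P ⊔ US ⊔ J^p =: W` (from
`P·N = P·E` and `E ≤ US·J^p`) and that every character of `J` of exponent `p` killing `P ⊔ N` is
of the form `⟨·, χ⟩` for some `χ ∈ X` (reciprocity for `M/K`). Then every `c ∉ W` is detected by a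
`χ ∈ X` whose pairing kills `US`. -/
theorem exists_pairing_ne_one (p : ℕ) [hp : Fact p.Prime] (P N US : Subgroup J) {X : Type*}
    (pair : X → J →* Multiplicative (ZMod p))
    (hsurj : ∀ ψ : J →* Multiplicative (ZMod p), P ⊔ N ≤ ψ.ker → ∃ χ : X, pair χ = ψ)
    (hPN : P ⊔ N ≤ P ⊔ US ⊔ powSubgroup ⊤ p) {c : J}
    (hc : c ∉ P ⊔ US ⊔ powSubgroup ⊤ p) :
    ∃ χ : X, pair χ c ≠ 1 ∧ (∀ u ∈ US, pair χ u = 1) ∧ ∀ x ∈ P, pair χ x = 1 := by
  obtain ⟨ψ, hψW, hψc⟩ := exists_character_of_not_mem p (P ⊔ US ⊔ powSubgroup ⊤ p)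
    (fun y => le_sup_right (a := P ⊔ US) (mem_powSubgroup.2 ⟨y, mem_top y, rfl⟩)) hc
  obtain ⟨χ, rfl⟩ := hsurj ψ (hPN.trans hψW)
  refine ⟨χ, hψc, fun u hu => ?_, fun x hx => ?_⟩
  · exact hψW (le_sup_left (b := powSubgroup ⊤ p) (le_sup_right (a := P) hu))
  · exact hψW (le_sup_left (b := powSubgroup ⊤ p) (le_sup_left (b := US) hx))

end Existence

end Fermat.Agent.CFT
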