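/-
S55 / C7b: **index count for the existence theorem mod `p`**, preparations.
* `relIndex_powSubgroup_eq`, `index_range_pow_congr` : `[H : H^p]` and isomorphisms;
* `sUnitToIdele`, `relIndex_pow_principal_inf_outside` : `[K_S : K_S^n]` in the idele model
  (`P ⊓ J_{K,S}` = `S`-units);
* `finrank_eq_two_mul_rank_add_one` : `[K : ℚ] = 2 (r + 1)` when `K ∋ μ_k`, `2 < k`;
* `index_sup_eq_of_count_box` : the abstract count for box subgroups of a product;
* `mem_sUnit_of_pow_mem`.
-/
import Mathlib
import Fermat.Agent.CFT.Global.ExistencePairing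
import Fermat.Agent.CFT.Global.BoxIndex
import Fermat.Agent.CFT.Global.IdeleDict.DictGen
import Fermat.Agent.CFT.Global.SUnitsCount

set_option autoImplicit false

open scoped NumberField

namespace Fermat.Agent.CFT

namespace ExistenceCount

open Subgroup NumberField IsDedekindDomain IdeleDict

section General

variable {G : Type*} [CommGroup G]

/-- `[H : H^p]` computed inside `H`. -/
theorem relIndex_powSubgroup_eq (H : Subgroup G) (p : ℕ) :
    (powSubgroup H p).relIndex H = (powMonoidHom p : H →* H).range.index := by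
  have h : (powSubgroup H p).subgroupOf H = (powMonoidHom p : H →* H).range := by
    ext x
    rw [mem_subgroupOf, mem_powSubgroup, MonoidHom.mem_range]
    constructor
    · rintro ⟨y, hy, hyx⟩
      exact ⟨⟨y, hy⟩, Subtype.ext hyx⟩
    · rintro ⟨y, hy⟩
      exact ⟨y.1, y.2, congrArg Subtype.val hy⟩
  rw [relIndex, h]

/-- The index of the `p`-th powers is invariant under isomorphism. -/
theorem index_range_pow_congr {A B : Type*} [CommGroup A] [CommGroup B] (e : A ≃* B) (p : ℕ) :
    (powMonoidHom p : A →* A).range.index = (powMonoidHom p : B →* B).range.index := by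
  have h : (powMonoidHom p : B →* B).range = (powMonoidHom p : A →* A).range.map (e : A →* B) := by
    ext x
    rw [MonoidHom.mem_range, mem_map]
    constructor
    · rintro ⟨y, rfl⟩
      refine ⟨(powMonoidHom p) (e.symm y), ⟨_, rfl⟩, ?_⟩
      change e ((e.symm y) ^ p) = y ^ p
      rw [map_pow, e.apply_symm_apply]
    · rintro ⟨_, ⟨z, rfl⟩, rfl⟩
      refine ⟨e z, ?_⟩
      change (e z) ^ p = e (z ^ p)
      rw [map_pow]
  rw [h, index_map_equiv]

end General

section SUnitsModel

variable (K : Type) [Field K] [NumberField K] (S : Set (HeightOneSpectrum (𝓞 K)))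

/-- `J_{K,S}` as a subgroup of the idele group. -/
noncomputable abbrev outsideSubgroup : Subgroup (ideleGroup K) := (ideleOutside K S).subgroupOf (ideleGroup K)

/-- The `S`-units as principal ideles in `J_{K,S}`. -/
noncomputable def sUnitToIdele : S.unit K →* ↥(principalSubgroup K ⊓ outsideSubgroup K S) where
  toFun y := ⟨⟨principalIdele K y.1, principalIdele_mem_ideleGroup y.1⟩,
    ⟨⟨y.1, rfl⟩, (principalIdele_mem_ideleOutside_iff S y.1).2 y.2⟩⟩
  map_one' := by
    apply Subtype.ext
    apply Subtype.ext
    exact map_one (principalIdele K)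
  map_mul' y z := by
    apply Subtype.ext
    apply Subtype.ext
    exact map_mul (principalIdele K) y.1 z.1

theorem sUnitToIdele_bijective : Function.Bijective (sUnitToIdele K S) := by
  constructor
  · intro y z hyz
    apply Subtype.ext
    apply principalIdele_injective (K := K)
    exact congrArg (fun w : ↥(principalSubgroup K ⊓ outsideSubgroup K S) =>
      ((w : ideleGroup K) : IdeleProd K)) hyz
  · rintro ⟨⟨x, hxJ⟩, ⟨y, hy⟩, hxS⟩
    have hy' : principalIdele K y = x := hy
    have hyS : y ∈ S.unit K := by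
      rw [← principalIdele_mem_ideleOutside_iff, hy']
      exact hxS
    refine ⟨⟨y, hyS⟩, ?_⟩
    apply Subtype.ext
    apply Subtype.ext
    exact hy'

/-- `[K_S : K_S^n]` in the idele model. -/
theorem relIndex_pow_principal_inf_outside [Finite S] (n : ℕ) [NeZero n] :
    (powSubgroup (principalSubgroup K ⊓ outsideSubgroup K S) n).relIndex
        (principalSubgroup K ⊓ outsideSubgroup K S) =
      n ^ (NumberField.Units.rank K + Nat.card S) * Nat.card (rootsOfUnity n K) := by
  rw [relIndex_powSubgroup_eq, ← SUnits.index_range_pow_sUnit_numberField K S n]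
  exact (index_range_pow_congr
    (MulEquiv.ofBijective (sUnitToIdele K S) (sUnitToIdele_bijective K S)) n).symm

end SUnitsModel

section Degree

variable (K : Type) [Field K] [NumberField K]

/-- If `K` contains a primitive `k`-th root of unity with `2 < k`, then `[K : ℚ] = 2 (r + 1)`
where `r` is the unit rank. -/
theorem finrank_eq_two_mul_rank_add_one {ζ : K} {k : ℕ} (hk : 2 < k) (hζ : IsPrimitiveRoot ζ k) :
    Module.finrank ℚ K = 2 * (NumberField.Units.rank K + 1) := by
  have h0 : NumberField.InfinitePlace.nrRealPlaces K = 0 :=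
    NumberField.InfinitePlace.IsPrimitiveRoot.nrRealPlaces_eq_zero_of_two_lt hk hζ
  have h1 := NumberField.InfinitePlace.card_add_two_mul_card_eq_rank K
  have h2 := NumberField.InfinitePlace.card_eq_nrRealPlaces_add_nrComplexPlaces K
  have h3 : 0 < Fintype.card (InfinitePlace K) := Fintype.card_pos
  rw [NumberField.Units.rank]
  rw [h0, zero_add] at h1 h2
  omega

end Degree

section Box

variable {V : Type*} {A : V → Type*} [∀ v, CommGroup (A v)]

/-- **Index count, product form**: `[J : P · E] = p^t` for box subgroups `JT = ∏ JT v`,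
`E = ∏ E v` agreeing outside the finite set `F`. -/
theorem index_sup_eq_of_count_box (p t : ℕ) (hp : 1 < p) (J : Subgroup (∀ v, A v))
    (P : Subgroup J) (JT E : ∀ v, Subgroup (A v)) (F : Finset V)
    (hJTJ : box JT ≤ J) (hE : ∀ v, E v ≤ JT v) (hFE : ∀ v, v ∉ F → JT v ≤ E v)
    (hlocE : ∏ v ∈ F, (E v).relIndex (JT v) = p ^ (2 * t))
    (hpow : ∀ v, ∀ y ∈ JT v, y ^ p ∈ E v)
    (hJ : P ⊔ (box JT).subgroupOf J = ⊤)
    (hKT : (powSubgroup (P ⊓ (box JT).subgroupOf J) p).relIndex (P ⊓ (box JT).subgroupOf J) =
      p ^ t)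
    (hinj : ∀ x ∈ P ⊓ (box E).subgroupOf J, ∃ y ∈ P ⊓ (box JT).subgroupOf J, y ^ p = x) :
    (P ⊔ (box E).subgroupOf J).index = p ^ t := by
  refine ExistenceAbstract.index_sup_eq_of_count p t hp P ((box JT).subgroupOf J)
    ((box E).subgroupOf J) hJ ?_ ?_ hKT ?_ hinj
  · exact fun x hx => box_mono hE hx
  · rw [relIndex_subgroupOf hJTJ, relIndex_box E JT F hFE, hlocE]
  · intro y hy
    rw [mem_subgroupOf, mem_box] at hy ⊢
    intro v
    exact hpow v _ (hy v)

end Box

section Aux

variable {R K : Type*} [CommRing R] [IsDedekindDomain R] [Field K] [Algebra R K]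
  [IsFractionRing R K] (S : Set (HeightOneSpectrum R))

/-- A root of an `S`-unit is an `S`-unit. -/
theorem mem_sUnit_of_pow_mem {n : ℕ} (hn : n ≠ 0) {z : Kˣ} (hz : z ^ n ∈ S.unit K) :
    z ∈ S.unit K := by
  intro v hv
  have h := hz v hv
  rw [Units.val_pow_eq_pow_val, map_pow] at h
  rcases pow_eq_one_iff.mp h with h1 | h1
  · exact h1
  · exact absurd h1 hn

end Aux

end ExistenceCount

end Fermat.Agent.CFT
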