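/-
S55 / C7b: **index count for the existence theorem mod `p` in the idele model**.

`K` a number field containing `μ_p`, `T` a finite set of rational primes whose primes in `K`
generate the class group. With `E_T = ∏_{q ∈ T} (K ⊗ ℚ_q)^{×p} × ∏_{q ∉ T} U_q`
(`box (localPowOutside K p T)`):

* `index_principalSubgroup_sup_box` : `[J_K : Kˣ · E_T] = p ^ (r + |T_K| + 1)`, from the product of
  the local indices (hypothesis `hloc`) and the injectivity `K_T/p ↪ ∏_{q∈T} (K ⊗ ℚ_q)ˣ/p`
  (hypothesis `hinj`, a corollary of the first inequality);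
* `box_le_unit_sup_pow` : `E_T ≤ U_{K,T} · J_K^p`; `unitIdelesOutside_anti`.
-/
import Mathlib
import Fermat.Agent.CFT.Global.ExistenceCountPre

set_option autoImplicit false

open scoped NumberField

namespace Fermat.Agent.CFT

namespace ExistenceCount

open Subgroup NumberField IsDedekindDomain IdeleDict

section Families

variable (K : Type) [Field K] (p : ℕ) (T : Set Nat.Primes)

open Classical in
/-- The local components of `J_{K,T}`: everything at `q ∈ T`, integral units at `q ∉ T`. -/
noncomputable def localOutside (q : Nat.Primes) : Subgroup (semiLocalUnits (q : ℕ) K) :=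
  if q ∈ T then ⊤ else semiLocalIntegral (q : ℕ) K

open Classical in
/-- The local components of `E_T = ∏_{q ∈ T} (K ⊗ ℚ_q)^{×p} × ∏_{q ∉ T} U_q`. -/
noncomputable def localPowOutside (q : Nat.Primes) : Subgroup (semiLocalUnits (q : ℕ) K) :=
  if q ∈ T then powSubgroup ⊤ p else semiLocalIntegral (q : ℕ) K

theorem localPowOutside_le (q : Nat.Primes) : localPowOutside K p T q ≤ localOutside K T q := by
  unfold localPowOutside localOutside
  split_ifs
  · exact le_top
  · exact le_rfl

theorem box_localOutside : box (localOutside K T) = ideleGroupOutside K T := by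
  ext x
  rw [mem_box]
  constructor
  · intro h q hq
    have := h q
    unfold localOutside at this
    rwa [if_neg hq] at this
  · intro h q
    unfold localOutside
    split_ifs with hq
    · exact mem_top _
    · exact h q hq

theorem mem_box_localPowOutside {x : IdeleProd K} :
    x ∈ box (localPowOutside K p T) ↔
      (∀ q ∈ T, ∃ g : semiLocalUnits (q : ℕ) K, g ^ p = x q) ∧
        ∀ q ∉ T, x q ∈ semiLocalIntegral (q : ℕ) K := by
  rw [mem_box]
  constructor
  · intro h
    refine ⟨fun q hq => ?_, fun q hq => ?_⟩
    · have := h q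
      unfold localPowOutside at this
      rw [if_pos hq, mem_powSubgroup] at this
      obtain ⟨g, -, hg⟩ := this
      exact ⟨g, hg⟩
    · have := h q
      unfold localPowOutside at this
      rwa [if_neg hq] at this
  · rintro ⟨h1, h2⟩ q
    unfold localPowOutside
    split_ifs with hq
    · obtain ⟨g, hg⟩ := h1 q hq
      exact mem_powSubgroup.2 ⟨g, mem_top _, hg⟩
    · exact h2 q hq

omit T in
theorem unitIdelesOutside_anti {S T : Set Nat.Primes} (h : S ⊆ T) :
    unitIdelesOutside K T ≤ unitIdelesOutside K S := by
  intro x hx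
  refine ⟨fun q hq => ?_, fun q hq => hx.2 q (h hq)⟩
  by_cases hqT : q ∈ T
  · rw [hx.2 q hqT]
    exact one_mem _
  · exact hx.1 q hqT

/-- `E_T ≤ U_{K,T} · J_K^p`. -/
theorem box_le_unit_sup_pow (hT : T.Finite) {x : IdeleProd K}
    (hx : x ∈ box (localPowOutside K p T)) :
    ∃ u ∈ unitIdelesOutside K T, ∃ g ∈ ideleGroup K, x = u * g ^ p := by
  classical
  have h1 : ∀ q, q ∈ T → ∃ g : semiLocalUnits (q : ℕ) K, g ^ p = x q := by
    intro q hq
    have := mem_box.1 hx q
    unfold localPowOutside at this
    rw [if_pos hq, mem_powSubgroup] at this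
    obtain ⟨g, -, hg⟩ := this
    exact ⟨g, hg⟩
  have h2 : ∀ q, q ∉ T → x q ∈ semiLocalIntegral (q : ℕ) K := by
    intro q hq
    have := mem_box.1 hx q
    unfold localPowOutside at this
    rwa [if_neg hq] at this
  choose g hg using h1
  refine ⟨fun q => if q ∈ T then 1 else x q, ⟨fun q hq => ?_, fun q hq => ?_⟩,
    fun q => if h : q ∈ T then g q h else 1, ?_, ?_⟩
  · beta_reduce
    rw [if_neg hq]
    exact h2 q hq
  · beta_reduce
    rw [if_pos hq]
  · apply ideleGroupOutside_le_ideleGroup hT
    intro q hq
    beta_reduce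
    rw [dif_neg hq]
    exact one_mem _
  · funext q
    by_cases hq : q ∈ T
    · simp only [Pi.mul_apply, Pi.pow_apply, if_pos hq, dif_pos hq, one_mul, hg q hq]
    · simp only [Pi.mul_apply, Pi.pow_apply, if_neg hq, dif_neg hq, one_pow, mul_one]


end Families

section Model

variable {K : Type} [Field K] [NumberField K] (p : ℕ)

/-- **C7b, index count in the idele model**: for a number field `K ∋ μ_p` and a finite set `T` of
rational primes whose primes generate the class group,
`[J_K : Kˣ · E_T] = p ^ (r + |T_K| + 1)` (`r` = unit rank, `T_K` = primes of `K` above `T`),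
given the product of the local indices `∏_{q ∈ T} [(K ⊗ ℚ_q)ˣ : (K ⊗ ℚ_q)^{×p}]` and the
injectivity `K_T / p ↪ ∏_{q ∈ T} (K ⊗ ℚ_q)ˣ / p` (a corollary of the first inequality). -/
theorem index_principalSubgroup_sup_box [Fact p.Prime] (T : Finset Nat.Primes)
    (hgen : GeneratesClassGroup K (primesOver K (T : Set Nat.Primes)))
    {ζ : K} (hζ : IsPrimitiveRoot ζ p)
    (hloc : ∏ q ∈ T, (powSubgroup (⊤ : Subgroup (semiLocalUnits (q : ℕ) K)) p).index =
      p ^ (2 * (NumberField.Units.rank K + Nat.card (primesOver K (T : Set Nat.Primes)) + 1)))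
    (hinj : ∀ y : Kˣ, y ∈ (primesOver K (T : Set Nat.Primes)).unit K →
      (∀ q ∈ T, ∃ g : semiLocalUnits (q : ℕ) K, g ^ p = semiLocalDiag y) → ∃ z : Kˣ, z ^ p = y) :
    (principalSubgroup K ⊔
        (box (localPowOutside K p (T : Set Nat.Primes))).subgroupOf (ideleGroup K)).index =
      p ^ (NumberField.Units.rank K + Nat.card (primesOver K (T : Set Nat.Primes)) + 1) := by
  classical
  have hp : p.Prime := Fact.out
  have : NeZero p := ⟨hp.ne_zero⟩
  set S : Set (HeightOneSpectrum (𝓞 K)) := primesOver K (T : Set Nat.Primes) with hS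
  have hSfin : S.Finite := primesOver_finite T.finite_toSet
  have : Finite S := hSfin
  have hboxJT : box (localOutside K (T : Set Nat.Primes)) = ideleOutside K S := by
    rw [box_localOutside, ideleGroupOutside_eq_ideleOutside]
  have hJTJ : box (localOutside K (T : Set Nat.Primes)) ≤ ideleGroup K := by
    rw [hboxJT]
    exact ideleOutside_le_ideleGroup hSfin
  refine index_sup_eq_of_count_box p _ hp.one_lt (ideleGroup K) (principalSubgroup K)
    (localOutside K (T : Set Nat.Primes)) (localPowOutside K p (T : Set Nat.Primes)) T hJTJ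
    (localPowOutside_le K p _) ?_ ?_ ?_ ?_ ?_ ?_
  · -- outside `T` the two families agree
    intro q hq
    have hq' : q ∉ (T : Set Nat.Primes) := hq
    unfold localPowOutside localOutside
    rw [if_neg hq', if_neg hq']
  · -- local indices
    rw [← hloc]
    refine Finset.prod_congr rfl fun q hq => ?_
    have hq' : q ∈ (T : Set Nat.Primes) := hq
    unfold localPowOutside localOutside
    rw [if_pos hq', if_pos hq', relIndex_top_right]
  · -- `p`-th powers
    intro q y hy
    unfold localOutside at hy
    unfold localPowOutside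
    split_ifs with hq
    · exact mem_powSubgroup.2 ⟨y, mem_top _, rfl⟩
    · rw [if_neg hq] at hy
      exact pow_mem hy p
  · -- `J = P · J_T`
    rw [hboxJT, principalSubgroup,
      ← subgroupOf_sup (fun x hx => by
          obtain ⟨y, rfl⟩ := hx
          exact principalIdele_mem_ideleGroup y) (ideleOutside_le_ideleGroup hSfin),
      sup_eq_ideleGroup hgen hSfin, subgroupOf_self]
  · -- `S`-unit count
    rw [hboxJT]
    have h := relIndex_pow_principal_inf_outside K S p
    rw [hζ.card_rootsOfUnity, ← pow_succ] at h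
    exact h
  · -- injectivity
    rintro ⟨x, hxJ⟩ ⟨⟨y, hy⟩, hxE⟩
    have hy' : principalIdele K y = x := hy
    have hxE' : x ∈ box (localPowOutside K p (T : Set Nat.Primes)) := hxE
    obtain ⟨h1, h2⟩ := (mem_box_localPowOutside K p _).1 hxE'
    have hyS : y ∈ S.unit K := by
      rw [← principalIdele_mem_ideleOutside_iff, hy', ← hboxJT]
      exact box_mono (localPowOutside_le K p _) hxE'
    obtain ⟨z, hz⟩ := hinj y hyS (fun q hq => by
      obtain ⟨g, hg⟩ := h1 q hq
      exact ⟨g, by rw [hg, ← hy']; rfl⟩)
    have hzS : z ∈ S.unit K := mem_sUnit_of_pow_mem S hp.ne_zero (hz ▸ hyS)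
    refine ⟨⟨principalIdele K z, principalIdele_mem_ideleGroup z⟩, ⟨⟨z, rfl⟩, ?_⟩, ?_⟩
    · change principalIdele K z ∈ box (localOutside K (T : Set Nat.Primes))
      rw [hboxJT]
      exact (principalIdele_mem_ideleOutside_iff S z).2 hzS
    · apply Subtype.ext
      change (principalIdele K z) ^ p = x
      rw [← map_pow, hz, hy']

end Model

end ExistenceCount

end Fermat.Agent.CFT
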