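import Fermat.Agent.CFT.Global.SemiLocalPowIndex
import Fermat.Agent.CFT.Global.ExistenceCount

/-!
# Layer C, node C7b: the index count with the local indices discharged

`ExistenceCount.index_principalSubgroup_sup_box` (helper5) with its hypothesis `hloc` (product of
the semi-local power indices) proved by `prod_index_powSubgroup_top_semiLocalUnits`.  Only the
injectivity `K_T / p ↪ ∏_{q ∈ T} (K ⊗ ℚ_q)ˣ / p` (first-inequality corollary) remains a hypothesis.
-/

set_option autoImplicit false

open scoped NumberField

namespace Fermat.Agent.CFT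

namespace ExistenceCount

open Subgroup IsDedekindDomain IdeleDict

/-- **C7b**: `[J_K : Kˣ · E_T] = p ^ (r + |T_K| + 1)` for `K ∋ ζ_p`, `p` odd, `T ∋ p` a finite set of
rational primes whose primes generate the class group, given the injectivity `hinj`. -/
theorem index_principalSubgroup_sup_box_of_inj {K : Type} [Field K] [NumberField K]
    (pp : Nat.Primes) (hp2 : 2 < (pp : ℕ)) (T : Finset Nat.Primes) (hpT : pp ∈ T)
    (hgen : GeneratesClassGroup K (primesOver K (T : Set Nat.Primes)))
    {ζ : K} (hζ : IsPrimitiveRoot ζ (pp : ℕ))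
    (hinj : ∀ y : Kˣ, y ∈ (primesOver K (T : Set Nat.Primes)).unit K →
      (∀ q ∈ T, ∃ g : semiLocalUnits (q : ℕ) K, g ^ (pp : ℕ) = semiLocalDiag y) →
        ∃ z : Kˣ, z ^ (pp : ℕ) = y) :
    (principalSubgroup K ⊔
        (box (localPowOutside K (pp : ℕ) (T : Set Nat.Primes))).subgroupOf (ideleGroup K)).index =
      (pp : ℕ) ^ (NumberField.Units.rank K + Nat.card (primesOver K (T : Set Nat.Primes)) + 1) :=
  index_principalSubgroup_sup_box (pp : ℕ) T hgen hζ
    (prod_index_powSubgroup_top_semiLocalUnits pp hp2 hζ T hpT) hinj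

end ExistenceCount

end Fermat.Agent.CFT
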