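import Fermat.Agent.CFT.Global.LayerCoeff
import Fermat.Agent.CFT.Local.LayerInv
import Fermat.Agent.CFT.LC.Shapiro

/-!
# CFT, Layer C (C9-L): the LC lift of a `p`-primary class formation

Mirror of `Local/LCInv.lean` for a coefficient system `𝔠 : LayerCoeff k Ω`, a dictionary
`d : CoeffDict 𝔠 Adm E L A` and a `p`-primary invariant system `I : PLayerInvSystem 𝔠 Adm p`.
-/

set_option autoImplicit false
set_option linter.style.haveILetI false
set_option linter.unusedSectionVars false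

open CategoryTheory groupCohomology IntermediateField

namespace Fermat.Agent.CFT

/-! ### Abstract lemmas on `ℚ/ℤ`-valued invariants -/

section abstractInv

variable {X Y : Type*} [AddCommGroup X] [AddCommGroup Y]

/-- A `p`-primary element `t` of `ℚ/ℤ` is of the form `n • z • (1/p^M)`, for any given `n > 0`. -/
lemma exists_nsmul_zsmul_one_div_pow_eq (p : ℕ) (hp : p.Prime) (n : ℕ) (hn : 0 < n) (m : ℕ)
    (t : AddCircle (1 : ℚ)) (ht : p ^ m • t = 0) :
    ∃ (M : ℕ) (z : ℤ),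
      n • (z • (((1 : ℚ) / ((p ^ M : ℕ) : ℚ) : ℚ) : AddCircle (1 : ℚ))) = t := by
  obtain ⟨j, -, rfl⟩ := (AddCircle.nsmul_eq_zero_iff (pow_pos hp.pos m)).1 ht
  obtain ⟨b, n', hn', rfl⟩ := Nat.exists_eq_pow_mul_and_not_dvd hn.ne' p hp.ne_one
  have hcop : Nat.Coprime n' (p ^ m) :=
    (((Nat.Prime.coprime_iff_not_dvd hp).2 hn').pow_left m).symm
  obtain ⟨u, v, huv⟩ := Nat.isCoprime_iff_coprime.2 hcop
  refine ⟨m + b, j * u, ?_⟩
  rw [← AddCircle.coe_zsmul, ← AddCircle.coe_nsmul, ← sub_eq_zero, ← AddCircle.coe_sub,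
    AddCircle.coe_eq_zero_iff]
  refine ⟨-(j * v), ?_⟩
  have hp0 : (p : ℚ) ≠ 0 := Nat.cast_ne_zero.2 hp.ne_zero
  have huv' : (u : ℚ) * (n' : ℚ) + (v : ℚ) * (p : ℚ) ^ m = 1 := by exact_mod_cast huv
  simp only [zsmul_eq_mul, nsmul_eq_mul, mul_one]
  push_cast
  field_simp
  rw [pow_add]
  linear_combination (-(j : ℚ) * (p : ℚ) ^ b * (p : ℚ) ^ m) * huv'

/-- **(T2), abstract form.** If `cor ∘ res = n`, `invY ∘ res = n • invX`, `invY` is injective on
`p`-primary classes and `invX` takes the values `1/p^a` on `p`-primary classes, then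
`invX (cor y) = invY y` for every `p`-primary `y`. -/
theorem inv_cor_of_inv_res (p : ℕ) (hp : p.Prime) (res : X →+ Y) (cor : Y →+ X) (n : ℕ)
    (hn : 0 < n) (hcr : ∀ x, cor (res x) = n • x)
    (invX : X →+ AddCircle (1 : ℚ)) (invY : Y →+ AddCircle (1 : ℚ))
    (hres : ∀ x, invY (res x) = n • invX x)
    (hinjY : ∀ y, (∃ m : ℕ, p ^ m • y = 0) → invY y = 0 → y = 0)
    (hvalX : ∀ a : ℕ, ∃ x, p ^ a • x = 0 ∧
      invX x = (((1 : ℚ) / ((p ^ a : ℕ) : ℚ) : ℚ) : AddCircle (1 : ℚ)))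
    (y : Y) (hy : ∃ m : ℕ, p ^ m • y = 0) : invX (cor y) = invY y := by
  obtain ⟨m, hm⟩ := hy
  have ht : p ^ m • invY y = 0 := by rw [← map_nsmul, hm, map_zero]
  obtain ⟨M, z, hz⟩ := exists_nsmul_zsmul_one_div_pow_eq p hp n hn m (invY y) ht
  obtain ⟨x₀, hx₀t, hx₀⟩ := hvalX M
  have hx : invY (res (z • x₀)) = invY y := by rw [hres, map_zsmul, hx₀, hz]
  have hxy : res (z • x₀) = y := by
    rw [← sub_eq_zero]
    refine hinjY _ ⟨m + M, ?_⟩ (by rw [map_sub, hx, sub_self])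
    have h1 : p ^ (m + M) • res (z • x₀) = 0 := by
      rw [← map_nsmul, pow_add, mul_smul, smul_comm (p ^ M) z x₀, hx₀t, smul_zero, smul_zero,
        map_zero]
    have h2 : p ^ (m + M) • y = 0 := by
      rw [pow_add, mul_comm, mul_smul, hm, smul_zero]
    rw [smul_sub, h1, h2, sub_zero]
  rw [← hxy, hcr, map_nsmul, ← hres, hx]

/-- **(T2), abstract form for a full class formation**: `invY` injective, `invX` surjective. -/
theorem inv_cor_of_inv_res_of_injective (res : X →+ Y) (cor : Y →+ X) (n : ℕ)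
    (hn : 0 < n) (hcr : ∀ x, cor (res x) = n • x)
    (invX : X →+ AddCircle (1 : ℚ)) (invY : Y →+ AddCircle (1 : ℚ))
    (hres : ∀ x, invY (res x) = n • invX x)
    (hinjY : Function.Injective invY) (hsurjX : Function.Surjective invX) (y : Y) :
    invX (cor y) = invY y := by
  -- `ℚ/ℤ` is divisible
  have hdiv : ∃ t : AddCircle (1 : ℚ), n • t = invY y := by
    induction' invY y using QuotientAddGroup.induction_on with q
    refine ⟨((q / (n : ℚ) : ℚ) : AddCircle (1 : ℚ)), ?_⟩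
    rw [← AddCircle.coe_nsmul, nsmul_eq_mul,
      mul_div_cancel₀ q (Nat.cast_ne_zero.2 hn.ne' : (n : ℚ) ≠ 0)]
  obtain ⟨t, ht⟩ := hdiv
  obtain ⟨x, rfl⟩ := hsurjX t
  have hxy : res x = y := hinjY (by rw [hres, ht])
  rw [← hxy, hcr, map_nsmul, ← hres]

/-- Replace a torsion class of invariant `1/p^a` by a `p^a`-torsion class with the same
invariant. -/
lemma exists_pow_nsmul_eq_zero_of_inv_eq (p : ℕ) (hp : p.Prime) (inv : X →+ AddCircle (1 : ℚ))
    (hinj : ∀ x, (∃ m : ℕ, p ^ m • x = 0) → inv x = 0 → x = 0) (a : ℕ) (x : X)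
    (hx : ∃ n : ℕ, 0 < n ∧ n • x = 0)
    (hinv : inv x = (((1 : ℚ) / ((p ^ a : ℕ) : ℚ) : ℚ) : AddCircle (1 : ℚ))) :
    ∃ x', p ^ a • x' = 0 ∧
      inv x' = (((1 : ℚ) / ((p ^ a : ℕ) : ℚ) : ℚ) : AddCircle (1 : ℚ)) := by
  obtain ⟨n, hn, hnx⟩ := hx
  obtain ⟨b, n', hn', rfl⟩ := Nat.exists_eq_pow_mul_and_not_dvd hn.ne' p hp.ne_one
  have hcop : Nat.Coprime n' (p ^ a) :=
    (((Nat.Prime.coprime_iff_not_dvd hp).2 hn').pow_left a).symm
  obtain ⟨u, v, huv⟩ := Nat.isCoprime_iff_coprime.2 hcop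
  have hpa : p ^ a • (((1 : ℚ) / ((p ^ a : ℕ) : ℚ) : ℚ) : AddCircle (1 : ℚ)) = 0 :=
    LC.addCircle_nsmul_one_div (p ^ a) (pow_pos hp.pos a)
  -- the class `x' = (u n') • x`
  have hinv' : inv ((u * (n' : ℤ)) • x) =
      (((1 : ℚ) / ((p ^ a : ℕ) : ℚ) : ℚ) : AddCircle (1 : ℚ)) := by
    have h1 : u * (n' : ℤ) = 1 - v * ((p ^ a : ℕ) : ℤ) := by linarith
    rw [map_zsmul, hinv, h1, sub_smul, one_smul, mul_smul, natCast_zsmul, hpa, smul_zero,
      sub_zero]
  have htors : p ^ b • ((u * (n' : ℤ)) • x) = 0 := by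
    have h2 : p ^ b • ((u * (n' : ℤ)) • x) = u • ((p ^ b * n') • x) := by
      rw [mul_smul u, natCast_zsmul, smul_comm, mul_smul]
    rw [h2, hnx, smul_zero]
  refine ⟨(u * (n' : ℤ)) • x, ?_, hinv'⟩
  refine hinj _ ⟨b, ?_⟩ (by rw [map_nsmul, hinv', hpa])
  rw [smul_comm, htors, smul_zero]

/-- **(T1), abstract form with injectivity on `p`-torsion only.** -/
theorem exists_torsionBy_addEquiv_zmod_of_inj_torsion (inv : X →+ AddCircle (1 : ℚ)) (p : ℕ)
    [hpf : Fact p.Prime] (hinj : ∀ x : X, p • x = 0 → inv x = 0 → x = 0) (c₀ : X)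
    (hc₀t : p • c₀ = 0)
    (hc₀ : inv c₀ = (((1 : ℚ) / (p : ℚ) : ℚ) : AddCircle (1 : ℚ))) :
    ∃ e : ↥(AddSubgroup.torsionBy X (p : ℤ)) ≃+ ZMod p,
      ∀ c : ↥(AddSubgroup.torsionBy X (p : ℤ)),
        inv (c : X) = ((((e c).val : ℚ) / (p : ℚ) : ℚ) : AddCircle (1 : ℚ)) := by
  have hinj' : Function.Injective
      (inv.comp (AddSubgroup.torsionBy X (p : ℤ)).subtype) := by
    rw [injective_iff_map_eq_zero]
    intro c hc
    exact Subtype.ext (hinj _ (AddSubgroup.torsionBy.nsmul_iff.1 c.2) hc)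
  have hall : ∀ c : ↥(AddSubgroup.torsionBy X (p : ℤ)),
      c ∈ AddSubgroup.torsionBy (↥(AddSubgroup.torsionBy X (p : ℤ))) (p : ℤ) := fun c => by
    rw [AddSubgroup.torsionBy.nsmul_iff]
    exact Subtype.ext (AddSubgroup.torsionBy.nsmul_iff.1 c.2)
  obtain ⟨e', he'⟩ := LC.exists_torsionBy_addEquiv_zmod
    (inv.comp (AddSubgroup.torsionBy X (p : ℤ)).subtype) hinj' p
    ⟨c₀, AddSubgroup.torsionBy.nsmul_iff.2 hc₀t⟩ hc₀
  let ι : ↥(AddSubgroup.torsionBy X (p : ℤ)) ≃+
      ↥(AddSubgroup.torsionBy (↥(AddSubgroup.torsionBy X (p : ℤ))) (p : ℤ)) :=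
    { toFun := fun c => ⟨c, hall c⟩
      invFun := fun c => c.1
      left_inv := fun _ => rfl
      right_inv := fun _ => rfl
      map_add' := fun _ _ => rfl }
  exact ⟨ι.trans e', fun c => he' (ι c)⟩

end abstractInv

open GaloisTower LayerMaps

variable {k Ω : Type} [Field k] [Field Ω] [Algebra k Ω]

namespace CoeffDict

variable {𝔠 : LayerCoeff k Ω} {Adm : IntermediateField k Ω → Prop} {p : ℕ}
  {E : IntermediateField k Ω} {G : Type} [Group G] {L : LevelStructure G}
  {A : Rep.{0} ℤ G} (d : CoeffDict 𝔠 Adm E L A) (I : PLayerInvSystem 𝔠 Adm p)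

/-- The cohomology isomorphism of a level. -/
noncomputable def coh (l : L.Level) (n : ℕ) :
    groupCohomology (A.quotientToInvariants l.N) n ≃ₗ[ℤ] groupCohomology (𝔠.M (d.le_top l)) n :=
  cohLinearEquivOfRepIso _ _ (d.quotEquiv l) (d.repIso l) n

/-- The invariant map of a finite level. -/
noncomputable def invLevel (l : L.Level) :
    groupCohomology.H2 (A.quotientToInvariants l.N) →+ AddCircle (1 : ℚ) :=
  (I.inv (d.le_top l)).comp (d.coh l 2).toLinearMap.toAddMonoidHom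

lemma invLevel_apply (l : L.Level) (y : groupCohomology.H2 (A.quotientToInvariants l.N)) :
    d.invLevel I l y = I.inv (d.le_top l) (d.coh l 2 y) := rfl

/-- `inv` is compatible with inflation between admissible normal layers. -/
lemma inv_infl {E' F' : IntermediateField k Ω} (hEE' : E ≤ E') (hE'F' : E' ≤ F')
    (hadm : Adm F') [Normal E (layer hEE')] [Normal E (layer (hEE'.trans hE'F'))]
    (x : groupCohomology (𝔠.M hEE') 2) :
    I.inv (hEE'.trans hE'F') ((𝔠.infl hEE' hE'F' 2).hom x) = I.inv hEE' x := by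
  have := I.inv_map hEE' (hEE'.trans hE'F') le_rfl hE'F' hadm x
  rw [LayerInvSystem.finrank_layer_self, one_smul] at this
  exact this

lemma invLevel_inflFin (l l' : L.Level) (h : l'.N ≤ l.N)
    (y : groupCohomology.H2 (A.quotientToInvariants l.N)) :
    d.invLevel I l' ((LC.inflFin A h 2).hom y) = d.invLevel I l y := by
  haveI := d.normal l
  haveI : Normal E (layer ((d.le_top l).trans (d.mono h))) := d.normal l'
  rw [invLevel_apply, invLevel_apply]
  have h1 : d.coh l' 2 ((LC.inflFin A h 2).hom y) =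
      (𝔠.infl (d.le_top l) (d.mono h) 2).hom (d.coh l 2 y) := d.coh_infl l l' h y
  rw [h1]
  exact inv_infl I (d.le_top l) (d.mono h) (d.adm l') (d.coh l 2 y)

/-- **The invariant map** `LC.H2 L A →+ ℚ/ℤ`. -/
noncomputable def invLC (hA : IsSmooth L A) : LC.H2 L A →+ AddCircle (1 : ℚ) :=
  LC.descH2Add (d.invLevel I) (d.invLevel_inflFin I) hA

@[simp] lemma invLC_inflH2 (hA : IsSmooth L A) (l : L.Level)
    (y : groupCohomology.H2 (A.quotientToInvariants l.N)) :
    d.invLC I hA (LC.inflH2 A l.N l.isOpen y) = I.inv (d.le_top l) (d.coh l 2 y) :=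
  LC.descH2Add_inflH2 (d.invLevel I) (d.invLevel_inflFin I) hA l y

/-- **(INJ-p)**: the invariant map is injective on `p`-primary classes. -/
theorem eq_zero_of_invLC_eq_zero (hA : IsSmooth L A) (c : LC.H2 L A)
    (hc : ∃ n : ℕ, p ^ n • c = 0) (h0 : d.invLC I hA c = 0) : c = 0 := by
  obtain ⟨n, hn⟩ := hc
  obtain ⟨l, y, rfl⟩ := LC.exists_inflH2_eq hA c
  rw [← map_nsmul] at hn
  obtain ⟨l', h, hl'⟩ := LC.exists_inflFin_eq_zero hA l (p ^ n • y) hn
  rw [map_nsmul] at hl'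
  haveI := d.normal l'
  rw [← LC.inflH2_inflFin h l'.isOpen y] at h0 ⊢
  rw [invLC_inflH2] at h0
  have h1 : d.coh l' 2 ((LC.inflFin A h 2).hom y) = 0 := by
    refine I.eq_zero_of_inv_eq_zero (d.le_top l') (d.adm l') _ ⟨n, ?_⟩ h0
    rw [← map_nsmul, hl', map_zero]
  rw [(d.coh l' 2).map_eq_zero_iff.1 h1, map_zero]

include d I in
/-- **(CF1)**, `p`-primary form: `LC.H1 L A` has no `p^n`-torsion.  (With finite ideles only the
vanishing of `H¹` on the nose is false: `2`-torsion from the real places.) -/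
theorem H1_eq_zero_of_pow_nsmul (hA : IsSmooth L A) (n : ℕ) (c : LC.H1 L A)
    (hc : p ^ n • c = 0) : c = 0 := by
  refine LC.H1_eq_zero_of_nsmul_of_cofinal hA (p ^ n) (fun l => ⟨l, le_rfl, fun y hy => ?_⟩) c hc
  haveI := d.normal l
  have h0 : d.coh l 1 y = 0 := by
    refine I.h1 (d.le_top l) (d.adm l) _ ⟨n, ?_⟩
    rw [← map_nsmul, hy, map_zero]
  exact (d.coh l 1).map_eq_zero_iff.1 h0

include d I in
/-- **(CF1)**: `LC.H1 L A` has no `p`-torsion. -/
theorem H1_eq_zero_of_nsmul (hA : IsSmooth L A) (c : LC.H1 L A) (hc : p • c = 0) : c = 0 :=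
  d.H1_eq_zero_of_pow_nsmul I hA 1 c (by rwa [pow_one])

include d I in
/-- **(CF1)**: multiplication by `p` is bijective on `LC.H1 L A` (a torsion group without
`p`-torsion). -/
theorem bijective_nsmul_H1 (hp : p.Prime) (hA : IsSmooth L A) :
    Function.Bijective (fun c : LC.H1 L A => p • c) := by
  constructor
  · intro a b hab
    have h0 : p • (a - b) = 0 := by rw [smul_sub]; exact sub_eq_zero.2 hab
    exact sub_eq_zero.1 (d.H1_eq_zero_of_nsmul I hA _ h0)
  · intro c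
    obtain ⟨l, hl⟩ := LC.exists_index_nsmul_H1_eq_zero hA c
    -- write the index as `p ^ a * m` with `m` prime to `p`
    have hidx : l.N.index ≠ 0 := by
      haveI := l.isOpen.finiteIndex
      exact Subgroup.FiniteIndex.index_ne_zero
    obtain ⟨a, m, hm, hma⟩ := Nat.exists_eq_pow_mul_and_not_dvd hidx p hp.ne_one
    have hmc : m • c = 0 := by
      refine d.H1_eq_zero_of_pow_nsmul I hA a (m • c) ?_
      rw [smul_smul, ← hma]; exact hl
    have hcop : Nat.Coprime p m := (Nat.Prime.coprime_iff_not_dvd hp).2 hm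
    -- Bezout: `u * p + v * m = 1`
    have hb : (p : ℤ) * Nat.gcdA p m + (m : ℤ) * Nat.gcdB p m = 1 := by
      have := Nat.gcd_eq_gcd_ab p m
      rw [hcop.gcd_eq_one] at this
      exact_mod_cast this.symm
    refine ⟨Nat.gcdA p m • c, ?_⟩
    change p • (Nat.gcdA p m • c) = c
    have h1 : ((m : ℤ) * Nat.gcdB p m) • c = 0 := by
      rw [mul_comm, mul_smul, natCast_zsmul, hmc]; exact zsmul_zero _
    calc p • (Nat.gcdA p m • c) = ((p : ℤ) * Nat.gcdA p m) • c := by
          rw [mul_smul, natCast_zsmul]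
      _ = ((p : ℤ) * Nat.gcdA p m + (m : ℤ) * Nat.gcdB p m) • c := by rw [add_smul, h1, add_zero]
      _ = c := by rw [hb, one_smul]

/-- **(VAL)**: the invariant map takes the value `1/p^a` on a `p^a`-torsion class. -/
theorem exists_invLC_eq (hp : p.Prime) (hA : IsSmooth L A) (hE : Adm E) (a : ℕ) :
    ∃ c : LC.H2 L A, p ^ a • c = 0 ∧
      d.invLC I hA c = (((1 : ℚ) / ((p ^ a : ℕ) : ℚ) : ℚ) : AddCircle (1 : ℚ)) := by
  obtain ⟨E', h, hadm, hnorm, x, hx⟩ := I.exists_inv_eq E hE a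
  obtain ⟨l, hl⟩ := d.cofinal E' h hadm
  haveI : Normal E (layer (h.trans hl)) := d.normal l
  refine exists_pow_nsmul_eq_zero_of_inv_eq p hp (d.invLC I hA)
    (fun c hc h0 => d.eq_zero_of_invLC_eq_zero I hA c hc h0) a
    (LC.inflH2 A l.N l.isOpen ((d.coh l 2).symm ((𝔠.infl h hl 2).hom x)))
    (LC.exists_pos_nsmul_H2_eq_zero hA _) ?_
  rw [invLC_inflH2, LinearEquiv.apply_symm_apply]
  exact (inv_infl I h hl (d.adm l) x).trans hx

/-- **(T1)**: the `p`-torsion of `LC.H2 L A` is `ZMod p`, via the invariant map. -/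
theorem exists_torsionBy_addEquiv_zmod [Fact p.Prime] (hA : IsSmooth L A) (hE : Adm E) :
    ∃ e : ↥(AddSubgroup.torsionBy (LC.H2 L A) (p : ℤ)) ≃+ ZMod p,
      ∀ c : ↥(AddSubgroup.torsionBy (LC.H2 L A) (p : ℤ)),
        d.invLC I hA (c : LC.H2 L A) =
          ((((e c).val : ℚ) / (p : ℚ) : ℚ) : AddCircle (1 : ℚ)) := by
  obtain ⟨c₀, hc₀t, hc₀⟩ := d.exists_invLC_eq I (Fact.out : p.Prime) hA hE 1
  rw [pow_one] at hc₀t hc₀
  refine exists_torsionBy_addEquiv_zmod_of_inj_torsion (d.invLC I hA) p ?_ c₀ hc₀t hc₀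
  intro x hx h0
  exact d.eq_zero_of_invLC_eq_zero I hA x ⟨1, by rwa [pow_one]⟩ h0

/-! ### Compatibility with restriction -/

section res

variable {H : Type} [Group H] {LH : LevelStructure H} {f : H →* G} {F : IntermediateField k Ω}
  (dF : CoeffDict 𝔠 Adm F LH (Rep.res f A))

/-- **(RES)**: if, at the finite levels, restriction corresponds to `𝔠.map` (base change from `E`
to `F`) under the two dictionaries, then `inv_F (res c) = [F : E] • inv_E c`. -/
theorem invLC_resLC2 (hf : LH.Compat L f) (hA : IsSmooth L A) (hEF : E ≤ F)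
    (top_le : ∀ (l : L.Level) (l' : LH.Level), l'.N ≤ l.N.comap f → d.top l ≤ dF.top l')
    (coh_res : ∀ (l : L.Level) (l' : LH.Level) (hle : l'.N ≤ l.N.comap f)
      (y : groupCohomology (A.quotientToInvariants l.N) 2),
      haveI := d.normal l
      dF.coh l' 2 ((LC.resFin A hle 2).hom y) =
        (𝔠.map (d.le_top l) (dF.le_top l') hEF (top_le l l' hle) 2).hom (d.coh l 2 y))
    (c : LC.H2 L A) :
    dF.invLC I (hA.res hf) (LC.resLC2 hf hA c) =
      Module.finrank E (layer hEF) • d.invLC I hA c := by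
  refine LC.descH2Add_resLC2 hf hA (d.invLevel I) (d.invLevel_inflFin I) (dF.invLevel I)
    (dF.invLevel_inflFin I) (Module.finrank E (layer hEF)) ?_ c
  intro l l' hle y
  haveI := d.normal l
  haveI := dF.normal l'
  rw [invLevel_apply, invLevel_apply, coh_res l l' hle y]
  exact I.inv_map (d.le_top l) (dF.le_top l') hEF (top_le l l' hle) (dF.adm l') (d.coh l 2 y)

end res

end CoeffDict


/-! ### Corestriction on `LC.H2` and (T2) -/

namespace LC

section cor

variable {R G : Type} [CommRing R] [Group G] {L : LevelStructure G} {S : Subgroup G}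
  [S.FiniteIndex] {X : Rep.{0} R G}

/-- Corestriction on `LC.H2` (in the Prelude shape) from an open subgroup. -/
noncomputable def corLC2 (hS : L.IsOpen S) (hX : IsSmooth L X) :
    H2 (L.comap S.subtype) (Rep.res S.subtype X) →ₗ[R] H2 L X :=
  (h2Equiv hX).toLinearMap ∘ₗ corH₂ hS hX ∘ₗ
    (h2Equiv (hX.res (LevelStructure.compat_comap L S.subtype))).symm.toLinearMap

/-- `cor ∘ res = [G : S]` on `LC.H2`. -/
theorem corLC2_resLC2 (hS : L.IsOpen S) (hX : IsSmooth L X) (c : H2 L X) :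
    corLC2 hS hX (resLC2 (LevelStructure.compat_comap L S.subtype) hX c) = S.index • c := by
  simp only [corLC2, resLC2, LinearMap.comp_apply, LinearEquiv.coe_coe,
    LinearEquiv.symm_apply_apply]
  rw [corH₂_resH, map_nsmul, LinearEquiv.apply_symm_apply]

end cor

end LC

namespace CoeffDict

variable {𝔠 : LayerCoeff k Ω} {Adm : IntermediateField k Ω → Prop} {p : ℕ}
  {E F : IntermediateField k Ω} {G : Type} [Group G] {L : LevelStructure G}
  {A : Rep.{0} ℤ G} (d : CoeffDict 𝔠 Adm E L A) (I : PLayerInvSystem 𝔠 Adm p)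
  {S : Subgroup G} [S.FiniteIndex]
  (dS : CoeffDict 𝔠 Adm F (L.comap S.subtype) (Rep.res S.subtype A))

/-- **(T2)** at LC level: `inv_E (cor y) = inv_F y` for `p`-primary `y`, for an open subgroup `S`
(corresponding to `F`) of `G` (corresponding to `E`) with `[G : S] = [F : E]`. -/
theorem invLC_corLC2 (hp : p.Prime) (hS : L.IsOpen S) (hA : IsSmooth L A) (hEF : E ≤ F)
    (hE : Adm E) (hidx : Module.finrank E (layer hEF) = S.index)
    (top_le : ∀ (l : L.Level) (l' : (L.comap S.subtype).Level),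
      l'.N ≤ l.N.comap S.subtype → d.top l ≤ dS.top l')
    (coh_res : ∀ (l : L.Level) (l' : (L.comap S.subtype).Level)
      (hle : l'.N ≤ l.N.comap S.subtype)
      (y : groupCohomology (A.quotientToInvariants l.N) 2),
      haveI := d.normal l
      dS.coh l' 2 ((LC.resFin A hle 2).hom y) =
        (𝔠.map (d.le_top l) (dS.le_top l') hEF (top_le l l' hle) 2).hom (d.coh l 2 y))
    (y : LC.H2 (L.comap S.subtype) (Rep.res S.subtype A)) (hy : ∃ m : ℕ, p ^ m • y = 0) :
    d.invLC I hA (LC.corLC2 hS hA y) =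
      dS.invLC I (hA.res (LevelStructure.compat_comap L S.subtype)) y := by
  refine inv_cor_of_inv_res p hp
    (LC.resLC2 (LevelStructure.compat_comap L S.subtype) hA).toAddMonoidHom
    (LC.corLC2 hS hA).toAddMonoidHom S.index (Nat.pos_of_ne_zero Subgroup.FiniteIndex.index_ne_zero)
    (fun x => LC.corLC2_resLC2 hS hA x) (d.invLC I hA)
    (dS.invLC I (hA.res (LevelStructure.compat_comap L S.subtype))) ?_
    (fun y hy h0 => dS.eq_zero_of_invLC_eq_zero I _ y hy h0)
    (fun a => d.exists_invLC_eq I hp hA hE a) y hy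
  intro x
  rw [← hidx]
  exact d.invLC_resLC2 I dS (LevelStructure.compat_comap L S.subtype) hA hEF top_le coh_res x

end CoeffDict

end Fermat.Agent.CFT
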