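/-
S55 / C9 (G4-lift): **global existence theorem mod `p` at the LC level from the layer level.**

Generic in a coefficient system `𝔠 : LayerCoeff k Ω`, a dictionary `d : CoeffDict 𝔠 Adm E L A`
and a `p`-primary invariant system `I : PLayerInvSystem 𝔠 Adm p` (helper7's interfaces), on top of
helper22's `invLC` (`Global/LCInvCoeff.lean`) and helper16's LC symbols
(`LC/KummerPairing.lean`, `LC/KummerDescent.lean`).

* `cohLinearEquivOfRepIso_symClass` : transport of helper1's `symClass` along a group iso + Rep iso.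
* `CoeffDict.invLC_symT` : the LC symbol `invLC (a ∪ δf)` is the layer symbol
  `I.inv h (a_l ∪ δχ_l)` at any level `l` with `l.N ≤ ker f`.
-/
import Fermat.Agent.CFT.Global.LCInvCoeff
import Fermat.Agent.CFT.LC.KummerDescent

set_option autoImplicit false
set_option linter.style.haveILetI false
set_option linter.unusedSectionVars false

open CategoryTheory groupCohomology IntermediateField

noncomputable section

namespace Fermat.Agent.CFT

open GaloisTower LayerMaps LCSym

section Transport

variable {G H : Type} [Group G] [Group H] (A : Rep.{0} ℤ H) (B : Rep.{0} ℤ G) (e : G ≃* H)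
  (i : B ≅ Rep.res e.toMonoidHom A) {n : ℕ} [NeZero n]

/-- The image of an invariant under an iso of representations along a group iso is invariant. -/
theorem isInv_repIso_hom {b : B} (hb : IsInv B b) : IsInv A (i.hom.hom b) := by
  intro h
  have h1 := Rep.hom_comm_apply i.hom (e.symm h) b
  rw [hb (e.symm h)] at h1
  have h2 : (Rep.res e.toMonoidHom A).ρ (e.symm h) (i.hom.hom b) = A.ρ h (i.hom.hom b) := by
    show A.ρ (e (e.symm h)) _ = _
    rw [MulEquiv.apply_symm_apply]
  exact h2.symm.trans h1.symm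

/-- Transport of the symbol class `b ∪ δχ` along a group iso `e : G ≃* H` and an iso of
representations `B ≅ res e A`. -/
theorem cohLinearEquivOfRepIso_symClass (χ : G →* Multiplicative (ZMod n)) {b : B}
    (hb : IsInv B b) :
    cohLinearEquivOfRepIso A B e i 2 (symClass B χ b hb) =
      symClass A (χ.comp e.symm.toMonoidHom) (i.hom.hom b) (isInv_repIso_hom A B e i hb) := by
  show (groupCohomology.map e.symm.toMonoidHom _ 2).hom (symClass B χ b hb) = _
  rw [map_symClass]
  rfl

end Transport

namespace CoeffDict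

variable {k Ω : Type} [Field k] [Field Ω] [Algebra k Ω]
  {𝔠 : LayerCoeff k Ω} {Adm : IntermediateField k Ω → Prop} {p : ℕ}
  {E : IntermediateField k Ω} {G : Type} [Group G] {L : LevelStructure G}
  {A : Rep.{0} ℤ G} (d : CoeffDict 𝔠 Adm E L A) (I : PLayerInvSystem 𝔠 Adm p)

/-- The character of `Gal(top l / E)` attached to a character of `G` trivial on the level `l`. -/
def levelChar {n : ℕ} (l : L.Level) (χ : G →* Multiplicative (ZMod n)) (h : l.N ≤ χ.ker) :
    (layer (d.le_top l) ≃ₐ[E] layer (d.le_top l)) →* Multiplicative (ZMod n) :=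
  (QuotientGroup.lift l.N χ h).comp (d.quotEquiv l).symm.toMonoidHom

theorem levelChar_quotEquiv {n : ℕ} (l : L.Level) (χ : G →* Multiplicative (ZMod n))
    (h : l.N ≤ χ.ker) (g : G) :
    d.levelChar l χ h (d.quotEquiv l (QuotientGroup.mk g)) = χ g := by
  unfold levelChar
  rw [MonoidHom.comp_apply]
  show QuotientGroup.lift l.N χ h ((d.quotEquiv l).symm (d.quotEquiv l (QuotientGroup.mk g))) = _
  rw [MulEquiv.symm_apply_apply]
  rfl

/-- The invariant element of `𝔠.M (top l / E)` attached to an invariant element of `A`. -/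
def levelInv (l : L.Level) (a : A) (ha : IsInv A a) : 𝔠.M (d.le_top l) :=
  (d.repIso l).hom.hom (toInv A l.N a ha)

theorem isInv_levelInv (l : L.Level) (a : A) (ha : IsInv A a) :
    IsInv (𝔠.M (d.le_top l)) (d.levelInv l a ha) :=
  isInv_repIso_hom _ _ (d.quotEquiv l) (d.repIso l) (isInv_toInv A l.N a ha)

theorem levelInv_add (l : L.Level) {a b : A} (ha : IsInv A a) (hb : IsInv A b) :
    d.levelInv l (a + b) (ha.add hb) = d.levelInv l a ha + d.levelInv l b hb := by
  unfold levelInv
  rw [← map_add]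
  rfl

variable {n : ℕ} [NeZero n]

/-- The finite-level symbol class corresponds to the layer symbol class under the dictionary. -/
theorem coh_symClass (l : L.Level) (χ : G →* Multiplicative (ZMod n)) (h : l.N ≤ χ.ker) (a : A)
    (ha : IsInv A a) :
    d.coh l 2 (symClass (A.quotientToInvariants l.N) (QuotientGroup.lift l.N χ h)
        (toInv A l.N a ha) (isInv_toInv A l.N a ha)) =
      symClass (𝔠.M (d.le_top l)) (d.levelChar l χ h) (d.levelInv l a ha)
        (d.isInv_levelInv l a ha) :=
  cohLinearEquivOfRepIso_symClass _ _ (d.quotEquiv l) (d.repIso l) _ _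

/-- **(L1)** The LC symbol of `a ∈ A^G` and a character `χ` trivial on the level `l` has invariant
`I.inv h (a_l ∪ δχ_l)`, `h` the layer of `l`. -/
theorem invLC_lcSymClass (hA : IsSmooth L A) (l : L.Level) (χ : G →* Multiplicative (ZMod n))
    (h : l.N ≤ χ.ker) (a : A) (ha : IsInv A a) :
    d.invLC I hA (lcSymClass L A χ (l.isOpen.mono L h) a ha) =
      I.inv (d.le_top l) (symClass (𝔠.M (d.le_top l)) (d.levelChar l χ h) (d.levelInv l a ha)
        (d.isInv_levelInv l a ha)) := by
  rw [lcSymClass_eq_inflH2 L A l.N l.isOpen χ h a ha, invLC_inflH2, coh_symClass]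

end CoeffDict

section SymCongr

variable {G : Type} [Group G] (A : Rep.{0} ℤ G) {n : ℕ} [NeZero n]

theorem symClass_congr_char {χ χ' : G →* Multiplicative (ZMod n)} (h : χ = χ') {a : A}
    (ha : IsInv A a) : symClass A χ a ha = symClass A χ' a ha := by
  subst h; rfl

end SymCongr

namespace CoeffDict

variable {k Ω : Type} [Field k] [Field Ω] [Algebra k Ω]
  {𝔠 : LayerCoeff k Ω} {Adm : IntermediateField k Ω → Prop} {p : ℕ}
  {E : IntermediateField k Ω} {G : Type} [Group G] {L : LevelStructure G}
  {A : Rep.{0} ℤ G} (d : CoeffDict 𝔠 Adm E L A) (I : PLayerInvSystem 𝔠 Adm p)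

/-- The character of `G` attached to a character of the layer of the level `l`. -/
def charOfLevel {n : ℕ} (l : L.Level)
    (χ : (layer (d.le_top l) ≃ₐ[E] layer (d.le_top l)) →* Multiplicative (ZMod n)) :
    G →* Multiplicative (ZMod n) :=
  (χ.comp (d.quotEquiv l).toMonoidHom).comp (QuotientGroup.mk' l.N)

theorem le_ker_charOfLevel {n : ℕ} (l : L.Level)
    (χ : (layer (d.le_top l) ≃ₐ[E] layer (d.le_top l)) →* Multiplicative (ZMod n)) :
    l.N ≤ (d.charOfLevel l χ).ker := by
  intro s hs
  rw [MonoidHom.mem_ker]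
  unfold charOfLevel
  rw [MonoidHom.comp_apply, QuotientGroup.mk'_apply, (QuotientGroup.eq_one_iff s).2 hs, map_one]

theorem levelChar_charOfLevel {n : ℕ} (l : L.Level)
    (χ : (layer (d.le_top l) ≃ₐ[E] layer (d.le_top l)) →* Multiplicative (ZMod n)) :
    d.levelChar l (d.charOfLevel l χ) (d.le_ker_charOfLevel l χ) = χ := by
  ext σ
  obtain ⟨q, rfl⟩ := (d.quotEquiv l).surjective σ
  induction q using QuotientGroup.induction_on with
  | H g =>
    rw [levelChar_quotEquiv]
    rfl

theorem levelChar_ne_one {n : ℕ} (l : L.Level) (χ : G →* Multiplicative (ZMod n))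
    (h : l.N ≤ χ.ker) (hχ : χ ≠ 1) : d.levelChar l χ h ≠ 1 := by
  intro h1
  apply hχ
  ext g
  rw [← d.levelChar_quotEquiv l χ h g, h1]
  rfl

variable [NeZero p]

/-- **(L2) The existence theorem mod `p` at the LC level from the layer level.**
`τ` is the `ZMod p`-valued invariant on the `p`-torsion of `LC.H2 L A` (zero exactly where `invLC`
vanishes). Layer-level hypotheses, for the layers `h` of the levels `l`:
(easy) every character `χ ≠ 1` of `Gal(h)` pairs nontrivially with some invariant of `A`;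
(hard) an invariant `a` of `A` which pairs trivially with all characters of all levels is `p`
times an invariant; (fin) `A^G/p` is finite. -/
theorem perfect_of_layers (hp : p.Prime) (hA : IsSmooth L A)
    (τ : ↥(AddSubgroup.torsionBy (LC.H2 L A) (p : ℤ)) →+ ZMod p)
    (hτ : ∀ c : ↥(AddSubgroup.torsionBy (LC.H2 L A) (p : ℤ)),
      τ c = 0 ↔ d.invLC I hA (c : LC.H2 L A) = 0)
    (heasy : ∀ (l : L.Level)
      (χ : (layer (d.le_top l) ≃ₐ[E] layer (d.le_top l)) →* Multiplicative (ZMod p)), χ ≠ 1 →
      ∃ (a : A) (ha : IsInv A a), I.inv (d.le_top l) (symClass (𝔠.M (d.le_top l)) χ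
        (d.levelInv l a ha) (d.isInv_levelInv l a ha)) ≠ 0)
    (hhard : ∀ (a : A) (ha : IsInv A a), (∀ (l : L.Level)
      (χ : (layer (d.le_top l) ≃ₐ[E] layer (d.le_top l)) →* Multiplicative (ZMod p)),
      I.inv (d.le_top l) (symClass (𝔠.M (d.le_top l)) χ
        (d.levelInv l a ha) (d.isInv_levelInv l a ha)) = 0) →
      ∃ b : A, IsInv A b ∧ a = p • b)
    (hfin : Finite (VQuot A p)) :
    (Finite (XChar L p) ∧ Nat.card (XChar L p) = Nat.card (VQuot A p)) ∧
      Function.Bijective (pairLin L A τ) ∧ Function.Bijective (pairLin L A τ).flip := by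
  refine perfect_of_nondegenerate L A hp τ ?_ ?_ hfin
  · -- χ-side nondegeneracy
    intro f hf
    have hχ : charOf f ≠ 1 := fun h1 => hf (charOf_injective (h1.trans charOf_zero.symm))
    obtain ⟨N, hN, hle⟩ := isOpen_ker_charOf f
    let l : L.Level := ⟨N, hN⟩
    have hl : l.N ≤ (charOf f).ker := hle
    obtain ⟨a, ha, hne⟩ := heasy l (d.levelChar l (charOf f) hl)
      (d.levelChar_ne_one l (charOf f) hl hχ)
    refine ⟨⟨a, ha⟩, fun h0 => hne ?_⟩
    rw [hτ, coe_symT] at h0
    rw [← d.invLC_lcSymClass I hA l (charOf f) hl a ha]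
    exact h0
  · -- the hard half
    intro a ha0
    obtain ⟨b, hb, hab⟩ := hhard a.1 a.2 (fun l χ => by
      obtain ⟨f, hf⟩ := exists_charOf_eq (d.charOfLevel l χ)
        (l.isOpen.mono L (d.le_ker_charOfLevel l χ))
      have hl : l.N ≤ (charOf f).ker := hf ▸ d.le_ker_charOfLevel l χ
      have h0 := (hτ _).1 (ha0 f)
      rw [coe_symT, d.invLC_lcSymClass I hA l (charOf f) hl a.1 a.2] at h0
      have hχ : d.levelChar l (charOf f) hl = χ := by
        rw [← d.levelChar_charOfLevel l χ]
        congr 1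
      rw [symClass_congr_char _ hχ] at h0
      exact h0)
    exact ⟨⟨b, hb⟩, Subtype.ext hab⟩

end CoeffDict

namespace CoeffDict

variable {k Ω : Type} [Field k] [Field Ω] [Algebra k Ω]
  {𝔠 : LayerCoeff k Ω} {Adm : IntermediateField k Ω → Prop} {p : ℕ}
  {E : IntermediateField k Ω} {G : Type} [Group G] {L : LevelStructure G}
  {A : Rep.{0} ℤ G} (d : CoeffDict 𝔠 Adm E L A) (I : PLayerInvSystem 𝔠 Adm p)

/-- The `ZMod p`-valued invariant on the `p`-torsion of `LC.H2 L A`: injective, zero exactly where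
`invLC` vanishes, and `invLC c = (τ c).val / p`. -/
theorem exists_tau [Fact p.Prime] (hA : IsSmooth L A) (hE : Adm E) :
    ∃ τ : ↥(AddSubgroup.torsionBy (LC.H2 L A) (p : ℤ)) →+ ZMod p, Function.Bijective τ ∧
      (∀ c : ↥(AddSubgroup.torsionBy (LC.H2 L A) (p : ℤ)),
        τ c = 0 ↔ d.invLC I hA (c : LC.H2 L A) = 0) ∧
      ∀ c : ↥(AddSubgroup.torsionBy (LC.H2 L A) (p : ℤ)), d.invLC I hA (c : LC.H2 L A) =
        ((((τ c).val : ℚ) / (p : ℚ) : ℚ) : AddCircle (1 : ℚ)) := by
  obtain ⟨e, he⟩ := d.exists_torsionBy_addEquiv_zmod I hA hE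
  refine ⟨e.toAddMonoidHom, e.bijective, fun c => ⟨fun h => ?_, fun h => ?_⟩, he⟩
  · have h' : e c = 0 := h
    rw [he c, h', ZMod.val_zero]
    simp
  · have hc : (c : LC.H2 L A) = 0 :=
      d.eq_zero_of_invLC_eq_zero I hA c ⟨1, by
        rw [pow_one]; exact AddSubgroup.torsionBy.nsmul_iff.1 c.2⟩ h
    have : c = 0 := Subtype.ext hc
    rw [this, map_zero]

end CoeffDict

end Fermat.Agent.CFT
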