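import Fermat.Agent.CFT.Global.LayerCoeff
import Fermat.Agent.CFT.Global.SClassIdele

/-!
# Transport of a `p`-primary invariant system along a natural isomorphism of coefficient systems

`PLayerInvSystem.transport`: given `I : PLayerInvSystem 𝔠 Adm p` and natural maps
`θ h n : Hⁿ(𝔠.M h) ⟶ Hⁿ(𝔡.M h)` which are bijective for `n = 1, 2` on admissible normal layers,
`inv' h := I.inv h ∘ (θ h 2)⁻¹` is a `PLayerInvSystem 𝔡 Adm p`
(`transport_inv_θ`, `transport_inv_eq`, `transport_inv_comp`).

Instance: `sClassInvSystem S I adm_mono hne hunr : PLayerInvSystem (sClassCoeff k Ω S) Adm p`, the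
invariant system of the `S`-idele classes, from the invariant system of the idele classes and the
vanishing of `H¹`, `H²` of the integral semi-local units outside `S`
(`sClassInvSystem_inv_classS`, `sClassInvSystem_inv_idele`).
-/

set_option autoImplicit false
set_option linter.style.haveILetI false
set_option linter.unusedSectionVars false

open CategoryTheory groupCohomology IntermediateField

noncomputable section

namespace Fermat.Agent.CFT

open GaloisTower LayerMaps

namespace PLayerInvSystem

variable {k Ω : Type} [Field k] [Field Ω] [Algebra k Ω]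
  {𝔠 𝔡 : LayerCoeff k Ω} {Adm : IntermediateField k Ω → Prop} {p : ℕ}

section Transport

variable (I : PLayerInvSystem 𝔠 Adm p)
  (θ : ∀ {E E' : IntermediateField k Ω} (h : E ≤ E') (n : ℕ),
    groupCohomology (𝔠.M h) n ⟶ groupCohomology (𝔡.M h) n)
  (hbij : ∀ {E E' : IntermediateField k Ω} (h : E ≤ E'), Adm E' → ∀ [Normal E (layer h)],
    Function.Bijective (θ h 1).hom ∧ Function.Bijective (θ h 2).hom)

open Classical in
/-- The transported invariant map: `inv ∘ θ⁻¹` on admissible normal layers, `0` otherwise. -/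
def transportInv {E E' : IntermediateField k Ω} (h : E ≤ E') :
    groupCohomology (𝔡.M h) 2 →+ AddCircle (1 : ℚ) :=
  if hc : Adm E' ∧ Normal E (layer h) then
    haveI := hc.2
    (I.inv h).comp
      ((LinearEquiv.ofBijective (θ h 2).hom (hbij h hc.1).2).symm : _ →ₗ[ℤ] _).toAddMonoidHom
  else 0

theorem transportInv_θ {E E' : IntermediateField k Ω} (h : E ≤ E') (hadm : Adm E')
    [hn : Normal E (layer h)] (x : groupCohomology (𝔠.M h) 2) :
    transportInv I θ hbij h ((θ h 2).hom x) = I.inv h x := by
  unfold transportInv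
  rw [dif_pos ⟨hadm, hn⟩]
  simp only [AddMonoidHom.coe_comp, Function.comp_apply]
  congr 1
  exact (LinearEquiv.ofBijective (θ h 2).hom (hbij h hadm).2).symm_apply_apply x

include hbij in
/-- Every class of an admissible normal layer is in the image of `θ`. -/
theorem exists_θ_eq {E E' : IntermediateField k Ω} (h : E ≤ E') (hadm : Adm E')
    [Normal E (layer h)] (x : groupCohomology (𝔡.M h) 2) :
    ∃ y : groupCohomology (𝔠.M h) 2, (θ h 2).hom y = x :=
  (hbij h hadm).2.2 x

/-- **Transport of a `p`-primary invariant system** along natural maps `θ` which are bijective in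
degrees `1` and `2` on admissible normal layers. -/
def transport (adm_mono : ∀ {E E' : IntermediateField k Ω}, E ≤ E' → Adm E' → Adm E)
    (hnat : ∀ {E E' F F' : IntermediateField k Ω} (hEE' : E ≤ E') (hFF' : F ≤ F') (hEF : E ≤ F)
      (hE'F' : E' ≤ F') [Normal E (layer hEE')] (n : ℕ),
      𝔠.map hEE' hFF' hEF hE'F' n ≫ θ hFF' n = θ hEE' n ≫ 𝔡.map hEE' hFF' hEF hE'F' n) :
    PLayerInvSystem 𝔡 Adm p where
  inv h := transportInv I θ hbij h
  fd := I.fd
  eq_zero_of_inv_eq_zero {E E'} h hadm _ x hx hinv := by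
    obtain ⟨y, rfl⟩ := exists_θ_eq θ hbij h hadm x
    rw [transportInv_θ I θ hbij h hadm] at hinv
    obtain ⟨n, hn⟩ := hx
    have hy : p ^ n • y = 0 := by
      apply (hbij h hadm).2.1
      rw [map_nsmul, hn, map_zero]
    rw [I.eq_zero_of_inv_eq_zero h hadm y ⟨n, hy⟩ hinv, map_zero]
  inv_map {E E' F F'} hEE' hFF' hEF hE'F' hadm _ _ x := by
    have hadmE' : Adm E' := adm_mono hE'F' hadm
    obtain ⟨y, rfl⟩ := exists_θ_eq θ hbij hEE' hadmE' x
    have hcomm : (𝔡.map hEE' hFF' hEF hE'F' 2).hom ((θ hEE' 2).hom y) =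
        (θ hFF' 2).hom ((𝔠.map hEE' hFF' hEF hE'F' 2).hom y) :=
      (ConcreteCategory.congr_hom (hnat hEE' hFF' hEF hE'F' 2) y).symm
    rw [hcomm, transportInv_θ I θ hbij hFF' hadm, transportInv_θ I θ hbij hEE' hadmE']
    exact I.inv_map hEE' hFF' hEF hE'F' hadm y
  exists_inv_eq E hadm a := by
    obtain ⟨E', h, hadm', hn, x, hx⟩ := I.exists_inv_eq E hadm a
    refine ⟨E', h, hadm', hn, (θ h 2).hom x, ?_⟩
    rw [transportInv_θ I θ hbij h hadm', hx]
  h1 {E E'} h hadm _ x hx := by
    obtain ⟨n, hn⟩ := hx
    obtain ⟨y, rfl⟩ := (hbij h hadm).1.2 x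
    have hy : p ^ n • y = 0 := by
      apply (hbij h hadm).1.1
      rw [map_nsmul, hn, map_zero]
    rw [I.h1 h hadm y ⟨n, hy⟩, map_zero]

/-- The defining property of the transported system. -/
theorem transport_inv_θ (adm_mono : ∀ {E E' : IntermediateField k Ω}, E ≤ E' → Adm E' → Adm E)
    (hnat : ∀ {E E' F F' : IntermediateField k Ω} (hEE' : E ≤ E') (hFF' : F ≤ F') (hEF : E ≤ F)
      (hE'F' : E' ≤ F') [Normal E (layer hEE')] (n : ℕ),
      𝔠.map hEE' hFF' hEF hE'F' n ≫ θ hFF' n = θ hEE' n ≫ 𝔡.map hEE' hFF' hEF hE'F' n)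
    {E E' : IntermediateField k Ω} (h : E ≤ E') (hadm : Adm E') [Normal E (layer h)]
    (x : groupCohomology (𝔠.M h) 2) :
    (I.transport θ hbij adm_mono hnat).inv h ((θ h 2).hom x) = I.inv h x :=
  transportInv_θ I θ hbij h hadm x

/-- The transported invariant of an arbitrary class of an admissible normal layer. -/
theorem transport_inv_eq (adm_mono : ∀ {E E' : IntermediateField k Ω}, E ≤ E' → Adm E' → Adm E)
    (hnat : ∀ {E E' F F' : IntermediateField k Ω} (hEE' : E ≤ E') (hFF' : F ≤ F') (hEF : E ≤ F)
      (hE'F' : E' ≤ F') [Normal E (layer hEE')] (n : ℕ),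
      𝔠.map hEE' hFF' hEF hE'F' n ≫ θ hFF' n = θ hEE' n ≫ 𝔡.map hEE' hFF' hEF hE'F' n)
    {E E' : IntermediateField k Ω} (h : E ≤ E') (hadm : Adm E') [Normal E (layer h)]
    {x : groupCohomology (𝔡.M h) 2} {y : groupCohomology (𝔠.M h) 2} (hxy : (θ h 2).hom y = x) :
    (I.transport θ hbij adm_mono hnat).inv h x = I.inv h y := by
  rw [← hxy]
  exact transportInv_θ I θ hbij h hadm y

/-- **Local-global property carried along**: if the invariants of the classes coming from a third
coefficient system `𝔧` (ideles) via `π` are computed by `J`, the same holds for the transported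
system with `π ≫ θ`. -/
theorem transport_inv_comp (adm_mono : ∀ {E E' : IntermediateField k Ω}, E ≤ E' → Adm E' → Adm E)
    (hnat : ∀ {E E' F F' : IntermediateField k Ω} (hEE' : E ≤ E') (hFF' : F ≤ F') (hEF : E ≤ F)
      (hE'F' : E' ≤ F') [Normal E (layer hEE')] (n : ℕ),
      𝔠.map hEE' hFF' hEF hE'F' n ≫ θ hFF' n = θ hEE' n ≫ 𝔡.map hEE' hFF' hEF hE'F' n)
    {𝔧 : LayerCoeff k Ω}
    (π : ∀ {E E' : IntermediateField k Ω} (h : E ≤ E') (n : ℕ),
      groupCohomology (𝔧.M h) n ⟶ groupCohomology (𝔠.M h) n)
    {E E' : IntermediateField k Ω} (h : E ≤ E') (hadm : Adm E') [Normal E (layer h)]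
    (z : groupCohomology (𝔧.M h) 2) (t : AddCircle (1 : ℚ))
    (hz : I.inv h ((π h 2).hom z) = t) :
    (I.transport θ hbij adm_mono hnat).inv h ((π h 2 ≫ θ h 2).hom z) = t := by
  rw [← hz]
  exact transportInv_θ I θ hbij h hadm ((π h 2).hom z)

end Transport


end PLayerInvSystem

open PLayerInvSystem

variable {k Ω : Type} [Field k] [Field Ω] [Algebra k Ω]
  {Adm : IntermediateField k Ω → Prop} {p : ℕ}

section SClass

variable (S : Set Nat.Primes)

/-- Bijectivity of `Hⁿ(C) → Hⁿ(C_S)` (`n = 1, 2`) on the layers, from the vanishing of the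
cohomology of the integral semi-local units outside `S`. -/
theorem classToClassSLayer_bijective {E E' : IntermediateField k Ω} (h : E ≤ E')
    [FiniteDimensional E (layer h)]
    (hne : ∃ q ∈ S, Nonempty (LocalEmb ((q : Nat.Primes) : ℕ) (layer h)))
    (hunr : ∀ (H : Subgroup (layer h ≃ₐ[E] layer h)) (q : Nat.Primes), q ∉ S →
      H1TrivialOn H (semiLocalIntegral (q : ℕ) (layer h)) ∧
        H2TrivialOn H (semiLocalIntegral (q : ℕ) (layer h))) :
    Function.Bijective (classToClassSLayer S h 1).hom ∧
      Function.Bijective (classToClassSLayer S h 2).hom :=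
  ⟨map_ideleClass_ideleClassS_bijective hne (fun H q hq => (hunr H q hq).1)
      (fun H q hq => (hunr H q hq).2) 0,
    map_ideleClass_ideleClassS_bijective hne (fun H q hq => (hunr H q hq).1)
      (fun H q hq => (hunr H q hq).2) 1⟩

variable (I : PLayerInvSystem (classCoeff k Ω) Adm p)
    (adm_mono : ∀ {E E' : IntermediateField k Ω}, E ≤ E' → Adm E' → Adm E)
    (hne : ∀ {E E' : IntermediateField k Ω} (h : E ≤ E'), Adm E' →
      ∃ q ∈ S, Nonempty (LocalEmb ((q : Nat.Primes) : ℕ) (layer h)))
    (hunr : ∀ {E E' : IntermediateField k Ω} (h : E ≤ E'), Adm E' → ∀ [Normal E (layer h)]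
      (H : Subgroup (layer h ≃ₐ[E] layer h)) (q : Nat.Primes), q ∉ S →
      H1TrivialOn H (semiLocalIntegral (q : ℕ) (layer h)) ∧
        H2TrivialOn H (semiLocalIntegral (q : ℕ) (layer h)))

include I hne hunr in
/-- The hypothesis `hbij` of `transport` for `C → C_S`. -/
theorem classToClassSLayer_bijective_of_adm {E E' : IntermediateField k Ω} (h : E ≤ E')
    (hadm : Adm E') [Normal E (layer h)] :
    Function.Bijective (classToClassSLayer S h 1).hom ∧
      Function.Bijective (classToClassSLayer S h 2).hom := by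
  haveI := I.fd hadm
  haveI : FiniteDimensional k (layer h) := ‹FiniteDimensional k E'›
  haveI : FiniteDimensional E (layer h) := FiniteDimensional.right k E (layer h)
  exact classToClassSLayer_bijective S h (hne h hadm) (hunr h hadm)

/-- **The `p`-primary invariant system of the `S`-idele classes**, transported from the idele
classes along `C → C_S` (bijective on `H¹`, `H²` of the admissible normal layers when these are
unramified outside `S`). -/
def sClassInvSystem : PLayerInvSystem (sClassCoeff k Ω S) Adm p :=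
  I.transport (fun h n => classToClassSLayer S h n)
    (fun h hadm _ => classToClassSLayer_bijective_of_adm S I hne hunr h hadm)
    adm_mono (fun hEE' hFF' hEF hE'F' _ n => classCoeff_map_comp_classS S hEE' hFF' hEF hE'F' n)

/-- The invariant of the image in `H²(C_S)` of a class of `H²(C)`. -/
theorem sClassInvSystem_inv_classS {E E' : IntermediateField k Ω} (h : E ≤ E') (hadm : Adm E')
    [Normal E (layer h)] (x : groupCohomology ((classCoeff k Ω).M h) 2) :
    (sClassInvSystem S I adm_mono hne hunr).inv h ((classToClassSLayer S h 2).hom x) =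
      I.inv h x :=
  transportInv_θ I (fun h n => classToClassSLayer S h n)
    (fun h hadm _ => classToClassSLayer_bijective_of_adm S I hne hunr h hadm) h hadm x

/-- **Local-global property carried along**: the invariant of the image in `H²(C_S)` of an idele
class is the invariant of its image in `H²(C)`. -/
theorem sClassInvSystem_inv_idele {E E' : IntermediateField k Ω} (h : E ≤ E') (hadm : Adm E')
    [Normal E (layer h)] (z : groupCohomology ((ideleCoeff k Ω).M h) 2) :
    (sClassInvSystem S I adm_mono hne hunr).inv h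
        ((classToClassSLayer S h 2).hom ((ideleToClassLayer h 2).hom z)) =
      I.inv h ((ideleToClassLayer h 2).hom z) :=
  sClassInvSystem_inv_classS S I adm_mono hne hunr h hadm _

end SClass

end Fermat.Agent.CFT
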