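import Mathlib
import Fermat.Agent.CFT.Global.ExistenceNondeg
import Fermat.Agent.CFT.Global.LCExistence
import Fermat.Agent.CFT.Global.PLayerInvTransport
import Fermat.Agent.CFT.Global.ClassLayerInvQ

/-!
# Layer C / C9 (G4-EASY): the easy half of the existence theorem in layer form

* `exists_faithful_char_of_ker_eq` (Type level): a tower `K ⊆ L ⊆ M` of number fields such that
  `Gal(M/K) → Gal(L/K)` has kernel `ker χ` (`χ ≠ 1` with values in `ZMod p`, `p` odd): `χ` descends
  to a faithful `χ'` on `Gal(L/K)` and some idele `x` of `K` has `[x] ∪ δχ' ≠ 0` in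
  `H²(Gal(L/K), C_L)` (norm criterion + first inequality).
* `subLayer h N`: the intermediate field of `Ω/k` between `E` and `E'` fixed by a subgroup `N` of
  `Gal(E'/E)`; `normal_subLayer`, `ker_galRes_subLayer`.
* `exists_inv_symClass_ne_zero_layer`: for a `p`-primary invariant system on the idele classes of
  the layers of `Ω/ℚ`, every character `χ ≠ 1` of an admissible normal layer pairs non-trivially
  with some idele (no `p`-group hypothesis: the symbol is inflated from the cyclic sublayer cut out
  by `ker χ`, and `inv` is compatible with inflation and injective on `p`-primary classes).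
* `exists_inv_symClass_ne_zero_layerS`: the same for `S`-idele classes.
* `CoeffDict.exists_levelInv_eq`: invariant elements of the layer module of a level come from `A^G`.
* `heasy_of_spec`, `heasy_sClassInvSystem`: the hypothesis `heasy` of
  `CoeffDict.perfect_of_layers`.
-/

set_option autoImplicit false
set_option linter.unusedSectionVars false
set_option linter.style.haveILetI false

open CategoryTheory groupCohomology Rep IntermediateField

noncomputable section

namespace Fermat.Agent.CFT

namespace ExistenceNondeg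

open ExistenceModP GaloisTower LayerMaps

section TypeLevel

variable (K L M : Type) [Field K] [NumberField K] [Field L] [NumberField L] [Field M]
  [Algebra K L] [Algebra K M] [Algebra L M] [IsScalarTower K L M] [IsGalois K L]
  [FiniteDimensional K L] [Normal K M]

/-- If the restriction `Gal(M/K) → Gal(L/K)` has kernel `ker χ` (`χ ≠ 1` a character with values
in `ZMod p`, `p` odd), then `χ` descends to a faithful character `χ'` of `Gal(L/K)`, `L/K` is cyclic
of degree `p`, and some idele `x` of `K` has `[x] ∪ δχ' ≠ 0` in `H²(Gal(L/K), C_L)`. -/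
theorem exists_faithful_char_of_ker_eq {p : ℕ} [hp : Fact p.Prime] (hp2 : p ≠ 2)
    (χ : (M ≃ₐ[K] M) →* Multiplicative (ZMod p)) (hχ : χ ≠ 1)
    (hker : (galRes K L K M).ker = χ.ker) :
    ∃ χ' : (L ≃ₐ[K] L) →* Multiplicative (ZMod p), Function.Injective χ' ∧
      χ'.comp (galRes K L K M) = χ ∧ ∃ x : ideleGroup K,
        symClass _ χ' (ideleClassOfBase K L x) (isInv_ideleClassOfBase K L x) ≠ 0 := by
  haveI : NeZero p := ⟨hp.out.ne_zero⟩
  have hr : Function.Surjective (galRes K L K M) := galRes_infl_surjective K L M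
  let χ' : (L ≃ₐ[K] L) →* Multiplicative (ZMod p) :=
    (galRes K L K M).liftOfRightInverse (Function.surjInv hr) (Function.rightInverse_surjInv hr)
      ⟨χ, hker.le⟩
  have hχ'r : χ'.comp (galRes K L K M) = χ :=
    MonoidHom.liftOfRightInverse_comp _ _ _ _
  have hχ' : Function.Injective χ' := by
    rw [injective_iff_map_eq_one]
    intro τ hτ
    obtain ⟨σ, rfl⟩ := hr τ
    have h1 : χ σ = 1 := by
      rw [← hχ'r]
      exact hτ
    have h2 : σ ∈ (galRes K L K M).ker := by
      rw [hker]
      exact h1
    exact h2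
  have hcard : Nat.card (L ≃ₐ[K] L) = p := by
    have h1 : Nat.card (L ≃ₐ[K] L) = Nat.card χ'.range :=
      Nat.card_congr (MonoidHom.ofInjective hχ').toEquiv
    have h2 : Nat.card χ'.range ∣ Nat.card (Multiplicative (ZMod p)) :=
      Subgroup.card_subgroup_dvd_card _
    have h4 : Nat.card (Multiplicative (ZMod p)) = p := by
      rw [Nat.card_congr (Multiplicative.toAdd (α := ZMod p)), Nat.card_zmod]
    rw [h4] at h2
    rcases (Nat.dvd_prime hp.out).1 h2 with h3 | h3
    · exfalso
      apply hχ
      rw [← hχ'r]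
      haveI : Subsingleton (L ≃ₐ[K] L) := (Nat.card_eq_one_iff_unique.1 (h1.trans h3)).1
      ext σ
      rw [MonoidHom.comp_apply, Subsingleton.elim (galRes K L K M σ) 1, map_one]
      rfl
    · exact h1.trans h3
  have hdeg : Module.finrank K L = p := by
    rw [← IsGalois.card_aut_eq_finrank, hcard]
  have hFI := FirstIneq.principal_sup_norm_ne_top_of_finrank K L hp.out hp2 hdeg
  obtain ⟨x, hx⟩ : ∃ x : ideleGroup K, x ∉ principalSubgroup K ⊔ ideleNormSubgroup K L := by
    by_contra h
    exact hFI (eq_top_iff.2 fun x _ => by_contra fun hx => h ⟨x, hx⟩)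
  refine ⟨χ', hχ', hχ'r, x, fun h0 => hx ?_⟩
  rwa [← symClass_ideleClassOfBase_eq_zero_iff K L χ' hχ' hcard]

end TypeLevel

section SubLayer

variable {k Ω : Type} [Field k] [Field Ω] [Algebra k Ω]
variable {E E' : IntermediateField k Ω} (h : E ≤ E')

/-- The intermediate field of `Ω/k` between `E` and `E'` fixed by a subgroup of `Gal(E'/E)`. -/
def subLayer (N : Subgroup (LayerGal h)) : IntermediateField k Ω :=
  (IntermediateField.lift (IntermediateField.fixedField N)).restrictScalars k

theorem le_subLayer (N : Subgroup (LayerGal h)) : E ≤ subLayer h N := fun x hx =>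
  (IntermediateField.lift (IntermediateField.fixedField N)).algebraMap_mem ⟨x, hx⟩

theorem subLayer_le (N : Subgroup (LayerGal h)) : subLayer h N ≤ E' := fun _ hx =>
  IntermediateField.lift_le (IntermediateField.fixedField N) hx

theorem mem_subLayer_iff {N : Subgroup (LayerGal h)} (y : layer h) :
    (y : Ω) ∈ subLayer h N ↔ y ∈ IntermediateField.fixedField N :=
  IntermediateField.mem_lift y

/-- The sublayer is isomorphic to the fixed field. -/
def subLayerEquiv (N : Subgroup (LayerGal h)) :
    ↥(IntermediateField.fixedField N) ≃ₐ[E] ↥(layer (le_subLayer h N)) :=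
  IntermediateField.liftAlgEquiv (IntermediateField.fixedField N)

theorem subLayerEquiv_coe (N : Subgroup (LayerGal h)) (y : IntermediateField.fixedField N) :
    ((subLayerEquiv h N y : layer (le_subLayer h N)) : Ω) = ((y : layer h) : Ω) := rfl

end SubLayer

section SubLayerGalois

variable {k Ω : Type} [Field k] [Field Ω] [Algebra k Ω] [CharZero k]
variable {E E' : IntermediateField k Ω} (h : E ≤ E') [FiniteDimensional k E']
  [Normal E (layer h)]

theorem normal_subLayer (N : Subgroup (LayerGal h)) [N.Normal] :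
    Normal E (layer (le_subLayer h N)) := by
  haveI := isGalois_layer_of_normal_of_fd h
  haveI : IsGalois E (IntermediateField.fixedField N) :=
    IsGalois.of_fixedField_normal_subgroup N
  exact Normal.of_algEquiv (subLayerEquiv h N)

/-- The restriction `Gal(E'/E) → Gal(F/E)` to the sublayer `F` fixed by a normal subgroup `N` has
kernel `N`. -/
theorem ker_galRes_subLayer (N : Subgroup (LayerGal h)) [N.Normal] :
    letI := algTop (le_subLayer h N) h (subLayer_le h N)
    haveI : IsScalarTower E (layer (le_subLayer h N)) (layer h) :=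
      IsScalarTower.of_algebraMap_eq fun _ => rfl
    haveI := normal_subLayer h N
    (galRes E (layer (le_subLayer h N)) E (layer h)).ker = N := by
  letI := algTop (le_subLayer h N) h (subLayer_le h N)
  haveI : IsScalarTower E (layer (le_subLayer h N)) (layer h) :=
    IsScalarTower.of_algebraMap_eq fun _ => rfl
  haveI := normal_subLayer h N
  haveI := finiteDimensional_layer_of_fd' h
  ext σ
  rw [MonoidHom.mem_ker, galRes_eq_iff]
  constructor
  · intro hσ
    rw [← IntermediateField.fixingSubgroup_fixedField N, IntermediateField.mem_fixingSubgroup_iff]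
    intro y hy
    have h1 := hσ (subLayerEquiv h N ⟨y, hy⟩)
    have h2 : algebraMap (layer (le_subLayer h N)) (layer h) (subLayerEquiv h N ⟨y, hy⟩) = y :=
      Subtype.ext rfl
    rw [AlgEquiv.one_apply, h2] at h1
    exact h1.symm
  · intro hσ x
    have hy : algebraMap (layer (le_subLayer h N)) (layer h) x ∈ IntermediateField.fixedField N :=
      (mem_subLayer_iff h _).1 x.2
    rw [AlgEquiv.one_apply]
    exact ((IntermediateField.mem_fixedField_iff N _).1 hy σ hσ).symm

end SubLayerGalois

section Layer

variable {Ω : Type} [Field Ω] [Algebra ℚ Ω] {Adm : IntermediateField ℚ Ω → Prop} {p : ℕ}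
  [hp : Fact p.Prime]

/-- **(G4-EASY), idele classes, layer form.** For a `p`-primary invariant system on the idele
classes of the layers of `Ω/ℚ` (`p` odd), an admissible normal layer `E'/E` and a character
`χ ≠ 1` of `Gal(E'/E)` with values in `ZMod p`: some idele `x` of `E` has `inv ([x] ∪ δχ) ≠ 0`. -/
theorem exists_inv_symClass_ne_zero_layer (hp2 : p ≠ 2)
    (I : PLayerInvSystem (classCoeff ℚ Ω) Adm p)
    (adm_mono : ∀ {E E' : IntermediateField ℚ Ω}, E ≤ E' → Adm E' → Adm E)
    {E E' : IntermediateField ℚ Ω} (h : E ≤ E') (hadm : Adm E') [Normal E (layer h)]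
    (χ : LayerGal h →* Multiplicative (ZMod p)) (hχ : χ ≠ 1) :
    ∃ x : ideleGroup E, I.inv h (symClass (ideleClassRep (layer h) (LayerGal h)) χ
      (ideleClassOfBase E (layer h) x) (isInv_ideleClassOfBase E (layer h) x)) ≠ 0 := by
  haveI : NeZero p := ⟨hp.out.ne_zero⟩
  haveI : FiniteDimensional ℚ E' := I.fd hadm
  haveI : FiniteDimensional ℚ E := IdeleInvSystem.finiteDimensional_of_le_of_fd h
  haveI : NumberField E := numberField_of_finiteDimensional_rat E
  haveI : NumberField (layer h) := numberField_layer h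
  haveI := isGalois_layer_of_normal_of_fd h
  haveI := finiteDimensional_layer_of_fd' h
  -- the sublayer cut out by `ker χ`
  have hEF : E ≤ subLayer h χ.ker := le_subLayer h χ.ker
  have hFE' : subLayer h χ.ker ≤ E' := subLayer_le h χ.ker
  have hadmF : Adm (subLayer h χ.ker) := adm_mono hFE' hadm
  haveI : FiniteDimensional ℚ (subLayer h χ.ker) := I.fd hadmF
  haveI : NumberField (layer hEF) := numberField_layer hEF
  haveI hnorm : Normal E (layer hEF) := normal_subLayer h χ.ker
  haveI := isGalois_layer_of_normal_of_fd hEF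
  haveI := finiteDimensional_layer_of_fd' hEF
  letI a : Algebra (layer hEF) (layer h) := algTop hEF h hFE'
  haveI hst : IsScalarTower E (layer hEF) (layer h) := IsScalarTower.of_algebraMap_eq fun _ => rfl
  obtain ⟨χ', hχ', hχ'r, x, hx⟩ := exists_faithful_char_of_ker_eq E (layer hEF) (layer h) hp2 χ hχ
    (ker_galRes_subLayer h χ.ker)
  refine ⟨x, fun h0 => hx ?_⟩
  -- the symbol over `E'/E` is the inflation of the symbol over `F/E`
  have hinfl0 : (ideleClassGalMap E (layer hEF) E (layer h) 2).hom
      (symClass (ideleClassRep (layer hEF) (LayerGal hEF)) χ' (ideleClassOfBase E (layer hEF) x)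
        (isInv_ideleClassOfBase E (layer hEF) x)) =
      symClass (ideleClassRep (layer h) (LayerGal h)) χ (ideleClassOfBase E (layer h) x)
        (isInv_ideleClassOfBase E (layer h) x) := by
    rw [ideleClassGalMap_symClass, hχ'r]
  have e : (classCoeff ℚ Ω).map hEF h le_rfl hFE' 2 =
      ideleClassGalMap E (layer hEF) E (layer h) 2 :=
    ideleClassGalMap_congr_inst' E (layer hEF) E (layer h)
      (algBase (le_refl E)) (algTop hEF h hFE') (algDiag (le_refl E) h)
      (tower_base (le_refl E) h) (tower_top hEF h (le_refl E) hFE')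
      (Algebra.id E) a (inferInstance : Algebra E (layer h))
      (IsScalarTower.left E) hst (fun _ => rfl) 2
  have hinfl : ((classCoeff ℚ Ω).map hEF h le_rfl hFE' 2).hom
      (symClass (ideleClassRep (layer hEF) (LayerGal hEF)) χ' (ideleClassOfBase E (layer hEF) x)
        (isInv_ideleClassOfBase E (layer hEF) x)) =
      symClass (ideleClassRep (layer h) (LayerGal h)) χ (ideleClassOfBase E (layer h) x)
        (isInv_ideleClassOfBase E (layer h) x) := by
    rw [e]
    exact hinfl0
  have h1 := I.inv_map hEF h le_rfl hFE' hadm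
    (symClass (ideleClassRep (layer hEF) (LayerGal hEF)) χ' (ideleClassOfBase E (layer hEF) x)
      (isInv_ideleClassOfBase E (layer hEF) x))
  rw [hinfl, h0, LayerInvSystem.finrank_layer_self, one_smul] at h1
  exact I.eq_zero_of_inv_eq_zero hEF hadmF _
    ⟨1, by rw [pow_one]; exact nsmul_symClass_eq_zero _ χ' _⟩ h1.symm

end Layer

section LayerS

variable {Ω : Type} [Field Ω] [Algebra ℚ Ω] {Adm : IntermediateField ℚ Ω → Prop} {p : ℕ}
  [hp : Fact p.Prime]

/-- **(G4-EASY), `S`-idele classes, layer form.** `I` a `p`-primary invariant system on the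
`S`-idele classes which on the image of `H²(C) → H²(C_S)` is given by a `p`-primary invariant
system `Icl` on the idele classes (`hspec`; e.g. `I = sClassInvSystem S Icl …`). For an admissible
normal layer `E'/E` and a character `χ ≠ 1` of `Gal(E'/E)` with values in `ZMod p` (`p` odd), some
idele `x` of `E` has `inv ([x]_S ∪ δχ) ≠ 0`. -/
theorem exists_inv_symClass_ne_zero_layerS (hp2 : p ≠ 2) (S : Set Nat.Primes)
    (Icl : PLayerInvSystem (classCoeff ℚ Ω) Adm p)
    (I : PLayerInvSystem (sClassCoeff ℚ Ω S) Adm p)
    (hspec : ∀ {E E' : IntermediateField ℚ Ω} (h : E ≤ E'), Adm E' → ∀ [Normal E (layer h)]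
      (x : groupCohomology ((classCoeff ℚ Ω).M h) 2),
      I.inv h ((classToClassSLayer S h 2).hom x) = Icl.inv h x)
    (adm_mono : ∀ {E E' : IntermediateField ℚ Ω}, E ≤ E' → Adm E' → Adm E)
    {E E' : IntermediateField ℚ Ω} (h : E ≤ E') (hadm : Adm E') [Normal E (layer h)]
    (χ : LayerGal h →* Multiplicative (ZMod p)) (hχ : χ ≠ 1) :
    ∃ x : ideleGroup E, I.inv h (symClass (ideleClassSRep (layer h) (LayerGal h) S) χ
      ((classToClassSRepHom (layer h) (LayerGal h) S).hom (ideleClassOfBase E (layer h) x))
      ((isInv_ideleClassOfBase E (layer h) x).map (MonoidHom.id _)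
        (classToClassSRepHom (layer h) (LayerGal h) S))) ≠ 0 := by
  haveI : NeZero p := ⟨hp.out.ne_zero⟩
  obtain ⟨x, hx⟩ := exists_inv_symClass_ne_zero_layer hp2 Icl adm_mono h hadm χ hχ
  refine ⟨x, fun h0 => hx ?_⟩
  have h1 := map_symClass (MonoidHom.id (LayerGal h))
    (classToClassSRepHom (layer h) (LayerGal h) S) χ (isInv_ideleClassOfBase E (layer h) x)
  have h2 : (classToClassSLayer S h 2).hom
      (symClass (ideleClassRep (layer h) (LayerGal h)) χ (ideleClassOfBase E (layer h) x)
        (isInv_ideleClassOfBase E (layer h) x)) =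
      symClass (ideleClassSRep (layer h) (LayerGal h) S) χ
        ((classToClassSRepHom (layer h) (LayerGal h) S).hom (ideleClassOfBase E (layer h) x))
        ((isInv_ideleClassOfBase E (layer h) x).map (MonoidHom.id _)
          (classToClassSRepHom (layer h) (LayerGal h) S)) := h1
  have h3 := hspec h hadm (symClass (ideleClassRep (layer h) (LayerGal h)) χ
    (ideleClassOfBase E (layer h) x) (isInv_ideleClassOfBase E (layer h) x))
  rw [h2, h0] at h3
  exact h3.symm

end LayerS

end ExistenceNondeg

namespace CoeffDict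

variable {k Ω : Type} [Field k] [Field Ω] [Algebra k Ω]
  {𝔠 : LayerCoeff k Ω} {Adm : IntermediateField k Ω → Prop}
  {E : IntermediateField k Ω} {G : Type} [Group G] {L : LevelStructure G}
  {A : Rep.{0} ℤ G} (d : CoeffDict 𝔠 Adm E L A)

/-- Every invariant element of the layer module of a level comes from an invariant element of
`A`. -/
theorem exists_levelInv_eq (l : L.Level) (c : 𝔠.M (d.le_top l))
    (hc : IsInv (𝔠.M (d.le_top l)) c) :
    ∃ (a : A) (ha : IsInv A a), d.levelInv l a ha = c := by
  set a' : A.quotientToInvariants l.N := (d.repIso l).inv.hom c with ha'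
  have hinv : ∀ q : G ⧸ l.N, (A.quotientToInvariants l.N).ρ q a' = a' := by
    intro q
    have h1 := Rep.hom_comm_apply (d.repIso l).inv q c
    have h2 : (Rep.res (d.quotEquiv l).toMonoidHom (𝔠.M (d.le_top l))).ρ q c = c :=
      hc (d.quotEquiv l q)
    rw [h2] at h1
    exact h1.symm
  have ha : IsInv A (a' : A) := by
    intro g
    have h1 : (((A.quotientToInvariants l.N).ρ (QuotientGroup.mk g) a' :
        A.quotientToInvariants l.N) : A) = (a' : A) := by
      rw [hinv]
    rwa [LC.quotientToInvariants_ρ_coe] at h1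
  refine ⟨(a' : A), ha, ?_⟩
  have h3 : LCSym.toInv A l.N (a' : A) ha = a' := Subtype.ext rfl
  unfold CoeffDict.levelInv
  rw [h3, ha']
  have h4 := congrArg (fun f => f.hom c) (d.repIso l).inv_hom_id
  exact h4

end CoeffDict

namespace ExistenceNondeg

open ExistenceModP GaloisTower LayerMaps

section Easy

variable {Ω : Type} [Field Ω] [Algebra ℚ Ω] {Adm : IntermediateField ℚ Ω → Prop} {p : ℕ}
  [hp : Fact p.Prime] [NeZero p]

/-- **(G4-EASY)** = the hypothesis `heasy` of `CoeffDict.perfect_of_layers`, for any dictionary `d`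
over the `S`-idele class coefficient system and any `p`-primary invariant system `I` on it which
is given by a system `Icl` on the idele classes on the image of `H²(C) → H²(C_S)`. -/
theorem heasy_of_spec (hp2 : p ≠ 2) (S : Set Nat.Primes)
    (Icl : PLayerInvSystem (classCoeff ℚ Ω) Adm p)
    (I : PLayerInvSystem (sClassCoeff ℚ Ω S) Adm p)
    (hspec : ∀ {E E' : IntermediateField ℚ Ω} (h : E ≤ E'), Adm E' → ∀ [Normal E (layer h)]
      (x : groupCohomology ((classCoeff ℚ Ω).M h) 2),
      I.inv h ((classToClassSLayer S h 2).hom x) = Icl.inv h x)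
    (adm_mono : ∀ {E E' : IntermediateField ℚ Ω}, E ≤ E' → Adm E' → Adm E)
    {E : IntermediateField ℚ Ω} {G : Type} [Group G] {L : LevelStructure G} {A : Rep.{0} ℤ G}
    (d : CoeffDict (sClassCoeff ℚ Ω S) Adm E L A) :
    ∀ (l : L.Level)
      (χ : (layer (d.le_top l) ≃ₐ[E] layer (d.le_top l)) →* Multiplicative (ZMod p)), χ ≠ 1 →
      ∃ (a : A) (ha : IsInv A a), I.inv (d.le_top l) (symClass ((sClassCoeff ℚ Ω S).M (d.le_top l)) χ
        (d.levelInv l a ha) (d.isInv_levelInv l a ha)) ≠ 0 := by
  intro l χ hχ
  haveI := d.normal l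
  obtain ⟨x, hx⟩ := exists_inv_symClass_ne_zero_layerS hp2 S Icl I hspec adm_mono (d.le_top l)
    (d.adm l) χ hχ
  obtain ⟨a, ha, hc⟩ := d.exists_levelInv_eq l _
    ((isInv_ideleClassOfBase E (layer (d.le_top l)) x).map (MonoidHom.id _)
      (classToClassSRepHom (layer (d.le_top l)) (LayerGal (d.le_top l)) S))
  refine ⟨a, ha, fun h0 => hx ?_⟩
  rw [← h0]
  congr 1
  exact (symClass_congr _ χ (d.isInv_levelInv l a ha) hc).symm

/-- **(G4-EASY)** for `I = sClassInvSystem S Icl …`. -/
theorem heasy_sClassInvSystem (hp2 : p ≠ 2) (S : Set Nat.Primes)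
    (Icl : PLayerInvSystem (classCoeff ℚ Ω) Adm p)
    (adm_mono : ∀ {E E' : IntermediateField ℚ Ω}, E ≤ E' → Adm E' → Adm E)
    (hne : ∀ {E E' : IntermediateField ℚ Ω} (h : E ≤ E'), Adm E' →
      ∃ q ∈ S, Nonempty (LocalEmb ((q : Nat.Primes) : ℕ) (layer h)))
    (hunr : ∀ {E E' : IntermediateField ℚ Ω} (h : E ≤ E'), Adm E' → ∀ [Normal E (layer h)]
      (H : Subgroup (layer h ≃ₐ[E] layer h)) (q : Nat.Primes), q ∉ S →
      H1TrivialOn H (semiLocalIntegral (q : ℕ) (layer h)) ∧
        H2TrivialOn H (semiLocalIntegral (q : ℕ) (layer h)))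
    {E : IntermediateField ℚ Ω} {G : Type} [Group G] {L : LevelStructure G} {A : Rep.{0} ℤ G}
    (d : CoeffDict (sClassCoeff ℚ Ω S) Adm E L A) :
    ∀ (l : L.Level)
      (χ : (layer (d.le_top l) ≃ₐ[E] layer (d.le_top l)) →* Multiplicative (ZMod p)), χ ≠ 1 →
      ∃ (a : A) (ha : IsInv A a), (sClassInvSystem S Icl adm_mono hne hunr).inv (d.le_top l)
        (symClass ((sClassCoeff ℚ Ω S).M (d.le_top l)) χ
          (d.levelInv l a ha) (d.isInv_levelInv l a ha)) ≠ 0 :=
  heasy_of_spec hp2 S Icl (sClassInvSystem S Icl adm_mono hne hunr)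
    (fun h hadm _ x => sClassInvSystem_inv_classS S Icl adm_mono hne hunr h hadm x) adm_mono d

end Easy

end ExistenceNondeg

end Fermat.Agent.CFT
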