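/-
S55 / C7: **the global existence theorem mod `p` at finite level for the Kummer field of the
`T`-units** (`μ_p ⊆ K`), first inequality and `hE0` plugged in.

* `mem_unramCharsOutside_of_forall_uS` **(hW)** : a character whose pairing kills `U_{K,S}` is
  unramified outside `S`;
* `le_natCard_monoidHom_of_le_finrank` **(hX)** : for `M/K` abelian of exponent `p`,
  `|Hom(Gal(M/K), ℤ/p)| = [M : K]`;
* `exists_pow_eq_mk_of_kummer` : **(E)-hard, finite level**, `M/K` finite Galois abelian of
  exponent `p`, generated by `p`-th roots of `T`-units, of degree `≥ p ^ (r + |T| + 1)`; the only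
  remaining hypotheses concern the invariant `invM` of `C_M`: `hlg` (compatibility with the local
  invariants on `p`-torsion classes) and `hnd` (first inequality for characters);
* `exists_kummer_field_forall_pow_eq_mk` : the same with the Type-level Kummer field of helper19.
-/
import Mathlib
import Fermat.Agent.CFT.Global.ExistenceModPLocal
import Fermat.Agent.CFT.Global.IdeleDict.KummerE0
import Fermat.Agent.CFT.Global.FirstIneqUncond
import Fermat.Agent.CFT.Global.ExistenceModPChar
import Fermat.Agent.CFT.Kummer.SUnitField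

set_option autoImplicit false
set_option linter.unusedSectionVars false

open CategoryTheory groupCohomology

noncomputable section

namespace Fermat.Agent.CFT

namespace ExistenceLocal

open GaloisTower Subgroup NumberField IsDedekindDomain IdeleDict

variable (K : Type) [Field K] [NumberField K] (L : Type) [Field L] [Algebra K L] [NumberField L]
  [IsGalois K L]

/-- **(hW)** A character of `Gal(L/K)` whose pairing kills `U_{K,S}` is unramified outside `S`. -/
theorem mem_unramCharsOutside_of_forall_uS (pp : Nat.Primes) (I : LocalInvFamily)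
    (hI : ∀ q, (I q).IsConjInvariant)
    (invM : H2 (ideleClassRep L (L ≃ₐ[K] L)) →+ AddCircle (1 : ℚ))
    (hlg : ∀ z : H2 (ideleRep L (L ≃ₐ[K] L)), (pp : ℕ) • z = 0 →
      invM ((ideleH2g K).hom z) = invJFun I K z)
    (S : Set Nat.Primes) (χ : (L ≃ₐ[K] L) →* Multiplicative (ZMod (pp : ℕ)))
    (hw : ∀ w ∈ ExistenceModP.uS K S,
      invM (symClass (ideleClassRep L (L ≃ₐ[K] L)) χ (ExistenceModP.ideleClassOfBase K L w)
        (ExistenceModP.isInv_ideleClassOfBase K L w)) = 0) :
    χ ∈ unramCharsOutside K L (pp : ℕ) S := by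
  have : Fact (pp : ℕ).Prime := ⟨pp.2⟩
  rw [mem_unramCharsOutside]
  intro q hq τ'
  rw [forall_inertiaAt_eq_one_iff K χ τ']
  intro u hu
  have h1 := inv_galSymClass_eq_zero_of_forall_uS K I hI invM hlg χ S hw q hq τ' u hu
  rw [locSquare_res] at h1
  have := finiteDimensional_localFieldAt τ'
  have := normal_localLayer K τ'
  exact (I q).inv_injective (localFieldAt_restrict_le K τ') (h1.trans (map_zero _).symm)

/-- **(hX)** For `L/K` finite Galois, abelian of exponent `p`: `|Hom(Gal(L/K), ℤ/p)| = [L : K]`. -/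
theorem natCard_monoidHom_eq_finrank [FiniteDimensional K L] (p : ℕ) [Fact p.Prime]
    (hexp : ∀ σ : L ≃ₐ[K] L, σ ^ p = 1) (hcomm : ∀ σ τ : L ≃ₐ[K] L, σ * τ = τ * σ) :
    Nat.card ((L ≃ₐ[K] L) →* Multiplicative (ZMod p)) = Module.finrank K L := by
  let _ : CommGroup (L ≃ₐ[K] L) := { (inferInstance : Group (L ≃ₐ[K] L)) with mul_comm := hcomm }
  rw [← IsGalois.card_aut_eq_finrank K L]
  exact ExistenceModP.natCard_monoidHom_zmod (G := L ≃ₐ[K] L) p hexp

/-- **Global existence theorem mod `p`, hard half, `μ_p ⊆ K`, finite level, Kummer form.**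
`T ⊇ {v ∣ p} ∪ {v ∣ q, q ∈ S}` a finite set of places generating the class group; `L/K` finite
Galois, abelian of exponent `p`, generated by `p`-th roots of `T`-units, of degree at least
`p ^ (r + |T| + 1)` (i.e. `L = K(K_T^{1/p})`); `invM` an invariant of `C_L` with `(H-lg)` on
`p`-torsion classes and `(H-first)` `hnd`. Then every idele of `K` orthogonal to the characters of
`Gal(L/K)` unramified outside `S` is a `p`-th power in `C_S(K)`. -/
theorem exists_pow_eq_mk_of_kummer [FiniteDimensional K L] (pp : Nat.Primes)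
    (hp2 : 2 < (pp : ℕ)) {ζ : K} (hζ : IsPrimitiveRoot ζ (pp : ℕ)) (S : Set Nat.Primes)
    (T : Finset (IdelePlace K)) (hST : ∀ v : IdelePlace K, v.1 ∈ S → v ∈ T)
    (hT : ∀ v : IdelePlace K, v.1 = pp → v ∈ T)
    (hgen : GeneratesClassGroup K (IdelePlace.prime '' (T : Set (IdelePlace K))))
    (hgenL : IntermediateField.adjoin K
      {α : L | ∃ u ∈ (IdelePlace.prime '' (T : Set (IdelePlace K))).unit K,
        α ^ (pp : ℕ) = algebraMap K L (u : K)} = ⊤)
    (hexp : ∀ σ : L ≃ₐ[K] L, σ ^ (pp : ℕ) = 1) (hcomm : ∀ σ τ : L ≃ₐ[K] L, σ * τ = τ * σ)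
    (hdeg : (pp : ℕ) ^ (NumberField.Units.rank K + T.card + 1) ≤ Module.finrank K L)
    (I : LocalInvFamily) (hI : ∀ q, (I q).IsConjInvariant)
    (invM : H2 (ideleClassRep L (L ≃ₐ[K] L)) →+ AddCircle (1 : ℚ))
    (hlg : ∀ z : H2 (ideleRep L (L ≃ₐ[K] L)), (pp : ℕ) • z = 0 →
      invM ((ideleH2g K).hom z) = invJFun I K z)
    (hnd : ∀ χ : (L ≃ₐ[K] L) →* Multiplicative (ZMod (pp : ℕ)), χ ≠ 1 → ∃ x : ideleGroup K,
      invM (symClass _ χ (ExistenceModP.ideleClassOfBase K L x)
        (ExistenceModP.isInv_ideleClassOfBase K L x)) ≠ 0)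
    (x : ideleGroup K) (hx : ∀ χ ∈ unramCharsOutside K L (pp : ℕ) S,
      invM (symClass _ χ (ExistenceModP.ideleClassOfBase K L x)
        (ExistenceModP.isInv_ideleClassOfBase K L x)) = 0) :
    ∃ y : ideleClassS K S, y ^ (pp : ℕ) = (QuotientGroup.mk x : ideleClassS K S) := by
  have : Fact (pp : ℕ).Prime := ⟨pp.2⟩
  refine ExistenceCore.exists_pow_eq_mk_of_forall_inv_eq_zero_of_firstIneq L pp hp2 hζ S T hST hT
    hgen (FirstIneq.firstIneq_hFI K pp hp2) invM (unramCharsOutside K L (pp : ℕ) S)
    (hE0_of_kummer K L pp T hT hgenL invM) hnd ?_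
    (fun χ hχ => mem_unramCharsOutside_of_forall_uS K L pp I hI invM hlg S χ hχ) x hx
  rw [natCard_monoidHom_eq_finrank K L (pp : ℕ) hexp hcomm]
  exact hdeg

/-- **(E)-hard at finite level with the Type-level Kummer field**: for `K ∋ ζ_p`, `S`, `T` as above
there is a finite Galois extension `M/K` of number fields (the Kummer field of the `T`-units) such
that for every invariant `invM` of `C_M` with `(H-lg)` and `(H-first)`, the ideles of `K`
orthogonal to the characters of `Gal(M/K)` unramified outside `S` are `p`-th powers in `C_S(K)`. -/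
theorem exists_kummer_field_forall_pow_eq_mk (pp : Nat.Primes) (hp2 : 2 < (pp : ℕ)) {ζ : K}
    (hζ : IsPrimitiveRoot ζ (pp : ℕ)) (S : Set Nat.Primes) (T : Finset (IdelePlace K))
    (hST : ∀ v : IdelePlace K, v.1 ∈ S → v ∈ T) (hT : ∀ v : IdelePlace K, v.1 = pp → v ∈ T)
    (hgen : GeneratesClassGroup K (IdelePlace.prime '' (T : Set (IdelePlace K)))) :
    ∃ (M : Type) (_ : Field M) (_ : NumberField M) (_ : Algebra K M) (_ : FiniteDimensional K M)
      (_ : IsGalois K M),
      ∀ (I : LocalInvFamily) (_ : ∀ q, (I q).IsConjInvariant)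
        (invM : H2 (ideleClassRep M (M ≃ₐ[K] M)) →+ AddCircle (1 : ℚ))
        (_ : ∀ z : H2 (ideleRep M (M ≃ₐ[K] M)), (pp : ℕ) • z = 0 →
          invM ((ideleH2g K).hom z) = invJFun I K z)
        (_ : ∀ χ : (M ≃ₐ[K] M) →* Multiplicative (ZMod (pp : ℕ)), χ ≠ 1 → ∃ x : ideleGroup K,
          invM (symClass _ χ (ExistenceModP.ideleClassOfBase K M x)
            (ExistenceModP.isInv_ideleClassOfBase K M x)) ≠ 0)
        (x : ideleGroup K), (∀ χ ∈ unramCharsOutside K M (pp : ℕ) S,
          invM (symClass _ χ (ExistenceModP.ideleClassOfBase K M x)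
            (ExistenceModP.isInv_ideleClassOfBase K M x)) = 0) →
        ∃ y : ideleClassS K S, y ^ (pp : ℕ) = (QuotientGroup.mk x : ideleClassS K S) := by
  have : Fact (pp : ℕ).Prime := ⟨pp.2⟩
  have : Finite ↥(IdelePlace.prime '' (T : Set (IdelePlace K))) :=
    (T.finite_toSet.image _).to_subtype
  obtain ⟨M, _, _, _, _, _, hexp, hcomm, hdeg, -, hgenM⟩ :=
    Kummer.exists_sUnit_kummer_field K (IdelePlace.prime '' (T : Set (IdelePlace K))) (pp : ℕ) hζ
  refine ⟨M, inferInstance, inferInstance, inferInstance, inferInstance, inferInstance, ?_⟩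
  intro I hI invM hlg hnd x hx
  refine exists_pow_eq_mk_of_kummer K M pp hp2 hζ S T hST hT hgen hgenM hexp hcomm ?_ I hI invM hlg
    hnd x hx
  rw [hdeg, Nat.card_coe_set_eq, Set.ncard_image_of_injective _ IdelePlace.prime_injective,
    Set.ncard_coe_finset]

end ExistenceLocal

end Fermat.Agent.CFT
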