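/-
S55 / C7: **(E)-hard at finite level, final Type-level form** (`μ_p ⊆ K`): all arithmetic inputs
plugged in (index count, first inequality, `hE0`, `hX`, `hW`, `hnd`). The only remaining
hypotheses are the two properties of the invariant `invM` of `C_L` delivered by the global class
formation (C6d): compatibility with the local invariants (`hlg`) and injectivity (`hinj`), both on
`p`-torsion classes only.
-/
import Mathlib
import Fermat.Agent.CFT.Global.ExistenceModPKummer
import Fermat.Agent.CFT.Global.ExistenceNondeg

set_option autoImplicit false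
set_option linter.unusedSectionVars false

open CategoryTheory groupCohomology

noncomputable section

namespace Fermat.Agent.CFT

namespace ExistenceLocal

open GaloisTower Subgroup NumberField IsDedekindDomain IdeleDict

variable (K : Type) [Field K] [NumberField K] (L : Type) [Field L] [Algebra K L] [NumberField L]
  [IsGalois K L] [FiniteDimensional K L]

/-- **Global existence theorem mod `p`, hard half, `μ_p ⊆ K`, finite level, final form.**
`p` odd, `ζ_p ∈ K`, `S` a set of rational primes, `T` a finite set of places of `K` containing the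
places over `p` and over `S` and generating the class group, `L = K(K_T^{1/p})` (finite Galois,
abelian of exponent `p`, generated by `p`-th roots of `T`-units, of degree `p ^ (r + |T| + 1)`),
`invM : H²(Gal(L/K), C_L) → ℚ/ℤ` additive, compatible with the local invariants and injective on
`p`-torsion classes. Then every idele `x` of `K` with `invM ([x] ∪ δχ) = 0` for all characters
`χ : Gal(L/K) → ℤ/p` unramified outside `S` is a `p`-th power in `C_S(K)`. -/
theorem exists_pow_eq_mk_of_kummer_of_injective (pp : Nat.Primes)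
    (hp2 : 2 < (pp : ℕ)) {ζ : K} (hζ : IsPrimitiveRoot ζ (pp : ℕ)) (S : Set Nat.Primes)
    (T : Finset (IdelePlace K)) (hST : ∀ v : IdelePlace K, v.1 ∈ S → v ∈ T)
    (hT : ∀ v : IdelePlace K, v.1 = pp → v ∈ T)
    (hgen : GeneratesClassGroup K (IdelePlace.prime '' (T : Set (IdelePlace K))))
    (hgenL : IntermediateField.adjoin K
      {α : L | ∃ u ∈ (IdelePlace.prime '' (T : Set (IdelePlace K))).unit K,
        α ^ (pp : ℕ) = algebraMap K L (u : K)} = ⊤)
    (hexp : ∀ σ : L ≃ₐ[K] L, σ ^ (pp : ℕ) = 1) (hcomm : ∀ σ τ : L ≃ₐ[K] L, σ * τ = τ * σ)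
    (hdeg : Module.finrank K L = (pp : ℕ) ^ (NumberField.Units.rank K + T.card + 1))
    (I : LocalInvFamily) (hI : ∀ q, (I q).IsConjInvariant)
    (invM : H2 (ideleClassRep L (L ≃ₐ[K] L)) →+ AddCircle (1 : ℚ))
    (hlg : ∀ z : H2 (ideleRep L (L ≃ₐ[K] L)), (pp : ℕ) • z = 0 →
      invM ((ideleH2g K).hom z) = invJFun I K z)
    (hinj : ∀ c : H2 (ideleClassRep L (L ≃ₐ[K] L)), (pp : ℕ) • c = 0 → invM c = 0 → c = 0)
    (x : ideleGroup K) (hx : ∀ χ ∈ unramCharsOutside K L (pp : ℕ) S,
      invM (symClass _ χ (ExistenceModP.ideleClassOfBase K L x)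
        (ExistenceModP.isInv_ideleClassOfBase K L x)) = 0) :
    ∃ y : ideleClassS K S, y ^ (pp : ℕ) = (QuotientGroup.mk x : ideleClassS K S) :=
  exists_pow_eq_mk_of_kummer K L pp hp2 hζ S T hST hT hgen hgenL hexp hcomm hdeg.ge I hI invM hlg
    (ExistenceNondeg.hnd_of_injective K L pp hp2 (NumberField.Units.rank K + T.card + 1)
      ((IsGalois.card_aut_eq_finrank K L).trans hdeg) invM hinj) x hx

end ExistenceLocal

end Fermat.Agent.CFT
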