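/-
S55 / C9 (G4-HARD): **assembly of the hard half `hhard` of `CoeffDict.perfect_of_layers`** for the
`S`-idele class dictionary, from named nodes (hypothesis form).
-/
import Mathlib
import Fermat.Agent.CFT.Global.LCExistence
import Fermat.Agent.CFT.Global.ExistenceModPFinal
import Fermat.Agent.CFT.Local.LayerInv

set_option autoImplicit false
set_option linter.unusedSectionVars false
set_option linter.style.haveILetI false

open CategoryTheory groupCohomology IntermediateField

noncomputable section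

namespace Fermat.Agent.CFT

namespace ExistenceHard

open GaloisTower LayerMaps

local notation "Qb" => AlgebraicClosure ℚ

section Base

variable (S : Set Nat.Primes) {E E' : IntermediateField ℚ Qb} (h : E ≤ E')

/-- The class in `C_S(E')` of an idele of `E`, as an element of the module of the layer `E'/E` of
the coefficient system `sClassCoeff`. -/
def sClassOfBase (x : ideleGroup ↥E) : (sClassCoeff ℚ Qb S).M h :=
  (classToClassSRepHom (layer h) (layer h ≃ₐ[E] layer h) S).hom
    (ExistenceModP.ideleClassOfBase ↥E ↥(layer h) x)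

theorem isInv_sClassOfBase (x : ideleGroup ↥E) :
    IsInv ((sClassCoeff ℚ Qb S).M h) (sClassOfBase S h x) :=
  (ExistenceModP.isInv_ideleClassOfBase ↥E ↥(layer h) x).map (MonoidHom.id _)
    (classToClassSRepHom (layer h) (layer h ≃ₐ[E] layer h) S)

/-- `C → C_S` maps the symbol class of `[x] ∈ C_{E'}` to the symbol class of `[x] ∈ C_S(E')`. -/
theorem classToClassSLayer_symClass {n : ℕ} [NeZero n]
    (χ : (layer h ≃ₐ[E] layer h) →* Multiplicative (ZMod n)) (x : ideleGroup ↥E) :
    (classToClassSLayer S h 2).hom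
        (symClass ((classCoeff ℚ Qb).M h) χ (ExistenceModP.ideleClassOfBase ↥E ↥(layer h) x)
          (ExistenceModP.isInv_ideleClassOfBase ↥E ↥(layer h) x)) =
      symClass ((sClassCoeff ℚ Qb S).M h) χ (sClassOfBase S h x) (isInv_sClassOfBase S h x) := by
  unfold classToClassSLayer
  rw [map_symClass]
  rfl

end Base


section SymFunct

variable (K₁ L₁ K₂ L₂ : Type) [Field K₁] [Field L₁] [Field K₂] [Field L₂]
  [Algebra K₁ L₁] [Algebra K₂ L₂] [Algebra K₁ K₂] [Algebra L₁ L₂] [Algebra K₁ L₂]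
  [IsScalarTower K₁ K₂ L₂] [IsScalarTower K₁ L₁ L₂] [Normal K₁ L₁]

theorem ideleClassGalHom_ideleClassOfBase (x : ideleGroup K₁) :
    (ideleClassGalHom K₁ L₁ K₂ L₂).hom (ExistenceModP.ideleClassOfBase K₁ L₁ x) =
      ExistenceModP.ideleClassOfBase K₂ L₂ (ideleMap (algebraMap K₁ K₂) x) := by
  show Additive.ofMul (ideleClassMap L₁ L₂
    (QuotientGroup.mk (ideleMap (algebraMap K₁ L₁) x))) = _
  rw [ideleClassMap_mk, ideleMap_algebraMap_comp]
  unfold ExistenceModP.ideleClassOfBase
  rw [ideleMap_algebraMap_comp]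
  rfl

/-- **Functoriality of idele symbols for a square of fields** (covers inflation and base change):
the image of `[x] ∪ δχ'` under `ideleClassGalMap` is `[x] ∪ δ(χ' ∘ res)`. -/
theorem ideleClassGalMap_symClass {n : ℕ} [NeZero n]
    (χ' : (L₁ ≃ₐ[K₁] L₁) →* Multiplicative (ZMod n)) (x : ideleGroup K₁) :
    (ideleClassGalMap K₁ L₁ K₂ L₂ 2).hom
        (symClass _ χ' (ExistenceModP.ideleClassOfBase K₁ L₁ x)
          (ExistenceModP.isInv_ideleClassOfBase K₁ L₁ x)) =
      symClass _ (χ'.comp (galRes K₁ L₁ K₂ L₂))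
        (ExistenceModP.ideleClassOfBase K₂ L₂ (ideleMap (algebraMap K₁ K₂) x))
        (ExistenceModP.isInv_ideleClassOfBase K₂ L₂ _) := by
  unfold ideleClassGalMap
  rw [map_symClass]
  exact symClass_congr _ _ _ (ideleClassGalHom_ideleClassOfBase K₁ L₁ K₂ L₂ x)

end SymFunct

section LayerSym

variable {E E' F F' : IntermediateField ℚ Qb} (hEE' : E ≤ E') (hFF' : F ≤ F') (hEF : E ≤ F)
  (hE'F' : E' ≤ F') [Normal E (layer hEE')]

/-- The restriction `Gal(F'/F) → Gal(E'/E)` of a square of layers. -/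
def layerSqRes : (layer hFF' ≃ₐ[F] layer hFF') →* (layer hEE' ≃ₐ[E] layer hEE') :=
  letI := algBase hEF
  letI := algTop hEE' hFF' hE'F'
  letI := algDiag hEF hFF'
  haveI := tower_base hEF hFF'
  haveI := tower_top hEE' hFF' hEF hE'F'
  galRes E (layer hEE') F (layer hFF')

theorem layerSqRes_apply_coe (σ : layer hFF' ≃ₐ[F] layer hFF') (x : layer hEE') :
    ((layerSqRes hEE' hFF' hEF hE'F' σ x : layer hEE') : Qb) =
      ((σ (layerIncl hEE' hFF' hE'F' x) : layer hFF') : Qb) := by
  letI := algBase hEF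
  letI := algTop hEE' hFF' hE'F'
  letI := algDiag hEF hFF'
  haveI := tower_base hEF hFF'
  haveI := tower_top hEE' hFF' hEF hE'F'
  have := galRes_commutes (K₁ := E) (L₁ := layer hEE') (K₂ := F) (L₂ := layer hFF') σ x
  exact congrArg Subtype.val this

/-- The ideles of `E` inside the ideles of `F ⊇ E`. -/
def ideleBaseIncl : ideleGroup ↥E →* ideleGroup ↥F :=
  ideleMap (IntermediateField.inclusion hEF).toRingHom

/-- **Functoriality of idele symbols for a square of layers.** -/
theorem classCoeff_map_symClass {n : ℕ} [NeZero n]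
    (χ' : (layer hEE' ≃ₐ[E] layer hEE') →* Multiplicative (ZMod n)) (x : ideleGroup ↥E) :
    ((classCoeff ℚ Qb).map hEE' hFF' hEF hE'F' 2).hom
        (symClass ((classCoeff ℚ Qb).M hEE') χ'
          (ExistenceModP.ideleClassOfBase ↥E ↥(layer hEE') x)
          (ExistenceModP.isInv_ideleClassOfBase ↥E ↥(layer hEE') x)) =
      symClass ((classCoeff ℚ Qb).M hFF') (χ'.comp (layerSqRes hEE' hFF' hEF hE'F'))
        (ExistenceModP.ideleClassOfBase ↥F ↥(layer hFF') (ideleBaseIncl hEF x))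
        (ExistenceModP.isInv_ideleClassOfBase ↥F ↥(layer hFF') _) := by
  letI := algBase hEF
  letI := algTop hEE' hFF' hE'F'
  letI := algDiag hEF hFF'
  haveI := tower_base hEF hFF'
  haveI := tower_top hEE' hFF' hEF hE'F'
  exact ideleClassGalMap_symClass E (layer hEE') F (layer hFF') χ' x

end LayerSym

section LayerInfl

variable {E E₁ E₂ : IntermediateField ℚ Qb} (h₁ : E ≤ E₁) (h₁₂ : E₁ ≤ E₂) [Normal E (layer h₁)]

/-- The restriction `Gal(E₂/E) → Gal(E₁/E)` between layers over the same base. -/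
def layerGalRes : (layer (h₁.trans h₁₂) ≃ₐ[E] layer (h₁.trans h₁₂)) →* (layer h₁ ≃ₐ[E] layer h₁) :=
  layerSqRes h₁ (h₁.trans h₁₂) (le_refl E) h₁₂

theorem layerGalRes_apply_coe (σ : layer (h₁.trans h₁₂) ≃ₐ[E] layer (h₁.trans h₁₂))
    (x : layer h₁) :
    ((layerGalRes h₁ h₁₂ σ x : layer h₁) : Qb) =
      ((σ (layerIncl h₁ (h₁.trans h₁₂) h₁₂ x) : layer (h₁.trans h₁₂)) : Qb) :=
  layerSqRes_apply_coe h₁ (h₁.trans h₁₂) (le_refl E) h₁₂ σ x

theorem ideleBaseIncl_refl (x : ideleGroup ↥E) : ideleBaseIncl (le_refl E) x = x := by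
  have : (IntermediateField.inclusion (le_refl E)).toRingHom = RingHom.id ↥E :=
    RingHom.ext fun y => rfl
  unfold ideleBaseIncl
  rw [this, ideleMap_id]

/-- **Inflation of idele symbols between layers**: the inflation of `[x] ∪ δχ̄` from `E₁/E` to
`E₂/E` is `[x] ∪ δ(χ̄ ∘ res)`. -/
theorem classCoeff_infl_symClass {n : ℕ} [NeZero n]
    (χ' : (layer h₁ ≃ₐ[E] layer h₁) →* Multiplicative (ZMod n)) (x : ideleGroup ↥E) :
    ((classCoeff ℚ Qb).infl h₁ h₁₂ 2).hom
        (symClass ((classCoeff ℚ Qb).M h₁) χ' (ExistenceModP.ideleClassOfBase ↥E ↥(layer h₁) x)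
          (ExistenceModP.isInv_ideleClassOfBase ↥E ↥(layer h₁) x)) =
      symClass ((classCoeff ℚ Qb).M (h₁.trans h₁₂)) (χ'.comp (layerGalRes h₁ h₁₂))
        (ExistenceModP.ideleClassOfBase ↥E ↥(layer (h₁.trans h₁₂)) x)
        (ExistenceModP.isInv_ideleClassOfBase ↥E ↥(layer (h₁.trans h₁₂)) x) := by
  refine (classCoeff_map_symClass h₁ (h₁.trans h₁₂) (le_refl E) h₁₂ χ' x).trans ?_
  exact symClass_congr _ _ _ (by rw [ideleBaseIncl_refl])

end LayerInfl

section Infl

variable {p : ℕ} [NeZero p] (S : Set Nat.Primes) {Adm AdmC : IntermediateField ℚ Qb → Prop}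
  {F : IntermediateField ℚ Qb} {G : Type} [Group G] {Lv : LevelStructure G} {A : Rep.{0} ℤ G}
  (d : CoeffDict (sClassCoeff ℚ Qb S) Adm F Lv A)
  (I : PLayerInvSystem (sClassCoeff ℚ Qb S) Adm p)
  (Icl : PLayerInvSystem (classCoeff ℚ Qb) AdmC p)

/-- **(G4-INFL), core.** If all symbols of the idele `x` of `F` with the characters of the levels
of the dictionary vanish (invariants of `C_S`), then for every admissible normal layer `Lχ/F`
inside an arbitrary finite normal layer `M/F` and every character `χ'` of `Gal(Lχ/F)`, the symbol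
of `x` with the inflated character `χ' ∘ res` of `Gal(M/F)` has vanishing invariant (invariants
of `C`). -/
theorem inv_symClass_comp_layerGalRes_eq_zero
    (hAdmC : ∀ E, Adm E → AdmC E)
    (hspec : ∀ {E E' : IntermediateField ℚ Qb} (h : E ≤ E'), Adm E' → ∀ [Normal E (layer h)]
      (c : groupCohomology ((classCoeff ℚ Qb).M h) 2), p • c = 0 →
      I.inv h ((classToClassSLayer S h 2).hom c) = Icl.inv h c)
    (x : ideleGroup ↥F)
    (H : ∀ (l : Lv.Level)
      (χ : (layer (d.le_top l) ≃ₐ[F] layer (d.le_top l)) →* Multiplicative (ZMod p)),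
      I.inv (d.le_top l) (symClass ((sClassCoeff ℚ Qb S).M (d.le_top l)) χ
        (sClassOfBase S (d.le_top l) x) (isInv_sClassOfBase S (d.le_top l) x)) = 0)
    {Lχ M : IntermediateField ℚ Qb} (h1 : F ≤ Lχ) (h2 : Lχ ≤ M) (hM : AdmC M) (hadm : Adm Lχ)
    [Normal F (layer h1)] [Normal F (layer (h1.trans h2))]
    (χ' : (layer h1 ≃ₐ[F] layer h1) →* Multiplicative (ZMod p)) :
    Icl.inv (h1.trans h2) (symClass ((classCoeff ℚ Qb).M (h1.trans h2))
      (χ'.comp (layerGalRes h1 h2)) (ExistenceModP.ideleClassOfBase ↥F ↥(layer (h1.trans h2)) x)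
      (ExistenceModP.isInv_ideleClassOfBase ↥F ↥(layer (h1.trans h2)) x)) = 0 := by
  obtain ⟨l, hl⟩ := d.cofinal Lχ h1 hadm
  haveI : Normal F (layer (d.le_top l)) := d.normal l
  haveI : Normal F (layer (h1.trans hl)) := d.normal l
  -- the symbol over `Lχ`
  set c := symClass ((classCoeff ℚ Qb).M h1) χ' (ExistenceModP.ideleClassOfBase ↥F ↥(layer h1) x)
    (ExistenceModP.isInv_ideleClassOfBase ↥F ↥(layer h1) x) with hc
  have e1 := classCoeff_infl_symClass h1 h2 χ' x
  have e2 := classCoeff_infl_symClass h1 hl χ' x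
  have i1 := Icl.inv_map h1 (h1.trans h2) le_rfl h2 hM c
  have i2 := Icl.inv_map h1 (h1.trans hl) le_rfl hl (hAdmC _ (d.adm l)) c
  rw [LayerInvSystem.finrank_layer_self, one_smul] at i1 i2
  rw [← e1]
  refine i1.trans (i2.symm.trans ?_)
  have h0 := H l (χ'.comp (layerGalRes h1 hl))
  rw [← classToClassSLayer_symClass, hspec (d.le_top l) (d.adm l) _
    (ExistenceNondeg.nsmul_symClass_eq_zero _ _ _)] at h0
  rw [← h0]
  exact congrArg _ e2

end Infl

section Assembly

variable {p : ℕ} [NeZero p] (S : Set Nat.Primes) {Adm : IntermediateField ℚ Qb → Prop}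
  {F : IntermediateField ℚ Qb} {G : Type} [Group G] {Lv : LevelStructure G} {A : Rep.{0} ℤ G}
  (d : CoeffDict (sClassCoeff ℚ Qb S) Adm F Lv A)
  (I : PLayerInvSystem (sClassCoeff ℚ Qb S) Adm p)

/-- **(G4-HARD), top assembly.** `hhard` of `CoeffDict.perfect_of_layers` from
* `hdict` **[G4-DICT]**: an invariant `a` of `A` is the class of an idele `x` of `F` at all levels,
  and `a` is `p`-divisible in `A^G` as soon as the class of `x` is a `p`-th power in `C_S(F)`;
* `hlayer` **[G4-LAYER] + [G4-INFL]**: an idele `x` of `F` whose symbols with all characters of all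
  levels vanish is a `p`-th power in `C_S(F)`. -/
theorem hhard_of_dict_of_layer
    (hdict : ∀ (a : A) (ha : IsInv A a), ∃ x : ideleGroup ↥F,
      (∀ l : Lv.Level, d.levelInv l a ha = sClassOfBase S (d.le_top l) x) ∧
      ((∃ y : ideleClassS ↥F S, y ^ p = (QuotientGroup.mk x : ideleClassS ↥F S)) →
        ∃ b : A, IsInv A b ∧ a = p • b))
    (hlayer : ∀ x : ideleGroup ↥F, (∀ (l : Lv.Level)
      (χ : (layer (d.le_top l) ≃ₐ[F] layer (d.le_top l)) →* Multiplicative (ZMod p)),
      I.inv (d.le_top l) (symClass ((sClassCoeff ℚ Qb S).M (d.le_top l)) χ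
        (sClassOfBase S (d.le_top l) x) (isInv_sClassOfBase S (d.le_top l) x)) = 0) →
      ∃ y : ideleClassS ↥F S, y ^ p = (QuotientGroup.mk x : ideleClassS ↥F S)) :
    ∀ (a : A) (ha : IsInv A a), (∀ (l : Lv.Level)
      (χ : (layer (d.le_top l) ≃ₐ[F] layer (d.le_top l)) →* Multiplicative (ZMod p)),
      I.inv (d.le_top l) (symClass ((sClassCoeff ℚ Qb S).M (d.le_top l)) χ
        (d.levelInv l a ha) (d.isInv_levelInv l a ha)) = 0) →
      ∃ b : A, IsInv A b ∧ a = p • b := by
  intro a ha H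
  obtain ⟨x, hx, hdiv⟩ := hdict a ha
  refine hdiv (hlayer x fun l χ => ?_)
  rw [← H l χ]
  exact congrArg _ (symClass_congr _ χ _ (hx l).symm)

end Assembly

section Layer

variable {p : ℕ} [NeZero p] (S : Set Nat.Primes) {Adm AdmC : IntermediateField ℚ Qb → Prop}
  {F : IntermediateField ℚ Qb} [NumberField ↥F] {G : Type} [Group G] {Lv : LevelStructure G}
  {A : Rep.{0} ℤ G}
  (d : CoeffDict (sClassCoeff ℚ Qb S) Adm F Lv A)
  (I : PLayerInvSystem (sClassCoeff ℚ Qb S) Adm p)
  (Icl : PLayerInvSystem (classCoeff ℚ Qb) AdmC p)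

/-- **(G4-HARD), layer assembly**: the hypothesis `hlayer` of `hhard_of_dict_of_layer` from
* `hspec` **[S-SYS spec]**: on admissible normal layers the invariant of `C_S` composed with
  `C → C_S` is the invariant of `C` (on `p`-torsion classes);
* `hfield` **[G4-INFL-FIELD]** (U-BRIDGE converse): a character of a finite Galois layer `M/F`
  unramified outside `S` factors through an admissible (= unramified outside `S`) normal layer
  `Lχ/F`, `Lχ ≤ M`;
* `hL` **[G4-LAYER]**: there is a finite Galois layer `M/F` (the Kummer field of the `T`-units) for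
  which the finite-level existence theorem holds: an idele `x` of `F` whose symbols with all
  characters of `Gal(M/F)` unramified outside `S` vanish is a `p`-th power in `C_S(F)`. -/
theorem hlayer_of_nodes
    (hAdmC : ∀ E, Adm E → AdmC E)
    (hspec : ∀ {E E' : IntermediateField ℚ Qb} (h : E ≤ E'), Adm E' → ∀ [Normal E (layer h)]
      (c : groupCohomology ((classCoeff ℚ Qb).M h) 2), p • c = 0 →
      I.inv h ((classToClassSLayer S h 2).hom c) = Icl.inv h c)
    (hfield : ∀ {M : IntermediateField ℚ Qb} (hT : F ≤ M) [NumberField ↥(layer hT)]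
      [IsGalois ↥F ↥(layer hT)], AdmC M →
      ∀ χ ∈ ExistenceLocal.unramCharsOutside ↥F ↥(layer hT) p S,
        ∃ (Lχ : IntermediateField ℚ Qb) (h1 : F ≤ Lχ) (h2 : Lχ ≤ M) (_ : Normal F (layer h1)),
          Adm Lχ ∧ ∃ χ' : (layer h1 ≃ₐ[F] layer h1) →* Multiplicative (ZMod p),
            χ = χ'.comp (layerGalRes h1 h2))
    (hL : ∃ (M : IntermediateField ℚ Qb) (hT : F ≤ M) (_ : AdmC M) (_ : NumberField ↥(layer hT))
      (_ : IsGalois ↥F ↥(layer hT)), ∀ x : ideleGroup ↥F,
        (∀ χ ∈ ExistenceLocal.unramCharsOutside ↥F ↥(layer hT) p S,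
          Icl.inv hT (symClass ((classCoeff ℚ Qb).M hT) χ
            (ExistenceModP.ideleClassOfBase ↥F ↥(layer hT) x)
            (ExistenceModP.isInv_ideleClassOfBase ↥F ↥(layer hT) x)) = 0) →
        ∃ y : ideleClassS ↥F S, y ^ p = (QuotientGroup.mk x : ideleClassS ↥F S)) :
    ∀ x : ideleGroup ↥F, (∀ (l : Lv.Level)
      (χ : (layer (d.le_top l) ≃ₐ[F] layer (d.le_top l)) →* Multiplicative (ZMod p)),
      I.inv (d.le_top l) (symClass ((sClassCoeff ℚ Qb S).M (d.le_top l)) χ
        (sClassOfBase S (d.le_top l) x) (isInv_sClassOfBase S (d.le_top l) x)) = 0) →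
      ∃ y : ideleClassS ↥F S, y ^ p = (QuotientGroup.mk x : ideleClassS ↥F S) := by
  intro x H
  obtain ⟨M, hT, hM, _, _, hb⟩ := hL
  refine hb x fun χ hχ => ?_
  obtain ⟨Lχ, h1, h2, _, hadm, χ', rfl⟩ := hfield hT hM χ hχ
  haveI : Normal F (layer (h1.trans h2)) :=
    (inferInstance : Normal F (layer hT))
  exact inv_symClass_comp_layerGalRes_eq_zero S d I Icl hAdmC hspec x H h1 h2 hM hadm χ'

/-- **(G4-HARD)**: `hhard` of `CoeffDict.perfect_of_layers` from the four nodes
`[G4-DICT]`, `[S-SYS spec]`, `[G4-INFL-FIELD]`, `[G4-LAYER]`. -/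
theorem hhard_of_nodes
    (hdict : ∀ (a : A) (ha : IsInv A a), ∃ x : ideleGroup ↥F,
      (∀ l : Lv.Level, d.levelInv l a ha = sClassOfBase S (d.le_top l) x) ∧
      ((∃ y : ideleClassS ↥F S, y ^ p = (QuotientGroup.mk x : ideleClassS ↥F S)) →
        ∃ b : A, IsInv A b ∧ a = p • b))
    (hAdmC : ∀ E, Adm E → AdmC E)
    (hspec : ∀ {E E' : IntermediateField ℚ Qb} (h : E ≤ E'), Adm E' → ∀ [Normal E (layer h)]
      (c : groupCohomology ((classCoeff ℚ Qb).M h) 2), p • c = 0 →
      I.inv h ((classToClassSLayer S h 2).hom c) = Icl.inv h c)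
    (hfield : ∀ {M : IntermediateField ℚ Qb} (hT : F ≤ M) [NumberField ↥(layer hT)]
      [IsGalois ↥F ↥(layer hT)], AdmC M →
      ∀ χ ∈ ExistenceLocal.unramCharsOutside ↥F ↥(layer hT) p S,
        ∃ (Lχ : IntermediateField ℚ Qb) (h1 : F ≤ Lχ) (h2 : Lχ ≤ M) (_ : Normal F (layer h1)),
          Adm Lχ ∧ ∃ χ' : (layer h1 ≃ₐ[F] layer h1) →* Multiplicative (ZMod p),
            χ = χ'.comp (layerGalRes h1 h2))
    (hL : ∃ (M : IntermediateField ℚ Qb) (hT : F ≤ M) (_ : AdmC M) (_ : NumberField ↥(layer hT))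
      (_ : IsGalois ↥F ↥(layer hT)), ∀ x : ideleGroup ↥F,
        (∀ χ ∈ ExistenceLocal.unramCharsOutside ↥F ↥(layer hT) p S,
          Icl.inv hT (symClass ((classCoeff ℚ Qb).M hT) χ
            (ExistenceModP.ideleClassOfBase ↥F ↥(layer hT) x)
            (ExistenceModP.isInv_ideleClassOfBase ↥F ↥(layer hT) x)) = 0) →
        ∃ y : ideleClassS ↥F S, y ^ p = (QuotientGroup.mk x : ideleClassS ↥F S)) :
    ∀ (a : A) (ha : IsInv A a), (∀ (l : Lv.Level)
      (χ : (layer (d.le_top l) ≃ₐ[F] layer (d.le_top l)) →* Multiplicative (ZMod p)),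
      I.inv (d.le_top l) (symClass ((sClassCoeff ℚ Qb S).M (d.le_top l)) χ
        (d.levelInv l a ha) (d.isInv_levelInv l a ha)) = 0) →
      ∃ b : A, IsInv A b ∧ a = p • b :=
  hhard_of_dict_of_layer S d I hdict
    (hlayer_of_nodes S d I Icl hAdmC hspec hfield hL)

end Layer

end ExistenceHard

end Fermat.Agent.CFT
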