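import Fermat.Agent.CFT.Global.QS

/-!
# The `S`-units `E_S` of `ℚ_S` are `p`-divisible for `p ∈ S`

* `valES S : Subgroup Qbˣ`: units `x ∈ ℚ_S` with `A.valuation x = 1` for every valuation subring
  `A` of `Qb` lying over a prime outside `S`;
* `mem_valES_of_pow_mem` : `p ∈ S`, `y ^ p ∈ E_S ⇒ y ∈ E_S` (adjoining `p`-th roots of `S`-units is
  unramified outside `S`);
* `exists_pow_eq_of_mem_valES` : `E_S` is `p`-divisible; `mem_valES_of_pow_eq_one` : `μ_p ⊆ E_S`;
* `map_mem_valES` : `E_S` is stable under the Galois group.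
-/

set_option autoImplicit false

open scoped Pointwise IntermediateField

namespace Fermat.Agent.CFT

local notation "Qb" => AlgebraicClosure ℚ
local notation "GQ" => (AlgebraicClosure ℚ ≃ₐ[ℚ] AlgebraicClosure ℚ)

section Valuation

variable {L : Type*} [Field L]

lemma valuation_intCast_le_one (A : ValuationSubring L) (a : ℤ) : A.valuation (a : L) ≤ 1 := by
  rw [A.valuation_le_one_iff]
  exact intCast_mem A a

/-- A natural number prime to the residue characteristic is a unit. -/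
lemma valuation_natCast_eq_one_of_coprime (A : ValuationSubring L) {q p : ℕ}
    (hA : A.LiesOverPrime q) (hpq : Nat.Coprime p q) : A.valuation (p : L) = 1 := by
  have hq : A.valuation (q : L) < 1 := (A.mem_nonunits_iff).1 hA
  have hle : A.valuation (p : L) ≤ 1 := by
    have := valuation_intCast_le_one A (p : ℤ)
    rwa [Int.cast_natCast] at this
  rcases lt_or_eq_of_le hle with hlt | heq
  · exfalso
    have hb : (Nat.gcdA p q : L) * p + (Nat.gcdB p q : L) * q = 1 := by
      have h := Nat.gcd_eq_gcd_ab p q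
      rw [hpq] at h
      have h2 : ((1 : ℕ) : L) = ((p * Nat.gcdA p q + q * Nat.gcdB p q : ℤ) : L) := by
        rw [← h]; simp
      push_cast at h2
      calc (Nat.gcdA p q : L) * p + (Nat.gcdB p q : L) * q
          = (p : L) * (Nat.gcdA p q : L) + (q : L) * (Nat.gcdB p q : L) := by ring
        _ = 1 := h2.symm
    have h1 : A.valuation ((Nat.gcdA p q : L) * p) < 1 := by
      rw [map_mul]
      exact mul_lt_one_of_nonneg_of_lt_one_right (valuation_intCast_le_one A _) zero_le hlt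
    have h2 : A.valuation ((Nat.gcdB p q : L) * q) < 1 := by
      rw [map_mul]
      exact mul_lt_one_of_nonneg_of_lt_one_right (valuation_intCast_le_one A _) zero_le hq
    have h3 := Valuation.map_add_lt _ h1 h2
    rw [hb, map_one] at h3
    exact lt_irrefl _ h3
  · exact heq

lemma valuation_eq_one_of_pow_eq_one (A : ValuationSubring L) {n : ℕ} (hn : n ≠ 0) {x : L}
    (hx : A.valuation x ^ n = 1) : A.valuation x = 1 :=
  (pow_eq_one_iff_left hn).1 hx

/-- Distinct `p`-th roots of unity stay distinct in the residue field when `p` is a unit. -/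
lemma valuation_sub_one_eq_one_of_pow_eq_one (A : ValuationSubring L) {p : ℕ} (hp : p.Prime)
    (hvp : A.valuation (p : L) = 1) {ζ : L} (hζ : ζ ^ p = 1) (hζ1 : ζ ≠ 1) :
    A.valuation (ζ - 1) = 1 := by
  have hord : orderOf ζ = p := by
    have : Fact p.Prime := ⟨hp⟩
    exact orderOf_eq_prime hζ hζ1
  have hprim : IsPrimitiveRoot ζ p := hord ▸ IsPrimitiveRoot.orderOf ζ
  obtain ⟨n, rfl⟩ : ∃ n, p = n + 1 := ⟨p - 1, (Nat.succ_pred_eq_of_pos hp.pos).symm⟩
  have hprod := hprim.prod_one_sub_pow_eq_order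
  have hvζ : A.valuation ζ = 1 := by
    apply valuation_eq_one_of_pow_eq_one A (Nat.succ_ne_zero n)
    rw [← map_pow, hζ, map_one]
  have hle : ∀ k ∈ Finset.range n, A.valuation (1 - ζ ^ (k + 1)) ≤ 1 := by
    intro k _
    refine (Valuation.map_sub _ _ _).trans ?_
    rw [map_one, map_pow, hvζ, one_pow, max_self]
  have hv : ∏ k ∈ Finset.range n, A.valuation (1 - ζ ^ (k + 1)) = 1 := by
    rw [← map_prod, hprod]
    have : ((n : L) + 1) = ((n + 1 : ℕ) : L) := by push_cast; ring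
    rw [this, hvp]
  have hall := (Finset.prod_eq_one_iff_of_le_one' hle).1 hv
  have h0 : 0 ∈ Finset.range n := by
    rw [Finset.mem_range]
    have := hp.two_le
    omega
  have := hall 0 h0
  rw [zero_add, pow_one] at this
  rw [Valuation.map_sub_swap]
  exact this

end Valuation

section Inertia

/-- An inertia element at a prime `q ≠ p` fixing `y ^ p`, a unit at `A`, fixes `y`. -/
lemma inertia_fixes_root_of_unit {p : ℕ} (hp : p.Prime) {q : ℕ} (hq : q.Prime) (hqp : q ≠ p)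
    (A : ValuationSubring Qb) (hA : A.LiesOverPrime q) {σ : GQ}
    (hσ : σ ∈ A.inertiaSubgroupIn ℚ) {y : Qb} (hfix : σ (y ^ p) = y ^ p)
    (hval : A.valuation (y ^ p) = 1) : σ y = y := by
  have hvy : A.valuation y = 1 := by
    apply valuation_eq_one_of_pow_eq_one A hp.ne_zero
    rw [← map_pow, hval]
  have hy0 : y ≠ 0 := by
    rintro rfl
    rw [map_zero] at hvy
    exact zero_ne_one hvy
  by_contra hne
  have hζp : (σ y / y) ^ p = 1 := by
    rw [div_pow, ← map_pow, hfix, div_self (pow_ne_zero p hy0)]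
  have hζ1 : σ y / y ≠ 1 := by
    intro h
    exact hne ((div_eq_one_iff_eq hy0).1 h)
  have hvp : A.valuation ((p : ℕ) : Qb) = 1 :=
    valuation_natCast_eq_one_of_coprime A hA ((Nat.coprime_primes hp hq).2 (Ne.symm hqp))
  have h1 := valuation_sub_one_eq_one_of_pow_eq_one A hp hvp hζp hζ1
  have h2 := ((Fermat.Agent.S14.mem_inertiaSubgroupIn_iff A σ).1 hσ).2 y
    ((A.valuation_le_one_iff y).1 hvy.le)
  have h3 : σ y - y = (σ y / y - 1) * y := by
    field_simp
  rw [h3, map_mul, h1, hvy, one_mul] at h2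
  exact lt_irrefl _ h2

end Inertia

section valES

variable (S : Finset Nat.Primes)

/-- The `S`-units of `ℚ_S`, as a subgroup of `Qbˣ`. -/
def valES : Subgroup Qbˣ where
  carrier := {x | (x : Qb) ∈ QS S ∧ ∀ q : Nat.Primes, q ∉ S → ∀ A : ValuationSubring Qb,
    A.LiesOverPrime (q : ℕ) → A.valuation (x : Qb) = 1}
  mul_mem' {x y} hx hy := ⟨by
    rw [Units.val_mul]
    exact mul_mem hx.1 hy.1, fun q hq A hA => by
    rw [Units.val_mul, map_mul, hx.2 q hq A hA, hy.2 q hq A hA, one_mul]⟩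
  one_mem' := ⟨by
    rw [Units.val_one]
    exact one_mem _, fun q _ A _ => by rw [Units.val_one, map_one]⟩
  inv_mem' {x} hx := ⟨by
    rw [Units.val_inv_eq_inv_val]
    exact inv_mem hx.1, fun q hq A hA => by
    rw [Units.val_inv_eq_inv_val, map_inv₀, hx.2 q hq A hA, inv_one]⟩

variable {S}

lemma mem_valES_iff {x : Qbˣ} : x ∈ valES S ↔ (x : Qb) ∈ QS S ∧ ∀ q : Nat.Primes, q ∉ S →
    ∀ A : ValuationSubring Qb, A.LiesOverPrime (q : ℕ) → A.valuation (x : Qb) = 1 := Iff.rfl

/-- If `p ∈ S` (i.e. no prime outside `S` equals `p`), every `p`-th root of an `S`-unit of `ℚ_S`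
is an `S`-unit of `ℚ_S`. -/
theorem mem_valES_of_pow_mem {p : ℕ} (hp : p.Prime) (hpS : ∀ q : Nat.Primes, q ∉ S → (q : ℕ) ≠ p)
    {y : Qbˣ} (hy : y ^ p ∈ valES S) : y ∈ valES S := by
  obtain ⟨h1, h2⟩ := hy
  rw [Units.val_pow_eq_pow_val] at h1
  refine ⟨mem_QS_iff'.2 fun q hq A hA σ hσ => ?_, fun q hq A hA => ?_⟩
  · have hfix := mem_QS_iff'.1 h1 q hq A hA σ hσ
    have hval := h2 q hq A hA
    rw [Units.val_pow_eq_pow_val] at hval
    exact inertia_fixes_root_of_unit hp q.2 (hpS q hq) A hA hσ hfix hval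
  · have hval := h2 q hq A hA
    rw [Units.val_pow_eq_pow_val, map_pow] at hval
    exact valuation_eq_one_of_pow_eq_one A hp.ne_zero hval

/-- `E_S` is `p`-divisible for `p ∈ S`. -/
theorem exists_pow_eq_of_mem_valES {p : ℕ} (hp : p.Prime)
    (hpS : ∀ q : Nat.Primes, q ∉ S → (q : ℕ) ≠ p) {x : Qbˣ} (hx : x ∈ valES S) :
    ∃ y ∈ valES S, y ^ p = x := by
  obtain ⟨y, hy⟩ := IsAlgClosed.exists_pow_nat_eq (x : Qb) hp.pos
  have hy0 : y ≠ 0 := by
    rintro rfl
    rw [zero_pow hp.ne_zero] at hy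
    exact x.ne_zero hy.symm
  have hyx : (Units.mk0 y hy0) ^ p = x := by
    ext
    rw [Units.val_pow_eq_pow_val, Units.val_mk0, hy]
  exact ⟨Units.mk0 y hy0, mem_valES_of_pow_mem hp hpS (hyx ▸ hx), hyx⟩

/-- The `p`-th roots of unity lie in `E_S` for `p ∈ S`. -/
theorem mem_valES_of_pow_eq_one {p : ℕ} (hp : p.Prime)
    (hpS : ∀ q : Nat.Primes, q ∉ S → (q : ℕ) ≠ p) {y : Qbˣ} (hy : y ^ p = 1) : y ∈ valES S :=
  mem_valES_of_pow_mem hp hpS (hy ▸ (valES S).one_mem)

/-- Iterated version: `p^k`-th roots of `S`-units of `ℚ_S` are `S`-units of `ℚ_S`. -/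
theorem mem_valES_of_pow_pow_mem {p : ℕ} (hp : p.Prime)
    (hpS : ∀ q : Nat.Primes, q ∉ S → (q : ℕ) ≠ p) (k : ℕ) {y : Qbˣ}
    (hy : y ^ p ^ k ∈ valES S) : y ∈ valES S := by
  induction k generalizing y with
  | zero => simpa using hy
  | succ k ih =>
    apply ih
    apply mem_valES_of_pow_mem hp hpS
    rwa [← pow_mul, ← pow_succ]

lemma hpS_of_mem {p : ℕ} [hp : Fact p.Prime] (hpS : (⟨p, hp.out⟩ : Nat.Primes) ∈ S) :
    ∀ q : Nat.Primes, q ∉ S → (q : ℕ) ≠ p := by
  intro q hq hqp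
  apply hq
  have : q = ⟨p, hp.out⟩ := Subtype.ext hqp
  rwa [this]

/-- `E_S` is stable under the Galois group. -/
theorem map_mem_valES {x : Qbˣ} (hx : x ∈ valES S) (τ : GQ) :
    Units.map (τ : Qb →* Qb) x ∈ valES S := by
  refine ⟨map_mem_QS hx.1 τ, fun q hq A hA => ?_⟩
  show A.valuation (τ (x : Qb)) = 1
  have hA' : (τ⁻¹ • A).LiesOverPrime (q : ℕ) :=
    (Fermat.Agent.S55.liesOverPrime_smul_iff _ _ _).2 hA
  have h1 := hx.2 q hq _ hA'
  -- `A.valuation (τ x) < 1 ↔ (τ⁻¹ • A).valuation x < 1`, and the same for inverses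
  have key : ∀ z : Qb, A.valuation (τ z) < 1 ↔ (τ⁻¹ • A).valuation z < 1 := by
    intro z
    rw [Fermat.Agent.S14.valuation_smul_lt_one_iff, inv_inv]
  have hx0 : (x : Qb) ≠ 0 := x.ne_zero
  have hle : ¬ A.valuation (τ (x : Qb)) < 1 := by
    rw [key, h1]
    exact lt_irrefl _
  have hge : ¬ A.valuation (τ (x : Qb)⁻¹) < 1 := by
    rw [key, map_inv₀, h1, inv_one]
    exact lt_irrefl _
  rw [map_inv₀, map_inv₀] at hge
  have h3 : A.valuation (τ (x : Qb)) ≤ 1 := by
    by_contra h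
    apply hge
    rw [not_le] at h
    exact inv_lt_one_of_one_lt₀ h
  exact le_antisymm h3 (not_lt.1 hle)

end valES

end Fermat.Agent.CFT
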