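import Fermat.Agent.CFT.Global.SModules
import Fermat.Agent.CFT.Global.SUnitsDivisible
import Fermat.Agent.S55.LCBridgeGlobal
import Fermat.Agent.S55.CycloUnram

/-!
# C8 (G1)-bridge: `valES S = ES (globalLevel S) ℚ̄ S`

Dictionary between the two descriptions of the `S`-units `E_S` of `ℚ_S`:

* `valES S` (`Global/SUnitsDivisible.lean`): units of `ℚ_S` (`QS S`, Prelude inertia language) with
  `A.valuation x = 1` for all valuation subrings `A` of `ℚ̄` over primes `q ∉ S`;
* `ES (globalLevel S) ℚ̄ S` (`Global/SModules.lean`): units fixed by a level of `globalLevel S` with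
  `‖τ x‖ = 1` for all embeddings `τ : ℚ̄ → ℚ̄_q`, `q ∉ S`.

Main results:

* `embPlace τ`: the valuation subring `{y | ‖τ y‖ ≤ 1}` attached to `τ : K → ℚ̄_q`;
* `mem_of_forall_norm_emb_le_one`: if `‖τ x‖ ≤ 1` for all `τ : ℚ̄ → ℚ̄_q` then `x` lies in every
  valuation subring of `ℚ̄` over `q` (minimal polynomial argument; no conjugacy of places needed);
* `mem_smoothUnits_globalLevel_iff`, `diag_mem_semiLocalIntegral_iff`, **`valES_eq_ES`**;
* (G1) for `p ∈ S`: `ES_pow_mem`, `exists_pow_eq_of_mem_ES` (`E_S` is `p`-divisible),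
  `mem_ES_of_pow_eq_one` (`μ_p ⊆ E_S`), `esRep_divisible`, `esRep_torsion_iff`,
  `unitsSmul_eq_pow_cycloChar` (`G_ℚ` acts on `E_S[p] = μ_p` through `cycloChar p`).
-/

set_option autoImplicit false

open Polynomial

noncomputable section

namespace Fermat.Agent.CFT

local notation "Qb" => AlgebraicClosure ℚ
local notation "GQ" => (AlgebraicClosure ℚ ≃ₐ[ℚ] AlgebraicClosure ℚ)

section EmbPlace

variable (q : ℕ) [Fact q.Prime]

/-- The closed unit ball of `ℚ̄_q`, as a subring. -/
def padicAlgClBall : Subring (PadicAlgCl q) where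
  carrier := {y | ‖y‖ ≤ 1}
  mul_mem' {a b} ha hb := by
    show ‖a * b‖ ≤ 1
    rw [norm_mul]
    exact mul_le_one₀ ha (norm_nonneg _) hb
  one_mem' := by show ‖(1 : PadicAlgCl q)‖ ≤ 1; rw [norm_one]
  add_mem' {a b} ha hb :=
    (IsUltrametricDist.norm_add_le_max a b).trans (max_le ha hb)
  zero_mem' := by show ‖(0 : PadicAlgCl q)‖ ≤ 1; rw [norm_zero]; exact zero_le_one
  neg_mem' {a} ha := by show ‖-a‖ ≤ 1; rw [norm_neg]; exact ha

variable {q}

lemma mem_padicAlgClBall {y : PadicAlgCl q} : y ∈ padicAlgClBall q ↔ ‖y‖ ≤ 1 := Iff.rfl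

variable {K : Type} [Field K]

/-- The valuation subring of `K` attached to an embedding `τ : K → ℚ̄_q`. -/
def embPlace (τ : LocalEmb q K) : ValuationSubring K where
  toSubring := (padicAlgClBall q).comap τ
  mem_or_inv_mem' y := by
    show ‖τ y‖ ≤ 1 ∨ ‖τ y⁻¹‖ ≤ 1
    rw [map_inv₀, norm_inv]
    rcases le_total ‖τ y‖ 1 with h | h
    · exact Or.inl h
    · exact Or.inr (inv_le_one_of_one_le₀ h)

lemma mem_embPlace {τ : LocalEmb q K} {y : K} : y ∈ embPlace τ ↔ ‖τ y‖ ≤ 1 := Iff.rfl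

lemma norm_emb_natCast_self (τ : LocalEmb q K) : ‖τ (q : K)‖ = (q : ℝ)⁻¹ := by
  rw [map_natCast, ← map_natCast (algebraMap ℚ_[q] (PadicAlgCl q)), PadicAlgCl.norm_extends,
    Padic.norm_p]

lemma embPlace_valuation_lt_one_iff (τ : LocalEmb q K) (x : K) :
    (embPlace τ).valuation x < 1 ↔ ‖τ x‖ < 1 := by
  rw [Fermat.Agent.S14.valuation_lt_one_iff_inv]
  rcases eq_or_ne x 0 with rfl | hx
  · simp
  · simp only [hx, false_or]
    rw [mem_embPlace, map_inv₀, norm_inv, not_le]
    have h0 : 0 < ‖τ x‖ := norm_pos_iff.2 ((map_ne_zero τ).2 hx)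
    exact one_lt_inv₀ h0

lemma embPlace_liesOverPrime (τ : LocalEmb q K) : (embPlace τ).LiesOverPrime q := by
  have hq1 : (1 : ℝ) < q := by exact_mod_cast (Fact.out : q.Prime).one_lt
  have hlt : ‖τ (q : K)‖ < 1 := by
    rw [norm_emb_natCast_self]
    exact inv_lt_one_of_one_lt₀ hq1
  show (q : K) ∈ (embPlace τ).nonunits
  rw [ValuationSubring.mem_nonunits_iff]
  exact (embPlace_valuation_lt_one_iff τ _).2 hlt

lemma embPlace_valuation_le_one_iff (τ : LocalEmb q K) (x : K) :
    (embPlace τ).valuation x ≤ 1 ↔ ‖τ x‖ ≤ 1 := by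
  rw [ValuationSubring.valuation_le_one_iff]; rfl

lemma embPlace_valuation_eq_one_iff (τ : LocalEmb q K) (x : K) :
    (embPlace τ).valuation x = 1 ↔ ‖τ x‖ = 1 := by
  constructor
  · intro h
    refine le_antisymm ((embPlace_valuation_le_one_iff τ x).1 h.le) (not_lt.1 fun hlt => ?_)
    have := (embPlace_valuation_lt_one_iff τ x).2 hlt
    rw [h] at this
    exact lt_irrefl _ this
  · intro h
    refine le_antisymm ((embPlace_valuation_le_one_iff τ x).2 h.le) (not_lt.1 fun hlt => ?_)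
    have := (embPlace_valuation_lt_one_iff τ x).1 hlt
    rw [h] at this
    exact lt_irrefl _ this

end EmbPlace

section KeyLemma

variable {q : ℕ} [Fact q.Prime]

/-- A monic polynomial over `ℚ̄_q` whose roots have norm `≤ 1` has coefficients of norm `≤ 1`. -/
lemma norm_coeff_le_one_of_roots {g : (PadicAlgCl q)[X]} (hm : g.Monic)
    (hr : ∀ α ∈ g.roots, ‖α‖ ≤ 1) (n : ℕ) : ‖g.coeff n‖ ≤ 1 := by
  have hs : g.Splits := IsAlgClosed.splits g
  have hg : g ∈ Polynomial.lifts (padicAlgClBall q).subtype := by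
    rw [hs.eq_prod_roots_of_monic hm]
    refine Subsemiring.multiset_prod_mem _ _ ?_
    intro p hp
    obtain ⟨α, hα, rfl⟩ := Multiset.mem_map.1 hp
    refine ⟨X - C (⟨α, hr α hα⟩ : padicAlgClBall q), ?_⟩
    simp
  obtain ⟨y, hy⟩ := (Polynomial.lifts_iff_coeff_lifts g).1 hg n
  rw [← hy]
  exact y.2

/-- The norm of a rational number in `ℚ̄_q` is its `q`-adic norm. -/
lemma norm_algebraMap_rat_padicAlgCl (c : ℚ) :
    ‖algebraMap ℚ (PadicAlgCl q) c‖ = ‖(c : ℚ_[q])‖ := by
  have : algebraMap ℚ (PadicAlgCl q) c = algebraMap ℚ_[q] (PadicAlgCl q) (c : ℚ_[q]) := by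
    rw [eq_ratCast, map_ratCast]
  rw [this, PadicAlgCl.norm_extends]

/-- A rational number of `q`-adic norm `≤ 1` lies in every valuation subring over `q`. -/
lemma algebraMap_rat_mem_of_norm_le_one {L : Type*} [Field L] [CharZero L]
    (A : ValuationSubring L) (hA : A.LiesOverPrime q) {c : ℚ} (hc : ‖(c : ℚ_[q])‖ ≤ 1) :
    algebraMap ℚ L c ∈ A := by
  have hu := PadicInt.isUnit_den c hc
  have hcop : Nat.Coprime c.den q := by
    rw [PadicInt.isUnit_iff, PadicInt.norm_natCast_eq_one_iff] at hu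
    exact hu.symm
  have hden : A.valuation ((c.den : ℕ) : L) = 1 :=
    valuation_natCast_eq_one_of_coprime A hA hcop
  rw [← A.valuation_le_one_iff, eq_ratCast]
  have : (c : L) = (c.num : L) / (c.den : L) := by
    exact_mod_cast (Rat.num_div_den c).symm
  rw [this, map_div₀, hden, div_one]
  exact valuation_intCast_le_one A _

/-- **Key lemma**: an element of `ℚ̄` all of whose images in `ℚ̄_q` have norm `≤ 1` lies in every
valuation subring of `ℚ̄` over `q`. -/
theorem mem_of_forall_norm_emb_le_one (A : ValuationSubring Qb) (hA : A.LiesOverPrime q) {x : Qb}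
    (hx : ∀ τ : LocalEmb q Qb, ‖τ x‖ ≤ 1) : x ∈ A := by
  have halg : Algebra.IsIntegral ℚ Qb :=
    (AlgebraicClosure.instIsAlgClosure ℚ).isAlgebraic.isIntegral
  have hint : IsIntegral ℚ x := halg.isIntegral x
  set f := minpoly ℚ x with hf
  have hfm : f.Monic := minpoly.monic hint
  -- the coefficients of `f` have `q`-adic norm `≤ 1`
  have hcoeff : ∀ n, ‖((f.coeff n : ℚ) : ℚ_[q])‖ ≤ 1 := by
    intro n
    rw [← norm_algebraMap_rat_padicAlgCl, ← Polynomial.coeff_map]
    refine norm_coeff_le_one_of_roots (hfm.map _) (fun α hα => ?_) n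
    have hα0 : aeval α f = 0 := by
      have := (Polynomial.mem_roots'.1 hα).2
      rwa [Polynomial.IsRoot.def, Polynomial.eval_map_algebraMap] at this
    obtain ⟨φ, hφ⟩ := IntermediateField.exists_algHom_of_splits_of_aeval
      (F := ℚ) (E := Qb) (K := PadicAlgCl q)
      (fun s => ⟨halg.isIntegral s, IsAlgClosed.splits _⟩) hα0
    rw [← hφ]
    exact hx (φ : Qb →+* PadicAlgCl q)
  -- hence `f` has coefficients in `A`
  have hsub : ((f.map (algebraMap ℚ Qb)).coeffs : Set Qb) ⊆ A.valuation.integer := by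
    intro c hc
    rw [Finset.mem_coe, Polynomial.mem_coeffs_iff] at hc
    obtain ⟨n, -, rfl⟩ := hc
    rw [Polynomial.coeff_map, SetLike.mem_coe, Valuation.mem_integer_iff,
      A.valuation_le_one_iff]
    exact algebraMap_rat_mem_of_norm_le_one A hA (hcoeff n)
  have hintA : IsIntegral A.valuation.integer x := by
    refine ⟨(f.map (algebraMap ℚ Qb)).toSubring _ hsub, ?_, ?_⟩
    · rw [Polynomial.monic_toSubring]
      exact hfm.map _
    · rw [← Polynomial.eval_map]
      show eval x (((f.map (algebraMap ℚ Qb)).toSubring _ hsub).map (Subring.subtype _)) = 0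
      rw [Polynomial.map_toSubring, Polynomial.eval_map_algebraMap, hf, minpoly.aeval]
  have := (Valuation.integer.integers A.valuation).mem_of_integral hintA
  rwa [Valuation.mem_integer_iff, A.valuation_le_one_iff] at this

/-- An element of `ℚ̄` all of whose images in `ℚ̄_q` have norm `1` is a unit of every valuation
subring of `ℚ̄` over `q`. -/
theorem valuation_eq_one_of_forall_norm_emb_eq_one (A : ValuationSubring Qb)
    (hA : A.LiesOverPrime q) {x : Qb} (hx : ∀ τ : LocalEmb q Qb, ‖τ x‖ = 1) :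
    A.valuation x = 1 := by
  have h1 : A.valuation x ≤ 1 :=
    (A.valuation_le_one_iff x).2 (mem_of_forall_norm_emb_le_one A hA fun τ => (hx τ).le)
  have h2 : A.valuation x⁻¹ ≤ 1 :=
    (A.valuation_le_one_iff _).2 (mem_of_forall_norm_emb_le_one A hA fun τ => by
      rw [map_inv₀, norm_inv, hx τ, inv_one])
  have hx0 : x ≠ 0 := by
    rintro rfl
    have halg : Algebra.IsAlgebraic ℚ Qb := (AlgebraicClosure.instIsAlgClosure ℚ).isAlgebraic
    obtain ⟨τ⟩ : Nonempty (LocalEmb q Qb) :=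
      ⟨((IsAlgClosed.lift (R := ℚ) (S := Qb) (M := PadicAlgCl q) : Qb →ₐ[ℚ] PadicAlgCl q) :
        Qb →+* PadicAlgCl q)⟩
    have h := hx τ
    rw [map_zero, norm_zero] at h
    exact zero_ne_one h
  rw [map_inv₀] at h2
  have h0 : 0 < A.valuation x := zero_lt_iff.2 ((Valuation.ne_zero_iff _).2 hx0)
  exact le_antisymm h1 ((inv_le_one₀ h0).1 h2)

end KeyLemma

section Bridge

variable {S : Finset Nat.Primes}

/-- Smooth units for the level structure `globalLevel S` are the units of `ℚ_S`. -/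
theorem mem_smoothUnits_globalLevel_iff {x : Qbˣ} :
    x ∈ smoothUnits (Fermat.Agent.S55.globalLevel S) Qb ↔ (x : Qb) ∈ QS S := by
  have : IsGalois ℚ Qb := Fermat.Agent.S54.FrobExists.isGalois_rat_algebraicClosure
  constructor
  · rintro ⟨N, ⟨F, hgal, hF, rfl⟩, hfix⟩
    apply le_QS_of_isUnramifiedOutside hF
    have hmem : (x : Qb) ∈ IntermediateField.fixedField F.fixingSubgroup := by
      rw [IntermediateField.mem_fixedField_iff]
      intro g hg
      exact congrArg Units.val (hfix g hg)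
    rwa [InfiniteGalois.fixedField_fixingSubgroup] at hmem
  · intro hx
    obtain ⟨E, hE, hgal, hxE⟩ := exists_isGalois_level_of_finset {(x : Qb)}
      (fun y hy => by rw [Finset.mem_singleton.1 hy]; exact hx)
    refine ⟨E.fixingSubgroup, ⟨E, hgal, hE, rfl⟩, fun g hg => ?_⟩
    apply Units.ext
    exact (IntermediateField.mem_fixingSubgroup_iff _ _).1 hg _
      (hxE _ (Finset.mem_singleton_self _))

/-- The local unit condition at `q` in the embedding model is the one in the valuation-subring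
model. -/
theorem diag_mem_semiLocalIntegral_iff {q : ℕ} [Fact q.Prime] (x : Qbˣ) :
    (semiLocalDiag x : semiLocalUnits q Qb) ∈ semiLocalIntegral q Qb ↔
      ∀ A : ValuationSubring Qb, A.LiesOverPrime q → A.valuation (x : Qb) = 1 := by
  rw [mem_semiLocalIntegral]
  simp only [semiLocalDiag_apply]
  constructor
  · intro h A hA
    exact valuation_eq_one_of_forall_norm_emb_eq_one A hA h
  · intro h τ
    exact (embPlace_valuation_eq_one_iff τ _).1 (h _ (embPlace_liesOverPrime τ))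

/-- **(G1)-bridge**: the two models of the `S`-units of `ℚ_S` coincide. -/
theorem valES_eq_ES (S : Finset Nat.Primes) :
    valES S = ES (Fermat.Agent.S55.globalLevel S) Qb (↑S : Set Nat.Primes) := by
  ext x
  rw [mem_valES_iff, mem_ES, mem_smoothUnits_globalLevel_iff]
  refine and_congr Iff.rfl (forall_congr' fun q => ?_)
  rw [Finset.mem_coe]
  exact imp_congr Iff.rfl (diag_mem_semiLocalIntegral_iff x).symm

end Bridge

section G1

variable {S : Finset Nat.Primes} {p : ℕ}

/-- `p ∈ S`: every `p`-th root of an element of `E_S` lies in `E_S`. -/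
theorem mem_ES_of_pow_mem (hp : p.Prime) (hpS : ∀ q : Nat.Primes, q ∉ S → (q : ℕ) ≠ p)
    {y : Qbˣ} (hy : y ^ p ∈ ES (Fermat.Agent.S55.globalLevel S) Qb (↑S : Set Nat.Primes)) :
    y ∈ ES (Fermat.Agent.S55.globalLevel S) Qb (↑S : Set Nat.Primes) := by
  rw [← valES_eq_ES] at hy ⊢
  exact mem_valES_of_pow_mem hp hpS hy

/-- `p ∈ S`: `E_S` is `p`-divisible. -/
theorem exists_pow_eq_of_mem_ES (hp : p.Prime) (hpS : ∀ q : Nat.Primes, q ∉ S → (q : ℕ) ≠ p)
    {x : Qbˣ} (hx : x ∈ ES (Fermat.Agent.S55.globalLevel S) Qb (↑S : Set Nat.Primes)) :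
    ∃ y ∈ ES (Fermat.Agent.S55.globalLevel S) Qb (↑S : Set Nat.Primes), y ^ p = x := by
  rw [← valES_eq_ES] at hx ⊢
  exact exists_pow_eq_of_mem_valES hp hpS hx

/-- `p ∈ S`: the `p`-th roots of unity lie in `E_S`. -/
theorem mem_ES_of_pow_eq_one (hp : p.Prime) (hpS : ∀ q : Nat.Primes, q ∉ S → (q : ℕ) ≠ p)
    {y : Qbˣ} (hy : y ^ p = 1) :
    y ∈ ES (Fermat.Agent.S55.globalLevel S) Qb (↑S : Set Nat.Primes) := by
  rw [← valES_eq_ES]
  exact mem_valES_of_pow_eq_one hp hpS hy

/-- `p ∈ S`: `p^k`-th roots of elements of `E_S` lie in `E_S`. -/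
theorem mem_ES_of_pow_pow_mem (hp : p.Prime) (hpS : ∀ q : Nat.Primes, q ∉ S → (q : ℕ) ≠ p)
    (k : ℕ) {y : Qbˣ}
    (hy : y ^ p ^ k ∈ ES (Fermat.Agent.S55.globalLevel S) Qb (↑S : Set Nat.Primes)) :
    y ∈ ES (Fermat.Agent.S55.globalLevel S) Qb (↑S : Set Nat.Primes) := by
  rw [← valES_eq_ES] at hy ⊢
  exact mem_valES_of_pow_pow_mem hp hpS k hy

/-- The action of `G_ℚ` on `esRep`. -/
theorem esRep_ρ_apply (σ : GQ)
    (a : esRep (Fermat.Agent.S55.globalLevel S) Qb (↑S : Set Nat.Primes)) :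
    (((Additive.toMul ((esRep (Fermat.Agent.S55.globalLevel S) Qb (↑S : Set Nat.Primes)).ρ σ a) :
      ES (Fermat.Agent.S55.globalLevel S) Qb (↑S : Set Nat.Primes)) : Qbˣ) : Qb) =
      σ (((Additive.toMul a : ES (Fermat.Agent.S55.globalLevel S) Qb (↑S : Set Nat.Primes)) :
        Qbˣ) : Qb) := rfl

/-- **(G1)** `E_S` is `p`-divisible as a representation (`p ∈ S`). -/
theorem esRep_divisible (hp : p.Prime) (hpS : ∀ q : Nat.Primes, q ∉ S → (q : ℕ) ≠ p)
    (a : esRep (Fermat.Agent.S55.globalLevel S) Qb (↑S : Set Nat.Primes)) :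
    ∃ b : esRep (Fermat.Agent.S55.globalLevel S) Qb (↑S : Set Nat.Primes), (p : ℤ) • b = a := by
  obtain ⟨y, hy, hyx⟩ := exists_pow_eq_of_mem_ES hp hpS
    (Additive.toMul a : ES (Fermat.Agent.S55.globalLevel S) Qb (↑S : Set Nat.Primes)).2
  have key : (p : ℤ) • (Additive.ofMul
      (⟨y, hy⟩ : ES (Fermat.Agent.S55.globalLevel S) Qb (↑S : Set Nat.Primes))) =
      (a : Additive (ES (Fermat.Agent.S55.globalLevel S) Qb (↑S : Set Nat.Primes))) := by
    rw [natCast_zsmul]
    refine congrArg Additive.ofMul (?_ : (⟨y, hy⟩ : ES _ Qb _) ^ p = Additive.toMul a)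
    exact Subtype.ext hyx
  exact ⟨_, key⟩

/-- **(G1)** the `p`-torsion of `E_S` consists of the `p`-th roots of unity. -/
theorem esRep_torsion_iff
    (a : esRep (Fermat.Agent.S55.globalLevel S) Qb (↑S : Set Nat.Primes)) :
    (p : ℤ) • a = 0 ↔
      ((Additive.toMul a : ES (Fermat.Agent.S55.globalLevel S) Qb (↑S : Set Nat.Primes)) : Qbˣ) ^ p
        = 1 := by
  have key : (p : ℤ) • (a : Additive (ES (Fermat.Agent.S55.globalLevel S) Qb
      (↑S : Set Nat.Primes))) = 0 ↔
      ((Additive.toMul a : ES (Fermat.Agent.S55.globalLevel S) Qb (↑S : Set Nat.Primes)) : Qbˣ) ^ p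
        = 1 := by
    rw [natCast_zsmul]
    constructor
    · intro h
      have h1 : (Additive.toMul a : ES (Fermat.Agent.S55.globalLevel S) Qb
          (↑S : Set Nat.Primes)) ^ p = 1 := congrArg Additive.toMul h
      exact congrArg Subtype.val h1
    · intro h
      refine congrArg Additive.ofMul (?_ : (Additive.toMul a : ES _ Qb _) ^ p = 1)
      exact Subtype.ext h
  exact key

/-- **(G1)** every `p`-th root of unity is (the underlying unit of) a `p`-torsion element of
`esRep` (`p ∈ S`). -/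
theorem exists_esRep_of_pow_eq_one (hp : p.Prime)
    (hpS : ∀ q : Nat.Primes, q ∉ S → (q : ℕ) ≠ p) {ζ : Qbˣ} (hζ : ζ ^ p = 1) :
    ∃ a : esRep (Fermat.Agent.S55.globalLevel S) Qb (↑S : Set Nat.Primes), (p : ℤ) • a = 0 ∧
      ((Additive.toMul a : ES (Fermat.Agent.S55.globalLevel S) Qb (↑S : Set Nat.Primes)) : Qbˣ)
        = ζ :=
  ⟨Additive.ofMul (⟨ζ, mem_ES_of_pow_eq_one hp hpS hζ⟩ : ES _ Qb _),
    (esRep_torsion_iff _).2 hζ, rfl⟩

/-- `G_ℚ` acts on the `p`-th roots of unity through the mod `p` cyclotomic character of the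
Prelude. -/
theorem unitsSmul_eq_pow_cycloChar [Fact p.Prime] (σ : GQ) {ζ : Qbˣ} (hζ : ζ ^ p = 1) :
    unitsSmul σ ζ = ζ ^ ((ExtCitation.cycloChar p σ : (ZMod p)ˣ) : ZMod p).val := by
  apply Units.ext
  rw [unitsSmul_coe, Units.val_pow_eq_pow_val, Fermat.Agent.S55.cycloChar_eq_chi]
  have h : (ζ : Qb) ^ p = 1 := by rw [← Units.val_pow_eq_pow_val, hζ, Units.val_one]
  exact Fermat.Agent.S14.AlgGQ.chi_spec p σ h

end G1

end Fermat.Agent.CFT
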