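import Fermat.Agent.CFT.Global.PadicClassInvSystem
import Fermat.Agent.CFT.Global.PLayerInvTransport
import Fermat.Agent.CFT.Global.IdeleDict.UnramPrelude
import Fermat.Agent.CFT.Global.KummerCapitulation

/-!
# The `p`-primary invariant system of the `S`-idele class groups over `ℚ` ([S-SYS])

`S` a finite set of primes containing the odd prime `p`, `Adm E := E.IsUnramifiedOutside S` (the
finite subfields of `ℚ_S`).  From `padicClassInvSystem` (idele classes) and the transport along
`C → C_S` (bijective on `H¹`, `H²` of the layers unramified outside `S`) we obtain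

  `sClassInvSystemQ : PLayerInvSystem (sClassCoeff ℚ ℚ̄ ↑S) (·.IsUnramifiedOutside S) p`,

the final invariant system of the global contract.  The only remaining input is the `p`-primary
reciprocity law `hrecip` (C5d).  Spec lemmas: `sClassInvSystemQ_inv_classS`,
`sClassInvSystemQ_inv_idele` (local–global formula).

Also: `isUnramifiedOutside_of_le_cyclo` — subfields of `E(μ_{p^m})` containing the `S`-unramified
field `E` are unramified outside `S` (`p ∈ S`).
-/

set_option autoImplicit false
set_option linter.style.haveILetI false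
set_option linter.unusedSectionVars false
set_option maxSynthPendingDepth 2

open CategoryTheory groupCohomology IntermediateField

namespace Fermat.Agent.CFT

open GaloisTower LayerMaps

local notation "Qb" => AlgebraicClosure ℚ

section Cyclo

variable {S : Finset Nat.Primes} {p : ℕ}

/-- The `p^m`-th roots of unity lie in `ℚ_S` when `p ∈ S`. -/
theorem mem_QS_of_pow_pow_eq_one (hp : p.Prime)
    (hpS : ∀ q : Nat.Primes, q ∉ S → (q : ℕ) ≠ p) (m : ℕ) {x : Qb} (hx : x ^ p ^ m = 1) :
    x ∈ QS S := by
  refine mem_QS_of_pow_pow_mem hp hpS m (by rw [hx]; exact one_mem _) ?_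
  intro q _ A _
  refine ⟨0, ?_⟩
  rw [hx, map_one, mul_zero, zpow_zero]

/-- The set of `n`-th roots of unity of `ℚ̄` is finite (`n ≠ 0`). -/
theorem finite_setOf_pow_eq_one {n : ℕ} (hn : n ≠ 0) : {x : Qb | x ^ n = 1}.Finite := by
  refine Set.Finite.subset (Polynomial.rootSet_finite (Polynomial.X ^ n - 1 : Polynomial ℚ) Qb) ?_
  intro x hx
  rw [Polynomial.mem_rootSet]
  refine ⟨Polynomial.X_pow_sub_C_ne_zero (Nat.pos_of_ne_zero hn) (1 : ℚ), ?_⟩
  have hx' : x ^ n = 1 := hx
  simp [hx']

/-- **Admissibility of the cyclotomic layers**: a field `C` with `E ≤ C ≤ E(μ_{p^m})`, `E`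
unramified outside `S ∋ p`, is unramified outside `S`. -/
theorem isUnramifiedOutside_of_le_cyclo (hp : p.Prime)
    (hpS : ∀ q : Nat.Primes, q ∉ S → (q : ℕ) ≠ p) (E C : IntermediateField ℚ Qb) (m : ℕ)
    (hE : E.IsUnramifiedOutside S)
    (hC : C ≤ E ⊔ adjoin ℚ {x : Qb | x ^ (p ^ m) = 1}) : C.IsUnramifiedOutside S := by
  refine IntermediateField.IsUnramifiedOutside.of_le hC (hE.sup ?_)
  rw [isUnramifiedOutside_iff_le_QS]
  constructor
  · haveI : Finite {x : Qb | x ^ (p ^ m) = 1} :=
      (finite_setOf_pow_eq_one (pow_ne_zero m hp.ne_zero)).to_subtype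
    refine IntermediateField.finiteDimensional_adjoin fun x _ => ?_
    exact ((AlgebraicClosure.instIsAlgClosure ℚ).isAlgebraic.isAlgebraic x).isIntegral
  · rw [IntermediateField.adjoin_le_iff]
    intro x hx
    exact mem_QS_of_pow_pow_eq_one hp hpS m hx

end Cyclo

section System

variable (S : Finset Nat.Primes) {p : ℕ} [hp : Fact p.Prime] (hp2 : p ≠ 2)
  (hpS : (⟨p, hp.out⟩ : Nat.Primes) ∈ S)
  (hrecip : ∀ {E E' : IntermediateField ℚ Qb} (h : E ≤ E')
    [FiniteDimensional ℚ E'] [NumberField E] [NumberField (layer h)] [Normal E (layer h)]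
    (hP : PrincipalIsIdele (layer h))
    (u : groupCohomology (Rep.ofAlgebraAutOnUnits E (layer h)) 2),
    (∃ n : ℕ, p ^ n • u = 0) →
      invJFun padicLocalInvFamily E ((layerH2f h hP).hom u) = 0)

include hpS in
lemma natPrimes_coe_ne_of_not_mem (q : Nat.Primes) (hq : q ∉ S) : (q : ℕ) ≠ p := by
  intro h
  apply hq
  have : q = (⟨p, hp.out⟩ : Nat.Primes) := Subtype.ext h
  rw [this]
  exact hpS

include hpS in
/-- `hAdm` for the fields unramified outside `S ∋ p`. -/
lemma isUnramifiedOutside_hAdm (E C : IntermediateField ℚ Qb) (m : ℕ)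
    (hE : E.IsUnramifiedOutside S) (_ : E ≤ C)
    (hC : C ≤ E ⊔ adjoin ℚ {x : Qb | x ^ (p ^ m) = 1}) : C.IsUnramifiedOutside S :=
  isUnramifiedOutside_of_le_cyclo hp.out (natPrimes_coe_ne_of_not_mem S hpS) E C m hE hC

omit hp in
lemma isUnramifiedOutside_hfd {E : IntermediateField ℚ Qb} (hE : E.IsUnramifiedOutside S) :
    FiniteDimensional ℚ E := hE.1

omit hp in
lemma isUnramifiedOutside_adm_mono {E E' : IntermediateField ℚ Qb} (hle : E ≤ E')
    (hE' : E'.IsUnramifiedOutside S) : E.IsUnramifiedOutside S :=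
  IntermediateField.IsUnramifiedOutside.of_le hle hE'

include hpS in
lemma isUnramifiedOutside_hne {E E' : IntermediateField ℚ Qb} (h : E ≤ E')
    (_ : E'.IsUnramifiedOutside S) :
    ∃ q ∈ (↑S : Set Nat.Primes), Nonempty (LocalEmb ((q : Nat.Primes) : ℕ) (layer h)) :=
  IdeleDict.exists_localEmb_layer h ⟨⟨p, hp.out⟩, hpS⟩

omit hp in
lemma isUnramifiedOutside_hunr {E E' : IntermediateField ℚ Qb} (h : E ≤ E')
    (hE' : E'.IsUnramifiedOutside S) [Normal E (layer h)]
    (H : Subgroup (layer h ≃ₐ[E] layer h)) (q : Nat.Primes) (hq : q ∉ (↑S : Set Nat.Primes)) :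
    H1TrivialOn H (semiLocalIntegral (q : ℕ) (layer h)) ∧
      H2TrivialOn H (semiLocalIntegral (q : ℕ) (layer h)) :=
  IdeleDict.h1h2TrivialOn_of_isUnramifiedOutside h hE' H q (fun hqS => hq hqS)

/-- **The invariant system of the idele class groups on the fields unramified outside `S`.** -/
noncomputable def classInvSystemQS :
    PLayerInvSystem (classCoeff ℚ Qb) (fun E => E.IsUnramifiedOutside S) p :=
  padicClassInvSystem hp2 hrecip (fun E => E.IsUnramifiedOutside S)
    (fun hE => isUnramifiedOutside_hfd S hE) (isUnramifiedOutside_hAdm S hpS)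

/-- **[S-SYS] The `p`-primary invariant system of the `S`-idele class groups** of the finite
subfields of `ℚ_S` (`p ∈ S` odd): the final invariant system of the global contract. -/
noncomputable def sClassInvSystemQ :
    PLayerInvSystem (sClassCoeff ℚ Qb (↑S : Set Nat.Primes)) (fun E => E.IsUnramifiedOutside S) p :=
  sClassInvSystem (↑S : Set Nat.Primes) (classInvSystemQS S hp2 hpS hrecip)
    (fun hle hE' => isUnramifiedOutside_adm_mono S hle hE')
    (fun h hE' => isUnramifiedOutside_hne S hpS h hE')
    (fun h hE' _ H q hq => isUnramifiedOutside_hunr S h hE' H q hq)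

variable {E E' : IntermediateField ℚ Qb}

/-- The invariant of the image in `H²(C_S)` of a class of `H²(C)`. -/
theorem sClassInvSystemQ_inv_classS (h : E ≤ E') (hE' : E'.IsUnramifiedOutside S)
    [Normal E (layer h)] (x : groupCohomology ((classCoeff ℚ Qb).M h) 2) :
    (sClassInvSystemQ S hp2 hpS hrecip).inv h
        ((classToClassSLayer (↑S : Set Nat.Primes) h 2).hom x) =
      (classInvSystemQS S hp2 hpS hrecip).inv h x :=
  sClassInvSystem_inv_classS (↑S : Set Nat.Primes) (classInvSystemQS S hp2 hpS hrecip)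
    (fun hle hE' => isUnramifiedOutside_adm_mono S hle hE')
    (fun h hE' => isUnramifiedOutside_hne S hpS h hE')
    (fun h hE' _ H q hq => isUnramifiedOutside_hunr S h hE' H q hq) h hE' x

/-- **Local–global formula for `C_S`**: the invariant of the image in `H²(Gal(E'/E), C_S(E'))` of
a `p`-power torsion class `z ∈ H²(Gal(E'/E), J_{E'})` is the sum of the local invariants of `z`. -/
theorem sClassInvSystemQ_inv_idele (h : E ≤ E') (hE' : E'.IsUnramifiedOutside S)
    [Normal E (layer h)] [NumberField E] (z : groupCohomology ((ideleCoeff ℚ Qb).M h) 2)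
    (hz : ∃ n : ℕ, p ^ n • z = 0) :
    (sClassInvSystemQ S hp2 hpS hrecip).inv h
        ((classToClassSLayer (↑S : Set Nat.Primes) h 2).hom ((ideleToClassLayer h 2).hom z)) =
      invJFun padicLocalInvFamily E z := by
  haveI := hE'.1
  rw [sClassInvSystemQ_inv_classS S hp2 hpS hrecip h hE']
  exact padicClassInvSystem_inv_ideleToClassLayer hp2 hrecip (fun E => E.IsUnramifiedOutside S)
    (fun hE => isUnramifiedOutside_hfd S hE) (isUnramifiedOutside_hAdm S hpS) h z hz

/-- The invariant on `H²(C)` is injective on `p`-power torsion classes (finite normal layers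
inside `ℚ_S`). -/
theorem classInvSystemQS_eq_zero_of_inv_eq_zero (h : E ≤ E') (hE' : E'.IsUnramifiedOutside S)
    [Normal E (layer h)] (x : groupCohomology ((classCoeff ℚ Qb).M h) 2)
    (hx : ∃ n : ℕ, p ^ n • x = 0) (h0 : (classInvSystemQS S hp2 hpS hrecip).inv h x = 0) :
    x = 0 :=
  (classInvSystemQS S hp2 hpS hrecip).eq_zero_of_inv_eq_zero h hE' x hx h0

end System

end Fermat.Agent.CFT
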