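/-
S55 / C7 [G4-LAYER-b]: **the hard half of the global existence theorem mod `p` for the Kummer layer
of the `T`-units, with the invariant of the class formation plugged in.**

`invM := (padicClassInvSystem hp2 hrecip Adm hfd hAdm).inv h` (helper6; for every `Adm`, e.g. the
`classInvSystemQS S …` underlying `sClassInvSystemQ`) on the Kummer layer
`h = le_sUnitTop pp E T₀ : E ≤ E(U_T^{1/p})` of `Global/ExistenceLayer.lean`.  The layer need not be
admissible: the invariant of `classPLayerInvSystem` is the total invariant `classInvTotal` of every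
finite normal layer, which is injective on `p`-primary classes and satisfies the local–global
formula.

* `padicClassInvSystem_inv_eq_zero` : `p`-primary injectivity on every finite normal layer;
* `exists_pow_eq_mk_of_forall_unramChars_padic` : `(E)`-hard for the Kummer layer with this `invM`;
  the only hypotheses left are the reciprocity law `hrecip` (inside the invariant system) and the
  orthogonality `hx` of the idele `x` to the characters of `Gal(M_T/E)` unramified outside `S`;
* `exists_pow_eq_mk_of_forall_unramChars_QS` : the same for `classInvSystemQS S hp2 hpS hrecip`.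
-/
import Fermat.Agent.CFT.Global.ExistenceLayer
import Fermat.Agent.CFT.Global.SClassInvSystemQ

set_option autoImplicit false
set_option linter.style.haveILetI false
set_option linter.unusedSectionVars false
set_option maxSynthPendingDepth 2

open CategoryTheory groupCohomology IntermediateField

noncomputable section

namespace Fermat.Agent.CFT

open GaloisTower LayerMaps

namespace KummerLayer

local notation "Qb" => AlgebraicClosure ℚ

open NumberField IsDedekindDomain IdeleDict

section Padic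

variable {p : ℕ} [hp : Fact p.Prime] (hp2 : p ≠ 2)
  (hrecip : ∀ {E E' : IntermediateField ℚ Qb} (h : E ≤ E')
    [FiniteDimensional ℚ E'] [NumberField E] [NumberField (layer h)] [Normal E (layer h)]
    (hP : PrincipalIsIdele (layer h))
    (u : groupCohomology (Rep.ofAlgebraAutOnUnits E (layer h)) 2),
    (∃ n : ℕ, p ^ n • u = 0) →
      invJFun padicLocalInvFamily E ((layerH2f h hP).hom u) = 0)
  (Adm : IntermediateField ℚ Qb → Prop)
  (hfd : ∀ {E : IntermediateField ℚ Qb}, Adm E → FiniteDimensional ℚ E)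
  (hAdm : ∀ (E C : IntermediateField ℚ Qb) (m : ℕ), Adm E → E ≤ C →
    C ≤ E ⊔ adjoin ℚ {x : Qb | x ^ (p ^ m) = 1} → Adm C)

variable {E E' : IntermediateField ℚ Qb}

/-- **(INJ-p) on every finite normal layer** (admissible or not): the invariant of
`padicClassInvSystem` is injective on `p`-power torsion classes. -/
theorem padicClassInvSystem_inv_eq_zero (h : E ≤ E') [FiniteDimensional ℚ E']
    [Normal E (layer h)] (x : groupCohomology (ideleClassRep (layer h) (LayerGal h)) 2)
    (hx : ∃ n : ℕ, p ^ n • x = 0)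
    (h0 : (padicClassInvSystem hp2 hrecip Adm hfd hAdm).inv h x = 0) : x = 0 :=
  IdeleInvSystem.eq_zero_of_classInvTotal_eq_zero _ _ h x hx h0


variable (E)

/-- **(E)-hard for the Kummer layer with the class-formation invariant** (`[G4-LAYER-b]`):
`E ∋ ζ_p` a number field inside `ℚ̄`, `T₀ ⊇ S ∪ {p}` a finite set of rational primes whose primes
in `E` generate the class group, `h : E ≤ M_T = E(U_T^{1/p})` the Kummer layer of the `T`-units.
An idele `x` of `E` whose symbols `inv_h ([x] ∪ δχ)` vanish for all characters `χ` of `Gal(M_T/E)`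
unramified outside `S` is a `p`-th power in `C_S(E)`. -/
theorem exists_pow_eq_mk_of_forall_unramChars_padic [NumberField (↥E)] {ζ : ↥E}
    (hζ : IsPrimitiveRoot ζ p) (S : Set Nat.Primes) (T₀ : Finset Nat.Primes)
    (hST : S ⊆ (T₀ : Set Nat.Primes)) (hpT : (⟨p, hp.out⟩ : Nat.Primes) ∈ T₀)
    (hgen : GeneratesClassGroup (↥E) (primesOver (↥E) (T₀ : Set Nat.Primes)))
    [NumberField (layer (le_sUnitTop ⟨p, hp.out⟩ E T₀))]
    [IsGalois (↥E) (layer (le_sUnitTop ⟨p, hp.out⟩ E T₀))]
    (x : ideleGroup (↥E))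
    (hx : ∀ χ ∈ ExistenceLocal.unramCharsOutside (↥E)
        (layer (le_sUnitTop ⟨p, hp.out⟩ E T₀)) p S,
      (padicClassInvSystem hp2 hrecip Adm hfd hAdm).inv (le_sUnitTop ⟨p, hp.out⟩ E T₀)
        (symClass _ χ
          (ExistenceModP.ideleClassOfBase (↥E) (layer (le_sUnitTop ⟨p, hp.out⟩ E T₀)) x)
          (ExistenceModP.isInv_ideleClassOfBase (↥E)
            (layer (le_sUnitTop ⟨p, hp.out⟩ E T₀)) x)) = 0) :
    ∃ y : ideleClassS (↥E) S, y ^ p = (QuotientGroup.mk x : ideleClassS (↥E) S) := by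
  have hp2' : 2 < ((⟨p, hp.out⟩ : Nat.Primes) : ℕ) :=
    lt_of_le_of_ne hp.out.two_le (Ne.symm hp2)
  haveI : Algebra.IsAlgebraic ℚ Qb := (AlgebraicClosure.instIsAlgClosure ℚ).isAlgebraic
  haveI : FiniteDimensional ℚ (sUnitTop ⟨p, hp.out⟩ E T₀) :=
    finiteDimensional_sUnitTop ⟨p, hp.out⟩ E hζ T₀
  refine exists_pow_eq_mk_of_forall_unramChars_sUnitTop ⟨p, hp.out⟩ hp2' E hζ S T₀ hST hpT hgen
    padicLocalInvFamily padicLocalInvFamily_isConjInvariant
    ((padicClassInvSystem hp2 hrecip Adm hfd hAdm).inv (le_sUnitTop ⟨p, hp.out⟩ E T₀))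
    ?_ ?_ x hx
  · intro z hz
    exact padicClassInvSystem_inv_ideleToClassLayer hp2 hrecip Adm hfd hAdm
      (le_sUnitTop ⟨p, hp.out⟩ E T₀) z ⟨1, by rw [pow_one]; exact hz⟩
  · intro c hc h0
    exact padicClassInvSystem_inv_eq_zero hp2 hrecip Adm hfd hAdm
      (le_sUnitTop ⟨p, hp.out⟩ E T₀) c ⟨1, by rw [pow_one]; exact hc⟩ h0


/-- **(E)-hard, packaged**: over every number field `E ∋ ζ_p` inside `ℚ̄` and for every finite set
`S` of primes there is a finite Galois layer `hT : E ≤ M` (the Kummer layer of the `T`-units,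
`T ⊇ S ∪ {p}` generating the class group) such that every idele `x` of `E` whose symbols
`inv_{hT} ([x] ∪ δχ)` vanish for all characters `χ` of `Gal(M/E)` unramified outside `S` is a
`p`-th power in `C_S(E)`. -/
theorem exists_layer_forall_pow_eq_mk [NumberField (↥E)] {ζ : ↥E} (hζ : IsPrimitiveRoot ζ p)
    (S : Set Nat.Primes) (hS : S.Finite) :
    ∃ (M : IntermediateField ℚ Qb) (hT : E ≤ M) (_ : FiniteDimensional ℚ M)
      (_ : NumberField (layer hT)) (_ : IsGalois (↥E) (layer hT)),
      (∃ k : ℕ, Nat.card (LayerGal hT) = p ^ k) ∧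
      ∀ x : ideleGroup (↥E),
        (∀ χ ∈ ExistenceLocal.unramCharsOutside (↥E) (layer hT) p S,
          (padicClassInvSystem hp2 hrecip Adm hfd hAdm).inv hT
            (symClass _ χ (ExistenceModP.ideleClassOfBase (↥E) (layer hT) x)
              (ExistenceModP.isInv_ideleClassOfBase (↥E) (layer hT) x)) = 0) →
        ∃ y : ideleClassS (↥E) S, y ^ p = (QuotientGroup.mk x : ideleClassS (↥E) S) := by
  haveI : Algebra.IsAlgebraic ℚ Qb := (AlgebraicClosure.instIsAlgClosure ℚ).isAlgebraic
  obtain ⟨T₀, hST, hpT, hgen⟩ := exists_finset_generates ⟨p, hp.out⟩ E S hS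
  haveI := numberField_layer_sUnitTop ⟨p, hp.out⟩ E hζ T₀
  haveI := isGalois_layer_sUnitTop ⟨p, hp.out⟩ E hζ T₀
  exact ⟨sUnitTop ⟨p, hp.out⟩ E T₀, le_sUnitTop ⟨p, hp.out⟩ E T₀,
    finiteDimensional_sUnitTop ⟨p, hp.out⟩ E hζ T₀, inferInstance, inferInstance,
    ⟨_, natCard_layerGal_sUnitTop ⟨p, hp.out⟩ E hζ T₀⟩,
    fun x hx => exists_pow_eq_mk_of_forall_unramChars_padic hp2 hrecip Adm hfd hAdm E hζ S T₀
      hST hpT hgen x hx⟩

end Padic

section QS

variable (S : Finset Nat.Primes) {p : ℕ} [hp : Fact p.Prime] (hp2 : p ≠ 2)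
  (hpS : (⟨p, hp.out⟩ : Nat.Primes) ∈ S)
  (hrecip : ∀ {E E' : IntermediateField ℚ Qb} (h : E ≤ E')
    [FiniteDimensional ℚ E'] [NumberField E] [NumberField (layer h)] [Normal E (layer h)]
    (hP : PrincipalIsIdele (layer h))
    (u : groupCohomology (Rep.ofAlgebraAutOnUnits E (layer h)) 2),
    (∃ n : ℕ, p ^ n • u = 0) →
      invJFun padicLocalInvFamily E ((layerH2f h hP).hom u) = 0)
  (E : IntermediateField ℚ Qb)

/-- **(E)-hard, packaged, for the invariant system `classInvSystemQS`** underlying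
`sClassInvSystemQ` (`Global/SClassInvSystemQ.lean`). -/
theorem exists_layer_forall_pow_eq_mk_QS [NumberField (↥E)] {ζ : ↥E}
    (hζ : IsPrimitiveRoot ζ p) :
    ∃ (M : IntermediateField ℚ Qb) (hT : E ≤ M) (_ : FiniteDimensional ℚ M)
      (_ : NumberField (layer hT)) (_ : IsGalois (↥E) (layer hT)),
      (∃ k : ℕ, Nat.card (LayerGal hT) = p ^ k) ∧
      ∀ x : ideleGroup (↥E),
        (∀ χ ∈ ExistenceLocal.unramCharsOutside (↥E) (layer hT) p (↑S : Set Nat.Primes),
          (classInvSystemQS S hp2 hpS hrecip).inv hT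
            (symClass _ χ (ExistenceModP.ideleClassOfBase (↥E) (layer hT) x)
              (ExistenceModP.isInv_ideleClassOfBase (↥E) (layer hT) x)) = 0) →
        ∃ y : ideleClassS (↥E) (↑S : Set Nat.Primes),
          y ^ p = (QuotientGroup.mk x : ideleClassS (↥E) (↑S : Set Nat.Primes)) :=
  exists_layer_forall_pow_eq_mk hp2 hrecip (fun E => E.IsUnramifiedOutside S)
    (fun hE => isUnramifiedOutside_hfd S hE) (isUnramifiedOutside_hAdm S hpS) E hζ
    (↑S : Set Nat.Primes) S.finite_toSet

end QS

end KummerLayer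

end Fermat.Agent.CFT
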