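/-
S55 / C9 [G4-HARD-Q]: **the hard half `hhard` of the global existence theorem mod `p` for the
dictionary `csFullDictQ` and the invariant system `sClassInvSystemQ`** (final plug over `ℚ`).

`hhard_csFullDictQ` is `ExistenceHard.hhard_of_nodes` (helper5) with
* `hdict`  := `PT.csFullDictQ_hard_dict` (helper20),
* `Icl`    := `classInvSystemFD` = `padicClassInvSystem` for `AdmC := (FiniteDimensional ℚ ·)`,
* `hspec`  := `sClassInvSystemQ_inv_classS` (helper6/helper12) + the definitional independence of
              the invariant of `padicClassInvSystem` of the admissibility predicate,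
* `hL`     := `KummerLayer.exists_layer_forall_pow_eq_mk` (`Global/ExistenceLayerInv.lean`),
* `hfield` := the field-theoretic node [G4-INFL-FIELD], kept as a named hypothesis.
-/
import Fermat.Agent.CFT.Global.ExistenceHard
import Fermat.Agent.CFT.Global.ExistenceLayerInv
import Fermat.Agent.CFT.PT.CSFullHardDictQ

set_option autoImplicit false
set_option linter.style.haveILetI false
set_option linter.unusedSectionVars false
set_option maxSynthPendingDepth 2

open CategoryTheory groupCohomology IntermediateField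

noncomputable section

namespace Fermat.Agent.CFT

open GaloisTower LayerMaps LCSym Fermat.Agent.S55

namespace ExistenceHardQ

local notation "Qb" => AlgebraicClosure ℚ

section FD

variable {p : ℕ} [hp : Fact p.Prime]

/-- `hAdm` for `AdmC := (FiniteDimensional ℚ ·)`: subfields of `E(μ_{p^m})` are finite over `ℚ`. -/
theorem finiteDimensional_of_le_cyclo (E C : IntermediateField ℚ Qb) (m : ℕ)
    (hE : FiniteDimensional ℚ E) (_ : E ≤ C)
    (hC : C ≤ E ⊔ adjoin ℚ {x : Qb | x ^ (p ^ m) = 1}) : FiniteDimensional ℚ C := by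
  haveI : Finite {x : Qb | x ^ (p ^ m) = 1} :=
    (finite_setOf_pow_eq_one (pow_ne_zero m hp.out.ne_zero)).to_subtype
  haveI : FiniteDimensional ℚ (adjoin ℚ {x : Qb | x ^ (p ^ m) = 1}) :=
    IntermediateField.finiteDimensional_adjoin fun x _ =>
      ((AlgebraicClosure.instIsAlgClosure ℚ).isAlgebraic.isAlgebraic x).isIntegral
  haveI : FiniteDimensional ℚ (E ⊔ adjoin ℚ {x : Qb | x ^ (p ^ m) = 1} :
      IntermediateField ℚ Qb) := IntermediateField.finiteDimensional_sup _ _
  exact IdeleInvSystem.finiteDimensional_of_le_of_fd hC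

end FD

section System

open PT

variable (S : Finset Nat.Primes) (hS : S.Nonempty) {p : ℕ} [hp : Fact p.Prime] (hp2 : p ≠ 2)
  (hpS : (⟨p, hp.out⟩ : Nat.Primes) ∈ S)
  (hrecip : ∀ {E E' : IntermediateField ℚ Qb} (h : E ≤ E')
    [FiniteDimensional ℚ E'] [NumberField E] [NumberField (layer h)] [Normal E (layer h)]
    (hP : PrincipalIsIdele (layer h))
    (u : groupCohomology (Rep.ofAlgebraAutOnUnits E (layer h)) 2),
    (∃ n : ℕ, p ^ n • u = 0) →
      invJFun padicLocalInvFamily E ((layerH2f h hP).hom u) = 0)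

/-- The invariant system of the idele class groups of ALL finite layers of `ℚ̄/ℚ`
(`AdmC := (FiniteDimensional ℚ ·)`): the Kummer field of the `T`-units is admissible for it. -/
def classInvSystemFD :
    PLayerInvSystem (classCoeff ℚ Qb) (fun E => FiniteDimensional ℚ E) p :=
  padicClassInvSystem hp2 hrecip (fun E => FiniteDimensional ℚ E) (fun hE => hE)
    (fun E C m hE hEC hC => finiteDimensional_of_le_cyclo E C m hE hEC hC)

/-- **[S-SYS spec]** in the shape of `ExistenceHard.hhard_of_nodes`: on layers unramified outside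
`S` the invariant of `C_S` composed with `C → C_S` is the invariant of `C`. -/
theorem sClassInvSystemQ_inv_classS_FD {E E' : IntermediateField ℚ Qb} (h : E ≤ E')
    (hE' : E'.IsUnramifiedOutside S) [Normal E (layer h)]
    (c : groupCohomology ((classCoeff ℚ Qb).M h) 2) :
    (sClassInvSystemQ S hp2 hpS hrecip).inv h
        ((classToClassSLayer (↑S : Set Nat.Primes) h 2).hom c) =
      (classInvSystemFD hp2 hrecip).inv h c :=
  sClassInvSystemQ_inv_classS S hp2 hpS hrecip h hE' c

/-- **(G4-HARD) over `ℚ`**: `hhard` of `CoeffDict.perfect_of_layers` /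
`GlobalBase.csFull_isPerfect` for the dictionary `csFullDictQ S hS F hF` of a field `F ∋ ζ_p`
unramified outside `S` and the invariant system `sClassInvSystemQ`.  The only remaining input is
the field-theoretic node `hfield` ([G4-INFL-FIELD]). -/
theorem hhard_csFullDictQ (F : IntermediateField ℚ Qb) (hF : AdmS S F) [NumberField ↥F]
    {ζ : ↥F} (hζ : IsPrimitiveRoot ζ p)
    (hfield : ∀ {M : IntermediateField ℚ Qb} (hT : F ≤ M) [NumberField ↥(layer hT)]
      [IsGalois ↥F ↥(layer hT)], FiniteDimensional ℚ M →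
      ∀ χ ∈ ExistenceLocal.unramCharsOutside ↥F ↥(layer hT) p (↑S : Set Nat.Primes),
        ∃ (Lχ : IntermediateField ℚ Qb) (h1 : F ≤ Lχ) (h2 : Lχ ≤ M) (_ : Normal F (layer h1)),
          AdmS S Lχ ∧ ∃ χ' : (layer h1 ≃ₐ[F] layer h1) →* Multiplicative (ZMod p),
            χ = χ'.comp (ExistenceHard.layerGalRes h1 h2))
    (a : csFullTowerRep (globalLevel S) (↑S : Set Nat.Primes) F)
    (ha : IsInv (csFullTowerRep (globalLevel S) (↑S : Set Nat.Primes) F) a)
    (H : ∀ (l : ((globalLevel S).comap F.fixingSubgroup.subtype).Level)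
      (χ : (layer ((csFullDictQ S hS F hF).le_top l) ≃ₐ[F]
        layer ((csFullDictQ S hS F hF).le_top l)) →* Multiplicative (ZMod p)),
      (sClassInvSystemQ S hp2 hpS hrecip).inv ((csFullDictQ S hS F hF).le_top l)
        (symClass ((sClassCoeff ℚ Qb (↑S : Set Nat.Primes)).M ((csFullDictQ S hS F hF).le_top l)) χ
          ((csFullDictQ S hS F hF).levelInv l a ha)
          ((csFullDictQ S hS F hF).isInv_levelInv l a ha)) = 0) :
    ∃ b : csFullTowerRep (globalLevel S) (↑S : Set Nat.Primes) F,
      IsInv (csFullTowerRep (globalLevel S) (↑S : Set Nat.Primes) F) b ∧ a = p • b := by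
  haveI : NeZero p := ⟨hp.out.ne_zero⟩
  refine ExistenceHard.hhard_of_nodes (↑S : Set Nat.Primes) (csFullDictQ S hS F hF)
    (sClassInvSystemQ S hp2 hpS hrecip) (classInvSystemFD hp2 hrecip)
    (fun a ha => csFullDictQ_hard_dict S hS p F hF a ha)
    (fun E hE => hE.1)
    (fun h hE' _ c _ => sClassInvSystemQ_inv_classS_FD S hp2 hpS hrecip h hE' c)
    hfield ?_ a ha H
  obtain ⟨M, hT, hfdM, hnf, hgal, -, hmain⟩ :=
    KummerLayer.exists_layer_forall_pow_eq_mk hp2 hrecip (fun E => FiniteDimensional ℚ E)
      (fun hE => hE) (fun E C m hE hEC hC => finiteDimensional_of_le_cyclo E C m hE hEC hC)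
      F hζ (↑S : Set Nat.Primes) S.finite_toSet
  exact ⟨M, hT, hfdM, hnf, hgal, hmain⟩

end System

end ExistenceHardQ

end Fermat.Agent.CFT
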