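import Mathlib
import Fermat.Agent.CFT.LayerMaps

/-!
# Layer C / C7 [G4-INFL] (α): the fixed field of a subgroup of `Gal(M/F)` inside the tower

`k ⊆ Ω` fields, `F ≤ M` intermediate fields with `M/F` finite Galois (`layer hT`), `H` a subgroup
of `Gal(M/F) = layer hT ≃ₐ[F] layer hT`.

* `fixedLayer hT H : IntermediateField k Ω`: the subfield of `M` fixed by `H`;
  `le_fixedLayer : F ≤ fixedLayer hT H`, `fixedLayer_le : fixedLayer hT H ≤ M`;
* `normal_layer_fixedLayer`: the layer `fixedLayer/F` is normal if `H` is a normal subgroup;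
* `fixedLayerRes hT H : Gal(M/F) →* Gal(fixedLayer/F)`: restriction, surjective, with kernel `H`
  (`fixedLayerRes_surjective`, `ker_fixedLayerRes`), characterised by `fixedLayerRes_apply_coe`,
  and equal to `galRes` for the inclusion algebra structure `algTop` (`fixedLayerRes_eq_galRes`);
* characters: for `χ : Gal(M/F) →* A` there is a unique injective
  `χ' : Gal(fixedLayer hT χ.ker / F) →* A` with `χ'.comp (fixedLayerRes hT χ.ker) = χ`
  (`exists_char_fixedLayer`); for `A = Multiplicative (ZMod p)`, `p` prime and `χ ≠ 1` the layer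
  is cyclic of degree `p` (`card_gal_fixedLayer_ker`, `finrank_fixedLayer_ker`).
-/

set_option autoImplicit false
set_option linter.unusedSectionVars false
set_option linter.style.haveILetI false

open IntermediateField

noncomputable section

namespace Fermat.Agent.CFT.LayerFixed

open Fermat.Agent.CFT.GaloisTower Fermat.Agent.CFT.LayerMaps

variable {k Ω : Type} [Field k] [Field Ω] [Algebra k Ω]
variable {F M : IntermediateField k Ω} (hT : F ≤ M)

/-- The subfield of `M` fixed by `H ≤ Gal(M/F)`, as an intermediate field of `Ω/k`. -/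
def fixedLayer (H : Subgroup (layer hT ≃ₐ[F] layer hT)) : IntermediateField k Ω :=
  (IntermediateField.lift (IntermediateField.fixedField H)).restrictScalars k

variable {hT}

theorem mem_fixedLayer {H : Subgroup (layer hT ≃ₐ[F] layer hT)} {x : Ω} :
    x ∈ fixedLayer hT H ↔ ∃ hx : x ∈ M, ∀ σ ∈ H, σ (⟨x, hx⟩ : layer hT) = ⟨x, hx⟩ := by
  unfold fixedLayer
  rw [IntermediateField.mem_restrictScalars, IntermediateField.lift, IntermediateField.mem_map]
  constructor
  · rintro ⟨y, hy, rfl⟩
    refine ⟨y.2, fun σ hσ => ?_⟩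
    exact (IntermediateField.mem_fixedField_iff H y).1 hy σ hσ
  · rintro ⟨hx, h⟩
    exact ⟨⟨x, hx⟩, (IntermediateField.mem_fixedField_iff H _).2 h, rfl⟩

variable (hT)

theorem le_fixedLayer (H : Subgroup (layer hT ≃ₐ[F] layer hT)) : F ≤ fixedLayer hT H := by
  intro x hx
  rw [mem_fixedLayer]
  refine ⟨hT hx, fun σ _ => ?_⟩
  exact σ.commutes (⟨x, hx⟩ : F)

theorem fixedLayer_le (H : Subgroup (layer hT ≃ₐ[F] layer hT)) : fixedLayer hT H ≤ M := by
  intro x hx
  obtain ⟨hxM, -⟩ := mem_fixedLayer.1 hx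
  exact hxM

theorem fixedLayer_mono {H H' : Subgroup (layer hT ≃ₐ[F] layer hT)} (h : H ≤ H') :
    fixedLayer hT H' ≤ fixedLayer hT H := by
  intro x hx
  obtain ⟨hxM, hfix⟩ := mem_fixedLayer.1 hx
  exact mem_fixedLayer.2 ⟨hxM, fun σ hσ => hfix σ (h hσ)⟩

/-- The identification of the abstract fixed field with the layer `fixedLayer/F`. -/
def fixedLayerEquiv (H : Subgroup (layer hT ≃ₐ[F] layer hT)) :
    ↥(IntermediateField.fixedField H) ≃ₐ[F] ↥(layer (le_fixedLayer hT H)) :=
  AlgEquiv.ofBijective
    (AlgHom.codRestrict ((layer hT).val.comp (IntermediateField.fixedField H).val)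
      (layer (le_fixedLayer hT H)).toSubalgebra (fun y => by
        show ((y : layer hT) : Ω) ∈ fixedLayer hT H
        exact mem_fixedLayer.2 ⟨(y : layer hT).2, fun σ hσ =>
          (IntermediateField.mem_fixedField_iff H _).1 y.2 σ hσ⟩))
    (by
      constructor
      · exact RingHom.injective _
      · rintro ⟨x, hx⟩
        obtain ⟨hxM, hfix⟩ := mem_fixedLayer.1 (show x ∈ fixedLayer hT H from hx)
        exact ⟨⟨⟨x, hxM⟩, (IntermediateField.mem_fixedField_iff H _).2 hfix⟩, rfl⟩)

theorem fixedLayerEquiv_apply_coe (H : Subgroup (layer hT ≃ₐ[F] layer hT))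
    (y : IntermediateField.fixedField H) :
    ((fixedLayerEquiv hT H y : layer (le_fixedLayer hT H)) : Ω) = ((y : layer hT) : Ω) := rfl

/-- The layer `fixedLayer/F` is normal when `H` is a normal subgroup (and `M/F` is finite Galois). -/
theorem normal_layer_fixedLayer [FiniteDimensional F (layer hT)] [IsGalois F (layer hT)]
    (H : Subgroup (layer hT ≃ₐ[F] layer hT)) [H.Normal] :
    Normal F (layer (le_fixedLayer hT H)) := by
  haveI : IsGalois F (IntermediateField.fixedField H) :=
    IsGalois.of_fixedField_normal_subgroup H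
  exact Normal.of_algEquiv (fixedLayerEquiv hT H)

theorem finiteDimensional_layer_fixedLayer [FiniteDimensional F (layer hT)]
    (H : Subgroup (layer hT ≃ₐ[F] layer hT)) :
    FiniteDimensional F (layer (le_fixedLayer hT H)) :=
  (fixedLayerEquiv hT H).toLinearEquiv.finiteDimensional

/-- The inclusion algebra structure `fixedLayer → M` of the layers is a scalar tower over `F`. -/
theorem isScalarTower_fixedLayer (H : Subgroup (layer hT ≃ₐ[F] layer hT)) :
    letI := algTop (le_fixedLayer hT H) hT (fixedLayer_le hT H)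
    IsScalarTower F (layer (le_fixedLayer hT H)) (layer hT) := by
  letI := algTop (le_fixedLayer hT H) hT (fixedLayer_le hT H)
  exact IsScalarTower.of_algebraMap_eq fun _ => rfl

/-- Restriction `Gal(M/F) → Gal(fixedLayer/F)`. -/
def fixedLayerRes (H : Subgroup (layer hT ≃ₐ[F] layer hT))
    [Normal F (layer (le_fixedLayer hT H))] :
    (layer hT ≃ₐ[F] layer hT) →* (layer (le_fixedLayer hT H) ≃ₐ[F] layer (le_fixedLayer hT H)) :=
  letI := algTop (le_fixedLayer hT H) hT (fixedLayer_le hT H)
  haveI := isScalarTower_fixedLayer hT H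
  AlgEquiv.restrictNormalHom (layer (le_fixedLayer hT H))

theorem fixedLayerRes_apply_coe (H : Subgroup (layer hT ≃ₐ[F] layer hT))
    [Normal F (layer (le_fixedLayer hT H))] (σ : layer hT ≃ₐ[F] layer hT)
    (y : layer (le_fixedLayer hT H)) :
    ((fixedLayerRes hT H σ y : layer (le_fixedLayer hT H)) : Ω) =
      ((σ ⟨(y : Ω), fixedLayer_le hT H y.2⟩ : layer hT) : Ω) := by
  letI := algTop (le_fixedLayer hT H) hT (fixedLayer_le hT H)
  haveI := isScalarTower_fixedLayer hT H
  exact congrArg (fun z : layer hT => (z : Ω))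
    (AlgEquiv.restrictNormal_commutes σ (layer (le_fixedLayer hT H)) y)

/-- `fixedLayerRes` is `galRes` for the inclusion algebra structure. -/
theorem fixedLayerRes_eq_galRes (H : Subgroup (layer hT ≃ₐ[F] layer hT))
    [Normal F (layer (le_fixedLayer hT H))] :
    letI := algTop (le_fixedLayer hT H) hT (fixedLayer_le hT H)
    haveI := isScalarTower_fixedLayer hT H
    fixedLayerRes hT H = galRes F (layer (le_fixedLayer hT H)) F (layer hT) := by
  letI := algTop (le_fixedLayer hT H) hT (fixedLayer_le hT H)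
  haveI := isScalarTower_fixedLayer hT H
  ext σ : 1
  exact (galRes_infl_apply F (layer (le_fixedLayer hT H)) (layer hT) σ).symm

theorem fixedLayerRes_surjective [Normal F (layer hT)] (H : Subgroup (layer hT ≃ₐ[F] layer hT))
    [Normal F (layer (le_fixedLayer hT H))] : Function.Surjective (fixedLayerRes hT H) := by
  letI := algTop (le_fixedLayer hT H) hT (fixedLayer_le hT H)
  haveI := isScalarTower_fixedLayer hT H
  exact AlgEquiv.restrictNormalHom_surjective (F := F) (K₁ := layer (le_fixedLayer hT H))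
    (layer hT)

theorem mem_ker_fixedLayerRes_iff (H : Subgroup (layer hT ≃ₐ[F] layer hT))
    [Normal F (layer (le_fixedLayer hT H))] (σ : layer hT ≃ₐ[F] layer hT) :
    σ ∈ (fixedLayerRes hT H).ker ↔ σ ∈ (IntermediateField.fixedField H).fixingSubgroup := by
  rw [MonoidHom.mem_ker, IntermediateField.mem_fixingSubgroup_iff]
  constructor
  · intro hσ y hy
    have h1 := fixedLayerRes_apply_coe hT H σ (fixedLayerEquiv hT H ⟨y, hy⟩)
    rw [hσ] at h1
    exact Subtype.ext h1.symm
  · intro hσ
    ext y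
    rw [fixedLayerRes_apply_coe]
    obtain ⟨hyM, hfix⟩ := mem_fixedLayer.1 (show (y : Ω) ∈ fixedLayer hT H from y.2)
    exact congrArg (fun z : layer hT => (z : Ω))
      (hσ ⟨(y : Ω), hyM⟩ ((IntermediateField.mem_fixedField_iff H _).2 hfix))

/-- **Galois correspondence**: the kernel of the restriction is `H`. -/
theorem ker_fixedLayerRes [FiniteDimensional F (layer hT)]
    (H : Subgroup (layer hT ≃ₐ[F] layer hT)) [Normal F (layer (le_fixedLayer hT H))] :
    (fixedLayerRes hT H).ker = H := by
  ext σ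
  rw [mem_ker_fixedLayerRes_iff, IntermediateField.fixingSubgroup_fixedField]

/-- `σ ∈ H` iff `σ` fixes the fixed field of `H` pointwise. -/
theorem mem_iff_forall_fixedLayer [FiniteDimensional F (layer hT)]
    (H : Subgroup (layer hT ≃ₐ[F] layer hT)) (σ : layer hT ≃ₐ[F] layer hT) :
    σ ∈ H ↔ ∀ (y : Ω) (hy : y ∈ fixedLayer hT H),
      σ (⟨y, fixedLayer_le hT H hy⟩ : layer hT) = ⟨y, fixedLayer_le hT H hy⟩ := by
  conv_lhs => rw [← IntermediateField.fixingSubgroup_fixedField H]
  rw [IntermediateField.mem_fixingSubgroup_iff]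
  constructor
  · intro hσ y hy
    obtain ⟨hyM, hfix⟩ := mem_fixedLayer.1 hy
    exact hσ ⟨y, hyM⟩ ((IntermediateField.mem_fixedField_iff H _).2 hfix)
  · intro hσ y hy
    exact hσ (y : Ω) (mem_fixedLayer.2 ⟨y.2, (IntermediateField.mem_fixedField_iff H y).1 hy⟩)

/-- For `σ ∈ Gal(Ω/F)`: the restriction of `σ` to `M` lies in `H` iff `σ` fixes the fixed field of
`H`. -/
theorem layerRes_mem_iff [Normal k Ω] [Normal F (layer hT)] [FiniteDimensional F (layer hT)]
    (H : Subgroup (layer hT ≃ₐ[F] layer hT)) (σ : F.fixingSubgroup) :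
    layerRes hT σ ∈ H ↔ (σ : Ω ≃ₐ[k] Ω) ∈ (fixedLayer hT H).fixingSubgroup := by
  rw [mem_iff_forall_fixedLayer, IntermediateField.mem_fixingSubgroup_iff]
  constructor
  · intro h y hy
    have := congrArg (fun z : layer hT => (z : Ω)) (h y hy)
    rwa [layerRes_apply] at this
  · intro h y hy
    apply Subtype.ext
    rw [layerRes_apply]
    exact h y hy

section Char

variable {A : Type*} [Group A] [FiniteDimensional F (layer hT)] [IsGalois F (layer hT)]

instance normal_layer_fixedLayer_ker (χ : (layer hT ≃ₐ[F] layer hT) →* A) :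
    Normal F (layer (le_fixedLayer hT χ.ker)) :=
  normal_layer_fixedLayer hT χ.ker

/-- **Descent of a character to the fixed field of its kernel.** -/
theorem exists_char_fixedLayer (χ : (layer hT ≃ₐ[F] layer hT) →* A) :
    ∃ χ' : (layer (le_fixedLayer hT χ.ker) ≃ₐ[F] layer (le_fixedLayer hT χ.ker)) →* A,
      χ'.comp (fixedLayerRes hT χ.ker) = χ ∧ Function.Injective χ' := by
  have hr := fixedLayerRes_surjective hT χ.ker
  have hker := ker_fixedLayerRes hT χ.ker
  let χ' : (layer (le_fixedLayer hT χ.ker) ≃ₐ[F] layer (le_fixedLayer hT χ.ker)) →* A :=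
    (fixedLayerRes hT χ.ker).liftOfRightInverse (Function.surjInv hr)
      (Function.rightInverse_surjInv hr) ⟨χ, hker.le⟩
  have hχ'r : χ'.comp (fixedLayerRes hT χ.ker) = χ :=
    MonoidHom.liftOfRightInverse_comp _ _ _ _
  refine ⟨χ', hχ'r, ?_⟩
  rw [injective_iff_map_eq_one]
  intro τ hτ
  obtain ⟨σ, rfl⟩ := hr τ
  have h1 : χ σ = 1 := by
    rw [← hχ'r]
    exact hτ
  have h2 : σ ∈ (fixedLayerRes hT χ.ker).ker := by
    rw [hker]
    exact h1
  exact h2

/-- For a non-trivial character with values in `ZMod p`, the fixed field of the kernel is cyclic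
of degree `p` over `F`. -/
theorem card_gal_fixedLayer_ker {p : ℕ} [hp : Fact p.Prime]
    (χ : (layer hT ≃ₐ[F] layer hT) →* Multiplicative (ZMod p)) (hχ : χ ≠ 1) :
    Nat.card (layer (le_fixedLayer hT χ.ker) ≃ₐ[F] layer (le_fixedLayer hT χ.ker)) = p := by
  obtain ⟨χ', hχ'r, hχ'⟩ := exists_char_fixedLayer hT χ
  have h1 : Nat.card (layer (le_fixedLayer hT χ.ker) ≃ₐ[F] layer (le_fixedLayer hT χ.ker)) =
      Nat.card χ'.range := Nat.card_congr (MonoidHom.ofInjective hχ').toEquiv
  have h2 : Nat.card χ'.range ∣ Nat.card (Multiplicative (ZMod p)) :=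
    Subgroup.card_subgroup_dvd_card _
  have h4 : Nat.card (Multiplicative (ZMod p)) = p := by
    rw [Nat.card_congr (Multiplicative.toAdd (α := ZMod p)), Nat.card_zmod]
  rw [h4] at h2
  rcases (Nat.dvd_prime hp.out).1 h2 with h3 | h3
  · exfalso
    apply hχ
    rw [← hχ'r]
    haveI : Subsingleton
        (layer (le_fixedLayer hT χ.ker) ≃ₐ[F] layer (le_fixedLayer hT χ.ker)) :=
      (Nat.card_eq_one_iff_unique.1 (h1.trans h3)).1
    ext σ
    rw [MonoidHom.comp_apply, Subsingleton.elim (fixedLayerRes hT χ.ker σ) 1, map_one]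
    rfl
  · exact h1.trans h3

theorem finrank_fixedLayer_ker {p : ℕ} [hp : Fact p.Prime]
    (χ : (layer hT ≃ₐ[F] layer hT) →* Multiplicative (ZMod p)) (hχ : χ ≠ 1) :
    Module.finrank F (layer (le_fixedLayer hT χ.ker)) = p := by
  haveI := finiteDimensional_layer_fixedLayer hT χ.ker
  haveI : IsGalois F (layer (le_fixedLayer hT χ.ker)) :=
    { to_isSeparable := Algebra.IsSeparable.of_algHom F (layer hT)
        (letI := algTop (le_fixedLayer hT χ.ker) hT (fixedLayer_le hT χ.ker)
         haveI := isScalarTower_fixedLayer hT χ.ker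
         IsScalarTower.toAlgHom F (layer (le_fixedLayer hT χ.ker)) (layer hT))
      to_normal := inferInstance }
  rw [← IsGalois.card_aut_eq_finrank, card_gal_fixedLayer_ker hT χ hχ]

end Char

end Fermat.Agent.CFT.LayerFixed

end
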