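import Fermat.Agent.CFT.Global.PlaceEmb
import Fermat.Agent.CFT.Global.KummerLocalUnram
import Fermat.Agent.CFT.Global.IdeleDict.UnramBridge
import Fermat.Agent.CFT.Global.IdeleDict.DictVal
import Fermat.Agent.S14.TransCore
import Fermat.Agent.CFT.Global.QS
import Fermat.Agent.CFT.Global.UnramAlmostAll
import Fermat.Agent.CFT.Global.UnramOutsideS

/-!
# [U-BRIDGE], converse half: arithmetically unramified ⟹ the frozen predicate `IsUnramifiedOutside`

`K ⊆ L` number fields, `L/K` Galois, `ι : L → ℚ̄`.  The inertia groups `A.inertiaSubgroupIn ℚ` of the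
valuation subrings `A` of `ℚ̄` (Prelude language) are compared with helper26's inertia groups
`inertiaAt K τ' ≤ Gal(L/K)` of the embeddings `τ' : L → ℚ̄_q` (`Global/KummerLocalUnram.lean`).
-/

set_option autoImplicit false
set_option linter.unusedSectionVars false
set_option linter.style.haveILetI false

open scoped NumberField Pointwise

noncomputable section

namespace Fermat.Agent.CFT

open Fermat.Agent.CFT.GaloisTower Fermat.Agent.CFT.PadicTower IdeleDict IsLocalRing

local notation "Qb" => AlgebraicClosure ℚ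
local notation "GQ" => (AlgebraicClosure ℚ ≃ₐ[ℚ] AlgebraicClosure ℚ)

section Abstract

variable (O K : Type) [CommRing O] [IsDomain O] [IsDiscreteValuationRing O]
  [IsAdicComplete (maximalIdeal O) O] [Finite (ResidueField O)]
  [Field K] [Algebra O K] [IsFractionRing O K] [CharZero K]
  (L : Type) [Field L] [Algebra K L] [FiniteDimensional K L] [Algebra O L] [IsScalarTower O K L]
  [IsLocalRing (integralClosure O L)] [IsLocalHom (algebraMap O (integralClosure O L))]

/-- Membership in the inertia group, without `galRestrict`. -/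
theorem mem_inertiaGal_iff_coe (σ : L ≃ₐ[K] L) :
    σ ∈ inertiaGal O K L ↔ ∀ x m : integralClosure O L, (m : L) = σ (x : L) - (x : L) →
      m ∈ maximalIdeal (integralClosure O L) := by
  rw [mem_inertiaGal_iff]
  have key : ∀ x : integralClosure O L,
      ((galRestrict O K L (integralClosure O L) σ x - x : integralClosure O L) : L) =
        σ (x : L) - (x : L) := by
    intro x
    rw [Subalgebra.coe_sub]
    congr 1
    exact algebraMap_galRestrict_apply O σ x
  constructor
  · intro h x m hm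
    have : m = galRestrict O K L (integralClosure O L) σ x - x :=
      Subtype.ext (hm.trans (key x).symm)
    rw [this]
    exact h x
  · intro h x
    exact h x _ (key x)

end Abstract

section Local

variable {q : ℕ} [Fact q.Prime] (K : Type) [Field K] {L : Type} [Field L] [Algebra K L]
  [NumberField K] [NumberField L] [IsGalois K L]

local notation "Ω" => PadicAlgCl q

/-- The local automorphism attached to an element of the decomposition group preserves the
norm. -/
theorem norm_decompEquiv_symm_apply (τ' : LocalEmb q L) (s : decompAt K τ')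
    (y : localLayer K τ') :
    ‖(((decompEquiv K τ').symm s y : localLayer K τ') : Ω)‖ = ‖(y : Ω)‖ := by
  obtain ⟨_, γ, rfl⟩ := s
  rw [decompEquiv_symm_apply_eq, norm_gq_apply]

/-- An automorphism of `L/K` which moves the `τ'`-integral elements by less than one lies in the
decomposition group of `τ'`. -/
theorem mem_decompAt_of_forall_norm_lt (τ' : LocalEmb q L) (g : L ≃ₐ[K] L)
    (hg : ∀ x : L, ‖τ' x‖ ≤ 1 → ‖τ' (g x) - τ' x‖ < 1) : g ∈ decompAt K τ' := by
  rw [mem_decompAt_iff]
  apply exists_smul_eq_of_primeOf_eq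
  have hmax : (primeOf τ').IsMaximal := (primeOfH τ').isMaximal
  refine hmax.eq_of_le (Ideal.IsPrime.ne_top inferInstance) fun x hx => ?_
  rw [mem_primeOf] at hx ⊢
  have h1 := hg (x : L) hx.le
  have h2 : τ' (g (x : L)) = (τ' (g (x : L)) - τ' (x : L)) + τ' (x : L) := by ring
  show ‖τ' (g (x : L))‖ < 1
  rw [h2]
  exact lt_of_le_of_lt (IsUltrametricDist.norm_add_le_max _ _) (max_lt h1 hx)

/-- **Criterion for the inertia group**: an automorphism of `L/K` which moves the `τ'`-integral
elements of `L` by less than one lies in `inertiaAt K τ'`. -/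
theorem mem_inertiaAt_of_forall_norm_lt (τ' : LocalEmb q L) (g : L ≃ₐ[K] L)
    (hg : ∀ x : L, ‖τ' x‖ ≤ 1 → ‖τ' (g x) - τ' x‖ < 1) : g ∈ inertiaAt K τ' := by
  have hdec := mem_decompAt_of_forall_norm_lt K τ' g hg
  haveI := finiteDimensional_localFieldAt (localEmbRestrict K τ')
  haveI := PadicTower.intRing_isLocalRing q (localFieldAt (localEmbRestrict K τ'))
  haveI := PadicTower.intRing_isDiscreteValuationRing q (localFieldAt (localEmbRestrict K τ'))
  haveI := PadicTower.intRing_isAdicComplete q (localFieldAt (localEmbRestrict K τ'))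
  haveI := PadicTower.intRing_finite_residueField q (localFieldAt (localEmbRestrict K τ'))
  haveI := PadicTower.intRing_isFractionRing q (localFieldAt (localEmbRestrict K τ'))
  haveI := finiteDimensional_localLayer K τ'
  haveI := Fermat.Agent.CFT.intRing_isLocalRing (intRing q (localFieldAt (localEmbRestrict K τ')))
    (localFieldAt (localEmbRestrict K τ')) (localLayer K τ')
  haveI := Fermat.Agent.CFT.intRing_isLocalHom (intRing q (localFieldAt (localEmbRestrict K τ')))
    (localFieldAt (localEmbRestrict K τ')) (localLayer K τ')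
  unfold inertiaAt
  refine ⟨(decompEquiv K τ').symm ⟨g, hdec⟩, ?_, ?_⟩
  · rw [SetLike.mem_coe, mem_inertiaGal_iff_coe]
    intro x m hm
    have hRL := mem_intRing_layer_iff_norm_le_one ℤ_[q]
      (fun y => isIntegral_padicInt_iff_norm_le_one (q := q) (y := y))
      (localFieldAt_restrict_le K τ')
    rw [mem_maximalIdeal_iff_abv_lt_one _ _ hRL, normAbv_apply, hm]
    set ĝ := (decompEquiv K τ').symm ⟨g, hdec⟩ with hĝ
    set y : localLayer K τ' := (x : localLayer K τ') with hy
    have hy1 : ‖(y : Ω)‖ ≤ 1 := by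
      have := (hRL y).1 x.2
      rwa [normAbv_apply] at this
    obtain ⟨x₀, hx₀⟩ := exists_norm_emb_sub_lt τ' (u := (y : Ω)) y.2 one_pos
    set y₀ : localLayer K τ' := ⟨τ' x₀, apply_mem_localFieldAt τ' x₀⟩ with hy₀
    have hx₀1 : ‖τ' x₀‖ ≤ 1 := by
      have : τ' x₀ = (τ' x₀ - (y : Ω)) + (y : Ω) := by ring
      rw [this]
      exact (IsUltrametricDist.norm_add_le_max _ _).trans (max_le hx₀.le hy1)
    have h3 : ((ĝ y₀ : localLayer K τ') : Ω) = τ' (g x₀) := by
      rw [hy₀, apply_apply_eq_decompEquiv K τ' ĝ x₀, hĝ, MulEquiv.apply_symm_apply]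
    have h4 : ‖((y - y₀ : localLayer K τ') : Ω)‖ < 1 := by
      show ‖(y : Ω) - τ' x₀‖ < 1
      rw [norm_sub_rev]
      exact hx₀
    have h5 : ‖((ĝ (y - y₀) : localLayer K τ') : Ω)‖ < 1 := by
      rw [hĝ, norm_decompEquiv_symm_apply]
      exact h4
    have h6 : ‖τ' (g x₀) - τ' x₀‖ < 1 := hg x₀ hx₀1
    have h7 : algebraMap (localLayer K τ') Ω (ĝ y - y) =
        ((ĝ (y - y₀) : localLayer K τ') : Ω) - ((y - y₀ : localLayer K τ') : Ω) +
          (τ' (g x₀) - τ' x₀) := by
      rw [← h3, map_sub ĝ]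
      show ((ĝ y : localLayer K τ') : Ω) - (y : Ω) =
        (((ĝ y : localLayer K τ') : Ω) - ((ĝ y₀ : localLayer K τ') : Ω)) -
          ((y : Ω) - (y₀ : Ω)) + (((ĝ y₀ : localLayer K τ') : Ω) - τ' x₀)
      have : (y₀ : Ω) = τ' x₀ := rfl
      rw [this]
      ring
    rw [h7]
    refine lt_of_le_of_lt (IsUltrametricDist.norm_add_le_max _ _) (max_lt ?_ h6)
    rw [sub_eq_add_neg]
    refine lt_of_le_of_lt (IsUltrametricDist.norm_add_le_max _ _) (max_lt h5 ?_)
    rw [norm_neg]
    exact h4
  · rw [localGalHom_apply, MulEquiv.apply_symm_apply]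

/-- Elements of the inertia group move the `τ'`-integral elements of `L` by less than one. -/
theorem norm_sub_lt_one_of_mem_inertiaAt (τ' : LocalEmb q L) {g : L ≃ₐ[K] L}
    (hg : g ∈ inertiaAt K τ') (x : L) (hx : ‖τ' x‖ ≤ 1) : ‖τ' (g x) - τ' x‖ < 1 := by
  haveI := finiteDimensional_localFieldAt (localEmbRestrict K τ')
  haveI := PadicTower.intRing_isLocalRing q (localFieldAt (localEmbRestrict K τ'))
  haveI := PadicTower.intRing_isDiscreteValuationRing q (localFieldAt (localEmbRestrict K τ'))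
  haveI := PadicTower.intRing_isAdicComplete q (localFieldAt (localEmbRestrict K τ'))
  haveI := PadicTower.intRing_finite_residueField q (localFieldAt (localEmbRestrict K τ'))
  haveI := PadicTower.intRing_isFractionRing q (localFieldAt (localEmbRestrict K τ'))
  haveI := finiteDimensional_localLayer K τ'
  haveI := Fermat.Agent.CFT.intRing_isLocalRing (intRing q (localFieldAt (localEmbRestrict K τ')))
    (localFieldAt (localEmbRestrict K τ')) (localLayer K τ')
  haveI := Fermat.Agent.CFT.intRing_isLocalHom (intRing q (localFieldAt (localEmbRestrict K τ')))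
    (localFieldAt (localEmbRestrict K τ')) (localLayer K τ')
  unfold inertiaAt at hg
  obtain ⟨ĝ, hĝ, rfl⟩ := hg
  rw [SetLike.mem_coe, mem_inertiaGal_iff_coe] at hĝ
  have hRL := mem_intRing_layer_iff_norm_le_one ℤ_[q]
    (fun y => isIntegral_padicInt_iff_norm_le_one (q := q) (y := y))
    (localFieldAt_restrict_le K τ')
  set y : localLayer K τ' := ⟨τ' x, apply_mem_localFieldAt τ' x⟩ with hy
  have h1 : ((ĝ y : localLayer K τ') : Ω) = τ' (localGalHom K τ' ĝ x) := by
    rw [hy, apply_apply_eq_decompEquiv K τ' ĝ x, localGalHom_apply]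
  have hy1 : y ∈ integralClosure (intRing q (localFieldAt (localEmbRestrict K τ')))
      (localLayer K τ') := (hRL y).2 hx
  have hgy1 : ĝ y - y ∈ integralClosure (intRing q (localFieldAt (localEmbRestrict K τ')))
      (localLayer K τ') := by
    rw [hRL, normAbv_apply]
    show ‖((ĝ y : localLayer K τ') : Ω) - (y : Ω)‖ ≤ 1
    rw [sub_eq_add_neg]
    refine (IsUltrametricDist.norm_add_le_max _ _).trans (max_le ?_ ?_)
    · have := norm_decompEquiv_symm_apply K τ' (decompEquiv K τ' ĝ) y
      rw [MulEquiv.symm_apply_apply] at this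
      rw [this]
      exact hx
    · rw [norm_neg]
      exact hx
  have h2 := hĝ ⟨y, hy1⟩ ⟨ĝ y - y, hgy1⟩ rfl
  rw [mem_maximalIdeal_iff_abv_lt_one _ _ hRL, normAbv_apply] at h2
  rw [← h1]
  exact h2

/-- **Elementwise description of `inertiaAt`**: `g ∈ inertiaAt K τ'` iff `g` moves the
`τ'`-integral elements of `L` by less than one. -/
theorem mem_inertiaAt_iff_forall_norm_lt (τ' : LocalEmb q L) (g : L ≃ₐ[K] L) :
    g ∈ inertiaAt K τ' ↔ ∀ x : L, ‖τ' x‖ ≤ 1 → ‖τ' (g x) - τ' x‖ < 1 :=
  ⟨fun hg x hx => norm_sub_lt_one_of_mem_inertiaAt K τ' hg x hx,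
    mem_inertiaAt_of_forall_norm_lt K τ' g⟩

/-- `IsUnramAt` (helper11's local hypotheses) ⟹ the local layer is unramified. -/
theorem isUnrLayer_of_isUnramAt (τ' : LocalEmb q L) (hτ' : IsUnramAt K τ') :
    IsUnrLayer ℤ_[q] (localFieldAt_restrict_le K τ') :=
  (isUnrLayer_localLayer_iff_forall_norm K τ' hτ'.isCyclic).2 fun u hu => by
    obtain ⟨y, -, hy⟩ := hτ'.exists_norm_eq u hu
    exact ⟨y, hy⟩

/-- The three formulations of "the place of `τ'` is unramified in `L/K`" agree:
`inertiaAt K τ' = ⊥ ↔ IsUnramAt K τ'`. -/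
theorem inertiaAt_eq_bot_iff_isUnramAt (τ' : LocalEmb q L) :
    inertiaAt K τ' = ⊥ ↔ IsUnramAt K τ' := by
  rw [inertiaAt_eq_bot_iff]
  exact ⟨fun h => isUnramAt_of_isUnramExt K τ' h.2.2, isUnrLayer_of_isUnramAt K τ'⟩

end Local

section Global

variable {q : ℕ} [Fact q.Prime] (K : Type) [Field K] {L : Type} [Field L] [Algebra K L]

/-- An automorphism of `ℚ̄` fixing the image of `K` restricts to the normal extension `L/K`. -/
theorem exists_algEquiv_of_fixes [Normal K L] (ι : L →+* Qb) (σ : GQ)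
    (hσK : ∀ x : K, σ (ι (algebraMap K L x)) = ι (algebraMap K L x)) :
    ∃ g : L ≃ₐ[K] L, ∀ y : L, σ (ι y) = ι (g y) := by
  letI : Algebra L Qb := ι.toAlgebra
  letI : Algebra K Qb := (ι.comp (algebraMap K L)).toAlgebra
  haveI : IsScalarTower K L Qb := IsScalarTower.of_algebraMap_eq fun _ => rfl
  let σK : Qb ≃ₐ[K] Qb := { (σ : Qb ≃+* Qb) with commutes' := hσK }
  exact ⟨σK.restrictNormal L, fun y => (AlgEquiv.restrictNormal_commutes σK L y).symm⟩

variable [NumberField K] [NumberField L] [IsGalois K L]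

/-- **Inertia of `ℚ̄` restricts into the inertia groups of the embedding model.**  Let `A` be a
valuation subring of `ℚ̄` over `q` and `σ ∈ A.inertiaSubgroupIn ℚ` fixing (the image of) `K`.
Then the restriction `g` of `σ` to `L` lies in `inertiaAt K τ'` for an embedding `τ' : L → ℚ̄_q`
(the restriction to `L` of an embedding of `ℚ̄` defining `A`). -/
theorem exists_mem_inertiaAt_of_mem_inertiaSubgroupIn (ι : L →+* Qb) (A : ValuationSubring Qb)
    (hA : A.LiesOverPrime q) (σ : GQ) (hσ : σ ∈ A.inertiaSubgroupIn ℚ)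
    (hσK : ∀ x : K, σ (ι (algebraMap K L x)) = ι (algebraMap K L x)) :
    ∃ (τ' : LocalEmb q L) (g : L ≃ₐ[K] L), g ∈ inertiaAt K τ' ∧ ∀ y : L, σ (ι y) = ι (g y) := by
  obtain ⟨τ, rfl⟩ := exists_embPlace_eq A hA
  obtain ⟨g, hg⟩ := exists_algEquiv_of_fixes K ι σ hσK
  refine ⟨τ.comp ι, g, mem_inertiaAt_of_forall_norm_lt K _ g fun x hx => ?_, hg⟩
  rw [Fermat.Agent.S14.mem_inertiaSubgroupIn_iff] at hσ
  have h1 := hσ.2 (ι x) (mem_embPlace.2 hx)
  rw [embPlace_valuation_lt_one_iff, map_sub, hg] at h1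
  exact h1

end Global

section Outside

variable {S : Finset Nat.Primes} (K : Type) [Field K] {L : Type} [Field L] [Algebra K L]
  [NumberField K] [NumberField L] [IsGalois K L]

/-- A subfield of `ℚ̄` contained in the image of a number field is finite over `ℚ`. -/
theorem finiteDimensional_of_forall_exists_eq (ι : L →+* Qb) (F : IntermediateField ℚ Qb)
    (hF : ∀ z ∈ F, ∃ y : L, ι y = z) : FiniteDimensional ℚ F := by
  let ιQ : L →ₐ[ℚ] Qb := ι.toRatAlgHom
  haveI : FiniteDimensional ℚ ιQ.fieldRange :=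
    Module.Finite.of_surjective ιQ.rangeRestrict.toLinearMap ιQ.rangeRestrict_surjective
  have hle : F ≤ ιQ.fieldRange := fun z hz => by
    obtain ⟨y, rfl⟩ := hF z hz
    exact ⟨y, rfl⟩
  exact FiniteDimensional.of_injective (IntermediateField.inclusion hle).toLinearMap
    (IntermediateField.inclusion_injective hle)

/-- **[U-BRIDGE], converse half, general form.**  `K ⊆ L` number fields, `L/K` Galois,
`ι : L → ℚ̄`; the image of `K` lies in a field `E` unramified outside `S` (Prelude predicate); `H`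
is a subgroup of `Gal(L/K)` containing the inertia groups `inertiaAt K τ'` of all embeddings
`τ' : L → ℚ̄_q`, `q ∉ S`.  Then every subfield `F` of `ℚ̄` contained in the image of the fixed
field `L^H` is unramified outside `S`. -/
theorem isUnramifiedOutside_of_inertiaAt_le (ι : L →+* Qb) {E F : IntermediateField ℚ Qb}
    (hE : E.IsUnramifiedOutside S) (hKE : ∀ x : K, ι (algebraMap K L x) ∈ E)
    (H : Subgroup (L ≃ₐ[K] L)) (hF : ∀ z ∈ F, ∃ y : L, ι y = z ∧ ∀ g ∈ H, g y = y)
    (hin : ∀ q : Nat.Primes, q ∉ S → ∀ τ' : LocalEmb (q : ℕ) L, inertiaAt K τ' ≤ H) :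
    F.IsUnramifiedOutside S := by
  refine ⟨finiteDimensional_of_forall_exists_eq ι F fun z hz => ?_, fun q hq A hA σ hσ => ?_⟩
  · obtain ⟨y, hy, -⟩ := hF z hz
    exact ⟨y, hy⟩
  · haveI : Fact (q : ℕ).Prime := ⟨q.2⟩
    rw [IntermediateField.mem_fixingSubgroup_iff]
    intro z hz
    have hσK : ∀ x : K, σ (ι (algebraMap K L x)) = ι (algebraMap K L x) := fun x => by
      have h1 := hE.2 q hq A hA hσ
      rw [IntermediateField.mem_fixingSubgroup_iff] at h1
      exact h1 _ (hKE x)
    obtain ⟨τ', g, hgI, hg⟩ := exists_mem_inertiaAt_of_mem_inertiaSubgroupIn K ι A hA σ hσ hσK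
    obtain ⟨y, rfl, hy⟩ := hF z hz
    show σ (ι y) = ι y
    rw [hg, hy g (hin q hq τ' hgI)]

/-- Character form: the fixed field of the kernel of a character of `Gal(L/K)` unramified outside
`S` (helper26's `unramCharsOutside`) is unramified outside `S`. -/
theorem isUnramifiedOutside_of_forall_inertiaAt_eq_one {X : Type*} [Group X] (ι : L →+* Qb)
    {E F : IntermediateField ℚ Qb} (hE : E.IsUnramifiedOutside S)
    (hKE : ∀ x : K, ι (algebraMap K L x) ∈ E) (χ : (L ≃ₐ[K] L) →* X)
    (hF : ∀ z ∈ F, ∃ y : L, ι y = z ∧ ∀ g : L ≃ₐ[K] L, χ g = 1 → g y = y)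
    (hχ : ∀ q : Nat.Primes, q ∉ S → ∀ τ' : LocalEmb (q : ℕ) L, ∀ σ ∈ inertiaAt K τ', χ σ = 1) :
    F.IsUnramifiedOutside S :=
  isUnramifiedOutside_of_inertiaAt_le K ι hE hKE χ.ker
    (fun z hz => by
      obtain ⟨y, hy, h⟩ := hF z hz
      exact ⟨y, hy, fun g hg => h g (MonoidHom.mem_ker.1 hg)⟩)
    (fun q hq τ' σ hσ => MonoidHom.mem_ker.2 (hχ q hq τ' σ hσ))

/-- **[U-BRIDGE], converse half** (Type-level form): if the inertia groups `inertiaAt K τ'` are
trivial for all `q ∉ S` and the image of `K` is unramified outside `S`, then so is every subfield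
of the image of `L`. -/
theorem isUnramifiedOutside_of_inertiaAt_eq_bot (ι : L →+* Qb) {E F : IntermediateField ℚ Qb}
    (hE : E.IsUnramifiedOutside S) (hKE : ∀ x : K, ι (algebraMap K L x) ∈ E)
    (hF : ∀ z ∈ F, ∃ y : L, ι y = z)
    (hin : ∀ q : Nat.Primes, q ∉ S → ∀ τ' : LocalEmb (q : ℕ) L, inertiaAt K τ' = ⊥) :
    F.IsUnramifiedOutside S :=
  isUnramifiedOutside_of_inertiaAt_le K ι hE hKE ⊥
    (fun z hz => by
      obtain ⟨y, hy⟩ := hF z hz
      exact ⟨y, hy, fun g hg => by rw [Subgroup.mem_bot.1 hg]; rfl⟩)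
    (fun q hq τ' => (hin q hq τ').le)

end Outside

section Layers

variable {S : Finset Nat.Primes} {E E' : IntermediateField ℚ Qb} (h : E ≤ E')
  [NumberField E] [NumberField (layer h)] [IsGalois E (layer h)]

/-- **[U-BRIDGE], converse half, layer form with a subgroup.**  `E ≤ E'` subfields of `ℚ̄`, `E'/E`
finite Galois, `E` unramified outside `S` (Prelude predicate), `H ≤ Gal(E'/E)` containing the
inertia groups `inertiaAt E τ'` for all embeddings `τ' : E' → ℚ̄_q`, `q ∉ S`.  Then every
`F ≤ E'` fixed by `H` is unramified outside `S`. -/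
theorem isUnramifiedOutside_layer_of_inertiaAt_le (hE : E.IsUnramifiedOutside S)
    {F : IntermediateField ℚ Qb} (hFE' : F ≤ E') (H : Subgroup ((layer h) ≃ₐ[E] (layer h)))
    (hF : ∀ g ∈ H, ∀ y : layer h, (y : Qb) ∈ F → g y = y)
    (hin : ∀ q : Nat.Primes, q ∉ S → ∀ τ' : LocalEmb (q : ℕ) (layer h), inertiaAt E τ' ≤ H) :
    F.IsUnramifiedOutside S :=
  isUnramifiedOutside_of_inertiaAt_le (S := S) E (algebraMap (layer h) Qb) hE (fun x => x.2) H
    (fun z hz => ⟨⟨z, hFE' hz⟩, rfl, fun g hg => hF g hg _ hz⟩) hin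

/-- **[U-BRIDGE], converse half, layer form** (the statement of helper7's node): `E ≤ E'`
subfields of `ℚ̄`, `E'/E` finite Galois, `E` unramified outside `S` (Prelude predicate) and
`inertiaAt E τ' = ⊥` for all embeddings `τ' : E' → ℚ̄_q`, `q ∉ S`.  Then `E'` is unramified
outside `S`. -/
theorem isUnramifiedOutside_layer_of_inertiaAt_eq_bot (hE : E.IsUnramifiedOutside S)
    (hin : ∀ q : Nat.Primes, q ∉ S → ∀ τ' : LocalEmb (q : ℕ) (layer h), inertiaAt E τ' = ⊥) :
    E'.IsUnramifiedOutside S :=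
  isUnramifiedOutside_layer_of_inertiaAt_le h hE le_rfl ⊥
    (fun g hg y _ => by rw [Subgroup.mem_bot.1 hg]; rfl) (fun q hq τ' => (hin q hq τ').le)

/-- The same with the layers `E'_τ'/E_τ` unramified (`IsUnrLayer`). -/
theorem isUnramifiedOutside_layer_of_isUnrLayer (hE : E.IsUnramifiedOutside S)
    (hin : ∀ q : Nat.Primes, q ∉ S → ∀ τ' : LocalEmb (q : ℕ) (layer h),
      haveI : Fact (q : ℕ).Prime := ⟨q.2⟩
      IsUnrLayer ℤ_[(q : ℕ)] (localFieldAt_restrict_le E τ')) :
    E'.IsUnramifiedOutside S :=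
  isUnramifiedOutside_layer_of_inertiaAt_eq_bot h hE fun q hq τ' =>
    haveI : Fact (q : ℕ).Prime := ⟨q.2⟩
    (inertiaAt_eq_bot_iff E τ').2 (hin q hq τ')

/-- Character form for layers: the fixed field of the kernel of a character of `Gal(E'/E)` which
is trivial on all inertia groups outside `S` is unramified outside `S`. -/
theorem isUnramifiedOutside_layer_of_forall_inertiaAt_eq_one {X : Type*} [Group X]
    (hE : E.IsUnramifiedOutside S) {F : IntermediateField ℚ Qb} (hFE' : F ≤ E')
    (χ : ((layer h) ≃ₐ[E] (layer h)) →* X)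
    (hF : ∀ g : (layer h) ≃ₐ[E] (layer h), χ g = 1 → ∀ y : layer h, (y : Qb) ∈ F → g y = y)
    (hχ : ∀ q : Nat.Primes, q ∉ S → ∀ τ' : LocalEmb (q : ℕ) (layer h),
      ∀ σ ∈ inertiaAt E τ', χ σ = 1) :
    F.IsUnramifiedOutside S :=
  isUnramifiedOutside_layer_of_inertiaAt_le h hE hFE' χ.ker
    (fun g hg => hF g (MonoidHom.mem_ker.1 hg))
    (fun q hq τ' σ hσ => MonoidHom.mem_ker.2 (hχ q hq τ' σ hσ))

/-- The same with helper11's hypotheses `IsUnramAt E τ'`. -/
theorem isUnramifiedOutside_layer_of_isUnramAt (hE : E.IsUnramifiedOutside S)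
    (hin : ∀ q : Nat.Primes, q ∉ S → ∀ τ' : LocalEmb (q : ℕ) (layer h),
      haveI : Fact (q : ℕ).Prime := ⟨q.2⟩
      IsUnramAt E τ') :
    E'.IsUnramifiedOutside S :=
  isUnramifiedOutside_layer_of_inertiaAt_eq_bot h hE fun q hq τ' =>
    haveI : Fact (q : ℕ).Prime := ⟨q.2⟩
    (inertiaAt_eq_bot_iff_isUnramAt E τ').2 (hin q hq τ')

/-- **[U-BRIDGE], both halves**: for a finite Galois layer `E'/E` of subfields of `ℚ̄` with `E`
unramified outside `S`: `E'` is unramified outside `S` (Prelude predicate) iff all inertia groups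
`inertiaAt E τ'`, `τ' : E' → ℚ̄_q`, `q ∉ S`, are trivial. -/
theorem isUnramifiedOutside_layer_iff (hE : E.IsUnramifiedOutside S) :
    E'.IsUnramifiedOutside S ↔
      ∀ q : Nat.Primes, q ∉ S → ∀ τ' : LocalEmb (q : ℕ) (layer h), inertiaAt E τ' = ⊥ := by
  refine ⟨fun hE' q hq τ' => ?_, isUnramifiedOutside_layer_of_inertiaAt_eq_bot h hE⟩
  haveI : Fact (q : ℕ).Prime := ⟨q.2⟩
  exact (inertiaAt_eq_bot_iff_isUnramAt E τ').2
    (isUnramAt_of_isUnramifiedOutside hE' hq E (algebraMap (layer h) Qb) (fun x => x.2) τ')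

end Layers

end Fermat.Agent.CFT
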