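/-
S55 / C9 [G4-HARD-Q], final: **`hhard` over `ℚ` without hypotheses.**

* `fixedLayerRes_eq_layerGalRes`: helper23's restriction to the fixed field of a subgroup is
  helper5's `ExistenceHard.layerGalRes`;
* `exists_unram_sublayer_of_mem_unramCharsOutside` (**[G4-INFL-FIELD]**): a character of a finite
  Galois layer `M/F`, `F` unramified outside `S`, which is unramified outside `S` factors through
  the normal layer `Lχ/F` (fixed field of its kernel), and `Lχ` is unramified outside `S`
  (helper8's converse of the U-BRIDGE);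
* `hhard_csFullDictQ_final`: `hhard` of `CoeffDict.perfect_of_layers` /
  `GlobalBase.csFull_isPerfect` for `d := csFullDictQ S hS F hF`, `I := sClassInvSystemQ`,
  `F ∋ ζ_p` unramified outside `S`: no hypothesis left except the reciprocity law `hrecip`
  carried by the invariant system.
-/
import Fermat.Agent.CFT.Global.ExistenceHardQ
import Fermat.Agent.CFT.Global.LayerFixedField
import Fermat.Agent.CFT.Global.UnramPrelude

set_option autoImplicit false
set_option linter.style.haveILetI false
set_option linter.unusedSectionVars false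
set_option maxSynthPendingDepth 2

open CategoryTheory groupCohomology IntermediateField

noncomputable section

namespace Fermat.Agent.CFT

open GaloisTower LayerMaps LCSym Fermat.Agent.S55

namespace ExistenceHardQ

local notation "Qb" => AlgebraicClosure ℚ

section Field

variable {S : Finset Nat.Primes} {F M : IntermediateField ℚ Qb} (hT : F ≤ M)
  [NumberField ↥F] [NumberField ↥(layer hT)] [IsGalois ↥F ↥(layer hT)]

/-- The restriction to the fixed field of a subgroup (helper23) is the restriction
`ExistenceHard.layerGalRes` of helper5's assembly. -/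
theorem fixedLayerRes_eq_layerGalRes (H : Subgroup (layer hT ≃ₐ[F] layer hT))
    [Normal F (layer (LayerFixed.le_fixedLayer hT H))] :
    LayerFixed.fixedLayerRes hT H =
      ExistenceHard.layerGalRes (LayerFixed.le_fixedLayer hT H) (LayerFixed.fixedLayer_le hT H) := by
  ext σ y
  rw [LayerFixed.fixedLayerRes_apply_coe, ExistenceHard.layerGalRes_apply_coe]
  rfl

/-- **[G4-INFL-FIELD]**: a character of a finite Galois layer `M/F` (`F` unramified outside `S`)
which is unramified outside `S` factors through a normal layer `Lχ/F`, `Lχ ≤ M`, unramified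
outside `S`: the fixed field of its kernel (U-BRIDGE converse, helper8). -/
theorem exists_unram_sublayer_of_mem_unramCharsOutside (hF : F.IsUnramifiedOutside S) {p : ℕ}
    (χ : (layer hT ≃ₐ[F] layer hT) →* Multiplicative (ZMod p))
    (hχ : χ ∈ ExistenceLocal.unramCharsOutside ↥F ↥(layer hT) p (↑S : Set Nat.Primes)) :
    ∃ (Lχ : IntermediateField ℚ Qb) (h1 : F ≤ Lχ) (h2 : Lχ ≤ M) (_ : Normal F (layer h1)),
      Lχ.IsUnramifiedOutside S ∧
        ∃ χ' : (layer h1 ≃ₐ[F] layer h1) →* Multiplicative (ZMod p),
          χ = χ'.comp (ExistenceHard.layerGalRes h1 h2) := by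
  haveI : FiniteDimensional ↥F ↥(layer hT) := Module.Finite.of_restrictScalars_finite ℚ _ _
  have hadm : (LayerFixed.fixedLayer hT χ.ker).IsUnramifiedOutside S := by
    refine isUnramifiedOutside_layer_of_forall_inertiaAt_eq_one hT hF
      (LayerFixed.fixedLayer_le hT χ.ker) χ ?_ ?_
    · intro g hg y hy
      obtain ⟨hyM, hfix⟩ := LayerFixed.mem_fixedLayer.1 hy
      exact hfix g (MonoidHom.mem_ker.2 hg)
    · intro q hq τ' σ hσ
      exact ExistenceLocal.mem_unramCharsOutside.1 hχ q (fun h => hq (Finset.mem_coe.1 h)) τ' σ hσ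
  obtain ⟨χ', hχ', -⟩ := LayerFixed.exists_char_fixedLayer hT χ
  refine ⟨LayerFixed.fixedLayer hT χ.ker, LayerFixed.le_fixedLayer hT χ.ker,
    LayerFixed.fixedLayer_le hT χ.ker, LayerFixed.normal_layer_fixedLayer_ker hT χ, hadm, χ', ?_⟩
  rw [← fixedLayerRes_eq_layerGalRes hT χ.ker]
  exact hχ'.symm

end Field

section Final

open PT

variable (S : Finset Nat.Primes) (hS : S.Nonempty) {p : ℕ} [hp : Fact p.Prime] (hp2 : p ≠ 2)
  (hpS : (⟨p, hp.out⟩ : Nat.Primes) ∈ S)
  (hrecip : ∀ {E E' : IntermediateField ℚ Qb} (h : E ≤ E')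
    [FiniteDimensional ℚ E'] [NumberField E] [NumberField (layer h)] [Normal E (layer h)]
    (hP : PrincipalIsIdele (layer h))
    (u : groupCohomology (Rep.ofAlgebraAutOnUnits E (layer h)) 2),
    (∃ n : ℕ, p ^ n • u = 0) →
      invJFun padicLocalInvFamily E ((layerH2f h hP).hom u) = 0)

/-- **(G4-HARD) over `ℚ`, final form**: `hhard` of `CoeffDict.perfect_of_layers` /
`GlobalBase.csFull_isPerfect` for the dictionary `csFullDictQ S hS F hF` of a field `F ∋ ζ_p`
unramified outside `S` and the invariant system `sClassInvSystemQ`. -/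
theorem hhard_csFullDictQ_final (F : IntermediateField ℚ Qb) (hF : AdmS S F) {ζ : ↥F}
    (hζ : IsPrimitiveRoot ζ p)
    (a : csFullTowerRep (globalLevel S) (↑S : Set Nat.Primes) F)
    (ha : IsInv (csFullTowerRep (globalLevel S) (↑S : Set Nat.Primes) F) a)
    (H : ∀ (l : ((globalLevel S).comap F.fixingSubgroup.subtype).Level)
      (χ : (layer ((csFullDictQ S hS F hF).le_top l) ≃ₐ[F]
        layer ((csFullDictQ S hS F hF).le_top l)) →* Multiplicative (ZMod p)),
      (sClassInvSystemQ S hp2 hpS hrecip).inv ((csFullDictQ S hS F hF).le_top l)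
        (symClass ((sClassCoeff ℚ Qb (↑S : Set Nat.Primes)).M ((csFullDictQ S hS F hF).le_top l)) χ
          ((csFullDictQ S hS F hF).levelInv l a ha)
          ((csFullDictQ S hS F hF).isInv_levelInv l a ha)) = 0) :
    ∃ b : csFullTowerRep (globalLevel S) (↑S : Set Nat.Primes) F,
      IsInv (csFullTowerRep (globalLevel S) (↑S : Set Nat.Primes) F) b ∧ a = p • b := by
  haveI : FiniteDimensional ℚ F := hF.1
  haveI : NumberField ↥F := numberField_of_finiteDimensional_rat F
  exact hhard_csFullDictQ S hS hp2 hpS hrecip F hF hζ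
    (fun hT _ _ _ χ hχ => exists_unram_sublayer_of_mem_unramCharsOutside hT hF χ hχ) a ha H

end Final

end ExistenceHardQ

end Fermat.Agent.CFT
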