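/-
S55 / C9 (G4-HARD), node `[G4-INFL-FIELD]`: a character of a finite Galois layer `M/F` of subfields
of `ℚ̄` which is unramified outside `S` factors through the layer `Lχ/F`, `Lχ` the fixed field of
its kernel, and `Lχ` is unramified outside `S` (Prelude predicate) when `F` is.
-/
import Mathlib
import Fermat.Agent.CFT.Global.ExistenceHard
import Fermat.Agent.CFT.Global.LayerFixedField
import Fermat.Agent.CFT.Global.UnramPrelude

set_option autoImplicit false
set_option linter.unusedSectionVars false
set_option linter.style.haveILetI false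

open CategoryTheory groupCohomology IntermediateField

noncomputable section

namespace Fermat.Agent.CFT

namespace ExistenceHard

open GaloisTower LayerMaps LayerFixed

local notation "Qb" => AlgebraicClosure ℚ

section Bridge

variable {F M : IntermediateField ℚ Qb} (hT : F ≤ M)

/-- helper23's restriction to the fixed layer is the restriction `layerGalRes` of the assembly. -/
theorem fixedLayerRes_eq_layerGalRes (H : Subgroup (layer hT ≃ₐ[F] layer hT))
    [Normal F (layer (le_fixedLayer hT H))] :
    fixedLayerRes hT H = layerGalRes (le_fixedLayer hT H) (fixedLayer_le hT H) := by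
  refine MonoidHom.ext fun σ => AlgEquiv.ext fun y => Subtype.ext ?_
  rw [fixedLayerRes_apply_coe]
  exact (layerGalRes_apply_coe (le_fixedLayer hT H) (fixedLayer_le hT H) σ y).symm

end Bridge

section Field

variable (S : Finset Nat.Primes) {p : ℕ} {F : IntermediateField ℚ Qb}
  (hF : F.IsUnramifiedOutside S) [NumberField ↥F]

include hF in
/-- **[G4-INFL-FIELD]**: the hypothesis `hfield` of `hhard_of_nodes` / `hhard_csFullDictQ`. -/
theorem exists_unramified_layer_of_mem_unramCharsOutside {M : IntermediateField ℚ Qb} (hT : F ≤ M)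
    [NumberField ↥(layer hT)] [IsGalois ↥F ↥(layer hT)]
    (χ : (layer hT ≃ₐ[F] layer hT) →* Multiplicative (ZMod p))
    (hχ : χ ∈ ExistenceLocal.unramCharsOutside ↥F ↥(layer hT) p (↑S : Set Nat.Primes)) :
    ∃ (Lχ : IntermediateField ℚ Qb) (h1 : F ≤ Lχ) (h2 : Lχ ≤ M) (_ : Normal F (layer h1)),
      Lχ.IsUnramifiedOutside S ∧ ∃ χ' : (layer h1 ≃ₐ[F] layer h1) →* Multiplicative (ZMod p),
        χ = χ'.comp (layerGalRes h1 h2) := by
  haveI : FiniteDimensional ↥F ↥(layer hT) := Module.Finite.of_restrictScalars_finite ℚ _ _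
  obtain ⟨χ', hχ', -⟩ := exists_char_fixedLayer hT χ
  refine ⟨fixedLayer hT χ.ker, le_fixedLayer hT χ.ker, fixedLayer_le hT χ.ker, inferInstance, ?_,
    χ', ?_⟩
  · refine isUnramifiedOutside_layer_of_forall_inertiaAt_eq_one hT hF (fixedLayer_le hT χ.ker) χ
      ?_ ?_
    · intro g hg y hy
      obtain ⟨hy', hfix⟩ := mem_fixedLayer.1 hy
      exact hfix g (MonoidHom.mem_ker.2 hg)
    · intro q hq τ' σ hσ
      exact ExistenceLocal.mem_unramCharsOutside.1 hχ q (fun h => hq (Finset.mem_coe.1 h)) τ' σ hσ
  · rw [← fixedLayerRes_eq_layerGalRes]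
    exact hχ'.symm

end Field

end ExistenceHard

end Fermat.Agent.CFT
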