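import Fermat.Agent.CFT.Global.GlobalInvDef
import Fermat.Agent.CFT.FieldSquare
import Fermat.Agent.CFT.Local.GalSymbol

/-!
# Layer C / C5q: localisation of the classes of `H²(Gal(L/K), Lˣ)` as the map of a field square

`L/K` normal, `τ' : L → ℚ̄_q`, `K_v = localFieldAt (τ'|_K) ≤ L_w = localFieldAt τ'`.

* `FieldSquare.map_galSymClass`: functoriality of the symbol classes `a ∪ δχ` along a square.
* `locSquare K τ'`: the square `(K, L) → (K_v, L_w)`; its restriction map is
  `Gal(L_w/K_v) ≅ decompAt τ' ⊆ Gal(L/K)` (`locSquare_res`).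
* `ideleH2f_comp_semiLocalLoc`: the composite
  `H²(H, Lˣ) → H²(H, J_L) → H²(H, A_q L) → H²(H_w, L_wˣ) ≅ H²(Gal(L_w/K_v), L_wˣ)`
  (the maps used in the definition of `invJ`) is `(locSquare K τ').map 2`.
* `semiLocalInvAt_ideleH2f`, `semiLocalInvAt_galSymClass`: the local invariant at `τ'` of a
  principal class (of a symbol class `a ∪ δχ`, `a ∈ Kˣ`).
-/

set_option autoImplicit false
set_option linter.unusedSectionVars false
set_option linter.style.haveILetI false

open CategoryTheory groupCohomology

noncomputable section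

namespace Fermat.Agent.CFT

open GaloisTower

section Symbol

variable {K₁ L₁ K₂ L₂ : Type} [Field K₁] [Field L₁] [Field K₂] [Field L₂]
  [Algebra K₁ L₁] [Algebra K₂ L₂] [Normal K₁ L₁] {n : ℕ} [NeZero n]

/-- Functoriality of the symbol classes along a square of fields. -/
theorem FieldSquare.map_galSymClass (sq : FieldSquare K₁ L₁ K₂ L₂)
    (χ : (L₁ ≃ₐ[K₁] L₁) →* Multiplicative (ZMod n)) (a : K₁ˣ) :
    (sq.map 2).hom (galSymClass K₁ L₁ χ a) =
      galSymClass K₂ L₂ (χ.comp sq.res) (Units.map (sq.base : K₁ →* K₂) a) := by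
  unfold galSymClass FieldSquare.map
  refine (map_symClass (A := Rep.ofAlgebraAutOnUnits K₁ L₁) (A' := Rep.ofAlgebraAutOnUnits K₂ L₂)
    sq.res sq.unitsHom χ (isInv_unitsIncl K₁ L₁ a)).trans ?_
  refine symClass_congr' _ _ _ rfl ?_
  apply Additive.toMul.injective
  apply Units.ext
  exact sq.comm (a : K₁)

end Symbol

variable {q : ℕ} [Fact q.Prime] (K : Type) [Field K] {L : Type} [Field L] [Algebra K L]

local notation "Ω" => PadicAlgCl q

/-- The embedding `K → K_τ`, `τ = τ'|_K`. -/
def localBaseHom (τ' : LocalEmb q L) : K →+* localFieldAt (localEmbRestrict K τ') where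
  toFun x := ⟨localEmbRestrict K τ' x, apply_mem_localFieldAt _ x⟩
  map_one' := Subtype.ext (map_one _)
  map_mul' x y := Subtype.ext (map_mul _ x y)
  map_zero' := Subtype.ext (map_zero _)
  map_add' x y := Subtype.ext (map_add _ x y)

/-- The embedding `L → L_τ'`. -/
def localTopHom (τ' : LocalEmb q L) : L →+* localLayer K τ' where
  toFun x := ⟨τ' x, apply_mem_localFieldAt τ' x⟩
  map_one' := Subtype.ext (map_one _)
  map_mul' x y := Subtype.ext (map_mul _ x y)
  map_zero' := Subtype.ext (map_zero _)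
  map_add' x y := Subtype.ext (map_add _ x y)

@[simp] theorem localBaseHom_coe (τ' : LocalEmb q L) (x : K) :
    ((localBaseHom K τ' x : localFieldAt (localEmbRestrict K τ')) : Ω) = τ' (algebraMap K L x) :=
  rfl

@[simp] theorem localTopHom_coe (τ' : LocalEmb q L) (x : L) :
    ((localTopHom K τ' x : localLayer K τ') : Ω) = τ' x := rfl

/-- The square `(K, L) → (K_τ, L_τ')`. -/
def locSquare (τ' : LocalEmb q L) :
    FieldSquare K L (localFieldAt (localEmbRestrict K τ')) (localLayer K τ') where
  base := localBaseHom K τ'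
  top := localTopHom K τ'
  comm _ := Subtype.ext rfl

variable [Normal K L]

theorem locSquare_res (τ' : LocalEmb q L) :
    (locSquare K τ').res = (decompAt K τ').subtype.comp (decompEquiv K τ').toMonoidHom := by
  ext g : 1
  rw [FieldSquare.res_eq_iff]
  intro x
  apply Subtype.ext
  exact (apply_apply_eq_decompEquiv K τ' g x).symm

/-- **Localisation of principal classes**: the composite
`H²(H, Lˣ) → H²(H, J_L) → H²(H, A_q L) → H²(H_w, L_wˣ) ≅ H²(Gal(L_w/K_v), L_wˣ)` is the map of the
square `(K, L) → (K_v, L_w)`. -/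
theorem ideleH2f_comp_semiLocalLoc (hL : PrincipalIsIdele L) (q : Nat.Primes)
    (τ' : LocalEmb ((q : Nat.Primes) : ℕ) L) :
    ideleH2f K hL ≫ groupCohomology.map (MonoidHom.id (L ≃ₐ[K] L)) (ideleProjHom K q) 2 ≫
      groupCohomology.map (decompAt K τ').subtype (semiLocalLoc K τ') 2 ≫
        (localUnitsCohIso K τ' 2).hom = (locSquare K τ').map 2 := by
  rw [localUnitsCohIso, groupCohomology.mapIso_hom, ← groupCohomology.map_comp,
    ← groupCohomology.map_comp, ← groupCohomology.map_comp, FieldSquare.map]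
  refine groupCohomology.map_congr (locSquare_res K τ').symm ?_ 2
  refine LinearMap.ext fun x => ?_
  apply Additive.toMul.injective
  apply Units.ext
  apply Subtype.ext
  rfl

theorem semiLocalLocAt_ideleH2f (hL : PrincipalIsIdele L) (q : Nat.Primes)
    (τ' : LocalEmb ((q : Nat.Primes) : ℕ) L)
    (x : groupCohomology (Rep.ofAlgebraAutOnUnits K L) 2) :
    semiLocalLocAt K q τ'
        ((groupCohomology.map (MonoidHom.id (L ≃ₐ[K] L)) (ideleProjHom K q) 2).hom
          ((ideleH2f K hL).hom x)) = ((locSquare K τ').map 2).hom x :=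
  congrArg (fun m => m.hom x) (ideleH2f_comp_semiLocalLoc K hL q τ')

/-- The local invariant at `τ'` of a principal class. -/
theorem semiLocalInvAt_ideleH2f (I : LocalInvFamily) (hL : PrincipalIsIdele L) (q : Nat.Primes)
    (τ' : LocalEmb ((q : Nat.Primes) : ℕ) L)
    (x : groupCohomology (Rep.ofAlgebraAutOnUnits K L) 2) :
    semiLocalInvAt I K q τ'
        ((groupCohomology.map (MonoidHom.id (L ≃ₐ[K] L)) (ideleProjHom K q) 2).hom
          ((ideleH2f K hL).hom x)) =
      (I q).inv (localFieldAt_restrict_le K τ') (((locSquare K τ').map 2).hom x) :=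
  congrArg ((I q).inv (localFieldAt_restrict_le K τ')) (semiLocalLocAt_ideleH2f K hL q τ' x)

/-- The local invariant at `τ'` of a symbol class `a ∪ δχ`. -/
theorem semiLocalInvAt_galSymClass (I : LocalInvFamily) (hL : PrincipalIsIdele L)
    (q : Nat.Primes) (τ' : LocalEmb ((q : Nat.Primes) : ℕ) L) {n : ℕ} [NeZero n]
    (χ : (L ≃ₐ[K] L) →* Multiplicative (ZMod n)) (a : Kˣ) :
    semiLocalInvAt I K q τ'
        ((groupCohomology.map (MonoidHom.id (L ≃ₐ[K] L)) (ideleProjHom K q) 2).hom
          ((ideleH2f K hL).hom (galSymClass K L χ a))) =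
      (I q).inv (localFieldAt_restrict_le K τ')
        (galSymClass (localFieldAt (localEmbRestrict K τ')) (localLayer K τ')
          (χ.comp (locSquare K τ').res)
          (Units.map (localBaseHom K τ' : K →* localFieldAt (localEmbRestrict K τ')) a)) := by
  rw [semiLocalInvAt_ideleH2f, FieldSquare.map_galSymClass]
  rfl

end Fermat.Agent.CFT

end
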