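/-
S55 / C7 (P3): **expansion of the existence pairing into local symbols**.

`L/K` normal, `χ : Gal(L/K) → ℤ/n`.

* `nsmul_symClass_eq_zero` : `n • [a ∪ δχ] = 0`;
* `semiSymClass K χ f ∈ H²(Gal(L/K), A_q(L))` for a semi-local unit `f` of `K` at `q`
  (`semiSymClass_mul`, `semiSymClass_one`);
* **locality** `semiLocalLocAt_semiSymClass`, `semiLocalInvAt_semiSymClass` : the localisation at
  `τ' : L → ℚ̄_q` of `[f ∪ δχ]` is the local symbol class `galSymClass K_τ L_τ' (χ ∘ res) (f τ)` of
  the component of `f` at `τ = τ'|_K`;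
* `ideleSymClass K χ x ∈ H²(Gal(L/K), J_L)` for an idele `x` of `K`; its image in `H²(C_L)` is the
  class `[x] ∪ δχ` of `ExistenceModP` (`ideleH2g_ideleSymClass`), its `q`-component is
  `semiSymClass K χ (x q)` (`map_ideleProjHom_ideleSymClass`);
* **(P3)** `invJAt_ideleSymClass`, `invJFun_ideleSymClass` :
  `invJ [x ∪ δχ] = Σ_q Σ_{ω ∣ q} inv_ω (x_ω ∪ δχ_ω)`.
-/
import Mathlib
import Fermat.Agent.CFT.Global.LocSquare
import Fermat.Agent.CFT.Global.ExistenceModPSym
import Fermat.Agent.CFT.Global.FirstIneqSplit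

set_option autoImplicit false
set_option linter.unusedSectionVars false

open CategoryTheory groupCohomology

noncomputable section

namespace Fermat.Agent.CFT

namespace ExistenceLocal

open GaloisTower

section Generic

variable {G : Type} [Group G] (A : Rep.{0} ℤ G) {n : ℕ} [NeZero n]

/-- The symbol classes of a character with values in `ZMod n` are killed by `n`. -/
theorem nsmul_symClass_eq_zero (χ : G →* Multiplicative (ZMod n)) {a : A} (ha : IsInv A a) :
    n • symClass A χ a ha = 0 := by
  have h : ∀ k : ℕ, symClass A (χ ^ k) a ha = k • symClass A χ a ha := by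
    intro k
    induction k with
    | zero => rw [pow_zero, zero_smul]; exact symClass_one_char A ha
    | succ k ih => rw [pow_succ, symClass_mul_char, ih, succ_nsmul]
  rw [← h n]
  have h1 : χ ^ n = 1 := by
    ext g
    rw [MonoidHom.pow_apply, MonoidHom.one_apply]
    apply Multiplicative.toAdd.injective
    rw [toAdd_pow, toAdd_one, nsmul_eq_mul, ZMod.natCast_self, zero_mul]
  rw [h1]
  exact symClass_one_char A ha

end Generic

section Local

variable (K : Type) [Field K] {L : Type} [Field L] [Algebra K L]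
  [Normal K L] {n : ℕ} [NeZero n]


/-- The image in `A_q(L)` of a semi-local unit of `K` is `Gal(L/K)`-invariant. -/
theorem isInv_semiLocalMap {q : ℕ} [Fact q.Prime] (f : semiLocalUnits q K) :
    IsInv (semiLocalRep L (L ≃ₐ[K] L) q)
      (Additive.ofMul (semiLocalMap (algebraMap K L) f) : Additive (semiLocalUnits q L)) := by
  intro σ
  show Additive.ofMul (σ • semiLocalMap (algebraMap K L) f) = _
  rw [FirstIneq.smul_semiLocalMap]

/-- The local symbol class of a semi-local unit of `K`:
`[f ∪ δχ] ∈ H²(Gal(L/K), A_q(L))`. -/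
def semiSymClass {q : ℕ} [Fact q.Prime] (χ : (L ≃ₐ[K] L) →* Multiplicative (ZMod n))
    (f : semiLocalUnits q K) :
    H2 (semiLocalRep L (L ≃ₐ[K] L) q) :=
  symClass (semiLocalRep L (L ≃ₐ[K] L) q) χ
    (Additive.ofMul (semiLocalMap (algebraMap K L) f) : Additive (semiLocalUnits q L))
    (isInv_semiLocalMap K f)


/-- **Locality of the symbol classes**: the localisation at `τ'` of `[f ∪ δχ]` is the local symbol
class of the component `f(τ'|_K) ∈ K_τˣ`. -/
theorem semiLocalLocAt_semiSymClass (q : Nat.Primes) (τ' : LocalEmb ((q : Nat.Primes) : ℕ) L)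
    (χ : (L ≃ₐ[K] L) →* Multiplicative (ZMod n)) (f : semiLocalUnits ((q : Nat.Primes) : ℕ) K) :
    semiLocalLocAt K q τ' (semiSymClass K χ f) =
      galSymClass (localFieldAt (localEmbRestrict K τ')) (localLayer K τ')
        (χ.comp (locSquare K τ').res) (semiLocalEvalAt (localEmbRestrict K τ') f) := by
  unfold semiLocalLocAt semiSymClass galSymClass
  simp only [AddMonoidHom.coe_comp, Function.comp_apply]
  show (localUnitsCohIso K τ' 2).hom.hom
      ((groupCohomology.map (decompAt K τ').subtype (semiLocalLoc K τ') 2).hom _) = _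
  rw [map_symClass (n := n), localUnitsCohIso, groupCohomology.mapIso_hom, map_symClass (n := n)]
  refine symClass_congr' (A := Rep.ofAlgebraAutOnUnits (localFieldAt (localEmbRestrict K τ'))
    (localLayer K τ')) (n := n) _ _ ?_ ?_
  · rw [locSquare_res]
    rfl
  · apply localUnitsRep.val_injective K τ'
    show localUnitsRep.val K τ' ((semiLocalLoc K τ').hom _) = _
    rw [semiLocalLoc_val]
    apply Units.ext
    rfl


/-- The local invariant at `τ'` of `[f ∪ δχ]` is the invariant of the local symbol class of the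
component `f(τ'|_K)`. -/
theorem semiLocalInvAt_semiSymClass (I : LocalInvFamily) (q : Nat.Primes)
    (τ' : LocalEmb ((q : Nat.Primes) : ℕ) L) (χ : (L ≃ₐ[K] L) →* Multiplicative (ZMod n))
    (f : semiLocalUnits ((q : Nat.Primes) : ℕ) K) :
    semiLocalInvAt I K q τ' (semiSymClass K χ f) =
      (I q).inv (localFieldAt_restrict_le K τ')
        (galSymClass (localFieldAt (localEmbRestrict K τ')) (localLayer K τ')
          (χ.comp (locSquare K τ').res) (semiLocalEvalAt (localEmbRestrict K τ') f)) :=
  congrArg ((I q).inv (localFieldAt_restrict_le K τ')) (semiLocalLocAt_semiSymClass K q τ' χ f)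

/-- The local invariant of `[f ∪ δχ]` at `τ'` vanishes if the component of `f` at `τ'|_K` is `1`. -/
theorem semiLocalInvAt_semiSymClass_of_eval_eq_one (I : LocalInvFamily) (q : Nat.Primes)
    (τ' : LocalEmb ((q : Nat.Primes) : ℕ) L) (χ : (L ≃ₐ[K] L) →* Multiplicative (ZMod n))
    (f : semiLocalUnits ((q : Nat.Primes) : ℕ) K)
    (hf : semiLocalEvalAt (localEmbRestrict K τ') f = 1) :
    semiLocalInvAt I K q τ' (semiSymClass K χ f) = 0 := by
  rw [semiLocalInvAt_semiSymClass, hf, galSymClass_one, map_zero]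

theorem semiSymClass_mul {q : ℕ} [Fact q.Prime] (χ : (L ≃ₐ[K] L) →* Multiplicative (ZMod n))
    (f g : semiLocalUnits q K) :
    semiSymClass K χ (f * g) = semiSymClass K χ f + semiSymClass K χ g := by
  unfold semiSymClass
  rw [← symClass_add]
  refine symClass_congr' (n := n) _ _ _ rfl ?_
  rw [map_mul]
  rfl

theorem semiSymClass_one {q : ℕ} [Fact q.Prime] (χ : (L ≃ₐ[K] L) →* Multiplicative (ZMod n)) :
    semiSymClass K χ (1 : semiLocalUnits q K) = 0 := by
  have := semiSymClass_mul K χ (1 : semiLocalUnits q K) 1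
  rw [mul_one] at this
  exact add_eq_left.mp this.symm

end Local

section Global

variable (K : Type) [Field K] {L : Type} [Field L] [Algebra K L] [Normal K L] {n : ℕ} [NeZero n]

/-- The image in `J_L` of an idele of `K` is `Gal(L/K)`-invariant. -/
theorem isInv_ideleMap (x : ideleGroup K) :
    IsInv (ideleRep L (L ≃ₐ[K] L))
      (Additive.ofMul (ideleMap (algebraMap K L) x) : Additive (ideleGroup L)) := by
  intro σ
  show Additive.ofMul (σ • ideleMap (algebraMap K L) x) = _
  rw [FirstIneq.smul_ideleMap_algebraMap]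

/-- The symbol class `[x ∪ δχ] ∈ H²(Gal(L/K), J_L)` of an idele `x` of `K`. -/
def ideleSymClass (χ : (L ≃ₐ[K] L) →* Multiplicative (ZMod n)) (x : ideleGroup K) :
    H2 (ideleRep L (L ≃ₐ[K] L)) :=
  symClass (ideleRep L (L ≃ₐ[K] L)) χ
    (Additive.ofMul (ideleMap (algebraMap K L) x) : Additive (ideleGroup L)) (isInv_ideleMap K x)

/-- The image of `[x ∪ δχ]` in `H²(Gal(L/K), C_L)` is the class used in `ExistenceModP`. -/
theorem ideleH2g_ideleSymClass (χ : (L ≃ₐ[K] L) →* Multiplicative (ZMod n)) (x : ideleGroup K) :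
    (ideleH2g K).hom (ideleSymClass K χ x) =
      symClass (ideleClassRep L (L ≃ₐ[K] L)) χ (ExistenceModP.ideleClassOfBase K L x)
        (ExistenceModP.isInv_ideleClassOfBase K L x) :=
  (map_symClass (A := ideleRep L (L ≃ₐ[K] L)) (A' := ideleClassRep L (L ≃ₐ[K] L))
    (MonoidHom.id (L ≃ₐ[K] L)) (ideleToClass K) χ (isInv_ideleMap K x)).trans
    (symClass_congr' (ideleClassRep L (L ≃ₐ[K] L)) _ _ (MonoidHom.comp_id χ) rfl)

/-- The `q`-component of `[x ∪ δχ]`. -/
theorem map_ideleProjHom_ideleSymClass (q : Nat.Primes)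
    (χ : (L ≃ₐ[K] L) →* Multiplicative (ZMod n)) (x : ideleGroup K) :
    (groupCohomology.map (MonoidHom.id (L ≃ₐ[K] L)) (ideleProjHom K q) 2).hom
        (ideleSymClass K χ x) = semiSymClass K χ ((x : IdeleProd K) q) :=
  (map_symClass (A := ideleRep L (L ≃ₐ[K] L))
    (A' := semiLocalRep L (L ≃ₐ[K] L) ((q : Nat.Primes) : ℕ))
    (MonoidHom.id (L ≃ₐ[K] L)) (ideleProjHom K q) χ (isInv_ideleMap K x)).trans
    (symClass_congr' (semiLocalRep L (L ≃ₐ[K] L) ((q : Nat.Primes) : ℕ)) _ _
      (MonoidHom.comp_id χ) rfl)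

variable [NumberField K]

/-- **(P3), `q`-part**: the `q`-component of the idele invariant of `[x ∪ δχ]`. -/
theorem invJAt_ideleSymClass (I : LocalInvFamily) (q : Nat.Primes)
    (χ : (L ≃ₐ[K] L) →* Multiplicative (ZMod n)) (x : ideleGroup K) :
    invJAt I K q (ideleSymClass K χ x) =
      ∑ᶠ ω : LocalPlace ((q : Nat.Primes) : ℕ) K,
        semiLocalInvAt I K q (placeLift K ω) (semiSymClass K χ ((x : IdeleProd K) q)) := by
  unfold invJAt
  rw [AddMonoidHom.comp_apply, semiLocalInv_apply]
  refine finsum_congr fun ω => ?_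
  congr 1
  exact map_ideleProjHom_ideleSymClass K q χ x

/-- **(P3)**: the idele invariant of `[x ∪ δχ]` as a sum of local symbols. -/
theorem invJFun_ideleSymClass (I : LocalInvFamily)
    (χ : (L ≃ₐ[K] L) →* Multiplicative (ZMod n)) (x : ideleGroup K) :
    invJFun I K (ideleSymClass K χ x) =
      ∑ᶠ q : Nat.Primes, ∑ᶠ ω : LocalPlace ((q : Nat.Primes) : ℕ) K,
        semiLocalInvAt I K q (placeLift K ω) (semiSymClass K χ ((x : IdeleProd K) q)) := by
  unfold invJFun
  exact finsum_congr fun q => invJAt_ideleSymClass K I q χ x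

end Global

end ExistenceLocal

end Fermat.Agent.CFT
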