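import Fermat.Agent.CFT.Global.IdeleSymbolLoc
import Fermat.Agent.CFT.Global.KummerLocalUnram
import Fermat.Agent.CFT.Global.ExistenceModPSym


/-!
# Layer C / C7 (H-loc): characters unramified outside `S` and the hypothesis `hW`

`M/K` a finite Galois extension of number fields, `p` prime.

* `unramCharsOutside K M S`: the subgroup of the characters `χ : Gal(M/K) → ℤ/p` which are trivial
  on the inertia groups `inertiaAt K τ'` for all `τ' : M → ℚ̄_q`, `q ∉ S`;
* `map_ideleToClass_symClass`: `[x] ∪ δχ ∈ H²(Gal(M/K), C_M)` is the image of `x ∪ δχ ∈ H²(J_M)`;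
* `mem_unramCharsOutside_of_forall_inv_eq_zero`: **the hypothesis `hW`** of
  `ExistenceModP.exists_pow_eq_mk_of_forall_inv_eq_zero` with `Y := unramCharsOutside K M S`, from
  `hlg : invM ∘ H²(J_M → C_M) = invJFun I K` (local-global formula for the global invariant);
* `inv_symClass_eq_zero_of_mem_unramCharsOutside`: conversely the pairing with `χ ∈ Y` kills
  `U_{K,S}`.
-/

set_option autoImplicit false
set_option linter.unusedSectionVars false
set_option linter.style.haveILetI false

open CategoryTheory groupCohomology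

noncomputable section

namespace Fermat.Agent.CFT

open GaloisTower

variable (K M : Type) [Field K] [Field M] [Algebra K M] [NumberField K] [NumberField M]
  [IsGalois K M] {p : ℕ} [Fact p.Prime]

/-- The characters of `Gal(M/K)` with values in `ℤ/p` which are unramified outside `S`: trivial on
the inertia groups `inertiaAt K τ'` at all embeddings `τ' : M → ℚ̄_q`, `q ∉ S`. -/
def unramCharsOutside (S : Set Nat.Primes) :
    Subgroup ((M ≃ₐ[K] M) →* Multiplicative (ZMod p)) where
  carrier := {χ | ∀ q : Nat.Primes, q ∉ S → ∀ τ' : LocalEmb ((q : Nat.Primes) : ℕ) M,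
    ∀ σ ∈ inertiaAt K τ', χ σ = 1}
  mul_mem' {χ χ'} h h' q hq τ' σ hσ := by
    rw [MonoidHom.mul_apply, h q hq τ' σ hσ, h' q hq τ' σ hσ, one_mul]
  one_mem' _ _ _ _ _ := rfl
  inv_mem' {χ} h q hq τ' σ hσ := by
    rw [MonoidHom.inv_apply, h q hq τ' σ hσ, inv_one]

variable {K M}

theorem mem_unramCharsOutside {S : Set Nat.Primes}
    {χ : (M ≃ₐ[K] M) →* Multiplicative (ZMod p)} :
    χ ∈ unramCharsOutside K M S ↔ ∀ q : Nat.Primes, q ∉ S →
      ∀ τ' : LocalEmb ((q : Nat.Primes) : ℕ) M, ∀ σ ∈ inertiaAt K τ', χ σ = 1 := Iff.rfl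

variable (K M)

/-- The symbol class in `H²(Gal(M/K), C_M)` of an idele of `K` is the image of its symbol class in
`H²(Gal(M/K), J_M)`. -/
theorem map_ideleToClass_symClass {n : ℕ} [NeZero n]
    (χ : (M ≃ₐ[K] M) →* Multiplicative (ZMod n)) (x : ideleGroup K) :
    (groupCohomology.map (MonoidHom.id (M ≃ₐ[K] M)) (ideleToClass K (L := M)) 2).hom
        (symClass (ideleRep M (M ≃ₐ[K] M)) χ (ideleOfBase K x) (isInv_ideleOfBase K x)) =
      symClass (ideleClassRep M (M ≃ₐ[K] M)) χ (ExistenceModP.ideleClassOfBase K M x)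
        (ExistenceModP.isInv_ideleClassOfBase K M x) := by
  have h := map_symClass (A := ideleRep M (M ≃ₐ[K] M)) (A' := ideleClassRep M (M ≃ₐ[K] M))
    (MonoidHom.id (M ≃ₐ[K] M)) (ideleToClass K (L := M)) χ (isInv_ideleOfBase K x)
  rw [h]
  exact symClass_congr' _ _ _ (MonoidHom.comp_id χ) rfl

/-- **(H-loc) = `hW` of `ExistenceModP.exists_pow_eq_mk_of_forall_inv_eq_zero`**: a character `χ`
of `Gal(M/K)` whose pairing `invM ([w] ∪ δχ)` vanishes on all unit ideles `w ∈ U_{K,S}` is
unramified outside `S`.  Hypothesis `hlg`: the global invariant `invM` on `H²(Gal(M/K), C_M)` is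
induced by the idele invariant `invJFun I K = Σ_v inv_v ∘ loc_v`. -/
theorem mem_unramCharsOutside_of_forall_inv_eq_zero (I : LocalInvFamily) (S : Set Nat.Primes)
    (invM : H2 (ideleClassRep M (M ≃ₐ[K] M)) →+ AddCircle (1 : ℚ))
    (hlg : ∀ z : H2 (ideleRep M (M ≃ₐ[K] M)),
      invM ((groupCohomology.map (MonoidHom.id (M ≃ₐ[K] M)) (ideleToClass K (L := M)) 2).hom z) =
        invJFun I K z)
    (χ : (M ≃ₐ[K] M) →* Multiplicative (ZMod p))
    (h : ∀ w ∈ ExistenceModP.uS K S,
      invM (symClass _ χ (ExistenceModP.ideleClassOfBase K M w)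
        (ExistenceModP.isInv_ideleClassOfBase K M w)) = 0) :
    χ ∈ unramCharsOutside K M S := by
  have hp : NeZero p := ⟨(Fact.out : p.Prime).ne_zero⟩
  have hI : ∀ q, (I q).IsConjInvariant := fun q => (I q).isConjInvariant
  intro q hq τ'
  rw [forall_inertiaAt_eq_one_iff K χ τ']
  intro u hu
  -- the idele supported at the place of `τ'` with component `u`
  set s : (PadicAlgCl ((q : Nat.Primes) : ℕ))ˣ :=
    Units.map (algebraMap (localFieldAt (localEmbRestrict K τ'))
      (PadicAlgCl ((q : Nat.Primes) : ℕ)) : _ →* _) u with hs_def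
  have hs : (s : PadicAlgCl ((q : Nat.Primes) : ℕ)) ∈ localFieldAt (localEmbRestrict K τ') :=
    (u : localFieldAt (localEmbRestrict K τ')).2
  have hs1 : ‖(s : PadicAlgCl ((q : Nat.Primes) : ℕ))‖ = 1 := hu
  set w : ideleGroup K :=
    Second.singleIdele K q (orbitUnit (localEmbRestrict K τ') s hs) with hw_def
  have hwq : ((w : ideleGroup K) : IdeleProd K) q = orbitUnit (localEmbRestrict K τ') s hs :=
    Second.singleIdele_apply_self q _
  have hwq' : ∀ q' : Nat.Primes, q' ≠ q → ((w : ideleGroup K) : IdeleProd K) q' = 1 :=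
    fun q' hne => Second.singleIdele_apply_of_ne hne _
  have hw : w ∈ ExistenceModP.uS K S := by
    refine ⟨fun q' hq' => ?_, fun q' hq' => ?_⟩
    · show ((w : ideleGroup K) : IdeleProd K) q' ∈ semiLocalIntegral ((q' : Nat.Primes) : ℕ) K
      by_cases hne : q' = q
      · subst hne
        rw [hwq]
        exact orbitUnit_mem_integral _ _ _ hs1
      · rw [hwq' q' hne]
        exact one_mem _
    · show ((w : ideleGroup K) : IdeleProd K) q' = 1
      exact hwq' q' (fun e => hq (e ▸ hq'))
  have h1 := h w hw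
  rw [← map_ideleToClass_symClass, hlg, hw_def,
    invJFun_symClass_singleIdele K I hI q τ' s hs χ] at h1
  unfold localSymbolAt at h1
  haveI := finiteDimensional_localFieldAt τ'
  have h2 := (I q).inv_injective (localFieldAt_restrict_le K τ')
    (h1.trans (map_zero _).symm)
  have hu' : semiLocalEvalAt (localEmbRestrict K τ') (orbitUnit (localEmbRestrict K τ') s hs) =
      u := by
    apply Units.ext
    apply Subtype.ext
    show (((orbitUnit (localEmbRestrict K τ') s hs : semiLocalUnits _ K) :
      LocalEmb _ K → (PadicAlgCl ((q : Nat.Primes) : ℕ))ˣ) (localEmbRestrict K τ') :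
        PadicAlgCl ((q : Nat.Primes) : ℕ)) = _
    rw [orbitUnit_apply_self]
    rfl
  rw [hu'] at h2
  exact h2

/-- Conversely, the pairing with a character unramified outside `S` kills the unit ideles
`U_{K,S}` (so that it is defined on `C_S(K)`). -/
theorem inv_symClass_eq_zero_of_mem_unramCharsOutside (I : LocalInvFamily) (S : Set Nat.Primes)
    (invM : H2 (ideleClassRep M (M ≃ₐ[K] M)) →+ AddCircle (1 : ℚ))
    (hlg : ∀ z : H2 (ideleRep M (M ≃ₐ[K] M)),
      invM ((groupCohomology.map (MonoidHom.id (M ≃ₐ[K] M)) (ideleToClass K (L := M)) 2).hom z) =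
        invJFun I K z)
    (χ : (M ≃ₐ[K] M) →* Multiplicative (ZMod p)) (hχ : χ ∈ unramCharsOutside K M S)
    (w : ideleGroup K) (hw : w ∈ ExistenceModP.uS K S) :
    invM (symClass _ χ (ExistenceModP.ideleClassOfBase K M w)
      (ExistenceModP.isInv_ideleClassOfBase K M w)) = 0 := by
  have hp : NeZero p := ⟨(Fact.out : p.Prime).ne_zero⟩
  have hI : ∀ q, (I q).IsConjInvariant := fun q => (I q).isConjInvariant
  rw [← map_ideleToClass_symClass, hlg]
  unfold invJFun
  rw [finsum_eq_zero_of_forall_eq_zero]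
  intro q
  by_cases hq : q ∈ S
  · exact invJAt_symClass_of_eq_one K I q χ w (hw.2 q hq)
  · rw [invJAt_symClass K I hI q (fun ω => placeLift K ω) (fun ω => by
      rw [localEmbRestrict_placeLift]; exact ω.place_emb) χ w,
      finsum_eq_zero_of_forall_eq_zero]
    intro ω
    unfold localSymbolAt
    have h1 := (forall_inertiaAt_eq_one_iff K χ (placeLift K ω : LocalEmb _ M)).1
      (hχ q hq (placeLift K ω))
      (semiLocalEvalAt (localEmbRestrict K (placeLift K ω : LocalEmb _ M))
        ((w : IdeleProd K) q)) (hw.1 q hq _)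
    have h2 : locGroupHom K (placeLift K ω : LocalEmb _ M) = localGalHom K (placeLift K ω) := rfl
    rw [h2, h1, map_zero]

end Fermat.Agent.CFT
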