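import Mathlib
import Fermat.Agent.CFT.Global.FirstIneqUnram
import Fermat.Agent.CFT.Global.SemiLocalHerbrand
import Fermat.Agent.CFT.Global.ClassFormationCyclic

/-!
# Layer C, node C2c: the first inequality of global class field theory, unconditionally

`L/K` a cyclic extension of number fields of odd prime degree `p`.  With helper1's local Herbrand
quotient `SemiLocalHerbrand.herbrand_semiLocalUnits` (input (α)), all hypotheses of
`FirstIneqUnram.lean` are discharged:

* `localHerbrand_of_finrank`: the predicate `LocalHerbrand K L σ p hσ` holds;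
* `herbrand_ideleClass_eq`: `h(C_L) = p` (`smulPair` on the idele class group is H-finite with
  Herbrand quotient `p`);
* `herbrandIdeleClassEq`: helper3's hypothesis `HerbrandIdeleClassEq p` of
  `ClassFormationCyclic.lean`; consequently `cyclicLayerH1`, `cyclicLayerH2`:
  `H¹(Gal(L/K), C_L) = 0` and `|H²(Gal(L/K), C_L)| ≤ p` for all layers of degree `p`;
* `index_principal_sup_norm_eq_mul`: `[J_K : Kˣ N J_L] = p · |Ĥ¹(C_L)|`;
  `index_principal_sup_norm_eq_prime`: `[J_K : Kˣ N J_L] = p`;
* **`first_inequality`**: `principalSubgroup K ⊔ ideleNormSubgroup K L ≠ ⊤`, in the shape of the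
  hypothesis `hFI` of `ExistenceCoreFI.lean` / `ExistenceModPPlace.lean` (`first_inequality_forall`).
-/

set_option autoImplicit false
set_option linter.style.haveILetI false
set_option linter.unusedSectionVars false

noncomputable section

namespace Fermat.Agent.CFT

namespace FirstIneq

variable {K L : Type} [Field K] [NumberField K] [Field L] [NumberField L] [Algebra K L]
  [IsGalois K L] [FiniteDimensional K L]

variable {σ : L ≃ₐ[K] L} {p : ℕ} (hσ : σ ^ p = 1)

/-- **(α)** holds (helper1's `SemiLocalHerbrand.herbrand_semiLocalUnits`). -/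
theorem localHerbrand_of_finrank (hdeg : Module.finrank K L = p)
    (hgen : ∀ g : L ≃ₐ[K] L, g ∈ Subgroup.zpowers σ) : LocalHerbrand K L σ p hσ := by
  intro q _
  haveI : Fact (q : ℕ).Prime := ⟨q.2⟩
  exact SemiLocalHerbrand.herbrand_semiLocalUnits K hgen (orderOf_eq_of_generator hdeg hgen) hσ

/-- **First inequality, Herbrand form**: `h(C_L) = p` for a cyclic extension of odd prime degree
`p` of number fields. -/
theorem herbrand_ideleClass_eq [hp : Fact p.Prime] (hp2 : p ≠ 2)
    (hdeg : Module.finrank K L = p) (hgen : ∀ g : L ≃ₐ[K] L, g ∈ Subgroup.zpowers σ) :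
    (smulPair (M := ideleClass L) σ p hσ).IsHFinite ∧
      (smulPair (M := ideleClass L) σ p hσ).herbrand = p :=
  herbrand_ideleClass_of_localHerbrand hσ hp2 hdeg hgen (localHerbrand_of_finrank hσ hdeg hgen)

/-- `[J_K : Kˣ N J_L] = p · |Ĥ¹(C_L)|`. -/
theorem index_principal_sup_norm_eq_mul [hp : Fact p.Prime] (hp2 : p ≠ 2)
    (hdeg : Module.finrank K L = p) (hgen : ∀ g : L ≃ₐ[K] L, g ∈ Subgroup.zpowers σ) :
    (principalSubgroup K ⊔ _root_.Fermat.Agent.CFT.ideleNormSubgroup K L).index =
      p * Nat.card (smulPair (M := ideleClass L) σ p hσ).H1 :=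
  index_principal_sup_norm_of_localHerbrand hσ hp2 hdeg hgen (localHerbrand_of_finrank hσ hdeg hgen)

/-- **First inequality** for cyclic extensions of odd prime degree of number fields:
`Kˣ · N_{L/K} J_L ≠ J_K`. -/
theorem first_inequality [IsCyclic (L ≃ₐ[K] L)] {p : ℕ} [hp : Fact p.Prime]
    (hp2 : p ≠ 2) (hdeg : Module.finrank K L = p) :
    principalSubgroup K ⊔ _root_.Fermat.Agent.CFT.ideleNormSubgroup K L ≠ ⊤ :=
  first_inequality_of_localHerbrand hp2 hdeg fun _ hσ hgen => localHerbrand_of_finrank hσ hdeg hgen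

end FirstIneq

/-- **First inequality** in the exact shape of the hypothesis `hFI` of `ExistenceCoreFI.lean`,
`ExistenceModPPlace.lean`, …. -/
theorem first_inequality_forall (K : Type) [Field K] [NumberField K] (pp : Nat.Primes)
    (hp2 : 2 < (pp : ℕ)) :
    ∀ (L : Type) [Field L] [NumberField L] [Algebra K L] [IsGalois K L]
      [IsCyclic (L ≃ₐ[K] L)] [FiniteDimensional K L], Module.finrank K L = (pp : ℕ) →
      principalSubgroup K ⊔ ideleNormSubgroup K L ≠ ⊤ := by
  intro L _ _ _ _ _ _ hdeg
  haveI : Fact (pp : ℕ).Prime := ⟨pp.2⟩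
  exact FirstIneq.first_inequality hp2.ne' hdeg

/-- helper3's hypothesis `HerbrandIdeleClassEq p` holds for every odd prime `p`. -/
theorem herbrandIdeleClassEq {p : ℕ} [hp : Fact p.Prime] (hp2 : p ≠ 2) :
    HerbrandIdeleClassEq p := by
  intro K L _ _ _ _ _ _ σ hσ hdeg hgen
  haveI : FiniteDimensional K L := Module.finite_of_finrank_pos (by rw [hdeg]; exact hp.out.pos)
  exact FirstIneq.herbrand_ideleClass_eq hσ hp2 hdeg hgen

/-- **`H¹(Gal(L/K), C_L) = 0`** for all cyclic layers of odd prime degree `p`. -/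
theorem cyclicLayerH1_of_odd {p : ℕ} [hp : Fact p.Prime] (hp2 : p ≠ 2) : CyclicLayerH1 p :=
  cyclicLayerH1_of_herbrand (herbrandIdeleClassEq hp2)

/-- **`|H²(Gal(L/K), C_L)| ≤ p`** for all cyclic layers of odd prime degree `p`. -/
theorem cyclicLayerH2_of_odd {p : ℕ} [hp : Fact p.Prime] (hp2 : p ≠ 2) : CyclicLayerH2 p :=
  cyclicLayerH2_of_herbrand (herbrandIdeleClassEq hp2)

/-- **`|H²(Gal(L/K), C_L)| = p`** for `L/K` of odd prime degree `p`. -/
theorem card_H2_ideleClass_eq_of_odd {p : ℕ} [hp : Fact p.Prime] (hp2 : p ≠ 2)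
    (K L : Type) [Field K] [Field L] [NumberField K] [NumberField L]
    [Algebra K L] [IsGalois K L] (hcard : Nat.card (L ≃ₐ[K] L) = p) :
    Finite (groupCohomology (ideleClassRep L (L ≃ₐ[K] L)) 2) ∧
      Nat.card (groupCohomology (ideleClassRep L (L ≃ₐ[K] L)) 2) = p :=
  card_H2_ideleClass_eq_of_herbrand (herbrandIdeleClassEq hp2) K L hcard

namespace FirstIneq

variable {K L : Type} [Field K] [NumberField K] [Field L] [NumberField L] [Algebra K L]
  [IsGalois K L] [FiniteDimensional K L]

/-- **Norm index theorem** for cyclic extensions of odd prime degree: `[J_K : Kˣ N J_L] = p`. -/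
theorem index_principal_sup_norm_eq_prime {p : ℕ} [hp : Fact p.Prime] (hp2 : p ≠ 2)
    (hdeg : Module.finrank K L = p) :
    (principalSubgroup K ⊔ _root_.Fermat.Agent.CFT.ideleNormSubgroup K L).index = p := by
  have hcard : Nat.card (L ≃ₐ[K] L) = p := by rw [IsGalois.card_aut_eq_finrank, hdeg]
  haveI hcyc : IsCyclic (L ≃ₐ[K] L) := isCyclic_of_prime_card hcard
  obtain ⟨σ, hgen⟩ := IsCyclic.exists_generator (α := L ≃ₐ[K] L)
  have hord : orderOf σ = p := orderOf_eq_of_generator hdeg hgen
  have hσ : σ ^ p = 1 := by rw [← hord]; exact pow_orderOf_eq_one σ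
  obtain ⟨hs, -, -⟩ := subsingleton_H1_and_card_H0_smulPair_ideleClass
    (herbrandIdeleClassEq hp2) σ hσ hdeg hgen hord
  rw [index_principal_sup_norm_eq_mul hσ hp2 hdeg hgen, Nat.card_of_subsingleton 0, mul_one]

end FirstIneq

end Fermat.Agent.CFT
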