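import Fermat.Agent.CFT.Global.GlobalInvDef
import Fermat.Agent.CFT.Global.IdeleCoh

/-!
# Layer C6 (T1): classes in `H²(Gal(L/K), J_L)` have finite invariant support

If the integral semi-local units have trivial `H²` at almost all primes `q` (unramified primes),
then for every class `x ∈ H²(H, J_L)` almost all components `pr_q x ∈ H²(H, A_q L)` vanish; in
particular `invJAt I K q x = 0` for almost all `q` (`hasFiniteInvSupport`).
-/

set_option autoImplicit false
set_option linter.unusedSectionVars false

open CategoryTheory groupCohomology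

noncomputable section

namespace Fermat.Agent.CFT

variable (I : LocalInvFamily) (K : Type) [Field K] {L : Type} [Field L] [Algebra K L]
  [Normal K L]

/-- The `q`-component of the class of an idele cocycle is the class of the component cocycle. -/
theorem map_ideleProjHom_h2Class (q : Nat.Primes)
    {f : (L ≃ₐ[K] L) × (L ≃ₐ[K] L) → ideleGroup L} (hf : IsMulCocycle₂ f)
    (hfq : IsMulCocycle₂ fun p => ((f p : ideleGroup L) : IdeleProd L) q) :
    (groupCohomology.map (MonoidHom.id (L ≃ₐ[K] L)) (ideleProjHom K q) 2).hom
        (h2ClassOfIsMulCocycle₂ hf :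
          groupCohomology.H2 (Rep.ofMulDistribMulAction (L ≃ₐ[K] L) (ideleGroup L))) =
      (h2ClassOfIsMulCocycle₂ hfq :
        groupCohomology.H2
          (Rep.ofMulDistribMulAction (L ≃ₐ[K] L) (semiLocalUnits ((q : Nat.Primes) : ℕ) L))) := by
  have h := H2π_comp_map_apply (MonoidHom.id (L ≃ₐ[K] L)) (ideleProjHom K q)
    (cocyclesOfIsMulCocycle₂ hf)
  refine h.trans ?_
  congr 1

/-- The components of a cocycle of the idele group are cocycles. -/
theorem isMulCocycle₂_component (q : Nat.Primes)
    {f : (L ≃ₐ[K] L) × (L ≃ₐ[K] L) → ideleGroup L} (hf : IsMulCocycle₂ f) :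
    IsMulCocycle₂ fun p => ((f p : ideleGroup L) : IdeleProd L) q := by
  intro g h j
  have := congrArg (fun x : ideleGroup L => (x : IdeleProd L) q) (hf g h j)
  exact this

/-- For almost all `q` the `q`-component of a class in `H²(H, J_L)` vanishes. -/
theorem eventually_map_ideleProjHom_eq_zero [Finite (L ≃ₐ[K] L)]
    (hU2 : ∀ᶠ q : Nat.Primes in Filter.cofinite,
      H2TrivialOn (L ≃ₐ[K] L) (semiLocalIntegral ((q : Nat.Primes) : ℕ) L))
    (x : groupCohomology (ideleRep L (L ≃ₐ[K] L)) 2) :
    ∀ᶠ q : Nat.Primes in Filter.cofinite,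
      (groupCohomology.map (MonoidHom.id (L ≃ₐ[K] L)) (ideleProjHom K q) 2).hom x = 0 := by
  obtain ⟨f, hf, rfl⟩ := exists_h2ClassOfIsMulCocycle₂_eq
    (G := L ≃ₐ[K] L) (M := ideleGroup L) x
  filter_upwards [idele_eventually_isMulCoboundary₂ hU2 hf] with q hq
  have h1 := map_ideleProjHom_h2Class K q hf (isMulCocycle₂_component K q hf)
  refine h1.trans ?_
  exact (h2ClassOfIsMulCocycle₂_eq_zero_iff _).2 hq

variable [NumberField K]

/-- (T1), general form: every class has finite support, given that the integral semi-local units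
have trivial `H²` at almost all primes (unramified primes). -/
theorem hasFiniteInvSupport_of_finite [Finite (L ≃ₐ[K] L)]
    (hU2 : ∀ᶠ q : Nat.Primes in Filter.cofinite,
      H2TrivialOn (L ≃ₐ[K] L) (semiLocalIntegral ((q : Nat.Primes) : ℕ) L))
    (x : groupCohomology (ideleRep L (L ≃ₐ[K] L)) 2) : HasFiniteInvSupport I K x := by
  have h := eventually_map_ideleProjHom_eq_zero K hU2 x
  rw [Filter.eventually_cofinite] at h
  refine h.subset fun q hq => ?_
  intro h0
  apply hq
  show (semiLocalInv I K q)
    ((groupCohomology.map (MonoidHom.id (L ≃ₐ[K] L)) (ideleProjHom K q) 2).hom x) = 0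
  rw [h0, map_zero]

variable [NumberField L]

/-- **(T1)** every class has finite support, given that the integral semi-local units have
trivial `H²` at almost all primes (unramified primes). -/
theorem hasFiniteInvSupport
    (hU2 : ∀ᶠ q : Nat.Primes in Filter.cofinite,
      H2TrivialOn (L ≃ₐ[K] L) (semiLocalIntegral ((q : Nat.Primes) : ℕ) L))
    (x : groupCohomology (ideleRep L (L ≃ₐ[K] L)) 2) : HasFiniteInvSupport I K x := by
  have : FiniteDimensional K L := Module.Finite.of_restrictScalars_finite ℚ K L
  have : Finite (L ≃ₐ[K] L) := inferInstance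
  exact hasFiniteInvSupport_of_finite I K hU2 x

end Fermat.Agent.CFT

end
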