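import Fermat.Agent.CFT.Global.GlobalInvConj
import Fermat.Agent.CFT.Global.GlobalInvSupport
import Fermat.Agent.CFT.Local.LayerInvRange

/-!
# Layer C6 (T6): values of the idele invariant

* `finrank_nsmul_invJFun` (T6'): the idele invariant is killed by `[L : K]`;
* `exists_invJFun_eq` (T6): if some place of `L` has full decomposition group, the idele
  invariant takes the value `1/[L : K]`.
-/

set_option autoImplicit false
set_option linter.unusedSectionVars false
set_option linter.style.haveILetI false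

open CategoryTheory groupCohomology

noncomputable section

namespace Fermat.Agent.CFT

open GaloisTower LayerMaps

variable (I : LocalInvFamily)
  (K : Type) [Field K] {L : Type} [Field L] [Algebra K L] [Normal K L]
  [NumberField K] [NumberField L]

section Degree

variable {q : ℕ} [Fact q.Prime]

/-- `[L_τ' : K_τ] = |decompAt τ'|`. -/
theorem finrank_localLayer_eq_card (τ' : LocalEmb q L) :
    Module.finrank (localFieldAt (localEmbRestrict K τ')) (localLayer K τ') =
      Nat.card (decompAt K τ') := by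
  haveI := finiteDimensional_localLayer K τ'
  haveI := isGalois_localLayer K τ'
  rw [← IsGalois.card_aut_eq_finrank]
  exact Nat.card_congr (decompEquiv K τ').toEquiv

/-- The local degree divides the global degree. -/
theorem finrank_localLayer_dvd (τ' : LocalEmb q L) :
    Module.finrank (localFieldAt (localEmbRestrict K τ')) (localLayer K τ') ∣
      Module.finrank K L := by
  haveI : IsGalois K L := {}
  rw [finrank_localLayer_eq_card, ← IsGalois.card_aut_eq_finrank K L]
  exact Subgroup.card_subgroup_dvd_card _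

end Degree

/-- The local invariants are killed by `[L : K]`. -/
theorem finrank_nsmul_semiLocalInvAt (q : Nat.Primes) (τ' : LocalEmb ((q : Nat.Primes) : ℕ) L)
    (z : groupCohomology (semiLocalRep L (L ≃ₐ[K] L) ((q : Nat.Primes) : ℕ)) 2) :
    Module.finrank K L • semiLocalInvAt I K q τ' z = 0 := by
  obtain ⟨m, hm⟩ := finrank_localLayer_dvd K τ'
  haveI := finiteDimensional_localFieldAt τ'
  rw [semiLocalInvAt_apply, hm, mul_comm, mul_smul, (I q).finrank_nsmul_inv, smul_zero]

/-- The semi-local invariant is killed by `[L : K]`. -/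
theorem finrank_nsmul_semiLocalInv (q : Nat.Primes)
    (z : groupCohomology (semiLocalRep L (L ≃ₐ[K] L) ((q : Nat.Primes) : ℕ)) 2) :
    Module.finrank K L • semiLocalInv I K q z = 0 := by
  rw [semiLocalInv_apply, smul_finsum' _ (Set.toFinite _)]
  simp only [finrank_nsmul_semiLocalInvAt, finsum_zero]

/-- **(T6')** The idele invariant is killed by the degree. -/
theorem finrank_nsmul_invJFun (x : groupCohomology (ideleRep L (L ≃ₐ[K] L)) 2) :
    Module.finrank K L • invJFun I K x = 0 := by
  unfold invJFun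
  by_cases hfin : (Function.support fun q : Nat.Primes => invJAt I K q x).Finite
  · rw [smul_finsum' _ hfin]
    have h : ∀ q : Nat.Primes, Module.finrank K L • invJAt I K q x = 0 := fun q =>
      finrank_nsmul_semiLocalInv I K q _
    simp only [h, finsum_zero]
  · rw [finsum_of_infinite_support hfin, smul_zero]

section Full

variable {q : ℕ} [Fact q.Prime]

omit [NumberField K] [NumberField L] in
/-- The decomposition group is full at `γ • (τ' ∘ s)` if it is full at `τ'`. -/
theorem decompAt_eq_top_of_conj {τ' : LocalEmb q L} (hfull : decompAt K τ' = ⊤) (γ : Gq q)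
    (s : L ≃ₐ[K] L) : decompAt K ((γ • τ').comp (s : L →+* L)) = ⊤ := by
  rw [eq_top_iff]
  intro σ _
  rw [mem_decompAt_iff]
  have h1 : s * σ * s⁻¹ ∈ decompAt K τ' := by rw [hfull]; exact Subgroup.mem_top _
  obtain ⟨γ', hγ'⟩ := (mem_decompAt_iff K τ' _).1 h1
  refine ⟨γ * γ' * γ⁻¹, ?_⟩
  refine RingHom.ext fun x => ?_
  have h2 : γ' (τ' (s x)) = τ' ((s * σ * s⁻¹) (s x)) :=
    congrArg (fun ρ : LocalEmb q L => ρ (s x)) hγ'
  have h3 : (s * σ * s⁻¹) (s x) = s (σ x) := by
    simp only [AlgEquiv.mul_apply]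
    congr 2
    exact (AlgEquiv.symm_apply_apply s x)
  show (γ * γ' * γ⁻¹) (γ (τ' (s x))) = γ (τ' (s (σ x)))
  rw [← h3, ← h2]
  simp only [AlgEquiv.mul_apply]
  congr 2
  exact AlgEquiv.symm_apply_apply γ _

omit [NumberField K] [NumberField L] in
/-- If the decomposition group is full at `τ'`, it is full at the chosen lift of the place of `K`
below `τ'`. -/
theorem decompAt_placeLift_eq_top {τ' : LocalEmb q L} (hfull : decompAt K τ' = ⊤) :
    decompAt K (placeLift K (localEmbRestrict K τ').place : LocalEmb q L) = ⊤ := by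
  obtain ⟨γ, hγ⟩ := (localEmbRestrict K τ').exists_smul_emb_place
  have h1 : localEmbRestrict K (γ⁻¹ • τ') =
      localEmbRestrict K (placeLift K (localEmbRestrict K τ').place : LocalEmb q L) := by
    rw [localEmbRestrict_smul, localEmbRestrict_placeLift, inv_smul_eq_iff, hγ]
  obtain ⟨s, hs, -⟩ := exists_unique_algEquiv_comp K h1
  rw [hs]
  exact decompAt_eq_top_of_conj K hfull γ⁻¹ s

end Full

omit [NumberField K] [NumberField L] [Normal K L] [Algebra K L] in
theorem h2Class_congr {G M : Type} [Group G] [CommGroup M] [MulDistribMulAction G M]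
    {f g : G × G → M} (h : f = g) (hf : IsMulCocycle₂ f) (hg : IsMulCocycle₂ g) :
    h2ClassOfIsMulCocycle₂ hf = h2ClassOfIsMulCocycle₂ hg := by
  subst h
  rfl

omit [NumberField K] [NumberField L] [Normal K L] [Algebra K L] in
theorem h2Class_one {G M : Type} [Group G] [CommGroup M] [MulDistribMulAction G M]
    (h1 : IsMulCocycle₂ fun _ : G × G => (1 : M)) : h2ClassOfIsMulCocycle₂ h1 = 0 := by
  rw [h2ClassOfIsMulCocycle₂_eq_zero_iff]
  exact ⟨fun _ => 1, fun g h => by simp⟩

/-- A class of `H²(H, A_q L)` is the `q`-component of a class of `H²(H, J_L)` all of whose other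
components vanish. -/
theorem exists_idele_class_of_semiLocal (q : Nat.Primes)
    (z : groupCohomology (semiLocalRep L (L ≃ₐ[K] L) ((q : Nat.Primes) : ℕ)) 2) :
    ∃ x : groupCohomology (ideleRep L (L ≃ₐ[K] L)) 2,
      (groupCohomology.map (MonoidHom.id (L ≃ₐ[K] L)) (ideleProjHom K q) 2).hom x = z ∧
      ∀ q' : Nat.Primes, q' ≠ q →
        (groupCohomology.map (MonoidHom.id (L ≃ₐ[K] L)) (ideleProjHom K q') 2).hom x = 0 := by
  classical
  obtain ⟨cq, hcq, hz⟩ := exists_h2ClassOfIsMulCocycle₂_eq
    (G := L ≃ₐ[K] L) (M := semiLocalUnits ((q : Nat.Primes) : ℕ) L) z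
  have h1 : ∀ q' : Nat.Primes, IsMulCocycle₂
      fun _ : (L ≃ₐ[K] L) × (L ≃ₐ[K] L) => (1 : semiLocalUnits ((q' : Nat.Primes) : ℕ) L) :=
    fun q' g h j => by simp
  set c : ∀ q' : Nat.Primes, (L ≃ₐ[K] L) × (L ≃ₐ[K] L) → semiLocalUnits ((q' : Nat.Primes) : ℕ) L :=
    Function.update (fun q' _ => 1) q cq with hc
  have hcq' : c q = cq := Function.update_self _ _ _
  have hcne : ∀ q' : Nat.Primes, q' ≠ q → c q' = fun _ => 1 := fun q' hq' =>
    Function.update_of_ne hq' _ _
  have hcoc : ∀ q', IsMulCocycle₂ (c q') := by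
    intro q'
    by_cases hq' : q' = q
    · subst hq'
      rw [hcq']
      exact hcq
    · rw [hcne q' hq']
      exact h1 q'
  have hcU : ∀ᶠ q' : Nat.Primes in Filter.cofinite, ∀ p, c q' p ∈ semiLocalIntegral (q' : ℕ) L := by
    rw [Filter.eventually_cofinite]
    refine Set.Finite.subset (Set.finite_singleton q) fun q' hq' => ?_
    by_contra hne
    apply hq'
    intro p
    rw [hcne q' hne]
    exact one_mem _
  haveI : Finite (L ≃ₐ[K] L) := inferInstance
  obtain ⟨f, hf, hfc⟩ := idele_exists_cocycle₂ c hcoc hcU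
  refine ⟨h2ClassOfIsMulCocycle₂ hf, ?_, ?_⟩
  · refine (map_ideleProjHom_h2Class K q hf (isMulCocycle₂_component K q hf)).trans ?_
    rw [← hz]
    exact h2Class_congr (funext fun p => (hfc q p).trans (congrFun hcq' p)) _ _
  · intro q' hq'
    refine (map_ideleProjHom_h2Class K q' hf (isMulCocycle₂_component K q' hf)).trans ?_
    refine (h2Class_congr
      (funext fun p => (hfc q' p).trans (congrFun (hcne q' hq') p)) _ (h1 q')).trans ?_
    exact h2Class_one _

omit [NumberField K] [NumberField L] in
/-- The local invariant, unfolded in terms of `semiLocalLoc` and `localUnitsCohIso`. -/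
theorem semiLocalInvAt_eq_loc (q : Nat.Primes) (τ' : LocalEmb ((q : Nat.Primes) : ℕ) L)
    (x : groupCohomology (semiLocalRep L (L ≃ₐ[K] L) ((q : Nat.Primes) : ℕ)) 2) :
    semiLocalInvAt I K q τ' x = (I q).inv (localFieldAt_restrict_le K τ')
      ((localUnitsCohIso K τ' 2).hom.hom
        ((groupCohomology.map (decompAt K τ').subtype (semiLocalLoc K τ') 2).hom x)) := rfl

/-- The semi-local invariant of a class whose localisations vanish outside `ω₀`. -/
theorem semiLocalInv_eq_of_loc (q : Nat.Primes) (ω₀ : LocalPlace ((q : Nat.Primes) : ℕ) K)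
    (z : groupCohomology (semiLocalRep L (L ≃ₐ[K] L) ((q : Nat.Primes) : ℕ)) 2)
    (hzne : ∀ ω : LocalPlace ((q : Nat.Primes) : ℕ) K, ω ≠ ω₀ →
      (groupCohomology.map (decompAt K (placeLift K ω : LocalEmb _ L)).subtype
        (semiLocalLoc K (placeLift K ω)) 2).hom z = 0) :
    semiLocalInv I K q z = semiLocalInvAt I K q (placeLift K ω₀) z := by
  rw [semiLocalInv_apply]
  refine finsum_eq_single _ ω₀ fun ω hω => ?_
  rw [semiLocalInvAt_eq_loc, hzne ω hω, map_zero, map_zero]

/-- The idele invariant of a class all of whose components outside `q` vanish. -/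
theorem invJFun_eq_of_components (q : Nat.Primes)
    (x : groupCohomology (ideleRep L (L ≃ₐ[K] L)) 2)
    (hxne : ∀ q' : Nat.Primes, q' ≠ q →
      (groupCohomology.map (MonoidHom.id (L ≃ₐ[K] L)) (ideleProjHom K q') 2).hom x = 0) :
    invJFun I K x = semiLocalInv I K q
      ((groupCohomology.map (MonoidHom.id (L ≃ₐ[K] L)) (ideleProjHom K q) 2).hom x) := by
  unfold invJFun
  have hne : ∀ q' : Nat.Primes, q' ≠ q → invJAt I K q' x = 0 := by
    intro q' hq'
    have h1 : invJAt I K q' x = semiLocalInv I K q'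
      ((groupCohomology.map (MonoidHom.id (L ≃ₐ[K] L)) (ideleProjHom K q') 2).hom x) := rfl
    rw [h1, hxne q' hq', map_zero]
  rw [finsum_eq_single _ q hne]
  rfl

/-- A semi-local class with local invariant `1/[L:K]` at a place with full decomposition group
and trivial localisations elsewhere. -/
theorem exists_semiLocalInv_eq (q : Nat.Primes) (ω₀ : LocalPlace ((q : Nat.Primes) : ℕ) K)
    (hfull₀ : decompAt K (placeLift K ω₀ : LocalEmb ((q : Nat.Primes) : ℕ) L) = ⊤) :
    ∃ z : groupCohomology (semiLocalRep L (L ≃ₐ[K] L) ((q : Nat.Primes) : ℕ)) 2,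
      semiLocalInv I K q z = (((1 : ℚ) / (Module.finrank K L : ℚ) : ℚ) : AddCircle (1 : ℚ)) := by
  classical
  haveI := finiteDimensional_localFieldAt (placeLift K ω₀ : LocalEmb ((q : Nat.Primes) : ℕ) L)
  -- the local class of invariant `1/n`
  obtain ⟨y, hy⟩ := (I q).exists_inv_eq_one_div
    (localFieldAt_restrict_le K (placeLift K ω₀ : LocalEmb ((q : Nat.Primes) : ℕ) L))
  have hn : Module.finrank (localFieldAt (localEmbRestrict K
      (placeLift K ω₀ : LocalEmb ((q : Nat.Primes) : ℕ) L)))
      (localLayer K (placeLift K ω₀ : LocalEmb ((q : Nat.Primes) : ℕ) L)) =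
      Module.finrank K L := by
    haveI : IsGalois K L := {}
    rw [finrank_localLayer_eq_card, hfull₀, ← IsGalois.card_aut_eq_finrank K L]
    exact Nat.card_congr Subgroup.topEquiv.toEquiv
  rw [hn] at hy
  -- the semi-local class
  obtain ⟨z, hz⟩ := (bijective_semiLocalLoc₂ (q := ((q : Nat.Primes) : ℕ)) K (L := L)).2
    (Function.update (fun _ => 0) ω₀ ((localUnitsCohIso K (placeLift K ω₀) 2).inv.hom y))
  refine ⟨z, ?_⟩
  have hzne : ∀ ω : LocalPlace ((q : Nat.Primes) : ℕ) K, ω ≠ ω₀ →
      (groupCohomology.map (decompAt K (placeLift K ω : LocalEmb _ L)).subtype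
        (semiLocalLoc K (placeLift K ω)) 2).hom z = 0 := by
    intro ω hω
    have h1 := congrFun hz ω
    rw [Function.update_of_ne hω] at h1
    exact h1
  rw [semiLocalInv_eq_of_loc I K q ω₀ z hzne, ← hy, semiLocalInvAt_eq_loc]
  have h1 := congrFun hz ω₀
  rw [Function.update_self] at h1
  have h2 : (groupCohomology.map (decompAt K (placeLift K ω₀ : LocalEmb _ L)).subtype
      (semiLocalLoc K (placeLift K ω₀)) 2).hom z =
      (localUnitsCohIso K (placeLift K ω₀) 2).inv.hom y := h1
  rw [h2]
  congr 1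
  exact ConcreteCategory.congr_hom (localUnitsCohIso K (placeLift K ω₀) 2).inv_hom_id y

/-- **(T6)** If some place has full local degree, the idele invariant takes the value
`1/[L:K]`. -/
theorem exists_invJFun_eq (q : Nat.Primes) (τ' : LocalEmb ((q : Nat.Primes) : ℕ) L)
    (hfull : decompAt K τ' = ⊤) :
    ∃ x : groupCohomology (ideleRep L (L ≃ₐ[K] L)) 2,
      invJFun I K x = (((1 : ℚ) / (Module.finrank K L : ℚ) : ℚ) : AddCircle (1 : ℚ)) := by
  obtain ⟨z, hz⟩ := exists_semiLocalInv_eq I K q (localEmbRestrict K τ').place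
    (decompAt_placeLift_eq_top K hfull)
  obtain ⟨x, hxq, hxne⟩ := exists_idele_class_of_semiLocal K q z
  exact ⟨x, by rw [invJFun_eq_of_components I K q x hxne, hxq, hz]⟩

end Fermat.Agent.CFT

end
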