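import Mathlib
import Fermat.Agent.CFT.Global.FirstIneqUncond
import Fermat.Agent.CFT.Global.FirstIneqGlue
import Fermat.Agent.CFT.Global.IdeleDict.DictAdapters
import Fermat.Agent.CFT.Global.GlobalInvSurj

/-!
# Layer C, node [HFULL]: a cyclic `p`-power extension has a place with full decomposition group

`L/K` a cyclic extension of number fields of degree `p ^ a`, `p` an odd prime.

* `FullDecomp.exists_maximal_of_isCyclic_of_card_eq_pow`: a cyclic group of order `p ^ a`, `a ≠ 0`,
  has a (normal) subgroup of index `p` containing every proper subgroup;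
* `FullDecomp.exists_mem_decompAt_restrictNormalHom_eq`: in a tower `K ⊆ E ⊆ L` of normal
  extensions, the decomposition group of `τ'|_E` is the image of the decomposition group of `τ'`
  under the restriction `Gal(L/K) → Gal(E/K)`;
* **`exists_decompAt_eq_top_of_card_eq_pow`**: some place of `L` has decomposition group
  `Gal(L/K)` (otherwise all decomposition groups of the degree `p` subextension `L₁/K` would be
  trivial, so `J_K = Kˣ N J_{L₁}`, contradicting the first inequality);
* `exists_invJFun_eq_of_card_eq_pow`: the idele invariant on `H²(Gal(L/K), J_L)` takes the value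
  `1 / p ^ a` (helper11's `exists_invJFun_eq`).
-/

set_option autoImplicit false
set_option linter.style.haveILetI false
set_option linter.unusedSectionVars false

noncomputable section

namespace Fermat.Agent.CFT

namespace FullDecomp

section Group

/-- A cyclic group of order `p ^ a`, `a ≠ 0`, has a normal subgroup of index `p` which contains
every proper subgroup. -/
theorem exists_maximal_of_isCyclic_of_card_eq_pow {G : Type*} [Group G] [IsCyclic G] {p a : ℕ}
    [hp : Fact p.Prime] (ha : a ≠ 0) (hcard : Nat.card G = p ^ a) :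
    ∃ H : Subgroup G, H.Normal ∧ H.index = p ∧ ∀ D : Subgroup G, D ≠ ⊤ → D ≤ H := by
  obtain ⟨σ, hσ⟩ := IsCyclic.exists_generator (α := G)
  have hord : orderOf σ = p ^ a := by
    rw [orderOf_eq_card_of_forall_mem_zpowers hσ, hcard]
  refine ⟨Subgroup.zpowers (σ ^ p), ⟨?_⟩, ?_, ?_⟩
  · intro n hn g
    obtain ⟨i, rfl⟩ := Subgroup.mem_zpowers_iff.1 (hσ g)
    obtain ⟨j, rfl⟩ := Subgroup.mem_zpowers_iff.1 (hσ n)
    have : σ ^ i * σ ^ j * (σ ^ i)⁻¹ = σ ^ j := by
      rw [zpow_mul_comm, mul_inv_cancel_right]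
    rwa [this]
  · have h1 := Subgroup.index_mul_card (Subgroup.zpowers (σ ^ p))
    have hg : (p ^ a).gcd p = p := Nat.gcd_eq_right (dvd_pow_self p ha)
    rw [Nat.card_zpowers, orderOf_pow' σ hp.out.ne_zero, hord, hcard, hg] at h1
    obtain ⟨b, rfl⟩ := Nat.exists_eq_succ_of_ne_zero ha
    rw [pow_succ, Nat.mul_div_cancel _ hp.out.pos] at h1
    exact Nat.eq_of_mul_eq_mul_right (pow_pos hp.out.pos b) (by rw [h1, mul_comm])
  · intro D hD d hd
    obtain ⟨k, rfl⟩ := Subgroup.mem_zpowers_iff.1 (hσ d)
    by_cases hk : (p : ℤ) ∣ k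
    · obtain ⟨m, rfl⟩ := hk
      rw [Subgroup.mem_zpowers_iff]
      exact ⟨m, by rw [zpow_mul, zpow_natCast]⟩
    · exfalso
      apply hD
      have hcop : IsCoprime k ((p : ℤ) ^ a) :=
        (((Nat.prime_iff_prime_int.1 hp.out).irreducible.coprime_iff_not_dvd).2 hk).symm.pow_right
      obtain ⟨u, v, huv⟩ := hcop
      have h1 : σ ^ ((p : ℤ) ^ a) = 1 := by
        have h2 : ((p : ℤ) ^ a) = ((p ^ a : ℕ) : ℤ) := by push_cast; rfl
        rw [h2, zpow_natCast, ← hord, pow_orderOf_eq_one]
      have hσD : σ ∈ D := by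
        have h3 : σ = (σ ^ k) ^ u * (σ ^ ((p : ℤ) ^ a)) ^ v := by
          rw [← zpow_mul, ← zpow_mul, ← zpow_add, mul_comm k u, mul_comm _ v, huv, zpow_one]
        rw [h3, h1, one_zpow, mul_one]
        exact D.zpow_mem hd u
      rw [eq_top_iff]
      intro g _
      obtain ⟨j, rfl⟩ := Subgroup.mem_zpowers_iff.1 (hσ g)
      exact D.zpow_mem hσD j

end Group

section Restrict

variable {q : ℕ} [Fact q.Prime] (K : Type) [Field K] (E : Type) [Field E] {L : Type} [Field L]
  [Algebra K E] [Algebra K L] [Algebra E L] [IsScalarTower K E L] [Normal K E] [Normal K L]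

/-- Restriction of embeddings is transitive. -/
theorem localEmbRestrict_localEmbRestrict (τ' : LocalEmb q L) :
    localEmbRestrict K (localEmbRestrict E τ') = localEmbRestrict K τ' := by
  ext x
  show τ' (algebraMap E L (algebraMap K E x)) = τ' (algebraMap K L x)
  rw [← IsScalarTower.algebraMap_apply]

/-- **Decomposition groups surject under restriction**: every element of the decomposition group
of `τ'|_E` in `Gal(E/K)` is the restriction of an element of the decomposition group of `τ'` in
`Gal(L/K)`. -/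
theorem exists_mem_decompAt_restrictNormalHom_eq (τ' : LocalEmb q L) (g₁ : E ≃ₐ[K] E)
    (hg₁ : g₁ ∈ decompAt K (localEmbRestrict E τ')) :
    ∃ g ∈ decompAt K τ', AlgEquiv.restrictNormalHom E g = g₁ := by
  obtain ⟨γ, hγ⟩ := (mem_decompAt_iff K (localEmbRestrict E τ') g₁).1 hg₁
  have hγ' : γ ∈ localGalAt K τ' := by
    rw [mem_fixingSubgroup_localFieldAt_iff, ← localEmbRestrict_localEmbRestrict K E τ',
      ← localEmbRestrict_smul, hγ, localEmbRestrict_comp_algEquiv]
  obtain ⟨g, hg, -⟩ := exists_unique_smul_eq_comp K τ' ⟨γ, hγ'⟩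
  refine ⟨g, (mem_decompAt_iff K τ' g).2 ⟨γ, hg⟩, ?_⟩
  ext x
  apply (algebraMap E L).injective
  apply τ'.injective
  change τ' (algebraMap E L ((g.restrictNormal E) x)) = τ' (algebraMap E L (g₁ x))
  rw [AlgEquiv.restrictNormal_commutes]
  have h1 : γ (τ' (algebraMap E L x)) = τ' (g (algebraMap E L x)) :=
    congrArg (fun ρ : LocalEmb q L => ρ (algebraMap E L x)) hg
  have h2 : γ (τ' (algebraMap E L x)) = τ' (algebraMap E L (g₁ x)) :=
    congrArg (fun ρ : LocalEmb q E => ρ x) hγ
  rw [← h1, h2]

end Restrict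

end FullDecomp

/-- **[HFULL]** A cyclic extension `L/K` of number fields of degree `p ^ a` (`p` odd) has a place
whose decomposition group is the whole Galois group. -/
theorem exists_decompAt_eq_top_of_card_eq_pow (p : ℕ) [hp : Fact p.Prime] (hp2 : p ≠ 2)
    (K L : Type) [Field K] [Field L] [NumberField K] [NumberField L] [Algebra K L] [IsGalois K L]
    [IsCyclic (L ≃ₐ[K] L)] (a : ℕ) (hcard : Nat.card (L ≃ₐ[K] L) = p ^ a) :
    ∃ (q : Nat.Primes) (τ' : LocalEmb (q : ℕ) L), decompAt K τ' = ⊤ := by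
  rcases Nat.eq_zero_or_pos a with rfl | ha
  · rw [pow_zero] at hcard
    haveI : Subsingleton (L ≃ₐ[K] L) := (Nat.card_eq_one_iff_unique.1 hcard).1
    let q : Nat.Primes := ⟨2, Nat.prime_two⟩
    obtain ⟨τ'⟩ := FirstIneq.nonempty_localEmb (q : ℕ) L
    exact ⟨q, τ', Subsingleton.elim _ _⟩
  · by_contra hne
    push Not at hne
    obtain ⟨H, hHn, hHi, hHmax⟩ :=
      FullDecomp.exists_maximal_of_isCyclic_of_card_eq_pow ha.ne' hcard
    haveI := hHn
    haveI : FiniteDimensional K L := FiniteDimensional.right ℚ K L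
    haveI : IsGalois K (IntermediateField.fixedField H) :=
      IsGalois.of_fixedField_normal_subgroup H
    have hdeg : Module.finrank K (IntermediateField.fixedField H) = p := by
      rw [IntermediateField.finrank_eq_fixingSubgroup_index,
        IntermediateField.fixingSubgroup_fixedField, hHi]
    apply FirstIneq.principal_sup_norm_ne_top_of_finrank K (IntermediateField.fixedField H)
      hp.out hp2 hdeg
    rw [← FirstIneq.ideleNormSubgroup_eq]
    refine FirstIneq.principal_sup_norm_eq_top_of_split ∅ ?_ (IdeleDict.weakApprox_forall K)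
      (FirstIneq.principalIsIdele_numberField K)
    rintro q - τ₁ g₁ ⟨γ, hγ⟩
    haveI : Algebra.IsAlgebraic (IntermediateField.fixedField H) L :=
      Algebra.IsAlgebraic.of_finite _ L
    obtain ⟨τ', rfl⟩ :=
      localEmbRestrict_surjective (q := (q : ℕ)) (IntermediateField.fixedField H) (L := L) τ₁
    have hg₁ : g₁ ∈ decompAt K (localEmbRestrict (IntermediateField.fixedField H) τ') :=
      (mem_decompAt_iff K _ g₁).2 ⟨γ, hγ.symm⟩
    obtain ⟨g, hg, hgres⟩ := FullDecomp.exists_mem_decompAt_restrictNormalHom_eq K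
      (IntermediateField.fixedField H) τ' g₁ hg₁
    have hgH : g ∈ H := hHmax _ (hne q τ') hg
    rw [← hgres]
    ext x
    rw [AlgEquiv.restrictNormalHom_apply]
    exact x.2 ⟨g, hgH⟩

/-- **[HFULL], corollary**: for a cyclic extension `L/K` of number fields of degree `p ^ a`
(`p` odd), the idele invariant takes the value `1 / p ^ a` on `H²(Gal(L/K), J_L)`. -/
theorem exists_invJFun_eq_of_card_eq_pow (I : LocalInvFamily) (p : ℕ) [hp : Fact p.Prime]
    (hp2 : p ≠ 2) (K L : Type) [Field K] [Field L] [NumberField K] [NumberField L] [Algebra K L]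
    [IsGalois K L] [IsCyclic (L ≃ₐ[K] L)] (a : ℕ) (hcard : Nat.card (L ≃ₐ[K] L) = p ^ a) :
    ∃ x : groupCohomology (ideleRep L (L ≃ₐ[K] L)) 2,
      invJFun I K x = (((1 : ℚ) / ((p ^ a : ℕ) : ℚ) : ℚ) : AddCircle (1 : ℚ)) := by
  obtain ⟨q, τ', hfull⟩ := exists_decompAt_eq_top_of_card_eq_pow p hp2 K L a hcard
  haveI : FiniteDimensional K L := FiniteDimensional.right ℚ K L
  obtain ⟨x, hx⟩ := exists_invJFun_eq I K q τ' hfull
  refine ⟨x, ?_⟩
  rw [hx, ← IsGalois.card_aut_eq_finrank, hcard]

end Fermat.Agent.CFT
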