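import Fermat.Agent.CFT.Local.Instantiate
import Fermat.Agent.CFT.Local.PowIndexCor
import Fermat.Agent.CFT.Global.SemiLocal
import Fermat.Agent.CFT.Global.LocalGlobalNorm

/-!
# Layer C, node C3A (model instantiation, part M2): local power indices in the idele model

For a finite extension `E` of `ℚ_q` inside `PadicAlgCl q`:

* `LocalPow.isIntegral_iff_norm_le_one` : integral over `ℤ_q` iff norm `≤ 1`;
* `LocalPow.normOneUnits E` : the units of norm one, `LocalPow.intUnitsEquiv` : they are the units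
  of the ring of integers `PadicTower.intRing q E`;
* `LocalPow.index_range_pow_units` : `(Eˣ : Eˣᵖ) = p² · p ^ [E : ℚ_p]` (`q = p`), `= p²` (`q ≠ p`)
  if `E ∋ ζ_p`;
* `LocalPow.relIndex_pow_normOneUnits` : `(U_E : U_Eᵖ) = p` for `q ≠ p`.
-/

set_option autoImplicit false
set_option linter.unusedSectionVars false

open IsLocalRing

noncomputable section

namespace Fermat.Agent.CFT.LocalPow

open Polynomial

section Integral

variable {q : ℕ} [Fact q.Prime]

theorem norm_algebraMap_padicInt_le_one (c : ℤ_[q]) : ‖algebraMap ℤ_[q] (PadicAlgCl q) c‖ ≤ 1 := by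
  have h : algebraMap ℤ_[q] (PadicAlgCl q) c = algebraMap ℚ_[q] (PadicAlgCl q) (c : ℚ_[q]) := rfl
  rw [h]
  have h2 := PadicAlgCl.norm_extends q (c : ℚ_[q])
  rw [h2]
  exact PadicInt.norm_le_one c

/-- Elements integral over `ℤ_q` have norm at most one. -/
theorem norm_le_one_of_isIntegral {y : PadicAlgCl q} (hy : IsIntegral ℤ_[q] y) : ‖y‖ ≤ 1 := by
  by_contra hlt
  push Not at hlt
  obtain ⟨P, hPm, hP⟩ := hy
  rw [← Polynomial.aeval_def] at hP
  have hsum := Polynomial.aeval_eq_sum_range (p := P) y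
  rw [hP, Finset.sum_range_succ, hPm.coeff_natDegree, one_smul] at hsum
  have hyn : y ^ P.natDegree = - ∑ i ∈ Finset.range P.natDegree, P.coeff i • y ^ i :=
    eq_neg_of_add_eq_zero_right hsum.symm
  have hlt' : ‖∑ i ∈ Finset.range P.natDegree, P.coeff i • y ^ i‖ < ‖y‖ ^ P.natDegree := by
    by_cases hn : P.natDegree = 0
    · rw [hn, Finset.range_zero, Finset.sum_empty, norm_zero, pow_zero]; exact one_pos
    have hne : (Finset.range P.natDegree).Nonempty :=
      ⟨0, Finset.mem_range.mpr (Nat.pos_of_ne_zero hn)⟩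
    obtain ⟨i, hi, hle⟩ := IsUltrametricDist.exists_norm_finsetSum_le_of_nonempty hne
      (fun i => P.coeff i • y ^ i)
    refine lt_of_le_of_lt hle ?_
    rw [Algebra.smul_def, norm_mul, norm_pow]
    have h1 := norm_algebraMap_padicInt_le_one (P.coeff i)
    have h2 : ‖y‖ ^ i < ‖y‖ ^ P.natDegree := pow_lt_pow_right₀ hlt (Finset.mem_range.mp hi)
    calc ‖algebraMap ℤ_[q] (PadicAlgCl q) (P.coeff i)‖ * ‖y‖ ^ i ≤ 1 * ‖y‖ ^ i :=
          mul_le_mul_of_nonneg_right h1 (pow_nonneg (norm_nonneg _) _)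
      _ = ‖y‖ ^ i := one_mul _
      _ < ‖y‖ ^ P.natDegree := h2
  rw [← norm_pow, hyn, norm_neg] at hlt'
  exact lt_irrefl _ hlt'

/-- Elements of norm at most one are integral over `ℤ_q`. -/
theorem isIntegral_of_norm_le_one {y : PadicAlgCl q} (hy : ‖y‖ ≤ 1) : IsIntegral ℤ_[q] y := by
  have hyint : IsIntegral ℚ_[q] y := (PadicAlgCl.isAlgebraic q).isIntegral.isIntegral y
  have hmon : (minpoly ℚ_[q] y).Monic := minpoly.monic hyint
  have hsv : spectralValue (minpoly ℚ_[q] y) ≤ 1 := by
    have : spectralNorm ℚ_[q] (PadicAlgCl q) y = ‖y‖ := PadicAlgCl.spectralNorm_eq q y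
    rw [spectralNorm] at this
    rw [this]
    exact hy
  have hcoeff := (spectralValue_le_one_iff hmon).1 hsv
  have hlift : minpoly ℚ_[q] y ∈ Polynomial.lifts (algebraMap ℤ_[q] ℚ_[q]) := by
    rw [Polynomial.lifts_iff_coeff_lifts]
    intro n
    exact ⟨⟨(minpoly ℚ_[q] y).coeff n, hcoeff n⟩, rfl⟩
  obtain ⟨Q, hQmap, -, hQmon⟩ := Polynomial.lifts_and_natDegree_eq_and_monic hlift hmon
  refine ⟨Q, hQmon, ?_⟩
  have h1 : Polynomial.eval₂ (algebraMap ℤ_[q] (PadicAlgCl q)) y Q =
      Polynomial.eval₂ (algebraMap ℚ_[q] (PadicAlgCl q)) y (Q.map (algebraMap ℤ_[q] ℚ_[q])) := by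
    rw [Polynomial.eval₂_map]
    rfl
  rw [h1, hQmap, ← Polynomial.aeval_def, minpoly.aeval]

theorem isIntegral_iff_norm_le_one {y : PadicAlgCl q} : IsIntegral ℤ_[q] y ↔ ‖y‖ ≤ 1 :=
  ⟨norm_le_one_of_isIntegral, isIntegral_of_norm_le_one⟩

end Integral

section GroupLemmas

variable {G H : Type*} [CommGroup G] [CommGroup H]

/-- `[U : Uⁿ]` as the index of the range of the `n`-th power map of `U`. -/
theorem relIndex_map_pow_eq_index_range (U : Subgroup G) (n : ℕ) :
    (U.map (powMonoidHom n)).relIndex U = (powMonoidHom n : U →* U).range.index := by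
  rw [Subgroup.relIndex]
  congr 1
  ext x
  rw [Subgroup.mem_subgroupOf, Subgroup.mem_map, MonoidHom.mem_range]
  constructor
  · rintro ⟨y, hy, hyx⟩
    exact ⟨⟨y, hy⟩, Subtype.ext hyx⟩
  · rintro ⟨y, hy⟩
    exact ⟨y.1, y.2, congrArg Subtype.val hy⟩

/-- The index of the `n`-th powers is invariant under isomorphism. -/
theorem index_range_pow_of_mulEquiv (e : G ≃* H) (n : ℕ) :
    (powMonoidHom n : G →* G).range.index = (powMonoidHom n : H →* H).range.index := by
  rw [← Subgroup.index_map_equiv (powMonoidHom n : G →* G).range e]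
  congr 1
  ext x
  rw [Subgroup.mem_map, MonoidHom.mem_range]
  constructor
  · rintro ⟨y, ⟨z, rfl⟩, rfl⟩
    exact ⟨e z, by simp⟩
  · rintro ⟨z, rfl⟩
    exact ⟨e.symm z ^ n, ⟨e.symm z, rfl⟩, by simp⟩

end GroupLemmas

section Units

variable {q : ℕ} [Fact q.Prime] (E : IntermediateField ℚ_[q] (PadicAlgCl q))

/-- The units of norm one of a subfield `E` of `ℚ̄_q`. -/
def normOneUnits : Subgroup Eˣ where
  carrier := {u | ‖(((u : Eˣ) : E) : PadicAlgCl q)‖ = 1}
  mul_mem' {u v} hu hv := by
    simp only [Set.mem_ofPred_eq] at hu hv ⊢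
    rw [Units.val_mul, IntermediateField.coe_mul, norm_mul, hu, hv, mul_one]
  one_mem' := by
    simp
  inv_mem' {u} hu := by
    simp only [Set.mem_ofPred_eq] at hu ⊢
    rw [Units.val_inv_eq_inv_val, IntermediateField.coe_inv, norm_inv, hu, inv_one]

variable {E}

theorem mem_normOneUnits {u : Eˣ} :
    u ∈ normOneUnits E ↔ ‖(((u : Eˣ) : E) : PadicAlgCl q)‖ = 1 := Iff.rfl

theorem mem_intRing_iff (x : E) :
    x ∈ PadicTower.intRing q E ↔ ‖(x : PadicAlgCl q)‖ ≤ 1 := by
  rw [PadicTower.intRing, Tower.mem_integralClosure_iff_coe, isIntegral_iff_norm_le_one]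

variable (E)

/-- The inclusion of the units of the ring of integers into the units of `E`. -/
def intUnitsHom : (PadicTower.intRing q E)ˣ →* Eˣ :=
  Units.map ((PadicTower.intRing q E).val : PadicTower.intRing q E →* E)

theorem intUnitsHom_injective : Function.Injective (intUnitsHom E) := by
  intro u v h
  apply Units.ext
  apply Subtype.ext
  exact congrArg (fun w : Eˣ => (w : E)) h

theorem range_intUnitsHom : (intUnitsHom E).range = normOneUnits E := by
  ext u
  rw [MonoidHom.mem_range, mem_normOneUnits]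
  constructor
  · rintro ⟨w, rfl⟩
    have h1 : ‖(((w : PadicTower.intRing q E) : E) : PadicAlgCl q)‖ ≤ 1 :=
      (mem_intRing_iff _).1 (w : PadicTower.intRing q E).2
    have h2 : ‖((((w⁻¹ : (PadicTower.intRing q E)ˣ) : PadicTower.intRing q E) : E) :
        PadicAlgCl q)‖ ≤ 1 :=
      (mem_intRing_iff _).1 ((w⁻¹ : (PadicTower.intRing q E)ˣ) : PadicTower.intRing q E).2
    have h3 : (((w : PadicTower.intRing q E) : E) : PadicAlgCl q) *
        ((((w⁻¹ : (PadicTower.intRing q E)ˣ) : PadicTower.intRing q E) : E) : PadicAlgCl q) = 1 := by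
      have h := w.mul_inv
      have h5 : (((((w : PadicTower.intRing q E) *
          ((w⁻¹ : (PadicTower.intRing q E)ˣ) : PadicTower.intRing q E) :
            PadicTower.intRing q E)) : E) : PadicAlgCl q) = 1 := by
        rw [h]; rfl
      exact h5
    have h4 := congrArg norm h3
    rw [norm_mul, norm_one] at h4
    show ‖(((w : PadicTower.intRing q E) : E) : PadicAlgCl q)‖ = 1
    by_contra hne
    have hlt : ‖(((w : PadicTower.intRing q E) : E) : PadicAlgCl q)‖ < 1 := lt_of_le_of_ne h1 hne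
    have : ‖(((w : PadicTower.intRing q E) : E) : PadicAlgCl q)‖ *
        ‖((((w⁻¹ : (PadicTower.intRing q E)ˣ) : PadicTower.intRing q E) : E) : PadicAlgCl q)‖ < 1 := by
      calc _ ≤ ‖(((w : PadicTower.intRing q E) : E) : PadicAlgCl q)‖ * 1 :=
            mul_le_mul_of_nonneg_left h2 (norm_nonneg _)
        _ < 1 := by rw [mul_one]; exact hlt
    rw [h4] at this
    exact lt_irrefl _ this
  · intro hu
    have hu' : ‖((((u⁻¹ : Eˣ) : E)) : PadicAlgCl q)‖ = 1 := (normOneUnits E).inv_mem hu
    refine ⟨⟨⟨(u : E), (mem_intRing_iff _).2 hu.le⟩, ⟨((u⁻¹ : Eˣ) : E), (mem_intRing_iff _).2 hu'.le⟩,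
      ?_, ?_⟩, ?_⟩
    · apply Subtype.ext
      simp
    · apply Subtype.ext
      simp
    · apply Units.ext
      rfl

/-- The units of the ring of integers of `E` are the units of norm one. -/
def intUnitsEquiv : (PadicTower.intRing q E)ˣ ≃* normOneUnits E :=
  (MonoidHom.ofInjective (intUnitsHom_injective E)).trans
    (MulEquiv.subgroupCongr (range_intUnitsHom E))

end Units

section Index

variable {q : ℕ} [Fact q.Prime] (E : IntermediateField ℚ_[q] (PadicAlgCl q))
  [FiniteDimensional ℚ_[q] E]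

/-- A prime `p ≠ q` is a unit of the ring of integers of `E`. -/
theorem isUnit_natCast_intRing {p : ℕ} (hp : p.Prime) (hqp : q ≠ p) :
    IsUnit ((p : ℕ) : PadicTower.intRing q E) := by
  have h1 : IsUnit ((p : ℕ) : ℤ_[q]) := by
    rw [PadicInt.isUnit_iff, PadicInt.norm_natCast_eq_one_iff]
    exact (Nat.coprime_primes (Fact.out : q.Prime) hp).2 hqp
  have h2 := h1.map (algebraMap ℤ_[q] (PadicTower.intRing q E))
  rwa [map_natCast] at h2

/-- A primitive root of unity of `E` lies in the ring of integers. -/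
theorem exists_isPrimitiveRoot_intRing {p : ℕ} (hp : p ≠ 0) {ζ : E} (hζ : IsPrimitiveRoot ζ p) :
    ∃ ζ' : PadicTower.intRing q E, IsPrimitiveRoot ζ' p := by
  have hmem : ζ ∈ PadicTower.intRing q E := by
    rw [mem_intRing_iff]
    have h1 : ((ζ : E) : PadicAlgCl q) ^ p = 1 := by
      have := congrArg (fun z : E => (z : PadicAlgCl q)) hζ.pow_eq_one
      simpa using this
    have h2 : ‖((ζ : E) : PadicAlgCl q)‖ ^ p = 1 := by rw [← norm_pow, h1, norm_one]
    exact ((pow_eq_one_iff_of_nonneg (norm_nonneg _) hp).1 h2).le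
  refine ⟨⟨ζ, hmem⟩, ?_⟩
  have hinj : Function.Injective ((PadicTower.intRing q E).val) := Subtype.val_injective
  exact IsPrimitiveRoot.of_map_of_injective (f := (PadicTower.intRing q E).val)
    (by simpa using hζ) hinj

/-- **Index of `p`-th powers in a local field of the model**: `(Eˣ : Eˣᵖ) = p² · p ^ [E : ℚ_p]` if
`q = p` and `p²` otherwise, for `E ∋ ζ_p`. -/
theorem index_range_pow_units {p : ℕ} (hp : p.Prime) {ζ : E} (hζ : IsPrimitiveRoot ζ p) :
    (powMonoidHom p : Eˣ →* Eˣ).range.index =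
      p * p * (if q = p then p ^ Module.finrank ℚ_[q] E else 1) := by
  have := PadicTower.intRing_isLocalRing q E
  have := PadicTower.intRing_isDiscreteValuationRing q E
  have := PadicTower.intRing_isAdicComplete q E
  have := PadicTower.intRing_finite_residueField q E
  have := PadicTower.intRing_isFractionRing q E
  have := PadicTower.intRing_module_finite q E
  have hne : ((p : ℕ) : PadicTower.intRing q E) ≠ 0 :=
    PowIndex.natCast_ne_zero_of_charZero (PadicTower.intRing q E) E p hp.ne_zero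
  have h := PowIndex.card_quotient_range_pow_unitsField_of_isPrimitiveRoot
    (PadicTower.intRing q E) E p hne hζ
  rw [Subgroup.index_eq_card, h]
  congr 1
  split_ifs with hqp
  · subst hqp
    have htf : Module.IsTorsionFree ℤ_[q] E := by
      rw [Module.isTorsionFree_iff_algebraMap_injective]
      have h0 : (algebraMap ℤ_[q] E : ℤ_[q] → E) =
          (algebraMap ℚ_[q] E) ∘ (algebraMap ℤ_[q] ℚ_[q]) := by
        funext c
        rfl
      rw [h0]
      exact (algebraMap ℚ_[q] E).injective.comp (IsFractionRing.injective ℤ_[q] ℚ_[q])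
    have : Module.Free ℤ_[q] (PadicTower.intRing q E) :=
      IsIntegralClosure.module_free ℤ_[q] ℚ_[q] E (PadicTower.intRing q E)
    rw [PowIndex.card_quotient_span_prime_padicInt q (PadicTower.intRing q E),
      IsIntegralClosure.rank ℤ_[q] ℚ_[q] E (PadicTower.intRing q E)]
  · exact PowIndex.card_quotient_span_natCast_of_isUnit (PadicTower.intRing q E) p
      (isUnit_natCast_intRing E hp hqp)

/-- **Tame unit index**: `(U_E : U_Eᵖ) = p` for `q ≠ p`, `E ∋ ζ_p`. -/
theorem relIndex_pow_normOneUnits {p : ℕ} (hp : p.Prime) (hqp : q ≠ p) {ζ : E}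
    (hζ : IsPrimitiveRoot ζ p) :
    ((normOneUnits E).map (powMonoidHom p)).relIndex (normOneUnits E) = p := by
  have := PadicTower.intRing_isLocalRing q E
  have := PadicTower.intRing_isDiscreteValuationRing q E
  have := PadicTower.intRing_isAdicComplete q E
  have := PadicTower.intRing_finite_residueField q E
  obtain ⟨ζ', hζ'⟩ := exists_isPrimitiveRoot_intRing E hp.ne_zero hζ
  rw [relIndex_map_pow_eq_index_range, ← index_range_pow_of_mulEquiv (intUnitsEquiv E) p]
  exact PowIndex.index_range_pow_units_of_isUnit_of_isPrimitiveRoot (PadicTower.intRing q E) p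
    (isUnit_natCast_intRing E hp hqp) hζ'

end Index

section DegreeSum

variable {q : ℕ} [Fact q.Prime] {K : Type} [Field K] [NumberField K]

/-- The size of the `Gq`-orbit of `τ` is the local degree `[K_τ : ℚ_q]`. -/
theorem card_orbit_eq_finrank (τ : LocalEmb q K) :
    Nat.card (MulAction.orbit (Gq q) τ) = Module.finrank ℚ_[q] (localFieldAt τ) := by
  have : FiniteDimensional ℚ_[q] (CycloRecip.locField τ) := CycloRecip.finiteDimensional_locField τ
  rw [← Nat.card_congr (CycloRecip.orbitEquiv τ)]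
  exact AlgHom.natCard_of_splits ℚ_[q] (CycloRecip.locField τ) (PadicAlgCl q)
    (fun _ => IsAlgClosed.splits _)

/-- **Sum of the local degrees**: `∑_{v ∣ q} [K_v : ℚ_q] = [K : ℚ]`. -/
theorem sum_finrank_localFieldAt [Fintype (LocalPlace q K)] :
    ∑ ω : LocalPlace q K, Module.finrank ℚ_[q] (localFieldAt ω.emb) = Module.finrank ℚ K := by
  rw [← card_localEmb (q := q) (K := K),
    Nat.card_congr (MulAction.selfEquivSigmaOrbits (Gq q) (LocalEmb q K)), Nat.card_sigma]
  exact Finset.sum_congr rfl fun ω _ => (card_orbit_eq_finrank ω.emb).symm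

end DegreeSum

end Fermat.Agent.CFT.LocalPow
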