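import Fermat.Agent.CFT.Global.SemiLocal

/-!
# Layer C / C1a: local structure of the semi-local units (part 2: decomposition groups)

`L/K` a normal extension of fields, `H = Gal(L/K) = L ≃ₐ[K] L`, `τ' : LocalEmb q L` an embedding of
`L` into `ℚ̄_q` with restriction `τ` to `K`; `K_τ ≤ L_τ'` the local fields (`localFieldAt`).

* `decompHom τ' : Gal(ℚ̄_q/K_τ) →* H`, `γ ↦ σ` with `γ ∘ τ' = τ' ∘ σ`; its kernel is
  `Gal(ℚ̄_q/L_τ')` and its range is the decomposition group
  `decompAt τ' = {σ | ∃ γ : Gq, γ • τ' = τ' ∘ σ}`;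
* `L_τ'/K_τ` is normal (`normal_localLayer`) and
  `decompEquiv τ' : Gal(L_τ'/K_τ) ≃* decompAt τ'` with `g (τ' x) = τ' (decompEquiv τ' g x)`.
-/

set_option autoImplicit false
set_option linter.unusedSectionVars false
set_option linter.style.haveILetI false

open scoped Pointwise

noncomputable section

namespace Fermat.Agent.CFT

open Fermat.Agent.CFT.GaloisTower

variable {q : ℕ} [Fact q.Prime] (K : Type) [Field K] {L : Type} [Field L] [Algebra K L]

local notation "Ω" => PadicAlgCl q

/-- `K_τ ≤ L_τ'` for `τ = τ'|_K`. -/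
theorem localFieldAt_restrict_le (τ' : LocalEmb q L) :
    localFieldAt (localEmbRestrict K τ') ≤ localFieldAt τ' := by
  rw [localFieldAt, IntermediateField.adjoin_le_iff]
  rintro _ ⟨x, rfl⟩
  exact apply_mem_localFieldAt τ' (algebraMap K L x)

/-- `L_{τ'∘σ} = L_τ'` for an automorphism `σ` of `L`. -/
theorem localFieldAt_comp_algEquiv (τ' : LocalEmb q L) (σ : L ≃ₐ[K] L) :
    localFieldAt (τ'.comp (σ : L →+* L)) = localFieldAt τ' := by
  rw [localFieldAt, localFieldAt]
  congr 1
  ext y
  constructor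
  · rintro ⟨x, rfl⟩
    exact ⟨σ x, rfl⟩
  · rintro ⟨x, rfl⟩
    exact ⟨σ.symm x, by simp⟩

variable [Normal K L]

/-- The absolute Galois group of `K_τ`, `τ = τ'|_K`, as a subgroup of `Gq`. -/
abbrev localGalAt (τ' : LocalEmb q L) : Subgroup (Gq q) :=
  (localFieldAt (localEmbRestrict K τ')).fixingSubgroup

theorem exists_unique_smul_eq_comp (τ' : LocalEmb q L) (γ : localGalAt K τ') :
    ∃! σ : L ≃ₐ[K] L, (γ : Gq q) • τ' = τ'.comp (σ : L →+* L) := by
  apply exists_unique_algEquiv_comp K
  rw [localEmbRestrict_smul]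
  exact ((mem_fixingSubgroup_localFieldAt_iff _ _).1 γ.2).symm

/-- The automorphism of `L` induced by an element of `Gal(ℚ̄_q/K_τ)` through `τ'`. -/
def decompFun (τ' : LocalEmb q L) (γ : localGalAt K τ') : L ≃ₐ[K] L :=
  (exists_unique_smul_eq_comp K τ' γ).exists.choose

theorem smul_eq_comp_decompFun (τ' : LocalEmb q L) (γ : localGalAt K τ') :
    (γ : Gq q) • τ' = τ'.comp (decompFun K τ' γ : L →+* L) :=
  (exists_unique_smul_eq_comp K τ' γ).exists.choose_spec

theorem apply_apply_eq_decompFun (τ' : LocalEmb q L) (γ : localGalAt K τ') (x : L) :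
    (γ : Gq q) (τ' x) = τ' (decompFun K τ' γ x) :=
  congrArg (fun ρ : LocalEmb q L => ρ x) (smul_eq_comp_decompFun K τ' γ)

theorem decompFun_eq_iff (τ' : LocalEmb q L) (γ : localGalAt K τ') (σ : L ≃ₐ[K] L) :
    decompFun K τ' γ = σ ↔ (γ : Gq q) • τ' = τ'.comp (σ : L →+* L) := by
  constructor
  · rintro rfl
    exact smul_eq_comp_decompFun K τ' γ
  · intro h
    exact (exists_unique_smul_eq_comp K τ' γ).unique (smul_eq_comp_decompFun K τ' γ) h

/-- The homomorphism `Gal(ℚ̄_q/K_τ) → Gal(L/K)`, `γ ↦ σ` with `γ ∘ τ' = τ' ∘ σ`. -/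
def decompHom (τ' : LocalEmb q L) : localGalAt K τ' →* (L ≃ₐ[K] L) :=
  MonoidHom.mk' (decompFun K τ') (by
    intro γ δ
    rw [decompFun_eq_iff]
    ext x
    show (γ : Gq q) ((δ : Gq q) (τ' x)) = τ' (decompFun K τ' γ (decompFun K τ' δ x))
    rw [apply_apply_eq_decompFun, apply_apply_eq_decompFun])

theorem decompHom_apply (τ' : LocalEmb q L) (γ : localGalAt K τ') :
    decompHom K τ' γ = decompFun K τ' γ := rfl

theorem apply_apply_eq_decompHom (τ' : LocalEmb q L) (γ : localGalAt K τ') (x : L) :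
    (γ : Gq q) (τ' x) = τ' (decompHom K τ' γ x) :=
  apply_apply_eq_decompFun K τ' γ x

theorem decompHom_eq_iff (τ' : LocalEmb q L) (γ : localGalAt K τ') (σ : L ≃ₐ[K] L) :
    decompHom K τ' γ = σ ↔ (γ : Gq q) • τ' = τ'.comp (σ : L →+* L) :=
  decompFun_eq_iff K τ' γ σ

theorem mem_ker_decompHom_iff (τ' : LocalEmb q L) (γ : localGalAt K τ') :
    γ ∈ (decompHom K τ').ker ↔ (γ : Gq q) ∈ (localFieldAt τ').fixingSubgroup := by
  rw [MonoidHom.mem_ker, decompHom_eq_iff, mem_fixingSubgroup_localFieldAt_iff]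
  constructor
  · intro h
    rw [h]
    ext x
    rfl
  · intro h
    rw [h]
    ext x
    rfl

/-- The decomposition group of the place defined by `τ'`. -/
abbrev decompAt (τ' : LocalEmb q L) : Subgroup (L ≃ₐ[K] L) := (decompHom K τ').range

theorem mem_decompAt_iff (τ' : LocalEmb q L) (σ : L ≃ₐ[K] L) :
    σ ∈ decompAt K τ' ↔ ∃ γ : Gq q, γ • τ' = τ'.comp (σ : L →+* L) := by
  constructor
  · rintro ⟨γ, rfl⟩
    exact ⟨γ, smul_eq_comp_decompFun K τ' γ⟩
  · rintro ⟨γ, hγ⟩
    have hγ' : γ ∈ localGalAt K τ' := by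
      rw [mem_fixingSubgroup_localFieldAt_iff, ← localEmbRestrict_smul, hγ,
        localEmbRestrict_comp_algEquiv]
    exact ⟨⟨γ, hγ'⟩, (decompHom_eq_iff K τ' ⟨γ, hγ'⟩ σ).2 hγ⟩

/-- `Gal(ℚ̄_q/K_τ)` preserves `L_τ'`. -/
theorem apply_mem_localFieldAt_of_mem (τ' : LocalEmb q L) (γ : localGalAt K τ') {y : Ω}
    (hy : y ∈ localFieldAt τ') : (γ : Gq q) y ∈ localFieldAt τ' := by
  induction hy using IntermediateField.adjoin_induction with
  | mem y hy =>
    obtain ⟨x, rfl⟩ := hy
    rw [apply_apply_eq_decompHom]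
    exact apply_mem_localFieldAt τ' _
  | algebraMap r =>
    rw [AlgEquiv.commutes]
    exact IntermediateField.algebraMap_mem _ _
  | add y z _ _ hy hz => rw [map_add]; exact add_mem hy hz
  | inv y _ hy => rw [map_inv₀]; exact inv_mem hy
  | mul y z _ _ hy hz => rw [map_mul]; exact mul_mem hy hz

/-- The local layer `L_τ'/K_τ`. -/
abbrev localLayer (τ' : LocalEmb q L) :
    IntermediateField (localFieldAt (localEmbRestrict K τ')) Ω :=
  layer (localFieldAt_restrict_le K τ')

/-- `L_τ'/K_τ` is normal. -/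
theorem normal_localLayer (τ' : LocalEmb q L) :
    Normal (localFieldAt (localEmbRestrict K τ')) (localLayer K τ') := by
  haveI : Normal (localFieldAt (localEmbRestrict K τ')) Ω :=
    Normal.tower_top_of_normal ℚ_[q] _ Ω
  rw [IntermediateField.normal_iff_forall_map_le']
  intro σ
  rintro _ ⟨y, hy, rfl⟩
  exact apply_mem_localFieldAt_of_mem K τ'
    ((IntermediateField.fixingSubgroupEquiv _).symm σ) hy

instance instNormalLocalLayer (τ' : LocalEmb q L) :
    Normal (localFieldAt (localEmbRestrict K τ')) (localLayer K τ') :=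
  normal_localLayer K τ'

/-- `L_τ'/K_τ` is Galois. -/
theorem isGalois_localLayer (τ' : LocalEmb q L) :
    IsGalois (localFieldAt (localEmbRestrict K τ')) (localLayer K τ') :=
  { to_isSeparable := inferInstance
    to_normal := normal_localLayer K τ' }

/-- `L_τ'/K_τ` is finite when `L` is a number field. -/
theorem finiteDimensional_localLayer [NumberField L] (τ' : LocalEmb q L) :
    FiniteDimensional (localFieldAt (localEmbRestrict K τ')) (localLayer K τ') := by
  haveI := finiteDimensional_localFieldAt τ'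
  exact finiteDimensional_layer (localFieldAt_restrict_le K τ')

theorem ker_layerRes_eq_ker_decompHom (τ' : LocalEmb q L) :
    (layerRes (localFieldAt_restrict_le K τ')).ker = (decompHom K τ').ker := by
  ext γ
  rw [mem_ker_layerRes_iff, mem_ker_decompHom_iff]

section TwoSurj

variable {U A B : Type*} [Group U] [Group A] [Group B]

/-- Two surjective homomorphisms with the same kernel have isomorphic targets. -/
def equivOfSurjOfKerEq (f : U →* A) (g : U →* B) (hf : Function.Surjective f)
    (hg : Function.Surjective g) (h : f.ker = g.ker) : A ≃* B :=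
  (QuotientGroup.quotientKerEquivOfSurjective f hf).symm.trans
    ((QuotientGroup.quotientMulEquivOfEq h).trans
      (QuotientGroup.quotientKerEquivOfSurjective g hg))

theorem equivOfSurjOfKerEq_apply (f : U →* A) (g : U →* B) (hf : Function.Surjective f)
    (hg : Function.Surjective g) (h : f.ker = g.ker) (u : U) :
    equivOfSurjOfKerEq f g hf hg h (f u) = g u := by
  have h1 : (QuotientGroup.quotientKerEquivOfSurjective f hf).symm (f u) =
      (QuotientGroup.mk u : U ⧸ f.ker) := by
    rw [MulEquiv.symm_apply_eq]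
    rfl
  simp only [equivOfSurjOfKerEq, MulEquiv.trans_apply, h1]
  rfl

end TwoSurj

/-- **The decomposition group is the local Galois group**: `Gal(L_τ'/K_τ) ≃* decompAt τ'`. -/
def decompEquiv (τ' : LocalEmb q L) :
    ((localLayer K τ') ≃ₐ[localFieldAt (localEmbRestrict K τ')] (localLayer K τ')) ≃*
      decompAt K τ' :=
  equivOfSurjOfKerEq (layerRes (localFieldAt_restrict_le K τ')) (decompHom K τ').rangeRestrict
    (layerRes_surjective _) (decompHom K τ').rangeRestrict_surjective
    (by rw [MonoidHom.ker_rangeRestrict]; exact ker_layerRes_eq_ker_decompHom K τ')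

theorem decompEquiv_layerRes (τ' : LocalEmb q L) (γ : localGalAt K τ') :
    ((decompEquiv K τ' (layerRes (localFieldAt_restrict_le K τ') γ) : decompAt K τ') :
      L ≃ₐ[K] L) = decompHom K τ' γ := by
  rw [decompEquiv, equivOfSurjOfKerEq_apply]
  rfl

/-- The defining formula: `g (τ' x) = τ' (σ x)` for `σ = decompEquiv τ' g`. -/
theorem apply_apply_eq_decompEquiv (τ' : LocalEmb q L)
    (g : (localLayer K τ') ≃ₐ[localFieldAt (localEmbRestrict K τ')] (localLayer K τ')) (x : L) :
    ((g (⟨τ' x, apply_mem_localFieldAt τ' x⟩ : localLayer K τ') : localLayer K τ') : Ω) =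
      τ' (((decompEquiv K τ' g : decompAt K τ') : L ≃ₐ[K] L) x) := by
  obtain ⟨γ, rfl⟩ := layerRes_surjective (localFieldAt_restrict_le K τ') g
  rw [decompEquiv_layerRes, layerRes_apply]
  exact apply_apply_eq_decompHom K τ' γ x

/-- The action of `s ∈ decompAt τ'` on `L_τ'` is the action of any `γ` inducing `s`. -/
theorem decompEquiv_symm_apply_eq (τ' : LocalEmb q L) (γ : localGalAt K τ')
    (y : localLayer K τ') :
    (((decompEquiv K τ').symm ⟨decompHom K τ' γ, γ, rfl⟩ y : localLayer K τ') : Ω) =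
      (γ : Gq q) (y : Ω) := by
  have h : (decompEquiv K τ').symm ⟨decompHom K τ' γ, γ, rfl⟩ =
      layerRes (localFieldAt_restrict_le K τ') γ := by
    rw [MulEquiv.symm_apply_eq]
    exact Subtype.ext (decompEquiv_layerRes K τ' γ).symm
  rw [h, layerRes_apply]

end Fermat.Agent.CFT

end
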