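import Mathlib
import Fermat.Agent.CFT.Global.SemiLocalGalois
import Fermat.Agent.CFT.Global.LocalPowIndex

/-!
# Layer C: the degree-sum formula `∑_{w ∣ v} [L_w : K_v] = [L : K]` in the embedding model

`L/K` an extension of number fields (not necessarily Galois), `q` a prime, `ω₁` a place of `K`
above `q` (a `Gq`-orbit of embeddings `K → ℚ̄_q`).

* `card_restrictFibre` : an embedding of `K` has exactly `[L : K]` extensions to `L`;
* `card_place_fibre` : a place `ω` is defined by `[K_ω : ℚ_q]` embeddings;
* `finrank_localFieldAt_eq_of_place_eq`, `place_localEmbRestrict_eq_of_place_eq`,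
  `finrank_localFieldAt_mul_finrank_layer` (tower law);
* `sum_localDegree_eq_finrank` (`Finset` form) and `finsum_localDegree_eq_finrank` (`finsum` over the
  subtype of places above `ω₁`): the degree-sum formula.
-/

set_option autoImplicit false
set_option linter.unusedSectionVars false
set_option linter.style.haveILetI false

noncomputable section

namespace Fermat.Agent.CFT

open Fermat.Agent.CFT.GaloisTower

variable {q : ℕ} [Fact q.Prime] (K : Type) [Field K] {L : Type} [Field L] [Algebra K L]

local notation "Ω" => PadicAlgCl q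

section Fibre

variable [NumberField K] [NumberField L]

/-- The extensions of an embedding `τ₁` of `K` to `L` are the `K`-algebra maps `L → Ω`. -/
def restrictFibreEquiv (τ₁ : LocalEmb q K) :
    letI : Algebra K Ω := τ₁.toAlgebra
    {τ₂ : LocalEmb q L // localEmbRestrict K τ₂ = τ₁} ≃ (L →ₐ[K] Ω) :=
  letI : Algebra K Ω := τ₁.toAlgebra
  { toFun := fun τ₂ =>
      { (τ₂.1 : L →+* Ω) with
        commutes' := fun x => by
          exact congrArg (fun ρ : LocalEmb q K => ρ x) τ₂.2 }
    invFun := fun φ => ⟨φ.toRingHom, by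
      ext x
      exact φ.commutes x⟩
    left_inv := fun τ₂ => by
      apply Subtype.ext
      rfl
    right_inv := fun φ => by
      ext x
      rfl }

/-- An embedding of `K` has exactly `[L : K]` extensions to `L`. -/
theorem card_restrictFibre (τ₁ : LocalEmb q K) :
    Nat.card {τ₂ : LocalEmb q L // localEmbRestrict K τ₂ = τ₁} = Module.finrank K L := by
  letI : Algebra K Ω := τ₁.toAlgebra
  haveI : FiniteDimensional K L := FiniteDimensional.right ℚ K L
  rw [Nat.card_congr (restrictFibreEquiv K τ₁)]
  exact AlgHom.natCard_of_splits K L Ω (fun _ => IsAlgClosed.splits _)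

end Fibre

section Places

variable {K}

theorem LocalEmb.place_eq_iff_mem_orbit (τ τ' : LocalEmb q K) :
    τ.place = τ'.place ↔ τ ∈ MulAction.orbit (Gq q) τ' := by
  rw [← MulAction.orbitRel_apply]
  exact Quotient.eq

theorem LocalEmb.place_eq_iff_mem_orbit_emb (τ : LocalEmb q K) (ω : LocalPlace q K) :
    τ.place = ω ↔ τ ∈ MulAction.orbit (Gq q) ω.emb := by
  rw [← LocalEmb.place_eq_iff_mem_orbit, ω.place_emb]

variable [NumberField K]

/-- The number of embeddings defining the place `ω` is the local degree `[K_ω : ℚ_q]`. -/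
theorem card_place_fibre (ω : LocalPlace q K) :
    Nat.card {τ : LocalEmb q K // τ.place = ω} = Module.finrank ℚ_[q] (localFieldAt ω.emb) := by
  rw [← LocalPow.card_orbit_eq_finrank ω.emb]
  exact Nat.card_congr (Equiv.subtypeEquivRight fun τ => τ.place_eq_iff_mem_orbit_emb ω)

/-- The local degree over `ℚ_q` depends only on the place. -/
theorem finrank_localFieldAt_eq_of_place_eq {τ τ' : LocalEmb q K} (h : τ.place = τ'.place) :
    Module.finrank ℚ_[q] (localFieldAt τ) = Module.finrank ℚ_[q] (localFieldAt τ') := by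
  rw [← LocalPow.card_orbit_eq_finrank, ← LocalPow.card_orbit_eq_finrank]
  have : MulAction.orbit (Gq q) τ = MulAction.orbit (Gq q) τ' :=
    MulAction.orbit_eq_iff.2 ((LocalEmb.place_eq_iff_mem_orbit τ τ').1 h)
  rw [this]

end Places

section Restrict

/-- The place of the restriction depends only on the place. -/
theorem place_localEmbRestrict_eq_of_place_eq {τ τ' : LocalEmb q L} (h : τ.place = τ'.place) :
    (localEmbRestrict K τ).place = (localEmbRestrict K τ').place := by
  obtain ⟨γ, hγ⟩ := (LocalEmb.place_eq_iff_mem_orbit τ τ').1 h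
  rw [← hγ]
  exact LocalEmb.place_smul γ (localEmbRestrict K τ')

variable [NumberField K] [NumberField L]

/-- Tower law: `[K_τ : ℚ_q] · [L_τ' : K_τ] = [L_τ' : ℚ_q]`. -/
theorem finrank_localFieldAt_mul_finrank_layer (τ' : LocalEmb q L) :
    Module.finrank ℚ_[q] (localFieldAt (localEmbRestrict K τ')) *
      Module.finrank (localFieldAt (localEmbRestrict K τ'))
        (layer (localFieldAt_restrict_le K τ')) =
      Module.finrank ℚ_[q] (localFieldAt τ') :=
  Module.finrank_mul_finrank ℚ_[q] (localFieldAt (localEmbRestrict K τ'))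
    (layer (localFieldAt_restrict_le K τ'))

end Restrict

section Main

variable [NumberField K] [NumberField L]

/-- **Degree-sum formula**, `Finset` form: the local degrees `[L_w : K_v]` over the places `w` of
`L` above a place `v` of `K` add up to `[L : K]`. -/
theorem sum_localDegree_eq_finrank [Fintype (LocalPlace q L)] (ω₁ : LocalPlace q K)
    [DecidablePred fun ω₂ : LocalPlace q L => (localEmbRestrict K ω₂.emb).place = ω₁] :
    ∑ ω₂ ∈ Finset.univ.filter
        (fun ω₂ : LocalPlace q L => (localEmbRestrict K ω₂.emb).place = ω₁),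
      Module.finrank (localFieldAt (localEmbRestrict K ω₂.emb))
        (layer (localFieldAt_restrict_le K ω₂.emb)) = Module.finrank K L := by
  classical
  haveI : Fintype (LocalEmb q L) := Fintype.ofFinite _
  haveI : Fintype (LocalEmb q K) := Fintype.ofFinite _
  set f₁ := Module.finrank ℚ_[q] (localFieldAt ω₁.emb) with hf₁
  have hf₁pos : 0 < f₁ := by
    haveI := finiteDimensional_localFieldAt ω₁.emb
    exact Module.finrank_pos
  -- the set of embeddings of `L` above the place `ω₁`
  set S : Finset (LocalEmb q L) :=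
    Finset.univ.filter (fun τ₂ => (localEmbRestrict K τ₂).place = ω₁) with hS
  -- first count: fibres of the restriction
  have h1 : S.card = f₁ * Module.finrank K L := by
    have hmaps : ∀ τ₂ ∈ S, localEmbRestrict K τ₂ ∈
        Finset.univ.filter (fun τ₁ : LocalEmb q K => τ₁.place = ω₁) := by
      intro τ₂ hτ₂
      rw [Finset.mem_filter] at hτ₂ ⊢
      exact ⟨Finset.mem_univ _, hτ₂.2⟩
    rw [Finset.card_eq_sum_card_fiberwise hmaps]
    have hfib : ∀ τ₁ ∈ Finset.univ.filter (fun τ₁ : LocalEmb q K => τ₁.place = ω₁),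
        (S.filter (fun τ₂ => localEmbRestrict K τ₂ = τ₁)).card = Module.finrank K L := by
      intro τ₁ hτ₁
      rw [Finset.mem_filter] at hτ₁
      rw [← card_restrictFibre K (L := L) τ₁, Nat.card_eq_fintype_card, Fintype.card_subtype]
      congr 1
      ext τ₂
      simp only [hS, Finset.mem_filter, Finset.mem_univ, true_and]
      constructor
      · exact fun h => h.2
      · intro h
        exact ⟨by rw [h]; exact hτ₁.2, h⟩
    rw [Finset.sum_congr rfl hfib, Finset.sum_const, smul_eq_mul]
    congr 1
    rw [hf₁, ← card_place_fibre ω₁, Nat.card_eq_fintype_card, Fintype.card_subtype]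
  -- second count: fibres of `τ₂ ↦ τ₂.place`
  have h2 : S.card = ∑ ω₂ ∈ Finset.univ.filter
      (fun ω₂ : LocalPlace q L => (localEmbRestrict K ω₂.emb).place = ω₁),
      f₁ * Module.finrank (localFieldAt (localEmbRestrict K ω₂.emb))
        (layer (localFieldAt_restrict_le K ω₂.emb)) := by
    have hmaps : ∀ τ₂ ∈ S, τ₂.place ∈ Finset.univ.filter
        (fun ω₂ : LocalPlace q L => (localEmbRestrict K ω₂.emb).place = ω₁) := by
      intro τ₂ hτ₂
      rw [Finset.mem_filter] at hτ₂ ⊢
      refine ⟨Finset.mem_univ _, ?_⟩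
      rw [place_localEmbRestrict_eq_of_place_eq K (τ₂.place.place_emb)]
      exact hτ₂.2
    rw [Finset.card_eq_sum_card_fiberwise hmaps]
    refine Finset.sum_congr rfl fun ω₂ hω₂ => ?_
    rw [Finset.mem_filter] at hω₂
    have hfilter : S.filter (fun τ₂ => τ₂.place = ω₂) =
        Finset.univ.filter (fun τ₂ : LocalEmb q L => τ₂.place = ω₂) := by
      ext τ₂
      simp only [hS, Finset.mem_filter, Finset.mem_univ, true_and]
      constructor
      · exact fun h => h.2
      · intro h
        refine ⟨?_, h⟩
        rw [place_localEmbRestrict_eq_of_place_eq K (h.trans ω₂.place_emb.symm)]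
        exact hω₂.2
    rw [hfilter, ← Fintype.card_subtype, ← Nat.card_eq_fintype_card, card_place_fibre ω₂,
      ← finrank_localFieldAt_mul_finrank_layer K ω₂.emb]
    congr 1
    apply finrank_localFieldAt_eq_of_place_eq
    rw [hω₂.2, ω₁.place_emb]
  rw [h1, ← Finset.mul_sum] at h2
  exact (Nat.eq_of_mul_eq_mul_left hf₁pos h2).symm

/-- **Degree-sum formula**: `∑_{w ∣ v} [L_w : K_v] = [L : K]`. -/
theorem finsum_localDegree_eq_finrank (K₁ K₂ : Type) [Field K₁] [Field K₂] [Algebra K₁ K₂]
    [NumberField K₁] [NumberField K₂] {q : ℕ} [Fact q.Prime] (ω₁ : LocalPlace q K₁) :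
    ∑ᶠ ω₂ : {ω₂ : LocalPlace q K₂ // (localEmbRestrict K₁ ω₂.emb).place = ω₁},
      Module.finrank (localFieldAt (localEmbRestrict K₁ (ω₂ : LocalPlace q K₂).emb))
        (GaloisTower.layer (localFieldAt_restrict_le K₁ (ω₂ : LocalPlace q K₂).emb)) =
      Module.finrank K₁ K₂ := by
  classical
  haveI : Fintype (LocalPlace q K₂) := Fintype.ofFinite _
  rw [finsum_eq_sum_of_fintype, ← sum_localDegree_eq_finrank K₁ (L := K₂) ω₁]
  symm
  apply Finset.sum_subtype
  intro x
  simp

end Main

end Fermat.Agent.CFT

end
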