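import Fermat.Agent.CFT.Global.GlobalInvFunct
import Fermat.Agent.CFT.Global.LocalDegreeSum

/-!
# Layer C6 (N2): base change of the idele invariant, unconditional form

`hasLocalDegreeSum` discharges the degree-sum hypothesis of `GlobalInvFunct.lean` with
`finsum_localDegree_eq_finrank` (`LocalDegreeSum.lean`), giving

* `invJFun_ideleGalMap` (T34): `invJ (ideleGalMap x) = [K₂ : K₁] • invJ x` for classes with
  finite support;
* `hasFiniteInvSupport_ideleGalMap'`: finite support is preserved.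
-/

set_option autoImplicit false
set_option linter.unusedSectionVars false

open CategoryTheory groupCohomology

noncomputable section

namespace Fermat.Agent.CFT

variable (I : LocalInvFamily)
  (K₁ L₁ K₂ L₂ : Type) [Field K₁] [Field L₁] [Field K₂] [Field L₂]
  [Algebra K₁ L₁] [Algebra K₂ L₂] [Algebra K₁ K₂] [Algebra L₁ L₂] [Algebra K₁ L₂]
  [IsScalarTower K₁ K₂ L₂] [IsScalarTower K₁ L₁ L₂] [Normal K₁ L₁] [Normal K₂ L₂]
  [NumberField K₁] [NumberField L₁] [NumberField K₂] [NumberField L₂]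

/-- The degree-sum formula holds for number fields. -/
theorem hasLocalDegreeSum (K₁ K₂ : Type) [Field K₁] [Field K₂] [Algebra K₁ K₂]
    [NumberField K₁] [NumberField K₂] (q : ℕ) [Fact q.Prime] : HasLocalDegreeSum K₁ K₂ q :=
  fun ω₁ => finsum_localDegree_eq_finrank K₁ K₂ ω₁

/-- **(T34)** Base change: the idele invariant is multiplied by `[K₂ : K₁]` under the Galois
functoriality map of a square (inflation: `K₁ = K₂`, factor `1`; restriction: `L₁ = L₂`), for
classes with finite support. -/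
theorem invJFun_ideleGalMap (hI : ∀ q, (I q).IsConjInvariant)
    (x : groupCohomology (ideleRep L₁ (L₁ ≃ₐ[K₁] L₁)) 2) (hx : HasFiniteInvSupport I K₁ x) :
    invJFun I K₂ ((ideleGalMap K₁ L₁ K₂ L₂ 2).hom x) =
      Module.finrank K₁ K₂ • invJFun I K₁ x :=
  invJFun_ideleGalMap_of_degreeSum I K₁ L₁ K₂ L₂ hI
    (fun q => hasLocalDegreeSum K₁ K₂ ((q : Nat.Primes) : ℕ)) x hx

/-- Finite support is preserved by Galois functoriality. -/
theorem hasFiniteInvSupport_ideleGalMap' (hI : ∀ q, (I q).IsConjInvariant)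
    (x : groupCohomology (ideleRep L₁ (L₁ ≃ₐ[K₁] L₁)) 2) (hx : HasFiniteInvSupport I K₁ x) :
    HasFiniteInvSupport I K₂ ((ideleGalMap K₁ L₁ K₂ L₂ 2).hom x) :=
  hasFiniteInvSupport_ideleGalMap I K₁ L₁ K₂ L₂ hI
    (fun q => hasLocalDegreeSum K₁ K₂ ((q : Nat.Primes) : ℕ)) x hx

end Fermat.Agent.CFT

end
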