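import Fermat.Agent.CFT.Global.ClassLayerInv
import Fermat.Agent.CFT.Global.GlobalInvFunctCor
import Fermat.Agent.CFT.Global.GlobalInvSupport
import Fermat.Agent.CFT.Global.UnramAlmostAll
import Fermat.Agent.CFT.Global.IdeleDict.DictAdapters
import Fermat.Agent.CFT.Local.PadicLayerInv
import Fermat.Agent.CFT.Local.LayerUnramConcrete

/-!
# The idelic invariant system of the tower `Ω/ℚ` (C6d instantiation, [PADIC-IIS])

For a family `I` of conjugation invariant local invariant systems (e.g. `padicLocalInvFamily`) we
instantiate helper6's structure `IdeleInvSystem p ℚ Ω` (`Global/ClassLayerInv.lean`):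

* `layerInvJ I h : H²(Gal(E'/E), J_{E'}) →+ ℚ/ℤ` is `invJFun I E` on finite normal layers
  (`layerInvJ_apply`) and `0` otherwise;
* `ideleInvSystemOf p I hI hrecip : IdeleInvSystem p ℚ Ω`, where `hrecip` is the `p`-primary
  reciprocity law (to be discharged by C5d);
* `padicIdeleInvSystem p hrecip := ideleInvSystemOf p padicLocalInvFamily _ hrecip`.
-/

set_option autoImplicit false
set_option linter.style.haveILetI false
set_option linter.unusedSectionVars false

open CategoryTheory groupCohomology IntermediateField

namespace Fermat.Agent.CFT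

open GaloisTower LayerMaps

section

variable {Ω : Type} [Field Ω] [Algebra ℚ Ω]

/-- A finite subextension of `Ω/ℚ` is a number field. -/
theorem numberField_of_fd_rat (E : IntermediateField ℚ Ω) [FiniteDimensional ℚ E] :
    NumberField E := by
  have : CharZero Ω := algebraRat.charZero Ω
  refine @NumberField.mk E _ inferInstance ?_
  convert ‹FiniteDimensional ℚ E›
  exact Subsingleton.elim _ _

variable {E E' F F' : IntermediateField ℚ Ω}

/-- The layer over a number field inside a finite subextension is a number field. -/
theorem numberField_layer_of_fd (h : E ≤ E') [FiniteDimensional ℚ E'] [NumberField E] :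
    NumberField (layer h) := by
  haveI := Tower.finiteDimensional_layer' h
  exact NumberField.of_module_finite E (layer h)

variable (I : LocalInvFamily)

/-- Every class of a finite normal layer of number fields has finite invariant support. -/
theorem hasFiniteInvSupport_layer (h : E ≤ E') [FiniteDimensional ℚ E'] [NumberField E]
    [NumberField (layer h)] [Normal E (layer h)]
    (x : groupCohomology (ideleRep (layer h) (LayerGal h)) 2) :
    HasFiniteInvSupport I E x := by
  haveI : FiniteDimensional E (layer h) := Tower.finiteDimensional_layer' h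
  exact hasFiniteInvSupport I E (eventually_semiLocalIntegral_h2TrivialOn E (layer h)) x

open Classical in
/-- **The idelic invariant of a layer**: `Σ_v inv_v ∘ loc_v` on finite normal layers of `Ω/ℚ`,
and `0` on the other layers. -/
noncomputable def layerInvJ (h : E ≤ E') :
    groupCohomology (ideleRep (layer h) (LayerGal h)) 2 →+ AddCircle (1 : ℚ) :=
  if hfn : FiniteDimensional ℚ E' ∧ Normal E (layer h) then
    haveI := hfn.1
    haveI := hfn.2
    haveI : FiniteDimensional ℚ E := Tower.finiteDimensional_of_le' h
    haveI : NumberField E := numberField_of_fd_rat E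
    haveI : NumberField (layer h) := numberField_layer_of_fd h
    invJ I E (hasFiniteInvSupport_layer I h)
  else 0

theorem layerInvJ_apply (h : E ≤ E') [hfd : FiniteDimensional ℚ E'] [hn : Normal E (layer h)]
    [NumberField E] (x : groupCohomology (ideleRep (layer h) (LayerGal h)) 2) :
    layerInvJ I h x = invJFun I E x := by
  unfold layerInvJ
  rw [dif_pos ⟨hfd, hn⟩]
  rfl

/-- **Base change** of the idelic invariant along a square of finite normal layers. -/
theorem layerInvJ_ideleLayerMap (hI : ∀ q, (I q).IsConjInvariant) (hEE' : E ≤ E') (hFF' : F ≤ F')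
    (hEF : E ≤ F) (hE'F' : E' ≤ F') [FiniteDimensional ℚ F'] [Normal E (layer hEE')]
    [Normal F (layer hFF')] (x : groupCohomology (ideleRep (layer hEE') (LayerGal hEE')) 2) :
    layerInvJ I hFF' ((ideleLayerMap hEE' hFF' hEF hE'F' 2).hom x) =
      Module.finrank E (layer hEF) • layerInvJ I hEE' x := by
  haveI : FiniteDimensional ℚ E' := Tower.finiteDimensional_of_le' hE'F'
  haveI : FiniteDimensional ℚ E := Tower.finiteDimensional_of_le' hEE'
  haveI : FiniteDimensional ℚ F := Tower.finiteDimensional_of_le' hFF'
  haveI : NumberField E := numberField_of_fd_rat E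
  haveI : NumberField F := numberField_of_fd_rat F
  haveI : NumberField (layer hEE') := numberField_layer_of_fd hEE'
  haveI : NumberField (layer hFF') := numberField_layer_of_fd hFF'
  rw [layerInvJ_apply I hFF', layerInvJ_apply I hEE']
  letI := algBase hEF
  letI := algTop hEE' hFF' hE'F'
  letI := algDiag hEF hFF'
  haveI := tower_base hEF hFF'
  haveI := tower_top hEE' hFF' hEF hE'F'
  have h1 := invJFun_ideleGalMap I E (layer hEE') F (layer hFF') hI x
    (hasFiniteInvSupport_layer I hEE' x)
  rw [← finrank_algBase hEF]
  exact h1

/-- **The idelic invariant system of the tower `Ω/ℚ`** attached to a conjugation invariant family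
of local invariant systems satisfying the `p`-primary reciprocity law `hrecip`. -/
noncomputable def ideleInvSystemOf (p : ℕ) (hI : ∀ q, (I q).IsConjInvariant)
    (hrecip : ∀ {E E' : IntermediateField ℚ Ω} (h : E ≤ E') [FiniteDimensional ℚ E']
      [NumberField E] [NumberField (layer h)] [Normal E (layer h)]
      (hP : PrincipalIsIdele (layer h))
      (u : groupCohomology (Rep.ofAlgebraAutOnUnits E (layer h)) 2),
      (∃ n : ℕ, p ^ n • u = 0) → invJFun I E ((layerH2f h hP).hom u) = 0) :
    IdeleInvSystem p ℚ Ω where
  invJ h := layerInvJ I h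
  principal {E E'} h _ := by
    haveI : FiniteDimensional ℚ E := Tower.finiteDimensional_of_le' h
    haveI : NumberField E := numberField_of_fd_rat E
    haveI : NumberField (layer h) := numberField_layer_of_fd h
    exact IdeleDict.principalIsIdele (layer h)
  principal_injective {E E'} h _ := by
    haveI : FiniteDimensional ℚ E := Tower.finiteDimensional_of_le' h
    haveI : NumberField E := numberField_of_fd_rat E
    haveI : NumberField (layer h) := numberField_layer_of_fd h
    exact IdeleDict.principalIdele_injective' (layer h)
  invJ_layerMap hEE' hFF' hEF hE'F' _ _ _ x _ :=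
    layerInvJ_ideleLayerMap I hI hEE' hFF' hEF hE'F' x
  invJ_principal {E E'} h _ _ u hu := by
    haveI : FiniteDimensional ℚ E := Tower.finiteDimensional_of_le' h
    haveI : NumberField E := numberField_of_fd_rat E
    haveI : NumberField (layer h) := numberField_layer_of_fd h
    rw [layerInvJ_apply I h]
    exact hrecip h _ u hu

@[simp]
theorem ideleInvSystemOf_invJ (p : ℕ) (hI : ∀ q, (I q).IsConjInvariant)
    (hrecip : ∀ {E E' : IntermediateField ℚ Ω} (h : E ≤ E') [FiniteDimensional ℚ E']
      [NumberField E] [NumberField (layer h)] [Normal E (layer h)]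
      (hP : PrincipalIsIdele (layer h))
      (u : groupCohomology (Rep.ofAlgebraAutOnUnits E (layer h)) 2),
      (∃ n : ℕ, p ^ n • u = 0) → invJFun I E ((layerH2f h hP).hom u) = 0)
    (h : E ≤ E') [FiniteDimensional ℚ E'] [Normal E (layer h)] [NumberField E]
    (x : groupCohomology (ideleRep (layer h) (LayerGal h)) 2) :
    (ideleInvSystemOf I p hI hrecip).invJ h x = invJFun I E x :=
  layerInvJ_apply I h x

end

section Padic

variable {Ω : Type} [Field Ω] [Algebra ℚ Ω] {E E' : IntermediateField ℚ Ω}

/-- **The idelic invariant system of `Ω/ℚ` for the local class field theory invariants**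
(`padicLocalInvFamily`), given the `p`-primary reciprocity law. -/
noncomputable def padicIdeleInvSystem (p : ℕ)
    (hrecip : ∀ {E E' : IntermediateField ℚ Ω} (h : E ≤ E') [FiniteDimensional ℚ E']
      [NumberField E] [NumberField (layer h)] [Normal E (layer h)]
      (hP : PrincipalIsIdele (layer h))
      (u : groupCohomology (Rep.ofAlgebraAutOnUnits E (layer h)) 2),
      (∃ n : ℕ, p ^ n • u = 0) →
        invJFun padicLocalInvFamily E ((layerH2f h hP).hom u) = 0) :
    IdeleInvSystem p ℚ Ω :=
  ideleInvSystemOf padicLocalInvFamily p padicLocalInvFamily_isConjInvariant hrecip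

@[simp]
theorem padicIdeleInvSystem_invJ (p : ℕ)
    (hrecip : ∀ {E E' : IntermediateField ℚ Ω} (h : E ≤ E') [FiniteDimensional ℚ E']
      [NumberField E] [NumberField (layer h)] [Normal E (layer h)]
      (hP : PrincipalIsIdele (layer h))
      (u : groupCohomology (Rep.ofAlgebraAutOnUnits E (layer h)) 2),
      (∃ n : ℕ, p ^ n • u = 0) →
        invJFun padicLocalInvFamily E ((layerH2f h hP).hom u) = 0)
    (h : E ≤ E') [FiniteDimensional ℚ E'] [Normal E (layer h)] [NumberField E]
    (x : groupCohomology (ideleRep (layer h) (LayerGal h)) 2) :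
    (padicIdeleInvSystem p hrecip).invJ h x = invJFun padicLocalInvFamily E x :=
  layerInvJ_apply padicLocalInvFamily h x

end Padic

end Fermat.Agent.CFT
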