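import Mathlib
import Fermat.Agent.CFT.Global.FullDecomp
import Fermat.Agent.CFT.Global.PadicIdeleInvSystem
import Fermat.Agent.CFT.Global.ClassInvSystemQ
import Fermat.Agent.CFT.Global.ClassFormationInst

/-!
# Layer C, node [HFULL] in layer form: the value `1/p^a` of the idelic invariant on cyclic layers

* `exists_invJFun_layer_eq_of_card_eq_pow`: for a cyclic layer `E'/E` of order `p ^ a` of number
  fields inside `Ω/ℚ` (`p` odd), `invJFun J E` takes the value `1/p^a`;
* `IdeleInvSystem.exists_invJ_eq_of_invJFun`: the hypothesis `hval` of helper6's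
  `IdeleInvSystem.classFormation_of_ne_two` / `classPLayerInvSystemQ` for every idelic invariant
  system whose invariant is a sum of local invariants `invJFun J`;
* `ideleInvSystemOf_hval_of_ne_two`, `padicIdeleInvSystem_hval_of_ne_two`: the same for helper12's
  systems; `ideleInvSystemOf_classFormation`, `padicIdeleInvSystem_classFormation`: their
  class-formation structure (only the reciprocity law `hrecip` remains a hypothesis);
* `IdeleInvSystem.classFormation_of_invJFun_of_ne_two`: helper3's
  `IdeleInvSystem.classFormation_of_invJFun` (general number field base) with `hfull` discharged.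
-/

set_option autoImplicit false
set_option linter.style.haveILetI false
set_option linter.unusedSectionVars false
set_option maxSynthPendingDepth 2

open CategoryTheory groupCohomology IntermediateField

namespace Fermat.Agent.CFT

open GaloisTower LayerMaps

section Rat

variable {Ω : Type} [Field Ω] [Algebra ℚ Ω] {E E' : IntermediateField ℚ Ω}

variable {p : ℕ} [hp : Fact p.Prime] (hp2 : p ≠ 2)

include hp2

/-- **[HFULL], layer form**: the idelic invariant takes the value `1/p^a` on a cyclic layer of
order `p ^ a`. -/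
theorem exists_invJFun_layer_eq_of_card_eq_pow (J : LocalInvFamily) (h : E ≤ E')
    [FiniteDimensional ℚ E'] [NumberField E] [Normal E (layer h)] [IsCyclic (LayerGal h)]
    (a : ℕ) (hcard : Nat.card (LayerGal h) = p ^ a) :
    ∃ z : groupCohomology (ideleRep (layer h) (LayerGal h)) 2,
      invJFun J E z = ((((1 : ℚ) / ((p ^ a : ℕ) : ℚ) : ℚ)) : AddCircle (1 : ℚ)) := by
  haveI : NumberField (layer h) := numberField_layer_of_fd h
  haveI := isGalois_layer_of_normal_of_fd h
  exact exists_invJFun_eq_of_card_eq_pow J p hp2 E (layer h) a hcard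

/-- The hypothesis `hval` of `IdeleInvSystem.classFormation_of_ne_two` and of
`classPLayerInvSystemQ`, for an idelic invariant system given by sums of local invariants. -/
theorem IdeleInvSystem.exists_invJ_eq_of_invJFun (I : IdeleInvSystem p ℚ Ω) (J : LocalInvFamily)
    (hI : ∀ {E E' : IntermediateField ℚ Ω} (h : E ≤ E') [FiniteDimensional ℚ E']
      [Normal E (layer h)] [NumberField E]
      (z : groupCohomology (ideleRep (layer h) (LayerGal h)) 2), I.invJ h z = invJFun J E z)
    {E E' : IntermediateField ℚ Ω} (h : E ≤ E') [FiniteDimensional ℚ E'] [Normal E (layer h)]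
    [IsCyclic (LayerGal h)] (a : ℕ) (hcard : Nat.card (LayerGal h) = p ^ a) :
    ∃ z, I.invJ h z = ((((1 : ℚ) / ((p ^ a : ℕ) : ℚ) : ℚ)) : AddCircle (1 : ℚ)) := by
  haveI : FiniteDimensional ℚ E := Tower.finiteDimensional_of_le' h
  haveI : NumberField E := numberField_of_fd_rat E
  obtain ⟨z, hz⟩ := exists_invJFun_layer_eq_of_card_eq_pow hp2 J h a hcard
  exact ⟨z, (hI h z).trans hz⟩

variable (J : LocalInvFamily) (hJ : ∀ q, (J q).IsConjInvariant)
  (hrecip : ∀ {E E' : IntermediateField ℚ Ω} (h : E ≤ E') [FiniteDimensional ℚ E']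
    [NumberField E] [NumberField (layer h)] [Normal E (layer h)]
    (hP : PrincipalIsIdele (layer h))
    (u : groupCohomology (Rep.ofAlgebraAutOnUnits E (layer h)) 2),
    (∃ n : ℕ, p ^ n • u = 0) → invJFun J E ((layerH2f h hP).hom u) = 0)

/-- `hval` for helper12's `ideleInvSystemOf`. -/
theorem ideleInvSystemOf_hval_of_ne_two {E E' : IntermediateField ℚ Ω} (h : E ≤ E')
    [FiniteDimensional ℚ E'] [Normal E (layer h)] [IsCyclic (LayerGal h)] (a : ℕ)
    (hcard : Nat.card (LayerGal h) = p ^ a) :
    ∃ z, (ideleInvSystemOf J p hJ hrecip).invJ h z =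
      ((((1 : ℚ) / ((p ^ a : ℕ) : ℚ) : ℚ)) : AddCircle (1 : ℚ)) :=
  IdeleInvSystem.exists_invJ_eq_of_invJFun hp2 _ J
    (fun h _ _ _ z => ideleInvSystemOf_invJ J p hJ hrecip h z) h a hcard

/-- **The class-formation structure of `ideleInvSystemOf`** (`p` odd): only the `p`-primary
reciprocity law `hrecip` remains a hypothesis. -/
theorem ideleInvSystemOf_classFormation :
    (ideleInvSystemOf J p hJ hrecip).ClassFormation :=
  IdeleInvSystem.classFormation_of_ne_two hp2 _
    (fun h _ _ _ a hcard => ideleInvSystemOf_hval_of_ne_two hp2 J hJ hrecip h a hcard)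

end Rat

section Padic

variable {Ω : Type} [Field Ω] [Algebra ℚ Ω] {p : ℕ} [hp : Fact p.Prime] (hp2 : p ≠ 2)
  (hrecip : ∀ {E E' : IntermediateField ℚ Ω} (h : E ≤ E') [FiniteDimensional ℚ E']
    [NumberField E] [NumberField (layer h)] [Normal E (layer h)]
    (hP : PrincipalIsIdele (layer h))
    (u : groupCohomology (Rep.ofAlgebraAutOnUnits E (layer h)) 2),
    (∃ n : ℕ, p ^ n • u = 0) →
      invJFun padicLocalInvFamily E ((layerH2f h hP).hom u) = 0)

include hp2

/-- `hval` for `padicIdeleInvSystem`. -/
theorem padicIdeleInvSystem_hval_of_ne_two {E E' : IntermediateField ℚ Ω} (h : E ≤ E')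
    [FiniteDimensional ℚ E'] [Normal E (layer h)] [IsCyclic (LayerGal h)] (a : ℕ)
    (hcard : Nat.card (LayerGal h) = p ^ a) :
    ∃ z, (padicIdeleInvSystem p hrecip).invJ h z =
      ((((1 : ℚ) / ((p ^ a : ℕ) : ℚ) : ℚ)) : AddCircle (1 : ℚ)) :=
  ideleInvSystemOf_hval_of_ne_two hp2 padicLocalInvFamily padicLocalInvFamily_isConjInvariant
    hrecip h a hcard

/-- **The class-formation structure of `padicIdeleInvSystem`** (`p` odd). -/
theorem padicIdeleInvSystem_classFormation :
    (padicIdeleInvSystem p hrecip).ClassFormation :=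
  ideleInvSystemOf_classFormation hp2 padicLocalInvFamily padicLocalInvFamily_isConjInvariant
    hrecip

end Padic

section General

variable {k Ω : Type} [Field k] [NumberField k] [Field Ω] [Algebra k Ω]
  {p : ℕ} [hp : Fact p.Prime] (hp2 : p ≠ 2)

include hp2

/-- helper3's `IdeleInvSystem.classFormation_of_invJFun` with `hfull` discharged. -/
theorem IdeleInvSystem.classFormation_of_invJFun_of_ne_two (I : IdeleInvSystem p k Ω)
    (J : LocalInvFamily)
    (hI : ∀ {E E' : IntermediateField k Ω} (h : E ≤ E') [NumberField E] [Normal E (layer h)]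
      (z : groupCohomology (ideleRep (layer h) (LayerGal h)) 2), I.invJ h z = invJFun J E z) :
    I.ClassFormation :=
  IdeleInvSystem.classFormation_of_invJFun hp2 I J hI
    (fun K L _ _ _ _ _ _ _ a hcard => exists_invJFun_eq_of_card_eq_pow J p hp2 K L a hcard)

end General

end Fermat.Agent.CFT
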