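import Fermat.Agent.CFT.PT.MuRep
import Fermat.Agent.CFT.GaloisTowerUnits

/-!
# [G0-GLOBAL] The subgroup `G₀ = Gal(ℚ̄/ℚ(μ_p))` of `G_ℚ`

For the relative duality theorem `lc_duality` (base cases only for open `U ≤ G₀`):

* `muField p = ℚ(μ_p)`, `globalG0 p = Gal(ℚ̄/ℚ(μ_p))`, `mem_globalG0_iff`,
  `globalG0_eq_ker_cycloChar`;
* `isOpen_globalG0`: `G₀` is open for `S55.globalLevel S` when `p ∈ S`;
* `coprime_index_globalG0`: `[G_ℚ : G₀]` divides `p - 1`, so is prime to `p`;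
* `exists_field_of_isOpen_le_globalG0`: an open `U ≤ G₀` is `Gal(ℚ̄/F)` with `F` unramified outside
  `S` (Prelude sense) and containing a primitive `p`-th root of unity.
-/

set_option autoImplicit false
set_option linter.style.haveILetI false

open ExtCitation

noncomputable section

namespace Fermat.Agent.CFT

open Fermat.Agent.S55 Fermat.Agent.CFT.PT Fermat.Agent.CFT.GaloisTower

local notation "Qb" => AlgebraicClosure ℚ
local notation "GQ" => (AlgebraicClosure ℚ ≃ₐ[ℚ] AlgebraicClosure ℚ)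

local instance instIsGaloisQbGlobalG0 : IsGalois ℚ Qb :=
  Fermat.Agent.S54.FrobExists.isGalois_rat_algebraicClosure

/-- The field `ℚ(μ_p) ⊆ ℚ̄`. -/
def muField (p : ℕ) : IntermediateField ℚ Qb :=
  IntermediateField.adjoin ℚ {ζ : Qb | ζ ^ p = 1}

/-- `G₀ = Gal(ℚ̄/ℚ(μ_p))`. -/
def globalG0 (p : ℕ) : Subgroup GQ := (muField p).fixingSubgroup

theorem mem_globalG0_iff (p : ℕ) (g : GQ) :
    g ∈ globalG0 p ↔ ∀ ζ : Qb, ζ ^ p = 1 → g ζ = ζ := by
  rw [globalG0, IntermediateField.mem_fixingSubgroup_iff]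
  have h := IntermediateField.forall_mem_adjoin_smul_eq_self_iff ℚ (E := Qb)
    (S := {ζ : Qb | ζ ^ p = 1}) g
  exact h

variable (p : ℕ) [hp : Fact p.Prime]

theorem globalG0_eq_ker_cycloChar : globalG0 p = (cycloChar p).ker := by
  ext g
  rw [mem_globalG0_iff, MonoidHom.mem_ker, cycloChar_eq_one_iff]

/-- `G₀` is open for `globalLevel S` when `p ∈ S`. -/
theorem isOpen_globalG0 (S : Finset Nat.Primes) (hpS : pPrime p ∈ S) :
    (globalLevel S).IsOpen (globalG0 p) := by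
  obtain ⟨N, hN, hfix⟩ := exists_level_forall_mu_smul_eq p S hpS
  refine ⟨N, hN, fun g hg => ?_⟩
  rw [mem_globalG0_iff]
  intro ζ hζ
  have hζ0 : ζ ≠ 0 := by
    rintro rfl
    rw [zero_pow hp.out.ne_zero] at hζ
    exact zero_ne_one hζ
  have hmem : Units.mk0 ζ hζ0 ∈ rootsOfUnity p Qb := by
    rw [mem_rootsOfUnity]
    apply Units.ext
    rw [Units.val_pow_eq_pow_val, Units.val_mk0, hζ, Units.val_one]
  have := hfix g hg ⟨Units.mk0 ζ hζ0, hmem⟩
  have h2 := congrArg (fun z : rootsOfUnity p Qb => ((z : Qbˣ) : Qb)) this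
  simpa [mu_smul_coe] using h2

/-- `[G_ℚ : G₀]` is prime to `p` (it divides `p - 1`). -/
theorem index_globalG0_dvd : (globalG0 p).index ∣ p - 1 := by
  rw [globalG0_eq_ker_cycloChar, Subgroup.index_ker]
  have h1 : Nat.card (cycloChar p).range ∣ Nat.card (ZMod p)ˣ :=
    Subgroup.card_subgroup_dvd_card _
  have h2 : Nat.card (ZMod p)ˣ = p - 1 := by
    rw [Nat.card_eq_fintype_card, ZMod.card_units_eq_totient, Nat.totient_prime hp.out]
  rwa [h2] at h1

theorem coprime_index_globalG0 : Nat.Coprime p (globalG0 p).index := by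
  have hdvd := index_globalG0_dvd p
  have hpos : 0 < p - 1 := Nat.sub_pos_of_lt hp.out.one_lt
  have hle : (globalG0 p).index ≤ p - 1 := Nat.le_of_dvd hpos hdvd
  have hne : (globalG0 p).index ≠ 0 := fun h0 => by
    rw [h0, zero_dvd_iff] at hdvd
    omega
  rw [Nat.Prime.coprime_iff_not_dvd hp.out]
  intro hpd
  have := Nat.le_of_dvd (Nat.pos_of_ne_zero hne) hpd
  omega

/-- An open subgroup `U ≤ G₀` is `Gal(ℚ̄/F)` for a field `F` unramified outside `S` containing a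
primitive `p`-th root of unity. -/
theorem exists_field_of_isOpen_le_globalG0 (S : Finset Nat.Primes) {U : Subgroup GQ}
    (hU : (globalLevel S).IsOpen U) (hle : U ≤ globalG0 p) :
    ∃ F : IntermediateField ℚ Qb, F.IsUnramifiedOutside S ∧ U = F.fixingSubgroup ∧
      ∃ ζ ∈ F, IsPrimitiveRoot ζ p := by
  obtain ⟨N, ⟨E', -, hE', rfl⟩, hNU⟩ := hU
  haveI := hE'.1
  obtain ⟨F, hFE', hFU⟩ := exists_fixingSubgroup_eq_of_le U hNU
  haveI : NeZero p := ⟨hp.out.ne_zero⟩
  obtain ⟨ζ, hζ⟩ : ∃ ζ : Qb, IsPrimitiveRoot ζ p :=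
    HasEnoughRootsOfUnity.exists_primitiveRoot Qb p
  refine ⟨F, hE'.of_le hFE', hFU.symm, ζ, ?_, hζ⟩
  rw [← forall_fixingSubgroup_apply_eq_iff F ζ]
  intro σ hσ
  rw [hFU] at hσ
  exact (mem_globalG0_iff p σ).1 (hle hσ) ζ hζ.pow_eq_one

end Fermat.Agent.CFT
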