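import Fermat.Agent.CFT.Global.GlobalG0

/-!
# Open subgroups of `G_ℚ` for `S55.globalLevel S` are the `Gal(ℚ̄/F)`, `F` unramified outside `S`
-/

set_option autoImplicit false
set_option linter.style.haveILetI false

noncomputable section

namespace Fermat.Agent.CFT

open Fermat.Agent.S55 Fermat.Agent.CFT.GaloisTower

local notation "Qb" => AlgebraicClosure ℚ
local notation "GQ" => (AlgebraicClosure ℚ ≃ₐ[ℚ] AlgebraicClosure ℚ)

local instance instIsGaloisQbGlobalG0Open : IsGalois ℚ Qb :=
  Fermat.Agent.S54.FrobExists.isGalois_rat_algebraicClosure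

/-- Every open subgroup of `G_ℚ` (for `globalLevel S`) is `Gal(ℚ̄/F)` with `F` unramified outside
`S` in the sense of the Prelude. -/
theorem exists_field_of_isOpen_globalLevel (S : Finset Nat.Primes) {U : Subgroup GQ}
    (hU : (globalLevel S).IsOpen U) :
    ∃ F : IntermediateField ℚ Qb, F.IsUnramifiedOutside S ∧ U = F.fixingSubgroup := by
  obtain ⟨N, ⟨E', -, hE', rfl⟩, hNU⟩ := hU
  haveI := hE'.1
  obtain ⟨F, hFE', hFU⟩ := exists_fixingSubgroup_eq_of_le U hNU
  exact ⟨F, hE'.of_le hFE', hFU.symm⟩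

/-- Conversely `Gal(ℚ̄/F)` is open for `F` unramified outside `S`. -/
theorem isOpen_fixingSubgroup_of_isUnramifiedOutside (S : Finset Nat.Primes)
    {F : IntermediateField ℚ Qb} (hF : F.IsUnramifiedOutside S) :
    (globalLevel S).IsOpen F.fixingSubgroup := by
  obtain ⟨E, hFE, -, hE, hgal⟩ := exists_isGalois_isUnramifiedOutside_ge hF hF
  exact ⟨_, ⟨E, hgal, hE, rfl⟩, IntermediateField.fixingSubgroup_antitone hFE⟩

end Fermat.Agent.CFT
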