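import Fermat.Agent.CFT.Global.IdeleDict.UnramPrelude
import Fermat.Agent.CFT.Global.IdeleDict.DictAdapters

/-!
# [HNE] Non-emptiness of local embeddings and `PrincipalIsIdele` for the layers of `ℚ̄/ℚ`

* `nonempty_localEmb_of_isAlgebraic`: every algebraic extension of `ℚ` embeds in `ℚ̄_q`;
* `exists_localEmb_Qb`: `hne` of `csFullDict` (`Ω = ℚ̄`);
* `exists_localEmb_layerQ`: `hne` for the layers `E'/E`;
* `principalIsIdele_layerQ`: `PrincipalIsIdele (layer h)` for `E'` finite over `ℚ`.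
-/

set_option autoImplicit false
set_option linter.style.haveILetI false

noncomputable section

namespace Fermat.Agent.CFT

open Fermat.Agent.CFT.GaloisTower

local notation "Qb" => AlgebraicClosure ℚ

/-- Every algebraic extension of `ℚ` embeds in `ℚ̄_q`. -/
theorem nonempty_localEmb_of_isAlgebraic (q : ℕ) [Fact q.Prime] (L : Type) [Field L] [Algebra ℚ L]
    [Algebra.IsAlgebraic ℚ L] : Nonempty (LocalEmb q L) := by
  obtain ⟨τ, -⟩ := localEmbRestrict_surjective (q := q) ℚ (L := L)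
    ((algebraMap ℚ_[q] (PadicAlgCl q)).comp (algebraMap ℚ ℚ_[q]))
  exact ⟨τ⟩

/-- `hne` of `csFullDict` for `Ω = ℚ̄`. -/
theorem exists_localEmb_Qb {S : Set Nat.Primes} (hS : S.Nonempty) :
    ∃ q ∈ S, Nonempty (LocalEmb ((q : Nat.Primes) : ℕ) Qb) := by
  obtain ⟨q, hq⟩ := hS
  haveI : Algebra.IsAlgebraic ℚ Qb := AlgebraicClosure.isAlgebraic ℚ
  obtain ⟨τ, -⟩ := localEmbRestrict_surjective (q := (q : ℕ)) ℚ (L := Qb)
    ((algebraMap ℚ_[(q : ℕ)] (PadicAlgCl (q : ℕ))).comp (algebraMap ℚ ℚ_[(q : ℕ)]))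
  exact ⟨q, hq, ⟨τ⟩⟩

variable {E E' : IntermediateField ℚ Qb} (h : E ≤ E')

/-- `hne` for the layers. -/
theorem exists_localEmb_layerQ {S : Set Nat.Primes} (hS : S.Nonempty) :
    ∃ q ∈ S, Nonempty (LocalEmb ((q : Nat.Primes) : ℕ) (layer h)) :=
  IdeleDict.exists_localEmb_layer h hS

/-- Principal ideles of a finite layer are ideles. -/
theorem principalIsIdele_layerQ [FiniteDimensional ℚ E'] : PrincipalIsIdele (layer h) := by
  haveI := IdeleDict.numberField_layer h
  exact IdeleDict.principalIsIdele (layer h)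

end Fermat.Agent.CFT
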