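import Fermat.Agent.CFT.Global.IdeleGalMap

/-!
# Galois functoriality of idele cohomology: elementwise forms in degree two

Complements to `IdeleGalMap.lean`: a general commutative-square lemma on cohomology, and the
elementwise commutation of `ideleGalMap`, `ideleClassGalMap` with the maps
`H²(Lˣ) → H²(J_L) → H²(C_L)` (`ideleH2f`, `ideleH2g`).
-/

open CategoryTheory groupCohomology Rep

namespace Fermat.Agent.CFT

noncomputable section

section General

universe u

variable {k G H : Type u} [CommRing k] [Group G] [Group H]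

/-- A commutative square of coefficient maps over a group homomorphism induces a commutative
square in cohomology. -/
theorem map_square (r : G →* H) {A A' : Rep k H} {B B' : Rep k G} (α : A ⟶ A') (β : B ⟶ B')
    (φ : res r A ⟶ B) (φ' : res r A' ⟶ B')
    (h : ∀ x : A, β.hom (φ.hom x) = φ'.hom (α.hom x)) (n : ℕ) :
    groupCohomology.map (A := A) (B := A') (MonoidHom.id H) α n ≫ groupCohomology.map r φ' n =
      groupCohomology.map r φ n ≫ groupCohomology.map (A := B) (B := B') (MonoidHom.id G) β n := by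
  rw [← groupCohomology.map_comp, ← groupCohomology.map_comp]
  refine groupCohomology.map_congr (by ext; rfl) ?_ n
  refine LinearMap.ext fun x => ?_
  exact (h x).symm

end General

section Square

variable (K₁ L₁ K₂ L₂ : Type) [Field K₁] [Field L₁] [Field K₂] [Field L₂]
  [Algebra K₁ L₁] [Algebra K₂ L₂] [Algebra K₁ K₂] [Algebra L₁ L₂] [Algebra K₁ L₂]
  [IsScalarTower K₁ K₂ L₂] [IsScalarTower K₁ L₁ L₂] [Normal K₁ L₁]

@[simp]
theorem ideleClassGalHom_apply (c : Additive (ideleClass L₁)) :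
    ((ideleClassGalHom K₁ L₁ K₂ L₂).hom c : Additive (ideleClass L₂)) =
      Additive.ofMul (ideleClassMap L₁ L₂ (Additive.toMul c)) := rfl

/-- Degree 2, elementwise: `ideleGalMap (H²f x) = H²f (galMap x)`. -/
theorem ideleGalMap_ideleH2f (h₁ : PrincipalIsIdele L₁) (h₂ : PrincipalIsIdele L₂)
    (x : groupCohomology (Rep.ofAlgebraAutOnUnits K₁ L₁) 2) :
    (ideleGalMap K₁ L₁ K₂ L₂ 2).hom ((ideleH2f K₁ h₁).hom x) =
      (ideleH2f K₂ h₂).hom ((galMap K₁ L₁ K₂ L₂ 2).hom x) :=
  (ConcreteCategory.congr_hom (ideleGalMap_comp_units K₁ L₁ K₂ L₂ h₁ h₂ 2) x).symm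

/-- Degree 2, elementwise: `ideleClassGalMap (H²g y) = H²g (ideleGalMap y)`. -/
theorem ideleClassGalMap_ideleH2g (y : groupCohomology (ideleRep L₁ (L₁ ≃ₐ[K₁] L₁)) 2) :
    (ideleClassGalMap K₁ L₁ K₂ L₂ 2).hom ((ideleH2g K₁ (L := L₁)).hom y) =
      (ideleH2g K₂ (L := L₂)).hom ((ideleGalMap K₁ L₁ K₂ L₂ 2).hom y) :=
  (ConcreteCategory.congr_hom (ideleGalMap_comp_class K₁ L₁ K₂ L₂ 2) y).symm

end Square

end

end Fermat.Agent.CFT
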