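import Fermat.Agent.CFT.Global.GlobalInvConj
import Fermat.Agent.CFT.Global.IdeleGalMapH2

/-!
# Layer C6 (N2): functoriality of the idele invariant for a square of fields

For a square `K₁ ⊆ L₁`, `K₂ ⊆ L₂` (as in `GalMap.lean`, `IdeleGalMap.lean`):

* `semiLocalGalHom`, `semiLocalGalMap`: the maps `A_q(L₁) → A_q(L₂)` and
  `Hⁿ(Gal(L₁/K₁), A_q L₁) ⟶ Hⁿ(Gal(L₂/K₂), A_q L₂)`; compatibility with the projections from the
  ideles (`map_ideleProjHom_ideleGalMap`);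
* `semiLocalInvAt_semiLocalGalMap` (LocGen): the local invariant at `τ₂'` of the image is
  `[K₂,τ₂ : K₁,τ₁]` times the local invariant at `τ₁' = τ₂'|_{L₁}`;
* `invJFun_ideleGalMap` (T34): `invJ (ideleGalMap x) = [K₂ : K₁] • invJ x`, given the degree-sum
  formula `Σ_{ω₂ ∣ ω₁} [K₂,ω₂ : K₁,ω₁] = [K₂ : K₁]` as a hypothesis.
-/

set_option autoImplicit false
set_option linter.unusedSectionVars false
set_option linter.style.haveILetI false

open CategoryTheory groupCohomology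

noncomputable section

namespace Fermat.Agent.CFT

open GaloisTower LayerMaps

variable (I : LocalInvFamily)
  (K₁ L₁ K₂ L₂ : Type) [Field K₁] [Field L₁] [Field K₂] [Field L₂]
  [Algebra K₁ L₁] [Algebra K₂ L₂] [Algebra K₁ K₂] [Algebra L₁ L₂] [Algebra K₁ L₂]
  [IsScalarTower K₁ K₂ L₂] [IsScalarTower K₁ L₁ L₂] [Normal K₁ L₁]

section SemiLocal

variable {q : ℕ} [Fact q.Prime]

local notation "Ω" => PadicAlgCl q

/-- `A_q(L₁) → A_q(L₂)` as a morphism of representations of `Gal(L₂/K₂)`. -/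
def semiLocalGalHom :
    Rep.res (galRes K₁ L₁ K₂ L₂) (semiLocalRep L₁ (L₁ ≃ₐ[K₁] L₁) q) ⟶
      semiLocalRep L₂ (L₂ ≃ₐ[K₂] L₂) q :=
  Rep.ofHom ⟨(semiLocalMap (q := q) (algebraMap L₁ L₂)).toAdditive.toIntLinearMap, fun σ => by
    refine LinearMap.ext fun x => ?_
    exact congrArg Additive.ofMul
      (semiLocalMap_galRes_smul K₁ L₁ K₂ L₂ σ (Additive.toMul x))⟩

@[simp]
theorem semiLocalGalHom_apply (x : Additive (semiLocalUnits q L₁)) :
    ((semiLocalGalHom K₁ L₁ K₂ L₂ (q := q)).hom x : Additive (semiLocalUnits q L₂)) =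
      Additive.ofMul (semiLocalMap (algebraMap L₁ L₂) (Additive.toMul x)) := rfl

/-- Galois functoriality of `Hⁿ(Gal(L/K), A_q L)`. -/
def semiLocalGalMap (n : ℕ) :
    groupCohomology (semiLocalRep L₁ (L₁ ≃ₐ[K₁] L₁) q) n ⟶
      groupCohomology (semiLocalRep L₂ (L₂ ≃ₐ[K₂] L₂) q) n :=
  groupCohomology.map (galRes K₁ L₁ K₂ L₂) (semiLocalGalHom K₁ L₁ K₂ L₂) n

end SemiLocal

variable [Normal K₂ L₂]

/-- The projections to the semi-local units commute with Galois functoriality. -/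
theorem map_ideleProjHom_comp_semiLocalGalMap (q : Nat.Primes) (n : ℕ) :
    groupCohomology.map (MonoidHom.id (L₁ ≃ₐ[K₁] L₁)) (ideleProjHom K₁ (L := L₁) q) n ≫
        semiLocalGalMap K₁ L₁ K₂ L₂ n =
      ideleGalMap K₁ L₁ K₂ L₂ n ≫
        groupCohomology.map (MonoidHom.id (L₂ ≃ₐ[K₂] L₂)) (ideleProjHom K₂ (L := L₂) q) n :=
  map_square (galRes K₁ L₁ K₂ L₂) (ideleProjHom K₁ q) (ideleProjHom K₂ q)
    (ideleGalHom K₁ L₁ K₂ L₂) (semiLocalGalHom K₁ L₁ K₂ L₂) (fun _ => rfl) n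

section LocGen

variable {q : ℕ} [Fact q.Prime]

local notation "Ω" => PadicAlgCl q

variable {L₁ L₂}

omit [Normal K₁ L₁] [Normal K₂ L₂] in
/-- `(K₁)_{τ₁} ≤ (K₂)_{τ₂}` for `τ₂ = τ₂'|_{K₂}`, `τ₁ = τ₂'|_{K₁}`. -/
theorem localFieldAt_base_le (τ₂' : LocalEmb q L₂) :
    localFieldAt (localEmbRestrict K₁ (localEmbRestrict L₁ τ₂')) ≤
      localFieldAt (localEmbRestrict K₂ τ₂') := by
  rw [localFieldAt, IntermediateField.adjoin_le_iff]
  rintro _ ⟨x, rfl⟩
  have h : localEmbRestrict K₁ (localEmbRestrict L₁ τ₂') x =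
      localEmbRestrict K₂ τ₂' (algebraMap K₁ K₂ x) := by
    show τ₂' (algebraMap L₁ L₂ (algebraMap K₁ L₁ x)) = τ₂' (algebraMap K₂ L₂ (algebraMap K₁ K₂ x))
    rw [← IsScalarTower.algebraMap_apply K₁ L₁ L₂, ← IsScalarTower.algebraMap_apply K₁ K₂ L₂]
  rw [h]
  exact apply_mem_localFieldAt _ _

/-- **Naturality of the localisation** for a square of fields. -/
theorem semiLocalGalMap_comp_map_loc (τ₂' : LocalEmb q L₂) :
    semiLocalGalMap K₁ L₁ K₂ L₂ 2 ≫
        groupCohomology.map (locGroupHom K₂ τ₂') (locRepHom K₂ τ₂') 2 =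
      groupCohomology.map (locGroupHom K₁ (localEmbRestrict L₁ τ₂'))
          (locRepHom K₁ (localEmbRestrict L₁ τ₂')) 2 ≫
        layerMap (localFieldAt_restrict_le K₁ (localEmbRestrict L₁ τ₂'))
          (localFieldAt_restrict_le K₂ τ₂') (localFieldAt_base_le K₁ K₂ τ₂')
          (localFieldAt_restrict_le L₁ τ₂') 2 := by
  letI := algBase (localFieldAt_base_le K₁ K₂ (L₁ := L₁) τ₂')
  letI := algTop (localFieldAt_restrict_le K₁ (localEmbRestrict L₁ τ₂'))
    (localFieldAt_restrict_le K₂ τ₂') (localFieldAt_restrict_le L₁ τ₂')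
  letI := algDiag (localFieldAt_base_le K₁ K₂ (L₁ := L₁) τ₂') (localFieldAt_restrict_le K₂ τ₂')
  haveI := tower_base (localFieldAt_base_le K₁ K₂ (L₁ := L₁) τ₂') (localFieldAt_restrict_le K₂ τ₂')
  haveI := tower_top (localFieldAt_restrict_le K₁ (localEmbRestrict L₁ τ₂'))
    (localFieldAt_restrict_le K₂ τ₂') (localFieldAt_base_le K₁ K₂ (L₁ := L₁) τ₂')
    (localFieldAt_restrict_le L₁ τ₂')
  show _ = _ ≫ galMap (localFieldAt (localEmbRestrict K₁ (localEmbRestrict L₁ τ₂')))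
    (localLayer K₁ (localEmbRestrict L₁ τ₂')) (localFieldAt (localEmbRestrict K₂ τ₂'))
    (localLayer K₂ τ₂') 2
  rw [semiLocalGalMap, galMap, ← groupCohomology.map_comp, ← groupCohomology.map_comp]
  have hgrp : (galRes K₁ L₁ K₂ L₂).comp (locGroupHom K₂ τ₂') =
      (locGroupHom K₁ (localEmbRestrict L₁ τ₂')).comp
        (galRes (localFieldAt (localEmbRestrict K₁ (localEmbRestrict L₁ τ₂')))
          (localLayer K₁ (localEmbRestrict L₁ τ₂')) (localFieldAt (localEmbRestrict K₂ τ₂'))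
          (localLayer K₂ τ₂')) := by
    ext g : 1
    symm
    rw [MonoidHom.comp_apply, MonoidHom.comp_apply, locGroupHom_eq_iff]
    intro x
    have h1 := galRes_commutes
      (K₁ := localFieldAt (localEmbRestrict K₁ (localEmbRestrict L₁ τ₂')))
      (L₁ := localLayer K₁ (localEmbRestrict L₁ τ₂'))
      (K₂ := localFieldAt (localEmbRestrict K₂ τ₂')) (L₂ := localLayer K₂ τ₂') g
      (⟨(localEmbRestrict L₁ τ₂') x, apply_mem_localFieldAt _ x⟩ :
        localLayer K₁ (localEmbRestrict L₁ τ₂'))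
    have h2 := congrArg (fun w : localLayer K₂ τ₂' => (w : Ω)) h1
    refine Eq.trans h2 ?_
    have h3 := apply_apply_eq_decompEquiv K₂ τ₂' g (algebraMap L₁ L₂ x)
    refine Eq.trans h3 ?_
    show τ₂' (locGroupHom K₂ τ₂' g (algebraMap L₁ L₂ x)) =
      τ₂' (algebraMap L₁ L₂ (galRes K₁ L₁ K₂ L₂ (locGroupHom K₂ τ₂' g) x))
    rw [galRes_commutes]
  refine groupCohomology.map_congr hgrp ?_ 2
  refine LinearMap.ext fun f => ?_
  apply Additive.toMul.injective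
  apply Units.ext
  apply Subtype.ext
  have h1 := locRepHom_val K₂ τ₂' ((semiLocalGalHom K₁ L₁ K₂ L₂ (q := q)).hom f)
  have h2 := locRepHom_val K₁ (localEmbRestrict L₁ τ₂') f
  exact h1.trans h2.symm

end LocGen

/-- The local degree `[(K₂)_{τ₂} : (K₁)_{τ₁}]`, `τ₁ = τ₂|_{K₁}`. -/
def localDegree {q : ℕ} [Fact q.Prime] (τ₂ : LocalEmb q K₂) : ℕ :=
  Module.finrank (localFieldAt (localEmbRestrict K₁ τ₂)) (layer (localFieldAt_restrict_le K₁ τ₂))

theorem finrank_layer_congr {k Ω' : Type} [Field k] [Field Ω'] [Algebra k Ω']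
    {E₁ E₂ F₁ F₂ : IntermediateField k Ω'} (h₁ : E₁ ≤ F₁) (h₂ : E₂ ≤ F₂) (e : E₁ = E₂)
    (f : F₁ = F₂) : Module.finrank E₁ (layer h₁) = Module.finrank E₂ (layer h₂) := by
  subst e f
  rfl

omit [Normal K₁ L₁] [Normal K₂ L₂] in
theorem localEmbRestrict_restrict {q : ℕ} [Fact q.Prime] (τ₂' : LocalEmb q L₂) :
    localEmbRestrict K₁ (localEmbRestrict L₁ τ₂') =
      localEmbRestrict K₁ (localEmbRestrict K₂ τ₂') := by
  refine RingHom.ext fun x => ?_
  show τ₂' (algebraMap L₁ L₂ (algebraMap K₁ L₁ x)) = τ₂' (algebraMap K₂ L₂ (algebraMap K₁ K₂ x))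
  rw [← IsScalarTower.algebraMap_apply K₁ L₁ L₂, ← IsScalarTower.algebraMap_apply K₁ K₂ L₂]

/-- **(LocGen)** The local invariant at `τ₂'` of the image under Galois functoriality is the local
degree times the local invariant at `τ₂'|_{L₁}`. -/
theorem semiLocalInvAt_semiLocalGalMap [NumberField L₂] (q : Nat.Primes)
    (τ₂' : LocalEmb ((q : Nat.Primes) : ℕ) L₂)
    (z : groupCohomology (semiLocalRep L₁ (L₁ ≃ₐ[K₁] L₁) ((q : Nat.Primes) : ℕ)) 2) :
    semiLocalInvAt I K₂ q τ₂' ((semiLocalGalMap K₁ L₁ K₂ L₂ 2).hom z) =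
      localDegree K₁ K₂ (localEmbRestrict K₂ τ₂') •
        semiLocalInvAt I K₁ q (localEmbRestrict L₁ τ₂') z := by
  rw [semiLocalInvAt_apply, semiLocalInvAt_apply]
  have h := ConcreteCategory.congr_hom (semiLocalGalMap_comp_map_loc K₁ K₂ τ₂') z
  have h' : (groupCohomology.map (locGroupHom K₂ τ₂') (locRepHom K₂ τ₂') 2).hom
      ((semiLocalGalMap K₁ L₁ K₂ L₂ 2).hom z) =
      (layerMap (localFieldAt_restrict_le K₁ (localEmbRestrict L₁ τ₂'))
          (localFieldAt_restrict_le K₂ τ₂') (localFieldAt_base_le K₁ K₂ τ₂')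
          (localFieldAt_restrict_le L₁ τ₂') 2).hom
        ((groupCohomology.map (locGroupHom K₁ (localEmbRestrict L₁ τ₂'))
          (locRepHom K₁ (localEmbRestrict L₁ τ₂')) 2).hom z) := h
  rw [h']
  haveI := finiteDimensional_localFieldAt τ₂'
  rw [(I q).inv_layerMap]
  congr 1
  unfold localDegree
  exact finrank_layer_congr _ _ (by rw [localEmbRestrict_restrict K₁ L₁ K₂ L₂ τ₂']) rfl

section T34

/-- The degree-sum formula `Σ_{ω₂ ∣ ω₁} [(K₂)_{ω₂} : (K₁)_{ω₁}] = [K₂ : K₁]` at the prime `q`. -/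
def HasLocalDegreeSum (q : ℕ) [Fact q.Prime] : Prop :=
  ∀ ω₁ : LocalPlace q K₁,
    ∑ᶠ ω₂ : {ω₂ : LocalPlace q K₂ // (localEmbRestrict K₁ ω₂.emb).place = ω₁},
      localDegree K₁ K₂ (ω₂ : LocalPlace q K₂).emb = Module.finrank K₁ K₂

variable [NumberField K₁] [NumberField L₁] [NumberField K₂] [NumberField L₂]

/-- The semi-local invariant is multiplied by `[K₂ : K₁]` under Galois functoriality. -/
theorem semiLocalInv_semiLocalGalMap (hI : ∀ q, (I q).IsConjInvariant) (q : Nat.Primes)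
    (hdeg : HasLocalDegreeSum K₁ K₂ ((q : Nat.Primes) : ℕ))
    (z : groupCohomology (semiLocalRep L₁ (L₁ ≃ₐ[K₁] L₁) ((q : Nat.Primes) : ℕ)) 2) :
    semiLocalInv I K₂ q ((semiLocalGalMap K₁ L₁ K₂ L₂ 2).hom z) =
      Module.finrank K₁ K₂ • semiLocalInv I K₁ q z := by
  classical
  letI : Fintype (LocalPlace ((q : Nat.Primes) : ℕ) K₁) := Fintype.ofFinite _
  letI : Fintype (LocalPlace ((q : Nat.Primes) : ℕ) K₂) := Fintype.ofFinite _
  rw [semiLocalInv_apply, semiLocalInv_apply, finsum_eq_sum_of_fintype, finsum_eq_sum_of_fintype]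
  set π : LocalPlace ((q : Nat.Primes) : ℕ) K₂ → LocalPlace ((q : Nat.Primes) : ℕ) K₁ :=
    fun ω₂ => (localEmbRestrict K₁ ω₂.emb).place with hπ
  set a : LocalPlace ((q : Nat.Primes) : ℕ) K₁ → AddCircle (1 : ℚ) :=
    fun ω₁ => semiLocalInvAt I K₁ q (placeLift K₁ ω₁) z with ha
  have hterm : ∀ ω₂ : LocalPlace ((q : Nat.Primes) : ℕ) K₂,
      semiLocalInvAt I K₂ q (placeLift K₂ ω₂) ((semiLocalGalMap K₁ L₁ K₂ L₂ 2).hom z) =
        localDegree K₁ K₂ ω₂.emb • a (π ω₂) := by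
    intro ω₂
    rw [semiLocalInvAt_semiLocalGalMap, localEmbRestrict_placeLift]
    congr 1
    have hplace : (localEmbRestrict K₁ (localEmbRestrict L₁ (placeLift K₂ ω₂ : LocalEmb _ L₂))).place =
        (localEmbRestrict K₁ (placeLift K₁ (π ω₂) : LocalEmb _ L₁)).place := by
      rw [localEmbRestrict_restrict K₁ L₁ K₂ L₂, localEmbRestrict_placeLift,
        localEmbRestrict_placeLift]
      exact (LocalPlace.place_emb _).symm
    rw [semiLocalInvAt_eq_of_place_eq I K₁ hI q hplace]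
  rw [Finset.sum_congr rfl fun ω₂ _ => hterm ω₂, ← Finset.sum_fiberwise Finset.univ π,
    Finset.smul_sum]
  refine Finset.sum_congr rfl fun ω₁ _ => ?_
  have h1 : ∀ ω₂ ∈ Finset.univ.filter (fun ω₂ => π ω₂ = ω₁),
      localDegree K₁ K₂ ω₂.emb • a (π ω₂) = localDegree K₁ K₂ ω₂.emb • a ω₁ := by
    intro ω₂ h
    rw [(Finset.mem_filter.1 h).2]
  rw [Finset.sum_congr rfl h1, ← Finset.sum_smul]
  congr 1
  have h2 := hdeg ω₁
  rw [finsum_eq_sum_of_fintype] at h2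
  rw [← h2]
  exact Finset.sum_subtype _ (fun ω₂ => by simp [hπ]) _

omit [NumberField L₁] [NumberField K₂] [NumberField L₂] [Algebra K₁ K₂] [Algebra L₁ L₂]
  [Algebra K₁ L₂] [IsScalarTower K₁ K₂ L₂] [IsScalarTower K₁ L₁ L₂] [Normal K₂ L₂]
  [Algebra K₂ L₂] in
theorem invJAt_apply (q : Nat.Primes) (y : groupCohomology (ideleRep L₁ (L₁ ≃ₐ[K₁] L₁)) 2) :
    invJAt I K₁ q y = semiLocalInv I K₁ q
      ((groupCohomology.map (MonoidHom.id (L₁ ≃ₐ[K₁] L₁)) (ideleProjHom K₁ (L := L₁) q) 2).hom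
        y) := rfl

/-- The `q`-component of the idele invariant is multiplied by `[K₂ : K₁]`. -/
theorem invJAt_ideleGalMap (hI : ∀ q, (I q).IsConjInvariant) (q : Nat.Primes)
    (hdeg : HasLocalDegreeSum K₁ K₂ ((q : Nat.Primes) : ℕ))
    (x : groupCohomology (ideleRep L₁ (L₁ ≃ₐ[K₁] L₁)) 2) :
    invJAt I K₂ q ((ideleGalMap K₁ L₁ K₂ L₂ 2).hom x) =
      Module.finrank K₁ K₂ • invJAt I K₁ q x := by
  have h := ConcreteCategory.congr_hom (map_ideleProjHom_comp_semiLocalGalMap K₁ L₁ K₂ L₂ q 2) x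
  have h' : (groupCohomology.map (MonoidHom.id (L₂ ≃ₐ[K₂] L₂)) (ideleProjHom K₂ (L := L₂) q) 2).hom
      ((ideleGalMap K₁ L₁ K₂ L₂ 2).hom x) =
      (semiLocalGalMap K₁ L₁ K₂ L₂ 2).hom
        ((groupCohomology.map (MonoidHom.id (L₁ ≃ₐ[K₁] L₁)) (ideleProjHom K₁ (L := L₁) q) 2).hom
          x) := h.symm
  rw [invJAt_apply, invJAt_apply, h', semiLocalInv_semiLocalGalMap I K₁ L₁ K₂ L₂ hI q hdeg]

/-- **(T34)** Base change: the idele invariant is multiplied by `[K₂ : K₁]` under the Galois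
functoriality map of a square (inflation: `K₁ = K₂`, factor `1`; restriction: `L₁ = L₂`), for
classes with finite support, given the degree-sum formula. -/
theorem invJFun_ideleGalMap_of_degreeSum (hI : ∀ q, (I q).IsConjInvariant)
    (hdeg : ∀ q : Nat.Primes, HasLocalDegreeSum K₁ K₂ ((q : Nat.Primes) : ℕ))
    (x : groupCohomology (ideleRep L₁ (L₁ ≃ₐ[K₁] L₁)) 2) (hx : HasFiniteInvSupport I K₁ x) :
    invJFun I K₂ ((ideleGalMap K₁ L₁ K₂ L₂ 2).hom x) =
      Module.finrank K₁ K₂ • invJFun I K₁ x := by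
  unfold invJFun
  rw [smul_finsum' (Module.finrank K₁ K₂) hx]
  exact finsum_congr fun q => invJAt_ideleGalMap I K₁ L₁ K₂ L₂ hI q (hdeg q) x

/-- Finite support is preserved by Galois functoriality. -/
theorem hasFiniteInvSupport_ideleGalMap (hI : ∀ q, (I q).IsConjInvariant)
    (hdeg : ∀ q : Nat.Primes, HasLocalDegreeSum K₁ K₂ ((q : Nat.Primes) : ℕ))
    (x : groupCohomology (ideleRep L₁ (L₁ ≃ₐ[K₁] L₁)) 2) (hx : HasFiniteInvSupport I K₁ x) :
    HasFiniteInvSupport I K₂ ((ideleGalMap K₁ L₁ K₂ L₂ 2).hom x) := by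
  refine Set.Finite.subset hx fun q hq => ?_
  rw [Function.mem_support] at hq ⊢
  intro h0
  apply hq
  rw [invJAt_ideleGalMap I K₁ L₁ K₂ L₂ hI q (hdeg q) x, h0, smul_zero]

end T34

end Fermat.Agent.CFT

end
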