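import Fermat.Agent.CFT.Global.GlobalInvFunct

/-!
# Layer C6 (N2): place-wise base change of the idele invariant

For a square of fields `K₁ ⊆ L₁`, `K₂ ⊆ L₂` and an embedding `τ₂' : L₂ → ℚ̄_q`:

* `semiLocalInvAt_proj_ideleGalMap`: the local invariant at `τ₂'` of the `q`-component of
  `ideleGalMap x` is `[(K₂)_{τ₂} : (K₁)_{τ₁}]` times the local invariant at `τ₂'|_{L₁}` of the
  `q`-component of `x` (no hypothesis on the local invariant family);
* `semiLocalInvAt_proj_ideleGalMap_eq_zero_of_dvd`: it vanishes if `m • x = 0` and `m` divides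
  the local degree;
* `semiLocalInvAt_proj_ideleGalMap_eq_zero`: the vanishing statement `hvanish` of
  `RecipAssembly.lean`, from: for every `q` either the `q`-component of `x` vanishes or `m`
  divides all local degrees above `q`.
-/

set_option autoImplicit false
set_option linter.unusedSectionVars false

open CategoryTheory groupCohomology

noncomputable section

namespace Fermat.Agent.CFT

open GaloisTower LayerMaps

variable (I : LocalInvFamily)
  (K₁ L₁ K₂ L₂ : Type) [Field K₁] [Field L₁] [Field K₂] [Field L₂]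
  [Algebra K₁ L₁] [Algebra K₂ L₂] [Algebra K₁ K₂] [Algebra L₁ L₂] [Algebra K₁ L₂]
  [IsScalarTower K₁ K₂ L₂] [IsScalarTower K₁ L₁ L₂] [Normal K₁ L₁] [Normal K₂ L₂]
  [NumberField L₂]

/-- The `q`-component of `ideleGalMap x` is `semiLocalGalMap` of the `q`-component of `x`. -/
theorem proj_ideleGalMap (q : Nat.Primes) (x : groupCohomology (ideleRep L₁ (L₁ ≃ₐ[K₁] L₁)) 2) :
    (groupCohomology.map (MonoidHom.id (L₂ ≃ₐ[K₂] L₂)) (ideleProjHom K₂ (L := L₂) q) 2).hom
        ((ideleGalMap K₁ L₁ K₂ L₂ 2).hom x) =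
      (semiLocalGalMap K₁ L₁ K₂ L₂ 2).hom
        ((groupCohomology.map (MonoidHom.id (L₁ ≃ₐ[K₁] L₁)) (ideleProjHom K₁ (L := L₁) q) 2).hom
          x) :=
  (ConcreteCategory.congr_hom (map_ideleProjHom_comp_semiLocalGalMap K₁ L₁ K₂ L₂ q 2) x).symm

/-- **Place-wise base change**: the local invariant at `τ₂'` of the `q`-component of
`ideleGalMap x` is the local degree times the local invariant at `τ₂'|_{L₁}` of the
`q`-component of `x`. -/
theorem semiLocalInvAt_proj_ideleGalMap (q : Nat.Primes)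
    (τ₂' : LocalEmb ((q : Nat.Primes) : ℕ) L₂)
    (x : groupCohomology (ideleRep L₁ (L₁ ≃ₐ[K₁] L₁)) 2) :
    semiLocalInvAt I K₂ q τ₂'
        ((groupCohomology.map (MonoidHom.id (L₂ ≃ₐ[K₂] L₂)) (ideleProjHom K₂ (L := L₂) q) 2).hom
          ((ideleGalMap K₁ L₁ K₂ L₂ 2).hom x)) =
      localDegree K₁ K₂ (localEmbRestrict K₂ τ₂') •
        semiLocalInvAt I K₁ q (localEmbRestrict L₁ τ₂')
          ((groupCohomology.map (MonoidHom.id (L₁ ≃ₐ[K₁] L₁)) (ideleProjHom K₁ (L := L₁) q)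
            2).hom x) := by
  rw [proj_ideleGalMap, semiLocalInvAt_semiLocalGalMap]

/-- The local invariant of the `q`-component of `ideleGalMap x` at `τ₂'` vanishes if `m • x = 0`
and `m` divides the local degree at `τ₂'`. -/
theorem semiLocalInvAt_proj_ideleGalMap_eq_zero_of_dvd {m : ℕ} (q : Nat.Primes)
    (τ₂' : LocalEmb ((q : Nat.Primes) : ℕ) L₂)
    (x : groupCohomology (ideleRep L₁ (L₁ ≃ₐ[K₁] L₁)) 2) (hx : m • x = 0)
    (hdvd : m ∣ localDegree K₁ K₂ (localEmbRestrict K₂ τ₂')) :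
    semiLocalInvAt I K₂ q τ₂'
        ((groupCohomology.map (MonoidHom.id (L₂ ≃ₐ[K₂] L₂)) (ideleProjHom K₂ (L := L₂) q) 2).hom
          ((ideleGalMap K₁ L₁ K₂ L₂ 2).hom x)) = 0 := by
  obtain ⟨c, hc⟩ := hdvd
  have h0 : m • semiLocalInvAt I K₁ q (localEmbRestrict L₁ τ₂')
      ((groupCohomology.map (MonoidHom.id (L₁ ≃ₐ[K₁] L₁)) (ideleProjHom K₁ (L := L₁) q)
        2).hom x) = 0 := by
    rw [← map_nsmul, ← map_nsmul, hx, map_zero, map_zero]
  rw [semiLocalInvAt_proj_ideleGalMap, hc, mul_comm, mul_smul, h0, smul_zero]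

/-- The local invariant of the `q`-component of `ideleGalMap x` vanishes if the `q`-component of
`x` does. -/
theorem semiLocalInvAt_proj_ideleGalMap_eq_zero_of_proj (q : Nat.Primes)
    (τ₂' : LocalEmb ((q : Nat.Primes) : ℕ) L₂)
    (x : groupCohomology (ideleRep L₁ (L₁ ≃ₐ[K₁] L₁)) 2)
    (hx : (groupCohomology.map (MonoidHom.id (L₁ ≃ₐ[K₁] L₁)) (ideleProjHom K₁ (L := L₁) q)
      2).hom x = 0) :
    semiLocalInvAt I K₂ q τ₂'
        ((groupCohomology.map (MonoidHom.id (L₂ ≃ₐ[K₂] L₂)) (ideleProjHom K₂ (L := L₂) q) 2).hom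
          ((ideleGalMap K₁ L₁ K₂ L₂ 2).hom x)) = 0 := by
  rw [semiLocalInvAt_proj_ideleGalMap, hx, map_zero, smul_zero]

/-- **(hvanish)** All local invariants of `ideleGalMap x` vanish, if `m • x = 0` and for every
prime `q` either the `q`-component of `x` vanishes or `m` divides all local degrees
`[(K₂)_{τ₂} : (K₁)_{τ₁}]` above `q`. -/
theorem semiLocalInvAt_proj_ideleGalMap_eq_zero {m : ℕ}
    (x : groupCohomology (ideleRep L₁ (L₁ ≃ₐ[K₁] L₁)) 2) (hx : m • x = 0)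
    (h : ∀ q : Nat.Primes,
      (groupCohomology.map (MonoidHom.id (L₁ ≃ₐ[K₁] L₁)) (ideleProjHom K₁ (L := L₁) q) 2).hom
          x = 0 ∨
        ∀ τ₂ : LocalEmb ((q : Nat.Primes) : ℕ) K₂, m ∣ localDegree K₁ K₂ τ₂)
    (q : Nat.Primes) (τ₂' : LocalEmb ((q : Nat.Primes) : ℕ) L₂) :
    semiLocalInvAt I K₂ q τ₂'
        ((groupCohomology.map (MonoidHom.id (L₂ ≃ₐ[K₂] L₂)) (ideleProjHom K₂ (L := L₂) q) 2).hom
          ((ideleGalMap K₁ L₁ K₂ L₂ 2).hom x)) = 0 := by
  rcases h q with h0 | hd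
  · exact semiLocalInvAt_proj_ideleGalMap_eq_zero_of_proj I K₁ L₁ K₂ L₂ q τ₂' x h0
  · exact semiLocalInvAt_proj_ideleGalMap_eq_zero_of_dvd I K₁ L₁ K₂ L₂ q τ₂' x hx
      (hd (localEmbRestrict K₂ τ₂'))

end Fermat.Agent.CFT

end
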