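import Fermat.Agent.CFT.Global.GlobalG0
import Fermat.Agent.S55.CycloUnram

/-!
# Complements to `Global/GlobalG0.lean` (S55, node C9 [G0-GLOBAL])

* `exists_field_of_isOpen`: every open subgroup of `S55.globalLevel S` is `Gal(ℚ̄/F)` with `F`
  unramified outside `S`;
* `muField_eq_adjoin_primitiveRoot`, `finiteDimensional_muField`, `isUnramifiedOutside_muField`:
  `ℚ(μ_p) = ℚ(ζ_p)` is finite over `ℚ` and unramified outside `S ∋ p`;
* `muField_le_of_fixingSubgroup_le_globalG0`: `Gal(ℚ̄/F) ≤ G₀` implies `ℚ(μ_p) ≤ F`.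
-/

set_option autoImplicit false
set_option linter.style.haveILetI false

open ExtCitation

noncomputable section

namespace Fermat.Agent.CFT

open Fermat.Agent.S55 Fermat.Agent.CFT.GaloisTower

local notation "Qb" => AlgebraicClosure ℚ
local notation "GQ" => (AlgebraicClosure ℚ ≃ₐ[ℚ] AlgebraicClosure ℚ)

local instance instIsGaloisQbGlobalOpenField : IsGalois ℚ Qb :=
  Fermat.Agent.S54.FrobExists.isGalois_rat_algebraicClosure

/-- Every open subgroup of `globalLevel S` is `Gal(ℚ̄/F)` with `F` unramified outside `S`. -/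
theorem exists_field_of_isOpen (S : Finset Nat.Primes) {U : Subgroup GQ}
    (hU : (globalLevel S).IsOpen U) :
    ∃ F : IntermediateField ℚ Qb, F.IsUnramifiedOutside S ∧ U = F.fixingSubgroup := by
  obtain ⟨N, ⟨E, -, hES, rfl⟩, hNU⟩ := hU
  haveI := hES.1
  obtain ⟨F, hle, hF⟩ := exists_fixingSubgroup_eq_of_le U hNU
  exact ⟨F, hES.of_le hle, hF.symm⟩

/-- `Gal(ℚ̄/F) ≤ G₀` implies `ℚ(μ_p) ≤ F`. -/
theorem muField_le_of_fixingSubgroup_le_globalG0 (p : ℕ) {F : IntermediateField ℚ Qb}
    (hle : F.fixingSubgroup ≤ globalG0 p) : muField p ≤ F := by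
  have h2 := IntermediateField.fixedField_antitone hle
  rw [globalG0, InfiniteGalois.fixedField_fixingSubgroup,
    InfiniteGalois.fixedField_fixingSubgroup] at h2
  exact h2

variable (p : ℕ) [hp : Fact p.Prime]

variable {p} in
/-- `ℚ(μ_p) = ℚ(ζ)` for a primitive `p`-th root of unity `ζ`. -/
theorem muField_eq_adjoin_primitiveRoot {ζ : Qb} (hζ : IsPrimitiveRoot ζ p) :
    muField p = IntermediateField.adjoin ℚ {ζ} := by
  haveI : NeZero p := ⟨hp.out.ne_zero⟩
  refine le_antisymm ?_ ?_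
  · rw [muField, IntermediateField.adjoin_le_iff]
    intro x hx
    obtain ⟨i, -, rfl⟩ := hζ.eq_pow_of_pow_eq_one (show x ^ p = 1 from hx)
    exact pow_mem (IntermediateField.mem_adjoin_simple_self ℚ ζ) i
  · rw [IntermediateField.adjoin_le_iff]
    intro x hx
    rw [Set.mem_singleton_iff] at hx
    rw [hx]
    exact IntermediateField.subset_adjoin ℚ _ hζ.pow_eq_one

/-- `ℚ(μ_p)` is finite over `ℚ`. -/
theorem finiteDimensional_muField : FiniteDimensional ℚ (muField p) := by
  haveI : NeZero p := ⟨hp.out.ne_zero⟩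
  obtain ⟨ζ, hζ⟩ : ∃ ζ : Qb, IsPrimitiveRoot ζ p :=
    HasEnoughRootsOfUnity.exists_primitiveRoot Qb p
  rw [muField_eq_adjoin_primitiveRoot hζ]
  exact IntermediateField.adjoin.finiteDimensional
    ((hζ.isIntegral hp.out.pos).tower_top (R := ℤ))

/-- `ℚ(μ_p)` is unramified outside `S ∋ p`. -/
theorem isUnramifiedOutside_muField (S : Finset Nat.Primes) (hpS : pPrime p ∈ S) :
    (muField p).IsUnramifiedOutside S := by
  refine ⟨finiteDimensional_muField p, fun q hq A hA σ hσ => ?_⟩
  have hqp : (q : ℕ) ≠ p := by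
    intro h
    apply hq
    have : q = pPrime p := Subtype.ext h
    rw [this]
    exact hpS
  show σ ∈ globalG0 p
  rw [mem_globalG0_iff, ← cycloChar_eq_one_iff]
  exact cycloChar_eq_one_of_mem_inertia p q.2 hqp A hA hσ

end Fermat.Agent.CFT
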