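import Fermat.Agent.CFT.Global.IdeleTower

/-!
# Layer C, node C1d (part 2): idele classes in a Galois tower

`Ω/k` Galois, `E ≤ E'` intermediate fields with `E'/E` normal.  The inclusion of idele groups
`ideleIncl h : J_{E'} → J_Ω` maps principal ideles to principal ideles and induces
`ideleClassIncl h : C_{E'} → C_Ω`, which is equivariant (`smul_ideleClassIncl`), lands in the
`Gal(Ω/E')`-invariants (`ideleClassInvariantsHom`, a morphism of `Gal(Ω/E)/Gal(Ω/E')`-modules) and
is injective as soon as some `LocalEmb q Ω` is nonempty (`ideleClassIncl_injective`): a principal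
idele of `Ω` fixed by `Gal(Ω/E')` is the principal idele of an element of `E'`.
(Surjectivity onto the invariants needs `H¹(Gal(Ω/E'), Ωˣ) = 0` and is not proved here.)
-/

set_option autoImplicit false
set_option linter.unusedSectionVars false
set_option linter.style.haveILetI false

noncomputable section

namespace Fermat.Agent.CFT

open Fermat.Agent.CFT.GaloisTower Fermat.Agent.CFT.PT IntermediateField

/-- Shortcut instance (the generic search through quotient/`Pi` instances is very slow). -/
instance (priority := high) ideleClassSMulShortcut (H K : Type) [Group H] [Field K]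
    [MulSemiringAction H K] : SMul H (ideleClass K) :=
  (ideleClassAction (G := H) (K := K)).toSMul

variable {k Ω : Type} [Field k] [Field Ω] [Algebra k Ω] [IsGalois k Ω]
variable {E E' : IntermediateField k Ω} (h : E ≤ E')

theorem ideleIncl_mem_principalSubgroup {y : ideleGroup (layer h)}
    (hy : y ∈ principalSubgroup (layer h)) : ideleIncl h y ∈ principalSubgroup Ω := by
  obtain ⟨a, ha⟩ := hy
  refine ⟨Units.map (algebraMap (layer h) Ω : layer h →* Ω) a, ?_⟩
  rw [← ideleProdMap_principal, ha]
  rfl

/-- The map on idele classes `C_{E'} → C_Ω`. -/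
def ideleClassIncl : ideleClass (layer h) →* ideleClass Ω :=
  QuotientGroup.map _ _ (ideleIncl h)
    (fun _ hy => Subgroup.mem_comap.2 (ideleIncl_mem_principalSubgroup h hy))

@[simp]
theorem ideleClassIncl_mk (y : ideleGroup (layer h)) :
    ideleClassIncl h (QuotientGroup.mk y : ideleClass (layer h)) =
      (QuotientGroup.mk (ideleIncl h y) : ideleClass Ω) := rfl

theorem smul_ideleClassIncl [Normal E (layer h)] (σ : E.fixingSubgroup)
    (c : ideleClass (layer h)) :
    (σ : Ω ≃ₐ[k] Ω) • ideleClassIncl h c = ideleClassIncl h (layerRes h σ • c) := by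
  induction c using QuotientGroup.induction_on with
  | H y =>
    rw [ideleClassIncl_mk, ideleClass_smul_mk, smul_ideleIncl, ideleClass_smul_mk,
      ideleClassIncl_mk]

/-- Elements of `C_{E'}` are fixed by `Gal(Ω/E')` inside `C_Ω`. -/
theorem smul_ideleClassIncl_of_mem (c : ideleClass (layer h)) {σ : Ω ≃ₐ[k] Ω}
    (hσ : σ ∈ E'.fixingSubgroup) : σ • ideleClassIncl h c = ideleClassIncl h c := by
  induction c using QuotientGroup.induction_on with
  | H y =>
    rw [ideleClassIncl_mk, ideleClass_smul_mk]
    exact congrArg _ ((mem_range_ideleIncl_iff h _).1 ⟨y, rfl⟩ σ hσ)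

/-- The principal idele map is injective as soon as there is a local embedding. -/
theorem principalIdele_injective_of_localEmb
    (hne : ∃ q : Nat.Primes, Nonempty (LocalEmb (q : ℕ) Ω)) :
    Function.Injective (principalIdele Ω) := by
  obtain ⟨q, ⟨τ⟩⟩ := hne
  intro x y hxy
  apply Units.ext
  have h1 : (semiLocalDiag x : semiLocalUnits (q : ℕ) Ω) = semiLocalDiag y := congrFun hxy q
  have h2 := congrArg (fun f : semiLocalUnits (q : ℕ) Ω =>
    (((f : LocalEmb (q : ℕ) Ω → (PadicAlgCl (q : ℕ))ˣ) τ : (PadicAlgCl (q : ℕ))ˣ) :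
      PadicAlgCl (q : ℕ))) h1
  simp only [semiLocalDiag_apply] at h2
  exact τ.injective h2

/-- A principal idele of `Ω` which comes from an idele of `E'` is the principal idele of an element
of `E'`. -/
theorem mem_principalSubgroup_of_ideleIncl_mem
    (hne : ∃ q : Nat.Primes, Nonempty (LocalEmb (q : ℕ) Ω)) {y : ideleGroup (layer h)}
    (hy : ideleIncl h y ∈ principalSubgroup Ω) : y ∈ principalSubgroup (layer h) := by
  obtain ⟨a, ha⟩ := hy
  -- `a` is fixed by `Gal(Ω/E')`
  have hfix : ∀ σ ∈ E'.fixingSubgroup, (σ : Ω ≃ₐ[k] Ω) (a : Ω) = a := by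
    intro σ hσ
    have h1 : (σ : Ω ≃ₐ[k] Ω) • ideleIncl h y = ideleIncl h y :=
      (mem_range_ideleIncl_iff h _).1 ⟨y, rfl⟩ σ hσ
    have h2 : principalIdele Ω (unitsSmul σ a) = principalIdele Ω a := by
      funext q
      have h3 := congrFun (congrArg (fun z : ideleGroup Ω => (z : IdeleProd Ω)) h1) q
      have h4 : (semiLocalDiag a : semiLocalUnits (q : ℕ) Ω) =
          ((ideleIncl h y : ideleGroup Ω) : IdeleProd Ω) q := congrFun ha q
      show (semiLocalDiag (unitsSmul σ a) : semiLocalUnits (q : ℕ) Ω) = semiLocalDiag a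
      rw [← smul_semiLocalDiag, h4]
      exact h3
    exact congrArg (fun u : Ωˣ => (u : Ω)) (principalIdele_injective_of_localEmb hne h2)
  have haE : (a : Ω) ∈ E' := (forall_fixingSubgroup_apply_eq_iff E' _).1 hfix
  let a' : (layer h)ˣ := Units.mk0 (⟨(a : Ω), haE⟩ : layer h)
    (fun h0 => a.ne_zero (congrArg Subtype.val h0))
  refine ⟨a', ?_⟩
  have h5 : ideleProdMap (algebraMap (layer h) Ω) (principalIdele (layer h) a') =
      ideleProdMap (algebraMap (layer h) Ω) (y : IdeleProd (layer h)) := by
    rw [ideleProdMap_principal]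
    have : Units.map (algebraMap (layer h) Ω : layer h →* Ω) a' = a := Units.ext rfl
    rw [this]
    exact ha
  funext q
  exact slIncl_injective h (congrFun h5 q)

/-- `C_{E'} → C_Ω` is injective. -/
theorem ideleClassIncl_injective (hne : ∃ q : Nat.Primes, Nonempty (LocalEmb (q : ℕ) Ω)) :
    Function.Injective (ideleClassIncl (Ω := Ω) h) := by
  rw [injective_iff_map_eq_one]
  intro c hc
  induction c using QuotientGroup.induction_on with
  | H y =>
    rw [ideleClassIncl_mk, QuotientGroup.eq_one_iff] at hc
    exact (QuotientGroup.eq_one_iff _).2 (mem_principalSubgroup_of_ideleIncl_mem h hne hc)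

/-- The `Gal(Ω/E)`-module `C_Ω`. -/
abbrev ideleClassTowerRep (E : IntermediateField k Ω) : Rep ℤ E.fixingSubgroup :=
  Rep.res E.fixingSubgroup.subtype (ideleClassRep Ω (Ω ≃ₐ[k] Ω))

variable [Normal E (layer h)]

/-- The additive map `C_{E'} → C_Ω^{Gal(Ω/E')}`. -/
def ideleClassInvariantsAddHom :
    Additive (ideleClass (layer h)) →+
      Representation.invariants ((ideleClassTowerRep E).ρ.comp (layerRes h).ker.subtype) where
  toFun c := ⟨Additive.ofMul (ideleClassIncl h (Additive.toMul c)), fun σ =>
    congrArg Additive.ofMul (smul_ideleClassIncl_of_mem h (Additive.toMul c)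
      ((mem_ker_layerRes_iff h _).1 σ.2))⟩
  map_zero' := Subtype.ext (congrArg Additive.ofMul (map_one (ideleClassIncl (Ω := Ω) h)))
  map_add' c c' := Subtype.ext (congrArg Additive.ofMul
    (map_mul (ideleClassIncl (Ω := Ω) h) (Additive.toMul c) (Additive.toMul c')))

theorem ideleClassInvariantsAddHom_coe (c : Additive (ideleClass (layer h))) :
    Additive.toMul ((ideleClassInvariantsAddHom (Ω := Ω) h c).1 : Additive (ideleClass Ω)) =
      ideleClassIncl h (Additive.toMul c) := rfl

theorem ideleClassInvariantsAddHom_injective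
    (hne : ∃ q : Nat.Primes, Nonempty (LocalEmb (q : ℕ) Ω)) :
    Function.Injective (ideleClassInvariantsAddHom (Ω := Ω) h) := by
  intro c c' hcc
  have := congrArg (fun z => Additive.toMul (z.1 : Additive (ideleClass Ω))) hcc
  exact congrArg Additive.ofMul (ideleClassIncl_injective h hne this)

/-- `C_{E'} ⟶ C_Ω^{Gal(Ω/E')}` as a morphism of `Gal(Ω/E)/Gal(Ω/E')`-modules (along
`layerEquiv`). -/
def ideleClassInvariantsHom :
    Rep.res (layerEquiv h).toMonoidHom (ideleClassRep (layer h) ((layer h) ≃ₐ[E] (layer h))) ⟶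
      (ideleClassTowerRep E).quotientToInvariants (layerRes h).ker :=
  Rep.ofHom ⟨(ideleClassInvariantsAddHom (Ω := Ω) h).toIntLinearMap, fun g => by
    induction g using QuotientGroup.induction_on with
    | H σ =>
      ext c
      apply Additive.toMul.injective
      show ideleClassIncl h (layerRes h σ • (Additive.toMul c : ideleClass (layer h))) =
        (σ : Ω ≃ₐ[k] Ω) • ideleClassIncl h (Additive.toMul c)
      rw [smul_ideleClassIncl]⟩

theorem ideleClassInvariantsHom_apply (c : Additive (ideleClass (layer h))) :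
    (ideleClassInvariantsHom (Ω := Ω) h).hom c = ideleClassInvariantsAddHom h c := rfl

end Fermat.Agent.CFT

end
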