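import Fermat.Agent.CFT.GalMap
import Fermat.Agent.CFT.Global.IdeleSeq
import Fermat.Agent.CFT.Global.SModules

/-!
# Galois functoriality of the idele cohomology

For a commutative square of fields `K₁ ⊆ L₁`, `K₂ ⊆ L₂`, `K₁ ⊆ K₂`, `L₁ ⊆ L₂` with `L₁/K₁` normal
(the setting of `GalMap.lean`), the map of idele groups `J_{L₁} → J_{L₂}` is equivariant along
`galRes : Gal(L₂/K₂) → Gal(L₁/K₁)`; we get
`ideleGalMap : Hⁿ(Gal(L₁/K₁), J_{L₁}) ⟶ Hⁿ(Gal(L₂/K₂), J_{L₂})` and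
`ideleClassGalMap` on idele classes, compatible with `galMap` on units
(`ideleGalMap_comp_units`) and with the projection to classes (`ideleGalMap_comp_class`).
Special cases: inflation (`K₁ = K₂`) and restriction (`L₁ = L₂`).
-/

set_option autoImplicit false
set_option linter.unusedSectionVars false

open CategoryTheory groupCohomology Rep

noncomputable section

namespace Fermat.Agent.CFT

variable (K₁ L₁ K₂ L₂ : Type) [Field K₁] [Field L₁] [Field K₂] [Field L₂]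
  [Algebra K₁ L₁] [Algebra K₂ L₂] [Algebra K₁ K₂] [Algebra L₁ L₂] [Algebra K₁ L₂]
  [IsScalarTower K₁ K₂ L₂] [IsScalarTower K₁ L₁ L₂] [Normal K₁ L₁]

theorem semiLocalMap_galRes_smul {q : ℕ} [Fact q.Prime] (σ : L₂ ≃ₐ[K₂] L₂)
    (f : semiLocalUnits q L₁) :
    semiLocalMap (algebraMap L₁ L₂) (galRes K₁ L₁ K₂ L₂ σ • f) =
      σ • semiLocalMap (algebraMap L₁ L₂) f := by
  apply Subtype.ext
  funext τ
  show (f : LocalEmb q L₁ → (PadicAlgCl q)ˣ) _ = (f : LocalEmb q L₁ → (PadicAlgCl q)ˣ) _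
  refine congrArg _ (RingHom.ext fun x => ?_)
  show τ (algebraMap L₁ L₂ (galRes K₁ L₁ K₂ L₂ σ x)) = τ (σ (algebraMap L₁ L₂ x))
  rw [galRes_commutes]

theorem ideleMap_galRes_smul (σ : L₂ ≃ₐ[K₂] L₂) (x : ideleGroup L₁) :
    ideleMap (algebraMap L₁ L₂) (galRes K₁ L₁ K₂ L₂ σ • x) =
      σ • ideleMap (algebraMap L₁ L₂) x := by
  apply Subtype.ext
  funext q
  exact semiLocalMap_galRes_smul K₁ L₁ K₂ L₂ σ ((x : IdeleProd L₁) q)

/-- `J_{L₁} → J_{L₂}` as a morphism of representations along `galRes`. -/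
def ideleGalHom :
    res (galRes K₁ L₁ K₂ L₂) (ideleRep L₁ (L₁ ≃ₐ[K₁] L₁)) ⟶ ideleRep L₂ (L₂ ≃ₐ[K₂] L₂) :=
  mulRepHomRes (galRes K₁ L₁ K₂ L₂) (ideleMap (algebraMap L₁ L₂))
    (ideleMap_galRes_smul K₁ L₁ K₂ L₂)

@[simp]
theorem ideleGalHom_apply (x : Additive (ideleGroup L₁)) :
    ((ideleGalHom K₁ L₁ K₂ L₂).hom x : Additive (ideleGroup L₂)) =
      Additive.ofMul (ideleMap (algebraMap L₁ L₂) (Additive.toMul x)) := rfl

/-- **Galois functoriality** of `Hⁿ(Gal(L/K), J_L)`. -/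
def ideleGalMap (n : ℕ) :
    groupCohomology (ideleRep L₁ (L₁ ≃ₐ[K₁] L₁)) n ⟶
      groupCohomology (ideleRep L₂ (L₂ ≃ₐ[K₂] L₂)) n :=
  groupCohomology.map (galRes K₁ L₁ K₂ L₂) (ideleGalHom K₁ L₁ K₂ L₂) n

theorem ideleMap_mem_principalSubgroup {x : ideleGroup L₁} (hx : x ∈ principalSubgroup L₁) :
    ideleMap (algebraMap L₁ L₂) x ∈ principalSubgroup L₂ := by
  obtain ⟨a, ha⟩ := hx
  refine ⟨Units.map (algebraMap L₁ L₂ : L₁ →* L₂) a, ?_⟩
  show principalIdele L₂ _ = ideleProdMap (algebraMap L₁ L₂) (x : IdeleProd L₁)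
  have ha' : principalIdele L₁ a = (x : IdeleProd L₁) := ha
  rw [← ha', ideleProdMap_principal]

/-- The induced map on idele class groups `C_{L₁} → C_{L₂}`. -/
def ideleClassMap : ideleClass L₁ →* ideleClass L₂ :=
  QuotientGroup.map _ _ (ideleMap (algebraMap L₁ L₂))
    (fun _ hx => Subgroup.mem_comap.2 (ideleMap_mem_principalSubgroup L₁ L₂ hx))

@[simp]
theorem ideleClassMap_mk (x : ideleGroup L₁) :
    ideleClassMap L₁ L₂ (QuotientGroup.mk x) = QuotientGroup.mk (ideleMap (algebraMap L₁ L₂) x) :=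
  rfl

theorem ideleClassMap_galRes_smul (σ : L₂ ≃ₐ[K₂] L₂) (c : ideleClass L₁) :
    ideleClassMap L₁ L₂ (galRes K₁ L₁ K₂ L₂ σ • c) = σ • ideleClassMap L₁ L₂ c := by
  induction c using QuotientGroup.induction_on with
  | H x =>
    rw [ideleClass_smul_mk, ideleClassMap_mk, ideleClassMap_mk, ideleClass_smul_mk,
      ideleMap_galRes_smul]

/-- `C_{L₁} → C_{L₂}` as a morphism of representations along `galRes`. -/
def ideleClassGalHom :
    res (galRes K₁ L₁ K₂ L₂) (ideleClassRep L₁ (L₁ ≃ₐ[K₁] L₁)) ⟶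
      ideleClassRep L₂ (L₂ ≃ₐ[K₂] L₂) :=
  mulRepHomRes (galRes K₁ L₁ K₂ L₂) (ideleClassMap L₁ L₂)
    (ideleClassMap_galRes_smul K₁ L₁ K₂ L₂)

/-- **Galois functoriality** of `Hⁿ(Gal(L/K), C_L)`. -/
def ideleClassGalMap (n : ℕ) :
    groupCohomology (ideleClassRep L₁ (L₁ ≃ₐ[K₁] L₁)) n ⟶
      groupCohomology (ideleClassRep L₂ (L₂ ≃ₐ[K₂] L₂)) n :=
  groupCohomology.map (galRes K₁ L₁ K₂ L₂) (ideleClassGalHom K₁ L₁ K₂ L₂) n

/-- Compatibility with the projection `J → C`. -/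
theorem ideleGalMap_comp_class (n : ℕ) :
    ideleGalMap K₁ L₁ K₂ L₂ n ≫
        groupCohomology.map (MonoidHom.id _) (ideleToClass K₂ (L := L₂)) n =
      groupCohomology.map (MonoidHom.id _) (ideleToClass K₁ (L := L₁)) n ≫
        ideleClassGalMap K₁ L₁ K₂ L₂ n := by
  rw [ideleGalMap, ideleClassGalMap, ← groupCohomology.map_comp, ← groupCohomology.map_comp]
  exact groupCohomology.map_congr rfl rfl n

/-- Compatibility with the principal idele map `Lˣ → J_L`. -/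
theorem ideleGalMap_comp_units (h₁ : PrincipalIsIdele L₁) (h₂ : PrincipalIsIdele L₂) (n : ℕ) :
    galMap K₁ L₁ K₂ L₂ n ≫
        groupCohomology.map (MonoidHom.id _) (unitsToIdele K₂ h₂) n =
      groupCohomology.map (MonoidHom.id _) (unitsToIdele K₁ h₁) n ≫
        ideleGalMap K₁ L₁ K₂ L₂ n := by
  rw [galMap, ideleGalMap, ← groupCohomology.map_comp, ← groupCohomology.map_comp]
  refine groupCohomology.map_congr rfl ?_ n
  refine LinearMap.ext fun x => ?_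
  refine congrArg Additive.ofMul (Subtype.ext ?_)
  exact (ideleProdMap_principal (algebraMap L₁ L₂) (Additive.toMul x)).symm

end Fermat.Agent.CFT

end
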