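import Fermat.Agent.CFT.Global.IdeleNorm
import Fermat.Agent.CFT.Global.FirstIneqSplit

/-!
# Layer C: the two definitions of the idele norm subgroup agree

`FirstIneq.ideleNormSubgroup K L` (node C2c, `FirstIneqSplit.lean`) and `ideleNormSubgroup K L`
(`IdeleNorm.lean`, used by C3K' `mem_ideleNormSubgroup_of_kummer` and C3A) are the same subgroup.
-/

set_option autoImplicit false

namespace Fermat.Agent.CFT

theorem firstIneq_ideleNormSubgroup_eq (K L : Type) [Field K] [Field L] [Algebra K L]
    [FiniteDimensional K L] : FirstIneq.ideleNormSubgroup K L = ideleNormSubgroup K L := by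
  ext x
  rw [FirstIneq.mem_ideleNormSubgroup, mem_ideleNormSubgroup]

end Fermat.Agent.CFT
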