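/-
S55 / C7 (v): **the idele norm homomorphism** `N_{L/K} : J_L →* J_K` for a finite Galois extension
`L/K` in the idele model of `Global/IdeleDefs.lean`, defined by Galois descent
(`J_L^{Gal(L/K)} = J_K`), and the facts needed for the descent along `K(μ_p)/K` in the global
existence theorem mod `p`:

* `ideleMap_algebraMap_injective`;
* `ideleNormHom K L`, `ideleMap_ideleNormHom` (`i (N y) = ∏_σ σ • y`), `ideleNormHom_ideleMap`
  (`N (i x) = x ^ [L : K]`), `range_ideleNormHom` (`= ideleNormSubgroup K L`);
* `ideleNormHom_mem_principalSubgroup`, `ideleNormHom_mem_unitIdelesOutside`,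
  `ideleNormHom_mem_principalUnitSubgroup`, `ideleNormHom_mem_principalUnitSubgroup_sup_pow`;
* `mem_principalUnitSubgroup_sup_pow_of_descent` : the concrete form of
  `ExistenceAbstract.mem_of_coprime_descent`.
-/
import Mathlib
import Fermat.Agent.CFT.Global.FirstIneqSplit
import Fermat.Agent.CFT.Global.IdeleNorm
import Fermat.Agent.CFT.Global.IdeleDict.DictContent
import Fermat.Agent.CFT.Global.ExistencePairing

set_option autoImplicit false
set_option linter.unusedSectionVars false

noncomputable section

namespace Fermat.Agent.CFT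

namespace IdeleNormMap

open FirstIneq

section Injective

variable {q : ℕ} [Fact q.Prime] (K L : Type) [Field K] [Field L] [Algebra K L]
  [Algebra.IsAlgebraic K L]

theorem semiLocalMap_algebraMap_injective :
    Function.Injective (semiLocalMap (q := q) (algebraMap K L)) := by
  intro f g h
  apply Subtype.ext
  funext τ
  obtain ⟨τ', rfl⟩ := resEmb_surjective (q := q) (K := K) (L := L) τ
  have := congrArg (fun z : semiLocalUnits q L =>
    (z : LocalEmb q L → (PadicAlgCl q)ˣ) τ') h
  exact this

theorem ideleMap_algebraMap_injective :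
    Function.Injective (ideleMap (algebraMap K L)) := by
  intro x y h
  apply Subtype.ext
  funext r
  apply semiLocalMap_algebraMap_injective (q := (r : ℕ)) K L
  exact congrFun (congrArg Subtype.val h) r

theorem mem_semiLocalIntegral_of_semiLocalMap {f : semiLocalUnits q K}
    (hf : semiLocalMap (algebraMap K L) f ∈ semiLocalIntegral q L) :
    f ∈ semiLocalIntegral q K := by
  intro τ
  obtain ⟨τ', rfl⟩ := resEmb_surjective (q := q) (K := K) (L := L) τ
  exact hf τ'

end Injective

section Norm

variable (K L : Type) [Field K] [Field L] [Algebra K L] [FiniteDimensional K L] [Normal K L]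

theorem exists_ideleMap_eq_prod_smul (y : ideleGroup L) :
    ∃ x : ideleGroup K, ideleMap (algebraMap K L) x = ∏ σ : L ≃ₐ[K] L, σ • y := by
  have : Algebra.IsAlgebraic K L := Algebra.IsAlgebraic.of_finite K L
  refine exists_ideleMap_eq_of_smul_eq (algebraMap K L) (H := L ≃ₐ[K] L)
    (fun q f hf => exists_semiLocalMap_eq_of_invariant f hf)
    (fun q => resEmb_surjective (q := (q : ℕ)) (K := K) (L := L)) ?_
  intro σ
  have := smul_smulNormHom (G := L ≃ₐ[K] L) (M := ideleGroup L) σ y
  rwa [smulNormHom_apply] at this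

/-- **The idele norm** `N_{L/K} : J_L →* J_K`. -/
def ideleNormHom : ideleGroup L →* ideleGroup K where
  toFun y := Classical.choose (exists_ideleMap_eq_prod_smul K L y)
  map_one' := by
    have : Algebra.IsAlgebraic K L := Algebra.IsAlgebraic.of_finite K L
    apply ideleMap_algebraMap_injective K L
    rw [Classical.choose_spec (exists_ideleMap_eq_prod_smul K L 1), map_one]
    simp
  map_mul' y z := by
    have : Algebra.IsAlgebraic K L := Algebra.IsAlgebraic.of_finite K L
    apply ideleMap_algebraMap_injective K L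
    rw [Classical.choose_spec (exists_ideleMap_eq_prod_smul K L (y * z)), map_mul,
      Classical.choose_spec (exists_ideleMap_eq_prod_smul K L y),
      Classical.choose_spec (exists_ideleMap_eq_prod_smul K L z)]
    simp only [smul_mul', Finset.prod_mul_distrib]

variable {K L}

theorem ideleMap_ideleNormHom (y : ideleGroup L) :
    ideleMap (algebraMap K L) (ideleNormHom K L y) = ∏ σ : L ≃ₐ[K] L, σ • y :=
  Classical.choose_spec (exists_ideleMap_eq_prod_smul K L y)

theorem ideleNormHom_eq_iff (y : ideleGroup L) (x : ideleGroup K) :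
    ideleNormHom K L y = x ↔ ∏ σ : L ≃ₐ[K] L, σ • y = ideleMap (algebraMap K L) x := by
  have : Algebra.IsAlgebraic K L := Algebra.IsAlgebraic.of_finite K L
  rw [← ideleMap_ideleNormHom]
  exact ⟨fun h => by rw [h], fun h => ideleMap_algebraMap_injective K L h⟩

/-- `N ∘ i = (·) ^ |Gal(L/K)|`. -/
theorem ideleNormHom_ideleMap_card (x : ideleGroup K) :
    ideleNormHom K L (ideleMap (algebraMap K L) x) = x ^ Nat.card (L ≃ₐ[K] L) := by
  rw [ideleNormHom_eq_iff, map_pow]
  simp only [smul_ideleMap_algebraMap, Finset.prod_const, Finset.card_univ, Nat.card_eq_fintype_card]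

/-- `N ∘ i = (·) ^ [L : K]`. -/
theorem ideleNormHom_ideleMap [IsGalois K L] (x : ideleGroup K) :
    ideleNormHom K L (ideleMap (algebraMap K L) x) = x ^ Module.finrank K L := by
  rw [ideleNormHom_ideleMap_card, IsGalois.card_aut_eq_finrank]

/-- The range of the norm is the norm subgroup. -/
theorem range_ideleNormHom : (ideleNormHom K L).range = ideleNormSubgroup K L := by
  ext x
  rw [MonoidHom.mem_range, mem_ideleNormSubgroup]
  exact exists_congr fun y => ideleNormHom_eq_iff y x

theorem ideleNormHom_mem_ideleNormSubgroup (y : ideleGroup L) :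
    ideleNormHom K L y ∈ ideleNormSubgroup K L := by
  rw [← range_ideleNormHom]
  exact ⟨y, rfl⟩

/-- Components of the norm. -/
theorem semiLocalMap_ideleNormHom_coe (y : ideleGroup L) (q : Nat.Primes) :
    semiLocalMap (algebraMap K L) ((ideleNormHom K L y : IdeleProd K) q) =
      ∏ σ : L ≃ₐ[K] L, σ • (y : IdeleProd L) q := by
  rw [← idele_prod_smul_coe, ← ideleMap_ideleNormHom]
  rfl

/-- The norm of a unit idele outside `S` is a unit idele outside `S`. -/
theorem ideleNormHom_mem_unitIdelesOutside (S : Set Nat.Primes) {y : ideleGroup L}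
    (hy : (y : IdeleProd L) ∈ unitIdelesOutside L S) :
    (ideleNormHom K L y : IdeleProd K) ∈ unitIdelesOutside K S := by
  have : Algebra.IsAlgebraic K L := Algebra.IsAlgebraic.of_finite K L
  refine ⟨fun q hq => ?_, fun q hq => ?_⟩
  · apply mem_semiLocalIntegral_of_semiLocalMap K L
    rw [semiLocalMap_ideleNormHom_coe]
    exact Subgroup.prod_mem _ fun σ _ => smul_mem_semiLocalIntegral σ (hy.1 q hq)
  · apply semiLocalMap_algebraMap_injective (q := (q : ℕ)) K L
    rw [semiLocalMap_ideleNormHom_coe, map_one, hy.2 q hq]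
    simp

/-- The norm of a principal idele is principal. -/
theorem ideleNormHom_mem_principalSubgroup [IsGalois K L] {y : ideleGroup L}
    (hy : y ∈ principalSubgroup L) : ideleNormHom K L y ∈ principalSubgroup K := by
  have : Algebra.IsAlgebraic K L := Algebra.IsAlgebraic.of_finite K L
  obtain ⟨b, hb⟩ := hy
  have hb' : principalIdele L b = (y : IdeleProd L) := hb
  refine ⟨Units.map (Algebra.norm K : L →* K) b, ?_⟩
  show principalIdele K (Units.map (Algebra.norm K : L →* K) b) =
    (ideleNormHom K L y : IdeleProd K)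
  funext q
  apply semiLocalMap_algebraMap_injective (q := (q : ℕ)) K L
  rw [semiLocalMap_ideleNormHom_coe, principalIdele_apply, semiLocalMap_diag, ← hb']
  simp only [principalIdele_apply, smul_semiLocalDiag, ← map_prod]
  congr 1
  apply Units.ext
  rw [Units.coe_map, Units.coe_map, Units.coe_prod]
  simp only [unitsSmul_coe]
  exact (Algebra.norm_eq_prod_automorphisms K (b : L)).symm ▸ rfl

end Norm

section NumberField

open Subgroup

variable {K L : Type} [Field K] [Field L] [Algebra K L] [NumberField K] [NumberField L]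
  [FiniteDimensional K L] [IsGalois K L]

/-- `N (Lˣ · U_{L,S}) ≤ Kˣ · U_{K,S}`. -/
theorem ideleNormHom_mem_principalUnitSubgroup (S : Set Nat.Primes) {y : ideleGroup L}
    (hy : y ∈ principalUnitSubgroup L S) : ideleNormHom K L y ∈ principalUnitSubgroup K S := by
  obtain ⟨a, ⟨b, rfl⟩, u, hu, hau⟩ := Subgroup.mem_sup.1 (Subgroup.mem_subgroupOf.1 hy)
  have hy' : y = (⟨principalIdele L b, IdeleDict.principalIdele_mem_ideleGroup b⟩ : ideleGroup L) *
      ⟨u, unitIdelesOutside_le_ideleGroup S hu⟩ := Subtype.ext hau.symm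
  rw [hy', map_mul]
  refine mul_mem ?_ ?_
  · have := ideleNormHom_mem_principalSubgroup (K := K) (L := L)
      (y := ⟨principalIdele L b, IdeleDict.principalIdele_mem_ideleGroup b⟩) ⟨b, rfl⟩
    exact Subgroup.mem_subgroupOf.2 (Subgroup.mem_sup_left (Subgroup.mem_subgroupOf.1 this))
  · exact Subgroup.mem_subgroupOf.2 (Subgroup.mem_sup_right
      (ideleNormHom_mem_unitIdelesOutside S (y := ⟨u, unitIdelesOutside_le_ideleGroup S hu⟩) hu))

/-- `N (Lˣ · U_{L,S} · J_L^p) ≤ Kˣ · U_{K,S} · J_K^p`. -/
theorem ideleNormHom_mem_principalUnitSubgroup_sup_pow (S : Set Nat.Primes) (p : ℕ)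
    {y : ideleGroup L} (hy : y ∈ principalUnitSubgroup L S ⊔ powSubgroup ⊤ p) :
    ideleNormHom K L y ∈ principalUnitSubgroup K S ⊔ powSubgroup ⊤ p := by
  obtain ⟨a, ha, z, hz, rfl⟩ := Subgroup.mem_sup.1 hy
  obtain ⟨w, -, rfl⟩ := mem_powSubgroup.1 hz
  rw [map_mul, map_pow]
  exact Subgroup.mul_mem_sup (ideleNormHom_mem_principalUnitSubgroup S ha)
    (mem_powSubgroup.2 ⟨_, mem_top _, rfl⟩)

/-- **Descent along an extension of degree prime to `p`** (`L = K(μ_p)`), concrete form: if the
left kernel of the pairing `b'` of `L` is contained in `Lˣ · U_{L,S} · J_L^p` and the projection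
formula `b' (i x) χ' = b x (cor χ')` holds, then the left kernel of the pairing `b` of `K` is
contained in `Kˣ · U_{K,S} · J_K^p`. -/
theorem mem_principalUnitSubgroup_sup_pow_of_descent {X X' : Type*} (S : Set Nat.Primes) (p : ℕ)
    (hd : Nat.Coprime (Module.finrank K L) p)
    (b : ideleGroup K → X → ZMod p) (b' : ideleGroup L → X' → ZMod p) (cor : X' → X)
    (hproj : ∀ x χ', b' (ideleMap (algebraMap K L) x) χ' = b x (cor χ'))
    (hA' : ∀ y, (∀ χ', b' y χ' = 0) → y ∈ principalUnitSubgroup L S ⊔ powSubgroup ⊤ p)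
    (x : ideleGroup K) (hx : ∀ χ, b x χ = 0) :
    x ∈ principalUnitSubgroup K S ⊔ powSubgroup ⊤ p :=
  ExistenceAbstract.mem_of_coprime_descent p (Module.finrank K L) hd
    (principalUnitSubgroup K S ⊔ powSubgroup ⊤ p) (principalUnitSubgroup L S ⊔ powSubgroup ⊤ p)
    (ideleMap (algebraMap K L)) (ideleNormHom K L) ideleNormHom_ideleMap
    (fun _ hy => ideleNormHom_mem_principalUnitSubgroup_sup_pow S p hy)
    (fun x => Subgroup.mem_sup_right (mem_powSubgroup.2 ⟨x, mem_top _, rfl⟩))
    b b' cor hproj hA' x hx

end NumberField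

end IdeleNormMap

end Fermat.Agent.CFT
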