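import Fermat.Agent.CFT.Global.GlobalInvConj
import Fermat.Agent.CFT.Local.GalSymbol
import Fermat.Agent.CFT.Global.IdeleCoh
import Fermat.Agent.CFT.Global.SemiLocalNormPatch
import Fermat.Agent.CFT.Global.Second.IdeleNorm
import Fermat.Agent.CFT.LayerConjInv


/-!
# Layer C / C7 (P3): localisation of the symbol classes of ideles

`L/K` normal, `H = Gal(L/K)`, `χ : H →* Multiplicative (ZMod n)`, `I` a family of local invariant
systems (Layer B).  With helper1's `symClass` / `galSymClass` and the localisation maps of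
`GlobalInvDef.lean` / `GlobalInvConj.lean`:

* `semiLocalOfBase K x`, `ideleOfBase K x`: the images of a semi-local unit / an idele of `K` in the
  `H`-modules `A_q(L)`, `J_L` (invariant elements);
* `semiLocalLocAt_symClass` (LS1): `loc_{τ'} (x ∪ δχ) = x_τ ∪ δχ_w` in `H²(Gal(L_τ'/K_τ), L_τ'ˣ)`;
* `localSymbolAt K I q χ x τ' = inv_{τ'} (x_τ ∪ δχ_w) ∈ ℚ/ℤ`, `semiLocalInvAt_symClass_eq` (LS2);
* `map_ideleProjHom_symClass`, `invJAt_symClass` (LS3): the `q`-part of the idele invariant of
  `x ∪ δχ`, `x ∈ J_K`, is the sum of the local symbols over the places above `q` (any lifts);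
* `invJFun_symClass_singleIdele`: for an idele supported at one place the idele invariant of
  `x ∪ δχ` is the local symbol there.
-/

set_option autoImplicit false
set_option linter.unusedSectionVars false
set_option linter.style.haveILetI false

open CategoryTheory groupCohomology

noncomputable section

namespace Fermat.Agent.CFT

open GaloisTower

variable (K : Type) [Field K] {L : Type} [Field L] [Algebra K L] [Normal K L]
  {n : ℕ} [NeZero n]

section SemiLocal

variable {q : ℕ} [Fact q.Prime]

local notation "Ω" => PadicAlgCl q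

/-- The image of a semi-local unit of `K` in the `Gal(L/K)`-module `A_q(L)`. -/
def semiLocalOfBase (x : semiLocalUnits q K) : semiLocalRep L (L ≃ₐ[K] L) q :=
  (Additive.ofMul (semiLocalMap (algebraMap K L) x) : Additive (semiLocalUnits q L))

theorem isInv_semiLocalOfBase (x : semiLocalUnits q K) :
    IsInv (semiLocalRep L (L ≃ₐ[K] L) q) (semiLocalOfBase K x) := by
  intro σ
  exact congrArg Additive.ofMul (smul_semiLocalMap_algebraMap K σ x)

theorem semiLocalOfBase_one :
    (semiLocalOfBase K (1 : semiLocalUnits q K) : semiLocalRep L (L ≃ₐ[K] L) q) = 0 := by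
  unfold semiLocalOfBase
  rw [map_one]
  rfl

end SemiLocal

/-- (LS1) **Localisation of a symbol class**: the localisation at `τ'` of `x ∪ δχ`, `x` a semi-local
unit of `K`, is the local symbol class `x_τ ∪ δχ_w`. -/
theorem semiLocalLocAt_symClass (q : Nat.Primes) (τ' : LocalEmb ((q : Nat.Primes) : ℕ) L)
    (χ : (L ≃ₐ[K] L) →* Multiplicative (ZMod n)) (x : semiLocalUnits ((q : Nat.Primes) : ℕ) K) :
    semiLocalLocAt K q τ' (symClass (semiLocalRep L (L ≃ₐ[K] L) ((q : Nat.Primes) : ℕ)) χ
        (semiLocalOfBase K x) (isInv_semiLocalOfBase K x)) =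
      galSymClass (localFieldAt (localEmbRestrict K τ')) (localLayer K τ')
        (χ.comp (locGroupHom K τ')) (semiLocalEvalAt (localEmbRestrict K τ') x) := by
  rw [semiLocalLocAt_apply, map_symClass]
  unfold galSymClass
  refine symClass_congr' _ _ _ rfl ?_
  apply Additive.toMul.injective
  apply Units.ext
  apply Subtype.ext
  exact locRepHom_val K τ' (semiLocalOfBase K x)

/-- (LS2) The local invariant at `τ'` of `x ∪ δχ`. -/
theorem semiLocalInvAt_symClass (I : LocalInvFamily) (q : Nat.Primes)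
    (τ' : LocalEmb ((q : Nat.Primes) : ℕ) L)
    (χ : (L ≃ₐ[K] L) →* Multiplicative (ZMod n)) (x : semiLocalUnits ((q : Nat.Primes) : ℕ) K) :
    semiLocalInvAt I K q τ' (symClass (semiLocalRep L (L ≃ₐ[K] L) ((q : Nat.Primes) : ℕ)) χ
        (semiLocalOfBase K x) (isInv_semiLocalOfBase K x)) =
      (I q).inv (localFieldAt_restrict_le K τ')
        (galSymClass (localFieldAt (localEmbRestrict K τ')) (localLayer K τ')
          (χ.comp (locGroupHom K τ')) (semiLocalEvalAt (localEmbRestrict K τ') x)) :=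
  congrArg ((I q).inv (localFieldAt_restrict_le K τ')) (semiLocalLocAt_symClass K q τ' χ x)

/-- The local symbol `(x, χ)_{τ'} = inv_{τ'} (x_τ ∪ δχ_w) ∈ ℚ/ℤ` of a semi-local unit `x` of `K` and
a character `χ` of `Gal(L/K)` at the embedding `τ'` of `L`. -/
def localSymbolAt (I : LocalInvFamily) (q : Nat.Primes)
    (χ : (L ≃ₐ[K] L) →* Multiplicative (ZMod n)) (x : semiLocalUnits ((q : Nat.Primes) : ℕ) K)
    (τ' : LocalEmb ((q : Nat.Primes) : ℕ) L) : AddCircle (1 : ℚ) :=
  (I q).inv (localFieldAt_restrict_le K τ')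
    (galSymClass (localFieldAt (localEmbRestrict K τ')) (localLayer K τ')
      (χ.comp (locGroupHom K τ')) (semiLocalEvalAt (localEmbRestrict K τ') x))

theorem semiLocalInvAt_symClass_eq (I : LocalInvFamily) (q : Nat.Primes)
    (τ' : LocalEmb ((q : Nat.Primes) : ℕ) L)
    (χ : (L ≃ₐ[K] L) →* Multiplicative (ZMod n)) (x : semiLocalUnits ((q : Nat.Primes) : ℕ) K) :
    semiLocalInvAt I K q τ' (symClass (semiLocalRep L (L ≃ₐ[K] L) ((q : Nat.Primes) : ℕ)) χ
        (semiLocalOfBase K x) (isInv_semiLocalOfBase K x)) = localSymbolAt K I q χ x τ' :=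
  semiLocalInvAt_symClass K I q τ' χ x

theorem localSymbolAt_of_eval_eq_one (I : LocalInvFamily) (q : Nat.Primes)
    (χ : (L ≃ₐ[K] L) →* Multiplicative (ZMod n)) (x : semiLocalUnits ((q : Nat.Primes) : ℕ) K)
    (τ' : LocalEmb ((q : Nat.Primes) : ℕ) L)
    (h : semiLocalEvalAt (localEmbRestrict K τ') x = 1) : localSymbolAt K I q χ x τ' = 0 := by
  unfold localSymbolAt
  rw [h, galSymClass_one, map_zero]

/-- The image of an idele of `K` in the `Gal(L/K)`-module `J_L`. -/
def ideleOfBase (x : ideleGroup K) : ideleRep L (L ≃ₐ[K] L) :=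
  (Additive.ofMul (ideleMap (algebraMap K L) x) : Additive (ideleGroup L))

theorem isInv_ideleOfBase (x : ideleGroup K) :
    IsInv (ideleRep L (L ≃ₐ[K] L)) (ideleOfBase K x) := by
  intro σ
  exact congrArg Additive.ofMul (smul_ideleMap (algebraMap K L) (fun τ a => by
    rw [AlgEquiv.smul_def, AlgEquiv.commutes]) σ x)

theorem ideleProjHom_ideleOfBase (q : Nat.Primes) (x : ideleGroup K) :
    (ideleProjHom K q).hom (ideleOfBase K x : ideleRep L (L ≃ₐ[K] L)) =
      semiLocalOfBase K ((x : IdeleProd K) q) := rfl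

/-- (LS3a) The `q`-component of the symbol class `x ∪ δχ` of an idele `x` of `K`. -/
theorem map_ideleProjHom_symClass (q : Nat.Primes)
    (χ : (L ≃ₐ[K] L) →* Multiplicative (ZMod n)) (x : ideleGroup K) :
    (groupCohomology.map (MonoidHom.id (L ≃ₐ[K] L)) (ideleProjHom K q) 2).hom
        (symClass (ideleRep L (L ≃ₐ[K] L)) χ (ideleOfBase K x) (isInv_ideleOfBase K x)) =
      symClass (semiLocalRep L (L ≃ₐ[K] L) ((q : Nat.Primes) : ℕ)) χ
        (semiLocalOfBase K ((x : IdeleProd K) q)) (isInv_semiLocalOfBase K _) := by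
  have h := map_symClass (A := ideleRep L (L ≃ₐ[K] L))
    (A' := semiLocalRep L (L ≃ₐ[K] L) ((q : Nat.Primes) : ℕ))
    (MonoidHom.id (L ≃ₐ[K] L)) (ideleProjHom K q) χ (isInv_ideleOfBase K x)
  rw [h]
  exact symClass_congr' _ _ _ (MonoidHom.comp_id χ) rfl

section Idele

variable (I : LocalInvFamily) [NumberField K]

theorem invJAt_eq_semiLocalInv (q : Nat.Primes)
    (y : groupCohomology (ideleRep L (L ≃ₐ[K] L)) 2) :
    invJAt I K q y = semiLocalInv I K q
      ((groupCohomology.map (MonoidHom.id (L ≃ₐ[K] L)) (ideleProjHom K (L := L) q) 2).hom y) :=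
  rfl

/-- (LS3b) The `q`-part of the idele invariant of `x ∪ δχ`, computed with an arbitrary system `t`
of lifts of the places of `K` above `q`: the sum of the local symbols. -/
theorem invJAt_symClass [NumberField L] (hI : ∀ q, (I q).IsConjInvariant) (q : Nat.Primes)
    (t : LocalPlace ((q : Nat.Primes) : ℕ) K → LocalEmb ((q : Nat.Primes) : ℕ) L)
    (ht : ∀ ω, (localEmbRestrict K (t ω)).place = ω)
    (χ : (L ≃ₐ[K] L) →* Multiplicative (ZMod n)) (x : ideleGroup K) :
    invJAt I K q (symClass (ideleRep L (L ≃ₐ[K] L)) χ (ideleOfBase K x) (isInv_ideleOfBase K x)) =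
      ∑ᶠ ω : LocalPlace ((q : Nat.Primes) : ℕ) K,
        localSymbolAt K I q χ ((x : IdeleProd K) q) (t ω) := by
  rw [invJAt_eq_semiLocalInv, map_ideleProjHom_symClass, semiLocalInv_eq_finsum I K hI q t ht]
  exact finsum_congr fun ω => semiLocalInvAt_symClass K I q (t ω) χ _

/-- The `q'`-part of the idele invariant of `x ∪ δχ` vanishes if the `q'`-component of `x` is
trivial. -/
theorem invJAt_symClass_of_eq_one (q' : Nat.Primes)
    (χ : (L ≃ₐ[K] L) →* Multiplicative (ZMod n)) (x : ideleGroup K)
    (hx : (x : IdeleProd K) q' = 1) :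
    invJAt I K q' (symClass (ideleRep L (L ≃ₐ[K] L)) χ (ideleOfBase K x)
      (isInv_ideleOfBase K x)) = 0 := by
  rw [invJAt_eq_semiLocalInv, map_ideleProjHom_symClass]
  have h0 : (semiLocalOfBase K ((x : IdeleProd K) q') :
      semiLocalRep L (L ≃ₐ[K] L) ((q' : Nat.Primes) : ℕ)) = 0 := by
    rw [hx]
    exact semiLocalOfBase_one K
  rw [symClass_congr' _ _ IsInv.zero rfl h0, symClass_zero, map_zero]

/-- (LS3c) **The idele invariant of the symbol of an idele supported at one place**: for the
idele with component `s ∈ K_τˣ` at the place of `τ = τ'|_K` and trivial elsewhere, the idele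
invariant of `x ∪ δχ` is the local symbol at `τ'`. -/
theorem invJFun_symClass_singleIdele [NumberField L] (hI : ∀ q, (I q).IsConjInvariant)
    (q : Nat.Primes) (τ' : LocalEmb ((q : Nat.Primes) : ℕ) L)
    (s : (PadicAlgCl ((q : Nat.Primes) : ℕ))ˣ)
    (hs : (s : PadicAlgCl ((q : Nat.Primes) : ℕ)) ∈ localFieldAt (localEmbRestrict K τ'))
    (χ : (L ≃ₐ[K] L) →* Multiplicative (ZMod n)) :
    invJFun I K (symClass (ideleRep L (L ≃ₐ[K] L)) χ
        (ideleOfBase K (Second.singleIdele K q (orbitUnit (localEmbRestrict K τ') s hs)))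
        (isInv_ideleOfBase K _)) =
      localSymbolAt K I q χ (orbitUnit (localEmbRestrict K τ') s hs) τ' := by
  classical
  unfold invJFun
  rw [finsum_eq_single _ q (fun q' hne => invJAt_symClass_of_eq_one K I q' χ _
    (Second.singleIdele_apply_of_ne hne _))]
  set t : LocalPlace ((q : Nat.Primes) : ℕ) K → LocalEmb ((q : Nat.Primes) : ℕ) L :=
    fun ω => if ω = (localEmbRestrict K τ').place then τ' else placeLift K ω with ht_def
  have ht : ∀ ω, (localEmbRestrict K (t ω)).place = ω := by
    intro ω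
    by_cases h : ω = (localEmbRestrict K τ').place
    · simp only [ht_def, if_pos h]
      exact h.symm
    · simp only [ht_def, if_neg h]
      rw [localEmbRestrict_placeLift]
      exact ω.place_emb
  rw [invJAt_symClass K I hI q t ht, Second.singleIdele_apply_self,
    finsum_eq_single _ (localEmbRestrict K τ').place]
  · simp only [ht_def, if_pos rfl]
  · intro ω hω
    apply localSymbolAt_of_eval_eq_one
    apply Units.ext
    apply Subtype.ext
    show (((orbitUnit (localEmbRestrict K τ') s hs : semiLocalUnits _ K) :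
      LocalEmb _ K → (PadicAlgCl ((q : Nat.Primes) : ℕ))ˣ) (localEmbRestrict K (t ω)) :
        PadicAlgCl ((q : Nat.Primes) : ℕ)) = 1
    rw [orbitUnit_apply_of_not]
    · rfl
    · rintro ⟨γ, hγ⟩
      apply hω
      rw [← ht ω, ← hγ, LocalEmb.place_smul]

end Idele

end Fermat.Agent.CFT
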