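import Fermat.Agent.CFT.PT.SemiLocalTower

/-!
# Layer C, node C1d: the idele group in a Galois tower

`Ω/k` Galois (possibly infinite), `E ≤ E'` intermediate fields with `E'/E` normal.
The `Gal(Ω/E)/Gal(Ω/E')`-module `(ideleGroup Ω)^{Gal(Ω/E')}` (Mathlib's `Rep.quotientToInvariants`
of the restriction to `Gal(Ω/E)` of `ideleRep Ω Gal(Ω/k)`) is the `Gal(E'/E)`-module
`ideleGroup E'` (`ideleRep (layer h) Gal(E'/E)`), along `GaloisTower.layerEquiv`.  The isomorphism is
`ideleMap (algebraMap (layer h) Ω)`, read backwards; it is built from the per-prime dictionary of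
`PT/SemiLocalTower.lean`.

Compatibilities: principal ideles (`ideleIncl_principalIdele`), integral semi-local units
(`slIncl_mem_semiLocalIntegral_iff`), `unitIdelesOutside` / `ideleGroupOutside`
(`ideleIncl_mem_unitIdelesOutside_iff`, `ideleIncl_mem_ideleGroupOutside_iff`), components
(`ideleIncl_apply`), and the induced map on idele classes (`ideleClassIncl`, injective given
Hilbert 90 in the form "a principal idele of `Ω` fixed by `Gal(Ω/E')` comes from `E'`", which is
automatic: `ideleClassIncl_injective`).
-/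

set_option autoImplicit false
set_option linter.unusedSectionVars false
set_option linter.style.haveILetI false

noncomputable section

namespace Fermat.Agent.CFT

open Fermat.Agent.CFT.GaloisTower Fermat.Agent.CFT.PT IntermediateField

/-- Shortcut instance (the generic search through `Pi`/`Subgroup` instances is very slow). -/
instance (priority := high) ideleSMulShortcut (H K : Type) [Group H] [Field K]
    [MulSemiringAction H K] : SMul H (ideleGroup K) :=
  (ideleAction (G := H) (K := K)).toSMul

variable {k Ω : Type} [Field k] [Field Ω] [Algebra k Ω] [IsGalois k Ω]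
variable {E E' : IntermediateField k Ω} (h : E ≤ E')

/-! ### Integrality is detected after extension of the field -/

theorem slIncl_mem_semiLocalIntegral_iff {q : ℕ} [Fact q.Prime] (g : semiLocalUnits q (layer h)) :
    slIncl h g ∈ semiLocalIntegral q Ω ↔ g ∈ semiLocalIntegral q (layer h) := by
  haveI : Normal k Ω := IsGalois.to_normal
  haveI : Normal E Ω := Normal.tower_top_of_normal k E Ω
  haveI : Algebra.IsAlgebraic E Ω := Normal.toIsAlgebraic
  haveI : Algebra.IsAlgebraic (layer h) Ω := Algebra.IsAlgebraic.tower_top (K := E) (layer h)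
  constructor
  · intro hg τ
    obtain ⟨τ', rfl⟩ := localEmbRestrict_surjective (q := q) (layer h) (L := Ω) τ
    exact hg τ'
  · intro hg
    exact semiLocalMap_mem_integral _ hg

/-! ### The inclusion of idele groups -/

/-- The inclusion `J_{E'} → J_Ω`. -/
abbrev ideleIncl : ideleGroup (layer h) →* ideleGroup Ω := ideleMap (algebraMap (layer h) Ω)

@[simp]
theorem ideleIncl_apply (y : ideleGroup (layer h)) (q : Nat.Primes) :
    ((ideleIncl h y : ideleGroup Ω) : IdeleProd Ω) q = slIncl h ((y : IdeleProd (layer h)) q) :=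
  rfl

theorem ideleIncl_injective : Function.Injective (ideleIncl (Ω := Ω) h) := by
  intro y y' hyy
  apply Subtype.ext
  funext q
  have := congrFun (congrArg (fun z : ideleGroup Ω => (z : IdeleProd Ω)) hyy) q
  exact slIncl_injective h this

theorem smul_ideleIncl [Normal E (layer h)] (σ : E.fixingSubgroup) (y : ideleGroup (layer h)) :
    (σ : Ω ≃ₐ[k] Ω) • ideleIncl h y = ideleIncl h (layerRes h σ • y) := by
  apply Subtype.ext
  funext q
  exact smul_slIncl h σ ((y : IdeleProd (layer h)) q)

/-- An idele of `Ω` is fixed by `Gal(Ω/E')` iff it comes from an idele of `E'`. -/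
theorem mem_range_ideleIncl_iff (x : ideleGroup Ω) :
    x ∈ (ideleIncl (Ω := Ω) h).range ↔ ∀ σ ∈ E'.fixingSubgroup, (σ : Ω ≃ₐ[k] Ω) • x = x := by
  constructor
  · rintro ⟨y, rfl⟩ σ hσ
    apply Subtype.ext
    funext q
    exact (mem_range_slIncl_iff h _).1 ⟨(y : IdeleProd (layer h)) q, rfl⟩ σ hσ
  · intro hx
    have hq : ∀ q : Nat.Primes, (x : IdeleProd Ω) q ∈ (slIncl (q := (q : ℕ)) h).range := fun q =>
      (mem_range_slIncl_iff h _).2 fun σ hσ =>
        congrFun (congrArg (fun z : ideleGroup Ω => (z : IdeleProd Ω)) (hx σ hσ)) q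
    choose y hy using hq
    refine ⟨⟨y, ?_⟩, Subtype.ext (funext hy)⟩
    have hx2 := x.2
    rw [mem_ideleGroup] at hx2 ⊢
    filter_upwards [hx2] with q hq'
    rw [← slIncl_mem_semiLocalIntegral_iff h, hy q]
    exact hq'

/-! ### Compatibilities -/

/-- Principal ideles go to principal ideles. -/
theorem ideleProdMap_incl_principalIdele (x : (layer h)ˣ) :
    ideleProdMap (algebraMap (layer h) Ω) (principalIdele (layer h) x) =
      principalIdele Ω (Units.map (algebraMap (layer h) Ω : layer h →* Ω) x) :=
  ideleProdMap_principal _ x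

theorem ideleIncl_mem_ideleGroupOutside_iff (T : Set Nat.Primes) (y : ideleGroup (layer h)) :
    ((ideleIncl h y : ideleGroup Ω) : IdeleProd Ω) ∈ ideleGroupOutside Ω T ↔
      (y : IdeleProd (layer h)) ∈ ideleGroupOutside (layer h) T := by
  constructor
  · intro hy q hq
    rw [← slIncl_mem_semiLocalIntegral_iff h]
    exact hy q hq
  · intro hy q hq
    rw [ideleIncl_apply, slIncl_mem_semiLocalIntegral_iff h]
    exact hy q hq

theorem ideleIncl_mem_unitIdelesOutside_iff (S : Set Nat.Primes) (y : ideleGroup (layer h)) :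
    ((ideleIncl h y : ideleGroup Ω) : IdeleProd Ω) ∈ unitIdelesOutside Ω S ↔
      (y : IdeleProd (layer h)) ∈ unitIdelesOutside (layer h) S := by
  constructor
  · rintro ⟨h1, h2⟩
    refine ⟨fun q hq => ?_, fun q hq => ?_⟩
    · rw [← slIncl_mem_semiLocalIntegral_iff h]
      exact h1 q hq
    · apply slIncl_injective h
      rw [map_one]
      exact h2 q hq
  · rintro ⟨h1, h2⟩
    refine ⟨fun q hq => ?_, fun q hq => ?_⟩
    · rw [ideleIncl_apply, slIncl_mem_semiLocalIntegral_iff h]
      exact h1 q hq
    · rw [ideleIncl_apply, h2 q hq, map_one]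

/-! ### The dictionary -/

/-- The `Gal(Ω/E)`-module `J_Ω`. -/
abbrev ideleTowerRep (E : IntermediateField k Ω) : Rep ℤ E.fixingSubgroup :=
  Rep.res E.fixingSubgroup.subtype (ideleRep Ω (Ω ≃ₐ[k] Ω))

variable [Normal E (layer h)]

theorem mem_invariants_ideleTowerRep_iff (x : Additive (ideleGroup Ω)) :
    x ∈ Representation.invariants ((ideleTowerRep E).ρ.comp (layerRes h).ker.subtype) ↔
      (Additive.toMul x : ideleGroup Ω) ∈ (ideleIncl (Ω := Ω) h).range := by
  rw [mem_range_ideleIncl_iff]
  constructor
  · intro hx σ hσ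
    have hσE : σ ∈ E.fixingSubgroup := IntermediateField.fixingSubgroup_antitone h hσ
    have hker : (⟨σ, hσE⟩ : E.fixingSubgroup) ∈ (layerRes h).ker :=
      (mem_ker_layerRes_iff h _).2 hσ
    exact congrArg Additive.toMul (hx ⟨⟨σ, hσE⟩, hker⟩)
  · intro hx σ
    have hσ : ((σ : E.fixingSubgroup) : Ω ≃ₐ[k] Ω) ∈ E'.fixingSubgroup :=
      (mem_ker_layerRes_iff h _).1 σ.2
    exact congrArg Additive.ofMul (hx _ hσ)

/-- The additive map `J_{E'} → J_Ω^{Gal(Ω/E')}`. -/
def ideleInvariantsHom :
    Additive (ideleGroup (layer h)) →+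
      Representation.invariants ((ideleTowerRep E).ρ.comp (layerRes h).ker.subtype) where
  toFun y := ⟨Additive.ofMul (ideleIncl h (Additive.toMul y)),
    (mem_invariants_ideleTowerRep_iff h _).2 ⟨Additive.toMul y, rfl⟩⟩
  map_zero' := Subtype.ext (congrArg Additive.ofMul (map_one (ideleIncl (Ω := Ω) h)))
  map_add' y y' := Subtype.ext (congrArg Additive.ofMul
    (map_mul (ideleIncl (Ω := Ω) h) (Additive.toMul y) (Additive.toMul y')))

theorem ideleInvariantsHom_coe (y : Additive (ideleGroup (layer h))) :
    Additive.toMul ((ideleInvariantsHom (Ω := Ω) h y).1 : Additive (ideleGroup Ω)) =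
      ideleIncl h (Additive.toMul y) := rfl

theorem ideleInvariantsHom_bijective : Function.Bijective (ideleInvariantsHom (Ω := Ω) h) := by
  constructor
  · intro y y' hyy
    have := congrArg (fun z => Additive.toMul (z.1 : Additive (ideleGroup Ω))) hyy
    exact congrArg Additive.ofMul (ideleIncl_injective h this)
  · intro x
    obtain ⟨g, hg⟩ := (mem_invariants_ideleTowerRep_iff h _).1 x.2
    exact ⟨Additive.ofMul g, Subtype.ext (congrArg Additive.ofMul hg)⟩

/-- `J_Ω^{Gal(Ω/E')} ≃ J_{E'}`. -/
def ideleInvariantsEquiv :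
    Representation.invariants ((ideleTowerRep E).ρ.comp (layerRes h).ker.subtype) ≃+
      Additive (ideleGroup (layer h)) :=
  (AddEquiv.ofBijective (ideleInvariantsHom (Ω := Ω) h) (ideleInvariantsHom_bijective h)).symm

theorem ideleInvariantsEquiv_symm_apply (y : Additive (ideleGroup (layer h))) :
    (ideleInvariantsEquiv (Ω := Ω) h).symm y = ideleInvariantsHom h y := rfl

theorem ideleIncl_ideleInvariantsEquiv
    (x : Representation.invariants ((ideleTowerRep E).ρ.comp (layerRes h).ker.subtype)) :
    ideleIncl h (Additive.toMul (ideleInvariantsEquiv (Ω := Ω) h x)) =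
      Additive.toMul (x.1 : Additive (ideleGroup Ω)) := by
  have := (ideleInvariantsEquiv (Ω := Ω) h).symm_apply_apply x
  rw [ideleInvariantsEquiv_symm_apply] at this
  exact congrArg (fun z => Additive.toMul (z.1 : Additive (ideleGroup Ω))) this

/-- **Dictionary (C1d)**: `J_Ω^{Gal(Ω/E')}` as a module over `Gal(Ω/E)/Gal(Ω/E')` is `J_{E'}` as a
module over `Gal(E'/E)`. -/
def ideleInvariantsIso :
    (ideleTowerRep E).quotientToInvariants (layerRes h).ker ≅
      Rep.res (layerEquiv h).toMonoidHom (ideleRep (layer h) ((layer h) ≃ₐ[E] (layer h))) :=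
  Rep.mkIso (Representation.Equiv.mk (ideleInvariantsEquiv (Ω := Ω) h).toIntLinearEquiv (by
    intro g
    induction g using QuotientGroup.induction_on with
    | H σ =>
      ext x
      apply (ideleInvariantsEquiv (Ω := Ω) h).symm.injective
      apply Subtype.ext
      apply Additive.toMul.injective
      show Additive.toMul ((((ideleInvariantsEquiv (Ω := Ω) h).symm
        ((ideleInvariantsEquiv (Ω := Ω) h) _)).1 : Additive (ideleGroup Ω))) = _
      rw [AddEquiv.symm_apply_apply]
      show (σ : Ω ≃ₐ[k] Ω) • (Additive.toMul (x.1 : Additive (ideleGroup Ω)) : ideleGroup Ω) =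
        ideleIncl h (layerRes h σ • (Additive.toMul (ideleInvariantsEquiv (Ω := Ω) h x) :
          ideleGroup (layer h)))
      rw [← smul_ideleIncl, ideleIncl_ideleInvariantsEquiv]
      rfl))

theorem ideleInvariantsIso_hom_apply
    (x : Representation.invariants ((ideleTowerRep E).ρ.comp (layerRes h).ker.subtype)) :
    (ideleInvariantsIso (Ω := Ω) h).hom.hom x = ideleInvariantsEquiv h x := rfl

theorem ideleInvariantsIso_inv_apply (y : Additive (ideleGroup (layer h))) :
    (ideleInvariantsIso (Ω := Ω) h).inv.hom y = ideleInvariantsHom h y := rfl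

end Fermat.Agent.CFT

end
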