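import Fermat.Agent.CFT.PT.JSFullSquare
import Fermat.Agent.CFT.Global.GlobalInvDef
import Fermat.Agent.CFT.Global.SemiLocalCoh

/-!
# Layer D, node D3c-G: the idele invariant of an `S`-idele class extended by `1`

`L/K` finite Galois extension of number fields, `H = Gal(L/K)`, `S` a finite set of primes,
`ext = extendRepHom H L S hS : ∏_{q ∈ S} A_q(L) ⟶ J_L` (extension by `1`).  For
`z ∈ H²(H, ∏_{q ∈ S} A_q(L))`:

* `extendRepHom_comp_ideleProjHom_of_mem / _of_notMem`: `pr_q ∘ ext = pr_q` for `q ∈ S`, `= 0` for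
  `q ∉ S`;
* `invJAt_extend_of_mem / _of_notMem`: the `q`-component of the idele invariant of `ext_* z` is the
  semi-local invariant of the `q`-component `z_q` for `q ∈ S`, and `0` for `q ∉ S`;
* `hasFiniteInvSupport_extend`, `invJFun_extend`: `invJ (ext_* z) = Σ_{q ∈ S} inv_q (z_q)`;
  `invJFun_extend_finset` for `S` a `Finset`.
-/

set_option autoImplicit false
set_option linter.unusedSectionVars false
set_option linter.style.haveILetI false

open CategoryTheory groupCohomology

noncomputable section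

namespace Fermat.Agent.CFT

open Fermat.Agent.CFT.PT

variable (I : LocalInvFamily) (K : Type) [Field K] {L : Type} [Field L] [Algebra K L]
  [Normal K L] (S : Set Nat.Primes) (hS : S.Finite)

/-- `pr_q ∘ ext = pr_q` for `q ∈ S`. -/
theorem extendRepHom_comp_ideleProjHom_of_mem {q : Nat.Primes} (hq : q ∈ S) :
    extendRepHom (L ≃ₐ[K] L) L S hS ≫ ideleProjHom K q =
      sProdProj (L ≃ₐ[K] L) L S ⟨q, hq⟩ := by
  ext x
  show Additive.ofMul (extendByOne L S (Additive.toMul x) q) = _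
  rw [extendByOne_of_mem _ hq]
  rfl

/-- `pr_q ∘ ext = 0` for `q ∉ S`. -/
theorem extendRepHom_comp_ideleProjHom_of_notMem {q : Nat.Primes} (hq : q ∉ S) :
    extendRepHom (L ≃ₐ[K] L) L S hS ≫ ideleProjHom K q = 0 := by
  ext x
  show Additive.ofMul (extendByOne L S (Additive.toMul x) q) = _
  rw [extendByOne_of_notMem _ hq]
  rfl

variable [NumberField K]

/-- The `q`-component of the idele invariant of `ext_* z`, `q ∈ S`. -/
theorem invJAt_extend_of_mem {q : Nat.Primes} (hq : q ∈ S)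
    (z : groupCohomology (sProdRep (L ≃ₐ[K] L) L S) 2) :
    invJAt I K q ((groupCohomology.map (MonoidHom.id (L ≃ₐ[K] L))
      (extendRepHom (L ≃ₐ[K] L) L S hS) 2).hom z) =
    semiLocalInv I K q ((groupCohomology.map (MonoidHom.id (L ≃ₐ[K] L))
      (sProdProj (L ≃ₐ[K] L) L S ⟨q, hq⟩) 2).hom z) := by
  rw [← extendRepHom_comp_ideleProjHom_of_mem K S hS hq, groupCohomology.map_id_comp]
  rfl

/-- The `q`-component of the idele invariant of `ext_* z` vanishes for `q ∉ S`. -/
theorem invJAt_extend_of_notMem {q : Nat.Primes} (hq : q ∉ S)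
    (z : groupCohomology (sProdRep (L ≃ₐ[K] L) L S) 2) :
    invJAt I K q ((groupCohomology.map (MonoidHom.id (L ≃ₐ[K] L))
      (extendRepHom (L ≃ₐ[K] L) L S hS) 2).hom z) = 0 := by
  have h0 : groupCohomology.map (A := sProdRep (L ≃ₐ[K] L) L S) (MonoidHom.id (L ≃ₐ[K] L))
      (extendRepHom (L ≃ₐ[K] L) L S hS ≫ ideleProjHom K q) 2 = 0 := by
    rw [extendRepHom_comp_ideleProjHom_of_notMem K S hS hq]
    exact (groupCohomology.functor ℤ (L ≃ₐ[K] L) 2).map_zero _ _
  rw [groupCohomology.map_id_comp] at h0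
  have h1 := congrArg (fun f => f.hom z) h0
  show semiLocalInv I K q ((groupCohomology.map (MonoidHom.id (L ≃ₐ[K] L))
      (ideleProjHom K q) 2).hom ((groupCohomology.map (MonoidHom.id (L ≃ₐ[K] L))
      (extendRepHom (L ≃ₐ[K] L) L S hS) 2).hom z)) = 0
  have h2 : (groupCohomology.map (MonoidHom.id (L ≃ₐ[K] L))
      (ideleProjHom K q) 2).hom ((groupCohomology.map (MonoidHom.id (L ≃ₐ[K] L))
      (extendRepHom (L ≃ₐ[K] L) L S hS) 2).hom z) = 0 := h1
  rw [h2, map_zero]

/-- The class `ext_* z` has finite invariant support. -/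
theorem hasFiniteInvSupport_extend (z : groupCohomology (sProdRep (L ≃ₐ[K] L) L S) 2) :
    HasFiniteInvSupport I K ((groupCohomology.map (MonoidHom.id (L ≃ₐ[K] L))
      (extendRepHom (L ≃ₐ[K] L) L S hS) 2).hom z) :=
  hS.subset fun q hq => by
    by_contra hqS
    exact hq (invJAt_extend_of_notMem I K S hS hqS z)

/-- **`invJ (ext_* z) = Σ_{q ∈ S} inv_q (z_q)`**. -/
theorem invJFun_extend (z : groupCohomology (sProdRep (L ≃ₐ[K] L) L S) 2) :
    invJFun I K ((groupCohomology.map (MonoidHom.id (L ≃ₐ[K] L))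
      (extendRepHom (L ≃ₐ[K] L) L S hS) 2).hom z) =
    ∑ᶠ q : S, semiLocalInv I K (q : Nat.Primes)
      ((groupCohomology.map (MonoidHom.id (L ≃ₐ[K] L))
        (sProdProj (L ≃ₐ[K] L) L S q) 2).hom z) := by
  set x := (groupCohomology.map (MonoidHom.id (L ≃ₐ[K] L))
      (extendRepHom (L ≃ₐ[K] L) L S hS) 2).hom z with hx
  have hsupp : (Function.support fun q : Nat.Primes => invJAt I K q x) ⊆ S := fun q hq => by
    by_contra hqS
    exact hq (invJAt_extend_of_notMem I K S hS hqS z)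
  set g' : Nat.Primes → AddCircle (1 : ℚ) := fun q => invJAt I K q x with hg'
  have h1 : (∑ᶠ q : S, semiLocalInv I K (q : Nat.Primes)
      ((groupCohomology.map (MonoidHom.id (L ≃ₐ[K] L))
        (sProdProj (L ≃ₐ[K] L) L S q) 2).hom z)) = ∑ᶠ q : S, g' q :=
    finsum_congr fun q => (invJAt_extend_of_mem I K S hS q.2 z).symm
  rw [h1, finsum_set_coe_eq_finsum_mem (f := g') S, finsum_mem_def,
    Set.indicator_eq_self.2 hsupp]
  rfl

/-- `invJ (ext_* z) = Σ_{q ∈ T} inv_q (z_q)` for a finite set `T` of primes given as a `Finset`. -/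
theorem invJFun_extend_finset (T : Finset Nat.Primes)
    (z : groupCohomology (sProdRep (L ≃ₐ[K] L) L (↑T : Set Nat.Primes)) 2) :
    invJFun I K ((groupCohomology.map (MonoidHom.id (L ≃ₐ[K] L))
      (extendRepHom (L ≃ₐ[K] L) L (↑T : Set Nat.Primes) T.finite_toSet) 2).hom z) =
    ∑ q ∈ T.attach, semiLocalInv I K (q : Nat.Primes)
      ((groupCohomology.map (MonoidHom.id (L ≃ₐ[K] L))
        (sProdProj (L ≃ₐ[K] L) L (↑T : Set Nat.Primes) ⟨q.1, Finset.mem_coe.2 q.2⟩) 2).hom z) := by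
  rw [invJFun_extend I K (↑T : Set Nat.Primes) T.finite_toSet z]
  rw [finsum_eq_sum_of_fintype]
  rfl

end Fermat.Agent.CFT
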