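import Fermat.Agent.CFT.Global.InvCompatGlobal
import Fermat.Agent.CFT.Global.GlobalInvConj
import Fermat.Agent.CFT.Global.LCInvCoeff
import Fermat.Agent.CFT.PT.JFullCsSquare
import Fermat.Agent.CFT.PT.InvCompatDict
import Fermat.Agent.CFT.PT.CSFullDict

/-!
# Layer D, node D3c (glue): the level formula for `J_S → C_S'`, global half

Hypothesis form over an abstract invariant system `Is` on the `S`-idele class groups of the layers
of `Ω/ℚ`, satisfying the local–global spec
`Is.inv h (classS_* (class_* z)) = invJFun I E z` for `p`-power torsion `z ∈ H²(Gal(E'/E), J_{E'})`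
(`sClassInvSystemQ_inv_idele`), and an abstract dictionary `d : CoeffDict (sClassCoeff ℚ Ω ↑S) ..`.

* `ideleToClassSRepHom_eq_comp`: `J ⟶ C_S` is `J ⟶ C ⟶ C_S`;
* `inv_extend_classS_eq_sum`: **the layer formula**: for `w ∈ H²(Gal(E'/E), ∏_{q ∈ S} A_q(E'))` of
  `p`-power order, `Is.inv h ((ext ≫ classS)_* w) = Σ_{q ∈ S} semiLocalInv I E q ((pr_q)_* w)`;
* `invLevel_coeffFinMap_eq_sum`: the same through a dictionary: for a level `l` and
  `y ∈ H²(G ⧸ l.N, A^{l.N})`,
  `Is.inv (d.le_top l) (d.coh l 2 ((coeffFinMap f l.N 2) y)) = Σ_{q ∈ S} semiLocalInv I E q (pr_q y')`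
  with `y'` the image of `y` under a dictionary `iJ : A^{l.N} ≅ ∏_{q ∈ S} A_q(top l)` compatible
  with `f` (`hsqG`; for `f = jsToJFullHom ≫ jFullToCsFull` this is `jsToCsFull_invariants_square`);
* `semiLocalInv_eq_semiLocalInvAt_of_subsingleton`: over a base field with one place above `q`
  (e.g. `E = ⊥`), `semiLocalInv I E q = semiLocalInvAt I E q τ'` for every embedding `τ'`;
  `subsingleton_localPlace_bot`.
-/

set_option autoImplicit false
set_option linter.unusedSectionVars false
set_option linter.style.haveILetI false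

open CategoryTheory groupCohomology IntermediateField

noncomputable section

namespace Fermat.Agent.CFT

open Fermat.Agent.CFT.PT GaloisTower

section Layer

variable {k Ω : Type} [Field k] [Field Ω] [Algebra k Ω] (S : Finset Nat.Primes) {p : ℕ}
  {Adm : IntermediateField k Ω → Prop} (I : LocalInvFamily)
  (Is : PLayerInvSystem (sClassCoeff k Ω (↑S : Set Nat.Primes)) Adm p)
  {E E' : IntermediateField k Ω} (h : E ≤ E')

/-- `J ⟶ C_S` is the composite `J ⟶ C ⟶ C_S` (layer form). -/
theorem ideleToClassSRepHom_eq_comp :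
    ideleToClassSRepHom (layer h ≃ₐ[E] layer h) (layer h) (↑S : Set Nat.Primes) =
      ideleToClass E (L := layer h) ≫
        classToClassSRepHom (layer h) (layer h ≃ₐ[E] layer h) (↑S : Set Nat.Primes) := by
  ext x
  rfl

variable [Normal E (layer h)] [NumberField E]

/-- **The layer formula (global half)**: the invariant of the class in `H²(C_S(E'))` of an
`S`-idele class extended by `1` is the sum over `q ∈ S` of the semi-local invariants of its
components. -/
theorem inv_extend_classS_eq_sum
    (hspec : ∀ z : groupCohomology ((ideleCoeff k Ω).M h) 2, (∃ n : ℕ, p ^ n • z = 0) →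
      Is.inv h ((classToClassSLayer (↑S : Set Nat.Primes) h 2).hom
        ((ideleToClassLayer h 2).hom z)) = invJFun I E z)
    (w : groupCohomology (sProdRep (layer h ≃ₐ[E] layer h) (layer h) (↑S : Set Nat.Primes)) 2)
    (hw : ∃ n : ℕ, p ^ n • w = 0) :
    Is.inv h ((groupCohomology.map (MonoidHom.id (layer h ≃ₐ[E] layer h))
        (extendRepHom (layer h ≃ₐ[E] layer h) (layer h) (↑S : Set Nat.Primes) S.finite_toSet ≫
          ideleToClassSRepHom (layer h ≃ₐ[E] layer h) (layer h) (↑S : Set Nat.Primes)) 2).hom w) =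
      ∑ q ∈ S.attach, semiLocalInv I E (q : Nat.Primes)
        ((groupCohomology.map (MonoidHom.id (layer h ≃ₐ[E] layer h))
          (sProdProj (layer h ≃ₐ[E] layer h) (layer h) (↑S : Set Nat.Primes)
            ⟨q.1, Finset.mem_coe.2 q.2⟩) 2).hom w) := by
  set z : groupCohomology ((ideleCoeff k Ω).M h) 2 :=
    (groupCohomology.map (MonoidHom.id (layer h ≃ₐ[E] layer h))
      (extendRepHom (layer h ≃ₐ[E] layer h) (layer h) (↑S : Set Nat.Primes) S.finite_toSet) 2).hom w
    with hz
  have hzt : ∃ n : ℕ, p ^ n • z = 0 := by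
    obtain ⟨n, hn⟩ := hw
    exact ⟨n, by rw [hz, ← map_nsmul, hn, map_zero]⟩
  have h1 : (groupCohomology.map (MonoidHom.id (layer h ≃ₐ[E] layer h))
        (extendRepHom (layer h ≃ₐ[E] layer h) (layer h) (↑S : Set Nat.Primes) S.finite_toSet ≫
          ideleToClassSRepHom (layer h ≃ₐ[E] layer h) (layer h) (↑S : Set Nat.Primes)) 2).hom w =
      (classToClassSLayer (↑S : Set Nat.Primes) h 2).hom ((ideleToClassLayer h 2).hom z) := by
    rw [ideleToClassSRepHom_eq_comp, groupCohomology.map_id_comp, groupCohomology.map_id_comp]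
    rfl
  rw [h1, hspec z hzt, hz]
  exact invJFun_extend_finset I E S w

end Layer

section Dict

variable {k Ω : Type} [Field k] [Field Ω] [Algebra k Ω] (S : Finset Nat.Primes) {p : ℕ}
  {Adm : IntermediateField k Ω → Prop} (I : LocalInvFamily)
  (Is : PLayerInvSystem (sClassCoeff k Ω (↑S : Set Nat.Primes)) Adm p)
  {E : IntermediateField k Ω} [NumberField E]
  {G : Type} [Group G] {L : LevelStructure G} {A C : Rep.{0} ℤ G} (f : A ⟶ C)
  (d : CoeffDict (sClassCoeff k Ω (↑S : Set Nat.Primes)) Adm E L C)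

/-- **The level formula (global half) through a dictionary.** -/
theorem invLevel_coeffFinMap_eq_sum (l : L.Level)
    (hspec : haveI := d.normal l
      ∀ z : groupCohomology ((ideleCoeff k Ω).M (d.le_top l)) 2, (∃ n : ℕ, p ^ n • z = 0) →
      Is.inv (d.le_top l) ((classToClassSLayer (↑S : Set Nat.Primes) (d.le_top l) 2).hom
        ((ideleToClassLayer (d.le_top l) 2).hom z)) = invJFun I E z)
    (iJ : A.quotientToInvariants l.N ≅ Rep.res (d.quotEquiv l).toMonoidHom
      (sProdRep (layer (d.le_top l) ≃ₐ[E] layer (d.le_top l)) (layer (d.le_top l))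
        (↑S : Set Nat.Primes)))
    (hsqG : ∀ a : A.quotientToInvariants l.N,
      (d.repIso l).hom.hom ((LC.coeffFin f l.N).hom a) =
        (extendRepHom (layer (d.le_top l) ≃ₐ[E] layer (d.le_top l)) (layer (d.le_top l))
            (↑S : Set Nat.Primes) S.finite_toSet ≫
          ideleToClassSRepHom (layer (d.le_top l) ≃ₐ[E] layer (d.le_top l)) (layer (d.le_top l))
            (↑S : Set Nat.Primes)).hom (iJ.hom.hom a))
    (y : groupCohomology (A.quotientToInvariants l.N) 2) (hy : ∃ n : ℕ, p ^ n • y = 0) :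
    haveI := d.normal l
    Is.inv (d.le_top l) (d.coh l 2 ((LC.coeffFinMap f l.N 2).hom y)) =
      ∑ q ∈ S.attach, semiLocalInv I E (q : Nat.Primes)
        ((groupCohomology.map (MonoidHom.id (layer (d.le_top l) ≃ₐ[E] layer (d.le_top l)))
          (sProdProj (layer (d.le_top l) ≃ₐ[E] layer (d.le_top l)) (layer (d.le_top l))
            (↑S : Set Nat.Primes) ⟨q.1, Finset.mem_coe.2 q.2⟩) 2).hom
          (cohLinearEquivOfRepIso _ _ (d.quotEquiv l) iJ 2 y)) := by
  haveI := d.normal l
  have h1 : d.coh l 2 ((LC.coeffFinMap f l.N 2).hom y) =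
      (groupCohomology.map (MonoidHom.id (layer (d.le_top l) ≃ₐ[E] layer (d.le_top l)))
        (extendRepHom (layer (d.le_top l) ≃ₐ[E] layer (d.le_top l)) (layer (d.le_top l))
            (↑S : Set Nat.Primes) S.finite_toSet ≫
          ideleToClassSRepHom (layer (d.le_top l) ≃ₐ[E] layer (d.le_top l)) (layer (d.le_top l))
            (↑S : Set Nat.Primes)) 2).hom (cohLinearEquivOfRepIso _ _ (d.quotEquiv l) iJ 2 y) :=
    PT.coh_coeffFinMap f l.N (d.quotEquiv l)
      (extendRepHom (layer (d.le_top l) ≃ₐ[E] layer (d.le_top l)) (layer (d.le_top l))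
          (↑S : Set Nat.Primes) S.finite_toSet ≫
        ideleToClassSRepHom (layer (d.le_top l) ≃ₐ[E] layer (d.le_top l)) (layer (d.le_top l))
          (↑S : Set Nat.Primes)) iJ (d.repIso l) hsqG 2 y
  rw [h1]
  refine inv_extend_classS_eq_sum S I Is (d.le_top l) hspec _ ?_
  obtain ⟨n, hn⟩ := hy
  exact ⟨n, by rw [← map_nsmul, hn, map_zero]⟩

end Dict


section Concrete

variable {k Ω : Type} [Field k] [Field Ω] [Algebra k Ω] [IsGalois k Ω]
variable (L : LevelStructure (Ω ≃ₐ[k] Ω)) (S : Set Nat.Primes) (hS : S.Finite)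
variable {E E' : IntermediateField k Ω} (h : E ≤ E') [Normal E (layer h)]
  (N : Subgroup E.fixingSubgroup) [N.Normal] (hN : N = (layerRes h).ker)
  (hopen : L.IsOpen E'.fixingSubgroup)
  (hne : ∃ q ∈ S, Nonempty (LocalEmb ((q : Nat.Primes) : ℕ) Ω))
  (hdesc : HasCofinalSClassDescent L S h)

/-- The morphism `J_S ⟶ C_S'` of `Gal(Ω/E)`-modules. -/
abbrev jsToCsFullTower (E : IntermediateField k Ω) : jsTowerRep L S E ⟶ csFullTowerRep L S E :=
  (Rep.resFunctor E.fixingSubgroup.subtype).map (jsToJFullHom L Ω S hS ≫ jFullToCsFull L Ω S)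

/-- `(J_S)^N ≅ ∏_{q ∈ S} A_q(E')` along `dictEquiv` (companion of `csDictRepIso`). -/
def jsDictRepIso :
    (jsTowerRep L S E).quotientToInvariants N ≅
      Rep.res (dictEquiv h N hN).toMonoidHom
        (sProdRep ((layer h) ≃ₐ[E] (layer h)) (layer h) S) := by
  subst hN
  exact jsInvariantsIso L S h hopen

/-- **The dictionary square `hsqG`** for `J_S ⟶ C_S'` at the level `N`. -/
theorem csDictRepIso_coeffFin_jsToCsFull (a : (jsTowerRep L S E).quotientToInvariants N) :
    (csDictRepIso L S h N hN hopen hne hdesc).hom.hom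
        ((LC.coeffFin (jsToCsFullTower L S hS E) N).hom a) =
      (extendRepHom ((layer h) ≃ₐ[E] (layer h)) (layer h) S hS ≫
        ideleToClassSRepHom ((layer h) ≃ₐ[E] (layer h)) (layer h) S).hom
          ((jsDictRepIso L S h N hN hopen).hom.hom a) := by
  subst hN
  have hsq := jsToCsFull_invariants_square L S h hopen hne hdesc hS
  have := congrArg (fun F => F.hom a) hsq
  exact this

end Concrete

section ConcreteDict

variable {k Ω : Type} [Field k] [Field Ω] [Algebra k Ω] [IsGalois k Ω]
variable (L : LevelStructure (Ω ≃ₐ[k] Ω)) (S : Finset Nat.Primes) {p : ℕ}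
  (Adm : IntermediateField k Ω → Prop)
  (hfd : ∀ {F : IntermediateField k Ω}, Adm F → FiniteDimensional k F)
  (hGalA : ∀ N, L.IsLevel N → ∃ F : IntermediateField k Ω,
    Adm F ∧ Normal k F ∧ N = F.fixingSubgroup)
  (hcofA : ∀ E' : IntermediateField k Ω, Adm E' → ∃ N, L.IsLevel N ∧ N ≤ E'.fixingSubgroup)
  (hsup : ∀ {B B' : IntermediateField k Ω}, Adm B → Adm B' → Adm (B ⊔ B'))
  (hne : ∃ q ∈ (↑S : Set Nat.Primes), Nonempty (LocalEmb ((q : Nat.Primes) : ℕ) Ω))
  (hdescA : ∀ {B B' B'' : IntermediateField k Ω} (h : B ≤ B') (h' : B' ≤ B''), Adm B'' →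
    ∀ [Normal B (layer (h.trans h'))], HasSClassDescent h (↑S : Set Nat.Primes) h')
  (E : IntermediateField k Ω) (hE : Adm E) [NumberField E]
  (I : LocalInvFamily)
  (Is : PLayerInvSystem (sClassCoeff k Ω (↑S : Set Nat.Primes)) Adm p)

set_option quotPrecheck false in
local notation "dd" => csFullDict L (↑S : Set Nat.Primes) Adm hfd hGalA hcofA hsup hne hdescA E hE

/-- **The level formula (global half) for `csFullDict`**: for a level `l` of `Gal(Ω/E)` and a
`p`-power torsion class `y ∈ H²(Gal(Ω/E) ⧸ l.N, J_S^{l.N})`, the level invariant of the image of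
`y` in `H²((C_S')^{l.N})` is the sum over `q ∈ S` of the semi-local invariants of the components of
the class corresponding to `y` in `H²(Gal(E'/E), ∏_{q ∈ S} A_q(E'))`, `E' = top l`. -/
theorem csFullDict_invLevel_jsToCsFull
    (hspec : ∀ {E' : IntermediateField k Ω} (h : E ≤ E') [Normal E (layer h)], Adm E' →
      ∀ z : groupCohomology ((ideleCoeff k Ω).M h) 2, (∃ n : ℕ, p ^ n • z = 0) →
      Is.inv h ((classToClassSLayer (↑S : Set Nat.Primes) h 2).hom
        ((ideleToClassLayer h 2).hom z)) = invJFun I E z)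
    (l : (L.comap E.fixingSubgroup.subtype).Level)
    (y : groupCohomology ((jsTowerRep L (↑S : Set Nat.Primes) E).quotientToInvariants l.N) 2)
    (hy : ∃ n : ℕ, p ^ n • y = 0) :
    haveI := (dd).normal l
    (dd).invLevel Is l ((LC.coeffFinMap
        (jsToCsFullTower L (↑S : Set Nat.Primes) S.finite_toSet E) l.N 2).hom y) =
      ∑ q ∈ S.attach, semiLocalInv I E (q : Nat.Primes)
        ((groupCohomology.map
          (MonoidHom.id (layer ((dd).le_top l) ≃ₐ[E] layer ((dd).le_top l)))
          (sProdProj (layer ((dd).le_top l) ≃ₐ[E] layer ((dd).le_top l))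
            (layer ((dd).le_top l)) (↑S : Set Nat.Primes) ⟨q.1, Finset.mem_coe.2 q.2⟩) 2).hom
          (cohLinearEquivOfRepIso _ _ ((dd).quotEquiv l)
            (jsDictRepIso L (↑S : Set Nat.Primes) ((dd).le_top l) l.N
              (level_eq_ker L (galType_of_adm L Adm hfd hGalA) E l)
              (isOpen_fixingSubgroup_levelTop L Adm hfd hGalA hcofA hsup E hE l)) 2 y)) := by
  haveI := (dd).normal l
  rw [CoeffDict.invLevel_apply]
  exact invLevel_coeffFinMap_eq_sum S I Is
    (jsToCsFullTower L (↑S : Set Nat.Primes) S.finite_toSet E) (dd) l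
    (hspec ((dd).le_top l) ((dd).adm l))
    (jsDictRepIso L (↑S : Set Nat.Primes) ((dd).le_top l) l.N
      (level_eq_ker L (galType_of_adm L Adm hfd hGalA) E l)
      (isOpen_fixingSubgroup_levelTop L Adm hfd hGalA hcofA hsup E hE l))
    (fun a => csDictRepIso_coeffFin_jsToCsFull L (↑S : Set Nat.Primes) S.finite_toSet
      ((dd).le_top l) l.N (level_eq_ker L (galType_of_adm L Adm hfd hGalA) E l)
      (isOpen_fixingSubgroup_levelTop L Adm hfd hGalA hcofA hsup E hE l) hne
      (hasCofinalSClassDescent_levelTop L (↑S : Set Nat.Primes) Adm hfd hGalA hsup hdescA E hE l)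
      a) y hy

end ConcreteDict

section OnePlace

variable (I : LocalInvFamily) (K : Type) [Field K] {L : Type} [Field L] [Algebra K L]
  [Normal K L] [NumberField K] [NumberField L]

/-- Over a base field with only one place above `q`, the semi-local invariant is the local
invariant at any embedding. -/
theorem semiLocalInv_eq_semiLocalInvAt_of_subsingleton (hI : ∀ q, (I q).IsConjInvariant)
    (q : Nat.Primes) [Subsingleton (LocalPlace ((q : Nat.Primes) : ℕ) K)]
    (τ' : LocalEmb ((q : Nat.Primes) : ℕ) L)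
    (x : groupCohomology (semiLocalRep L (L ≃ₐ[K] L) ((q : Nat.Primes) : ℕ)) 2) :
    semiLocalInv I K q x = semiLocalInvAt I K q τ' x := by
  haveI : Unique (LocalPlace ((q : Nat.Primes) : ℕ) K) :=
    { default := (localEmbRestrict K τ').place
      uniq := fun _ => Subsingleton.elim _ _ }
  rw [semiLocalInv_eq_finsum I K hI q (fun _ => τ') (fun ω => Subsingleton.elim _ _) x,
    finsum_unique]

end OnePlace

section Bot

variable {Ω : Type} [Field Ω] [Algebra ℚ Ω]

/-- The field `⊥ = ℚ` has only one place above each prime. -/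
instance subsingleton_localPlace_bot (q : ℕ) [Fact q.Prime] :
    Subsingleton (LocalPlace q (⊥ : IntermediateField ℚ Ω)) := by
  have hemb : ∀ τ τ' : LocalEmb q (⊥ : IntermediateField ℚ Ω), τ = τ' := by
    intro τ τ'
    ext x
    obtain ⟨r, hr⟩ := IntermediateField.mem_bot.1 x.2
    have hx : x = ((r : ℚ) : (⊥ : IntermediateField ℚ Ω)) := by
      apply Subtype.ext
      rw [← hr, eq_ratCast (algebraMap ℚ Ω) r]
      norm_cast
    rw [hx, map_ratCast, map_ratCast]
  refine ⟨fun ω ω' => ?_⟩
  induction ω using Quotient.inductionOn with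
  | h τ =>
    induction ω' using Quotient.inductionOn with
    | h τ' => rw [hemb τ τ']

end Bot

end Fermat.Agent.CFT
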