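import Mathlib

/-!
# Layer C, node C3A: the duality step of the Chevalley–Tate argument

Abstract Kummer duality: let `ψ : Γ →* X →* Mˣ` be a pairing with values killed by `p`, whose right
kernel consists of `p`-th powers, with `X / X^p` finite.  If `x` is killed by every `σ` killing `a`,
then `x ∈ ⟨a⟩ · X^p` (`exists_zpow_mul_pow_of_pairing`).

In the application `X = K_S` (the `S`-units), `Γ = Gal(K̄/K)`, `ψ σ x = σ(x^{1/p}) / x^{1/p}`,
`a` the Kummer generator of `L = K(a^{1/p})`, and the `σ` killing `a` are the elements of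
`Gal(K̄/L)`.
-/

set_option autoImplicit false

namespace Fermat.Agent.CFT

open Subgroup

theorem exists_zpow_mul_pow_of_pairing {Γ X M : Type*} [Group Γ] [CommGroup X] [CommMonoid M]
    (p : ℕ) [NeZero p] [hM : HasEnoughRootsOfUnity M p]
    (ψ : Γ →* X →* Mˣ) (hψ : ∀ σ x, (ψ σ x) ^ p = 1)
    (hfin : (powMonoidHom p : X →* X).range.index ≠ 0)
    (hnd : ∀ x : X, (∀ σ, ψ σ x = 1) → ∃ y, y ^ p = x)
    (a x : X) (hx : ∀ σ, ψ σ a = 1 → ψ σ x = 1) :
    ∃ (k : ℤ) (y : X), x = a ^ k * y ^ p := by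
  classical
  set Q : Subgroup X := (powMonoidHom p : X →* X).range with hQ
  have hfinV : Finite (X ⧸ Q) := Subgroup.index_ne_zero_iff_finite.1 hfin
  -- exponent of `V = X ⧸ Q` divides `p`
  have hexp : Monoid.exponent (X ⧸ Q) ∣ p := by
    apply Monoid.exponent_dvd_of_forall_pow_eq_one
    intro v
    induction v using QuotientGroup.induction_on with
    | H y =>
      rw [← QuotientGroup.mk_pow, QuotientGroup.eq_one_iff]
      exact ⟨y, rfl⟩
  have : HasEnoughRootsOfUnity M (Monoid.exponent (X ⧸ Q)) :=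
    HasEnoughRootsOfUnity.of_dvd M hexp
  -- the induced pairing `Γ →* (V →* Mˣ)`
  have hkill : ∀ σ, Q ≤ (ψ σ).ker := by
    rintro σ _ ⟨y, rfl⟩
    rw [MonoidHom.mem_ker]
    show ψ σ (y ^ p) = 1
    rw [map_pow, hψ]
  let Ψ : Γ →* (X ⧸ Q →* Mˣ) :=
    { toFun := fun σ => QuotientGroup.lift Q (ψ σ) (hkill σ)
      map_one' := by
        ext v
        simp
      map_mul' := fun σ τ => by
        ext v
        simp }
  have hΨ : ∀ σ y, Ψ σ (QuotientGroup.mk y) = ψ σ y := fun σ y => rfl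
  -- the range of `Ψ` is everything
  have hW : Ψ.range = ⊤ := by
    have hann : (CommGroup.subgroupOrderIsoSubgroupMonoidHom (X ⧸ Q) M).symm
        (OrderDual.toDual Ψ.range) = ⊥ := by
      rw [eq_bot_iff]
      intro v hv
      rw [CommGroup.mem_subgroupOrderIsoSubgroupMonoidHom_symm_iff] at hv
      induction v using QuotientGroup.induction_on with
      | H y =>
        rw [Subgroup.mem_bot, QuotientGroup.eq_one_iff]
        obtain ⟨z, hz⟩ := hnd y fun σ => by
          have := hv (Ψ σ) ⟨σ, rfl⟩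
          rwa [hΨ] at this
        exact ⟨z, hz⟩
    have h2 : OrderDual.toDual Ψ.range =
        (CommGroup.subgroupOrderIsoSubgroupMonoidHom (X ⧸ Q) M) ⊥ := by
      rw [← hann, OrderIso.apply_symm_apply]
    have h3 : Ψ.range = OrderDual.ofDual
        ((CommGroup.subgroupOrderIsoSubgroupMonoidHom (X ⧸ Q) M) ⊥) := by
      rw [← h2]; rfl
    rw [h3, eq_top_iff]
    intro φ _
    rw [CommGroup.mem_subgroupOrderIsoSubgroupMonoidHom_iff]
    intro g hg
    rw [Subgroup.mem_bot.1 hg, map_one]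
  -- conclude by duality for the subgroup generated by `a`
  have hmem : (QuotientGroup.mk x : X ⧸ Q) ∈ zpowers (QuotientGroup.mk a : X ⧸ Q) := by
    rw [← CommGroup.forall_monoidHom_apply_eq_one_iff M]
    intro φ hφ
    obtain ⟨σ, rfl⟩ : φ ∈ Ψ.range := hW ▸ Subgroup.mem_top φ
    rw [hΨ]
    apply hx
    rw [← hΨ]
    exact hφ _ (mem_zpowers _)
  obtain ⟨k, hk⟩ := mem_zpowers_iff.1 hmem
  rw [← QuotientGroup.mk_zpow, QuotientGroup.eq] at hk
  obtain ⟨y, hy⟩ := hk
  refine ⟨k, y, ?_⟩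
  have : y ^ p = (a ^ k)⁻¹ * x := hy
  rw [this, mul_inv_cancel_left]

end Fermat.Agent.CFT
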