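import Fermat.Agent.CFT.Global.LCGlobalFamily

/-!
# CFT (C9/D3c glue): the invariants of the full Galois group as descended level families

The invariant `coeffInv` (global) resp. `galInv` (local) of the full Galois group `Gal(Ω/k)` is
defined through `Gal(Ω/k) = Gal(Ω/⊥)`.  Here we compute it on classes inflated from the finite
levels of the full group, and exhibit it as `LC.descH2Add` of an explicit family of level
invariants (the shape consumed by `PT.invCompat_zmod_of_levels` / `LC.sum_loc_of_levels`).
-/

set_option autoImplicit false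
set_option linter.style.haveILetI false
set_option linter.unusedSectionVars false

open CategoryTheory groupCohomology IntermediateField

namespace Fermat.Agent.CFT

open GaloisTower LayerMaps

section Global

variable {k Ω : Type} [Field k] [Field Ω] [Algebra k Ω] [IsGalois k Ω]
variable (L : LevelStructure (Ω ≃ₐ[k] Ω)) {A : Rep.{0} ℤ (Ω ≃ₐ[k] Ω)} (hA : IsSmooth L A)
  {𝔠 : LayerCoeff k Ω} {Adm : IntermediateField k Ω → Prop} {p : ℕ}
  (I : PLayerInvSystem 𝔠 Adm p)
  (dict : ∀ F : IntermediateField k Ω, Adm F →
    CoeffDict 𝔠 Adm F (L.comap F.fixingSubgroup.subtype) (Rep.res F.fixingSubgroup.subtype A))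
  (hbot : Adm ⊥)

/-- The invariant map of a finite level of the full group: restriction to the corresponding level
of `Gal(Ω/⊥)`, then the level invariant of the dictionary of `⊥`. -/
noncomputable def coeffInvLevel (l : L.Level) :
    groupCohomology.H2 (A.quotientToInvariants l.N) →+ AddCircle (1 : ℚ) :=
  ((dict ⊥ hbot).invLevel I (botLevel L l)).comp
    (LC.resFin A (le_refl (botLevel L l).N) 2).hom.toAddMonoidHom

lemma coeffInvLevel_apply (l : L.Level) (y : groupCohomology.H2 (A.quotientToInvariants l.N)) :
    coeffInvLevel L I dict hbot l y =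
      I.inv ((dict ⊥ hbot).le_top (botLevel L l))
        ((dict ⊥ hbot).coh (botLevel L l) 2
          ((LC.resFin A (le_refl (botLevel L l).N) 2).hom y)) := rfl

/-- `coeffInv` on a class inflated from a finite level. -/
theorem coeffInv_inflH2' (l : L.Level) (y : groupCohomology.H2 (A.quotientToInvariants l.N)) :
    coeffInv L hA I dict hbot (LC.inflH2 A l.N l.isOpen y) = coeffInvLevel L I dict hbot l y :=
  coeffInv_inflH2 L hA I dict hbot l y

include hA in
lemma coeffInvLevel_inflFin (l l' : L.Level) (h : l'.N ≤ l.N)
    (y : groupCohomology.H2 (A.quotientToInvariants l.N)) :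
    coeffInvLevel L I dict hbot l' ((LC.inflFin A h 2).hom y) =
      coeffInvLevel L I dict hbot l y := by
  rw [← coeffInv_inflH2' L hA, ← coeffInv_inflH2' L hA, LC.inflH2_inflFin h l'.isOpen y]

/-- **`coeffInv` is the descent of the level family `coeffInvLevel`.** -/
theorem coeffInv_eq_descH2Add :
    coeffInv L hA I dict hbot =
      LC.descH2Add (coeffInvLevel L I dict hbot) (coeffInvLevel_inflFin L hA I dict hbot) hA :=
  LC.descH2Add_unique _ _ hA _ (coeffInv_inflH2' L hA I dict hbot)

end Global

section Local

variable {k Ω : Type} [Field k] [Field Ω] [Algebra k Ω] [IsGalois k Ω]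
variable (L : LevelStructure (Ω ≃ₐ[k] Ω))
  (hGal : ∀ N, L.IsLevel N → ∃ F : IntermediateField k Ω,
    FiniteDimensional k F ∧ Normal k F ∧ N = F.fixingSubgroup)
  (hcof : ∀ E' : IntermediateField k Ω, FiniteDimensional k E' →
    ∃ N, L.IsLevel N ∧ N ≤ E'.fixingSubgroup)
  (T : LayerInvSystem k Ω)

/-- The local invariant map of a finite level of the full group. -/
noncomputable def galInvLevel (l : L.Level) :
    groupCohomology.H2 ((Rep.ofAlgebraAutOnUnits k Ω).quotientToInvariants l.N) →+
      AddCircle (1 : ℚ) :=
  ((galLayerDict L hGal hcof ⊥).invLevel T (botLevel L l)).comp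
    (LC.resFin (Rep.ofAlgebraAutOnUnits k Ω) (le_refl (botLevel L l).N) 2).hom.toAddMonoidHom

lemma galInvLevel_apply (l : L.Level)
    (y : groupCohomology.H2 ((Rep.ofAlgebraAutOnUnits k Ω).quotientToInvariants l.N)) :
    galInvLevel L hGal hcof T l y =
      T.inv ((galLayerDict L hGal hcof ⊥).le_top (botLevel L l))
        ((galLayerDict L hGal hcof ⊥).coh (botLevel L l) 2
          ((LC.resFin (Rep.ofAlgebraAutOnUnits k Ω) (le_refl (botLevel L l).N) 2).hom y)) := rfl

/-- `galInv` on a class inflated from a finite level of the full group. -/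
theorem galInv_inflH2 (l : L.Level)
    (y : groupCohomology.H2 ((Rep.ofAlgebraAutOnUnits k Ω).quotientToInvariants l.N)) :
    galInv L hGal hcof T (LC.inflH2 (Rep.ofAlgebraAutOnUnits k Ω) l.N l.isOpen y) =
      galInvLevel L hGal hcof T l y := by
  rw [galInv_apply,
    LC.resLC2_inflH2 (le_refl (botLevel L l).N) (LevelStructure.compat_comap L _)
      (isSmooth_galUnits L hcof) l.isOpen (botLevel L l).isOpen y]
  exact (galLayerDict L hGal hcof ⊥).invLC_inflH2 T _ (botLevel L l) _

lemma galInvLevel_inflFin (l l' : L.Level) (h : l'.N ≤ l.N)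
    (y : groupCohomology.H2 ((Rep.ofAlgebraAutOnUnits k Ω).quotientToInvariants l.N)) :
    galInvLevel L hGal hcof T l' ((LC.inflFin (Rep.ofAlgebraAutOnUnits k Ω) h 2).hom y) =
      galInvLevel L hGal hcof T l y := by
  rw [← galInv_inflH2, ← galInv_inflH2, LC.inflH2_inflFin h l'.isOpen y]

/-- **`galInv` is the descent of the level family `galInvLevel`.** -/
theorem galInv_eq_descH2Add :
    galInv L hGal hcof T =
      LC.descH2Add (galInvLevel L hGal hcof T) (galInvLevel_inflFin L hGal hcof T)
        (isSmooth_galUnits L hcof) :=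
  LC.descH2Add_unique _ _ _ _ (galInv_inflH2 L hGal hcof T)

end Local

end Fermat.Agent.CFT
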