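import Fermat.Agent.CFT.Global.LCFamilyLevels
import Fermat.Agent.CFT.Local.SecondIneq

/-!
# CFT (C9/D3c): the dictionary of the full Galois group

`Local/LCDict.lean` and `PT/CSFullDict.lean` provide dictionaries for the groups `Gal(Ω/E)`,
realised as the subgroups `E.fixingSubgroup` of `Gal(Ω/k)`.  For the full group `Gal(Ω/k)` itself
we transport the dictionary of `Gal(Ω/⊥)` along the isomorphism `Gal(Ω/k) ≃* Gal(Ω/⊥)`:
`CoeffDict.ofBot`.  Its level invariants are the families `coeffInvLevel` / `galInvLevel` of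
`Global/LCFamilyLevels.lean`, now in the form `inv ∘ cohLinearEquivOfRepIso _ _ eG iC 2` consumed
by `PT.level_formula_of_squares`.
-/

set_option autoImplicit false
set_option linter.style.haveILetI false
set_option linter.unusedSectionVars false

open CategoryTheory groupCohomology IntermediateField

namespace Fermat.Agent.CFT

/-! ### Composition of `cohLinearEquivOfRepIso` -/

section Compose

variable {R G₁ G₂ G₃ : Type} [CommRing R] [Group G₁] [Group G₂] [Group G₃]

/-- `cohLinearEquivOfRepIso` is compatible with composition of dictionaries. -/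
theorem cohLinearEquivOfRepIso_comp (A : Rep R G₃) (B : Rep R G₂) (C : Rep R G₁)
    (e₁ : G₁ ≃* G₂) (e₂ : G₂ ≃* G₃) (i₁ : C ≅ Rep.res e₁.toMonoidHom B)
    (i₂ : B ≅ Rep.res e₂.toMonoidHom A) (i : C ≅ Rep.res (e₁.trans e₂).toMonoidHom A)
    (hi : ∀ c : C.V, i.hom.hom c = i₂.hom.hom (i₁.hom.hom c)) (n : ℕ)
    (y : groupCohomology C n) :
    cohLinearEquivOfRepIso A C (e₁.trans e₂) i n y =
      cohLinearEquivOfRepIso A B e₂ i₂ n (cohLinearEquivOfRepIso B C e₁ i₁ n y) := by
  obtain ⟨φ, hφ, hc⟩ := exists_cohLinearEquivOfRepIso_eq_map A C (e₁.trans e₂) i n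
  obtain ⟨φ₁, hφ₁, hc₁⟩ := exists_cohLinearEquivOfRepIso_eq_map B C e₁ i₁ n
  obtain ⟨φ₂, hφ₂, hc₂⟩ := exists_cohLinearEquivOfRepIso_eq_map A B e₂ i₂ n
  rw [hc, hc₁, hc₂]
  have key : groupCohomology.map (e₁.trans e₂).symm.toMonoidHom φ n =
      groupCohomology.map e₁.symm.toMonoidHom φ₁ n ≫
        groupCohomology.map e₂.symm.toMonoidHom φ₂ n := by
    rw [← groupCohomology.map_comp]
    refine groupCohomology.map_congr rfl ?_ n
    refine LinearMap.ext fun c => ?_
    change φ.hom c = φ₂.hom (φ₁.hom c)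
    rw [hφ, hφ₁, hφ₂, hi]
  exact congrArg (fun F => F.hom y) key

end Compose

/-! ### Restriction and inflation between finite levels commute -/

namespace LC

section ResInfl

variable {R G H : Type} [CommRing R] [Group G] [Group H] {f : H →* G} {A : Rep.{0} R G}
  {N N₁ : Subgroup G} [N.Normal] [N₁.Normal] (h : N₁ ≤ N)
  {M M₁ : Subgroup H} [M.Normal] [M₁.Normal] (hM : M₁ ≤ M)
  (hle : M ≤ N.comap f) (hle₁ : M₁ ≤ N₁.comap f)

/-- `res ∘ infl = infl ∘ res` between finite levels. -/
theorem resFin_inflFin (n : ℕ) (y : groupCohomology (A.quotientToInvariants N) n) :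
    (resFin A hle₁ n).hom ((inflFin A h n).hom y) =
      (inflFin (Rep.res f A) hM n).hom ((resFin A hle n).hom y) := by
  have key : inflFin A h n ≫ resFin A hle₁ n = resFin A hle n ≫ inflFin (Rep.res f A) hM n := by
    unfold inflFin resFin
    rw [← groupCohomology.map_comp, ← groupCohomology.map_comp]
    refine groupCohomology.map_congr ?_ ?_ n
    · refine MonoidHom.ext fun x => ?_
      induction x using QuotientGroup.induction_on with
      | H x => rfl
    · refine LinearMap.ext fun a => ?_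
      rfl
  exact congrArg (fun F => F.hom y) key

end ResInfl

end LC

open GaloisTower LayerMaps

/-! ### `Gal(Ω/k) ≃* Gal(Ω/⊥)` -/

section Bot

variable (k Ω : Type) [Field k] [Field Ω] [Algebra k Ω] [IsGalois k Ω]

/-- The isomorphism `Gal(Ω/k) ≃* Gal(Ω/⊥)`. -/
def galBotEquiv : (Ω ≃ₐ[k] Ω) ≃* (⊥ : IntermediateField k Ω).fixingSubgroup where
  toFun := botProj k Ω
  invFun := Subgroup.subtype _
  left_inv _ := rfl
  right_inv _ := rfl
  map_mul' _ _ := rfl

variable {k Ω}

lemma map_galBotEquiv (N : Subgroup (Ω ≃ₐ[k] Ω)) :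
    N.map (galBotEquiv k Ω).toMonoidHom =
      N.comap (⊥ : IntermediateField k Ω).fixingSubgroup.subtype := by
  ext σ
  constructor
  · rintro ⟨τ, hτ, rfl⟩
    exact hτ
  · intro h
    exact ⟨σ.1, h, Subtype.ext rfl⟩

variable {R : Type} [CommRing R] (A : Rep.{0} R (Ω ≃ₐ[k] Ω))

/-- `A ≅ Res (Res A)` along `Gal(Ω/k) ≃* Gal(Ω/⊥) ≤ Gal(Ω/k)` (the identity). -/
noncomputable def botResIso :
    A ≅ Rep.res (galBotEquiv k Ω).toMonoidHom
      (Rep.res (⊥ : IntermediateField k Ω).fixingSubgroup.subtype A) :=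
  repIsoResOfLinearEquiv A _ _ (LinearEquiv.refl R A.V) (fun _ _ => rfl)

variable (N : Subgroup (Ω ≃ₐ[k] Ω)) [N.Normal]

/-- `G ⧸ N ≃* Gal(Ω/⊥) ⧸ (N ∩ Gal(Ω/⊥))`. -/
noncomputable def botQuotEquiv :
    ((Ω ≃ₐ[k] Ω) ⧸ N) ≃*
      ((⊥ : IntermediateField k Ω).fixingSubgroup ⧸
        N.comap (⊥ : IntermediateField k Ω).fixingSubgroup.subtype) :=
  QuotientGroup.congr N _ (galBotEquiv k Ω) (map_galBotEquiv N)

@[simp] lemma botQuotEquiv_mk (σ : Ω ≃ₐ[k] Ω) :
    botQuotEquiv N (σ : (Ω ≃ₐ[k] Ω) ⧸ N) = ((botProj k Ω σ : _) : _ ⧸ _) := rfl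

lemma botQuotEquiv_symm_eq :
    (botQuotEquiv N).symm.toMonoidHom =
      LC.quotRes (f := (⊥ : IntermediateField k Ω).fixingSubgroup.subtype) (N := N)
        (le_refl (N.comap (⊥ : IntermediateField k Ω).fixingSubgroup.subtype)) := by
  refine MonoidHom.ext fun x => ?_
  induction x using QuotientGroup.induction_on with
  | H σ => rfl

/-- `A^N ≅ Res ((Res A)^{N ∩ Gal(Ω/⊥)})` (the identity on elements). -/
noncomputable def botInvIso :
    A.quotientToInvariants N ≅ Rep.res (botQuotEquiv N).toMonoidHom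
      ((Rep.res (⊥ : IntermediateField k Ω).fixingSubgroup.subtype A).quotientToInvariants
        (N.comap (⊥ : IntermediateField k Ω).fixingSubgroup.subtype)) :=
  quotientToInvariantsIsoOfRepIso A _ (galBotEquiv k Ω) (botResIso A) N _ (map_galBotEquiv N)

lemma coe_botInvIso_hom (a : A.quotientToInvariants N) :
    ((((botInvIso A N).hom.hom a :
      (Rep.res (⊥ : IntermediateField k Ω).fixingSubgroup.subtype A).quotientToInvariants
        (N.comap (⊥ : IntermediateField k Ω).fixingSubgroup.subtype))) : A) = (a : A) := rfl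

/-- The transport `Hⁿ(G ⧸ N, A^N) ≃ Hⁿ(Gal(Ω/⊥) ⧸ N', (Res A)^{N'})` is the restriction `resFin`. -/
theorem cohLinearEquivOfRepIso_botInvIso (n : ℕ) (y : groupCohomology (A.quotientToInvariants N) n) :
    cohLinearEquivOfRepIso _ _ (botQuotEquiv N) (botInvIso A N) n y =
      (LC.resFin A (le_refl (N.comap (⊥ : IntermediateField k Ω).fixingSubgroup.subtype)) n).hom
        y := by
  obtain ⟨φ, hφ, hc⟩ := exists_cohLinearEquivOfRepIso_eq_map _ _ (botQuotEquiv N)
    (botInvIso A N) n
  rw [hc]
  unfold LC.resFin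
  have key : groupCohomology.map (botQuotEquiv N).symm.toMonoidHom φ n =
      groupCohomology.map
        (LC.quotRes (le_refl (N.comap (⊥ : IntermediateField k Ω).fixingSubgroup.subtype)))
        (LC.invRes A (le_refl (N.comap (⊥ : IntermediateField k Ω).fixingSubgroup.subtype))) n := by
    refine groupCohomology.map_congr (botQuotEquiv_symm_eq N) ?_ n
    refine LinearMap.ext fun a => ?_
    change φ.hom a = (LC.invRes A _).hom a
    rw [hφ]
    rfl
  exact congrArg (fun F => F.hom y) key

end Bot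

/-! ### The dictionary of the full group -/

section OfBot

variable {k Ω : Type} [Field k] [Field Ω] [Algebra k Ω] [IsGalois k Ω]
variable (L : LevelStructure (Ω ≃ₐ[k] Ω)) {A : Rep.{0} ℤ (Ω ≃ₐ[k] Ω)}
  {𝔠 : LayerCoeff k Ω} {Adm : IntermediateField k Ω → Prop}
  (d : CoeffDict 𝔠 Adm ⊥ (L.comap (⊥ : IntermediateField k Ω).fixingSubgroup.subtype)
    (Rep.res (⊥ : IntermediateField k Ω).fixingSubgroup.subtype A))

lemma botLevel_N (l : L.Level) :
    (botLevel L l).N = l.N.comap (⊥ : IntermediateField k Ω).fixingSubgroup.subtype := rfl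

lemma botLevel_mono {l l' : L.Level} (h : l'.N ≤ l.N) : (botLevel L l').N ≤ (botLevel L l).N :=
  Subgroup.comap_mono h

/-- `G ⧸ N ≃* Gal(E'/⊥)` for the full group. -/
noncomputable def fullQuotEquiv (l : L.Level) :
    ((Ω ≃ₐ[k] Ω) ⧸ l.N) ≃*
      (GaloisTower.layer (d.le_top (botLevel L l)) ≃ₐ[(⊥ : IntermediateField k Ω)]
        GaloisTower.layer (d.le_top (botLevel L l))) :=
  (botQuotEquiv l.N).trans (d.quotEquiv (botLevel L l))

lemma fullQuotEquiv_mk (l : L.Level) (σ : Ω ≃ₐ[k] Ω) :
    fullQuotEquiv L d l (σ : (Ω ≃ₐ[k] Ω) ⧸ l.N) =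
      d.quotEquiv (botLevel L l) ((botProj k Ω σ : _) : _ ⧸ (botLevel L l).N) := rfl

/-- `A^N ≅ 𝔠.M (E'/⊥)` for the full group. -/
noncomputable def fullRepIso (l : L.Level) :
    A.quotientToInvariants l.N ≅
      Rep.res (fullQuotEquiv L d l).toMonoidHom (𝔠.M (d.le_top (botLevel L l))) :=
  botInvIso A l.N ≪≫
    (Rep.resFunctor (botQuotEquiv l.N).toMonoidHom).mapIso (d.repIso (botLevel L l))

lemma fullRepIso_hom_apply (l : L.Level) (a : A.quotientToInvariants l.N) :
    (fullRepIso L d l).hom.hom a =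
      (d.repIso (botLevel L l)).hom.hom ((botInvIso A l.N).hom.hom a) := rfl

/-- The cohomology isomorphism of a level of the full group is the one of the corresponding level
of `Gal(Ω/⊥)` after restriction. -/
theorem cohLinearEquivOfRepIso_full (l : L.Level) (n : ℕ)
    (y : groupCohomology (A.quotientToInvariants l.N) n) :
    cohLinearEquivOfRepIso _ _ (fullQuotEquiv L d l) (fullRepIso L d l) n y =
      d.coh (botLevel L l) n ((LC.resFin A (le_refl (botLevel L l).N) n).hom y) := by
  refine (cohLinearEquivOfRepIso_comp _ _ _ (botQuotEquiv l.N) (d.quotEquiv (botLevel L l))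
    (botInvIso A l.N) (d.repIso (botLevel L l)) (fullRepIso L d l) (fun _ => rfl) n y).trans ?_
  exact congrArg (d.coh (botLevel L l) n) (cohLinearEquivOfRepIso_botInvIso A l.N n y)

/-- **The dictionary of the full Galois group**, transported from the dictionary of `Gal(Ω/⊥)`. -/
noncomputable def CoeffDict.ofBot : CoeffDict 𝔠 Adm ⊥ L A where
  top l := d.top (botLevel L l)
  le_top l := d.le_top (botLevel L l)
  adm l := d.adm (botLevel L l)
  normal l := d.normal (botLevel L l)
  mono h := d.mono (botLevel_mono L h)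
  quotEquiv l := fullQuotEquiv L d l
  repIso l := fullRepIso L d l
  coh_infl l l' h y := by
    haveI := d.normal (botLevel L l)
    rw [cohLinearEquivOfRepIso_full, cohLinearEquivOfRepIso_full,
      LC.resFin_inflFin h (botLevel_mono L h) (le_refl (botLevel L l).N)
        (le_refl (botLevel L l').N) 2 y]
    exact d.coh_infl (botLevel L l) (botLevel L l') (botLevel_mono L h) _
  cofinal E' hE' hadm := by
    obtain ⟨l₀, hl₀⟩ := d.cofinal E' hE' hadm
    obtain ⟨N, hN, hl₀N⟩ := l₀.isLevel
    refine ⟨⟨N, hN⟩, hl₀.trans (d.mono ?_)⟩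
    rw [hl₀N]
    exact le_rfl

@[simp] lemma CoeffDict.ofBot_top (l : L.Level) :
    (CoeffDict.ofBot L d).top l = d.top (botLevel L l) := rfl

@[simp] lemma CoeffDict.ofBot_quotEquiv (l : L.Level) :
    (CoeffDict.ofBot L d).quotEquiv l = fullQuotEquiv L d l := rfl

@[simp] lemma CoeffDict.ofBot_repIso (l : L.Level) :
    (CoeffDict.ofBot L d).repIso l = fullRepIso L d l := rfl

/-- The cohomology isomorphisms of `ofBot`. -/
theorem CoeffDict.ofBot_coh (l : L.Level) (n : ℕ)
    (y : groupCohomology (A.quotientToInvariants l.N) n) :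
    (CoeffDict.ofBot L d).coh l n y =
      d.coh (botLevel L l) n ((LC.resFin A (le_refl (botLevel L l).N) n).hom y) :=
  cohLinearEquivOfRepIso_full L d l n y

end OfBot

/-! ### The invariant of the full group through `ofBot` -/

section Global

variable {k Ω : Type} [Field k] [Field Ω] [Algebra k Ω] [IsGalois k Ω]
variable (L : LevelStructure (Ω ≃ₐ[k] Ω)) {A : Rep.{0} ℤ (Ω ≃ₐ[k] Ω)} (hA : IsSmooth L A)
  {𝔠 : LayerCoeff k Ω} {Adm : IntermediateField k Ω → Prop} {p : ℕ}
  (I : PLayerInvSystem 𝔠 Adm p)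
  (dict : ∀ F : IntermediateField k Ω, Adm F →
    CoeffDict 𝔠 Adm F (L.comap F.fixingSubgroup.subtype) (Rep.res F.fixingSubgroup.subtype A))
  (hbot : Adm ⊥)

/-- The level invariants of the full group in the form `inv ∘ cohLinearEquivOfRepIso` (the shape
of `PT.level_formula_of_squares`). -/
theorem coeffInvLevel_eq (l : L.Level) (y : groupCohomology.H2 (A.quotientToInvariants l.N)) :
    coeffInvLevel L I dict hbot l y =
      I.inv ((dict ⊥ hbot).le_top (botLevel L l))
        (cohLinearEquivOfRepIso _ _ (fullQuotEquiv L (dict ⊥ hbot) l)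
          (fullRepIso L (dict ⊥ hbot) l) 2 y) := by
  rw [coeffInvLevel_apply, cohLinearEquivOfRepIso_full]

/-- `coeffInv` is the invariant map of the dictionary `ofBot` of the full group. -/
theorem coeffInv_eq_invLC_ofBot :
    coeffInv L hA I dict hbot = (CoeffDict.ofBot L (dict ⊥ hbot)).invLC I hA := by
  rw [coeffInv_eq_descH2Add]
  refine LC.descH2Add_unique _ _ hA _ fun l y => ?_
  rw [LC.descH2Add_inflH2, CoeffDict.invLevel_apply, CoeffDict.ofBot_coh]
  rfl

end Global

/-! ### The units as a coefficient system; the local full dictionary -/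

section Units

variable (k Ω : Type) [Field k] [Field Ω] [Algebra k Ω]

/-- The units of the layers as a coefficient system (`layerMap`). -/
noncomputable def unitsCoeff : LayerCoeff k Ω where
  M {E _} h := Rep.ofAlgebraAutOnUnits E (GaloisTower.layer h)
  map hEE' hFF' hEF hE'F' _ n := layerMap hEE' hFF' hEF hE'F' n
  map_comp hEE' hFF' hJJ' hEF hE'F' hFJ hF'J' _ _ n :=
    layerMap_comp hEE' hFF' hJJ' hEF hE'F' hFJ hF'J' n

variable {k Ω}

/-- A `LayerDict` is a `CoeffDict` for the coefficient system of the units. -/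
noncomputable def LayerDict.toCoeffDict {E : IntermediateField k Ω} {G : Type} [Group G]
    {L : LevelStructure G} {A : Rep.{0} ℤ G} (d : LayerDict E L A) :
    CoeffDict (unitsCoeff k Ω) (fun F => FiniteDimensional k F) E L A where
  top := d.top
  le_top := d.le_top
  adm := d.fd
  normal := d.normal
  mono := d.mono
  quotEquiv := d.quotEquiv
  repIso := d.repIso
  coh_infl := d.coh_infl
  cofinal := d.cofinal

lemma LayerDict.toCoeffDict_coh {E : IntermediateField k Ω} {G : Type} [Group G]
    {L : LevelStructure G} {A : Rep.{0} ℤ G} (d : LayerDict E L A) (l : L.Level) (n : ℕ)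
    (y : groupCohomology (A.quotientToInvariants l.N) n) :
    d.toCoeffDict.coh l n y = d.coh l n y := rfl

end Units

section Local

variable {k Ω : Type} [Field k] [Field Ω] [Algebra k Ω] [IsGalois k Ω]
variable (L : LevelStructure (Ω ≃ₐ[k] Ω))
  (hGal : ∀ N, L.IsLevel N → ∃ F : IntermediateField k Ω,
    FiniteDimensional k F ∧ Normal k F ∧ N = F.fixingSubgroup)
  (hcof : ∀ E' : IntermediateField k Ω, FiniteDimensional k E' →
    ∃ N, L.IsLevel N ∧ N ≤ E'.fixingSubgroup)
  (T : LayerInvSystem k Ω)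

/-- **The dictionary of the full local Galois group** with coefficients `Ωˣ`. -/
noncomputable def galFullDict :
    CoeffDict (unitsCoeff k Ω) (fun F => FiniteDimensional k F) ⊥ L
      (Rep.ofAlgebraAutOnUnits k Ω) :=
  CoeffDict.ofBot L (galLayerDict L hGal hcof ⊥).toCoeffDict

/-- The local level invariants of the full group in the form `inv ∘ cohLinearEquivOfRepIso`. -/
theorem galInvLevel_eq (l : L.Level)
    (y : groupCohomology.H2 ((Rep.ofAlgebraAutOnUnits k Ω).quotientToInvariants l.N)) :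
    galInvLevel L hGal hcof T l y =
      T.inv ((galFullDict L hGal hcof).le_top l)
        (cohLinearEquivOfRepIso _ _ ((galFullDict L hGal hcof).quotEquiv l)
          ((galFullDict L hGal hcof).repIso l) 2 y) := by
  rw [galInvLevel_apply]
  exact congrArg _ (cohLinearEquivOfRepIso_full L (galLayerDict L hGal hcof ⊥).toCoeffDict l 2
    y).symm

end Local

end Fermat.Agent.CFT
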