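import Fermat.Agent.CFT.Global.LCFullDict

/-!
# CFT (D3c): bot → full conversion for a bare level isomorphism

`Global/LCFullDict.lean` transports a whole `CoeffDict` of `Gal(Ω/⊥)` to the full group
`Gal(Ω/k)`.  Here is the same conversion for a *bare* pair `(e', i')` (no `CoeffDict`, no
`LayerCoeff`): for `A : Rep R Gal(Ω/k)`, a level `l` of the full group, a group isomorphism
`e' : Gal(Ω/⊥) ⧸ (botLevel L l).N ≃* Γ` and a representation isomorphism
`i' : (Res A)^{(botLevel L l).N} ≅ Res e' M`, we get `bareFullQuotEquiv`, `bareFullRepIso`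
(the identity on elements followed by `i'`) and the compatibility of the induced cohomology
isomorphisms with the restriction `resFin`.
-/

set_option autoImplicit false
set_option linter.style.haveILetI false
set_option linter.unusedSectionVars false

open CategoryTheory groupCohomology IntermediateField

namespace Fermat.Agent.CFT

open GaloisTower LayerMaps

section Bare

variable {k Ω : Type} [Field k] [Field Ω] [Algebra k Ω] [IsGalois k Ω]
variable {R : Type} [CommRing R] (A : Rep.{0} R (Ω ≃ₐ[k] Ω))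
variable {Γ : Type} [Group Γ]

section Subgroup

variable (N : Subgroup (Ω ≃ₐ[k] Ω)) [N.Normal]
  (e' : ((⊥ : IntermediateField k Ω).fixingSubgroup ⧸
    N.comap (⊥ : IntermediateField k Ω).fixingSubgroup.subtype) ≃* Γ)

/-- `G ⧸ N ≃* Γ` from `Gal(Ω/⊥) ⧸ (N ∩ Gal(Ω/⊥)) ≃* Γ`. -/
noncomputable def bareQuotEquiv : ((Ω ≃ₐ[k] Ω) ⧸ N) ≃* Γ :=
  (botQuotEquiv N).trans e'

lemma bareQuotEquiv_mk (σ : Ω ≃ₐ[k] Ω) :
    bareQuotEquiv N e' (σ : (Ω ≃ₐ[k] Ω) ⧸ N) = e' ((botProj k Ω σ : _) : _ ⧸ _) := rfl

variable (M : Rep.{0} R Γ)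
  (i' : (Rep.res (⊥ : IntermediateField k Ω).fixingSubgroup.subtype A).quotientToInvariants
      (N.comap (⊥ : IntermediateField k Ω).fixingSubgroup.subtype) ≅
    Rep.res e'.toMonoidHom M)

/-- `A^N ≅ Res M` for the full group, from the same for `Gal(Ω/⊥)`. -/
noncomputable def bareRepIso :
    A.quotientToInvariants N ≅ Rep.res (bareQuotEquiv N e').toMonoidHom M :=
  botInvIso A N ≪≫ (Rep.resFunctor (botQuotEquiv N).toMonoidHom).mapIso i'

lemma bareRepIso_hom_apply (a : A.quotientToInvariants N) :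
    (bareRepIso A N e' M i').hom.hom a = i'.hom.hom ((botInvIso A N).hom.hom a) := rfl

/-- The induced cohomology isomorphism is the one of `Gal(Ω/⊥)` after the restriction `resFin`. -/
theorem cohLinearEquivOfRepIso_bare (n : ℕ) (y : groupCohomology (A.quotientToInvariants N) n) :
    cohLinearEquivOfRepIso _ _ (bareQuotEquiv N e') (bareRepIso A N e' M i') n y =
      cohLinearEquivOfRepIso _ _ e' i' n
        ((LC.resFin A
          (le_refl (N.comap (⊥ : IntermediateField k Ω).fixingSubgroup.subtype)) n).hom y) := by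
  refine (cohLinearEquivOfRepIso_comp _ _ _ (botQuotEquiv N) e'
    (botInvIso A N) i' (bareRepIso A N e' M i') (fun _ => rfl) n y).trans ?_
  exact congrArg (cohLinearEquivOfRepIso _ _ e' i' n) (cohLinearEquivOfRepIso_botInvIso A N n y)

end Subgroup

section Level

variable (L : LevelStructure (Ω ≃ₐ[k] Ω)) (l : L.Level)
  (e' : ((⊥ : IntermediateField k Ω).fixingSubgroup ⧸ (botLevel L l).N) ≃* Γ)
  (M : Rep.{0} R Γ)
  (i' : (Rep.res (⊥ : IntermediateField k Ω).fixingSubgroup.subtype A).quotientToInvariants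
      (botLevel L l).N ≅ Rep.res e'.toMonoidHom M)

/-- `G ⧸ l.N ≃* Γ` for a level `l` of the full group, from `Gal(Ω/⊥) ⧸ (botLevel L l).N ≃* Γ`. -/
noncomputable def bareFullQuotEquiv : ((Ω ≃ₐ[k] Ω) ⧸ l.N) ≃* Γ :=
  (botQuotEquiv l.N).trans e'

lemma bareFullQuotEquiv_mk (σ : Ω ≃ₐ[k] Ω) :
    bareFullQuotEquiv L l e' (σ : (Ω ≃ₐ[k] Ω) ⧸ l.N) =
      e' ((botProj k Ω σ : _) : _ ⧸ (botLevel L l).N) := rfl

/-- **bot → full for a bare level isomorphism**: `A^{l.N} ≅ Res M` from
`(Res A)^{(botLevel L l).N} ≅ Res M`. -/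
noncomputable def bareFullRepIso :
    A.quotientToInvariants l.N ≅ Rep.res (bareFullQuotEquiv L l e').toMonoidHom M :=
  botInvIso A l.N ≪≫ (Rep.resFunctor (botQuotEquiv l.N).toMonoidHom).mapIso i'

lemma bareFullRepIso_hom_apply (a : A.quotientToInvariants l.N) :
    (bareFullRepIso A L l e' M i').hom.hom a = i'.hom.hom ((botInvIso A l.N).hom.hom a) := rfl

/-- Elementwise form: the underlying element of `A` is unchanged by `botInvIso`, so
`bareFullRepIso` is `i'` applied to "the same element" `b` of `(Res A)^{(botLevel L l).N}`. -/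
lemma bareFullRepIso_hom_apply_of_coe (a : A.quotientToInvariants l.N)
    (b : (Rep.res (⊥ : IntermediateField k Ω).fixingSubgroup.subtype A).quotientToInvariants
      (botLevel L l).N) (hb : (b : A) = (a : A)) :
    (bareFullRepIso A L l e' M i').hom.hom a = i'.hom.hom b := by
  rw [bareFullRepIso_hom_apply]
  exact congrArg i'.hom.hom (Subtype.ext hb.symm)

theorem cohLinearEquivOfRepIso_bareFull (n : ℕ)
    (y : groupCohomology (A.quotientToInvariants l.N) n) :
    cohLinearEquivOfRepIso _ _ (bareFullQuotEquiv L l e') (bareFullRepIso A L l e' M i') n y =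
      cohLinearEquivOfRepIso _ _ e' i' n
        ((LC.resFin A (le_refl (botLevel L l).N) n).hom y) := by
  refine (cohLinearEquivOfRepIso_comp _ _ _ (botQuotEquiv l.N) e'
    (botInvIso A l.N) i' (bareFullRepIso A L l e' M i') (fun _ => rfl) n y).trans ?_
  exact congrArg (cohLinearEquivOfRepIso _ _ e' i' n) (cohLinearEquivOfRepIso_botInvIso A l.N n y)

end Level

end Bare

section Dict

variable {k Ω : Type} [Field k] [Field Ω] [Algebra k Ω] [IsGalois k Ω]
variable (L : LevelStructure (Ω ≃ₐ[k] Ω)) {A : Rep.{0} ℤ (Ω ≃ₐ[k] Ω)}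
  {𝔠 : LayerCoeff k Ω} {Adm : IntermediateField k Ω → Prop}
  (d : CoeffDict 𝔠 Adm ⊥ (L.comap (⊥ : IntermediateField k Ω).fixingSubgroup.subtype)
    (Rep.res (⊥ : IntermediateField k Ω).fixingSubgroup.subtype A))

/-- The `ofBot` dictionary is the bare conversion of the level isomorphisms of `d`. -/
lemma fullQuotEquiv_eq_bare (l : L.Level) :
    fullQuotEquiv L d l = bareFullQuotEquiv L l (d.quotEquiv (botLevel L l)) := rfl

lemma fullRepIso_eq_bare (l : L.Level) :
    fullRepIso L d l =
      bareFullRepIso A L l (d.quotEquiv (botLevel L l)) (𝔠.M (d.le_top (botLevel L l)))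
        (d.repIso (botLevel L l)) := rfl

end Dict

end Fermat.Agent.CFT
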