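import Fermat.Agent.CFT.Global.LCGlobalFamily
import Fermat.Agent.CFT.PT.CSFullDict

/-!
# CFT, Layer C (C9, F1-inst): the global invariant family for `C_S'` (`csFullRep`)

Instantiation of `Global/LCGlobalFamily.lean` with helper10's dictionary `csFullDict`
(`PT/CSFullDict.lean`): for every `p`-primary invariant system on the `S`-idele classes of the
layers we get the `LC.PInvFamily` of `(Gal(Ω/k), L, csFullRep L Ω S)`.
-/

set_option autoImplicit false
set_option linter.style.haveILetI false
set_option linter.unusedSectionVars false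

open CategoryTheory groupCohomology IntermediateField

namespace Fermat.Agent.CFT.PT

open Fermat.Agent.CFT Fermat.Agent.CFT.GaloisTower Fermat.Agent.CFT.LayerMaps

variable {k Ω : Type} [Field k] [Field Ω] [Algebra k Ω] [IsGalois k Ω]
variable (L : LevelStructure (Ω ≃ₐ[k] Ω)) (S : Set Nat.Primes)
variable (Adm : IntermediateField k Ω → Prop)
  (hfd : ∀ {F : IntermediateField k Ω}, Adm F → FiniteDimensional k F)
  (hGalA : ∀ N, L.IsLevel N → ∃ F : IntermediateField k Ω,
    Adm F ∧ Normal k F ∧ N = F.fixingSubgroup)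
  (hcofA : ∀ E' : IntermediateField k Ω, Adm E' → ∃ N, L.IsLevel N ∧ N ≤ E'.fixingSubgroup)
  (hsup : ∀ {B B' : IntermediateField k Ω}, Adm B → Adm B' → Adm (B ⊔ B'))
  (hne : ∃ q ∈ S, Nonempty (LocalEmb ((q : Nat.Primes) : ℕ) Ω))
  (hdescA : ∀ {B B' B'' : IntermediateField k Ω} (h : B ≤ B') (h' : B' ≤ B''), Adm B'' →
    ∀ [Normal B (layer (h.trans h'))], HasSClassDescent h S h')
  (hmono : ∀ {B B' : IntermediateField k Ω}, B ≤ B' → Adm B' → Adm B)
  (hbot : Adm (⊥ : IntermediateField k Ω))

/-- The family of dictionaries of `C_S'`. -/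
noncomputable def csFullDictFamily (F : IntermediateField k Ω) (hF : Adm F) :
    CoeffDict (sClassCoeff k Ω S) Adm F (L.comap F.fixingSubgroup.subtype)
      (Rep.res F.fixingSubgroup.subtype (csFullRep L Ω S)) :=
  csFullDict L S Adm hfd hGalA hcofA hsup hne hdescA F hF

include hfd hGalA hmono in
/-- Open subgroups are the fixing subgroups of the admissible fields. -/
theorem exists_adm_fixingSubgroup_eq_of_isOpen (U : Subgroup (Ω ≃ₐ[k] Ω)) (hU : L.IsOpen U) :
    ∃ F : IntermediateField k Ω, Adm F ∧ U = F.fixingSubgroup := by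
  obtain ⟨N, hN, hNU⟩ := hU
  obtain ⟨F₀, hF₀, _, rfl⟩ := hGalA N hN
  haveI := hfd hF₀
  obtain ⟨F, hle, hF⟩ := exists_fixingSubgroup_eq_of_le U hNU
  exact ⟨F, hmono hle hF₀, hF.symm⟩

variable {p : ℕ} (I : PLayerInvSystem (sClassCoeff k Ω S) Adm p)

/-- The restriction hypothesis of `Global/LCGlobalFamily.lean` holds for `csFullDict`. -/
theorem csFull_hasResBot :
    HasResBot L (isSmooth_csFullRep L Ω S) I
      (csFullDictFamily L S Adm hfd hGalA hcofA hsup hne hdescA) hbot :=
  fun _ hF c =>
    csFullDict_invLC_resLC2 L S Adm hfd hGalA hcofA hsup hne hdescA hbot hF bot_le I c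

/-- **The global invariant family of `C_S'`** in the shape consumed by `lc_duality`. -/
noncomputable def csFullPInvFamily [Fact p.Prime] :
    LC.PInvFamily L (csFullRep L Ω S) (isSmooth_csFullRep L Ω S) p :=
  coeffPInvFamily L (isSmooth_csFullRep L Ω S) I
    (csFullDictFamily L S Adm hfd hGalA hcofA hsup hne hdescA) hbot
    (exists_adm_fixingSubgroup_eq_of_isOpen L Adm hfd hGalA hmono)
    (csFull_hasResBot L S Adm hfd hGalA hcofA hsup hne hdescA hbot I)

end Fermat.Agent.CFT.PT
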