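import Fermat.Agent.CFT.Global.LCExistence
import Fermat.Agent.CFT.LC.PInvFamilyTransfer
import Fermat.Agent.CFT.Global.LCGlobalFamilyCS

/-!
# CFT, Layer C (C9, [E-FULL]): the base case of global duality from the layer level

Global mirror of `Local/LCLocalBase.lean`.

* Generic part (`GlobalBase.tauS_eq_zero_iff`, `perfect_of_layers`, `cxH1_eq_zero_of_nsmul`,
  `cxH1_exists_nsmul_eq`, `stdRes_isPerfect_of_layers`): for a family of invariants
  `J : LC.PInvFamily L A hA p`, an open subgroup `U` with a dictionary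
  `d : CoeffDict 𝔠 Adm E (L.comap U.subtype) (Rep.res U.subtype A)` computing `J.invS U hU`
  (`hspec`), the layer-level statements (easy), (hard), (fin) of `CoeffDict.perfect_of_layers`
  (helper28) give (E) for `J.tauS U hU` and the base case `(stdRes _ p).IsPerfect … (J.invHpS U hU)`.
* `C_S'` part (`csFull_invS_fixingSubgroup` (spec), `csFull_H1_eq_zero_of_nsmul` (hB1),
  `csFull_perfect`, `csFull_perfect_of_le` ((E) for the open subgroups `U = Gal(Ω/F)`, `F`
  admissible with `P F`), `csFull_isPerfect` (duality for `csFullRep`)): for helper22's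
  `csFullPInvFamily` and helper10's `csFullDict`, with the three layer-level inputs as named
  hypotheses quantified over the admissible `F` with `P F` (`P F` := "`ζ_p ∈ F`").
-/

set_option autoImplicit false
set_option linter.style.haveILetI false
set_option linter.unusedSectionVars false

open CategoryTheory groupCohomology IntermediateField

namespace Fermat.Agent.CFT

open GaloisTower LayerMaps LCSym

namespace GlobalBase

section generic

variable {k Ω : Type} [Field k] [Field Ω] [Algebra k Ω]
  {𝔠 : LayerCoeff k Ω} {Adm : IntermediateField k Ω → Prop} {p : ℕ} [Fact p.Prime]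
  {G : Type} [Group G] {L : LevelStructure G} {A : Rep.{0} ℤ G} {hA : IsSmooth L A}
  (J : LC.PInvFamily L A hA p) (I : PLayerInvSystem 𝔠 Adm p)
  (U : Subgroup G) (hU : L.IsOpen U) {E : IntermediateField k Ω}
  (d : CoeffDict 𝔠 Adm E (L.comap U.subtype) (Rep.res U.subtype A))
  (hspec : ∀ c : LC.H2 (L.comap U.subtype) (Rep.res U.subtype A),
    J.invS U hU c = d.invLC I (LC.isSmooth_res (S := U) hA) c)

include hspec in
/-- The `ZMod p`-valued invariant of `U` vanishes exactly where the dictionary invariant does. -/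
theorem tauS_eq_zero_iff
    (c : ↥(AddSubgroup.torsionBy (LC.H2 (L.comap U.subtype) (Rep.res U.subtype A)) (p : ℤ))) :
    J.tauS U hU c = 0 ↔ d.invLC I (LC.isSmooth_res (S := U) hA) (c : LC.H2 _ _) = 0 := by
  rw [← hspec, ← J.zmodToCircle_tauS U hU c]
  constructor
  · intro h
    rw [h, map_zero]
  · intro h
    exact zmodToCircle_injective p (h.trans (map_zero _).symm)

include hspec in
/-- **(E) for the open subgroup `U` from the layer level**: the symbol pairing
`A^U/p × H¹(U, 𝔽_p) → 𝔽_p` attached to `J.tauS U hU` is perfect as soon as the layer-level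
statements (easy), (hard), (fin) hold for the dictionary `d` of `U`. -/
theorem perfect_of_layers
    (heasy : ∀ (l : (L.comap U.subtype).Level)
      (χ : (layer (d.le_top l) ≃ₐ[E] layer (d.le_top l)) →* Multiplicative (ZMod p)), χ ≠ 1 →
      ∃ (a : Rep.res U.subtype A) (ha : IsInv (Rep.res U.subtype A) a),
        I.inv (d.le_top l) (symClass (𝔠.M (d.le_top l)) χ
          (d.levelInv l a ha) (d.isInv_levelInv l a ha)) ≠ 0)
    (hhard : ∀ (a : Rep.res U.subtype A) (ha : IsInv (Rep.res U.subtype A) a),
      (∀ (l : (L.comap U.subtype).Level)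
        (χ : (layer (d.le_top l) ≃ₐ[E] layer (d.le_top l)) →* Multiplicative (ZMod p)),
        I.inv (d.le_top l) (symClass (𝔠.M (d.le_top l)) χ
          (d.levelInv l a ha) (d.isInv_levelInv l a ha)) = 0) →
      ∃ b : Rep.res U.subtype A, IsInv (Rep.res U.subtype A) b ∧ a = p • b)
    (hfin : Finite (VQuot (Rep.res U.subtype A) p)) :
    (Finite (XChar (L.comap U.subtype) p) ∧
      Nat.card (XChar (L.comap U.subtype) p) = Nat.card (VQuot (Rep.res U.subtype A) p)) ∧
    Function.Bijective (pairLin (L.comap U.subtype) (Rep.res U.subtype A) (J.tauS U hU)) ∧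
    Function.Bijective (pairLin (L.comap U.subtype) (Rep.res U.subtype A) (J.tauS U hU)).flip :=
  haveI : NeZero p := ⟨(Fact.out : p.Prime).ne_zero⟩
  d.perfect_of_layers I (Fact.out : p.Prime) (LC.isSmooth_res (S := U) hA) (J.tauS U hU)
    (tauS_eq_zero_iff J I U hU d hspec) heasy hhard hfin

include d I in
/-- (CF1a) for `U` from the dictionary, `Cx`-form. -/
theorem cxH1_eq_zero_of_nsmul (x : (LC.cx (LC.isSmooth_res (S := U) hA)).H 1)
    (hx : p • x = 0) : x = 0 := by
  have h := d.H1_eq_zero_of_nsmul I (LC.isSmooth_res (S := U) hA)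
    (LC.h1Equiv (LC.isSmooth_res (S := U) hA) x) (by rw [← map_nsmul, hx, map_zero])
  exact (LinearEquiv.map_eq_zero_iff _).1 h

include d I in
/-- (CF1b) for `U` from the dictionary, `Cx`-form. -/
theorem cxH1_exists_nsmul_eq (x : (LC.cx (LC.isSmooth_res (S := U) hA)).H 1) :
    ∃ y : (LC.cx (LC.isSmooth_res (S := U) hA)).H 1, p • y = x := by
  obtain ⟨y, hy⟩ := (d.bijective_nsmul_H1 I (Fact.out : p.Prime)
    (LC.isSmooth_res (S := U) hA)).2 (LC.h1Equiv (LC.isSmooth_res (S := U) hA) x)
  refine ⟨(LC.h1Equiv (LC.isSmooth_res (S := U) hA)).symm y, ?_⟩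
  rw [← map_nsmul]
  have hy' : p • y = LC.h1Equiv (LC.isSmooth_res (S := U) hA) x := hy
  rw [hy', LinearEquiv.symm_apply_apply]

include hspec in
/-- **The base case of `lc_duality` for the open subgroup `U`** from the layer-level statements
(easy), (hard), (fin) for the dictionary `d` of `U`. -/
theorem stdRes_isPerfect_of_layers
    (heasy : ∀ (l : (L.comap U.subtype).Level)
      (χ : (layer (d.le_top l) ≃ₐ[E] layer (d.le_top l)) →* Multiplicative (ZMod p)), χ ≠ 1 →
      ∃ (a : Rep.res U.subtype A) (ha : IsInv (Rep.res U.subtype A) a),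
        I.inv (d.le_top l) (symClass (𝔠.M (d.le_top l)) χ
          (d.levelInv l a ha) (d.isInv_levelInv l a ha)) ≠ 0)
    (hhard : ∀ (a : Rep.res U.subtype A) (ha : IsInv (Rep.res U.subtype A) a),
      (∀ (l : (L.comap U.subtype).Level)
        (χ : (layer (d.le_top l) ≃ₐ[E] layer (d.le_top l)) →* Multiplicative (ZMod p)),
        I.inv (d.le_top l) (symClass (𝔠.M (d.le_top l)) χ
          (d.levelInv l a ha) (d.isInv_levelInv l a ha)) = 0) →
      ∃ b : Rep.res U.subtype A, IsInv (Rep.res U.subtype A) b ∧ a = p • b)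
    (hfin : Finite (VQuot (Rep.res U.subtype A) p)) :
    (stdRes (L.comap U.subtype) p).IsPerfect p (LC.isSmooth_res (S := U) hA) zmod_nsmul_self
      (J.invHpS U hU) :=
  J.stdRes_isPerfect_of_pairLin U hU (cxH1_eq_zero_of_nsmul (hA := hA) I U d)
    (cxH1_exists_nsmul_eq (hA := hA) I U d)
    (perfect_of_layers J I U hU d hspec heasy hhard hfin).2.1

end generic

section CSFull

open PT

variable {k Ω : Type} [Field k] [Field Ω] [Algebra k Ω] [IsGalois k Ω]
variable (L : LevelStructure (Ω ≃ₐ[k] Ω)) (S : Set Nat.Primes)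
variable (Adm : IntermediateField k Ω → Prop)
  (hfd : ∀ {F : IntermediateField k Ω}, Adm F → FiniteDimensional k F)
  (hGalA : ∀ N, L.IsLevel N → ∃ F : IntermediateField k Ω,
    Adm F ∧ Normal k F ∧ N = F.fixingSubgroup)
  (hcofA : ∀ E' : IntermediateField k Ω, Adm E' → ∃ N, L.IsLevel N ∧ N ≤ E'.fixingSubgroup)
  (hsup : ∀ {B B' : IntermediateField k Ω}, Adm B → Adm B' → Adm (B ⊔ B'))
  (hne : ∃ q ∈ S, Nonempty (LocalEmb ((q : Nat.Primes) : ℕ) Ω))
  (hdescA : ∀ {B B' B'' : IntermediateField k Ω} (h : B ≤ B') (h' : B' ≤ B''), Adm B'' →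
    ∀ [Normal B (layer (h.trans h'))], HasSClassDescent h S h')
  (hmono : ∀ {B B' : IntermediateField k Ω}, B ≤ B' → Adm B' → Adm B)
  (hbot : Adm (⊥ : IntermediateField k Ω))
  {p : ℕ} [Fact p.Prime] (I : PLayerInvSystem (sClassCoeff k Ω S) Adm p)

/-- **Spec of the global family**: for `U = Gal(Ω/F)`, `F` admissible, the invariant of `U` is the
invariant of the dictionary of `F`. -/
theorem csFull_invS_fixingSubgroup (F : IntermediateField k Ω) (hF : Adm F)
    (hU : L.IsOpen F.fixingSubgroup)
    (c : LC.H2 (L.comap F.fixingSubgroup.subtype)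
      (Rep.res F.fixingSubgroup.subtype (csFullRep L Ω S))) :
    (csFullPInvFamily L S Adm hfd hGalA hcofA hsup hne hdescA hmono hbot I).invS
        F.fixingSubgroup hU c =
      (csFullDictFamily L S Adm hfd hGalA hcofA hsup hne hdescA F hF).invLC I
        (LC.isSmooth_res (S := F.fixingSubgroup) (isSmooth_csFullRep L Ω S)) c := by
  show coeffInvS L (isSmooth_csFullRep L Ω S) I
    (csFullDictFamily L S Adm hfd hGalA hcofA hsup hne hdescA)
    (exists_adm_fixingSubgroup_eq_of_isOpen L Adm hfd hGalA hmono) F.fixingSubgroup hU c = _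
  rw [coeffInvS_fixingSubgroup L (isSmooth_csFullRep L Ω S) I
    (csFullDictFamily L S Adm hfd hGalA hcofA hsup hne hdescA)
    (exists_adm_fixingSubgroup_eq_of_isOpen L Adm hfd hGalA hmono) F hF hU]

include I hfd hGalA hcofA hsup hne hdescA hmono in
/-- **(hB1)**: for every open subgroup `U`, `H¹(U, C_S')` has no `p`-torsion. -/
theorem csFull_H1_eq_zero_of_nsmul (U : Subgroup (Ω ≃ₐ[k] Ω)) (hU : L.IsOpen U)
    (c : LC.H1 (L.comap U.subtype) (Rep.res U.subtype (csFullRep L Ω S))) (hc : p • c = 0) :
    c = 0 := by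
  have h := (bijective_nsmul_H1_of_isOpen L (isSmooth_csFullRep L Ω S) I
    (csFullDictFamily L S Adm hfd hGalA hcofA hsup hne hdescA)
    (exists_adm_fixingSubgroup_eq_of_isOpen L Adm hfd hGalA hmono) (Fact.out : p.Prime) U hU).1
  exact h (hc.trans (smul_zero p).symm)

variable (P : IntermediateField k Ω → Prop)

/-- **(E) for `C_S'` and the open subgroups `U = Gal(Ω/F)`, `F` admissible with `P F`**
(`P F` := "`ζ_p ∈ F`"), from the three layer-level statements (easy), (hard), (fin) for the
dictionaries `csFullDict … F hF`. -/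
theorem csFull_perfect
    (heasy : ∀ (F : IntermediateField k Ω) (hF : Adm F), P F →
      ∀ (l : (L.comap F.fixingSubgroup.subtype).Level)
        (χ : (layer ((csFullDict L S Adm hfd hGalA hcofA hsup hne hdescA F hF).le_top l) ≃ₐ[F]
          layer ((csFullDict L S Adm hfd hGalA hcofA hsup hne hdescA F hF).le_top l)) →*
            Multiplicative (ZMod p)), χ ≠ 1 →
        ∃ (a : csFullTowerRep L S F) (ha : IsInv (csFullTowerRep L S F) a),
          I.inv ((csFullDict L S Adm hfd hGalA hcofA hsup hne hdescA F hF).le_top l)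
            (symClass ((sClassCoeff k Ω S).M
              ((csFullDict L S Adm hfd hGalA hcofA hsup hne hdescA F hF).le_top l)) χ
              ((csFullDict L S Adm hfd hGalA hcofA hsup hne hdescA F hF).levelInv l a ha)
              ((csFullDict L S Adm hfd hGalA hcofA hsup hne hdescA F hF).isInv_levelInv l a ha))
            ≠ 0)
    (hhard : ∀ (F : IntermediateField k Ω) (hF : Adm F), P F →
      ∀ (a : csFullTowerRep L S F) (ha : IsInv (csFullTowerRep L S F) a),
        (∀ (l : (L.comap F.fixingSubgroup.subtype).Level)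
          (χ : (layer ((csFullDict L S Adm hfd hGalA hcofA hsup hne hdescA F hF).le_top l) ≃ₐ[F]
            layer ((csFullDict L S Adm hfd hGalA hcofA hsup hne hdescA F hF).le_top l)) →*
              Multiplicative (ZMod p)),
          I.inv ((csFullDict L S Adm hfd hGalA hcofA hsup hne hdescA F hF).le_top l)
            (symClass ((sClassCoeff k Ω S).M
              ((csFullDict L S Adm hfd hGalA hcofA hsup hne hdescA F hF).le_top l)) χ
              ((csFullDict L S Adm hfd hGalA hcofA hsup hne hdescA F hF).levelInv l a ha)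
              ((csFullDict L S Adm hfd hGalA hcofA hsup hne hdescA F hF).isInv_levelInv l a ha))
            = 0) →
        ∃ b : csFullTowerRep L S F, IsInv (csFullTowerRep L S F) b ∧ a = p • b)
    (hfin : ∀ (F : IntermediateField k Ω), Adm F → P F →
      Finite (VQuot (csFullTowerRep L S F) p))
    (U : Subgroup (Ω ≃ₐ[k] Ω)) (hU : L.IsOpen U)
    (hUF : ∃ F : IntermediateField k Ω, Adm F ∧ P F ∧ U = F.fixingSubgroup) :
    (Finite (XChar (L.comap U.subtype) p) ∧ Nat.card (XChar (L.comap U.subtype) p) =
      Nat.card (VQuot (Rep.res U.subtype (csFullRep L Ω S)) p)) ∧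
    Function.Bijective (pairLin (L.comap U.subtype) (Rep.res U.subtype (csFullRep L Ω S))
      ((csFullPInvFamily L S Adm hfd hGalA hcofA hsup hne hdescA hmono hbot I).tauS U hU)) ∧
    Function.Bijective (pairLin (L.comap U.subtype) (Rep.res U.subtype (csFullRep L Ω S))
      ((csFullPInvFamily L S Adm hfd hGalA hcofA hsup hne hdescA hmono hbot I).tauS U hU)).flip := by
  obtain ⟨F, hF, hPF, rfl⟩ := hUF
  exact perfect_of_layers
    (csFullPInvFamily L S Adm hfd hGalA hcofA hsup hne hdescA hmono hbot I) I F.fixingSubgroup hU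
    (csFullDictFamily L S Adm hfd hGalA hcofA hsup hne hdescA F hF)
    (csFull_invS_fixingSubgroup L S Adm hfd hGalA hcofA hsup hne hdescA hmono hbot I F hF hU)
    (heasy F hF hPF) (hhard F hF hPF) (hfin F hF hPF)

/-- `csFull_perfect` for all open subgroups of an open subgroup `G₀` whose open subgroups are
the `Gal(Ω/F)`, `F` admissible with `P F` (e.g. `G₀ = Gal(Ω/k(μ_p))`, `P F` := "`ζ_p ∈ F`"). -/
theorem csFull_perfect_of_le (G₀ : Subgroup (Ω ≃ₐ[k] Ω))
    (hG₀ : ∀ U : Subgroup (Ω ≃ₐ[k] Ω), L.IsOpen U → U ≤ G₀ →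
      ∃ F : IntermediateField k Ω, Adm F ∧ P F ∧ U = F.fixingSubgroup)
    (heasy : ∀ (F : IntermediateField k Ω) (hF : Adm F), P F →
      ∀ (l : (L.comap F.fixingSubgroup.subtype).Level)
        (χ : (layer ((csFullDict L S Adm hfd hGalA hcofA hsup hne hdescA F hF).le_top l) ≃ₐ[F]
          layer ((csFullDict L S Adm hfd hGalA hcofA hsup hne hdescA F hF).le_top l)) →*
            Multiplicative (ZMod p)), χ ≠ 1 →
        ∃ (a : csFullTowerRep L S F) (ha : IsInv (csFullTowerRep L S F) a),
          I.inv ((csFullDict L S Adm hfd hGalA hcofA hsup hne hdescA F hF).le_top l)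
            (symClass ((sClassCoeff k Ω S).M
              ((csFullDict L S Adm hfd hGalA hcofA hsup hne hdescA F hF).le_top l)) χ
              ((csFullDict L S Adm hfd hGalA hcofA hsup hne hdescA F hF).levelInv l a ha)
              ((csFullDict L S Adm hfd hGalA hcofA hsup hne hdescA F hF).isInv_levelInv l a ha))
            ≠ 0)
    (hhard : ∀ (F : IntermediateField k Ω) (hF : Adm F), P F →
      ∀ (a : csFullTowerRep L S F) (ha : IsInv (csFullTowerRep L S F) a),
        (∀ (l : (L.comap F.fixingSubgroup.subtype).Level)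
          (χ : (layer ((csFullDict L S Adm hfd hGalA hcofA hsup hne hdescA F hF).le_top l) ≃ₐ[F]
            layer ((csFullDict L S Adm hfd hGalA hcofA hsup hne hdescA F hF).le_top l)) →*
              Multiplicative (ZMod p)),
          I.inv ((csFullDict L S Adm hfd hGalA hcofA hsup hne hdescA F hF).le_top l)
            (symClass ((sClassCoeff k Ω S).M
              ((csFullDict L S Adm hfd hGalA hcofA hsup hne hdescA F hF).le_top l)) χ
              ((csFullDict L S Adm hfd hGalA hcofA hsup hne hdescA F hF).levelInv l a ha)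
              ((csFullDict L S Adm hfd hGalA hcofA hsup hne hdescA F hF).isInv_levelInv l a ha))
            = 0) →
        ∃ b : csFullTowerRep L S F, IsInv (csFullTowerRep L S F) b ∧ a = p • b)
    (hfin : ∀ (F : IntermediateField k Ω), Adm F → P F →
      Finite (VQuot (csFullTowerRep L S F) p))
    (U : Subgroup (Ω ≃ₐ[k] Ω)) (hU : L.IsOpen U) (hle : U ≤ G₀) :
    (Finite (XChar (L.comap U.subtype) p) ∧ Nat.card (XChar (L.comap U.subtype) p) =
      Nat.card (VQuot (Rep.res U.subtype (csFullRep L Ω S)) p)) ∧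
    Function.Bijective (pairLin (L.comap U.subtype) (Rep.res U.subtype (csFullRep L Ω S))
      ((csFullPInvFamily L S Adm hfd hGalA hcofA hsup hne hdescA hmono hbot I).tauS U hU)) ∧
    Function.Bijective (pairLin (L.comap U.subtype) (Rep.res U.subtype (csFullRep L Ω S))
      ((csFullPInvFamily L S Adm hfd hGalA hcofA hsup hne hdescA hmono hbot I).tauS U hU)).flip :=
  csFull_perfect L S Adm hfd hGalA hcofA hsup hne hdescA hmono hbot I P heasy hhard hfin U hU
    (hG₀ U hU hle)

/-- **The duality theorem for `C_S'`** (all finite smooth `p`-torsion modules of the full group)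
from the three layer-level statements, for `G₀` open of index prime to `p`. -/
theorem csFull_isPerfect (G₀ : Subgroup (Ω ≃ₐ[k] Ω)) (hG₀o : L.IsOpen G₀)
    (hcop : Nat.Coprime p G₀.index)
    (hG₀ : ∀ U : Subgroup (Ω ≃ₐ[k] Ω), L.IsOpen U → U ≤ G₀ →
      ∃ F : IntermediateField k Ω, Adm F ∧ P F ∧ U = F.fixingSubgroup)
    (heasy : ∀ (F : IntermediateField k Ω) (hF : Adm F), P F →
      ∀ (l : (L.comap F.fixingSubgroup.subtype).Level)
        (χ : (layer ((csFullDict L S Adm hfd hGalA hcofA hsup hne hdescA F hF).le_top l) ≃ₐ[F]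
          layer ((csFullDict L S Adm hfd hGalA hcofA hsup hne hdescA F hF).le_top l)) →*
            Multiplicative (ZMod p)), χ ≠ 1 →
        ∃ (a : csFullTowerRep L S F) (ha : IsInv (csFullTowerRep L S F) a),
          I.inv ((csFullDict L S Adm hfd hGalA hcofA hsup hne hdescA F hF).le_top l)
            (symClass ((sClassCoeff k Ω S).M
              ((csFullDict L S Adm hfd hGalA hcofA hsup hne hdescA F hF).le_top l)) χ
              ((csFullDict L S Adm hfd hGalA hcofA hsup hne hdescA F hF).levelInv l a ha)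
              ((csFullDict L S Adm hfd hGalA hcofA hsup hne hdescA F hF).isInv_levelInv l a ha))
            ≠ 0)
    (hhard : ∀ (F : IntermediateField k Ω) (hF : Adm F), P F →
      ∀ (a : csFullTowerRep L S F) (ha : IsInv (csFullTowerRep L S F) a),
        (∀ (l : (L.comap F.fixingSubgroup.subtype).Level)
          (χ : (layer ((csFullDict L S Adm hfd hGalA hcofA hsup hne hdescA F hF).le_top l) ≃ₐ[F]
            layer ((csFullDict L S Adm hfd hGalA hcofA hsup hne hdescA F hF).le_top l)) →*
              Multiplicative (ZMod p)),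
          I.inv ((csFullDict L S Adm hfd hGalA hcofA hsup hne hdescA F hF).le_top l)
            (symClass ((sClassCoeff k Ω S).M
              ((csFullDict L S Adm hfd hGalA hcofA hsup hne hdescA F hF).le_top l)) χ
              ((csFullDict L S Adm hfd hGalA hcofA hsup hne hdescA F hF).levelInv l a ha)
              ((csFullDict L S Adm hfd hGalA hcofA hsup hne hdescA F hF).isInv_levelInv l a ha))
            = 0) →
        ∃ b : csFullTowerRep L S F, IsInv (csFullTowerRep L S F) b ∧ a = p • b)
    (hfin : ∀ (F : IntermediateField k Ω), Adm F → P F →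
      Finite (VQuot (csFullTowerRep L S F) p))
    (M : PMod L p) :
    M.res.IsPerfect p (isSmooth_csFullRep L Ω S) M.tors
      (csFullPInvFamily L S Adm hfd hGalA hcofA hsup hne hdescA hmono hbot I).invHpG :=
  (csFullPInvFamily L S Adm hfd hGalA hcofA hsup hne hdescA hmono hbot I).isPerfect_of_pairLin
    G₀ hG₀o hcop
    (fun U hU _ => (cxH1_of_isOpen L (isSmooth_csFullRep L Ω S) I
      (csFullDictFamily L S Adm hfd hGalA hcofA hsup hne hdescA)
      (exists_adm_fixingSubgroup_eq_of_isOpen L Adm hfd hGalA hmono) (Fact.out : p.Prime) U hU).1)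
    (fun U hU _ => (cxH1_of_isOpen L (isSmooth_csFullRep L Ω S) I
      (csFullDictFamily L S Adm hfd hGalA hcofA hsup hne hdescA)
      (exists_adm_fixingSubgroup_eq_of_isOpen L Adm hfd hGalA hmono) (Fact.out : p.Prime) U hU).2)
    (fun U hU hle => (csFull_perfect_of_le L S Adm hfd hGalA hcofA hsup hne hdescA hmono hbot I P
      G₀ hG₀ heasy hhard hfin U hU hle).2.1) M

end CSFull

end GlobalBase

end Fermat.Agent.CFT
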