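import Fermat.Agent.CFT.GalMap

/-!
# Layer C / C5d-B: the compositum package `F = K · Z`, `M = L · Z` (Type-level) (helper16)

For number fields `K ⊆ L` (`L/K` Galois) and a number field `Z` Galois over `ℚ`, inside
`Ω = AlgebraicClosure L`:

* `zEmb L Z : Z →ₐ[ℚ] Ω` a chosen embedding; `lRange K L` the image of `L`;
* `compF K L Z = K(Z)`, `compM K L Z = L · K(Z)` as `IntermediateField K Ω`;
* instances: `Algebra Z ↥compF`, `Algebra ↥compF ↥compM`, `Algebra L ↥compM`,
  `IsScalarTower K ↥compF ↥compM`, `IsScalarTower K L ↥compM`, `Normal`/`IsGalois`/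
  `FiniteDimensional K` for `↥compF`, `↥compM`, `NumberField ↥compF`, `NumberField ↥compM` —
  the instance block of `RecipAssemblyP.invJFun_ideleH2f_eq_zero_of_pow_nsmul I K F L M` and of
  `RecipK.invJFun_galSymClass_rat I K (Z := Z) (F := F)`;
* `galRes_injective_of_adjoin` (generic) and `galRes_injective`: the restriction
  `Gal(F/K) → Gal(Z/ℚ)` is injective.
-/

set_option autoImplicit false
set_option linter.unusedSectionVars false
set_option linter.style.haveILetI false

open IntermediateField

noncomputable section

namespace Fermat.Agent.CFT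

namespace RecipComposite


section GalResInj

variable (K₁ L₁ K₂ L₂ : Type) [Field K₁] [Field L₁] [Field K₂] [Field L₂]
  [Algebra K₁ L₁] [Algebra K₂ L₂] [Algebra K₁ K₂] [Algebra L₁ L₂] [Algebra K₁ L₂]
  [IsScalarTower K₁ K₂ L₂] [IsScalarTower K₁ L₁ L₂] [Normal K₁ L₁]

/-- If `L₂ = K₂ · L₁` (the image of `L₁` generates `L₂` over `K₂`), the restriction
`Gal(L₂/K₂) → Gal(L₁/K₁)` is injective. -/
theorem galRes_injective_of_adjoin
    (hgen : IntermediateField.adjoin K₂ (Set.range (algebraMap L₁ L₂)) = ⊤) :
    Function.Injective (galRes K₁ L₁ K₂ L₂) := by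
  rw [injective_iff_map_eq_one]
  intro σ hσ
  ext y
  have hy : y ∈ IntermediateField.adjoin K₂ (Set.range (algebraMap L₁ L₂)) := by
    rw [hgen]; exact IntermediateField.mem_top
  rw [AlgEquiv.one_apply]
  induction hy using IntermediateField.adjoin_induction with
  | mem y hy =>
    obtain ⟨x, rfl⟩ := hy
    have h1 := galRes_commutes (K₁ := K₁) (L₁ := L₁) (K₂ := K₂) (L₂ := L₂) σ x
    rw [hσ] at h1
    exact h1.symm
  | algebraMap r => exact σ.commutes r
  | add y z _ _ hy hz => rw [map_add, hy, hz]
  | inv y _ hy => rw [map_inv₀, hy]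
  | mul y z _ _ hy hz => rw [map_mul, hy, hz]

end GalResInj



variable (K L Z : Type) [Field K] [Field L] [Field Z] [Algebra K L]
  [NumberField K] [NumberField L] [NumberField Z] [IsGalois K L] [IsGalois ℚ Z]

/-- A chosen embedding of `Z` into the algebraic closure of `L`. -/
def zEmb : Z →ₐ[ℚ] AlgebraicClosure L := IsAlgClosed.lift

/-- The image of `L` in its algebraic closure, as an intermediate field over `K`. -/
def lRange : IntermediateField K (AlgebraicClosure L) :=
  (IsScalarTower.toAlgHom K L (AlgebraicClosure L)).fieldRange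

/-- The compositum `F = K · Z` inside the algebraic closure of `L`. -/
def compF : IntermediateField K (AlgebraicClosure L) :=
  IntermediateField.adjoin K (Set.range (zEmb L Z))

/-- The compositum `M = L · Z = L · F`. -/
def compM : IntermediateField K (AlgebraicClosure L) := lRange K L ⊔ compF K L Z

theorem zEmb_mem_compF (z : Z) : zEmb L Z z ∈ compF K L Z :=
  IntermediateField.subset_adjoin K _ ⟨z, rfl⟩

theorem compF_le_compM : compF K L Z ≤ compM K L Z := le_sup_right

theorem lRange_le_compM : lRange K L ≤ compM K L Z := le_sup_left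

theorem algebraMap_mem_lRange (x : L) : algebraMap L (AlgebraicClosure L) x ∈ lRange K L :=
  ⟨x, rfl⟩

/-! ### Normality -/

instance normal_lRange : Normal K (lRange K L) :=
  Normal.of_algEquiv (IsScalarTower.toAlgHom K L (AlgebraicClosure L)).equivFieldRange

/-- An automorphism of the algebraic closure maps the image of the normal field `Z` to itself. -/
theorem apply_zEmb_mem_range (σ : AlgebraicClosure L ≃ₐ[K] AlgebraicClosure L) (z : Z) :
    σ (zEmb L Z z) ∈ Set.range (zEmb L Z) := by
  have hsplit : ((minpoly ℚ z).map (algebraMap ℚ Z)).Splits := Normal.splits inferInstance z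
  have himg := Polynomial.Splits.image_rootSet hsplit (zEmb L Z)
  have hne : minpoly ℚ z ≠ 0 := minpoly.ne_zero (Algebra.IsIntegral.isIntegral z)
  have hroot : σ (zEmb L Z z) ∈ (minpoly ℚ z).rootSet (AlgebraicClosure L) := by
    rw [Polynomial.mem_rootSet]
    refine ⟨hne, ?_⟩
    have h1 : Polynomial.aeval (zEmb L Z z) (minpoly ℚ z) = 0 := by
      rw [Polynomial.aeval_algHom_apply, minpoly.aeval, map_zero]
    have h2 : Polynomial.aeval (σ (zEmb L Z z)) (minpoly ℚ z) =
        σ (Polynomial.aeval (zEmb L Z z) (minpoly ℚ z)) := by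
      have := Polynomial.aeval_algHom_apply
        ((σ.restrictScalars ℚ : AlgebraicClosure L ≃ₐ[ℚ] AlgebraicClosure L) :
          AlgebraicClosure L →ₐ[ℚ] AlgebraicClosure L)
        (zEmb L Z z) (minpoly ℚ z)
      exact this
    rw [h2, h1, map_zero]
  rw [← himg] at hroot
  obtain ⟨y, -, hy⟩ := hroot
  exact ⟨y, hy⟩

instance normal_compF : Normal K (compF K L Z) := by
  rw [IntermediateField.normal_iff_forall_map_le']
  intro σ
  rw [compF, IntermediateField.adjoin_map]
  apply IntermediateField.adjoin.mono
  rintro _ ⟨_, ⟨z, rfl⟩, rfl⟩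
  exact apply_zEmb_mem_range K L Z σ z

instance normal_compM : Normal K (compM K L Z) :=
  IntermediateField.normal_sup K _ (lRange K L) (compF K L Z)




/-! ### Finiteness -/

instance finiteDimensional_lRange : FiniteDimensional K (lRange K L) :=
  (IsScalarTower.toAlgHom K L (AlgebraicClosure L)).equivFieldRange.toLinearEquiv.finiteDimensional

/-- `F = K(zEmb α)` for a primitive element `α` of `Z/ℚ`. -/
theorem compF_eq_adjoin_simple {α : Z} (hα : IntermediateField.adjoin ℚ {α} = ⊤) :
    compF K L Z = IntermediateField.adjoin K {zEmb L Z α} := by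
  apply le_antisymm
  · rw [compF, IntermediateField.adjoin_le_iff]
    rintro _ ⟨z, rfl⟩
    have hz : z ∈ IntermediateField.adjoin ℚ {α} := by rw [hα]; exact IntermediateField.mem_top
    rw [SetLike.mem_coe]
    induction hz using IntermediateField.adjoin_induction with
    | mem y hy =>
      have : y = α := hy
      rw [this]
      exact IntermediateField.mem_adjoin_simple_self K _
    | algebraMap r =>
      have h1 : zEmb L Z (algebraMap ℚ Z r) = algebraMap ℚ (AlgebraicClosure L) r :=
        (zEmb L Z).commutes r
      rw [h1, IsScalarTower.algebraMap_apply ℚ K (AlgebraicClosure L)]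
      exact IntermediateField.algebraMap_mem _ _
    | add y z _ _ hy hz => rw [map_add]; exact add_mem hy hz
    | inv y _ hy => rw [map_inv₀]; exact inv_mem hy
    | mul y z _ _ hy hz => rw [map_mul]; exact mul_mem hy hz
  · rw [IntermediateField.adjoin_simple_le_iff]
    exact zEmb_mem_compF K L Z α

instance finiteDimensional_compF : FiniteDimensional K (compF K L Z) := by
  obtain ⟨α, hα⟩ := Field.exists_primitive_element ℚ Z
  rw [compF_eq_adjoin_simple K L Z hα]
  exact IntermediateField.adjoin.finiteDimensional (Algebra.IsIntegral.isIntegral _)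

instance finiteDimensional_compM : FiniteDimensional K (compM K L Z) :=
  IntermediateField.finiteDimensional_sup (lRange K L) (compF K L Z)

instance isGalois_compF : IsGalois K (compF K L Z) := ⟨⟩

instance isGalois_compM : IsGalois K (compM K L Z) := ⟨⟩

instance numberField_compF : NumberField (compF K L Z) := NumberField.of_module_finite K _

instance numberField_compM : NumberField (compM K L Z) := NumberField.of_module_finite K _




/-! ### The algebra structures `Z → F → M ← L` -/

/-- `Z → F`. -/
instance algebraZF : Algebra Z (compF K L Z) :=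
  (((zEmb L Z : Z →ₐ[ℚ] AlgebraicClosure L) : Z →+* AlgebraicClosure L).codRestrict
    (compF K L Z) (zEmb_mem_compF K L Z)).toAlgebra

theorem algebraMap_ZF_coe (z : Z) :
    ((algebraMap Z (compF K L Z) z : compF K L Z) : AlgebraicClosure L) = zEmb L Z z := by
  rw [RingHom.algebraMap_toAlgebra]
  rfl

/-- `F → M`. -/
instance algebraFM : Algebra (compF K L Z) (compM K L Z) :=
  (IntermediateField.inclusion (compF_le_compM K L Z)).toRingHom.toAlgebra

theorem algebraMap_FM_coe (x : compF K L Z) :
    ((algebraMap (compF K L Z) (compM K L Z) x : compM K L Z) : AlgebraicClosure L) =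
      (x : AlgebraicClosure L) := by
  rw [RingHom.algebraMap_toAlgebra]
  rfl

/-- `L → M`. -/
instance algebraLM : Algebra L (compM K L Z) :=
  ((algebraMap L (AlgebraicClosure L)).codRestrict (compM K L Z)
    (fun x => lRange_le_compM K L Z (algebraMap_mem_lRange K L x))).toAlgebra

theorem algebraMap_LM_coe (x : L) :
    ((algebraMap L (compM K L Z) x : compM K L Z) : AlgebraicClosure L) =
      algebraMap L (AlgebraicClosure L) x := by
  rw [RingHom.algebraMap_toAlgebra]
  rfl

instance isScalarTower_KFM : IsScalarTower K (compF K L Z) (compM K L Z) :=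
  IsScalarTower.of_algebraMap_eq fun x => Subtype.ext (by
    rw [algebraMap_FM_coe]
    rfl)

instance isScalarTower_KLM : IsScalarTower K L (compM K L Z) :=
  IsScalarTower.of_algebraMap_eq fun x => Subtype.ext (by
    rw [algebraMap_LM_coe]
    exact IsScalarTower.algebraMap_apply K L (AlgebraicClosure L) x)

/-- `F` is generated over `K` by the image of `Z`. -/
theorem adjoin_range_algebraMap_ZF :
    IntermediateField.adjoin K (Set.range (algebraMap Z (compF K L Z))) = ⊤ := by
  apply IntermediateField.map_injective (compF K L Z).val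
  rw [IntermediateField.adjoin_map, ← AlgHom.fieldRange_eq_map, IntermediateField.fieldRange_val]
  have : (compF K L Z).val '' Set.range (algebraMap Z (compF K L Z)) = Set.range (zEmb L Z) := by
    ext y
    constructor
    · rintro ⟨_, ⟨z, rfl⟩, rfl⟩
      exact ⟨z, (algebraMap_ZF_coe K L Z z).symm⟩
    · rintro ⟨z, rfl⟩
      exact ⟨algebraMap Z (compF K L Z) z, ⟨z, rfl⟩, algebraMap_ZF_coe K L Z z⟩
  rw [this]
  rfl

/-- The restriction `Gal(F/K) → Gal(Z/ℚ)` is injective (`F = K · Z`). -/
theorem galRes_injective : Function.Injective (galRes ℚ Z K (compF K L Z)) :=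
  galRes_injective_of_adjoin ℚ Z K (compF K L Z) (adjoin_range_algebraMap_ZF K L Z)

end RecipComposite

end Fermat.Agent.CFT
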