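import Fermat.Agent.CFT.Local.LayerNormFormula
import Fermat.Agent.CFT.Global.CycloReciprocityN
import Fermat.Agent.CFT.Global.CycloRecipGlobal

/-!
# Layer C / C5d-B (B2): the symbol classes of a number field `K` with a character coming from `ℚ`

`K` a number field, `Z/ℚ` a normal number field, `F ⊇ K, Z` a number field normal over `K`,
`ψ` a character of `Gal(Z/ℚ)` with values in `ℤ/n`, `χ := ψ ∘ (Gal(F/K) → Gal(Z/ℚ))`, `a ∈ Kˣ`.

* `semiLocalInvAt_galSymClass_rat`: the local invariant at `τ' : F → ℚ̄_q` of the principal class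
  `a ∪ δχ` is the local symbol over `ℚ_q` `(N_{K_v/ℚ_q} a, ψ)_q` (local norm formula
  `LayerNorm.inv_galSymClass_norm` in the Galois closure of the completion `F_τ'`, inflation and
  embedding independence of the symbols over `ℚ_q`).
* `invJAt_galSymClass_rat`: summing over the places of `K` above `q` (local-global norm formula):
  `invJAt I K q (a ∪ δχ) = (N_{K/ℚ} a, ψ)_q`.
* **`invJFun_galSymClass_rat`**: if `ψ` satisfies reciprocity over `ℚ` (`RatRecip I ψ`, e.g.
  `ratRecip_cycloN` + `RatRecip.of_infl`), then `a ∪ δχ` has finite support and idele invariant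
  zero: the input `hprod` of `RecipAssembly.invJFun_ideleH2f_eq_zero`.
-/

set_option autoImplicit false
set_option linter.unusedSectionVars false
set_option linter.style.haveILetI false

open CategoryTheory groupCohomology IntermediateField

open scoped Padic

noncomputable section

namespace Fermat.Agent.CFT

open GaloisTower LayerMaps LayerBridge

namespace RecipK

section Closure

variable {q : ℕ} [Fact q.Prime] {F : Type} [Field F]

local notation "Ω" => PadicAlgCl q

/-- A finite Galois extension of `ℚ_q` containing the completion `F_τ'`. -/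
def galClosureAt (τ' : LocalEmb q F) : IntermediateField ℚ_[q] Ω :=
  IntermediateField.normalClosure ℚ_[q] (localFieldAt τ') Ω

theorem localFieldAt_le_galClosureAt (τ' : LocalEmb q F) :
    localFieldAt τ' ≤ galClosureAt τ' :=
  IntermediateField.le_normalClosure _

instance normal_galClosureAt (τ' : LocalEmb q F) : Normal ℚ_[q] (galClosureAt τ') := by
  unfold galClosureAt
  infer_instance

instance isGalois_galClosureAt (τ' : LocalEmb q F) : IsGalois ℚ_[q] (galClosureAt τ') :=
  { to_isSeparable := inferInstance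
    to_normal := normal_galClosureAt τ' }

instance finiteDimensional_galClosureAt [NumberField F] (τ' : LocalEmb q F) :
    FiniteDimensional ℚ_[q] (galClosureAt τ') := by
  haveI := finiteDimensional_localFieldAt τ'
  unfold galClosureAt
  infer_instance

end Closure

section Indep

variable {q : ℕ} [Fact q.Prime] {Z : Type} [Field Z] [NumberField Z] [Normal ℚ Z]

/-- Embedding independence of the local symbols of a character of `Gal(Z/ℚ)`. -/
theorem symbol_absSquare_indep (J : InvFamily ℚ_[q]) (τ₁ τ₂ : LocalEmb q Z)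
    [FiniteDimensional ℚ_[q] (localFieldAt τ₁)] [IsGalois ℚ_[q] (localFieldAt τ₁)]
    [FiniteDimensional ℚ_[q] (localFieldAt τ₂)] [IsGalois ℚ_[q] (localFieldAt τ₂)]
    {n : ℕ} [NeZero n] (χ : (Z ≃ₐ[ℚ] Z) →* Multiplicative (ZMod n)) (b : ℚ_[q]ˣ) :
    J.symbol n (localFieldAt τ₂) (χ.comp (absSquare τ₂).res) b =
      J.symbol n (localFieldAt τ₁) (χ.comp (absSquare τ₁).res) b := by
  have h := symbol_absSquare_infl (E := Z) (E' := Z) J τ₁ τ₂ χ b
  rw [AlgEquiv.restrictNormalHom_id, MonoidHom.comp_id] at h
  exact h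

end Indep

section Local

variable {q : ℕ} [Fact q.Prime] (K : Type) [Field K] [NumberField K]
  {Z : Type} [Field Z] [NumberField Z] [Normal ℚ Z]
  {F : Type} [Field F] [NumberField F] [Algebra K F] [Algebra Z F] [Normal K F]
  (S : LayerInvSystem ℚ_[q] (PadicAlgCl q)) {n : ℕ} [NeZero n]

local notation "Ω" => PadicAlgCl q

theorem localFieldAt_restrict_le_galClosureAt (τ' : LocalEmb q F) :
    localFieldAt (localEmbRestrict Z τ') ≤ galClosureAt τ' :=
  (localFieldAt_restrict_le Z τ').trans (localFieldAt_le_galClosureAt τ')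

/-- The square `(ℚ, Z) → (ℚ_q, M_w)`, `M_w` the Galois closure of `F_τ'`. -/
def closureSq (τ' : LocalEmb q F) : FieldSquare ℚ Z ℚ_[q] (galClosureAt τ') :=
  (absSquare (localEmbRestrict Z τ')).comp
    (FieldSquare.ofAlgHom
      (IntermediateField.inclusion (localFieldAt_restrict_le_galClosureAt (Z := Z) τ')))

theorem squares_eq (τ' : LocalEmb q F) :
    ((FieldSquare.ofAlgebra ℚ Z K F).comp (locSquare K τ')).comp
        (inflSq (localFieldAt_restrict_le K τ') (localFieldAt_le_galClosureAt τ')) =
      (closureSq (Z := Z) τ').comp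
        (embSquare ((localFieldAt_restrict_le K τ').trans (localFieldAt_le_galClosureAt τ'))
          (galClosureAt τ').val (fun y => y.2)) := by
  apply FieldSquare.ext'
  · exact RingHom.ext_rat _ _
  · ext x
    rfl

theorem char_eq (τ' : LocalEmb q F) (ψ : (Z ≃ₐ[ℚ] Z) →* Multiplicative (ZMod n)) :
    haveI := normal_localLayer K τ'
    ((ψ.comp (galRes ℚ Z K F)).comp (locSquare K τ').res).comp
        (inflSq (localFieldAt_restrict_le K τ') (localFieldAt_le_galClosureAt τ')).res =
      (ψ.comp (closureSq (Z := Z) τ').res).comp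
        (embSquare ((localFieldAt_restrict_le K τ').trans (localFieldAt_le_galClosureAt τ'))
          (galClosureAt τ').val (fun y => y.2)).res := by
  haveI := normal_localLayer K τ'
  rw [MonoidHom.comp_assoc, MonoidHom.comp_assoc, MonoidHom.comp_assoc,
    ← FieldSquare.res_eq_galRes (FieldSquare.ofAlgebra ℚ Z K F) rfl, FieldSquare.res_comp,
    FieldSquare.res_comp, FieldSquare.res_comp, ← squares_eq K τ']
  rfl

theorem units_norm_localBaseHom (τ' : LocalEmb q F) (a : Kˣ) :
    Units.map (Algebra.norm ℚ_[q] : localFieldAt (localEmbRestrict K τ') →* ℚ_[q])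
        (Units.map (localBaseHom K τ' : K →* localFieldAt (localEmbRestrict K τ')) a) =
      CycloRecip.locNormUnit (localEmbRestrict K τ') a :=
  Units.ext rfl

/-- Step 1: inflate to the Galois closure and apply the norm formula. -/
theorem inv_galSymClass_closure (τ' : LocalEmb q F)
    (ψ : (Z ≃ₐ[ℚ] Z) →* Multiplicative (ZMod n)) (a : Kˣ) :
    S.inv (localFieldAt_restrict_le K τ')
        (galSymClass (localFieldAt (localEmbRestrict K τ')) (localLayer K τ')
          ((ψ.comp (galRes ℚ Z K F)).comp (locSquare K τ').res)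
          (Units.map (localBaseHom K τ' : K →* localFieldAt (localEmbRestrict K τ')) a)) =
      S.toInvFamily.symbol n (galClosureAt τ') (ψ.comp (closureSq (Z := Z) τ').res)
        (CycloRecip.locNormUnit (localEmbRestrict K τ') a) := by
  haveI := normal_localLayer K τ'
  haveI : Normal (localFieldAt (localEmbRestrict K τ'))
      (layer ((localFieldAt_restrict_le K τ').trans (localFieldAt_le_galClosureAt τ'))) :=
    normal_layer_of_normal _
  rw [← units_norm_localBaseHom K τ' a, ← LayerNorm.inv_galSymClass_norm S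
    ((localFieldAt_restrict_le K τ').trans (localFieldAt_le_galClosureAt τ')),
    ← char_eq K τ' ψ,
    ← S.inv_layerInfl (localFieldAt_restrict_le K τ') (localFieldAt_le_galClosureAt τ'),
    ← inflSq_map, FieldSquare.map_galSymClass]
  rfl

/-- Step 2: descend from the Galois closure to the completion of `Z`. -/
theorem symbol_closureSq (J : InvFamily ℚ_[q]) (τ' : LocalEmb q F)
    (ψ : (Z ≃ₐ[ℚ] Z) →* Multiplicative (ZMod n)) (b : ℚ_[q]ˣ) :
    haveI := finiteDimensional_localFieldAt (localEmbRestrict Z τ')
    haveI := isGalois_localFieldAt_rat (localEmbRestrict Z τ')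
    J.symbol n (galClosureAt τ') (ψ.comp (closureSq (Z := Z) τ').res) b =
      J.symbol n (localFieldAt (localEmbRestrict Z τ'))
        (ψ.comp (absSquare (localEmbRestrict Z τ')).res) b := by
  haveI := finiteDimensional_localFieldAt (localEmbRestrict Z τ')
  haveI := isGalois_localFieldAt_rat (localEmbRestrict Z τ')
  rw [← J.symbol_ofAlgHom
    (IntermediateField.inclusion (localFieldAt_restrict_le_galClosureAt (Z := Z) τ'))]
  congr 1
  rw [MonoidHom.comp_assoc, FieldSquare.res_comp]
  rfl

end Local

section Global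

variable (I : LocalInvFamily) (K : Type) [Field K] [NumberField K]
  {Z : Type} [Field Z] [NumberField Z] [Normal ℚ Z]
  {F : Type} [Field F] [NumberField F] [Algebra K F] [Algebra Z F] [Normal K F]
  {n : ℕ} [NeZero n]

/-- The local invariant at `τ'` of the symbol class `a ∪ δ(ψ|_{Gal(F/K)})`, `ψ` a character of
`Gal(Z/ℚ)`, `Z ⊆ F`: it is the local symbol over `ℚ_q` of the local norm of `a`. -/
theorem semiLocalInvAt_galSymClass_rat (hF : PrincipalIsIdele F) (q : Nat.Primes)
    (τ' : LocalEmb ((q : Nat.Primes) : ℕ) F) (ψ : (Z ≃ₐ[ℚ] Z) →* Multiplicative (ZMod n))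
    (a : Kˣ) :
    semiLocalInvAt I K q τ'
        ((groupCohomology.map (MonoidHom.id (F ≃ₐ[K] F)) (ideleProjHom K q) 2).hom
          ((ideleH2f K hF).hom (galSymClass K F (ψ.comp (galRes ℚ Z K F)) a))) =
      ratLocalSymbol I ψ q (CycloRecip.locNormUnit (localEmbRestrict K τ') a) := by
  haveI := finiteDimensional_localFieldAt (localEmbRestrict Z τ')
  haveI := isGalois_localFieldAt_rat (localEmbRestrict Z τ')
  haveI := finiteDimensional_localFieldAt (ratEmb Z q)
  haveI := isGalois_localFieldAt_rat (ratEmb Z q)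
  rw [semiLocalInvAt_galSymClass, inv_galSymClass_closure, symbol_closureSq]
  exact symbol_absSquare_indep _ _ _ ψ _

/-- The `q`-component of the idele invariant of `a ∪ δ(ψ|_{Gal(F/K)})`. -/
theorem invJAt_galSymClass_rat (hF : PrincipalIsIdele F) (q : Nat.Primes)
    (ψ : (Z ≃ₐ[ℚ] Z) →* Multiplicative (ZMod n)) (a : Kˣ) :
    invJAt I K q ((ideleH2f K hF).hom (galSymClass K F (ψ.comp (galRes ℚ Z K F)) a)) =
      ratLocalSymbol I ψ q (CycloRecip.ratUnit q (CycloRecip.normUnit K a)) := by
  haveI := Fintype.ofFinite (LocalPlace ((q : Nat.Primes) : ℕ) K)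
  have h1 : invJAt I K q ((ideleH2f K hF).hom (galSymClass K F (ψ.comp (galRes ℚ Z K F)) a)) =
      ∑ᶠ ω : LocalPlace ((q : Nat.Primes) : ℕ) K, semiLocalInvAt I K q (placeLift K ω)
        ((groupCohomology.map (MonoidHom.id (F ≃ₐ[K] F)) (ideleProjHom K q) 2).hom
          ((ideleH2f K hF).hom (galSymClass K F (ψ.comp (galRes ℚ Z K F)) a))) := rfl
  rw [h1, finsum_eq_sum_of_fintype, ← CycloRecip.prod_locNormUnit_eq,
    CycloRecip.s_prod (s := ratLocalSymbol I ψ) (fun q a b => ratLocalSymbol_mul I ψ q a b)]
  refine Finset.sum_congr rfl fun ω _ => ?_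
  rw [semiLocalInvAt_galSymClass_rat, localEmbRestrict_placeLift]

/-- **(B2) Reciprocity for symbol classes over a number field `K` with a character coming from
`ℚ`**: if the character `ψ` of `Gal(Z/ℚ)` satisfies reciprocity over `ℚ`, then for every number
field `K`, every `F ⊇ K, Z` normal over `K` and every `a ∈ Kˣ` the class
`a ∪ δ(ψ|_{Gal(F/K)})` has finite support and idele invariant zero. -/
theorem invJFun_galSymClass_rat (hF : PrincipalIsIdele F)
    {ψ : (Z ≃ₐ[ℚ] Z) →* Multiplicative (ZMod n)} (hψ : RatRecip I ψ) (a : Kˣ) :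
    HasFiniteInvSupport I K
        ((ideleH2f K hF).hom (galSymClass K F (ψ.comp (galRes ℚ Z K F)) a)) ∧
      invJFun I K ((ideleH2f K hF).hom (galSymClass K F (ψ.comp (galRes ℚ Z K F)) a)) = 0 := by
  have hfun : (fun q : Nat.Primes => invJAt I K q
        ((ideleH2f K hF).hom (galSymClass K F (ψ.comp (galRes ℚ Z K F)) a))) =
      fun q : Nat.Primes =>
        ratLocalSymbol I ψ q (CycloRecip.ratUnit q (CycloRecip.normUnit K a)) :=
    funext fun q => invJAt_galSymClass_rat I K hF q ψ a
  constructor
  · unfold HasFiniteInvSupport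
    rw [hfun]
    exact (hψ _).1
  · unfold Fermat.Agent.CFT.invJFun
    rw [hfun]
    exact (hψ _).2

end Global

end RecipK

end Fermat.Agent.CFT

end
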