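import Fermat.Agent.CFT.Global.RecipFieldCyclo
import Fermat.Agent.CFT.Global.RecipComposite
import Fermat.Agent.CFT.Global.RecipSymbolK
import Fermat.Agent.CFT.Local.SymClassModulus

/-!
# Layer C / C5d-B: the field-side data of the reciprocity law, packaged (helper16)

* `ratRecip_of_cyclo`: `RatRecip I ψ̄` for the character `ψ̄` of `Z ⊆ ℚ(ζ_N)` produced by
  `RecipField.exists_cyclic_subfield` (from `ratRecip_cycloN` + `RatRecip.of_infl`);
* `isCyclotomicExtension_cyclotomicField_rat`: `CyclotomicField N ℚ` is cyclotomic over `ℚ` for the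
  canonical `ℚ`-algebra structure;
* **`exists_field_data`** (continuation form): for number fields `K ⊆ L` Galois, `p` odd, `m`, and a
  finite set `Q` of primes: a number field `Z` Galois over `ℚ` and a character `ψ` of `Gal(Z/ℚ)`
  with `RatRecip I ψ`, `ψ ∘ galRes ℚ Z K (compF K L Z)` injective, and `p ^ m ∣` all local degrees
  of `compF K L Z / K` above the primes in `Q` — the inputs of the final assembly of reciprocity for
  classes of `p`-power order.
-/

set_option autoImplicit false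
set_option linter.unusedSectionVars false
set_option linter.style.haveILetI false

open scoped Padic

noncomputable section

namespace Fermat.Agent.CFT

namespace RecipPlug

/-- Reciprocity over `ℚ` for the faithful character of the cyclic field `Z ⊆ ℚ(ζ_N)` produced by
`RecipField.exists_cyclic_subfield`. -/
theorem ratRecip_of_cyclo (I : LocalInvFamily)
    (hI : ∀ q : Nat.Primes, (I q).IsUnramNormalized ℤ_[((q : Nat.Primes) : ℕ)])
    {n : ℕ} [NeZero n] (hodd : Odd n) (L : Finset ℕ) (hL : ∀ ℓ ∈ L, ℓ.Prime)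
    [NeZero (∏ ℓ ∈ L, ℓ)] (χ : ∀ ℓ : L, (ZMod (ℓ : ℕ))ˣ →* Multiplicative (ZMod n))
    {M : Type} [Field M] [NumberField M] [IsCyclotomicExtension {∏ ℓ ∈ L, ℓ} ℚ M]
    (Z : IntermediateField ℚ M) [IsGalois ℚ Z]
    (ψb : (Z ≃ₐ[ℚ] Z) →* Multiplicative (ZMod n))
    (hψ : ∀ σ : M ≃ₐ[ℚ] M, ψb (σ.restrictNormal Z) =
      ∏ ℓ : L, χ ℓ (ZMod.unitsMap (Finset.dvd_prod_of_mem (fun ℓ => ℓ) ℓ.2)
        (IsCyclotomicExtension.Rat.galEquivZMod (∏ ℓ ∈ L, ℓ) M σ))) :
    RatRecip I ψb := by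
  haveI : IsGalois ℚ M := IsCyclotomicExtension.isGalois {∏ ℓ ∈ L, ℓ} ℚ M
  haveI : NumberField Z := NumberField.of_intermediateField Z
  have h1 : RatRecip I (ψb.comp (AlgEquiv.restrictNormalHom Z)) :=
    ratRecip_cycloN I hI L hL χ hodd (ψb.comp (AlgEquiv.restrictNormalHom Z)) hψ
  exact RatRecip.of_infl I rfl h1

end RecipPlug

end Fermat.Agent.CFT

namespace Fermat.Agent.CFT

namespace RecipPlug

open RecipComposite

/-- `CyclotomicField N ℚ` is a cyclotomic extension of `ℚ` for the canonical `ℚ`-algebra structure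
(`DivisionRing.toRatAlgebra`). -/
theorem isCyclotomicExtension_cyclotomicField_rat (N : ℕ) [NeZero N] :
    IsCyclotomicExtension {N} ℚ (CyclotomicField N ℚ) := by
  haveI : NeZero ((N : ℕ) : ℚ) := ⟨by exact_mod_cast NeZero.ne N⟩
  have h1 : @IsCyclotomicExtension {N} ℚ (CyclotomicField N ℚ) _ _ (CyclotomicField.algebra N ℚ) :=
    inferInstance
  have e : (DivisionRing.toRatAlgebra : Algebra ℚ (CyclotomicField N ℚ)) =
      CyclotomicField.algebra N ℚ := Subsingleton.elim _ _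
  have h2 : @IsCyclotomicExtension {N} ℚ (CyclotomicField N ℚ) _ _ DivisionRing.toRatAlgebra := by
    rw [e]
    exact h1
  exact h2

/-- **Field-side data for the reciprocity law (C5d-B), continuation form.**  For number fields
`K ⊆ L` (`L/K` Galois), an odd prime `p`, `m` and a finite set `Q` of primes there are a number
field `Z`, Galois over `ℚ`, and a character `ψ` of `Gal(Z/ℚ)` with values in some `ℤ/n` such that
`ψ` satisfies reciprocity over `ℚ`, `ψ ∘ (Gal(K·Z/K) → Gal(Z/ℚ))` is injective, and `p ^ m` divides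
all the local degrees of `K·Z/K` above the primes of `Q`. -/
theorem exists_field_data {P : Prop} (K L : Type) [Field K] [Field L] [Algebra K L]
    [NumberField K] [NumberField L] [IsGalois K L] (I : LocalInvFamily)
    (hI : ∀ q : Nat.Primes, (I q).IsUnramNormalized ℤ_[((q : Nat.Primes) : ℕ)])
    (p : ℕ) (hp : p.Prime) (hp2 : p ≠ 2) (m : ℕ) (Q : Finset ℕ) (hQ : ∀ q ∈ Q, q.Prime)
    (cont : ∀ (Z : Type) [Field Z] [NumberField Z] [IsGalois ℚ Z] (n : ℕ) [NeZero n]
      (ψ : (Z ≃ₐ[ℚ] Z) →* Multiplicative (ZMod n)),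
      RatRecip I ψ → Function.Injective (ψ.comp (galRes ℚ Z K (compF K L Z))) →
      (∀ (q : ℕ) [Fact q.Prime], q ∈ Q → ∀ τ : LocalEmb q (compF K L Z),
        p ^ m ∣ localDegree K (compF K L Z) τ) → P) : P := by
  -- `v` with `[K : ℚ] < p ^ (v + 1)`
  set v := Module.finrank ℚ K with hv
  have hKv : Module.finrank ℚ K < p ^ (v + 1) :=
    lt_of_lt_of_le (Nat.lt_pow_self hp.one_lt) (Nat.pow_le_pow_right hp.pos (Nat.le_succ v))
  obtain ⟨L₀, k, χ, hL₀, hM⟩ := RecipField.exists_cyclic_subfield p hp hp2 Q hQ (m + v)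
  have hN0 : (∏ ℓ ∈ L₀, ℓ) ≠ 0 := Finset.prod_ne_zero_iff.2 fun ℓ hℓ => (hL₀ ℓ hℓ).1.ne_zero
  haveI : NeZero (∏ ℓ ∈ L₀, ℓ) := ⟨hN0⟩
  haveI := isCyclotomicExtension_cyclotomicField_rat (∏ ℓ ∈ L₀, ℓ)
  obtain ⟨Z, hZgal, ψb, hinj, hψ, hdeg⟩ := hM (CyclotomicField (∏ ℓ ∈ L₀, ℓ) ℚ)
  haveI : NumberField Z := NumberField.of_intermediateField Z
  haveI : NeZero (p ^ k) := ⟨pow_ne_zero _ hp.ne_zero⟩
  have hodd : Odd (p ^ k) := (hp.odd_of_ne_two hp2).pow
  refine cont Z (p ^ k) ψb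
    (ratRecip_of_cyclo I hI hodd L₀ (fun ℓ hℓ => (hL₀ ℓ hℓ).1) χ Z ψb hψ) ?_ ?_
  · exact hinj.comp (RecipComposite.galRes_injective K L Z)
  · intro q _ hq τ
    have h1 := RecipField.pow_dvd_localDegree K Z hp τ (hdeg q hq (localEmbRestrict Z τ)) hKv
    rwa [Nat.add_sub_cancel] at h1

end RecipPlug

end Fermat.Agent.CFT
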