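import Fermat.Agent.CFT.Global.RecipAssemblyP
import Fermat.Agent.CFT.Global.RecipSymbolK
import Fermat.Agent.CFT.Global.GlobalInvFunctCor
import Fermat.Agent.CFT.Global.GlobalInvFunctPlace
import Fermat.Agent.CFT.Global.GlobalInvSupport
import Fermat.Agent.CFT.Global.ClassFormationFinal
import Fermat.Agent.CFT.Global.UnramAlmostAll
import Fermat.Agent.CFT.Global.IdeleDict.DictAdapters
import Fermat.Agent.CFT.Local.SymClassModulus
import Fermat.Agent.CFT.Global.RecipFieldData
import Fermat.Agent.CFT.Global.PadicIdeleInvSystem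
import Fermat.Agent.CFT.Global.CycloReciprocityPadic

/-!
# Layer C / C5d: the reciprocity law for classes of `p`-power order (final assembly)

* `RecipFinal.invJFun_ideleH2f_eq_zero_of_rat`: Type-level assembly over abstract auxiliary fields
  `K ⊆ F ⊆ M ⊇ L`, `Z ⊆ F` (`Z/ℚ` normal with a character `ψ` satisfying reciprocity over `ℚ`,
  `ψ ∘ (Gal(F/K) → Gal(Z/ℚ))` injective, `p^m` dividing the local degrees of `F/K` at the primes
  where `u` has a non-trivial component): `invJ (u) = 0` for `p^m • u = 0`.  Inputs: helper6/7's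
  `RecipAssemblyP`, `RecipK.invJFun_galSymClass_rat` (hprod), helper11's base change (T34) and
  place-wise base change (hvanish), helper3's `H¹(C)[p^∞] = 0`, helper8's `hU2`, helper16's exact
  modulus.
* **`RecipFinal.invJFun_ideleH2f_eq_zero_of_pPrimary`**: for every Galois extension `L/K` of number
  fields, `p` odd, `u ∈ H²(Gal(L/K), Lˣ)` of `p`-power order: `invJFun I K (f u) = 0`
  (with helper16's `RecipPlug.exists_field_data`), for every family `I` of local invariant systems
  which is normalised on unramified layers and conjugation invariant.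
* `RecipFinal.invJFun_layerH2f_eq_zero`, `invJFun_padic_layerH2f_eq_zero`: the layer form
  (= `hrecip` of `padicIdeleInvSystem`), and `padicIdeleInvSystemOfOdd Ω p hp2 : IdeleInvSystem p ℚ Ω`
  (unconditional).
-/

set_option autoImplicit false
set_option linter.unusedSectionVars false
set_option linter.style.haveILetI false

open CategoryTheory groupCohomology

open scoped Padic

noncomputable section

namespace Fermat.Agent.CFT

namespace RecipFinal

/-- The restriction `Gal(F/K) → Gal(Z/k)` is injective if `F` is generated over `K` by the image of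
`Z`. -/
theorem galRes_injective_of_adjoin_eq_top (k Z K F : Type) [Field k] [Field Z] [Field K] [Field F]
    [Algebra k Z] [Algebra K F] [Algebra k K] [Algebra Z F] [Algebra k F]
    [IsScalarTower k K F] [IsScalarTower k Z F] [Normal k Z]
    (htop : IntermediateField.adjoin K (Set.range (algebraMap Z F)) = ⊤) :
    Function.Injective (galRes k Z K F) := by
  intro σ τ h
  ext x
  have hx : x ∈ IntermediateField.adjoin K (Set.range (algebraMap Z F)) := by
    rw [htop]; trivial
  induction hx using IntermediateField.adjoin_induction with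
  | mem x hx =>
    obtain ⟨z, rfl⟩ := hx
    rw [← galRes_commutes (K₁ := k) σ z, ← galRes_commutes (K₁ := k) τ z, h]
  | algebraMap x => rw [σ.commutes, τ.commutes]
  | add x y _ _ hx hy => rw [map_add, map_add, hx, hy]
  | inv x _ hx => rw [map_inv₀, map_inv₀, hx]
  | mul x y _ _ hx hy => rw [map_mul, map_mul, hx, hy]

/-- **Reciprocity for classes of `p`-power order, hypothesis form over an auxiliary extension.** -/
theorem invJFun_ideleH2f_eq_zero_of_rat
    (I : LocalInvFamily) (hIc : ∀ q, (I q).IsConjInvariant)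
    (p : ℕ) [hp : Fact p.Prime] (hp2 : p ≠ 2)
    (K F L M : Type) [Field K] [Field F] [Field L] [Field M]
    [Algebra K F] [Algebra K L] [Algebra K M] [Algebra F M] [Algebra L M]
    [IsScalarTower K F M] [IsScalarTower K L M] [IsGalois K F] [FiniteDimensional K F]
    [Normal K L] [IsGalois K M] [FiniteDimensional K M]
    [NumberField K] [NumberField F] [NumberField L] [NumberField M]
    (Z : Type) [Field Z] [NumberField Z] [Normal ℚ Z] [Algebra Z F]
    {N : ℕ} [NeZero N] (ψ : (Z ≃ₐ[ℚ] Z) →* Multiplicative (ZMod N)) (hψ : RatRecip I ψ)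
    (hinj : Function.Injective (ψ.comp (galRes ℚ Z K F)))
    (hL : PrincipalIsIdele L)
    (u : groupCohomology (Rep.ofAlgebraAutOnUnits K L) 2) (m : ℕ) (hu : p ^ m • u = 0)
    (hloc : ∀ q : Nat.Primes,
      (groupCohomology.map (MonoidHom.id (L ≃ₐ[K] L)) (ideleProjHom K (L := L) q) 2).hom
          ((ideleH2f K hL).hom u) = 0 ∨
        ∀ τ : LocalEmb ((q : Nat.Primes) : ℕ) F, p ^ m ∣ localDegree K F τ) :
    invJFun I K ((ideleH2f K hL).hom u) = 0 := by
  haveI : Normal F M := Normal.tower_top_of_normal K F M
  haveI : FiniteDimensional F M := FiniteDimensional.right K F M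
  haveI : IsGalois F M := IsGalois.tower_top_of_isGalois K F M
  haveI : FiniteDimensional K L := FiniteDimensional.left K L M
  have hF := IdeleDict.principalIsIdele F
  have hM := IdeleDict.principalIsIdele M
  obtain ⟨n, hn, χ', hdeg, hχ', hsym⟩ :=
    SymModulus.exists_galChar_exact K F (ψ.comp (galRes ℚ Z K F)) hinj
  refine invJFun_ideleH2f_eq_zero_of_pow_nsmul I K F L M hp.out hF hL hM
    (IdeleDict.principalIdele_injective' M) ?_ ?_ χ' hχ' hdeg ?_ ?_ ?_ u ⟨m, hu⟩ ?_
  · intro w
    rw [invJFun_ideleGalMap I K F K M hIc w (hasFiniteInvSupport_of_finite I K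
      (eventually_semiLocalIntegral_h2TrivialOn K F) w), Module.finrank_self, one_smul]
  · intro z
    rw [invJFun_ideleGalMap I K L K M hIc z (hasFiniteInvSupport_of_finite I K
      (eventually_semiLocalIntegral_h2TrivialOn K L) z), Module.finrank_self, one_smul]
  · intro a
    rw [hsym a]
    exact (RecipK.invJFun_galSymClass_rat I K hF hψ a).2
  · intro c hc
    have h1 := pPowerTorsion_H1_ideleClass_eq_bot_of_ne_two p hp2 F M
    have h2 : c ∈ pPowerTorsion (groupCohomology (ideleClassRep M (M ≃ₐ[F] M)) 1) p := hc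
    rw [h1] at h2
    exact h2
  · exact eventually_semiLocalIntegral_h2TrivialOn F M
  · intro q ω
    refine semiLocalInvAt_proj_ideleGalMap_eq_zero I K L F M ((ideleH2f K hL).hom u) ?_ hloc q _
    rw [← map_nsmul, hu, map_zero]

open RecipComposite in
/-- **C5d, the reciprocity law for classes of `p`-power order** (`p` odd): for a Galois extension
`L/K` of number fields and `u ∈ H²(Gal(L/K), Lˣ)` of `p`-power order, the idele invariant of the
image of `u` in `H²(Gal(L/K), J_L)` vanishes. -/
theorem invJFun_ideleH2f_eq_zero_of_pPrimary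
    (I : LocalInvFamily)
    (hI : ∀ q : Nat.Primes, (I q).IsUnramNormalized ℤ_[((q : Nat.Primes) : ℕ)])
    (hIc : ∀ q, (I q).IsConjInvariant)
    (p : ℕ) [hp : Fact p.Prime] (hp2 : p ≠ 2)
    (K L : Type) [Field K] [Field L] [Algebra K L] [NumberField K] [NumberField L] [IsGalois K L]
    (hL : PrincipalIsIdele L)
    (u : groupCohomology (Rep.ofAlgebraAutOnUnits K L) 2) (hu : ∃ m : ℕ, p ^ m • u = 0) :
    invJFun I K ((ideleH2f K hL).hom u) = 0 := by
  obtain ⟨m, hm⟩ := hu
  haveI : FiniteDimensional K L := Module.Finite.of_restrictScalars_finite ℚ K L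
  have hev := eventually_map_ideleProjHom_eq_zero K
    (eventually_semiLocalIntegral_h2TrivialOn K L) ((ideleH2f K hL).hom u)
  rw [Filter.eventually_cofinite] at hev
  set Q : Finset ℕ := hev.toFinset.image (fun q : Nat.Primes => (q : ℕ)) with hQdef
  have hQ : ∀ q ∈ Q, q.Prime := by
    intro q hq
    rw [hQdef, Finset.mem_image] at hq
    obtain ⟨q', -, rfl⟩ := hq
    exact q'.2
  refine RecipPlug.exists_field_data K L I hI p hp.out hp2 m Q hQ ?_
  intro Z _ _ _ n _ ψ hψ hinj hdeg
  refine invJFun_ideleH2f_eq_zero_of_rat I hIc p hp2 K (compF K L Z) L (compM K L Z) Z ψ hψ hinj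
    hL u m hm ?_
  intro q
  by_cases h0 : (groupCohomology.map (MonoidHom.id (L ≃ₐ[K] L)) (ideleProjHom K (L := L) q) 2).hom
      ((ideleH2f K hL).hom u) = 0
  · exact Or.inl h0
  · right
    haveI : Fact ((q : ℕ)).Prime := ⟨q.2⟩
    refine hdeg (q : ℕ) ?_
    rw [hQdef, Finset.mem_image]
    exact ⟨q, by rw [Set.Finite.mem_toFinset]; exact h0, rfl⟩

section Layer

open GaloisTower LayerMaps

variable {Ω : Type} [Field Ω] [Algebra ℚ Ω] {E E' : IntermediateField ℚ Ω}

/-- **The `p`-primary reciprocity law in the layer model** (the hypothesis `hrecip` of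
`ideleInvSystemOf`), for a family of local invariant systems which is normalised on unramified
layers and conjugation invariant. -/
theorem invJFun_layerH2f_eq_zero (I : LocalInvFamily)
    (hI : ∀ q : Nat.Primes, (I q).IsUnramNormalized ℤ_[((q : Nat.Primes) : ℕ)])
    (hIc : ∀ q, (I q).IsConjInvariant)
    (p : ℕ) [hp : Fact p.Prime] (hp2 : p ≠ 2)
    (h : E ≤ E') [FiniteDimensional ℚ E'] [NumberField E] [NumberField (layer h)]
    [Normal E (layer h)] (hP : PrincipalIsIdele (layer h))
    (u : groupCohomology (Rep.ofAlgebraAutOnUnits E (layer h)) 2)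
    (hu : ∃ n : ℕ, p ^ n • u = 0) :
    invJFun I E ((layerH2f h hP).hom u) = 0 := by
  haveI : IsGalois E (layer h) :=
    { to_isSeparable := inferInstance
      to_normal := inferInstance }
  exact invJFun_ideleH2f_eq_zero_of_pPrimary I hI hIc p hp2 E (layer h) hP u hu

/-- The `p`-primary reciprocity law for the invariants of local class field theory. -/
theorem invJFun_padic_layerH2f_eq_zero (p : ℕ) [hp : Fact p.Prime] (hp2 : p ≠ 2)
    (h : E ≤ E') [FiniteDimensional ℚ E'] [NumberField E] [NumberField (layer h)]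
    [Normal E (layer h)] (hP : PrincipalIsIdele (layer h))
    (u : groupCohomology (Rep.ofAlgebraAutOnUnits E (layer h)) 2)
    (hu : ∃ n : ℕ, p ^ n • u = 0) :
    invJFun padicLocalInvFamily E ((layerH2f h hP).hom u) = 0 :=
  invJFun_layerH2f_eq_zero padicLocalInvFamily padicLocalInvFamily_isUnramNormalized
    padicLocalInvFamily_isConjInvariant p hp2 h hP u hu

/-- **The idelic invariant system of `Ω/ℚ` for the invariants of local class field theory**,
unconditional (`p` odd). -/
noncomputable def padicIdeleInvSystemOfOdd (Ω : Type) [Field Ω] [Algebra ℚ Ω] (p : ℕ)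
    [hp : Fact p.Prime] (hp2 : p ≠ 2) : IdeleInvSystem p ℚ Ω :=
  padicIdeleInvSystem p (fun h _ _ _ _ hP u hu => invJFun_padic_layerH2f_eq_zero p hp2 h hP u hu)

end Layer

end RecipFinal

end Fermat.Agent.CFT

end
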