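import Fermat.Agent.CFT.Global.SModulesFull
import Fermat.Agent.CFT.Global.PlaceEmb
import Fermat.Agent.CFT.Global.IdeleTower
import Fermat.Agent.CFT.Global.IdeleDict.DictTorsion
import Fermat.Agent.CFT.PT.JSH1

/-!
# Layer C/D: (T2)/(T3) — the cokernel of `C_S → C_S'` is prime-to-`p` torsion (`p ∈ S`)

* generic criterion `mk_pow_mem_range_csToCsFull`: if `y` is a smooth idele, `b` a smooth element of
  `Kˣ` with `y_q ^ m / b` integral for all `q ∉ S`, then the class of `y ^ m` in `C_S'` comes from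
  `C_S`;
* arithmetic core `exists_smooth_root_norm_eq` (`G = G_ℚ`, `K = ℚ̄`, `L = globalLevel S`, `p ∈ S`):
  for every smooth idele `y` there are `m` prime to `p` and `b ∈ ℚ_Sˣ` with
  `‖y_q τ‖ ^ m = ‖τ b‖` for all `q`, `τ` (finiteness of the class group of a level field `F`, and
  Kummer theory: the `p^k`-th root of the generator of `𝔞^{p^k m}` lies in `ℚ_S`);
* **(T2)** `exists_pow_mem_range_csToCsFull`, **(T3)** `exists_nsmul_mem_range_csToCsFullHom`.
-/

set_option autoImplicit false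
set_option linter.style.haveILetI false
set_option linter.unusedSectionVars false

open CategoryTheory

noncomputable section

namespace Fermat.Agent.CFT

section Generic

variable {G : Type} [Group G] (L : LevelStructure G) (K : Type) [Field K]
  [MulSemiringAction G K] (S : Set Nat.Primes)

/-- Restriction of a family of semi-local units to the primes in `S`. -/
def restrictS : IdeleProd K →* SIdeleProd K S where
  toFun x q := x q.1
  map_one' := rfl
  map_mul' _ _ := rfl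

variable {K S}

@[simp]
theorem restrictS_apply (x : IdeleProd K) (q : S) : restrictS K S x q = x q.1 := rfl

theorem smul_restrictS (σ : G) (x : ideleGroup K) :
    σ • restrictS K S (x : IdeleProd K) = restrictS K S ((σ • x : ideleGroup K) : IdeleProd K) :=
  rfl

theorem restrictS_mem_JS {y : ideleGroup K} (hy : y ∈ JFull L K) :
    restrictS K S (y : IdeleProd K) ∈ JS L K S := by
  obtain ⟨N, hN, hfix⟩ := hy
  exact ⟨N, hN, fun g hg => by rw [smul_restrictS, hfix g hg]⟩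

/-- **Criterion**: if `y_q ^ m / b` is integral for all `q ∉ S`, with `y` a smooth idele and `b` a
smooth element, then the class of `y ^ m` in `C_S'` comes from `C_S`. -/
theorem mk_pow_mem_range_csToCsFull (hS : S.Finite) {y : ideleGroup K} (hy : y ∈ JFull L K)
    (m : ℕ) {b : Kˣ} (hb : b ∈ smoothUnits L K)
    (hint : ∀ q : Nat.Primes, q ∉ S →
      ((y : IdeleProd K) q) ^ m / semiLocalDiag b ∈ semiLocalIntegral (q : ℕ) K) :
    (⟨QuotientGroup.mk y, ⟨y, hy, rfl⟩⟩ : CSFull L K S) ^ m ∈ (csToCsFull L K S hS).range := by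
  classical
  set x : JS L K S := ⟨restrictS K S (y : IdeleProd K) ^ m / sDiag K S b,
    div_mem (pow_mem (restrictS_mem_JS L hy) m) (sDiag_mem_JS hb)⟩ with hx
  refine ⟨QuotientGroup.mk x, ?_⟩
  rw [csToCsFull_mk]
  apply Subtype.ext
  show (QuotientGroup.mk (extendIdele K S hS x.1) : ideleClassS K S) = (QuotientGroup.mk y) ^ m
  rw [← QuotientGroup.mk_pow, QuotientGroup.eq]
  show ((extendIdele K S hS x.1)⁻¹ * y ^ m : ideleGroup K).1 ∈
    (principalIdele K).range ⊔ unitIdelesOutside K S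
  refine Subgroup.mem_sup.2 ⟨principalIdele K b, ⟨b, rfl⟩,
    fun q => if q ∈ S then 1 else ((y : IdeleProd K) q) ^ m / semiLocalDiag b,
    ⟨fun q hq => ?_, fun q hq => ?_⟩, ?_⟩
  · simp only [if_neg hq]
    exact hint q hq
  · simp only [if_pos hq]
  · funext q
    have hcoe : ((extendIdele K S hS x.1)⁻¹ * y ^ m : ideleGroup K).1 q =
        (extendByOne K S x.1 q)⁻¹ * ((y : IdeleProd K) q) ^ m := rfl
    rw [hcoe, Pi.mul_apply, principalIdele_apply]
    by_cases hq : q ∈ S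
    · rw [extendByOne_of_mem _ hq]
      simp only [if_pos hq, mul_one]
      have hxq : x.1 ⟨q, hq⟩ = ((y : IdeleProd K) q) ^ m / semiLocalDiag b := rfl
      rw [hxq, inv_div, div_mul_cancel]
    · rw [extendByOne_of_notMem _ hq]
      simp only [if_neg hq, inv_one, one_mul]
      rw [mul_div_cancel]

end Generic

section Arithmetic

local notation "Qb" => AlgebraicClosure ℚ
local notation "GQ" => (AlgebraicClosure ℚ ≃ₐ[ℚ] AlgebraicClosure ℚ)

open Fermat.Agent.CFT.GaloisTower Fermat.Agent.CFT.PT IntermediateField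

variable {S : Finset Nat.Primes} {p : ℕ}

/-- **Arithmetic core**: for a smooth idele `y` of `ℚ̄` (level structure `globalLevel S`, `p ∈ S`)
there are `m` prime to `p` and `b ∈ ℚ_Sˣ` such that `‖y_q τ‖ ^ m = ‖τ b‖` for all `q` and `τ`. -/
theorem exists_smooth_root_norm_eq (hp : p.Prime) (hpS : ∀ q : Nat.Primes, q ∉ S → (q : ℕ) ≠ p)
    {y : ideleGroup Qb} (hy : y ∈ JFull (Fermat.Agent.S55.globalLevel S) Qb) :
    ∃ m : ℕ, ¬ p ∣ m ∧ ∃ b : Qbˣ, (b : Qb) ∈ QS S ∧
      ∀ (q : Nat.Primes) (τ : LocalEmb (q : ℕ) Qb),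
        ‖((((y : IdeleProd Qb) q : semiLocalUnits (q : ℕ) Qb) :
          LocalEmb (q : ℕ) Qb → (PadicAlgCl (q : ℕ))ˣ) τ : PadicAlgCl (q : ℕ))‖ ^ m =
          ‖τ (b : Qb)‖ := by
  haveI : IsGalois ℚ Qb := Fermat.Agent.S54.FrobExists.isGalois_rat_algebraicClosure
  obtain ⟨N, ⟨F, hgal, hF, rfl⟩, hfix⟩ := hy
  have hle : (⊥ : IntermediateField ℚ Qb) ≤ F := bot_le
  haveI : FiniteDimensional ℚ F := hF.1
  haveI : NumberField (⊥ : IntermediateField ℚ Qb) := numberField_intermediateField ⊥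
  haveI : FiniteDimensional (⊥ : IntermediateField ℚ Qb) (layer hle) := finiteDimensional_layer hle
  haveI : NumberField (layer hle) :=
    NumberField.of_module_finite (⊥ : IntermediateField ℚ Qb) (layer hle)
  obtain ⟨y₀, hy₀⟩ := (mem_range_ideleIncl_iff hle y).2 hfix
  obtain ⟨h, hpos, a, ha⟩ := IdeleDict.exists_norm_pow_eq_norm_emb y₀.2
  obtain ⟨k, m, hm, rfl⟩ := Nat.exists_eq_pow_mul_and_not_dvd hpos.ne' p hp.ne_one
  -- the components of `y`
  have hcomp : ∀ (q : Nat.Primes) (τ : LocalEmb (q : ℕ) Qb),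
      (((y : IdeleProd Qb) q : semiLocalUnits (q : ℕ) Qb) :
        LocalEmb (q : ℕ) Qb → (PadicAlgCl (q : ℕ))ˣ) τ =
      ((((y₀ : IdeleProd (layer hle)) q : semiLocalUnits (q : ℕ) (layer hle)) :
        LocalEmb (q : ℕ) (layer hle) → (PadicAlgCl (q : ℕ))ˣ)
          (τ.comp (algebraMap (layer hle) Qb))) := by
    intro q τ
    rw [← hy₀]
    rfl
  set a' : Qb := algebraMap (layer hle) Qb (a : layer hle) with ha'
  have ha'F : a' ∈ F := (a : layer hle).2
  have ha'0 : a' ≠ 0 := (map_ne_zero _).2 a.ne_zero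
  have hpk : 0 < p ^ k := pow_pos hp.pos k
  obtain ⟨b, hb⟩ := IsAlgClosed.exists_pow_nat_eq a' hpk
  have hb0 : b ≠ 0 := by
    rintro rfl
    rw [zero_pow hpk.ne'] at hb
    exact ha'0 hb.symm
  -- the norms of `b`
  have hnorm : ∀ (q : Nat.Primes) (τ : LocalEmb (q : ℕ) Qb),
      ‖((((y : IdeleProd Qb) q : semiLocalUnits (q : ℕ) Qb) :
        LocalEmb (q : ℕ) Qb → (PadicAlgCl (q : ℕ))ˣ) τ : PadicAlgCl (q : ℕ))‖ ^ m = ‖τ b‖ := by
    intro q τ
    have h1 := ha q (τ.comp (algebraMap (layer hle) Qb))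
    rw [← hcomp q τ] at h1
    have h2 : ‖τ b‖ ^ p ^ k = ‖τ a'‖ := by rw [← norm_pow, ← map_pow, hb]
    have h3 : (‖((((y : IdeleProd Qb) q :
        semiLocalUnits (q : ℕ) Qb) : LocalEmb (q : ℕ) Qb → (PadicAlgCl (q : ℕ))ˣ) τ :
          PadicAlgCl (q : ℕ))‖ ^ m) ^ p ^ k = ‖τ b‖ ^ p ^ k := by
      rw [h2, ← pow_mul, mul_comm m]
      exact h1
    exact (pow_left_inj₀ (pow_nonneg (norm_nonneg _) _) (norm_nonneg _) hpk.ne').1 h3
  refine ⟨m, hm, Units.mk0 b hb0, ?_, hnorm⟩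
  rw [Units.val_mk0]
  refine mem_QS_of_pow_pow_mem_of_norm_emb hp hpS k
    (hb ▸ le_QS_of_isUnramifiedOutside hF ha'F) fun q _ τ => ?_
  obtain ⟨c₀, hc₀⟩ := IdeleDict.exists_unit_norm_emb_eq_apply
    ((y₀ : IdeleProd (layer hle)) q) (τ.comp (algebraMap (layer hle) Qb))
  refine ⟨(algebraMap (layer hle) Qb (c₀ : layer hle)) ^ m,
    pow_mem (le_QS_of_isUnramifiedOutside hF (c₀ : layer hle).2) m, ?_⟩
  rw [← hnorm q τ, map_pow, norm_pow, hcomp q τ, ← hc₀]
  rfl

variable (S)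

/-- **(T2) Capitulation**: for `p ∈ S`, every element of `C_S'` has a prime-to-`p` power in the
image of `C_S`. -/
theorem exists_pow_mem_range_csToCsFull (hp : p.Prime)
    (hpS : ∀ q : Nat.Primes, q ∉ S → (q : ℕ) ≠ p)
    (c : CSFull (Fermat.Agent.S55.globalLevel S) Qb (↑S : Set Nat.Primes)) :
    ∃ m : ℕ, ¬ p ∣ m ∧ c ^ m ∈ (csToCsFull (Fermat.Agent.S55.globalLevel S) Qb
      (↑S : Set Nat.Primes) S.finite_toSet).range := by
  obtain ⟨c, y, hy, rfl⟩ := c
  obtain ⟨m, hm, b, hbQS, hnorm⟩ := exists_smooth_root_norm_eq hp hpS hy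
  refine ⟨m, hm, mk_pow_mem_range_csToCsFull _ S.finite_toSet hy m
    (mem_smoothUnits_globalLevel_iff.2 hbQS) fun q _ => ?_⟩
  rw [mem_semiLocalIntegral]
  intro τ
  have h1 : ((((((y : IdeleProd Qb) q) ^ m / semiLocalDiag b : semiLocalUnits (q : ℕ) Qb) :
      LocalEmb (q : ℕ) Qb → (PadicAlgCl (q : ℕ))ˣ) τ : (PadicAlgCl (q : ℕ))ˣ) :
        PadicAlgCl (q : ℕ)) =
      ((((y : IdeleProd Qb) q : semiLocalUnits (q : ℕ) Qb) :
        LocalEmb (q : ℕ) Qb → (PadicAlgCl (q : ℕ))ˣ) τ : PadicAlgCl (q : ℕ)) ^ m /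
        τ (b : Qb) := by
    simp only [Subgroup.coe_div, Subgroup.coe_pow, Pi.div_apply, Pi.pow_apply,
      Units.val_div_eq_div_val, Units.val_pow_eq_pow_val, semiLocalDiag_apply]
  rw [h1, norm_div, norm_pow, hnorm q τ]
  exact div_self (norm_ne_zero_iff.2 ((map_ne_zero τ).2 b.ne_zero))

/-- **(T3)**: the cokernel of `C_S ⟶ C_S'` is killed elementwise by integers prime to `p`. -/
theorem exists_nsmul_mem_range_csToCsFullHom (hp : p.Prime)
    (hpS : ∀ q : Nat.Primes, q ∉ S → (q : ℕ) ≠ p)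
    (b : csFullRep (Fermat.Agent.S55.globalLevel S) Qb (↑S : Set Nat.Primes)) :
    ∃ m : ℕ, ¬ p ∣ m ∧ ∃ a : csRep (Fermat.Agent.S55.globalLevel S) Qb (↑S : Set Nat.Primes),
      (csToCsFullHom (Fermat.Agent.S55.globalLevel S) Qb (↑S : Set Nat.Primes)
        S.finite_toSet).hom a = m • b := by
  obtain ⟨m, hm, a, ha⟩ := exists_pow_mem_range_csToCsFull S hp hpS (Additive.toMul b)
  exact ⟨m, hm, Additive.ofMul a, congrArg Additive.ofMul ha⟩

end Arithmetic

end Fermat.Agent.CFT
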