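import Fermat.Agent.CFT.Global.LCGlobalBase
import Fermat.Agent.CFT.Global.ExistenceHardQ
import Fermat.Agent.CFT.Global.ExistenceEasyLayer
import Fermat.Agent.CFT.Global.CSFullFiniteQ
import Fermat.Agent.CFT.Global.GlobalG0
import Fermat.Agent.CFT.Global.RecipFinal
import Fermat.Agent.CFT.Global.SClassInvSystemQ
import Fermat.Agent.CFT.PT.CSFullGlobal
import Fermat.Agent.CFT.PT.GlobalDuality

/-!
# CFT, Layer C (C9, [E-FULL-Q]): global duality over `ℚ`, all class field theory plugged

Instantiation of `Global/LCGlobalBase.lean` at `k = ℚ`, `Ω = ℚ̄`, `L = globalLevel S`,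
`Adm = AdmS S`, `P F := ∃ ζ ∈ F, IsPrimitiveRoot ζ p`, `G₀ = globalG0 p`:

* `GlobalBaseQ.hrecipQ`: the `p`-primary reciprocity law (helper13's `RecipFinal`);
* `GlobalBaseQ.sSys`: the invariant system `sClassInvSystemQ` (helper6), unconditional;
* `GlobalBaseQ.csFullFam`: the family of invariants of `C_S'` (helper22's `csFullPInvFamily` with
  helper10's `CSFullGlobal` terms);
* `GlobalBaseQ.hB1`, `GlobalBaseQ.hEB`: VERBATIM the hypotheses `hB1`, `hEB` of helper24's
  `PT.global_duality` / `PT.ptInputsOfFamily` for `Jfull := csFullFam`; (easy) := helper1's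
  `heasy_sClassInvSystem`, (fin) := helper15's `hfin_csFullTowerRep_admS`, `hG₀` := helper14's
  `exists_field_of_isOpen_le_globalG0`; (hard) is the named hypothesis `HardQ`
  (`hardQ_of_hfield`: from helper3's `hhard_csFullDictQ`, modulo [G4-INFL-FIELD]);
* `GlobalBaseQ.global_dualityQ`, `GlobalBaseQ.ptInputsQ`.
-/

set_option autoImplicit false
set_option linter.style.haveILetI false
set_option linter.unusedSectionVars false

open CategoryTheory groupCohomology IntermediateField

noncomputable section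

namespace Fermat.Agent.CFT

open GaloisTower LayerMaps LCSym Fermat.Agent.S55 PT
open Fermat.Agent.S54.FrobExists

namespace GlobalBaseQ

local notation "Qb" => AlgebraicClosure ℚ
local notation "GQ" => (AlgebraicClosure ℚ ≃ₐ[ℚ] AlgebraicClosure ℚ)

local instance instIsGaloisQbGBQ : IsGalois ℚ Qb := isGalois_rat_algebraicClosure

variable (S : Finset Nat.Primes) (hS : S.Nonempty) {p : ℕ} [hp : Fact p.Prime] (hp2 : p ≠ 2)
  (hpS : (⟨p, hp.out⟩ : Nat.Primes) ∈ S)

include hp2 in
/-- The `p`-primary reciprocity law (helper13's `RecipFinal`), in the shape of the `hrecip`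
argument of `sClassInvSystemQ`. -/
theorem hrecipQ {E E' : IntermediateField ℚ Qb} (h : E ≤ E')
    [FiniteDimensional ℚ E'] [NumberField E] [NumberField (layer h)] [Normal E (layer h)]
    (hP : PrincipalIsIdele (layer h))
    (u : groupCohomology (Rep.ofAlgebraAutOnUnits E (layer h)) 2)
    (hu : ∃ n : ℕ, p ^ n • u = 0) :
    invJFun padicLocalInvFamily E ((layerH2f h hP).hom u) = 0 :=
  RecipFinal.invJFun_padic_layerH2f_eq_zero p hp2 h hP u hu

/-- **The invariant system of the `S`-idele class groups over `ℚ`**, unconditional. -/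
def sSys : PLayerInvSystem (sClassCoeff ℚ Qb (↑S : Set Nat.Primes)) (AdmS S) p :=
  sClassInvSystemQ S hp2 hpS (fun h _ _ _ _ hP u hu => hrecipQ hp2 h hP u hu)

/-- **The family of invariants of `C_S'`** (`csFullRep`) over `ℚ`. -/
def csFullFam :
    LC.PInvFamily (globalLevel S) (csFullRep (globalLevel S) Qb (↑S : Set Nat.Primes))
      (isSmooth_csFullRep (globalLevel S) Qb (↑S : Set Nat.Primes)) p :=
  csFullPInvFamily (globalLevel S) (↑S : Set Nat.Primes) (AdmS S) (fun hF => admS_fd hF)
    (globalLevel_galType S) (globalLevel_cofinal S) (fun hB hB' => admS_sup hB hB')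
    (exists_mem_localEmb_Qb S hS)
    (fun h h' hB'' _ => hasSClassDescent_of_admS S hS h h' hB'')
    (fun hle hB' => admS_mono hle hB') (IntermediateField.isUnramifiedOutside_bot S)
    (sSys S hp2 hpS)

include hS hp2 hpS in
/-- **(hB1)** of `PT.global_duality`: for every open subgroup `U` of `G_ℚ` (level structure
`globalLevel S`), `H¹(U, C_S')` has no `p`-torsion. -/
theorem hB1 (U : Subgroup GQ) (hU : (globalLevel S).IsOpen U)
    (c : LC.H1 ((globalLevel S).comap U.subtype)
      (Rep.res U.subtype (csFullRep (globalLevel S) Qb (↑S : Set Nat.Primes))))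
    (hc : p • c = 0) : c = 0 :=
  GlobalBase.csFull_H1_eq_zero_of_nsmul (globalLevel S) (↑S : Set Nat.Primes) (AdmS S)
    (fun hF => admS_fd hF) (globalLevel_galType S) (globalLevel_cofinal S)
    (fun hB hB' => admS_sup hB hB') (exists_mem_localEmb_Qb S hS)
    (fun h h' hB'' _ => hasSClassDescent_of_admS S hS h h' hB'')
    (fun hle hB' => admS_mono hle hB') (sSys S hp2 hpS) U hU c hc

/-- The statement (hard) for the dictionaries `csFullDictQ S hS F hF`, `ζ_p ∈ F`. -/
def HardQ : Prop :=
  ∀ (F : IntermediateField ℚ Qb) (hF : AdmS S F), (∃ ζ ∈ F, IsPrimitiveRoot ζ p) →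
    ∀ (a : csFullTowerRep (globalLevel S) (↑S : Set Nat.Primes) F)
      (ha : IsInv (csFullTowerRep (globalLevel S) (↑S : Set Nat.Primes) F) a),
      (∀ (l : ((globalLevel S).comap F.fixingSubgroup.subtype).Level)
        (χ : (layer ((csFullDictQ S hS F hF).le_top l) ≃ₐ[F]
          layer ((csFullDictQ S hS F hF).le_top l)) →* Multiplicative (ZMod p)),
        (sSys S hp2 hpS).inv ((csFullDictQ S hS F hF).le_top l)
          (symClass ((sClassCoeff ℚ Qb (↑S : Set Nat.Primes)).M
            ((csFullDictQ S hS F hF).le_top l)) χ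
            ((csFullDictQ S hS F hF).levelInv l a ha)
            ((csFullDictQ S hS F hF).isInv_levelInv l a ha)) = 0) →
      ∃ b : csFullTowerRep (globalLevel S) (↑S : Set Nat.Primes) F,
        IsInv (csFullTowerRep (globalLevel S) (↑S : Set Nat.Primes) F) b ∧ a = p • b

/-- **(hEB)** of `PT.global_duality`: the existence theorem mod `p` for `C_S'` over the open
subgroups of `G₀ = Gal(ℚ̄/ℚ(μ_p))`, from the hard half `HardQ`. -/
theorem hEB (hhard : HardQ S hS hp2 hpS) (U : Subgroup GQ) (hU : (globalLevel S).IsOpen U)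
    (hle : U ≤ globalG0 p) :
    (Finite (XChar ((globalLevel S).comap U.subtype) p) ∧
      Nat.card (XChar ((globalLevel S).comap U.subtype) p) =
        Nat.card (VQuot
          (Rep.res U.subtype (csFullRep (globalLevel S) Qb (↑S : Set Nat.Primes))) p)) ∧
    Function.Bijective
      (pairLin ((globalLevel S).comap U.subtype)
        (Rep.res U.subtype (csFullRep (globalLevel S) Qb (↑S : Set Nat.Primes)))
        ((csFullFam S hS hp2 hpS).tauS U hU)) ∧
    Function.Bijective
      (pairLin ((globalLevel S).comap U.subtype)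
        (Rep.res U.subtype (csFullRep (globalLevel S) Qb (↑S : Set Nat.Primes)))
        ((csFullFam S hS hp2 hpS).tauS U hU)).flip := by
  haveI : NeZero p := ⟨hp.out.ne_zero⟩
  refine GlobalBase.csFull_perfect_of_le (globalLevel S) (↑S : Set Nat.Primes) (AdmS S)
    (fun hF => admS_fd hF) (globalLevel_galType S) (globalLevel_cofinal S)
    (fun hB hB' => admS_sup hB hB') (exists_mem_localEmb_Qb S hS)
    (fun h h' hB'' _ => hasSClassDescent_of_admS S hS h h' hB'')
    (fun hle hB' => admS_mono hle hB') (IntermediateField.isUnramifiedOutside_bot S)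
    (sSys S hp2 hpS) (fun F => ∃ ζ ∈ F, IsPrimitiveRoot ζ p) (globalG0 p) ?_ ?_ ?_ ?_ U hU hle
  · intro U hU hle
    obtain ⟨F, hF, hUF, hζ⟩ := exists_field_of_isOpen_le_globalG0 p S hU hle
    exact ⟨F, hF, hζ, hUF⟩
  · intro F hF _
    exact ExistenceNondeg.heasy_sClassInvSystem hp2 (↑S : Set Nat.Primes)
      (classInvSystemQS S hp2 hpS (fun h _ _ _ _ hP u hu => hrecipQ hp2 h hP u hu))
      (fun hle hE' => isUnramifiedOutside_adm_mono S hle hE')
      (fun h hE' => isUnramifiedOutside_hne S hpS h hE')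
      (fun h hE' _ H q hq => isUnramifiedOutside_hunr S h hE' H q hq)
      (csFullDictQ S hS F hF)
  · intro F hF hP a ha H
    exact hhard F hF hP a ha H
  · exact hfin_csFullTowerRep_admS S hS p hp2

/-- `HardQ` from helper3's `hhard_csFullDictQ`, the field-theoretic node [G4-INFL-FIELD] being
the only hypothesis. -/
theorem hardQ_of_hfield
    (hfield : ∀ (F : IntermediateField ℚ Qb) (_ : AdmS S F) [NumberField ↥F]
      {M : IntermediateField ℚ Qb} (hT : F ≤ M) [NumberField ↥(layer hT)]
      [IsGalois ↥F ↥(layer hT)], FiniteDimensional ℚ M →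
      ∀ χ ∈ ExistenceLocal.unramCharsOutside ↥F ↥(layer hT) p (↑S : Set Nat.Primes),
        ∃ (Lχ : IntermediateField ℚ Qb) (h1 : F ≤ Lχ) (h2 : Lχ ≤ M) (_ : Normal F (layer h1)),
          AdmS S Lχ ∧ ∃ χ' : (layer h1 ≃ₐ[F] layer h1) →* Multiplicative (ZMod p),
            χ = χ'.comp (ExistenceHard.layerGalRes h1 h2)) :
    HardQ S hS hp2 hpS := by
  intro F hF hP a ha H
  obtain ⟨ζ, hζF, hζ⟩ := hP
  haveI := admS_fd hF
  haveI : NumberField ↥F := numberField_intermediateField F
  have hζ' : IsPrimitiveRoot (⟨ζ, hζF⟩ : ↥F) p :=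
    IsPrimitiveRoot.of_map_of_injective (f := algebraMap ↥F Qb) hζ (algebraMap ↥F Qb).injective
  exact ExistenceHardQ.hhard_csFullDictQ S hS hp2 hpS
    (fun h _ _ _ _ hP u hu => hrecipQ hp2 h hP u hu) F hF hζ' (hfield F hF) a ha H

/-- **Global duality over `ℚ`** (D7, all class field theory plugged): every finite smooth
`p`-torsion module of `G_ℚ` (level structure `globalLevel S`, `p ∈ S` odd) is perfect for `C_S` and
the global invariant `globalInvG` of the family `csFullFam`, given the hard half `HardQ`. -/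
theorem global_dualityQ (hhard : HardQ S hS hp2 hpS) (M : PMod (globalLevel S) p) :
    M.res.IsPerfect p (isSmooth_csRep (globalLevel S) Qb (↑S : Set Nat.Primes)) M.tors
      (globalInvG S hpS (csFullFam S hS hp2 hpS)) :=
  global_duality S hpS (csFullFam S hS hp2 hpS)
    (fun U hU _ c hc => hB1 S hS hp2 hpS U hU c hc)
    (fun U hU hle => hEB S hS hp2 hpS hhard U hU hle) M

/-- **The inputs of Poitou–Tate over `ℚ`** from the hard half `HardQ` and the reciprocity sum
formula (D3c) for the global invariant `globalInvG` of `csFullFam` against the local invariants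
`invLoc`. -/
def ptInputsQ (hhard : HardQ S hS hp2 hpS)
    (hrecip : ∀ (z : (LC.cx (isSmooth_jsRep (globalLevel S) Qb (↑S : Set Nat.Primes))).H 2),
      p • z = 0 →
      ∀ (h1 : (LC.cxMap (isSmooth_jsRep (globalLevel S) Qb (↑S : Set Nat.Primes))
            (isSmooth_csRep (globalLevel S) Qb (↑S : Set Nat.Primes))
            (jsToCsHom (globalLevel S) Qb (↑S : Set Nat.Primes))).mapH 2 z ∈
          LC.Hp p (isSmooth_csRep (globalLevel S) Qb (↑S : Set Nat.Primes)) 2)
        (h2 : ∀ q : ↥S, (LC.locHom (levelComap_global S)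
            (isSmooth_jsRep (globalLevel S) Qb (↑S : Set Nat.Primes))
            (fun q : ↥S => isSmooth_primeUnitsRep q.1) (evQ (globalLevel S) S) q).mapH 2 z ∈
          LC.Hp p (isSmooth_primeUnitsRep q.1) 2),
        globalInvG S hpS (csFullFam S hS hp2 hpS) ⟨_, h1⟩ =
          ∑ q : ↥S, invLoc p q.1 ⟨_, h2 q⟩) :
    PTInputs p S :=
  ptInputsOfFamily S hpS (csFullFam S hS hp2 hpS)
    (fun U hU _ c hc => hB1 S hS hp2 hpS U hU c hc)
    (fun U hU hle => hEB S hS hp2 hpS hhard U hU hle) hrecip

end GlobalBaseQ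

end Fermat.Agent.CFT
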