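import Fermat.Agent.CFT.LC.PInvFamily

/-!
# CFT, Layer C (C9, F1): the global invariant family on level cohomology

Generic mirror of `Local/LCGalT2.lean` + `Local/LCLocalFamily.lean` for a coefficient system
`𝔠 : LayerCoeff k Ω` with a `p`-primary invariant system `I : PLayerInvSystem 𝔠 Adm p`:
`G = Gal(Ω/k)`, `A` a smooth `G`-module, and a family of dictionaries
`dict F hF : CoeffDict 𝔠 Adm F (L.comap F.fixingSubgroup.subtype) (Res A)` for the admissible `F`.
Output: the invariant `coeffInv` of the full group (through `Gal(Ω/k) = Gal(Ω/⊥)`), the invariants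
`coeffInvS` of all open subgroups, and the `LC.PInvFamily` they form, hence all inputs of
`lc_duality` (`ZMod p`-valued bijective invariants on `p`-torsion, (T2)), and (CF1).
-/

set_option autoImplicit false
set_option linter.style.haveILetI false
set_option linter.unusedSectionVars false

open CategoryTheory groupCohomology IntermediateField

namespace Fermat.Agent.CFT

open GaloisTower LayerMaps

namespace LC

/-- (CF1) in complex form: if multiplication by `p` is bijective on `LC.H1 L C`, then
`(LC.cx hC).H 1` has no `p`-torsion and is `p`-divisible. -/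
theorem cxH1_of_bijective_nsmul_H1 {R G : Type} [CommRing R] [Group G] {L : LevelStructure G}
    {C : Rep.{0} R G} (hC : IsSmooth L C) (p : ℕ)
    (h : Function.Bijective (fun c : H1 L C => p • c)) :
    (∀ x : (cx hC).H 1, p • x = 0 → x = 0) ∧ (∀ x : (cx hC).H 1, ∃ y, p • y = x) := by
  constructor
  · intro x hx
    have h1 : p • h1Equiv hC x = p • (0 : H1 L C) := by
      rw [← map_nsmul, hx, map_zero, smul_zero]
    exact (LinearEquiv.map_eq_zero_iff _).1 (h.1 h1)
  · intro x
    obtain ⟨c, hc⟩ := h.2 (h1Equiv hC x)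
    refine ⟨(h1Equiv hC).symm c, ?_⟩
    have hc' : p • c = h1Equiv hC x := hc
    rw [← map_nsmul, hc', LinearEquiv.symm_apply_apply]

end LC

section GlobalFamily

variable {k Ω : Type} [Field k] [Field Ω] [Algebra k Ω] [IsGalois k Ω]
variable (L : LevelStructure (Ω ≃ₐ[k] Ω)) {A : Rep.{0} ℤ (Ω ≃ₐ[k] Ω)} (hA : IsSmooth L A)
  {𝔠 : LayerCoeff k Ω} {Adm : IntermediateField k Ω → Prop} {p : ℕ}
  (I : PLayerInvSystem 𝔠 Adm p)
  (dict : ∀ F : IntermediateField k Ω, Adm F →
    CoeffDict 𝔠 Adm F (L.comap F.fixingSubgroup.subtype) (Rep.res F.fixingSubgroup.subtype A))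
  (hbot : Adm ⊥)

/-- The dictionary of `Gal(Ω/F)`, with the coefficients written as the restriction of those of
`Gal(Ω/⊥)`. -/
noncomputable def dictResBot (F : IntermediateField k Ω) (hF : Adm F) :
    CoeffDict 𝔠 Adm F (L.comap F.fixingSubgroup.subtype)
      (Rep.res (fixIncl (bot_le : ⊥ ≤ F))
        (Rep.res (⊥ : IntermediateField k Ω).fixingSubgroup.subtype A)) :=
  dict F hF

/-- The restriction hypothesis: `inv_F (res c) = [F : ⊥] • inv_⊥ c` (the shape of
`csFullDict_invLC_resLC2` for `E = ⊥`). -/
def HasResBot : Prop :=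
  ∀ (F : IntermediateField k Ω) (hF : Adm F)
    (c : LC.H2 (L.comap (⊥ : IntermediateField k Ω).fixingSubgroup.subtype)
      (Rep.res (⊥ : IntermediateField k Ω).fixingSubgroup.subtype A)),
    (dictResBot L dict F hF).invLC I
        ((hA.res (LevelStructure.compat_comap L _)).res (compat_fixIncl L (bot_le : ⊥ ≤ F)))
        (LC.resLC2 (compat_fixIncl L (bot_le : ⊥ ≤ F))
          (hA.res (LevelStructure.compat_comap L _)) c) =
      Module.finrank (⊥ : IntermediateField k Ω) (layer (bot_le : ⊥ ≤ F)) •
        (dict ⊥ hbot).invLC I (hA.res (LevelStructure.compat_comap L _)) c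

/-- **The invariant map of the full Galois group**, through `Gal(Ω/k) = Gal(Ω/⊥)`. -/
noncomputable def coeffInv : LC.H2 L A →+ AddCircle (1 : ℚ) :=
  ((dict ⊥ hbot).invLC I (hA.res (LevelStructure.compat_comap L _))).comp
    (LC.resLC2
      (LevelStructure.compat_comap L (⊥ : IntermediateField k Ω).fixingSubgroup.subtype)
      hA).toAddMonoidHom

lemma coeffInv_apply (x : LC.H2 L A) :
    coeffInv L hA I dict hbot x =
      (dict ⊥ hbot).invLC I (hA.res (LevelStructure.compat_comap L _))
        (LC.resLC2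
          (LevelStructure.compat_comap L (⊥ : IntermediateField k Ω).fixingSubgroup.subtype)
          hA x) := by
  rw [coeffInv, AddMonoidHom.comp_apply]
  rfl

lemma resBot_injective :
    Function.Injective (LC.resLC2
      (LevelStructure.compat_comap L (⊥ : IntermediateField k Ω).fixingSubgroup.subtype) hA) :=
  LC.resLC2_injective_of_rightInverse (botProj k Ω) (fun _ => rfl)
    (LevelStructure.compat_comap L _) (compat_botProj L) hA

lemma resBot_surjective :
    Function.Surjective (LC.resLC2
      (LevelStructure.compat_comap L (⊥ : IntermediateField k Ω).fixingSubgroup.subtype) hA) :=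
  LC.resLC2_surjective_of_leftInverse (botProj k Ω) (fun _ => rfl) (fun _ => rfl)
    (LevelStructure.compat_comap L _) (compat_botProj L) hA

/-- (INJ-p) for the full group. -/
theorem eq_zero_of_coeffInv_eq_zero (c : LC.H2 L A) (hc : ∃ n : ℕ, p ^ n • c = 0)
    (h0 : coeffInv L hA I dict hbot c = 0) : c = 0 := by
  obtain ⟨n, hn⟩ := hc
  rw [coeffInv_apply] at h0
  have h1 := (dict ⊥ hbot).eq_zero_of_invLC_eq_zero I _ _
    ⟨n, by rw [← map_nsmul, hn, map_zero]⟩ h0
  exact resBot_injective L hA (h1.trans (map_zero _).symm)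

/-- (VAL) for the full group. -/
theorem exists_coeffInv_eq (hp : p.Prime) (a : ℕ) :
    ∃ c : LC.H2 L A, p ^ a • c = 0 ∧ coeffInv L hA I dict hbot c =
      (((1 : ℚ) / ((p ^ a : ℕ) : ℚ) : ℚ) : AddCircle (1 : ℚ)) := by
  obtain ⟨c', hc't, hc'⟩ := (dict ⊥ hbot).exists_invLC_eq I hp
    (hA.res (LevelStructure.compat_comap L _)) hbot a
  obtain ⟨c, rfl⟩ := resBot_surjective L hA c'
  refine ⟨c, resBot_injective L hA ?_, ?_⟩
  · rw [map_nsmul, hc't, map_zero]
  · rw [coeffInv_apply]
    exact hc'

/-- **Restriction multiplies the invariant by the degree** (full group to `Gal(Ω/F)`). -/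
theorem coeffInv_resLC2 (hres : HasResBot L hA I dict hbot) (F : IntermediateField k Ω)
    (hF : Adm F) (x : LC.H2 L A) :
    (dict F hF).invLC I (hA.res (LevelStructure.compat_comap L _))
        (LC.resLC2 (LevelStructure.compat_comap L F.fixingSubgroup.subtype) hA x) =
      F.fixingSubgroup.index • coeffInv L hA I dict hbot x := by
  have h := hres F hF (LC.resLC2
    (LevelStructure.compat_comap L (⊥ : IntermediateField k Ω).fixingSubgroup.subtype) hA x)
  rw [finrank_bot_layer, IntermediateField.finrank_eq_fixingSubgroup_index] at h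
  rw [coeffInv_apply, ← h]
  show (dict F hF).invLC I _ _ = (dict F hF).invLC I _ _
  congr 1
  exact (LC.resLC2_resLC2
    (LevelStructure.compat_comap L (⊥ : IntermediateField k Ω).fixingSubgroup.subtype)
    (compat_fixIncl L (bot_le : ⊥ ≤ F)) (LevelStructure.compat_comap L F.fixingSubgroup.subtype)
    hA x).symm

/-! ### Open subgroups -/

/-- The invariant of an open subgroup presented as the fixing subgroup of an admissible field. -/
noncomputable def coeffInvOfEq (F : IntermediateField k Ω) (hF : Adm F)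
    (S : Subgroup (Ω ≃ₐ[k] Ω)) (hSF : S = F.fixingSubgroup) :
    LC.H2 (L.comap S.subtype) (Rep.res S.subtype A) →+ AddCircle (1 : ℚ) := by
  subst hSF
  exact (dict F hF).invLC I (hA.res (LevelStructure.compat_comap L _))

lemma eq_zero_of_coeffInvOfEq_eq_zero (F : IntermediateField k Ω) (hF : Adm F)
    (S : Subgroup (Ω ≃ₐ[k] Ω)) (hSF : S = F.fixingSubgroup)
    (c : LC.H2 (L.comap S.subtype) (Rep.res S.subtype A)) (hc : ∃ n : ℕ, p ^ n • c = 0)
    (h0 : coeffInvOfEq L hA I dict F hF S hSF c = 0) : c = 0 := by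
  subst hSF
  exact (dict F hF).eq_zero_of_invLC_eq_zero I _ c hc h0

lemma exists_coeffInvOfEq_eq (hp : p.Prime) (F : IntermediateField k Ω) (hF : Adm F)
    (S : Subgroup (Ω ≃ₐ[k] Ω)) (hSF : S = F.fixingSubgroup) (a : ℕ) :
    ∃ c : LC.H2 (L.comap S.subtype) (Rep.res S.subtype A), p ^ a • c = 0 ∧
      coeffInvOfEq L hA I dict F hF S hSF c =
        (((1 : ℚ) / ((p ^ a : ℕ) : ℚ) : ℚ) : AddCircle (1 : ℚ)) := by
  subst hSF
  exact (dict F hF).exists_invLC_eq I hp _ hF a

lemma coeffInvOfEq_resLC2 (hres : HasResBot L hA I dict hbot) (F : IntermediateField k Ω)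
    (hF : Adm F) (S : Subgroup (Ω ≃ₐ[k] Ω)) (hSF : S = F.fixingSubgroup) (x : LC.H2 L A) :
    coeffInvOfEq L hA I dict F hF S hSF
        (LC.resLC2 (LevelStructure.compat_comap L S.subtype) hA x) =
      S.index • coeffInv L hA I dict hbot x := by
  subst hSF
  exact coeffInv_resLC2 L hA I dict hbot hres F hF x

include hA I dict in
lemma bijective_nsmul_H1_ofEq (hp : p.Prime) (F : IntermediateField k Ω) (hF : Adm F)
    (S : Subgroup (Ω ≃ₐ[k] Ω)) (hSF : S = F.fixingSubgroup) :
    Function.Bijective
      (fun c : LC.H1 (L.comap S.subtype) (Rep.res S.subtype A) => p • c) := by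
  subst hSF
  exact (dict F hF).bijective_nsmul_H1 I hp (hA.res (LevelStructure.compat_comap L _))

lemma coeffInvOfEq_fixingSubgroup (F F' : IntermediateField k Ω) (hF : Adm F) (hF' : Adm F')
    (hSF : F.fixingSubgroup = F'.fixingSubgroup) :
    coeffInvOfEq L hA I dict F' hF' F.fixingSubgroup hSF =
      (dict F hF).invLC I (hA.res (LevelStructure.compat_comap L _)) := by
  have hFF : F' = F := by
    have := congrArg IntermediateField.fixedField hSF
    rw [InfiniteGalois.fixedField_fixingSubgroup, InfiniteGalois.fixedField_fixingSubgroup]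
      at this
    exact this.symm
  subst hFF
  rfl

variable (hopen : ∀ S : Subgroup (Ω ≃ₐ[k] Ω), L.IsOpen S →
  ∃ F : IntermediateField k Ω, Adm F ∧ S = F.fixingSubgroup)

/-- **The invariant map of an open subgroup** `S` of the full Galois group. -/
noncomputable def coeffInvS (S : Subgroup (Ω ≃ₐ[k] Ω)) (hS : L.IsOpen S) :
    LC.H2 (L.comap S.subtype) (Rep.res S.subtype A) →+ AddCircle (1 : ℚ) :=
  coeffInvOfEq L hA I dict (hopen S hS).choose (hopen S hS).choose_spec.1 S
    (hopen S hS).choose_spec.2

/-- For `S = Gal(Ω/F)`, `F` admissible, `coeffInvS` is the invariant of the dictionary of `F`. -/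
theorem coeffInvS_fixingSubgroup (F : IntermediateField k Ω) (hF : Adm F)
    (hS : L.IsOpen F.fixingSubgroup) :
    coeffInvS L hA I dict hopen F.fixingSubgroup hS =
      (dict F hF).invLC I (hA.res (LevelStructure.compat_comap L _)) :=
  coeffInvOfEq_fixingSubgroup L hA I dict F _ hF _ _

/-- **The global invariants form a `PInvFamily`**, hence yield all inputs of `lc_duality`. -/
noncomputable def coeffPInvFamily [Fact p.Prime] (hres : HasResBot L hA I dict hbot) :
    LC.PInvFamily L A hA p where
  invG := coeffInv L hA I dict hbot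
  invS := coeffInvS L hA I dict hopen
  injG := eq_zero_of_coeffInv_eq_zero L hA I dict hbot
  injS S hS := eq_zero_of_coeffInvOfEq_eq_zero L hA I dict _ _ S _
  valG := exists_coeffInv_eq L hA I dict hbot (Fact.out : p.Prime)
  valS S hS := by
    obtain ⟨c, hc0, hc⟩ := exists_coeffInvOfEq_eq L hA I dict (Fact.out : p.Prime)
      (hopen S hS).choose (hopen S hS).choose_spec.1 S (hopen S hS).choose_spec.2 1
    rw [pow_one] at hc0 hc
    exact ⟨c, hc0, hc⟩
  res S hS x := coeffInvOfEq_resLC2 L hA I dict hbot hres _ _ S _ x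

include hA I dict hopen in
/-- **(CF1)** for every open subgroup: multiplication by `p` is bijective on `LC.H1`. -/
theorem bijective_nsmul_H1_of_isOpen (hp : p.Prime) (S : Subgroup (Ω ≃ₐ[k] Ω))
    (hS : L.IsOpen S) :
    Function.Bijective
      (fun c : LC.H1 (L.comap S.subtype) (Rep.res S.subtype A) => p • c) :=
  bijective_nsmul_H1_ofEq L hA I dict hp (hopen S hS).choose (hopen S hS).choose_spec.1 S
    (hopen S hS).choose_spec.2

include hA I dict hopen in
/-- **(CF1)** for every open subgroup, complex form (the shape of `StdBase.stdRes_isPerfect`). -/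
theorem cxH1_of_isOpen (hp : p.Prime) (S : Subgroup (Ω ≃ₐ[k] Ω)) (hS : L.IsOpen S) :
    (∀ x : (LC.cx (LC.isSmooth_res (S := S) hA)).H 1, p • x = 0 → x = 0) ∧
      (∀ x : (LC.cx (LC.isSmooth_res (S := S) hA)).H 1, ∃ y, p • y = x) :=
  LC.cxH1_of_bijective_nsmul_H1 _ p (bijective_nsmul_H1_of_isOpen L hA I dict hopen hp S hS)

/-- The `ZMod p`-valued invariant of `S = Gal(Ω/F)` is computed by the dictionary of `F`. -/
theorem zmodToCircle_coeffInvHpS_fixingSubgroup [Fact p.Prime]
    (hres : HasResBot L hA I dict hbot) (F : IntermediateField k Ω) (hF : Adm F)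
    (hS : L.IsOpen F.fixingSubgroup)
    (x : LC.Hp p (LC.isSmooth_res (S := F.fixingSubgroup) hA) 2) :
    zmodToCircle p ((coeffPInvFamily L hA I dict hbot hopen hres).invHpS F.fixingSubgroup hS x) =
      (dict F hF).invLC I (hA.res (LevelStructure.compat_comap L _))
        (LC.h2Equiv (LC.isSmooth_res (S := F.fixingSubgroup) hA) x.1) := by
  rw [LC.PInvFamily.zmodToCircle_invHpS]
  show coeffInvS L hA I dict hopen F.fixingSubgroup hS _ = _
  rw [coeffInvS_fixingSubgroup L hA I dict hopen F hF hS]

/-- The level of `Gal(Ω/⊥)` attached to a level of the full group. -/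
def botLevel (l : L.Level) :
    (L.comap (⊥ : IntermediateField k Ω).fixingSubgroup.subtype).Level :=
  ⟨l.N.comap (⊥ : IntermediateField k Ω).fixingSubgroup.subtype, l.N, l.isLevel, rfl⟩

/-- **The invariant of a class inflated from a finite level of the full group.** -/
theorem coeffInv_inflH2 (l : L.Level) (y : groupCohomology.H2 (A.quotientToInvariants l.N)) :
    coeffInv L hA I dict hbot (LC.inflH2 A l.N l.isOpen y) =
      I.inv ((dict ⊥ hbot).le_top (botLevel L l))
        ((dict ⊥ hbot).coh (botLevel L l) 2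
          ((LC.resFin A (le_refl (botLevel L l).N) 2).hom y)) := by
  rw [coeffInv_apply,
    LC.resLC2_inflH2 (le_refl (botLevel L l).N) (LevelStructure.compat_comap L _) hA l.isOpen
      (botLevel L l).isOpen y]
  exact (dict ⊥ hbot).invLC_inflH2 I _ (botLevel L l) _

end GlobalFamily

end Fermat.Agent.CFT
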