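import Mathlib
import Fermat.Agent.CFT.Global.ExistenceEasyLayer

/-!
# Layer C / C9 (G4-INFL support): inflation of idele symbols between layers

For intermediate fields `E ≤ F ≤ E'` of `Ω/k` with `F/E` normal:

* `layerGalRes hEF hFE' : Gal(E'/E) →* Gal(F/E)`, the restriction (`layerGalRes_apply_coe`,
  `layerGalRes_surjective`, `ker_layerGalRes_subLayer`);
* `layerInfl_symClass_ideleClassOfBase`: the inflation of `[x] ∪ δχ'` is `[x] ∪ δ(χ' ∘ res)`;
* `inv_symClass_comp_layerGalRes`: invariance of the invariant of a `PLayerInvSystem` on the idele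
  classes under this inflation;
* `classToClassSLayer_symClass`: the image of `[x] ∪ δχ` in `H²(C_S)`;
* `exists_char_of_ker_eq`, `exists_char_subLayer`: a character `χ` of `Gal(E'/E)` descends to a
  faithful character of `Gal(F/E)`, `F = subLayer h (ker χ)`.
-/

set_option autoImplicit false
set_option linter.unusedSectionVars false
set_option linter.style.haveILetI false

open CategoryTheory groupCohomology Rep IntermediateField

noncomputable section

namespace Fermat.Agent.CFT

namespace ExistenceNondeg

open ExistenceModP GaloisTower LayerMaps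

section Group

variable {G Q T : Type*} [Group G] [Group Q] [Group T]

/-- A homomorphism `χ` whose kernel is the kernel of a surjection `r` descends to an injective
homomorphism on the image. -/
theorem exists_char_of_ker_eq (r : G →* Q) (hr : Function.Surjective r) (χ : G →* T)
    (hker : r.ker = χ.ker) : ∃ χ' : Q →* T, Function.Injective χ' ∧ χ'.comp r = χ := by
  let χ' : Q →* T :=
    r.liftOfRightInverse (Function.surjInv hr) (Function.rightInverse_surjInv hr) ⟨χ, hker.le⟩
  have hχ'r : χ'.comp r = χ := MonoidHom.liftOfRightInverse_comp _ _ _ _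
  refine ⟨χ', ?_, hχ'r⟩
  rw [injective_iff_map_eq_one]
  intro τ hτ
  obtain ⟨σ, rfl⟩ := hr τ
  have h1 : χ σ = 1 := by
    rw [← hχ'r]
    exact hτ
  have h2 : σ ∈ r.ker := by
    rw [hker]
    exact h1
  exact h2

end Group

section General

variable {k Ω : Type} [Field k] [Field Ω] [Algebra k Ω]
variable {E F E' : IntermediateField k Ω}

/-- The restriction `Gal(E'/E) → Gal(F/E)` for `E ≤ F ≤ E'`, `F/E` normal. -/
def layerGalRes (hEF : E ≤ F) (hFE' : F ≤ E') [Normal E (layer hEF)] :
    LayerGal (hEF.trans hFE') →* LayerGal hEF :=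
  letI := algTop hEF (hEF.trans hFE') hFE'
  haveI : IsScalarTower E (layer hEF) (layer (hEF.trans hFE')) :=
    IsScalarTower.of_algebraMap_eq fun _ => rfl
  galRes E (layer hEF) E (layer (hEF.trans hFE'))

theorem layerGalRes_apply_coe (hEF : E ≤ F) (hFE' : F ≤ E') [Normal E (layer hEF)]
    (σ : LayerGal (hEF.trans hFE')) (x : layer hEF) :
    ((layerGalRes hEF hFE' σ x : layer hEF) : Ω) =
      ((σ ⟨(x : Ω), hFE' x.2⟩ : layer (hEF.trans hFE')) : Ω) := by
  letI := algTop hEF (hEF.trans hFE') hFE'
  haveI : IsScalarTower E (layer hEF) (layer (hEF.trans hFE')) :=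
    IsScalarTower.of_algebraMap_eq fun _ => rfl
  exact congrArg Subtype.val
    (galRes_commutes (K₁ := E) (L₁ := layer hEF) (K₂ := E) (L₂ := layer (hEF.trans hFE')) σ x)

theorem layerGalRes_surjective (hEF : E ≤ F) (hFE' : F ≤ E') [Normal E (layer hEF)]
    [Normal E (layer (hEF.trans hFE'))] : Function.Surjective (layerGalRes hEF hFE') := by
  letI := algTop hEF (hEF.trans hFE') hFE'
  haveI : IsScalarTower E (layer hEF) (layer (hEF.trans hFE')) :=
    IsScalarTower.of_algebraMap_eq fun _ => rfl
  exact galRes_infl_surjective E (layer hEF) (layer (hEF.trans hFE'))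

variable {n : ℕ} [NeZero n]

/-- **Inflation of idele symbols between layers**: the inflation of `[x] ∪ δχ'` from `F/E` to
`E'/E` is `[x] ∪ δ(χ' ∘ res)`. -/
theorem layerInfl_symClass_ideleClassOfBase (hEF : E ≤ F) (hFE' : F ≤ E')
    [Normal E (layer hEF)] (χ' : LayerGal hEF →* Multiplicative (ZMod n)) (x : ideleGroup E) :
    ((classCoeff k Ω).infl hEF hFE' 2).hom
        (symClass (ideleClassRep (layer hEF) (LayerGal hEF)) χ' (ideleClassOfBase E (layer hEF) x)
          (isInv_ideleClassOfBase E (layer hEF) x)) =
      symClass (ideleClassRep (layer (hEF.trans hFE')) (LayerGal (hEF.trans hFE')))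
        (χ'.comp (layerGalRes hEF hFE')) (ideleClassOfBase E (layer (hEF.trans hFE')) x)
        (isInv_ideleClassOfBase E (layer (hEF.trans hFE')) x) := by
  letI a : Algebra (layer hEF) (layer (hEF.trans hFE')) := algTop hEF (hEF.trans hFE') hFE'
  haveI hst : IsScalarTower E (layer hEF) (layer (hEF.trans hFE')) :=
    IsScalarTower.of_algebraMap_eq fun _ => rfl
  have e : (classCoeff k Ω).infl hEF hFE' 2 =
      ideleClassGalMap E (layer hEF) E (layer (hEF.trans hFE')) 2 :=
    ideleClassGalMap_congr_inst' E (layer hEF) E (layer (hEF.trans hFE'))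
      (algBase (le_refl E)) (algTop hEF (hEF.trans hFE') hFE')
      (algDiag (le_refl E) (hEF.trans hFE'))
      (tower_base (le_refl E) (hEF.trans hFE')) (tower_top hEF (hEF.trans hFE') (le_refl E) hFE')
      (Algebra.id E) a (inferInstance : Algebra E (layer (hEF.trans hFE')))
      (IsScalarTower.left E) hst (fun _ => rfl) 2
  rw [e]
  exact ideleClassGalMap_symClass E (layer hEF) (layer (hEF.trans hFE')) χ' x

/-- The invariant of `[x] ∪ δ(χ' ∘ res)` over `E'/E` is the invariant of `[x] ∪ δχ'` over `F/E`. -/
theorem inv_symClass_comp_layerGalRes {Adm : IntermediateField k Ω → Prop} {p : ℕ}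
    (I : PLayerInvSystem (classCoeff k Ω) Adm p) (hEF : E ≤ F) (hFE' : F ≤ E') (hadm : Adm E')
    [Normal E (layer hEF)] [Normal E (layer (hEF.trans hFE'))]
    (χ' : LayerGal hEF →* Multiplicative (ZMod n)) (x : ideleGroup E) :
    I.inv (hEF.trans hFE')
        (symClass (ideleClassRep (layer (hEF.trans hFE')) (LayerGal (hEF.trans hFE')))
          (χ'.comp (layerGalRes hEF hFE')) (ideleClassOfBase E (layer (hEF.trans hFE')) x)
          (isInv_ideleClassOfBase E (layer (hEF.trans hFE')) x)) =
      I.inv hEF (symClass (ideleClassRep (layer hEF) (LayerGal hEF)) χ'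
        (ideleClassOfBase E (layer hEF) x) (isInv_ideleClassOfBase E (layer hEF) x)) := by
  have h1 := I.inv_map hEF (hEF.trans hFE') le_rfl hFE' hadm
    (symClass (ideleClassRep (layer hEF) (LayerGal hEF)) χ' (ideleClassOfBase E (layer hEF) x)
      (isInv_ideleClassOfBase E (layer hEF) x))
  rw [LayerInvSystem.finrank_layer_self, one_smul] at h1
  rw [← h1]
  congr 1
  exact (layerInfl_symClass_ideleClassOfBase hEF hFE' χ' x).symm

/-- The image in `H²(C_S)` of the idele class symbol `[x] ∪ δχ` is the `S`-idele class symbol. -/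
theorem classToClassSLayer_symClass (S : Set Nat.Primes) (h : E ≤ E')
    (χ : LayerGal h →* Multiplicative (ZMod n)) (x : ideleGroup E) :
    (classToClassSLayer S h 2).hom
        (symClass (ideleClassRep (layer h) (LayerGal h)) χ (ideleClassOfBase E (layer h) x)
          (isInv_ideleClassOfBase E (layer h) x)) =
      symClass (ideleClassSRep (layer h) (LayerGal h) S) χ
        ((classToClassSRepHom (layer h) (LayerGal h) S).hom (ideleClassOfBase E (layer h) x))
        ((isInv_ideleClassOfBase E (layer h) x).map (MonoidHom.id _)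
          (classToClassSRepHom (layer h) (LayerGal h) S)) := by
  have h1 := map_symClass (MonoidHom.id (LayerGal h))
    (classToClassSRepHom (layer h) (LayerGal h) S) χ (isInv_ideleClassOfBase E (layer h) x)
  exact h1

end General

section SubLayerChar

variable {k Ω : Type} [Field k] [Field Ω] [Algebra k Ω] [CharZero k]
variable {E E' : IntermediateField k Ω} (h : E ≤ E') [FiniteDimensional k E']
  [Normal E (layer h)]

/-- The kernel of the restriction to the sublayer fixed by a normal subgroup `N` is `N`. -/
theorem ker_layerGalRes_subLayer (N : Subgroup (LayerGal h)) [N.Normal] :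
    haveI := normal_subLayer h N
    (layerGalRes (le_subLayer h N) (subLayer_le h N)).ker = N :=
  ker_galRes_subLayer h N

/-- A character `χ` of `Gal(E'/E)` descends to a faithful character of `Gal(F/E)`, `F` the sublayer
fixed by `ker χ`. -/
theorem exists_char_subLayer {T : Type*} [Group T] (χ : LayerGal h →* T) :
    haveI := normal_subLayer h χ.ker
    ∃ χ' : LayerGal (le_subLayer h χ.ker) →* T, Function.Injective χ' ∧
      χ'.comp (layerGalRes (le_subLayer h χ.ker) (subLayer_le h χ.ker)) = χ := by
  haveI := normal_subLayer h χ.ker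
  exact exists_char_of_ker_eq (layerGalRes (le_subLayer h χ.ker) (subLayer_le h χ.ker))
    (layerGalRes_surjective (le_subLayer h χ.ker) (subLayer_le h χ.ker)) χ
    (ker_layerGalRes_subLayer h χ.ker)

end SubLayerChar

end ExistenceNondeg

end Fermat.Agent.CFT
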