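import Fermat.Agent.CFT.Global.LocSquare
import Fermat.Agent.CFT.Local.InvFamilyOfLayers
import Fermat.Agent.CFT.Global.CycloRecip

/-!
# Layer C / C5q: local invariants of symbol classes over `ℚ` as symbols of the abstract family

For a normal number field `E/ℚ` and `τ' : E → ℚ̄_q` the base of the local layer is `ℚ_q`
(`localFieldAt_rat`), so the invariant of the layer system `I q` on `E_τ'/ℚ_q` is the invariant of
the abstract family `(I q).toInvFamily` (bridge `InvFamilyOfLayers`):
`semiLocalInvAt_rat_galSymClass`: the local invariant at `τ'` of `a ∪ δχ` (`a ∈ ℚˣ`, `χ` a character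
of `Gal(E/ℚ)`) is the local symbol `(a, χ ∘ res)_q` of `(I q).toInvFamily`.
-/

set_option autoImplicit false
set_option linter.unusedSectionVars false
set_option linter.style.haveILetI false

open CategoryTheory groupCohomology

noncomputable section

namespace Fermat.Agent.CFT

open GaloisTower

variable {q : ℕ} [Fact q.Prime] {E : Type} [Field E] [CharZero E]

local notation "Ω" => PadicAlgCl q

/-- The completion of `ℚ` is `ℚ_q`. -/
theorem localFieldAt_rat (τ : LocalEmb q ℚ) : localFieldAt τ = ⊥ := by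
  rw [localFieldAt, IntermediateField.adjoin_eq_bot_iff]
  rintro _ ⟨x, rfl⟩
  rw [SetLike.mem_coe, IntermediateField.mem_bot]
  exact ⟨(x : ℚ_[q]), by rw [map_ratCast, eq_ratCast]⟩

/-- The embedding `E → E_τ'` (with `E_τ'` as an extension of `ℚ_q`). -/
def absTopHom (τ' : LocalEmb q E) : E →+* localFieldAt τ' where
  toFun x := ⟨τ' x, apply_mem_localFieldAt τ' x⟩
  map_one' := Subtype.ext (map_one _)
  map_mul' x y := Subtype.ext (map_mul _ x y)
  map_zero' := Subtype.ext (map_zero _)
  map_add' x y := Subtype.ext (map_add _ x y)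

@[simp] theorem absTopHom_coe (τ' : LocalEmb q E) (x : E) :
    ((absTopHom τ' x : localFieldAt τ') : Ω) = τ' x := rfl

/-- The square `(ℚ, E) → (ℚ_q, E_τ')`. -/
def absSquare (τ' : LocalEmb q E) : FieldSquare ℚ E ℚ_[q] (localFieldAt τ') where
  base := algebraMap ℚ ℚ_[q]
  top := absTopHom τ'
  comm x := Subtype.ext (by
    show τ' (algebraMap ℚ E x) = algebraMap ℚ_[q] Ω (algebraMap ℚ ℚ_[q] x)
    rw [eq_ratCast, eq_ratCast, map_ratCast, map_ratCast])

theorem absSquare_comp_embSquare (τ' : LocalEmb q E) :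
    (absSquare τ').comp (LayerBridge.embSquare (localFieldAt_restrict_le ℚ τ')
      (localFieldAt τ').val (fun y => y.2)) = locSquare ℚ τ' := by
  apply FieldSquare.ext'
  · exact RingHom.ext_rat _ _
  · ext x
    rfl

variable [Normal ℚ E]

/-- The local invariant at `τ'` of a principal class over `ℚ`, through the abstract family of
invariant maps attached to the layer system. -/
theorem semiLocalInvAt_rat_ideleH2f (I : LocalInvFamily) (hE : PrincipalIsIdele E)
    (q : Nat.Primes) (τ' : LocalEmb ((q : Nat.Primes) : ℕ) E)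
    [FiniteDimensional ℚ_[((q : Nat.Primes) : ℕ)] (localFieldAt τ')]
    [IsGalois ℚ_[((q : Nat.Primes) : ℕ)] (localFieldAt τ')]
    (x : groupCohomology (Rep.ofAlgebraAutOnUnits ℚ E) 2) :
    semiLocalInvAt I ℚ q τ'
        ((groupCohomology.map (MonoidHom.id (E ≃ₐ[ℚ] E)) (ideleProjHom ℚ q) 2).hom
          ((ideleH2f ℚ hE).hom x)) =
      (I q).toInvFamily.inv (localFieldAt τ') (((absSquare τ').map 2).hom x) := by
  rw [semiLocalInvAt_ideleH2f, LayerBridge.toInvFamily_inv_eq (I q)
    (localFieldAt_restrict_le ℚ τ') (localFieldAt_rat _), FieldSquare.map_comp_apply,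
    absSquare_comp_embSquare]

/-- The local invariant at `τ'` of a symbol class over `ℚ` is a local symbol. -/
theorem semiLocalInvAt_rat_galSymClass (I : LocalInvFamily) (hE : PrincipalIsIdele E)
    (q : Nat.Primes) (τ' : LocalEmb ((q : Nat.Primes) : ℕ) E)
    [FiniteDimensional ℚ_[((q : Nat.Primes) : ℕ)] (localFieldAt τ')]
    [IsGalois ℚ_[((q : Nat.Primes) : ℕ)] (localFieldAt τ')] {n : ℕ} [NeZero n]
    (χ : (E ≃ₐ[ℚ] E) →* Multiplicative (ZMod n)) (a : ℚˣ) :
    semiLocalInvAt I ℚ q τ'
        ((groupCohomology.map (MonoidHom.id (E ≃ₐ[ℚ] E)) (ideleProjHom ℚ q) 2).hom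
          ((ideleH2f ℚ hE).hom (galSymClass ℚ E χ a))) =
      (I q).toInvFamily.symbol n (localFieldAt τ') (χ.comp (absSquare τ').res)
        (CycloRecip.ratUnit q a) := by
  rw [semiLocalInvAt_rat_ideleH2f, FieldSquare.map_galSymClass]
  rfl

end Fermat.Agent.CFT

end
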