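import Fermat.Agent.CFT.Global.ClassInvSystemQ
import Fermat.Agent.CFT.Global.PadicIdeleInvSystem
import Fermat.Agent.CFT.Global.FullDecomp

/-!
# The `p`-primary invariant system of the idele class groups over `ℚ`: concrete instance

`padicClassInvSystem : PLayerInvSystem (classCoeff ℚ ℚ̄) Adm p` for `p` odd, built from the sums of
the local class field theory invariants (`padicLocalInvFamily`, `padicIdeleInvSystem`), the
unconditional class-formation inequalities, the cyclotomic tower and the existence of a place
with full decomposition group in cyclic layers of `p`-power degree (`FullDecomp.lean`).  The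
only remaining inputs are the `p`-primary reciprocity law `hrecip` (C5d) and the stability `hAdm`
of the admissible fields under subfields of `E(μ_{p^m})`.

The spec lemma `padicClassInvSystem_inv_ideleToClassLayer` is the local–global formula
`inv (π z) = Σ_v inv_v (loc_v z)` for `p`-power torsion `z ∈ H²(Gal(E'/E), J_{E'})`.
-/

set_option autoImplicit false
set_option linter.style.haveILetI false
set_option linter.unusedSectionVars false
set_option maxSynthPendingDepth 2

open CategoryTheory groupCohomology IntermediateField

namespace Fermat.Agent.CFT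

open GaloisTower LayerMaps

section

variable {p : ℕ} [hp : Fact p.Prime] (hp2 : p ≠ 2)
  (hrecip : ∀ {E E' : IntermediateField ℚ (AlgebraicClosure ℚ)} (h : E ≤ E')
    [FiniteDimensional ℚ E'] [NumberField E] [NumberField (layer h)] [Normal E (layer h)]
    (hP : PrincipalIsIdele (layer h))
    (u : groupCohomology (Rep.ofAlgebraAutOnUnits E (layer h)) 2),
    (∃ n : ℕ, p ^ n • u = 0) →
      invJFun padicLocalInvFamily E ((layerH2f h hP).hom u) = 0)

variable {E E' : IntermediateField ℚ (AlgebraicClosure ℚ)}

include hp2 in
/-- The idelic invariant takes the value `1/p^a` on cyclic layers of order `p^a`. -/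
theorem padicIdeleInvSystem_exists_invJ_eq (h : E ≤ E') [FiniteDimensional ℚ E']
    [Normal E (layer h)] [IsCyclic (LayerGal h)] (a : ℕ) (hcard : Nat.card (LayerGal h) = p ^ a) :
    ∃ z, (padicIdeleInvSystem p hrecip).invJ h z =
      ((((1 : ℚ) / ((p ^ a : ℕ) : ℚ) : ℚ)) : AddCircle (1 : ℚ)) := by
  haveI : FiniteDimensional ℚ E := IdeleInvSystem.finiteDimensional_of_le_of_fd h
  haveI : NumberField E := numberField_of_finiteDimensional_rat E
  haveI : NumberField (layer h) := numberField_layer h
  haveI := isGalois_layer_of_normal_of_fd h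
  obtain ⟨x, hx⟩ := exists_invJFun_eq_of_card_eq_pow padicLocalInvFamily p hp2 E (layer h) a hcard
  refine ⟨x, ?_⟩
  rw [padicIdeleInvSystem_invJ]
  exact hx

variable (Adm : IntermediateField ℚ (AlgebraicClosure ℚ) → Prop)
  (hfd : ∀ {E : IntermediateField ℚ (AlgebraicClosure ℚ)}, Adm E → FiniteDimensional ℚ E)
  (hAdm : ∀ (E C : IntermediateField ℚ (AlgebraicClosure ℚ)) (m : ℕ), Adm E → E ≤ C →
    C ≤ E ⊔ adjoin ℚ {x : AlgebraicClosure ℚ | x ^ (p ^ m) = 1} → Adm C)

/-- **The `p`-primary invariant system of the idele class groups of the number fields in `ℚ̄`**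
given by the sums of the local invariants (`p` odd). -/
noncomputable def padicClassInvSystem :
    PLayerInvSystem (classCoeff ℚ (AlgebraicClosure ℚ)) Adm p :=
  IdeleInvSystem.classPLayerInvSystemQ hp2 (padicIdeleInvSystem p hrecip)
    (fun h _ _ _ a hcard => padicIdeleInvSystem_exists_invJ_eq hp2 hrecip h a hcard) Adm hfd hAdm

/-- **Local–global formula**: the invariant of the image of a `p`-power torsion class
`z ∈ H²(Gal(E'/E), J_{E'})` is the sum of its local invariants. -/
theorem padicClassInvSystem_inv_ideleToClassLayer (h : E ≤ E') [FiniteDimensional ℚ E']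
    [Normal E (layer h)] [NumberField E]
    (z : groupCohomology ((ideleCoeff ℚ (AlgebraicClosure ℚ)).M h) 2)
    (hz : ∃ n : ℕ, p ^ n • z = 0) :
    (padicClassInvSystem hp2 hrecip Adm hfd hAdm).inv h ((ideleToClassLayer h 2).hom z) =
      invJFun padicLocalInvFamily E z := by
  have h1 := IdeleInvSystem.classPLayerInvSystemQ_inv_ideleToClassLayer hp2
    (padicIdeleInvSystem p hrecip)
    (fun h _ _ _ a hcard => padicIdeleInvSystem_exists_invJ_eq hp2 hrecip h a hcard) Adm hfd hAdm
    h z hz
  refine h1.trans ?_
  exact padicIdeleInvSystem_invJ p hrecip h z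

end

end Fermat.Agent.CFT
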