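import Fermat.Agent.CFT.Global.PlaceProd

/-!
# Layer C, node C3A (model instantiation): global index counts over places

For a number field `K ∋ ζ_p` and a finite set `S` of places containing all places over `p`:

* `sIdeleFam S` (`K_vˣ` at `S`, units outside: the family of `J_{K,S}`), `sPowFam p S`
  (`K_v^{×p}` at `S`, units outside);
* `relIndex_sPowFam` : `[J_{K,S} : ∏_S K_v^{×p} × ∏ U_v] = p ^ (2 |S| + [K : ℚ])`.
-/

set_option autoImplicit false
set_option linter.unusedSectionVars false

noncomputable section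

namespace Fermat.Agent.CFT

open Subgroup

section Families

variable {K : Type} [Field K]

open Classical in
/-- The local family of the `S`-ideles `J_{K,S}`: everything at `S`, units outside. -/
def sIdeleFam (S : Set (IdelePlace K)) (v : IdelePlace K) : Subgroup (localFieldAt v.2.emb)ˣ :=
  if v ∈ S then ⊤ else placeUnitGroup v

open Classical in
/-- The local family `∏_S K_v^{×p} × ∏_{v ∉ S} U_v`. -/
def sPowFam (p : ℕ) (S : Set (IdelePlace K)) (v : IdelePlace K) :
    Subgroup (localFieldAt v.2.emb)ˣ :=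
  if v ∈ S then (powMonoidHom p).range else placeUnitGroup v

theorem sIdeleFam_of_mem {S : Set (IdelePlace K)} {v : IdelePlace K} (hv : v ∈ S) :
    sIdeleFam S v = ⊤ := by
  classical
  exact if_pos hv

theorem sIdeleFam_of_notMem {S : Set (IdelePlace K)} {v : IdelePlace K} (hv : v ∉ S) :
    sIdeleFam S v = placeUnitGroup v := by
  classical
  exact if_neg hv

theorem sPowFam_of_mem {p : ℕ} {S : Set (IdelePlace K)} {v : IdelePlace K} (hv : v ∈ S) :
    sPowFam p S v = (powMonoidHom p).range := by
  classical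
  exact if_pos hv

theorem sPowFam_of_notMem {p : ℕ} {S : Set (IdelePlace K)} {v : IdelePlace K} (hv : v ∉ S) :
    sPowFam p S v = placeUnitGroup v := by
  classical
  exact if_neg hv

theorem sPowFam_le_sIdeleFam (p : ℕ) (S : Set (IdelePlace K)) (v : IdelePlace K) :
    sPowFam p S v ≤ sIdeleFam S v := by
  by_cases hv : v ∈ S
  · rw [sIdeleFam_of_mem hv]
    exact le_top
  · rw [sIdeleFam_of_notMem hv, sPowFam_of_notMem hv]

theorem sIdeleFam_mono {S S' : Set (IdelePlace K)} (h : S ⊆ S') (v : IdelePlace K) :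
    sIdeleFam S v ≤ sIdeleFam S' v := by
  by_cases hv : v ∈ S
  · rw [sIdeleFam_of_mem (h hv)]
    exact le_top
  · rw [sIdeleFam_of_notMem hv]
    by_cases hv' : v ∈ S'
    · rw [sIdeleFam_of_mem hv']
      exact le_top
    · rw [sIdeleFam_of_notMem hv']

end Families

section Count

variable {K : Type} [Field K] [NumberField K]

/-- `τ` with values in the local field `K_τ`. -/
def localGen {q : ℕ} [Fact q.Prime] (τ : LocalEmb q K) : K →+* localFieldAt τ :=
  τ.codRestrict (localFieldAt τ) (apply_mem_localFieldAt τ)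

theorem isPrimitiveRoot_localGen {q : ℕ} [Fact q.Prime] (τ : LocalEmb q K) {p : ℕ} {ζ : K}
    (hζ : IsPrimitiveRoot ζ p) : IsPrimitiveRoot (localGen τ ζ) p :=
  hζ.map_of_injective (localGen τ).injective

/-- Local index of `p`-th powers at a place. -/
theorem index_range_pow_place (pp : Nat.Primes) {ζ : K} (hζ : IsPrimitiveRoot ζ (pp : ℕ))
    (v : IdelePlace K) :
    (powMonoidHom (pp : ℕ) : (localFieldAt v.2.emb)ˣ →* (localFieldAt v.2.emb)ˣ).range.index =
      (pp : ℕ) * (pp : ℕ) *
        (if v.1 = pp then (pp : ℕ) ^ Module.finrank ℚ_[(v.1 : ℕ)] (localFieldAt v.2.emb) else 1) := by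
  have := finiteDimensional_localFieldAt v.2.emb
  rw [LocalPow.index_range_pow_units (localFieldAt v.2.emb) pp.2 (isPrimitiveRoot_localGen v.2.emb hζ)]
  congr 1
  by_cases h : v.1 = pp
  · rw [if_pos h, if_pos (congrArg Subtype.val h)]
  · rw [if_neg h, if_neg (fun h' => h (Subtype.ext h'))]

/-- Local index of `p`-th powers of units at a place not over `p`. -/
theorem relIndex_pow_placeUnitGroup (pp : Nat.Primes) {ζ : K} (hζ : IsPrimitiveRoot ζ (pp : ℕ))
    (v : IdelePlace K) (hv : v.1 ≠ pp) :
    ((placeUnitGroup v).map (powMonoidHom (pp : ℕ))).relIndex (placeUnitGroup v) = (pp : ℕ) := by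
  have := finiteDimensional_localFieldAt v.2.emb
  exact LocalPow.relIndex_pow_normOneUnits (localFieldAt v.2.emb) pp.2
    (fun h => hv (Subtype.ext h)) (isPrimitiveRoot_localGen v.2.emb hζ)

/-- The product of the local degrees over the places above `p` in a finite set `S` containing all
of them. -/
theorem prod_pow_finrank_of_places_mem (pp : Nat.Primes) (S : Finset (IdelePlace K))
    (hS : ∀ v : IdelePlace K, v.1 = pp → v ∈ S) :
    ∏ v ∈ S, (if v.1 = pp then
        (pp : ℕ) ^ Module.finrank ℚ_[(v.1 : ℕ)] (localFieldAt v.2.emb) else 1) =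
      (pp : ℕ) ^ Module.finrank ℚ K := by
  classical
  have : Fintype (LocalPlace (pp : ℕ) K) := Fintype.ofFinite _
  rw [← Finset.prod_filter]
  have hfilter : S.filter (fun v => v.1 = pp) =
      Finset.univ.map (Function.Embedding.sigmaMk (β := fun q : Nat.Primes => LocalPlace (q : ℕ) K) pp) := by
    ext v
    simp only [Finset.mem_filter, Finset.mem_map, Finset.mem_univ, true_and,
      Function.Embedding.sigmaMk_apply]
    constructor
    · rintro ⟨-, hv⟩
      obtain ⟨q, ω⟩ := v
      cases hv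
      exact ⟨ω, rfl⟩
    · rintro ⟨ω, rfl⟩
      exact ⟨hS _ rfl, rfl⟩
  rw [hfilter, Finset.prod_map, Finset.prod_pow_eq_pow_sum]
  congr 1
  exact LocalPow.sum_finrank_localFieldAt (q := (pp : ℕ)) (K := K)

/-- **Global local-index count**: `[J_{K,S} : ∏_S K_v^{×p} × ∏_{v ∉ S} U_v] = p ^ (2 |S| + [K : ℚ])`
for a finite set `S` of places containing all places over `p`, `K ∋ ζ_p`. -/
theorem relIndex_sPowFam (pp : Nat.Primes) {ζ : K} (hζ : IsPrimitiveRoot ζ (pp : ℕ))
    (S : Finset (IdelePlace K)) (hS : ∀ v : IdelePlace K, v.1 = pp → v ∈ S) :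
    (boxIdele (sPowFam (pp : ℕ) (S : Set (IdelePlace K)))).relIndex
        (boxIdele (sIdeleFam (S : Set (IdelePlace K)))) =
      (pp : ℕ) ^ (2 * S.card + Module.finrank ℚ K) := by
  have hout : ∀ v : IdelePlace K, v ∉ S →
      sIdeleFam (S : Set (IdelePlace K)) v ≤ placeUnitGroup v := fun v hv => by
    rw [sIdeleFam_of_notMem (by exact_mod_cast hv)]
  rw [relIndex_boxIdele _ _ S S (fun v hv => by
      rw [sIdeleFam_of_notMem (by exact_mod_cast hv), sPowFam_of_notMem (by exact_mod_cast hv)])
    hout]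
  have hterm : ∀ v ∈ S, (sPowFam (pp : ℕ) (S : Set (IdelePlace K)) v).relIndex
      (sIdeleFam (S : Set (IdelePlace K)) v) = (pp : ℕ) * (pp : ℕ) *
        (if v.1 = pp then (pp : ℕ) ^ Module.finrank ℚ_[(v.1 : ℕ)] (localFieldAt v.2.emb) else 1) := by
    intro v hv
    rw [sPowFam_of_mem (by exact_mod_cast hv), sIdeleFam_of_mem (by exact_mod_cast hv),
      relIndex_top_right, index_range_pow_place pp hζ v]
  rw [Finset.prod_congr rfl hterm, Finset.prod_mul_distrib, Finset.prod_const,
    prod_pow_finrank_of_places_mem pp S hS, pow_add, pow_mul, sq]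

/-- **Unit index count**: `∏_{v ∈ T} [U_v : U_v^p] = p ^ |T|` for a finite set `T` of places not
over `p`. -/
theorem prod_relIndex_pow_placeUnitGroup (pp : Nat.Primes) {ζ : K}
    (hζ : IsPrimitiveRoot ζ (pp : ℕ)) (T : Finset (IdelePlace K)) (hT : ∀ v ∈ T, v.1 ≠ pp) :
    ∏ v ∈ T, ((placeUnitGroup v).map (powMonoidHom (pp : ℕ))).relIndex (placeUnitGroup v) =
      (pp : ℕ) ^ T.card := by
  rw [Finset.prod_congr rfl fun v hv => relIndex_pow_placeUnitGroup pp hζ v (hT v hv),
    Finset.prod_const]

end Count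

end Fermat.Agent.CFT
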