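import Fermat.Agent.CFT.Global.SemiLocal
import Fermat.Agent.CFT.Global.BoxIndex
import Fermat.Agent.CFT.Global.LocalPowIndex

/-!
# Layer C, node C3A (model instantiation, part M1): the ideles as a product over places

`IdelePlace K := Σ q, LocalPlace q K` is the set of finite places of `K` in the idele model,
`placeProdEquiv K : IdeleProd K ≃* ∏_v K_vˣ` the evaluation isomorphism (helper11's
`semiLocalEvalEquiv` at every rational prime), `placeUnitGroup v` the local units.

For a family `B v` of local subgroups, `boxIdele B` is the subgroup of ideles with all components in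
`B v`; `relIndex_boxIdele` computes `[boxIdele C : boxIdele B]` as the product of the local indices
(when `B`, `C` agree outside a finite set and `C` consists of units outside a finite set).
-/

set_option autoImplicit false
set_option linter.unusedSectionVars false

noncomputable section

namespace Fermat.Agent.CFT

open Subgroup

section PlaceProd

variable (K : Type) [Field K]

/-- The finite places of `K` in the idele model: a rational prime `q` and a `Gq`-orbit of
embeddings `K → ℚ̄_q`. -/
abbrev IdelePlace : Type := Σ q : Nat.Primes, LocalPlace (q : ℕ) K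

/-- Evaluation of a family of semi-local units at the chosen embedding of every place. -/
def placeHom : IdeleProd K →* ∀ v : IdelePlace K, (localFieldAt v.2.emb)ˣ where
  toFun x v := semiLocalEvalAt v.2.emb (x v.1)
  map_one' := by
    funext v
    exact map_one _
  map_mul' x y := by
    funext v
    exact map_mul _ _ _

/-- **The product decomposition over places**: `∏_q (K ⊗ ℚ_q)ˣ = ∏_v K_vˣ`. -/
def placeProdEquiv : IdeleProd K ≃* ∀ v : IdelePlace K, (localFieldAt v.2.emb)ˣ where
  toFun := placeHom K
  invFun u q := semiLocalEvalEquiv.symm (fun ω => u ⟨q, ω⟩)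
  left_inv x := by
    funext q
    exact semiLocalEvalEquiv.symm_apply_apply (x q)
  right_inv u := by
    funext v
    obtain ⟨q, ω⟩ := v
    exact congrFun (semiLocalEvalEquiv.apply_symm_apply (fun ω => u ⟨q, ω⟩)) ω
  map_mul' := map_mul (placeHom K)

variable {K}

@[simp]
theorem placeProdEquiv_apply (x : IdeleProd K) (v : IdelePlace K) :
    placeProdEquiv K x v = semiLocalEvalAt v.2.emb (x v.1) := rfl

theorem placeProdEquiv_apply_coe (x : IdeleProd K) (v : IdelePlace K) :
    (((placeProdEquiv K x v : (localFieldAt v.2.emb)ˣ) : localFieldAt v.2.emb) :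
      PadicAlgCl (v.1 : ℕ)) =
      (((x v.1 : semiLocalUnits (v.1 : ℕ) K) : LocalEmb (v.1 : ℕ) K → (PadicAlgCl (v.1 : ℕ))ˣ)
        v.2.emb : PadicAlgCl (v.1 : ℕ)) := rfl

/-- The local unit group `U_v` at a place. -/
abbrev placeUnitGroup (v : IdelePlace K) : Subgroup (localFieldAt v.2.emb)ˣ :=
  LocalPow.normOneUnits (localFieldAt v.2.emb)

theorem norm_gq_apply' {q : ℕ} [Fact q.Prime] (γ : Gq q) (x : PadicAlgCl q) : ‖γ x‖ = ‖x‖ := by
  rw [← PadicAlgCl.spectralNorm_eq, ← PadicAlgCl.spectralNorm_eq]
  exact (spectralNorm_eq_of_equiv γ x).symm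

/-- Integrality of a semi-local unit can be tested at the chosen embeddings. -/
theorem mem_semiLocalIntegral_iff_place (q : Nat.Primes) (f : semiLocalUnits (q : ℕ) K) :
    f ∈ semiLocalIntegral (q : ℕ) K ↔
      ∀ ω : LocalPlace (q : ℕ) K,
        semiLocalEvalAt ω.emb f ∈ LocalPow.normOneUnits (localFieldAt ω.emb) := by
  constructor
  · intro hf ω
    exact hf ω.emb
  · intro h τ
    have h1 := h τ.place
    rw [LocalPow.mem_normOneUnits, semiLocalEvalAt_coe] at h1
    rw [← τ.toRep_smul, semiLocalUnits_apply_smul, norm_gq_apply', h1]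

theorem mem_semiLocalIntegral_iff_placeProd (x : IdeleProd K) (q : Nat.Primes) :
    x q ∈ semiLocalIntegral (q : ℕ) K ↔
      ∀ ω : LocalPlace (q : ℕ) K, placeProdEquiv K x ⟨q, ω⟩ ∈ placeUnitGroup (K := K) ⟨q, ω⟩ :=
  mem_semiLocalIntegral_iff_place q (x q)

end PlaceProd

section BoxIdele

variable {K : Type} [Field K]

/-- The evaluation homomorphism `J_K → ∏_v K_vˣ`. -/
def idelePlaceHom : ideleGroup K →* ∀ v : IdelePlace K, (localFieldAt v.2.emb)ˣ :=
  (placeProdEquiv K).toMonoidHom.comp (ideleGroup K).subtype

@[simp]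
theorem idelePlaceHom_apply (x : ideleGroup K) (v : IdelePlace K) :
    idelePlaceHom x v = semiLocalEvalAt v.2.emb ((x : IdeleProd K) v.1) := rfl

theorem idelePlaceHom_injective : Function.Injective (idelePlaceHom (K := K)) := by
  intro x y h
  apply Subtype.ext
  exact (placeProdEquiv K).injective h

/-- The ideles all of whose local components lie in the given local subgroups. -/
def boxIdele (B : ∀ v : IdelePlace K, Subgroup (localFieldAt v.2.emb)ˣ) :
    Subgroup (ideleGroup K) :=
  (box B).comap idelePlaceHom

theorem mem_boxIdele {B : ∀ v : IdelePlace K, Subgroup (localFieldAt v.2.emb)ˣ}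
    {x : ideleGroup K} : x ∈ boxIdele B ↔ ∀ v, idelePlaceHom x v ∈ B v := by
  rw [boxIdele, Subgroup.mem_comap, mem_box]

theorem boxIdele_mono {B C : ∀ v : IdelePlace K, Subgroup (localFieldAt v.2.emb)ˣ}
    (h : ∀ v, B v ≤ C v) : boxIdele B ≤ boxIdele C :=
  Subgroup.comap_mono (box_mono h)

/-- A box of local subgroups which are unit groups outside a finite set of places consists of
ideles. -/
theorem box_le_range_idelePlaceHom (C : ∀ v : IdelePlace K, Subgroup (localFieldAt v.2.emb)ˣ)
    (F : Finset (IdelePlace K)) (hC : ∀ v, v ∉ F → C v ≤ placeUnitGroup v) :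
    box C ≤ (idelePlaceHom (K := K)).range := by
  classical
  intro y hy
  have hx : (placeProdEquiv K).symm y ∈ ideleGroup K := by
    rw [mem_ideleGroup_iff_finite]
    refine (F.image Sigma.fst).finite_toSet.subset fun q hq => ?_
    by_contra hqF
    apply hq
    rw [mem_semiLocalIntegral_iff_placeProd, MulEquiv.apply_symm_apply]
    intro ω
    have hv : (⟨q, ω⟩ : IdelePlace K) ∉ F := fun hmem =>
      hqF (Finset.mem_coe.2 (Finset.mem_image.2 ⟨⟨q, ω⟩, hmem, rfl⟩))
    exact hC _ hv (mem_box.1 hy _)
  refine ⟨⟨(placeProdEquiv K).symm y, hx⟩, ?_⟩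
  exact (placeProdEquiv K).apply_symm_apply y

/-- **Index of box subgroups of the idele group** as a product of local indices. -/
theorem relIndex_boxIdele (B C : ∀ v : IdelePlace K, Subgroup (localFieldAt v.2.emb)ˣ)
    (F F' : Finset (IdelePlace K)) (hF : ∀ v, v ∉ F → C v ≤ B v)
    (hF' : ∀ v, v ∉ F' → C v ≤ placeUnitGroup v) :
    (boxIdele B).relIndex (boxIdele C) = ∏ v ∈ F, (B v).relIndex (C v) := by
  rw [boxIdele, Subgroup.relIndex_comap, boxIdele, Subgroup.map_comap_eq,
    inf_eq_right.2 (box_le_range_idelePlaceHom C F' hF'), relIndex_box B C F hF]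

end BoxIdele

end Fermat.Agent.CFT
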