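import Fermat.Agent.CFT.Global.IdeleGalMapH2
import Fermat.Agent.CFT.GalMapInfRes
import Fermat.Agent.CFT.Local.GalSymbol
import Fermat.Agent.CFT.Global.GlobalInvSupport
import Fermat.Agent.CFT.Global.ArtinTate

/-!
# C5d: assembly of the reciprocity law `invJ ∘ (H²(Lˣ) → H²(J_L)) = 0`

`K ⊆ L ⊆ M`, `K ⊆ F ⊆ M` fields, all normal over `K`, `M/K` finite Galois, `F/K` cyclic with a
faithful character `χ`.  Let `u ∈ H²(Gal(L/K), Lˣ)`.  Assume:

* (`hkill`) the class `res_F (infl_M u) ∈ H²(Gal(M/F), Mˣ)` becomes trivial in `H²(Gal(M/F), J_M)`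
  (it is locally trivial everywhere: the local degrees of `F/K` kill the local invariants of `u`);
* (`hHasse`) `H²(Gal(M/F), Mˣ) → H²(Gal(M/F), J_M)` is injective (Hasse principle, from
  `H¹(Gal(M/F), C_M) = 0`);
* (`hprod`) the product formula `invJ_F (a ∪ δχ) = 0` for all `a ∈ Kˣ`;
* the idele invariants are compatible with inflation to `M`.

Then `invJ_L (u) = 0`.  (The classical proof of the reciprocity law for the Brauer group through
cyclic cyclotomic extensions; here in hypothesis form, for arbitrary additive maps `invJ`.)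
-/

set_option autoImplicit false
set_option linter.unusedSectionVars false

open CategoryTheory groupCohomology Rep

noncomputable section

namespace Fermat.Agent.CFT

section Assembly

variable (K F L M : Type) [Field K] [Field F] [Field L] [Field M]
  [Algebra K F] [Algebra K L] [Algebra K M] [Algebra F M] [Algebra L M]
  [IsScalarTower K F M] [IsScalarTower K L M] [IsGalois K F] [FiniteDimensional K F]
  [Normal K L] [IsGalois K M] [FiniteDimensional K M]

/-- **Reciprocity from a splitting cyclic extension** (hypothesis form). -/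
theorem invJ_ideleH2f_eq_zero_of_split {T : Type*} [Zero T]
    (hF : PrincipalIsIdele F) (hL : PrincipalIsIdele L) (hM : PrincipalIsIdele M)
    (invJF : groupCohomology (ideleRep F (F ≃ₐ[K] F)) 2 → T)
    (invJL : groupCohomology (ideleRep L (L ≃ₐ[K] L)) 2 → T)
    (invJM : groupCohomology (ideleRep M (M ≃ₐ[K] M)) 2 → T)
    (hinflF : ∀ w, invJM ((ideleGalMap K F K M 2).hom w) = invJF w)
    (hinflL : ∀ z, invJM ((ideleGalMap K L K M 2).hom z) = invJL z)
    {n : ℕ} [NeZero n] (χ : (F ≃ₐ[K] F) →* Multiplicative (ZMod n))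
    (hχ : Function.Injective χ) (hdeg : Module.finrank K F = n)
    (hprod : ∀ a : Kˣ, invJF ((ideleH2f K hF).hom (galSymClass K F χ a)) = 0)
    (hHasse : ∀ v : groupCohomology (Rep.ofAlgebraAutOnUnits F M) 2,
      (ideleH2f F hM).hom v = 0 → v = 0)
    (u : groupCohomology (Rep.ofAlgebraAutOnUnits K L) 2)
    (hkill : (ideleH2f F hM).hom ((galRest K F M 2).hom ((galInfl K L M 2).hom u)) = 0) :
    invJL ((ideleH2f K hL).hom u) = 0 := by
  -- inflate to `M`
  rw [← hinflL, ideleGalMap_ideleH2f K L K M hL hM]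
  -- the inflated class restricts to zero over `F`
  have hres : (galRest K F M 2).hom ((galInfl K L M 2).hom u) = 0 := hHasse _ hkill
  -- hence it is inflated from `F/K`
  obtain ⟨u', hu'⟩ := exists_galInfl_eq_of_galRest_eq_zero K F M ((galInfl K L M 2).hom u) hres
  -- which is a symbol class
  obtain ⟨a, ha⟩ := exists_galSymClass K F χ hχ hdeg u'
  have h1 : (galMap K L K M 2).hom u = (galMap K F K M 2).hom u' := hu'.symm
  rw [h1, ← ideleGalMap_ideleH2f K F K M hF hM, hinflF, ha]
  exact hprod a

end Assembly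

section Hasse

variable (K : Type) [Field K] {L : Type} [Field L] [Algebra K L]

/-- **Hasse principle** for `H²`: if `H¹(Gal(L/K), C_L) = 0` then
`H²(Gal(L/K), Lˣ) → H²(Gal(L/K), J_L)` is injective. -/
theorem ideleH2f_injective_of_isZero_H1 (h : PrincipalIsIdele L)
    (hinj : Function.Injective (principalIdele L))
    (h1C : Limits.IsZero (groupCohomology (ideleClassRep L (L ≃ₐ[K] L)) 1)) :
    Function.Injective (ideleH2f K h).hom :=
  map_H2_f_injective (ideleShortComplex_shortExact K h hinj) h1C

theorem eq_zero_of_ideleH2f_eq_zero (h : PrincipalIsIdele L)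
    (hinj : Function.Injective (principalIdele L))
    (h1C : Limits.IsZero (groupCohomology (ideleClassRep L (L ≃ₐ[K] L)) 1))
    (v : groupCohomology (Rep.ofAlgebraAutOnUnits K L) 2) (hv : (ideleH2f K h).hom v = 0) :
    v = 0 :=
  ideleH2f_injective_of_isZero_H1 K h hinj h1C (hv.trans (map_zero _).symm)

end Hasse

section Vanishing

variable (I : LocalInvFamily) (K : Type) [Field K] {L : Type} [Field L] [Algebra K L]
  [Normal K L]

/-- A class of `H²(Gal(L/K), J_L)` vanishes iff all its components do (given that the integral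
semi-local units have trivial `H²` at almost all primes). -/
theorem idele_h2_eq_zero_of_forall_proj [Finite (L ≃ₐ[K] L)]
    (hU2 : ∀ᶠ q : Nat.Primes in Filter.cofinite,
      H2TrivialOn (L ≃ₐ[K] L) (semiLocalIntegral ((q : Nat.Primes) : ℕ) L))
    (y : groupCohomology (ideleRep L (L ≃ₐ[K] L)) 2)
    (hy : ∀ q : Nat.Primes,
      (groupCohomology.map (MonoidHom.id (L ≃ₐ[K] L)) (ideleProjHom K q) 2).hom y = 0) :
    y = 0 := by
  obtain ⟨f, hf, rfl⟩ := exists_h2ClassOfIsMulCocycle₂_eq
    (G := L ≃ₐ[K] L) (M := ideleGroup L) y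
  refine (h2ClassOfIsMulCocycle₂_eq_zero_iff _).2 ?_
  rw [idele_isMulCoboundary₂_iff hU2 hf]
  intro q
  have h1 := map_ideleProjHom_h2Class K q hf (isMulCocycle₂_component K q hf)
  exact (h2ClassOfIsMulCocycle₂_eq_zero_iff _).1 (h1.symm.trans (hy q))

variable [NumberField K] [NumberField L]

/-- A class of `H²(Gal(L/K), A_q L)` vanishes iff all its local invariants do. -/
theorem semiLocal_h2_eq_zero_of_forall_inv (q : Nat.Primes)
    (x : groupCohomology (semiLocalRep L (L ≃ₐ[K] L) ((q : Nat.Primes) : ℕ)) 2)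
    (hx : ∀ ω : LocalPlace ((q : Nat.Primes) : ℕ) K,
      semiLocalInvAt I K q (placeLift K ω) x = 0) : x = 0 := by
  have : Finite (LocalPlace ((q : Nat.Primes) : ℕ) K) := inferInstance
  rw [semiLocal_h2_eq_zero_iff K x]
  intro ω
  have h0 := hx ω
  have := finiteDimensional_localFieldAt (placeLift K ω : LocalEmb ((q : Nat.Primes) : ℕ) L)
  have h1 : semiLocalLocAt K q (placeLift K ω) x = 0 :=
    (I q).inv_injective (localFieldAt_restrict_le K (placeLift K ω))
      (h0.trans (map_zero _).symm)
  have hinj : Function.Injective (localUnitsCohIso K (placeLift K ω :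
      LocalEmb ((q : Nat.Primes) : ℕ) L) 2).hom.hom :=
    (ConcreteCategory.bijective_of_isIso (localUnitsCohIso K (placeLift K ω :
      LocalEmb ((q : Nat.Primes) : ℕ) L) 2).hom).1
  exact hinj (h1.trans (map_zero _).symm)

end Vanishing

section Kill

variable (I : LocalInvFamily) (K F L M : Type) [Field K] [Field F] [Field L] [Field M]
  [Algebra K F] [Algebra K L] [Algebra K M] [Algebra F M] [Algebra L M]
  [IsScalarTower K F M] [IsScalarTower K L M] [Normal K L] [Normal K M] [Normal F M]
  [NumberField F] [NumberField M]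

/-- `res_F (infl_M (f_L u)) = ideleGalMap K L F M (f_L u)` in `H²(Gal(M/F), J_M)`. -/
theorem ideleH2f_galRest_galInfl (hL : PrincipalIsIdele L) (hM : PrincipalIsIdele M)
    (u : groupCohomology (Rep.ofAlgebraAutOnUnits K L) 2) :
    (ideleH2f F hM).hom ((galRest K F M 2).hom ((galInfl K L M 2).hom u)) =
      (ideleGalMap K L F M 2).hom ((ideleH2f K hL).hom u) := by
  rw [ideleGalMap_ideleH2f K L F M hL hM]
  congr 1
  exact ConcreteCategory.congr_hom (galMap_comp K L K M F M 2) u

/-- **The hypothesis `hkill` of `invJ_ideleH2f_eq_zero_of_split` from local vanishing**: if all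
local invariants of `ideleGalMap K L F M (f_L u)` vanish, then `res_F (infl_M u)` becomes trivial
in `H²(Gal(M/F), J_M)`. -/
theorem ideleH2f_galRest_galInfl_eq_zero [Finite (M ≃ₐ[F] M)]
    (hL : PrincipalIsIdele L) (hM : PrincipalIsIdele M)
    (hU2 : ∀ᶠ q : Nat.Primes in Filter.cofinite,
      H2TrivialOn (M ≃ₐ[F] M) (semiLocalIntegral ((q : Nat.Primes) : ℕ) M))
    (u : groupCohomology (Rep.ofAlgebraAutOnUnits K L) 2)
    (hvanish : ∀ (q : Nat.Primes) (ω : LocalPlace ((q : Nat.Primes) : ℕ) F),
      semiLocalInvAt I F q (placeLift F ω)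
        ((groupCohomology.map (MonoidHom.id (M ≃ₐ[F] M)) (ideleProjHom F q) 2).hom
          ((ideleGalMap K L F M 2).hom ((ideleH2f K hL).hom u))) = 0) :
    (ideleH2f F hM).hom ((galRest K F M 2).hom ((galInfl K L M 2).hom u)) = 0 := by
  rw [ideleH2f_galRest_galInfl K F L M hL hM u]
  refine idele_h2_eq_zero_of_forall_proj F hU2 _ fun q => ?_
  exact semiLocal_h2_eq_zero_of_forall_inv I F q _ (hvanish q)

end Kill

section Final

variable (I : LocalInvFamily) (K F L M : Type) [Field K] [Field F] [Field L] [Field M]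
  [Algebra K F] [Algebra K L] [Algebra K M] [Algebra F M] [Algebra L M]
  [IsScalarTower K F M] [IsScalarTower K L M] [IsGalois K F] [FiniteDimensional K F]
  [Normal K L] [IsGalois K M] [FiniteDimensional K M]
  [NumberField K] [NumberField F] [NumberField M]

/-- **C5d, reciprocity law (hypothesis form over the splitting field)**: for a class
`u ∈ H²(Gal(L/K), Lˣ)`, if `F/K` is a cyclic extension with faithful character `χ` such that
* (`hvanish`) all local invariants of the base change of `u` to `M/F` vanish,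
* (`hprod`) the product formula holds for the symbols `a ∪ δχ`, `a ∈ Kˣ`,
* (`h1C`) `H¹(Gal(M/F), C_M) = 0`, (`hU2`) almost all primes are unramified in `M/F`,
* (`hinflF`, `hinflL`) the idele invariant is compatible with inflation to `M`,
then `invJ (f_L u) = 0`. -/
theorem invJFun_ideleH2f_eq_zero
    (hF : PrincipalIsIdele F) (hL : PrincipalIsIdele L) (hM : PrincipalIsIdele M)
    (hinjM : Function.Injective (principalIdele M))
    (hinflF : ∀ w, invJFun I K ((ideleGalMap K F K M 2).hom w) = invJFun I K w)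
    (hinflL : ∀ z, invJFun I K ((ideleGalMap K L K M 2).hom z) = invJFun I K z)
    {n : ℕ} [NeZero n] (χ : (F ≃ₐ[K] F) →* Multiplicative (ZMod n))
    (hχ : Function.Injective χ) (hdeg : Module.finrank K F = n)
    (hprod : ∀ a : Kˣ, invJFun I K ((ideleH2f K hF).hom (galSymClass K F χ a)) = 0)
    (h1C : Limits.IsZero (groupCohomology (ideleClassRep M (M ≃ₐ[F] M)) 1))
    (hU2 : ∀ᶠ q : Nat.Primes in Filter.cofinite,
      H2TrivialOn (M ≃ₐ[F] M) (semiLocalIntegral ((q : Nat.Primes) : ℕ) M))
    (u : groupCohomology (Rep.ofAlgebraAutOnUnits K L) 2)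
    (hvanish : ∀ (q : Nat.Primes) (ω : LocalPlace ((q : Nat.Primes) : ℕ) F),
      haveI : Normal F M := Normal.tower_top_of_normal K F M
      semiLocalInvAt I F q (placeLift F ω)
        ((groupCohomology.map (MonoidHom.id (M ≃ₐ[F] M)) (ideleProjHom F q) 2).hom
          ((ideleGalMap K L F M 2).hom ((ideleH2f K hL).hom u))) = 0) :
    invJFun I K ((ideleH2f K hL).hom u) = 0 := by
  haveI : Normal F M := Normal.tower_top_of_normal K F M
  haveI : FiniteDimensional F M := FiniteDimensional.right K F M
  refine invJ_ideleH2f_eq_zero_of_split K F L M hF hL hM (invJFun I K) (invJFun I K) (invJFun I K)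
    hinflF hinflL χ hχ hdeg hprod
    (fun v hv => eq_zero_of_ideleH2f_eq_zero F hM hinjM h1C v hv) u ?_
  exact ideleH2f_galRest_galInfl_eq_zero I K F L M hL hM hU2 u hvanish

end Final

end Fermat.Agent.CFT

end
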