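import Fermat.Agent.CFT.Global.RecipAssembly
import Fermat.Agent.CFT.Tate.ResCores

/-!
# C5d: assembly of the reciprocity law, `p`-primary form

`Global/RecipAssembly.lean` derives `invJ (f_L u) = 0` from a splitting cyclic extension `F/K`
under the hypothesis `H¹(Gal(M/F), C_M) = 0`.  For the *finite* idele class group this vanishing
only holds on the `p`-primary part (`p` odd; there is `2`-torsion coming from the real places), and
`M/F` is not a `p`-extension in general.  Here the assembly is redone for classes `u` of `p`-power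
order, with the `p`-primary hypothesis

  `h1C : ∀ c ∈ H¹(Gal(M/F), C_M), (∃ n, p ^ n • c = 0) → c = 0`

(available unconditionally: `pPowerTorsion_H1_ideleClass_eq_bot_of_ne_two`).

* `eq_zero_of_ideleH2f_eq_zero_of_pow_nsmul`: the `p`-primary Hasse principle;
* `invJ_ideleH2f_eq_zero_of_split_of_pow_nsmul`: reciprocity from a splitting cyclic extension;
* `invJFun_ideleH2f_eq_zero_of_pow_nsmul`: the final hypothesis form for `invJFun`.
-/

set_option autoImplicit false
set_option linter.unusedSectionVars false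
set_option linter.style.haveILetI false

open CategoryTheory groupCohomology Rep

noncomputable section

namespace Fermat.Agent.CFT

section HasseP

variable (K : Type) [Field K] {L : Type} [Field L] [Algebra K L]

/-- **`p`-primary Hasse principle** for `H²`: if `H¹(Gal(L/K), C_L)` has no `p`-power torsion, then
`H²(Gal(L/K), Lˣ) → H²(Gal(L/K), J_L)` is injective on classes of `p`-power order. -/
theorem eq_zero_of_ideleH2f_eq_zero_of_pow_nsmul {p : ℕ} (hp : p.Prime) [Finite (L ≃ₐ[K] L)]
    (h : PrincipalIsIdele L) (hinj : Function.Injective (principalIdele L))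
    (h1C : ∀ c : groupCohomology (ideleClassRep L (L ≃ₐ[K] L)) 1,
      (∃ n : ℕ, p ^ n • c = 0) → c = 0)
    (v : groupCohomology (Rep.ofAlgebraAutOnUnits K L) 2) (hv : ∃ n : ℕ, p ^ n • v = 0)
    (hfv : (ideleH2f K h).hom v = 0) : v = 0 := by
  have hX := ideleShortComplex_shortExact K h hinj
  have hex := mapShortComplex₁_exact hX (i := 1) (j := 2) rfl
  obtain ⟨c, hc⟩ := (ShortComplex.moduleCat_exact_iff _).1 hex v hfv
  rw [← hc] at hv ⊢
  exact map_eq_zero_of_pPrimary hp
    (mapShortComplex₁ hX (i := 1) (j := 2) rfl).f.hom.toAddMonoidHom (AddMonoidHom.id _)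
    (N := Nat.card (L ≃ₐ[K] L)) Nat.card_pos.ne'
    (fun c => card_nsmul_groupCohomology_eq_zero (ideleClassRep L (L ≃ₐ[K] L)) 0 c)
    (fun c hc' => by
      have h0 : c = 0 := h1C c hc'
      subst h0
      exact map_zero (mapShortComplex₁ hX (i := 1) (j := 2) rfl).f.hom.toAddMonoidHom) c hv

end HasseP

section AssemblyP

variable (K F L M : Type) [Field K] [Field F] [Field L] [Field M]
  [Algebra K F] [Algebra K L] [Algebra K M] [Algebra F M] [Algebra L M]
  [IsScalarTower K F M] [IsScalarTower K L M] [IsGalois K F] [FiniteDimensional K F]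
  [Normal K L] [IsGalois K M] [FiniteDimensional K M]

/-- **Reciprocity from a splitting cyclic extension, `p`-primary form**: as
`invJ_ideleH2f_eq_zero_of_split`, for a class `u` of `p`-power order and the Hasse principle on
classes of `p`-power order only. -/
theorem invJ_ideleH2f_eq_zero_of_split_of_pow_nsmul {T : Type*} [Zero T] (p : ℕ)
    (hF : PrincipalIsIdele F) (hL : PrincipalIsIdele L) (hM : PrincipalIsIdele M)
    (invJF : groupCohomology (ideleRep F (F ≃ₐ[K] F)) 2 → T)
    (invJL : groupCohomology (ideleRep L (L ≃ₐ[K] L)) 2 → T)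
    (invJM : groupCohomology (ideleRep M (M ≃ₐ[K] M)) 2 → T)
    (hinflF : ∀ w, invJM ((ideleGalMap K F K M 2).hom w) = invJF w)
    (hinflL : ∀ z, invJM ((ideleGalMap K L K M 2).hom z) = invJL z)
    {n : ℕ} [NeZero n] (χ : (F ≃ₐ[K] F) →* Multiplicative (ZMod n))
    (hχ : Function.Injective χ) (hdeg : Module.finrank K F = n)
    (hprod : ∀ a : Kˣ, invJF ((ideleH2f K hF).hom (galSymClass K F χ a)) = 0)
    (hHasse : ∀ v : groupCohomology (Rep.ofAlgebraAutOnUnits F M) 2,
      (∃ m : ℕ, p ^ m • v = 0) → (ideleH2f F hM).hom v = 0 → v = 0)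
    (u : groupCohomology (Rep.ofAlgebraAutOnUnits K L) 2) (hu : ∃ m : ℕ, p ^ m • u = 0)
    (hkill : (ideleH2f F hM).hom ((galRest K F M 2).hom ((galInfl K L M 2).hom u)) = 0) :
    invJL ((ideleH2f K hL).hom u) = 0 := by
  -- inflate to `M`
  rw [← hinflL, ideleGalMap_ideleH2f K L K M hL hM]
  -- the inflated class restricts to zero over `F`
  have hres : (galRest K F M 2).hom ((galInfl K L M 2).hom u) = 0 := by
    refine hHasse _ ?_ hkill
    obtain ⟨m, hm⟩ := hu
    exact ⟨m, by rw [← map_nsmul, ← map_nsmul, hm, map_zero, map_zero]⟩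
  -- hence it is inflated from `F/K`
  obtain ⟨u', hu'⟩ := exists_galInfl_eq_of_galRest_eq_zero K F M ((galInfl K L M 2).hom u) hres
  -- which is a symbol class
  obtain ⟨a, ha⟩ := exists_galSymClass K F χ hχ hdeg u'
  have h1 : (galMap K L K M 2).hom u = (galMap K F K M 2).hom u' := hu'.symm
  rw [h1, ← ideleGalMap_ideleH2f K F K M hF hM, hinflF, ha]
  exact hprod a

end AssemblyP

section FinalP

variable (I : LocalInvFamily) (K F L M : Type) [Field K] [Field F] [Field L] [Field M]
  [Algebra K F] [Algebra K L] [Algebra K M] [Algebra F M] [Algebra L M]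
  [IsScalarTower K F M] [IsScalarTower K L M] [IsGalois K F] [FiniteDimensional K F]
  [Normal K L] [IsGalois K M] [FiniteDimensional K M]
  [NumberField K] [NumberField F] [NumberField M]

/-- **C5d, reciprocity law for classes of `p`-power order (hypothesis form over the splitting
field)**: as `invJFun_ideleH2f_eq_zero`, but `u` has `p`-power order and `h1C` is only the
vanishing of the `p`-power torsion of `H¹(Gal(M/F), C_M)`. -/
theorem invJFun_ideleH2f_eq_zero_of_pow_nsmul {p : ℕ} (hp : p.Prime)
    (hF : PrincipalIsIdele F) (hL : PrincipalIsIdele L) (hM : PrincipalIsIdele M)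
    (hinjM : Function.Injective (principalIdele M))
    (hinflF : ∀ w, invJFun I K ((ideleGalMap K F K M 2).hom w) = invJFun I K w)
    (hinflL : ∀ z, invJFun I K ((ideleGalMap K L K M 2).hom z) = invJFun I K z)
    {n : ℕ} [NeZero n] (χ : (F ≃ₐ[K] F) →* Multiplicative (ZMod n))
    (hχ : Function.Injective χ) (hdeg : Module.finrank K F = n)
    (hprod : ∀ a : Kˣ, invJFun I K ((ideleH2f K hF).hom (galSymClass K F χ a)) = 0)
    (h1C : ∀ c : groupCohomology (ideleClassRep M (M ≃ₐ[F] M)) 1,
      (∃ m : ℕ, p ^ m • c = 0) → c = 0)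
    (hU2 : ∀ᶠ q : Nat.Primes in Filter.cofinite,
      H2TrivialOn (M ≃ₐ[F] M) (semiLocalIntegral ((q : Nat.Primes) : ℕ) M))
    (u : groupCohomology (Rep.ofAlgebraAutOnUnits K L) 2) (hu : ∃ m : ℕ, p ^ m • u = 0)
    (hvanish : ∀ (q : Nat.Primes) (ω : LocalPlace ((q : Nat.Primes) : ℕ) F),
      haveI : Normal F M := Normal.tower_top_of_normal K F M
      semiLocalInvAt I F q (placeLift F ω)
        ((groupCohomology.map (MonoidHom.id (M ≃ₐ[F] M)) (ideleProjHom F q) 2).hom
          ((ideleGalMap K L F M 2).hom ((ideleH2f K hL).hom u))) = 0) :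
    invJFun I K ((ideleH2f K hL).hom u) = 0 := by
  haveI : Normal F M := Normal.tower_top_of_normal K F M
  haveI : FiniteDimensional F M := FiniteDimensional.right K F M
  haveI : Finite (M ≃ₐ[F] M) := inferInstance
  refine invJ_ideleH2f_eq_zero_of_split_of_pow_nsmul K F L M p hF hL hM (invJFun I K)
    (invJFun I K) (invJFun I K) hinflF hinflL χ hχ hdeg hprod
    (fun v hv hfv => eq_zero_of_ideleH2f_eq_zero_of_pow_nsmul F hp hM hinjM h1C v hv hfv) u hu ?_
  exact ideleH2f_galRest_galInfl_eq_zero I K F L M hL hM hU2 u hvanish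

end FinalP

end Fermat.Agent.CFT

end
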