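import Fermat.Agent.CFT.Global.RecipFieldLocal
import Fermat.Agent.CFT.Global.CycloSplit

/-!
# Layer C / C5d-B (B1), cyclotomic part: the cyclic `p`-extension `Z/ℚ` inside `ℚ(ζ_N)` (helper16)

* `kerField Ψ`, `kerFieldChar Ψ`: for a character `Ψ` of `Gal(M/ℚ)` (`M` a Galois number field)
  with values in `ℤ/n`, the fixed field `Z` of `ker Ψ` (Galois over `ℚ`) and the induced FAITHFUL
  character `ψ̄` of `Gal(Z/ℚ)` (`kerFieldChar_restrictNormal`, `kerFieldChar_comp`,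
  `kerFieldChar_injective`).  All statements use the canonical `ℚ`-algebra structure
  (`DivisionRing.toRatAlgebra`) on `↥Z`, as in `CycloReciprocityN.lean`.
* `exists_cyclic_subfield`: **(B1), Type-level**.  For `p` odd, `Q` a finite set of primes, `r`:
  auxiliary primes `L` and characters `χ_ℓ` (shape of `CycloSplit.exists_character`, i.e. of
  `ratRecip_cycloN`) such that in every `M = ℚ(ζ_N)`, `N = ∏ L`, the field `Z = kerField Ψ` has a
  faithful character `ψ̄` inflating to `Ψ = ∏ χ_ℓ ∘ (mod ℓ) ∘ galEquivZMod` and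
  `p ^ r ∣ [Z_τ : ℚ_q]` for all `q ∈ Q` and all `τ : Z → ℚ̄_q`.
-/

set_option autoImplicit false
set_option linter.unusedSectionVars false
set_option linter.style.haveILetI false

open scoped Padic

noncomputable section

namespace Fermat.Agent.CFT

namespace RecipField


open IntermediateField

section FixedField

variable {M : Type} [Field M] [NumberField M] [IsGalois ℚ M]
  {n : ℕ} (Ψ : (M ≃ₐ[ℚ] M) →* Multiplicative (ZMod n))

/-- The fixed field of the kernel of a character of `Gal(M/ℚ)`. -/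
def kerField : IntermediateField ℚ M := IntermediateField.fixedField Ψ.ker

theorem fixingSubgroup_kerField : (kerField Ψ).fixingSubgroup = Ψ.ker :=
  IntermediateField.fixingSubgroup_fixedField Ψ.ker

instance isGalois_kerField : IsGalois ℚ (kerField Ψ) :=
  IsGalois.of_fixedField_normal_subgroup Ψ.ker

theorem mem_ker_restrictNormalHom_iff (Z : IntermediateField ℚ M) [Normal ℚ Z] (σ : M ≃ₐ[ℚ] M) :
    σ ∈ (AlgEquiv.restrictNormalHom (F := ℚ) (K₁ := M) Z).ker ↔ σ ∈ Z.fixingSubgroup := by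
  rw [MonoidHom.mem_ker, IntermediateField.mem_fixingSubgroup_iff]
  constructor
  · intro h z hz
    have h1 := AlgEquiv.restrictNormal_commutes σ Z ⟨z, hz⟩
    have h2 : σ.restrictNormal Z = 1 := h
    rw [h2] at h1
    exact h1.symm
  · intro h
    ext z
    have h1 := AlgEquiv.restrictNormal_commutes σ Z z
    show ((σ.restrictNormal Z z : Z) : M) = ((z : Z) : M)
    exact h1.trans (h z z.2)

theorem ker_restrictNormalHom_kerField :
    (AlgEquiv.restrictNormalHom (F := ℚ) (K₁ := M) (kerField Ψ)).ker = Ψ.ker := by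
  ext σ
  rw [mem_ker_restrictNormalHom_iff, fixingSubgroup_kerField]

/-- The character of `Gal(fixed field of ker Ψ / ℚ)` induced by `Ψ`. -/
def kerFieldChar : ((kerField Ψ) ≃ₐ[ℚ] (kerField Ψ)) →* Multiplicative (ZMod n) :=
  (AlgEquiv.restrictNormalHom (F := ℚ) (K₁ := M) (kerField Ψ)).liftOfSurjective
    (AlgEquiv.restrictNormalHom_surjective M)
    ⟨Ψ, (ker_restrictNormalHom_kerField Ψ).le⟩

theorem kerFieldChar_restrictNormal (σ : M ≃ₐ[ℚ] M) :
    kerFieldChar Ψ (σ.restrictNormal (kerField Ψ)) = Ψ σ :=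
  MonoidHom.liftOfRightInverse_comp_apply _ _ _ _ σ

theorem kerFieldChar_comp :
    (kerFieldChar Ψ).comp (AlgEquiv.restrictNormalHom (kerField Ψ)) = Ψ :=
  MonoidHom.ext (kerFieldChar_restrictNormal Ψ)

theorem kerFieldChar_injective : Function.Injective (kerFieldChar Ψ) := by
  rw [injective_iff_map_eq_one]
  intro y hy
  obtain ⟨σ, rfl⟩ := AlgEquiv.restrictNormalHom_surjective (F := ℚ) (K₁ := kerField Ψ) M y
  have h1 : Ψ σ = 1 := by
    rw [← kerFieldChar_restrictNormal Ψ σ]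
    exact hy
  have h2 : σ ∈ (AlgEquiv.restrictNormalHom (F := ℚ) (K₁ := M) (kerField Ψ)).ker := by
    rw [ker_restrictNormalHom_kerField]
    exact h1
  exact h2

end FixedField




/-- **(B1), Type-level**: for an odd prime `p`, a finite set `Q` of primes and `r`, there are
auxiliary primes `ℓ ∈ L` (odd, prime to `p ∏ Q`) and characters `χ_ℓ` of `(ℤ/ℓ)ˣ` with values in
`ℤ/p^k` such that inside every cyclotomic field `M = ℚ(ζ_N)`, `N = ∏ ℓ`, the fixed field `Z` of the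
kernel of `Ψ = ∏ χ_ℓ ∘ (mod ℓ) ∘ galEquivZMod` is Galois over `ℚ` with a FAITHFUL character `ψ̄` of
`Gal(Z/ℚ)` (so `Z/ℚ` is cyclic of `p`-power degree) inflating to `Ψ`, and every `q ∈ Q` has all its
local degrees in `Z` divisible by `p ^ r`. -/
theorem exists_cyclic_subfield (p : ℕ) (hp : p.Prime) (hp2 : p ≠ 2) (Q : Finset ℕ)
    (hQ : ∀ q ∈ Q, q.Prime) (r : ℕ) :
    ∃ (L : Finset ℕ) (k : ℕ) (χ : ∀ ℓ : L, (ZMod (ℓ : ℕ))ˣ →* Multiplicative (ZMod (p ^ k))),
      (∀ ℓ ∈ L, ℓ.Prime ∧ 2 < ℓ ∧ ¬ ℓ ∣ p * ∏ q ∈ Q, q) ∧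
      ∀ (M : Type) [Field M] [NumberField M] [NeZero (∏ ℓ ∈ L, ℓ)]
          [IsCyclotomicExtension {∏ ℓ ∈ L, ℓ} ℚ M],
        ∃ (Z : IntermediateField ℚ M) (_ : IsGalois ℚ Z)
          (ψb : (Z ≃ₐ[ℚ] Z) →* Multiplicative (ZMod (p ^ k))),
          Function.Injective ψb ∧
          (∀ σ : M ≃ₐ[ℚ] M, ψb (σ.restrictNormal Z) =
            ∏ ℓ : L, χ ℓ (ZMod.unitsMap (Finset.dvd_prod_of_mem (fun ℓ => ℓ) ℓ.2)
              (IsCyclotomicExtension.Rat.galEquivZMod (∏ ℓ ∈ L, ℓ) M σ))) ∧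
          ∀ (q : ℕ) [Fact q.Prime], q ∈ Q → ∀ τ : LocalEmb q Z,
            p ^ r ∣ Module.finrank ℚ_[q] (localFieldAt τ) := by
  obtain ⟨L, k, χ, ψ, hL, hψ, hord⟩ := CycloSplit.exists_character p hp hp2 Q hQ r
  refine ⟨L, k, χ, hL, ?_⟩
  intro M _ _ _ _
  haveI : IsGalois ℚ M := IsCyclotomicExtension.isGalois {∏ ℓ ∈ L, ℓ} ℚ M
  set Ψ : (M ≃ₐ[ℚ] M) →* Multiplicative (ZMod (p ^ k)) :=
    ψ.comp (IsCyclotomicExtension.Rat.galEquivZMod (∏ ℓ ∈ L, ℓ) M).toMonoidHom with hΨ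
  refine ⟨kerField Ψ, isGalois_kerField Ψ, kerFieldChar Ψ, kerFieldChar_injective Ψ, ?_, ?_⟩
  · intro σ
    exact (kerFieldChar_restrictNormal Ψ σ).trans
      (hψ (IsCyclotomicExtension.Rat.galEquivZMod (∏ ℓ ∈ L, ℓ) M σ))
  · intro q _ hq τ
    have hqN : Nat.Coprime q (∏ ℓ ∈ L, ℓ) := by
      apply Nat.Coprime.prod_right
      intro ℓ hℓ
      rw [Nat.coprime_primes (hQ q hq) (hL ℓ hℓ).1]
      rintro rfl
      exact (hL q hℓ).2.2 (Dvd.dvd.mul_left (Finset.dvd_prod_of_mem (fun q => q) hq) p)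
    have h0 : ∀ σ : M ≃ₐ[ℚ] M, kerFieldChar Ψ (σ.restrictNormal (kerField Ψ)) =
        ψ (IsCyclotomicExtension.Rat.galEquivZMod (∏ ℓ ∈ L, ℓ) M σ) :=
      fun σ => kerFieldChar_restrictNormal Ψ σ
    have h1 := orderOf_dvd_finrank_localFieldAt_cyclo (∏ ℓ ∈ L, ℓ) (kerField Ψ) (kerFieldChar Ψ) ψ
      h0 hqN τ
    exact dvd_trans (hord q hq _ (ZMod.coe_unitOfCoprime q hqN)) h1

end RecipField

end Fermat.Agent.CFT
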