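import Fermat.Agent.CFT.Global.CycloReciprocityN
import Fermat.Agent.CFT.Global.GlobalInvFunctPlace
import Fermat.Agent.CFT.Global.LocalDegreeSum

/-!
# Layer C / C5d-B (B1), local part: local degrees of abelian subfields of `ℚ(ζ_N)` (helper16)

* `exists_aut_pow_rootsOfUnity`: a finite Galois extension of `ℚ_q` has an automorphism raising
  every root of unity of order prime to `q` to the `q`-th power (Frobenius);
* `orderOf_dvd_finrank_localFieldAt`: if `γ ∈ Gal(ℚ̄_q/ℚ_q)` induces `ρ ∈ Gal(Z/ℚ)` through an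
  embedding `τ : Z → ℚ̄_q` (`Z/ℚ` normal), then `orderOf ρ ∣ [Z_τ : ℚ_q]`;
* `exists_gq_smul_eq_comp`: for `q ∤ N` and `τ' : ℚ(ζ_N) → ℚ̄_q` some `γ` induces the automorphism
  corresponding to `q mod N` under `galEquivZMod`;
* `orderOf_dvd_finrank_localFieldAt_cyclo`: for `Z ⊆ ℚ(ζ_N)` normal and a character `ψ̄` of
  `Gal(Z/ℚ)` inflating to `ψ ∘ galEquivZMod`: `orderOf (ψ (q mod N)) ∣ [Z_τ : ℚ_q]`;
* `finrank_localFieldAt_le`, `finrank_localFieldAt_restrict_dvd`;
* `pow_dvd_localDegree` (degree count): `p ^ r ∣ [Z_τ : ℚ_q]`, `[K : ℚ] < p ^ (v + 1)` imply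
  `p ^ (r - v) ∣ localDegree K F τ` for `K, Z ⊆ F`.
-/

set_option autoImplicit false
set_option linter.unusedSectionVars false
set_option linter.style.haveILetI false

open scoped Padic

noncomputable section

namespace Fermat.Agent.CFT

namespace RecipField

open GaloisTower


open IsLocalRing

/-- **Frobenius on a finite Galois extension of `ℚ_q`**: an automorphism raising every root of
unity of order prime to `q` to the `q`-th power. -/
theorem exists_aut_pow_rootsOfUnity {q : ℕ} [hq : Fact q.Prime] (M : Type) [Field M]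
    [Algebra ℚ_[q] M] [FiniteDimensional ℚ_[q] M] [IsGalois ℚ_[q] M] :
    ∃ φ : M ≃ₐ[ℚ_[q]] M, ∀ m : ℕ, Nat.Coprime q m → ∀ z : M, z ^ m = 1 → φ z = z ^ q := by
  letI : Algebra ℤ_[q] M := ((algebraMap ℚ_[q] M).comp (algebraMap ℤ_[q] ℚ_[q])).toAlgebra
  haveI : IsScalarTower ℤ_[q] ℚ_[q] M := IsScalarTower.of_algebraMap_eq fun _ => rfl
  haveI := intRing_isLocalRing ℤ_[q] ℚ_[q] M
  haveI := intRing_isLocalHom ℤ_[q] ℚ_[q] M
  refine ⟨frob ℤ_[q] ℚ_[q] M, fun m hm z hz => ?_⟩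
  have hunit : IsUnit ((m : ℕ) : ℤ_[q]) := by
    rw [PadicInt.isUnit_iff, PadicInt.norm_natCast_eq_one_iff]
    exact hm
  have := (isFrob_frob ℤ_[q] ℚ_[q] M).apply_rootOfUnity hunit hz
  rwa [TameSym.card_residueField_padicInt] at this



variable {q : ℕ} [Fact q.Prime]

local notation "Ω" => PadicAlgCl q

section OrderDvd

variable {Z : Type} [Field Z] [NumberField Z] [Normal ℚ Z]

theorem pow_smul_eq_comp_pow (τ : LocalEmb q Z) (γ : Gq q) (ρ : Z ≃ₐ[ℚ] Z)
    (hρ : γ • τ = τ.comp ((ρ : Z ≃ₐ[ℚ] Z) : Z →+* Z)) (j : ℕ) :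
    γ ^ j • τ = τ.comp (((ρ ^ j : Z ≃ₐ[ℚ] Z)) : Z →+* Z) := by
  induction j with
  | zero =>
    rw [pow_zero, pow_zero, one_smul]
    ext x
    rfl
  | succ j ih =>
    rw [pow_succ', mul_smul, ih]
    ext x
    show γ (τ ((ρ ^ j) x)) = τ ((ρ ^ (j + 1)) x)
    have h1 : γ (τ ((ρ ^ j) x)) = (γ • τ) ((ρ ^ j) x) := rfl
    rw [h1, hρ, pow_succ']
    rfl

/-- If `γ ∈ Gal(ℚ̄_q/ℚ_q)` induces `ρ ∈ Gal(Z/ℚ)` via the embedding `τ`, the order of `ρ` divides
the local degree `[Z_τ : ℚ_q]`. -/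
theorem orderOf_dvd_finrank_localFieldAt (τ : LocalEmb q Z) (γ : Gq q) (ρ : Z ≃ₐ[ℚ] Z)
    (hρ : γ • τ = τ.comp ((ρ : Z ≃ₐ[ℚ] Z) : Z →+* Z)) :
    orderOf ρ ∣ Module.finrank ℚ_[q] (localFieldAt τ) := by
  haveI := finiteDimensional_localFieldAt τ
  haveI := normal_localFieldAt_rat τ
  haveI := isGalois_localFieldAt_rat τ
  set m := Module.finrank ℚ_[q] (localFieldAt τ) with hm
  have hcard : Nat.card ((localFieldAt τ) ≃ₐ[ℚ_[q]] (localFieldAt τ)) = m :=
    IsGalois.card_aut_eq_finrank _ _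
  -- `γ ^ m` fixes `Z_τ` pointwise
  have h1 : AlgEquiv.restrictNormalHom (localFieldAt τ) (γ ^ m) = 1 := by
    rw [map_pow, ← hcard]
    exact pow_card_eq_one'
  have h2 : ∀ y ∈ localFieldAt τ, (γ ^ m) y = y := by
    intro y hy
    have := AlgEquiv.restrictNormal_commutes (γ ^ m) (localFieldAt τ) ⟨y, hy⟩
    have h3 : (γ ^ m).restrictNormal (localFieldAt τ) = 1 := h1
    rw [h3] at this
    exact this.symm
  have h3 : γ ^ m • τ = τ := by
    ext x
    exact h2 _ (apply_mem_localFieldAt τ x)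
  rw [pow_smul_eq_comp_pow τ γ ρ hρ m] at h3
  apply orderOf_dvd_of_pow_eq_one
  ext x
  apply τ.injective
  exact congrArg (fun σ : LocalEmb q Z => σ x) h3

end OrderDvd




section Cyclo

variable (N : ℕ) [NeZero N] {M : Type} [Field M] [NumberField M] [IsCyclotomicExtension {N} ℚ M]

/-- An automorphism of `ℚ(ζ_N)` with `ρ ζ = ζ ^ m` corresponds to `m mod N`. -/
theorem galEquivZMod_eq_of_pow {ζ : M} (hζ : IsPrimitiveRoot ζ N) (ρ : M ≃ₐ[ℚ] M) (m : ℕ)
    (c : (ZMod N)ˣ) (h : ρ ζ = ζ ^ m) (hc : (c : ZMod N) = (m : ZMod N)) :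
    IsCyclotomicExtension.Rat.galEquivZMod N M ρ = c := by
  apply Units.ext
  rw [hc]
  have h1 := IsCyclotomicExtension.Rat.galEquivZMod_apply_of_pow_eq N M ρ hζ.pow_eq_one
  rw [h, (hζ.isOfFinOrder (NeZero.ne _)).pow_inj_mod, ← hζ.eq_orderOf,
    ← ZMod.natCast_eq_natCast_iff', ZMod.natCast_val, ZMod.cast_id] at h1
  exact h1.symm

/-- **The Frobenius at `q ∤ N` on `ℚ(ζ_N)`**, seen through an embedding `τ'` into `ℚ̄_q`: some
`γ ∈ Gal(ℚ̄_q/ℚ_q)` induces via `τ'` the automorphism `ζ ↦ ζ ^ q`. -/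
theorem exists_gq_smul_eq_comp (hq : Nat.Coprime q N) (τ' : LocalEmb q M) :
    ∃ (γ : Gq q) (ρ' : M ≃ₐ[ℚ] M), γ • τ' = τ'.comp ((ρ' : M ≃ₐ[ℚ] M) : M →+* M) ∧
      IsCyclotomicExtension.Rat.galEquivZMod N M ρ' = ZMod.unitOfCoprime q hq := by
  haveI : IsGalois ℚ M := IsCyclotomicExtension.isGalois {N} ℚ M
  haveI := finiteDimensional_localFieldAt τ'
  haveI := normal_localFieldAt_rat τ'
  haveI := isGalois_localFieldAt_rat τ'
  obtain ⟨φ, hφ⟩ := exists_aut_pow_rootsOfUnity (q := q) (localFieldAt τ')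
  obtain ⟨γ, hγ⟩ := AlgEquiv.restrictNormalHom_surjective (F := ℚ_[q]) (K₁ := localFieldAt τ') Ω φ
  have h1 : localEmbRestrict ℚ τ' = localEmbRestrict ℚ (γ • τ') := RingHom.ext_rat _ _
  obtain ⟨ρ', hρ', -⟩ := exists_unique_algEquiv_comp ℚ h1
  refine ⟨γ, ρ', hρ', ?_⟩
  have hζ := IsCyclotomicExtension.zeta_spec N ℚ M
  set ζ := IsCyclotomicExtension.zeta N ℚ M with hζdef
  refine galEquivZMod_eq_of_pow N hζ ρ' q _ ?_ (ZMod.coe_unitOfCoprime _ _)
  apply τ'.injective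
  have h2 : τ' (ρ' ζ) = γ (τ' ζ) := (congrArg (fun σ : LocalEmb q M => σ ζ) hρ').symm
  rw [h2, map_pow]
  have h3 := AlgEquiv.restrictNormal_commutes γ (localFieldAt τ')
    ⟨τ' ζ, apply_mem_localFieldAt τ' ζ⟩
  have h4 : γ.restrictNormal (localFieldAt τ') = φ := hγ
  rw [h4] at h3
  have h5 : φ ⟨τ' ζ, apply_mem_localFieldAt τ' ζ⟩ =
      (⟨τ' ζ, apply_mem_localFieldAt τ' ζ⟩ : localFieldAt τ') ^ q := by
    refine hφ N hq _ ?_
    apply Subtype.ext
    show (τ' ζ) ^ N = 1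
    rw [← map_pow, hζ.pow_eq_one, map_one]
  rw [h5] at h3
  exact h3.symm

/-- **Local degrees of subfields of `ℚ(ζ_N)` at `q ∤ N`**: if `Z ⊆ ℚ(ζ_N)` is normal over `ℚ` and
the character `ψ̄` of `Gal(Z/ℚ)` inflates to `ψ ∘ galEquivZMod`, then the order of `ψ (q mod N)`
divides `[Z_τ : ℚ_q]` for every embedding `τ : Z → ℚ̄_q`. -/
theorem orderOf_dvd_finrank_localFieldAt_cyclo (Z : IntermediateField ℚ M) [Normal ℚ Z]
    {A : Type*} [Group A] (ψb : (Z ≃ₐ[ℚ] Z) →* A) (ψ : (ZMod N)ˣ →* A)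
    (h : ∀ σ : M ≃ₐ[ℚ] M, ψb (σ.restrictNormal Z) =
      ψ (IsCyclotomicExtension.Rat.galEquivZMod N M σ))
    (hq : Nat.Coprime q N) (τ : LocalEmb q Z) :
    orderOf (ψ (ZMod.unitOfCoprime q hq)) ∣ Module.finrank ℚ_[q] (localFieldAt τ) := by
  haveI : NumberField Z := NumberField.of_intermediateField Z
  obtain ⟨τ', rfl⟩ := localEmbRestrict_surjective (q := q) (K := Z) (L := M) τ
  obtain ⟨γ, ρ', hρ', hgal⟩ := exists_gq_smul_eq_comp N hq τ'
  have h1 : γ • localEmbRestrict Z τ' =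
      (localEmbRestrict Z τ').comp (((ρ'.restrictNormal Z : Z ≃ₐ[ℚ] Z)) : Z →+* Z) := by
    ext z
    show γ (τ' (algebraMap Z M z)) = τ' (algebraMap Z M (ρ'.restrictNormal Z z))
    rw [AlgEquiv.restrictNormal_commutes]
    exact congrArg (fun σ : LocalEmb q M => σ (algebraMap Z M z)) hρ'
  have h2 := orderOf_dvd_finrank_localFieldAt (localEmbRestrict Z τ') γ (ρ'.restrictNormal Z) h1
  refine dvd_trans ?_ h2
  rw [← hgal, ← h]
  exact orderOf_map_dvd ψb _

end Cyclo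





section LocalDegree

/-- `[K_τ : ℚ_q] ≤ [K : ℚ]`. -/
theorem finrank_localFieldAt_le {K : Type} [Field K] [NumberField K] (τ : LocalEmb q K) :
    Module.finrank ℚ_[q] (localFieldAt τ) ≤ Module.finrank ℚ K := by
  rw [← LocalPow.card_orbit_eq_finrank τ, ← card_localEmb (q := q) (K := K)]
  exact Nat.card_le_card_of_injective (fun x => (x : LocalEmb q K)) Subtype.val_injective

theorem finrank_localFieldAt_pos {K : Type} [Field K] [NumberField K] (τ : LocalEmb q K) :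
    0 < Module.finrank ℚ_[q] (localFieldAt τ) := by
  haveI := finiteDimensional_localFieldAt τ
  exact Module.finrank_pos

/-- `[Z_τ : ℚ_q]` divides `[F_τ : ℚ_q]` for a subfield `Z` of `F`. -/
theorem finrank_localFieldAt_restrict_dvd (Z : Type) [Field Z] {F : Type} [Field F]
    [Algebra Z F] [NumberField Z] [NumberField F] (τ : LocalEmb q F) :
    Module.finrank ℚ_[q] (localFieldAt (localEmbRestrict Z τ)) ∣
      Module.finrank ℚ_[q] (localFieldAt τ) :=
  Dvd.intro _ (finrank_localFieldAt_mul_finrank_layer Z τ)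

/-- **Degree count.**  If `p ^ r` divides the local degree `[Z_τ : ℚ_q]` of a subfield `Z ⊆ F` and
`[K : ℚ] < p ^ (v + 1)`, then `p ^ (r - v)` divides the relative local degree `[F_τ : K_τ]`. -/
theorem pow_dvd_localDegree (K Z : Type) [Field K] [Field Z] {F : Type} [Field F]
    [Algebra K F] [Algebra Z F] [NumberField K] [NumberField Z] [NumberField F]
    {p r v : ℕ} (hp : p.Prime) (τ : LocalEmb q F)
    (hZ : p ^ r ∣ Module.finrank ℚ_[q] (localFieldAt (localEmbRestrict Z τ)))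
    (hK : Module.finrank ℚ K < p ^ (v + 1)) :
    p ^ (r - v) ∣ localDegree K F τ := by
  have htower := finrank_localFieldAt_mul_finrank_layer K τ
  set a := Module.finrank ℚ_[q] (localFieldAt (localEmbRestrict K τ)) with ha
  have hd : localDegree K F τ =
      Module.finrank (localFieldAt (localEmbRestrict K τ)) (layer (localFieldAt_restrict_le K τ)) :=
    rfl
  rw [← hd] at htower
  set d := localDegree K F τ with hdd
  have hdvd : p ^ r ∣ a * d := by
    rw [htower]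
    exact dvd_trans hZ (finrank_localFieldAt_restrict_dvd Z τ)
  have ha0 : 0 < a := finrank_localFieldAt_pos _
  have hale : a < p ^ (v + 1) := lt_of_le_of_lt (finrank_localFieldAt_le _) hK
  have hd0 : d ≠ 0 := by
    intro h0
    have : 0 < Module.finrank ℚ_[q] (localFieldAt τ) := finrank_localFieldAt_pos τ
    rw [← htower, h0, mul_zero] at this
    exact lt_irrefl _ this
  have hfa : a.factorization p ≤ v := by
    by_contra hlt
    push Not at hlt
    have h1 : p ^ (v + 1) ∣ a :=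
      (hp.pow_dvd_iff_le_factorization ha0.ne').2 hlt
    exact absurd (Nat.le_of_dvd ha0 h1) (not_le.2 hale)
  have h2 : r ≤ (a * d).factorization p :=
    (hp.pow_dvd_iff_le_factorization (mul_ne_zero ha0.ne' hd0)).1 hdvd
  rw [Nat.factorization_mul ha0.ne' hd0, Finsupp.add_apply] at h2
  rw [hp.pow_dvd_iff_le_factorization hd0]
  omega

end LocalDegree

end RecipField

end Fermat.Agent.CFT
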