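import Fermat.Agent.CFT.Global.SModules

/-!
# Layer C/D: the full smooth `S`-idele class module `C_S'` and the map `C_S → C_S'`

Generic setting of `Global/SModules.lean`: a group `G` with level structure `L` acting on a field
`K`, a set `S` of primes.

* `JFull L K`: the smooth ideles of `K`; `jFullRep`;
* `CSFull L K S ≤ ideleClassS K S`: the image of the smooth ideles in `J_K / (Kˣ U_{K,S})`, with
  its `G`-action (`csFullAction`), `csFullRep`, `isSmooth_csFullRep`, `jFullToCsFull` (surjective);
* for `S` finite: `jsToJFull hS : JS L K S →* JFull L K` (extension by `1`), equivariant and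
  injective; `csToCsFull hS : CS L K S →* CSFull L K S`, `csToCsFullHom hS : csRep ⟶ csFullRep`,
  and the commutative square `jsToCs ≫ csToCsFull = jsToJFull ≫ jFullToCsFull`;
* (T1) `csToCsFull_injective`.
-/

set_option autoImplicit false

open CategoryTheory

noncomputable section

namespace Fermat.Agent.CFT

section Full

variable {G : Type} [Group G] (L : LevelStructure G) (K : Type) [Field K]
  [MulSemiringAction G K] (S : Set Nat.Primes)

/-- The smooth ideles of `K`. -/
abbrev JFull : Subgroup (ideleGroup K) := smoothSubgroup L (ideleGroup K)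

/-- The smooth ideles as a representation. -/
def jFullRep : Rep ℤ G := smoothRep L (ideleGroup K)

theorem isSmooth_jFullRep : IsSmooth L (jFullRep L K) := isSmooth_smoothRep L _

/-- `C_S'`: the image of the smooth ideles in `J_K / (Kˣ U_{K,S})`. -/
def CSFull : Subgroup (ideleClassS K S) :=
  (smoothSubgroup L (ideleGroup K)).map (QuotientGroup.mk' (principalUnitSubgroup K S))

variable {L K S}

theorem mem_CSFull {c : ideleClassS K S} :
    c ∈ CSFull L K S ↔ ∃ y ∈ JFull L K, (QuotientGroup.mk y : ideleClassS K S) = c := Iff.rfl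

theorem smul_mem_CSFull (σ : G) {c : ideleClassS K S} (hc : c ∈ CSFull L K S) :
    σ • c ∈ CSFull L K S := by
  obtain ⟨y, hy, rfl⟩ := hc
  exact ⟨σ • y, smul_mem_smoothSubgroup σ hy, rfl⟩

/-- `G` acts on `C_S'`. -/
instance csFullAction : MulDistribMulAction G (CSFull L K S) where
  smul σ c := ⟨σ • c.1, smul_mem_CSFull σ c.2⟩
  one_smul c := Subtype.ext (one_smul G c.1)
  mul_smul σ ρ c := Subtype.ext (mul_smul σ ρ c.1)
  smul_mul σ c d := Subtype.ext (smul_mul' σ c.1 d.1)
  smul_one σ := Subtype.ext (smul_one σ)

@[simp]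
theorem csFull_smul_coe (σ : G) (c : CSFull L K S) :
    ((σ • c : CSFull L K S) : ideleClassS K S) = σ • (c : ideleClassS K S) := rfl

variable (L K S)

/-- `C_S'` as a representation. -/
def csFullRep : Rep ℤ G := Rep.ofMulDistribMulAction G (CSFull L K S)

theorem isSmooth_csFullRep : IsSmooth L (csFullRep L K S) :=
  isSmooth_ofMul_of_forall L fun c => by
    obtain ⟨y, ⟨N, hN, hfix⟩, hy⟩ := c.2
    refine ⟨N, hN, fun g hg => Subtype.ext ?_⟩
    rw [csFull_smul_coe, ← hy]
    show (QuotientGroup.mk (g • y) : ideleClassS K S) = QuotientGroup.mk y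
    rw [hfix g hg]

/-- The projection `J' → C_S'` on the level of groups. -/
def jFullToCsFullFun : JFull L K →* CSFull L K S where
  toFun y := ⟨QuotientGroup.mk y.1, ⟨y.1, y.2, rfl⟩⟩
  map_one' := Subtype.ext rfl
  map_mul' _ _ := Subtype.ext rfl

theorem jFullToCsFullFun_surjective : Function.Surjective (jFullToCsFullFun L K S) := by
  rintro ⟨c, y, hy, rfl⟩
  exact ⟨⟨y, hy⟩, rfl⟩

/-- The projection `J' ⟶ C_S'`. -/
def jFullToCsFull : jFullRep L K ⟶ csFullRep L K S :=
  mulRepHom (jFullToCsFullFun L K S) fun _ _ => rfl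

theorem jFullToCsFull_surjective : Function.Surjective (jFullToCsFull L K S).hom := by
  intro c
  obtain ⟨y, hy⟩ := jFullToCsFullFun_surjective L K S (Additive.toMul c)
  exact ⟨Additive.ofMul y, congrArg Additive.ofMul hy⟩

end Full

section Extend

variable {G : Type} [Group G] (L : LevelStructure G) (K : Type) [Field K]
  [MulSemiringAction G K] (S : Set Nat.Primes)

open Classical in
/-- Extension by `1` of a family of semi-local units indexed by `S` to all primes. -/
def extendByOne : SIdeleProd K S →* IdeleProd K where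
  toFun x q := if h : q ∈ S then x ⟨q, h⟩ else 1
  map_one' := by
    funext q
    by_cases h : q ∈ S
    · simp only [dif_pos h]; rfl
    · simp only [dif_neg h]; rfl
  map_mul' x y := by
    funext q
    by_cases h : q ∈ S
    · simp only [dif_pos h, Pi.mul_apply]
    · simp only [dif_neg h, Pi.mul_apply, mul_one]

variable {K S}

theorem extendByOne_of_mem (x : SIdeleProd K S) {q : Nat.Primes} (h : q ∈ S) :
    extendByOne K S x q = x ⟨q, h⟩ := by
  classical
  exact dif_pos h

theorem extendByOne_of_notMem (x : SIdeleProd K S) {q : Nat.Primes} (h : q ∉ S) :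
    extendByOne K S x q = 1 := by
  classical
  exact dif_neg h

theorem extendByOne_injective : Function.Injective (extendByOne K S) := by
  intro x y hxy
  funext q
  have := congrFun hxy q.1
  rwa [extendByOne_of_mem x q.2, extendByOne_of_mem y q.2] at this

theorem extendByOne_mem_ideleGroup (hS : S.Finite) (x : SIdeleProd K S) :
    extendByOne K S x ∈ ideleGroup K := by
  rw [mem_ideleGroup_iff_finite]
  refine hS.subset fun q hq => ?_
  by_contra hqS
  apply hq
  rw [extendByOne_of_notMem x hqS]
  exact one_mem _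

theorem smul_extendByOne (σ : G) (x : SIdeleProd K S) (q : Nat.Primes) :
    σ • extendByOne K S x q = extendByOne K S (σ • x) q := by
  by_cases h : q ∈ S
  · rw [extendByOne_of_mem x h, extendByOne_of_mem (σ • x) h]
    rfl
  · rw [extendByOne_of_notMem x h, extendByOne_of_notMem (σ • x) h, smul_one]

variable (K S)

/-- Extension by `1`, with values in the idele group (`S` finite). -/
def extendIdele (hS : S.Finite) : SIdeleProd K S →* ideleGroup K where
  toFun x := ⟨extendByOne K S x, extendByOne_mem_ideleGroup hS x⟩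
  map_one' := Subtype.ext (map_one _)
  map_mul' x y := Subtype.ext (map_mul _ x y)

variable {K S}

@[simp]
theorem extendIdele_coe (hS : S.Finite) (x : SIdeleProd K S) :
    ((extendIdele K S hS x : ideleGroup K) : IdeleProd K) = extendByOne K S x := rfl

theorem smul_extendIdele (hS : S.Finite) (σ : G) (x : SIdeleProd K S) :
    σ • extendIdele K S hS x = extendIdele K S hS (σ • x) := by
  apply Subtype.ext
  funext q
  exact smul_extendByOne σ x q

theorem extendIdele_injective (hS : S.Finite) : Function.Injective (extendIdele K S hS) :=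
  fun _ _ h => extendByOne_injective (congrArg Subtype.val h)

theorem extendIdele_mem_JFull (hS : S.Finite) {x : SIdeleProd K S} (hx : x ∈ JS L K S) :
    extendIdele K S hS x ∈ JFull L K := by
  obtain ⟨N, hN, hfix⟩ := hx
  exact ⟨N, hN, fun g hg => by rw [smul_extendIdele, hfix g hg]⟩

variable (K S)

/-- **`J_S → J'`**: extension by `1` of a smooth `S`-idele. -/
def jsToJFull (hS : S.Finite) : JS L K S →* JFull L K where
  toFun x := ⟨extendIdele K S hS x.1, extendIdele_mem_JFull L hS x.2⟩
  map_one' := Subtype.ext (map_one _)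
  map_mul' x y := Subtype.ext (map_mul _ x.1 y.1)

variable {K S}

@[simp]
theorem jsToJFull_coe (hS : S.Finite) (x : JS L K S) :
    ((jsToJFull L K S hS x : JFull L K) : ideleGroup K) = extendIdele K S hS x.1 := rfl

theorem jsToJFull_smul (hS : S.Finite) (σ : G) (x : JS L K S) :
    jsToJFull L K S hS (σ • x) = σ • jsToJFull L K S hS x :=
  Subtype.ext (smul_extendIdele hS σ x.1).symm

theorem jsToJFull_injective (hS : S.Finite) : Function.Injective (jsToJFull L K S hS) :=
  fun _ _ h => Subtype.ext (extendIdele_injective hS (congrArg Subtype.val h))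

variable (K S)

/-- `J_S ⟶ J'` as a morphism of representations. -/
def jsToJFullHom (hS : S.Finite) : jsRep L K S ⟶ jFullRep L K :=
  mulRepHom (jsToJFull L K S hS) (jsToJFull_smul L hS)

end Extend

section Compare

variable {G : Type} [Group G] (L : LevelStructure G) (K : Type) [Field K]
  [MulSemiringAction G K] (S : Set Nat.Primes)

variable {K S}

/-- The extension by `1` of a principal `S`-idele of an `S`-unit is a principal idele times a unit
idele outside `S`. -/
theorem extendByOne_sDiag_mem {e : Kˣ}
    (he : ∀ q : Nat.Primes, q ∉ S →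
      (semiLocalDiag e : semiLocalUnits (q : ℕ) K) ∈ semiLocalIntegral (q : ℕ) K) :
    extendByOne K S (sDiag K S e) ∈ (principalIdele K).range ⊔ unitIdelesOutside K S := by
  classical
  refine Subgroup.mem_sup.2 ⟨principalIdele K e, ⟨e, rfl⟩,
    fun q => if q ∈ S then 1 else (semiLocalDiag e)⁻¹, ⟨fun q hq => ?_, fun q hq => ?_⟩, ?_⟩
  · simp only [if_neg hq]
    exact inv_mem (he q hq)
  · simp only [if_pos hq]
  · funext q
    by_cases hq : q ∈ S
    · rw [extendByOne_of_mem _ hq, Pi.mul_apply]
      simp only [if_pos hq, mul_one]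
      rfl
    · rw [extendByOne_of_notMem _ hq, Pi.mul_apply]
      simp only [if_neg hq, principalIdele_apply, mul_inv_cancel]

variable (K S)

/-- The composite `J_S → J' → C_S'`. -/
def jsToCsFullFun (hS : S.Finite) : JS L K S →* CSFull L K S :=
  (jFullToCsFullFun L K S).comp (jsToJFull L K S hS)

variable {K S}

theorem range_esToJs_le_ker (hS : S.Finite) :
    (esToJs L K S).range ≤ (jsToCsFullFun L K S hS).ker := by
  rintro _ ⟨e, rfl⟩
  rw [MonoidHom.mem_ker]
  apply Subtype.ext
  show (QuotientGroup.mk (extendIdele K S hS (sDiag K S e.1)) : ideleClassS K S) = 1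
  rw [QuotientGroup.eq_one_iff]
  show extendByOne K S (sDiag K S e.1) ∈ (principalIdele K).range ⊔ unitIdelesOutside K S
  exact extendByOne_sDiag_mem e.2.2

variable (K S)

/-- **`C_S → C_S'`**. -/
def csToCsFull (hS : S.Finite) : CS L K S →* CSFull L K S :=
  QuotientGroup.lift _ (jsToCsFullFun L K S hS) (range_esToJs_le_ker L hS)

variable {K S}

@[simp]
theorem csToCsFull_mk (hS : S.Finite) (x : JS L K S) :
    csToCsFull L K S hS (QuotientGroup.mk x) = jsToCsFullFun L K S hS x := rfl

theorem csToCsFull_smul (hS : S.Finite) (σ : G) (c : CS L K S) :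
    csToCsFull L K S hS (σ • c) = σ • csToCsFull L K S hS c := by
  induction c using QuotientGroup.induction_on with
  | H x =>
    rw [cs_smul_mk, csToCsFull_mk, csToCsFull_mk]
    show jFullToCsFullFun L K S (jsToJFull L K S hS (σ • x)) = _
    rw [jsToJFull_smul]
    rfl

variable (K S)

/-- `C_S ⟶ C_S'` as a morphism of representations. -/
def csToCsFullHom (hS : S.Finite) : csRep L K S ⟶ csFullRep L K S :=
  mulRepHom (csToCsFull L K S hS) (csToCsFull_smul L hS)

/-- The square `J_S → C_S → C_S'` = `J_S → J' → C_S'` commutes. -/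
theorem jsToCs_comp_csToCsFull (hS : S.Finite) :
    jsToCsHom L K S ≫ csToCsFullHom L K S hS = jsToJFullHom L K S hS ≫ jFullToCsFull L K S := by
  ext x
  rfl

variable {K S}

/-- **(T1)** `C_S → C_S'` is injective. -/
theorem csToCsFull_injective (hS : S.Finite)
    (hne : ∃ q : S, Nonempty (LocalEmb ((q : Nat.Primes) : ℕ) K)) :
    Function.Injective (csToCsFull L K S hS) := by
  rw [injective_iff_map_eq_one]
  intro c hc
  induction c using QuotientGroup.induction_on with
  | H x =>
    rw [csToCsFull_mk] at hc
    have h1 : (QuotientGroup.mk (extendIdele K S hS x.1) : ideleClassS K S) = 1 :=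
      congrArg Subtype.val hc
    rw [QuotientGroup.eq_one_iff] at h1
    have h2 : extendByOne K S x.1 ∈ (principalIdele K).range ⊔ unitIdelesOutside K S := h1
    obtain ⟨_, ⟨a, rfl⟩, u, hu, hau⟩ := Subgroup.mem_sup.1 h2
    -- components
    have hS' : ∀ q : S, semiLocalDiag a = x.1 q := by
      intro q
      have := congrFun hau q.1
      rw [extendByOne_of_mem _ q.2, Pi.mul_apply, hu.2 q.1 q.2, mul_one] at this
      exact this
    have hout : ∀ q : Nat.Primes, q ∉ S →
        (semiLocalDiag a : semiLocalUnits (q : ℕ) K) ∈ semiLocalIntegral (q : ℕ) K := by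
      intro q hq
      have := congrFun hau q
      rw [extendByOne_of_notMem _ hq, Pi.mul_apply, principalIdele_apply] at this
      have h3 : (semiLocalDiag a : semiLocalUnits (q : ℕ) K) = (u q)⁻¹ :=
        eq_inv_of_mul_eq_one_left this
      rw [h3]
      exact inv_mem (hu.1 q hq)
    -- smoothness of `a`
    have hsm : a ∈ smoothUnits L K := by
      obtain ⟨N, hN, hfix⟩ := x.2
      obtain ⟨q₀, ⟨τ₀⟩⟩ := hne
      refine ⟨N, hN, fun g hg => ?_⟩
      have h4 : g • x.1 q₀ = x.1 q₀ := congrFun (hfix g hg) q₀
      rw [← hS' q₀, smul_semiLocalDiag] at h4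
      have h5 := congrArg (fun f : semiLocalUnits ((q₀ : Nat.Primes) : ℕ) K =>
        (((f : LocalEmb ((q₀ : Nat.Primes) : ℕ) K → (PadicAlgCl ((q₀ : Nat.Primes) : ℕ))ˣ) τ₀ :
          (PadicAlgCl ((q₀ : Nat.Primes) : ℕ))ˣ) : PadicAlgCl ((q₀ : Nat.Primes) : ℕ))) h4
      simp only [semiLocalDiag_apply] at h5
      exact Units.ext (τ₀.injective h5)
    refine (QuotientGroup.eq_one_iff _).2 ⟨⟨a, hsm, hout⟩, ?_⟩
    apply Subtype.ext
    funext q
    exact hS' q

theorem csToCsFullHom_injective (hS : S.Finite)
    (hne : ∃ q : S, Nonempty (LocalEmb ((q : Nat.Primes) : ℕ) K)) :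
    Function.Injective (csToCsFullHom L K S hS).hom := by
  intro x y hxy
  exact congrArg Additive.ofMul (csToCsFull_injective L hS hne (congrArg Additive.toMul hxy))

end Compare

end Fermat.Agent.CFT
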