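import Fermat.Agent.CFT.Global.ChevalleyIndex
import Fermat.Agent.CFT.Global.BoxIndex

/-!
# Layer C, node C3A: the Chevalley–Tate index computation for box subgroups of a product

`J` is a subgroup of a product `∏_v A v` of abelian groups (the ideles inside the full product of
the local or semi-local multiplicative groups), `P`, `N` subgroups of `J` (principal ideles, norm
group), and `JS`, `JST`, `D`, `E` are given by families of local subgroups which agree outside a
finite set `F` of indices.  The indices `[J_S : D]`, `[J_{S∪T} : E]` are then products of local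
indices, and the structural hypotheses of `index_sup_dvd_of_chevalley` become local.
-/

set_option autoImplicit false

namespace Fermat.Agent.CFT

open Subgroup

variable {V : Type*} {A : V → Type*} [∀ v, CommGroup (A v)]

/-- **Chevalley–Tate index computation, product form.** -/
theorem index_sup_dvd_of_chevalley_box (p t : ℕ) (hp : 0 < p) (J : Subgroup (∀ v, A v))
    (P N : Subgroup J) (JS JST D E : ∀ v, Subgroup (A v)) (F : Finset V) (a : J)
    (hJSTJ : box JST ≤ J)
    (hJS : ∀ v, JS v ≤ JST v) (hD : ∀ v, D v ≤ JS v) (hE : ∀ v, E v ≤ JST v)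
    (hFD : ∀ v, v ∉ F → JS v ≤ D v) (hFE : ∀ v, v ∉ F → JST v ≤ E v)
    (hlocD : ∏ v ∈ F, (D v).relIndex (JS v) = p ^ t)
    (hlocE : ∏ v ∈ F, (E v).relIndex (JST v) = p ^ (2 * t + 2))
    (hpow : ∀ v, ∀ y ∈ JST v, y ^ p ∈ E v)
    (htf : ∀ v, ∀ y : A v, y ^ p ∈ JST v → y ∈ JST v)
    (hJ : P ⊔ (box JS).subgroupOf J = ⊤)
    (ha : a ∈ P ⊓ (box JS).subgroupOf J)
    (hker : ∀ x ∈ P ⊓ (box D).subgroupOf J,
      ∃ (k : ℤ) (y : J), y ∈ P ⊓ (box JS).subgroupOf J ∧ x = a ^ k * y ^ p)
    (hKS : (powSubgroup (P ⊓ (box JS).subgroupOf J) p).relIndex (P ⊓ (box JS).subgroupOf J) =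
      p ^ (t + 1))
    (hKST : (powSubgroup (P ⊓ (box JST).subgroupOf J) p).relIndex
      (P ⊓ (box JST).subgroupOf J) = p ^ (2 * t + 1))
    (hFI : ∀ x ∈ P ⊓ (box E).subgroupOf J, (¬ ∃ y ∈ P, y ^ p = x) →
      ∃ Nx : Subgroup J, (box D).subgroupOf J ≤ Nx ∧ P ⊔ Nx ≠ ⊤)
    (hEN : (box E).subgroupOf J ≤ N) :
    (P ⊔ N).index ∣ p := by
  have hJSJ : box JS ≤ J := le_trans (box_mono hJS) hJSTJ
  refine index_sup_dvd_of_chevalley p t hp P N ((box JS).subgroupOf J) ((box JST).subgroupOf J)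
    ((box D).subgroupOf J) ((box E).subgroupOf J) a hJ ?_ ?_ ?_ ?_ ha hker hKS ?_ hKST ?_ ?_ hFI hEN
  · exact fun x hx => box_mono hJS hx
  · exact fun x hx => box_mono hD hx
  · exact fun x hx => box_mono hE hx
  · rw [relIndex_subgroupOf hJSJ, relIndex_box D JS F hFD, hlocD]
  · rw [relIndex_subgroupOf hJSTJ, relIndex_box E JST F hFE, hlocE]
  · intro y hy
    rw [mem_subgroupOf, mem_box] at hy ⊢
    intro v
    exact hpow v _ (hy v)
  · intro y _ hy
    rw [mem_subgroupOf, mem_box] at hy ⊢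
    intro v
    exact htf v _ (hy v)

end Fermat.Agent.CFT
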